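/-
T3 / S36, package [T3-K0ARITH] part 1 (helper84): arithmetic of `K0 = ℚ̄^{I_A}` in valuation form.

`A` is a valuation subring of `ℚ̄` over the prime `q`, `I = A.inertiaSubgroupIn ℚ`.

* `k0_root_of_unity_eq_one` : an `n`-th root of unity (`q ∤ n`) congruent to `1` is `1`;
* `k0_root` (ROOT)  : `n`-th roots (`q ∤ n`) of `I`-fixed units of `A` are `I`-fixed;
* `k0_frob_pow`     : iterated Frobenius congruence `φ^f a ≡ a^(q^f)`;
* `k0_res` (RES)    : every element of `A` is congruent to an `I`-fixed element of `A`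
                      (`0` or a root of unity of order prime to `q`).
-/
import Mathlib
import Fermat.Agent.S14.helper91_Dictionary

set_option autoImplicit false

namespace Fermat.Agent.T3.helper84

open Fermat.Agent.S54.helper91 Fermat.Agent.S14.helper91 Polynomial

/-- A natural number prime to `q` is a unit of `A`. -/
theorem k0_natCast_unit {q : ℕ} (hq : q.Prime) (A : ValuationSubring (AlgebraicClosure ℚ))
    (hA : A.LiesOverPrime q) {n : ℕ} (hn : ¬ q ∣ n) :
    A.valuation ((n : ℕ) : AlgebraicClosure ℚ) = 1 := by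
  have h := valuation_intCast_eq_one A hq hA (c := (n : ℤ)) (by exact_mod_cast hn)
  simpa using h

/-- An element whose `n`-th power (`n ≠ 0`) has valuation one has valuation one. -/
theorem k0_valuation_eq_one_of_pow (A : ValuationSubring (AlgebraicClosure ℚ)) {n : ℕ}
    (hn : n ≠ 0) {w : AlgebraicClosure ℚ} (hw : A.valuation (w ^ n) = 1) :
    A.valuation w = 1 := by
  rw [map_pow] at hw
  exact (pow_eq_one_iff_of_nonneg zero_le hn).mp hw

/-- An `n`-th root of unity, `q ∤ n`, which is congruent to `1` modulo the maximal ideal of `A`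
is equal to `1`. -/
theorem k0_root_of_unity_eq_one {q : ℕ} (hq : q.Prime) (A : ValuationSubring (AlgebraicClosure ℚ))
    (hA : A.LiesOverPrime q) {n : ℕ} (hn : ¬ q ∣ n) {ζ : AlgebraicClosure ℚ} (hζ : ζ ^ n = 1)
    (h1 : A.valuation (ζ - 1) < 1) : ζ = 1 := by
  by_contra hne
  have hn0 : n ≠ 0 := fun h => hn (h ▸ dvd_zero q)
  have hvζ : A.valuation ζ = 1 := k0_valuation_eq_one_of_pow A hn0 (by rw [hζ, map_one])
  -- the geometric sum vanishes
  have hgeom : (∑ i ∈ Finset.range n, ζ ^ i) * (ζ - 1) = 0 := by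
    rw [geom_sum_mul, hζ, sub_self]
  have hsum : ∑ i ∈ Finset.range n, ζ ^ i = 0 := by
    rcases mul_eq_zero.mp hgeom with h | h
    · exact h
    · exact absurd (sub_eq_zero.mp h) hne
  -- `n = ∑ (1 - ζ ^ i)`
  have hnsum : ((n : ℕ) : AlgebraicClosure ℚ) = ∑ i ∈ Finset.range n, (1 - ζ ^ i) := by
    rw [Finset.sum_sub_distrib, hsum, sub_zero]
    simp
  have hterm : ∀ i ∈ Finset.range n, A.valuation (1 - ζ ^ i) < 1 := by
    intro i _
    have h2 : 1 - ζ ^ i = -((∑ j ∈ Finset.range i, ζ ^ j) * (ζ - 1)) := by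
      rw [geom_sum_mul]; ring
    rw [h2, Valuation.map_neg, map_mul]
    have h3 : A.valuation (∑ j ∈ Finset.range i, ζ ^ j) ≤ 1 := by
      refine Valuation.map_sum_le _ (fun j _ => ?_)
      rw [map_pow, hvζ, one_pow]
    calc A.valuation (∑ j ∈ Finset.range i, ζ ^ j) * A.valuation (ζ - 1)
        ≤ 1 * A.valuation (ζ - 1) := by gcongr
      _ = A.valuation (ζ - 1) := one_mul _
      _ < 1 := h1
  have hlt : A.valuation ((n : ℕ) : AlgebraicClosure ℚ) < 1 := by
    rw [hnsum]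
    exact Valuation.map_sum_lt _ one_ne_zero hterm
  rw [k0_natCast_unit hq A hA hn] at hlt
  exact lt_irrefl _ hlt

/-- **(ROOT)**: `n`-th roots, `q ∤ n`, of inertia-fixed units of `A` are inertia-fixed. -/
theorem k0_root {q : ℕ} (hq : q.Prime) (A : ValuationSubring (AlgebraicClosure ℚ))
    (hA : A.LiesOverPrime q) {n : ℕ} (hn : ¬ q ∣ n) {u w : AlgebraicClosure ℚ}
    (hu : A.valuation u = 1) (hfix : ∀ σ ∈ A.inertiaSubgroupIn ℚ, σ u = u) (hw : w ^ n = u) :
    ∀ σ ∈ A.inertiaSubgroupIn ℚ, σ w = w := by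
  intro σ hσ
  have hn0 : n ≠ 0 := fun h => hn (h ▸ dvd_zero q)
  have hvw : A.valuation w = 1 := k0_valuation_eq_one_of_pow A hn0 (by rw [hw, hu])
  have hw0 : w ≠ 0 := by
    rintro rfl
    rw [map_zero] at hvw
    exact zero_ne_one hvw
  obtain ⟨-, hσI⟩ := (mem_inertiaSubgroupIn_iff_valuation A σ).mp hσ
  have hwA : w ∈ A := (A.valuation_le_one_iff w).mp hvw.le
  have h1 : A.valuation (σ w - w) < 1 := hσI w hwA
  have hζ : (σ w / w) ^ n = 1 := by
    rw [div_pow, ← map_pow, hw, hfix σ hσ, div_self]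
    rw [← hw]
    exact pow_ne_zero _ hw0
  have h2 : A.valuation (σ w / w - 1) < 1 := by
    have : σ w / w - 1 = (σ w - w) / w := by field_simp
    rw [this, map_div₀, hvw, div_one]
    exact h1
  have h3 := k0_root_of_unity_eq_one hq A hA hn hζ h2
  rw [div_eq_one_iff_eq hw0] at h3
  exact h3

/-- Iterated Frobenius congruence: `φ^f a ≡ a^(q^f)` modulo the maximal ideal of `A`. -/
theorem k0_frob_pow {q : ℕ} (A : ValuationSubring (AlgebraicClosure ℚ))
    {φ : AlgebraicClosure ℚ ≃ₐ[ℚ] AlgebraicClosure ℚ} (hφ : A.IsFrobeniusAt φ q)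
    {a : AlgebraicClosure ℚ} (ha : a ∈ A) (f : ℕ) :
    A.valuation ((φ ^ f) a - a ^ (q ^ f)) < 1 := by
  induction f with
  | zero => simp
  | succ f ih =>
    have hD : φ ∈ A.decompositionSubgroup ℚ := hφ.mem_decompositionSubgroup
    have h1 : (φ ^ (f + 1)) a - a ^ (q ^ (f + 1)) =
        φ ((φ ^ f) a - a ^ (q ^ f)) + (φ (a ^ (q ^ f)) - (a ^ (q ^ f)) ^ q) := by
      rw [pow_succ' φ f, AlgEquiv.mul_apply, map_sub, pow_succ q f, pow_mul]
      ring
    rw [h1]
    refine Valuation.map_add_lt _ ?_ ?_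
    · exact (valuation_apply_lt_one_iff_of_mem_dec A hD _).mpr ih
    · exact IsFrobeniusAt_valuation_lt_one A hφ (pow_mem ha _)

/-- Every element of `ℚ̄` is fixed by a positive power of any automorphism. -/
theorem k0_exists_pow_fix (φ : AlgebraicClosure ℚ ≃ₐ[ℚ] AlgebraicClosure ℚ)
    (x : AlgebraicClosure ℚ) : ∃ f : ℕ, 0 < f ∧ (φ ^ f) x = x := by
  have hfin : ((minpoly ℚ x).rootSet (AlgebraicClosure ℚ)).Finite :=
    Polynomial.rootSet_finite _ _
  have hmem : ∀ i : ℕ, (φ ^ i) x ∈ (minpoly ℚ x).rootSet (AlgebraicClosure ℚ) := by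
    intro i
    have hx : IsIntegral ℚ x := (isAlgebraic_Qbar.isAlgebraic x).isIntegral
    rw [Polynomial.mem_rootSet_of_ne (minpoly.ne_zero hx)]
    have : Polynomial.aeval ((φ ^ i) x) (minpoly ℚ x) =
        (φ ^ i) (Polynomial.aeval x (minpoly ℚ x)) :=
      Polynomial.aeval_algHom_apply ((φ ^ i).toAlgHom) x (minpoly ℚ x)
    rw [this, minpoly.aeval, map_zero]
  obtain ⟨i, j, hij, h⟩ := hfin.exists_lt_map_eq_of_forall_mem hmem
  refine ⟨j - i, Nat.sub_pos_of_lt hij, ?_⟩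
  have h2 : (φ ^ i) ((φ ^ (j - i)) x) = (φ ^ i) x := by
    rw [← AlgEquiv.mul_apply, ← pow_add, Nat.add_sub_cancel' hij.le]
    exact h.symm
  exact (φ ^ i).injective h2

/-- **(RES)**: every element of `A` is congruent modulo the maximal ideal to an inertia-fixed
element `b` of `A`; moreover `b = 0` or `b` is a root of unity of order prime to `q`. -/
theorem k0_res_aux {q : ℕ} (hq : q.Prime) (A : ValuationSubring (AlgebraicClosure ℚ))
    (hA : A.LiesOverPrime q) {a : AlgebraicClosure ℚ} (ha : a ∈ A) :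
    ∃ b : AlgebraicClosure ℚ, (b = 0 ∨ ∃ N : ℕ, ¬ q ∣ N ∧ b ^ N = 1) ∧
      A.valuation (a - b) < 1 := by
  obtain ⟨φ, hφ⟩ := exists_isFrobeniusAt_of_liesOver A hq hA
  obtain ⟨f, hf, hfix⟩ := k0_exists_pow_fix φ a
  have h1 := k0_frob_pow A hφ ha f
  rw [hfix] at h1
  by_cases hva : A.valuation a < 1
  · exact ⟨0, Or.inl rfl, by simpa using hva⟩
  have hva1 : A.valuation a = 1 :=
    le_antisymm ((A.valuation_le_one_iff a).mpr ha) (not_lt.mp hva)
  have hqf : 1 ≤ q ^ f := Nat.one_le_pow _ _ hq.pos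
  set N : ℕ := q ^ f - 1 with hN
  have hNq : ¬ q ∣ N := by
    intro hdvd
    have h2 : q ∣ q ^ f := dvd_pow_self q hf.ne'
    have h3 : q ∣ q ^ f - N := Nat.dvd_sub h2 hdvd
    have h4 : q ^ f - N = 1 := by omega
    rw [h4] at h3
    exact hq.one_lt.ne' (Nat.dvd_one.mp h3)
  have hN0 : N ≠ 0 := fun h => hNq (h ▸ dvd_zero q)
  -- `a ^ N ≡ 1`
  have h5 : A.valuation (a ^ N - 1) < 1 := by
    have h6 : a - a ^ (q ^ f) = -(a * (a ^ N - 1)) := by
      have : q ^ f = N + 1 := by omega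
      rw [this, pow_succ]; ring
    rw [h6, Valuation.map_neg, map_mul, hva1, one_mul] at h1
    exact h1
  -- factor `X ^ N - 1`
  have : NeZero N := ⟨hN0⟩
  have : NeZero ((N : ℕ) : AlgebraicClosure ℚ) := ⟨Nat.cast_ne_zero.mpr hN0⟩
  obtain ⟨ζ, hζ⟩ := HasEnoughRootsOfUnity.exists_primitiveRoot (AlgebraicClosure ℚ) N
  have hprod := Polynomial.X_pow_sub_one_eq_prod (Nat.pos_of_ne_zero hN0) hζ
  have heval : a ^ N - 1 =
      ∏ ξ ∈ Polynomial.nthRootsFinset N (1 : AlgebraicClosure ℚ), (a - ξ) := by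
    have := congrArg (Polynomial.eval a) hprod
    simpa [Polynomial.eval_prod] using this
  rw [heval, map_prod] at h5
  have hex : ∃ ξ ∈ Polynomial.nthRootsFinset N (1 : AlgebraicClosure ℚ),
      A.valuation (a - ξ) < 1 := by
    by_contra hcon
    push Not at hcon
    have hall : ∀ ξ ∈ Polynomial.nthRootsFinset N (1 : AlgebraicClosure ℚ),
        A.valuation (a - ξ) = 1 := by
      intro ξ hξ
      refine le_antisymm ?_ (hcon ξ hξ)
      have hξ1 : ξ ^ N = 1 := (Polynomial.mem_nthRootsFinset (Nat.pos_of_ne_zero hN0) 1).mp hξ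
      have hvξ : A.valuation ξ = 1 := k0_valuation_eq_one_of_pow A hN0 (by rw [hξ1, map_one])
      exact (A.valuation_le_one_iff _).mpr
        (A.sub_mem ha ((A.valuation_le_one_iff ξ).mp hvξ.le))
    rw [Finset.prod_congr rfl hall, Finset.prod_const_one] at h5
    exact lt_irrefl _ h5
  obtain ⟨ξ, hξ, hlt⟩ := hex
  exact ⟨ξ, Or.inr ⟨N, hNq, (Polynomial.mem_nthRootsFinset (Nat.pos_of_ne_zero hN0) 1).mp hξ⟩,
    hlt⟩

/-- **(RES)**: every element of `A` is congruent modulo the maximal ideal to an inertia-fixed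
element of `A`. -/
theorem k0_res {q : ℕ} (hq : q.Prime) (A : ValuationSubring (AlgebraicClosure ℚ))
    (hA : A.LiesOverPrime q) {a : AlgebraicClosure ℚ} (ha : a ∈ A) :
    ∃ b ∈ A, (∀ σ ∈ A.inertiaSubgroupIn ℚ, σ b = b) ∧ A.valuation (a - b) < 1 := by
  obtain ⟨b, hb, hlt⟩ := k0_res_aux hq A hA ha
  rcases hb with rfl | ⟨N, hN, hbN⟩
  · exact ⟨0, A.zero_mem, fun σ _ => map_zero σ, hlt⟩
  · have hN0 : N ≠ 0 := fun h => hN (h ▸ dvd_zero q)
    have hvb : A.valuation b = 1 := k0_valuation_eq_one_of_pow A hN0 (by rw [hbN, map_one])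
    refine ⟨b, (A.valuation_le_one_iff b).mp hvb.le, ?_, hlt⟩
    exact k0_root hq A hA hN (u := 1) (map_one _) (fun σ _ => map_one σ) hbN

end Fermat.Agent.T3.helper84
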