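/-
T3 / S36, package [T3-K0ARITH] part 2 (helper84): the value group of `K0 = ℚ̄^{I_A}` is `ℤ`.

`A` is a valuation subring of `ℚ̄` over the prime `q`, `I = A.inertiaSubgroupIn ℚ`.

* `k0_ramificationIdx_fixed` : (number fields, `L/K` Galois) the prime below `P` in the inertia
                               field of `P` has ramification index one over `K`;
* `k0_disc_abstract`         : (number fields) an element fixed by the inertia group of `P` is
                               `y * a / b` with `y ∈ K` and `a, b` integers outside `P`;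
* `k0_disc_over` (DISC-REL)  : if `x ≠ 0` is fixed by `I ∩ Gal(ℚ̄/K₀)`, `K₀` a number field, then
                               `v_A(x) = v_A(y)` for some `y ∈ K₀`;
* `k0_disc` (DISC)           : if `x ≠ 0` is fixed by `I` then `v_A(x) = v_A(q ^ m)`, `m : ℤ`.
-/
import Mathlib
import Fermat.Agent.S14.helper91_Dictionary

set_option autoImplicit false
set_option linter.unusedSectionVars false
set_option linter.style.haveILetI false

open scoped NumberField Pointwise
open IsDedekindDomain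

namespace Fermat.Agent.T3.helper84

section Abstract

variable {K L : Type*} [Field K] [NumberField K] [Field L] [NumberField L] [Algebra K L]

/-- For an extension of number fields and a nonzero prime `P₁` of the upper field which is
unramified over the lower field, every nonzero `x` upstairs is `y * n / d` with `y` downstairs and
`n, d` integers outside `P₁`. -/
theorem k0_unram_fraction (P₁ : Ideal (𝓞 L)) [P₁.IsPrime] (hP : P₁ ≠ ⊥)
    (he : P₁.ramificationIdx (𝓞 K) = 1) {x : L} (hx : x ≠ 0) :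
    ∃ (y : K) (n d : 𝓞 L), y ≠ 0 ∧ n ∉ P₁ ∧ d ∉ P₁ ∧
      x * algebraMap (𝓞 L) L d = algebraMap K L y * algebraMap (𝓞 L) L n := by
  have hp : P₁.under (𝓞 K) ≠ ⊥ := Ideal.under_ne_bot (𝓞 K) hP
  let w : HeightOneSpectrum (𝓞 L) := ⟨P₁, inferInstance, hP⟩
  let v : HeightOneSpectrum (𝓞 K) := ⟨P₁.under (𝓞 K), inferInstance, hp⟩
  have hlo : w.asIdeal.LiesOver v.asIdeal := (inferInstance : P₁.LiesOver (P₁.under (𝓞 K)))
  have he' : v.asIdeal.ramificationIdx' w.asIdeal = 1 := by
    rw [Ideal.ramificationIdx'_eq_ramificationIdx _ _ hp]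
    exact he
  have hval : ∀ y : K, v.valuation K y = w.valuation L (algebraMap K L y) := by
    intro y
    have := HeightOneSpectrum.valuation_liesOver L v w y
    rw [he', pow_one] at this
    exact this
  obtain ⟨y, hy⟩ := v.valuation_surjective K (w.valuation L x)
  have hwx : w.valuation L x ≠ 0 := (Valuation.ne_zero_iff _).mpr hx
  have hy0 : y ≠ 0 := by
    rintro rfl
    rw [map_zero] at hy
    exact hwx hy.symm
  have hyL : algebraMap K L y ≠ 0 := (map_ne_zero _).mpr hy0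
  have hz : w.valuation L (x / algebraMap K L y) = 1 := by
    rw [map_div₀, ← hval, hy, div_self hwx]
  obtain ⟨n, d, hnd⟩ := w.exists_primeCompl_mul_eq_of_integer (x / algebraMap K L y) hz.le
  have hd : (d : 𝓞 L) ∉ P₁ := d.2
  have hvd : w.valuation L (algebraMap (𝓞 L) L d) = 1 :=
    (HeightOneSpectrum.valuation_eq_one_iff_notMem w).mpr hd
  have hvn : w.valuation L (algebraMap (𝓞 L) L n) = 1 := by
    rw [← hnd, map_mul, hz, hvd, one_mul]
  have hn : n ∉ P₁ := (HeightOneSpectrum.valuation_eq_one_iff_notMem w).mp hvn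
  refine ⟨y, n, d, hy0, hn, hd, ?_⟩
  have h1 : x / algebraMap K L y * algebraMap (𝓞 L) L d = algebraMap (𝓞 L) L n := hnd
  rw [← h1]
  field_simp

variable [IsGalois K L]

/-- The inertia group of a nonzero prime has as many elements as the ramification index. -/
theorem k0_card_inertia (P : Ideal (𝓞 L)) [P.IsPrime] (hP : P ≠ ⊥) :
    Nat.card (Ideal.inertia Gal(L/K) P) = P.ramificationIdx (𝓞 K) := by
  have hp : P.under (𝓞 K) ≠ ⊥ := Ideal.under_ne_bot (𝓞 K) hP
  have : (P.under (𝓞 K)).IsMaximal := Ring.DimensionLEOne.maximalOfPrime hp inferInstance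
  rw [Ideal.card_inertia_eq_ramificationIdxIn (G := Gal(L/K)) (P.under (𝓞 K)) P,
    Ideal.ramificationIdxIn_eq_ramificationIdx (P.under (𝓞 K)) P Gal(L/K)]

/-- Over the fixed field of the inertia group the inertia group is everything. -/
theorem k0_inertia_top (P : Ideal (𝓞 L)) [P.IsPrime] :
    Ideal.inertia Gal(L/(IntermediateField.fixedField (Ideal.inertia Gal(L/K) P))) P = ⊤ := by
  rw [eq_top_iff]
  intro τ' _
  have h1 : (τ'.restrictScalars K) ∈
      (IntermediateField.fixedField (Ideal.inertia Gal(L/K) P)).fixingSubgroup := by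
    rw [IntermediateField.mem_fixingSubgroup_iff]
    intro z hz
    exact τ'.commutes ⟨z, hz⟩
  rw [IntermediateField.fixingSubgroup_fixedField] at h1
  intro z
  exact h1 z

theorem k0_card_inertia_fixed (P : Ideal (𝓞 L)) [P.IsPrime] :
    Nat.card (Ideal.inertia Gal(L/(IntermediateField.fixedField (Ideal.inertia Gal(L/K) P))) P) =
      Nat.card (Ideal.inertia Gal(L/K) P) := by
  rw [k0_inertia_top, Nat.card_congr (Subgroup.topEquiv).toEquiv,
    ← Nat.card_congr (IntermediateField.fixingSubgroupEquiv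
      (IntermediateField.fixedField (Ideal.inertia Gal(L/K) P))).toEquiv,
    IntermediateField.fixingSubgroup_fixedField]

/-- The prime below `P` in the inertia field is unramified over the base. -/
theorem k0_ramificationIdx_fixed (P : Ideal (𝓞 L)) [P.IsPrime] (hP : P ≠ ⊥) :
    (P.under (𝓞 (IntermediateField.fixedField (Ideal.inertia Gal(L/K) P)))).ramificationIdx
      (𝓞 K) = 1 := by
  set E := IntermediateField.fixedField (Ideal.inertia Gal(L/K) P) with hE
  have h1 := k0_card_inertia (K := K) P hP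
  have h2 := k0_card_inertia (K := E) P hP
  have h3 := k0_card_inertia_fixed (K := K) P
  have h4 : P.ramificationIdx (𝓞 K) =
      (P.under (𝓞 E)).ramificationIdx (𝓞 K) * P.ramificationIdx (𝓞 E) :=
    Ideal.ramificationIdx_tower (P.under (𝓞 E)) P
  have h5 : P.ramificationIdx (𝓞 E) = P.ramificationIdx (𝓞 K) := by
    rw [← h1, ← h2, h3]
  have h6 : P.ramificationIdx (𝓞 K) ≠ 0 := by
    rw [← h1]
    exact Nat.card_pos.ne'
  rw [h5] at h4
  have h7 : (P.under (𝓞 E)).ramificationIdx (𝓞 K) * P.ramificationIdx (𝓞 K) =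
      1 * P.ramificationIdx (𝓞 K) := by rw [one_mul]; exact h4.symm
  exact Nat.eq_of_mul_eq_mul_right (Nat.pos_of_ne_zero h6) h7

/-- **(DISC), number field form**: an element of `L` fixed by the inertia group of `P` in
`Gal(L/K)` is `y * a / b` with `y ∈ K` and `a, b` integers of `L` outside `P`. -/
theorem k0_disc_abstract (P : Ideal (𝓞 L)) [P.IsPrime] (hP : P ≠ ⊥) {x : L} (hx : x ≠ 0)
    (hfix : ∀ τ ∈ Ideal.inertia Gal(L/K) P, τ x = x) :
    ∃ (y : K) (a b : 𝓞 L), y ≠ 0 ∧ a ∉ P ∧ b ∉ P ∧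
      x * algebraMap (𝓞 L) L b = algebraMap K L y * algebraMap (𝓞 L) L a := by
  set E := IntermediateField.fixedField (Ideal.inertia Gal(L/K) P) with hE
  have hxE : x ∈ E := by
    rw [hE, IntermediateField.mem_fixedField_iff]
    exact hfix
  have hP₁ : P.under (𝓞 E) ≠ ⊥ := Ideal.under_ne_bot (𝓞 E) hP
  have hx' : (⟨x, hxE⟩ : E) ≠ 0 := by
    intro h
    exact hx (congrArg Subtype.val h)
  obtain ⟨y, n, d, hy, hn, hd, hnd⟩ := k0_unram_fraction (K := K) (L := E) (P.under (𝓞 E)) hP₁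
    (k0_ramificationIdx_fixed (K := K) P hP) hx'
  refine ⟨y, algebraMap (𝓞 E) (𝓞 L) n, algebraMap (𝓞 E) (𝓞 L) d, hy, ?_, ?_, ?_⟩
  · intro h
    exact hn (Ideal.mem_comap.mpr h)
  · intro h
    exact hd (Ideal.mem_comap.mpr h)
  · have h1 : ∀ z : 𝓞 E, algebraMap (𝓞 L) L (algebraMap (𝓞 E) (𝓞 L) z) =
        algebraMap E L (algebraMap (𝓞 E) E z) := fun z => by
      rw [← IsScalarTower.algebraMap_apply (𝓞 E) (𝓞 L) L,
        ← IsScalarTower.algebraMap_apply (𝓞 E) E L]
    have h2 := congrArg (algebraMap E L) hnd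
    rw [map_mul, map_mul, ← IsScalarTower.algebraMap_apply K E L] at h2
    rw [h1, h1]
    exact h2

end Abstract

open Fermat.Agent.S54.helper91 Fermat.Agent.S14.helper91

section Dict

/-- integers of a subfield outside `primeOf` are units of `A` -/
theorem k0_valuation_eq_one_of_notMem (L₀ : IntermediateField ℚ (AlgebraicClosure ℚ))
    (A : ValuationSubring (AlgebraicClosure ℚ)) {a : 𝓞 L₀} (ha : a ∉ primeOf L₀ A) :
    A.valuation (((a : L₀) : AlgebraicClosure ℚ)) = 1 := by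
  have h1 : ¬ A.valuation (algebraMap L₀ (AlgebraicClosure ℚ) (a : L₀)) < 1 := fun h =>
    ha ((mem_primeOf_iff L₀ A a).mpr h)
  have hint : IsIntegral ℤ (((a : L₀) : AlgebraicClosure ℚ)) := by
    have h2 : IsIntegral ℤ (a : L₀) := a.2
    exact h2.map (IsScalarTower.toAlgHom ℤ L₀ (AlgebraicClosure ℚ))
  exact le_antisymm (valuation_le_one_of_isIntegral A hint) (not_lt.mp h1)

theorem k0_disc_over_aux {q : ℕ} (hq : q.Prime) (A : ValuationSubring (AlgebraicClosure ℚ))
    (hA : A.LiesOverPrime q) (K₀ L₀ : IntermediateField ℚ (AlgebraicClosure ℚ))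
    [FiniteDimensional ℚ K₀] [FiniteDimensional ℚ L₀] [Normal ℚ L₀] (h : K₀ ≤ L₀)
    {x : AlgebraicClosure ℚ} (hxL : x ∈ L₀) (hx : x ≠ 0)
    (hfix : ∀ σ ∈ A.inertiaSubgroupIn ℚ, σ ∈ K₀.fixingSubgroup → σ x = x) :
    ∃ y ∈ K₀, y ≠ 0 ∧ A.valuation x = A.valuation y := by
  haveI : NumberField K₀ := ⟨⟩
  haveI : NumberField L₀ := ⟨⟩
  letI : Algebra K₀ L₀ := (IntermediateField.inclusion h).toRingHom.toAlgebra
  haveI : IsScalarTower ℚ K₀ L₀ := IsScalarTower.of_algebraMap_eq (fun r => rfl)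
  haveI : Normal K₀ L₀ := Normal.tower_top_of_normal ℚ K₀ L₀
  haveI : IsGalois K₀ L₀ := ⟨⟩
  have hP0 : primeOf L₀ A ≠ ⊥ := by
    intro hbot
    have h1 : (q : 𝓞 L₀) ∈ primeOf L₀ A := natCast_mem_primeOf L₀ A hA
    rw [hbot, Ideal.mem_bot] at h1
    exact hq.ne_zero (by exact_mod_cast h1)
  have hx' : (⟨x, hxL⟩ : L₀) ≠ 0 := fun h0 => hx (congrArg Subtype.val h0)
  have hfix' : ∀ τ ∈ Ideal.inertia Gal(L₀/K₀) (primeOf L₀ A), τ ⟨x, hxL⟩ = ⟨x, hxL⟩ := by
    intro τ hτ
    have hτ' : τ.restrictScalars ℚ ∈ Ideal.inertia (L₀ ≃ₐ[ℚ] L₀) (primeOf L₀ A) := by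
      intro z
      exact hτ z
    obtain ⟨σ', hσ'I, hσ'⟩ := exists_mem_inertia_restrict_eq L₀ A hq hA _ hτ'
    have hcoe : ∀ z : L₀, ((τ z : L₀) : AlgebraicClosure ℚ) = σ' (z : AlgebraicClosure ℚ) := by
      intro z
      have h1 := AlgEquiv.restrictNormal_commutes σ' L₀ z
      have h2 : AlgEquiv.restrictNormal σ' L₀ = τ.restrictScalars ℚ := hσ'
      rw [h2] at h1
      exact h1
    have hσ'K : σ' ∈ K₀.fixingSubgroup := by
      rw [IntermediateField.mem_fixingSubgroup_iff]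
      intro z hz
      have h1 := hcoe ⟨z, h hz⟩
      have h2 : τ (algebraMap K₀ L₀ ⟨z, hz⟩) = algebraMap K₀ L₀ ⟨z, hz⟩ := τ.commutes _
      have h3 : (algebraMap K₀ L₀ ⟨z, hz⟩ : L₀) = ⟨z, h hz⟩ := rfl
      rw [h3] at h2
      rw [h2] at h1
      exact h1.symm
    have h4 := hfix σ' hσ'I hσ'K
    apply Subtype.ext
    rw [hcoe]
    exact h4
  obtain ⟨y, a, b, hy, ha, hb, hab⟩ :=
    k0_disc_abstract (K := K₀) (L := L₀) (primeOf L₀ A) hP0 hx' hfix'
  refine ⟨(y : AlgebraicClosure ℚ), y.2, fun h0 => hy (Subtype.ext h0), ?_⟩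
  have hva := k0_valuation_eq_one_of_notMem L₀ A ha
  have hvb := k0_valuation_eq_one_of_notMem L₀ A hb
  have h5 : x * ((b : L₀) : AlgebraicClosure ℚ) =
      (y : AlgebraicClosure ℚ) * ((a : L₀) : AlgebraicClosure ℚ) := by
    have := congrArg (Subtype.val : L₀ → AlgebraicClosure ℚ) hab
    exact this
  have h6 := congrArg A.valuation h5
  rw [map_mul, map_mul, hva, hvb, mul_one, mul_one] at h6
  exact h6

end Dict

section Rat

/-- the valuation of a nonzero natural number is a power of the valuation of `q` -/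
theorem k0_valuation_natCast {q : ℕ} (hq : q.Prime) (A : ValuationSubring (AlgebraicClosure ℚ))
    (hA : A.LiesOverPrime q) {n : ℕ} (hn : n ≠ 0) :
    ∃ e : ℕ, A.valuation ((n : ℕ) : AlgebraicClosure ℚ) =
      A.valuation ((q : ℕ) : AlgebraicClosure ℚ) ^ e := by
  obtain ⟨e, c, hc, hnc⟩ := Nat.exists_eq_pow_mul_and_not_dvd hn q hq.ne_one
  refine ⟨e, ?_⟩
  have h1 : A.valuation ((c : ℕ) : AlgebraicClosure ℚ) = 1 := by
    have h := valuation_intCast_eq_one A hq hA (c := (c : ℤ)) (by exact_mod_cast hc)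
    simpa using h
  rw [hnc, Nat.cast_mul, Nat.cast_pow, map_mul, map_pow, h1, mul_one]

/-- the valuation of a nonzero rational number is an integral power of the valuation of `q` -/
theorem k0_valuation_ratCast {q : ℕ} (hq : q.Prime) (A : ValuationSubring (AlgebraicClosure ℚ))
    (hA : A.LiesOverPrime q) {r : ℚ} (hr : r ≠ 0) :
    ∃ m : ℤ, A.valuation (algebraMap ℚ (AlgebraicClosure ℚ) r) =
      A.valuation (((q : ℕ) : AlgebraicClosure ℚ) ^ m) := by
  have hnum : r.num.natAbs ≠ 0 := Int.natAbs_ne_zero.mpr (Rat.num_ne_zero.mpr hr)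
  obtain ⟨a, ha⟩ := k0_valuation_natCast hq A hA hnum
  obtain ⟨b, hb⟩ := k0_valuation_natCast hq A hA r.den_ne_zero
  refine ⟨(a : ℤ) - (b : ℤ), ?_⟩
  have hq0 : A.valuation ((q : ℕ) : AlgebraicClosure ℚ) ≠ 0 :=
    (Valuation.ne_zero_iff _).mpr (Nat.cast_ne_zero.mpr hq.ne_zero)
  have h1 : algebraMap ℚ (AlgebraicClosure ℚ) r =
      ((r.num : ℤ) : AlgebraicClosure ℚ) / ((r.den : ℕ) : AlgebraicClosure ℚ) := by
    rw [eq_ratCast, Rat.cast_def]
  have h2 : A.valuation ((r.num : ℤ) : AlgebraicClosure ℚ) =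
      A.valuation ((r.num.natAbs : ℕ) : AlgebraicClosure ℚ) := by
    rcases Int.natAbs_eq r.num with h | h
    · conv_lhs => rw [h]
      simp
    · conv_lhs => rw [h]
      simp
  rw [h1, map_div₀, h2, ha, hb, map_zpow₀, zpow_sub₀ hq0, zpow_natCast, zpow_natCast]

end Rat

section Main

/-- **(DISC-REL)**: if `x ≠ 0` is fixed by the elements of the inertia group of `A` which fix the
number field `K₀`, then the valuation of `x` is the valuation of an element of `K₀`. -/
theorem k0_disc_over {q : ℕ} (hq : q.Prime) (A : ValuationSubring (AlgebraicClosure ℚ))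
    (hA : A.LiesOverPrime q) (K₀ : IntermediateField ℚ (AlgebraicClosure ℚ))
    [FiniteDimensional ℚ K₀] {x : AlgebraicClosure ℚ} (hx : x ≠ 0)
    (hfix : ∀ σ ∈ A.inertiaSubgroupIn ℚ, σ ∈ K₀.fixingSubgroup → σ x = x) :
    ∃ y ∈ K₀, y ≠ 0 ∧ A.valuation x = A.valuation y := by
  have hxint : IsIntegral ℚ x := (isAlgebraic_Qbar.isAlgebraic x).isIntegral
  haveI : FiniteDimensional ℚ (IntermediateField.adjoin ℚ {x}) :=
    IntermediateField.adjoin.finiteDimensional hxint
  haveI : FiniteDimensional ℚ ↥(K₀ ⊔ IntermediateField.adjoin ℚ {x}) :=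
    IntermediateField.finiteDimensional_sup K₀ (IntermediateField.adjoin ℚ {x})
  set L₀ : IntermediateField ℚ (AlgebraicClosure ℚ) :=
    IntermediateField.normalClosure ℚ ↥(K₀ ⊔ IntermediateField.adjoin ℚ {x}) (AlgebraicClosure ℚ)
    with hL₀
  haveI : Normal ℚ L₀ := @normalClosure.normal ℚ _ (AlgebraicClosure ℚ) _ _ _ _ _ normal_Qbar
  haveI : FiniteDimensional ℚ L₀ := normalClosure.is_finiteDimensional ℚ _ _
  have hle : K₀ ⊔ IntermediateField.adjoin ℚ {x} ≤ L₀ := IntermediateField.le_normalClosure _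
  have h : K₀ ≤ L₀ := le_sup_left.trans hle
  have hxL : x ∈ L₀ := hle ((le_sup_right : IntermediateField.adjoin ℚ {x} ≤ _)
    (IntermediateField.mem_adjoin_simple_self ℚ x))
  exact k0_disc_over_aux hq A hA K₀ L₀ h hxL hx hfix

/-- **(DISC)**: the value group of `K0 = ℚ̄^I` is generated by the value of `q`: a nonzero element
fixed by the inertia group of `A` has the valuation of an integral power of `q`. -/
theorem k0_disc {q : ℕ} (hq : q.Prime) (A : ValuationSubring (AlgebraicClosure ℚ))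
    (hA : A.LiesOverPrime q) {x : AlgebraicClosure ℚ} (hx : x ≠ 0)
    (hfix : ∀ σ ∈ A.inertiaSubgroupIn ℚ, σ x = x) :
    ∃ m : ℤ, A.valuation x = A.valuation (((q : ℕ) : AlgebraicClosure ℚ) ^ m) := by
  obtain ⟨y, hy, hy0, hxy⟩ := k0_disc_over hq A hA ⊥ hx (fun σ hσ _ => hfix σ hσ)
  obtain ⟨r, rfl⟩ := IntermediateField.mem_bot.mp hy
  have hr : r ≠ 0 := by
    rintro rfl
    exact hy0 (map_zero _)
  obtain ⟨m, hm⟩ := k0_valuation_ratCast hq A hA hr
  exact ⟨m, hxy.trans hm⟩

/-- **(DISC)**, unit form: a nonzero element fixed by the inertia group of `A` is `q ^ m` times a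
unit of `A`. -/
theorem k0_disc_unit {q : ℕ} (hq : q.Prime) (A : ValuationSubring (AlgebraicClosure ℚ))
    (hA : A.LiesOverPrime q) {x : AlgebraicClosure ℚ} (hx : x ≠ 0)
    (hfix : ∀ σ ∈ A.inertiaSubgroupIn ℚ, σ x = x) :
    ∃ (m : ℤ) (u : AlgebraicClosure ℚ), A.valuation u = 1 ∧
      (∀ σ ∈ A.inertiaSubgroupIn ℚ, σ u = u) ∧ x = ((q : ℕ) : AlgebraicClosure ℚ) ^ m * u := by
  obtain ⟨m, hm⟩ := k0_disc hq A hA hx hfix
  have hq0 : ((q : ℕ) : AlgebraicClosure ℚ) ≠ 0 := Nat.cast_ne_zero.mpr hq.ne_zero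
  have hqm : ((q : ℕ) : AlgebraicClosure ℚ) ^ m ≠ 0 := zpow_ne_zero _ hq0
  refine ⟨m, x / ((q : ℕ) : AlgebraicClosure ℚ) ^ m, ?_, ?_, ?_⟩
  · rw [map_div₀, hm, div_self]
    exact (Valuation.ne_zero_iff _).mpr hqm
  · intro σ hσ
    rw [map_div₀, hfix σ hσ, map_zpow₀, map_natCast]
  · field_simp

end Main

end Fermat.Agent.T3.helper84
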