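/-
T3 / S36, package [T3-K0ARITH] part 3 (helper84): the value group of `K0(ζ_q)`, `K0 = ℚ̄^{I_A}`.

`A` is a valuation subring of `ℚ̄` over the prime `q`, `I = A.inertiaSubgroupIn ℚ`, `ζ` a primitive
`q`-th root of unity, `π = 1 - ζ`.

* `k0_root_elt`       : elementwise form of (ROOT): `σ ∈ I`, `σ u = u`, `w ^ n = u` ⟹ `σ w = w`;
* `k0_zeta_val`       : `v(1 - ζ) ^ (q - 1) = v(q)`;
* `k0_zeta_val_lt`    : `v(1 - ζ) < 1`;
* `k0_val_adjoin_zeta`: every nonzero `y ∈ ℚ(ζ)` has `v(y) = v(1 - ζ) ^ m`, `m : ℤ`;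
* `k0_disc_zeta`      : if `x ≠ 0` is fixed by every `σ ∈ I` with `σ ζ = ζ` then
                        `v(x) = v((1 - ζ) ^ m)`, `m : ℤ`  (value group of `K0(ζ_q)`).
-/
import Mathlib
import Fermat.Agent.T3.helper84_K0Basic
import Fermat.Agent.T3.helper84_K0Disc

set_option autoImplicit false
set_option linter.unusedSectionVars false
set_option linter.style.haveILetI false

open scoped NumberField Pointwise

namespace Fermat.Agent.T3.helper84

open Fermat.Agent.S54.helper91 Fermat.Agent.S14.helper91 Polynomial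

/-- **(ROOT)**, elementwise: if `σ` in the inertia group fixes the unit `u` of `A` then it fixes
every `n`-th root of `u`, `q ∤ n`. -/
theorem k0_root_elt {q : ℕ} (hq : q.Prime) (A : ValuationSubring (AlgebraicClosure ℚ))
    (hA : A.LiesOverPrime q) {n : ℕ} (hn : ¬ q ∣ n) {u w : AlgebraicClosure ℚ}
    (hu : A.valuation u = 1) (hw : w ^ n = u)
    {σ : AlgebraicClosure ℚ ≃ₐ[ℚ] AlgebraicClosure ℚ} (hσ : σ ∈ A.inertiaSubgroupIn ℚ)
    (hfix : σ u = u) : σ w = w := by
  have hn0 : n ≠ 0 := fun h => hn (h ▸ dvd_zero q)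
  have hvw : A.valuation w = 1 := k0_valuation_eq_one_of_pow A hn0 (by rw [hw, hu])
  have hw0 : w ≠ 0 := by
    rintro rfl
    rw [map_zero] at hvw
    exact zero_ne_one hvw
  obtain ⟨-, hσI⟩ := (mem_inertiaSubgroupIn_iff_valuation A σ).mp hσ
  have hwA : w ∈ A := (A.valuation_le_one_iff w).mp hvw.le
  have h1 : A.valuation (σ w - w) < 1 := hσI w hwA
  have hζ : (σ w / w) ^ n = 1 := by
    rw [div_pow, ← map_pow, hw, hfix, div_self]
    rw [← hw]
    exact pow_ne_zero _ hw0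
  have h2 : A.valuation (σ w / w - 1) < 1 := by
    have : σ w / w - 1 = (σ w - w) / w := by field_simp
    rw [this, map_div₀, hvw, div_one]
    exact h1
  have h3 := k0_root_of_unity_eq_one hq A hA hn hζ h2
  rw [div_eq_one_iff_eq hw0] at h3
  exact h3

section Zeta

variable {q : ℕ} (hq : q.Prime) (A : ValuationSubring (AlgebraicClosure ℚ))
  (hA : A.LiesOverPrime q) {ζ : AlgebraicClosure ℚ} (hζ : IsPrimitiveRoot ζ q)

include hq hζ in
/-- `v(1 - ζ ^ k) ≤ v(1 - ζ)` -/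
theorem k0_zeta_pow_le (k : ℕ) : A.valuation (1 - ζ ^ k) ≤ A.valuation (1 - ζ) := by
  have hvζ : A.valuation ζ = 1 :=
    k0_valuation_eq_one_of_pow A hq.ne_zero (by rw [hζ.pow_eq_one, map_one])
  have h2 : 1 - ζ ^ k = -((∑ j ∈ Finset.range k, ζ ^ j) * (ζ - 1)) := by
    rw [geom_sum_mul]; ring
  have h4 : A.valuation (ζ - 1) = A.valuation (1 - ζ) := by
    rw [← Valuation.map_neg, neg_sub]
  rw [h2, Valuation.map_neg, map_mul, h4]
  have h3 : A.valuation (∑ j ∈ Finset.range k, ζ ^ j) ≤ 1 := by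
    refine Valuation.map_sum_le _ (fun j _ => ?_)
    rw [map_pow, hvζ, one_pow]
  calc A.valuation (∑ j ∈ Finset.range k, ζ ^ j) * A.valuation (1 - ζ)
      ≤ 1 * A.valuation (1 - ζ) := by gcongr
    _ = A.valuation (1 - ζ) := one_mul _

include hq hζ in
/-- all primitive `q`-th roots of unity `μ` have the same `v(1 - μ)` -/
theorem k0_zeta_eq {μ : AlgebraicClosure ℚ} (hμ : IsPrimitiveRoot μ q) :
    A.valuation (1 - μ) = A.valuation (1 - ζ) := by
  haveI : NeZero q := ⟨hq.ne_zero⟩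
  refine le_antisymm ?_ ?_
  · obtain ⟨k, -, hk⟩ := hζ.eq_pow_of_pow_eq_one hμ.pow_eq_one
    rw [← hk]
    exact k0_zeta_pow_le hq A hζ k
  · obtain ⟨k, -, hk⟩ := hμ.eq_pow_of_pow_eq_one hζ.pow_eq_one
    rw [← hk]
    exact k0_zeta_pow_le hq A hμ k

include hq hζ in
/-- `v(1 - ζ) ^ (q - 1) = v(q)` -/
theorem k0_zeta_val :
    A.valuation (1 - ζ) ^ (q - 1) = A.valuation ((q : ℕ) : AlgebraicClosure ℚ) := by
  haveI : Fact q.Prime := ⟨hq⟩
  haveI : NeZero q := ⟨hq.ne_zero⟩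
  have h1 : Polynomial.eval 1 (Polynomial.cyclotomic q (AlgebraicClosure ℚ)) =
      ((q : ℕ) : AlgebraicClosure ℚ) := Polynomial.eval_one_cyclotomic_prime
  have h2 := Polynomial.cyclotomic_eq_prod_X_sub_primitiveRoots hζ
  rw [h2, Polynomial.eval_prod] at h1
  simp only [Polynomial.eval_sub, Polynomial.eval_X, Polynomial.eval_C] at h1
  rw [← h1, map_prod]
  have h3 : ∀ μ ∈ primitiveRoots q (AlgebraicClosure ℚ),
      A.valuation (1 - μ) = A.valuation (1 - ζ) := by
    intro μ hμ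
    exact k0_zeta_eq hq A hζ ((mem_primitiveRoots hq.pos).mp hμ)
  rw [Finset.prod_congr rfl h3, Finset.prod_const, hζ.card_primitiveRoots,
    Nat.totient_prime hq]

include hq hA hζ in
/-- `v(1 - ζ) < 1` -/
theorem k0_zeta_val_lt : A.valuation (1 - ζ) < 1 := by
  by_contra hcon
  have hvζ : A.valuation ζ = 1 :=
    k0_valuation_eq_one_of_pow A hq.ne_zero (by rw [hζ.pow_eq_one, map_one])
  have hle : A.valuation (1 - ζ) ≤ 1 := by
    refine (A.valuation_le_one_iff _).mpr (A.sub_mem A.one_mem ?_)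
    exact (A.valuation_le_one_iff ζ).mp hvζ.le
  have h1 : A.valuation (1 - ζ) = 1 := le_antisymm hle (not_lt.mp hcon)
  have h2 := k0_zeta_val hq A hζ
  rw [h1, one_pow] at h2
  have h3 : A.valuation ((q : ℕ) : AlgebraicClosure ℚ) < 1 := A.mem_nonunits_iff.mp hA
  rw [← h2] at h3
  exact lt_irrefl _ h3

include hq hζ in
theorem k0_zeta_val_ne_zero : A.valuation (1 - ζ) ≠ 0 := by
  rw [Valuation.ne_zero_iff, sub_ne_zero]
  exact fun h => hζ.ne_one hq.one_lt h.symm

/-- A finite sum whose nonzero terms have pairwise distinct valuations has the valuation of one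
of its nonzero terms. -/
theorem k0_val_sum_of_distinct {ι : Type*} (s : Finset ι) (f : ι → AlgebraicClosure ℚ)
    (hne : ∃ i ∈ s, f i ≠ 0)
    (hdist : ∀ i ∈ s, ∀ j ∈ s, i ≠ j → f i ≠ 0 → f j ≠ 0 →
      A.valuation (f i) ≠ A.valuation (f j)) :
    ∃ i ∈ s, f i ≠ 0 ∧ A.valuation (∑ i ∈ s, f i) = A.valuation (f i) := by
  classical
  obtain ⟨i₁, hi₁, hf₁⟩ := hne
  obtain ⟨i₀, hi₀, hmax⟩ := Finset.exists_max_image s (fun i => A.valuation (f i)) ⟨i₁, hi₁⟩
  have hv₁ : A.valuation (f i₁) ≠ 0 := (Valuation.ne_zero_iff _).mpr hf₁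
  have hv₀ : A.valuation (f i₀) ≠ 0 := by
    intro h0
    have := hmax i₁ hi₁
    rw [h0] at this
    exact hv₁ (le_antisymm this zero_le)
  have hf₀ : f i₀ ≠ 0 := (Valuation.ne_zero_iff _).mp hv₀
  refine ⟨i₀, hi₀, hf₀, ?_⟩
  rw [← Finset.add_sum_erase s f hi₀]
  refine Valuation.map_add_eq_of_lt_left _ ?_
  refine Valuation.map_sum_lt _ hv₀ (fun j hj => ?_)
  have hjs : j ∈ s := Finset.mem_of_mem_erase hj
  have hji : j ≠ i₀ := Finset.ne_of_mem_erase hj
  by_cases hfj : f j = 0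
  · rw [hfj, map_zero]
    exact zero_lt_iff.mpr hv₀
  · exact lt_of_le_of_ne (hmax j hjs) (hdist j hjs i₀ hi₀ hji hfj hf₀)

include hq hA hζ in
/-- every nonzero element of `ℚ(1 - ζ) = ℚ(ζ)` has the valuation of a power of `1 - ζ` -/
theorem k0_val_adjoin_zeta {y : AlgebraicClosure ℚ}
    (hy : y ∈ IntermediateField.adjoin ℚ {1 - ζ}) (hy0 : y ≠ 0) :
    ∃ m : ℤ, A.valuation y = A.valuation (1 - ζ) ^ m := by
  classical
  haveI : NeZero q := ⟨hq.ne_zero⟩
  set π : AlgebraicClosure ℚ := 1 - ζ with hπdef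
  set γ := A.valuation π with hγdef
  have hγ0 : γ ≠ 0 := k0_zeta_val_ne_zero hq A hζ
  have hγpos : 0 < γ := zero_lt_iff.mpr hγ0
  have hγ1 : γ < 1 := k0_zeta_val_lt hq A hA hζ
  have hγq : γ ^ (q - 1) = A.valuation ((q : ℕ) : AlgebraicClosure ℚ) := k0_zeta_val hq A hζ
  have hπint : IsIntegral ℚ π := (isAlgebraic_Qbar.isAlgebraic π).isIntegral
  -- degree bound
  have hdeg : (minpoly ℚ π).natDegree ≤ q - 1 := by
    set P : ℚ[X] := (Polynomial.cyclotomic q ℚ).comp (Polynomial.C 1 - Polynomial.X) with hP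
    have hPdeg : P.natDegree = q - 1 := by
      rw [hP, Polynomial.natDegree_comp, Polynomial.natDegree_cyclotomic, Nat.totient_prime hq]
      have : (Polynomial.C (1 : ℚ) - Polynomial.X).natDegree = 1 := by
        rw [← Polynomial.natDegree_neg, neg_sub]
        exact Polynomial.natDegree_X_sub_C 1
      rw [this, mul_one]
    have hP0 : P ≠ 0 := by
      intro h0
      have hq2 : 1 ≤ q - 1 := by have := hq.two_le; omega
      rw [h0, Polynomial.natDegree_zero] at hPdeg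
      omega
    have hPπ : Polynomial.aeval π P = 0 := by
      rw [hP, Polynomial.aeval_comp]
      have h1 : Polynomial.aeval π (Polynomial.C (1 : ℚ) - Polynomial.X) = ζ := by
        simp [hπdef]
      rw [h1]
      have h2 : (Polynomial.cyclotomic q (AlgebraicClosure ℚ)).IsRoot ζ :=
        hζ.isRoot_cyclotomic hq.pos
      rw [Polynomial.aeval_def, Polynomial.eval₂_eq_eval_map, Polynomial.map_cyclotomic]
      exact h2
    have h3 := minpoly.degree_le_of_ne_zero ℚ π hP0 hPπ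
    rw [← hPdeg]
    exact Polynomial.natDegree_le_natDegree h3
  -- power basis expansion
  set pb := IntermediateField.adjoin.powerBasis hπint with hpb
  have hdim : pb.dim ≤ q - 1 := hdeg
  set y' : IntermediateField.adjoin ℚ {π} := ⟨y, hy⟩ with hy'
  set c : Fin pb.dim → ℚ := fun i => pb.basis.repr y' i with hc
  set f : Fin pb.dim → AlgebraicClosure ℚ :=
    fun i => algebraMap ℚ (AlgebraicClosure ℚ) (c i) * π ^ (i : ℕ) with hf
  have hsum : y = ∑ i, f i := by
    have h1 : y' = ∑ i, c i • pb.basis i := (pb.basis.sum_repr y').symm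
    have h2 := congrArg (Subtype.val : IntermediateField.adjoin ℚ {π} → AlgebraicClosure ℚ) h1
    rw [hy'] at h2
    simp only at h2
    rw [h2, IntermediateField.coe_sum]
    refine Finset.sum_congr rfl (fun i _ => ?_)
    rw [IntermediateField.coe_smul, pb.coe_basis, Algebra.smul_def]
    simp [hf, hpb]
  -- valuations of the terms
  have hterm : ∀ i, f i ≠ 0 → ∃ m : ℤ, A.valuation (f i) = γ ^ (((q - 1 : ℕ) : ℤ) * m + (i : ℕ)) := by
    intro i hi
    have hci : c i ≠ 0 := by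
      intro h0
      apply hi
      simp [hf, h0]
    obtain ⟨m, hm⟩ := k0_valuation_ratCast hq A hA hci
    refine ⟨m, ?_⟩
    simp only [hf]
    rw [map_mul, hm, map_zpow₀, ← hγq, map_pow, ← hγdef, zpow_add₀ hγ0, zpow_mul, zpow_natCast,
      zpow_natCast]
  have hdist : ∀ i ∈ (Finset.univ : Finset (Fin pb.dim)), ∀ j ∈ (Finset.univ : Finset (Fin pb.dim)),
      i ≠ j → f i ≠ 0 → f j ≠ 0 → A.valuation (f i) ≠ A.valuation (f j) := by
    intro i _ j _ hij hi hj heq
    obtain ⟨mi, hmi⟩ := hterm i hi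
    obtain ⟨mj, hmj⟩ := hterm j hj
    rw [hmi, hmj, zpow_right_inj₀ hγpos hγ1.ne] at heq
    have hi' : (i : ℕ) < q - 1 := lt_of_lt_of_le i.2 hdim
    have hj' : (j : ℕ) < q - 1 := lt_of_lt_of_le j.2 hdim
    have h1 := congrArg (fun z : ℤ => z % ((q - 1 : ℕ) : ℤ)) heq
    simp only [Int.mul_add_emod_self_left] at h1
    rw [Int.emod_eq_of_lt (by positivity) (by exact_mod_cast hi'),
      Int.emod_eq_of_lt (by positivity) (by exact_mod_cast hj')] at h1
    exact hij (Fin.ext (by exact_mod_cast h1))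
  have hne : ∃ i ∈ (Finset.univ : Finset (Fin pb.dim)), f i ≠ 0 := by
    by_contra hcon
    push Not at hcon
    apply hy0
    rw [hsum]
    exact Finset.sum_eq_zero (fun i hi => hcon i hi)
  obtain ⟨i₀, -, hi₀, hval⟩ := k0_val_sum_of_distinct A Finset.univ f hne hdist
  obtain ⟨m, hm⟩ := hterm i₀ hi₀
  exact ⟨_, by rw [hsum, hval, hm]⟩

include hq hA hζ in
/-- **(DISC) for `K0(ζ_q)`**: if `x ≠ 0` is fixed by every element of the inertia group of `A`
which fixes `ζ` (a primitive `q`-th root of unity), then `v(x) = v((1 - ζ) ^ m)` for some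
`m : ℤ`; recall `v(1 - ζ) ^ (q - 1) = v(q)` (`k0_zeta_val`). -/
theorem k0_disc_zeta {x : AlgebraicClosure ℚ} (hx : x ≠ 0)
    (hfix : ∀ σ ∈ A.inertiaSubgroupIn ℚ, σ ζ = ζ → σ x = x) :
    ∃ m : ℤ, A.valuation x = A.valuation ((1 - ζ) ^ m) := by
  have hπint : IsIntegral ℚ (1 - ζ) := (isAlgebraic_Qbar.isAlgebraic (1 - ζ)).isIntegral
  haveI : FiniteDimensional ℚ (IntermediateField.adjoin ℚ {1 - ζ}) :=
    IntermediateField.adjoin.finiteDimensional hπint
  have hfix' : ∀ σ ∈ A.inertiaSubgroupIn ℚ,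
      σ ∈ (IntermediateField.adjoin ℚ {1 - ζ}).fixingSubgroup → σ x = x := by
    intro σ hσ hσK
    refine hfix σ hσ ?_
    have h1 := (IntermediateField.mem_fixingSubgroup_iff _ σ).mp hσK (1 - ζ)
      (IntermediateField.mem_adjoin_simple_self ℚ (1 - ζ))
    rw [map_sub, map_one] at h1
    exact sub_right_injective h1
  obtain ⟨y, hy, hy0, hxy⟩ := k0_disc_over hq A hA (IntermediateField.adjoin ℚ {1 - ζ}) hx hfix'
  obtain ⟨m, hm⟩ := k0_val_adjoin_zeta hq A hA hζ hy hy0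
  exact ⟨m, by rw [hxy, hm, map_zpow₀]⟩

end Zeta

end Fermat.Agent.T3.helper84
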