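/-
T3 / S36, package [T3-K0RING] (helper84): the discrete valuation ring `O = A ∩ K0`,
`K0 = ℚ̄^{I_A}`, and its cyclotomic extension `O1 = O[ζ_q]`.

`A` is a valuation subring of `ℚ̄` over the prime `q`, `I = A.inertiaSubgroupIn ℚ`, `ζ` a primitive
`q`-th root of unity.

* `k0_zeta_trans`   : `I` acts transitively on the primitive `q`-th roots of unity:
                      for `q ∤ k` there is `σ ∈ I` with `σ ζ = ζ ^ k`;
* `k0_zeta_free`    : `1, ζ, …, ζ^(q-2)` are linearly independent over `K0`;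
* `k0_zeta_int`     : every element of `A` fixed by `{σ ∈ I | σ ζ = ζ}` is `∑_{i<q-1} a_i ζ^i` with
                      `a_i ∈ A` fixed by `I`;
* `k0Ring A`        : the subring `O = {x ∈ A | x fixed by I}` of `ℚ̄`;
* `k0Ring_isDiscreteValuationRing` : `O` is a discrete valuation ring (uniformiser `q`).
-/
import Mathlib
import Fermat.Agent.T3.helper84_K0Zeta

set_option autoImplicit false
set_option linter.unusedSectionVars false
set_option linter.style.haveILetI false

open scoped NumberField Pointwise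

namespace Fermat.Agent.T3.helper84

open Fermat.Agent.S54.helper91 Fermat.Agent.S14.helper91 Polynomial

section Trans

variable {q : ℕ} (hq : q.Prime) (A : ValuationSubring (AlgebraicClosure ℚ))
  (hA : A.LiesOverPrime q) {ζ : AlgebraicClosure ℚ} (hζ : IsPrimitiveRoot ζ q)

include hq hA in
theorem k0_primeOf_liesOver {F : Type*} [Field F] [NumberField F] [Algebra F (AlgebraicClosure ℚ)] :
    (primeOf F A).LiesOver (Ideal.span {(q : ℤ)}) := by
  have hpr : (Ideal.span {(q : ℤ)}).IsPrime := by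
    rw [Ideal.span_singleton_prime (by exact_mod_cast hq.ne_zero)]
    exact Nat.prime_iff_prime_int.mp hq
  have hmax : (Ideal.span {(q : ℤ)}).IsMaximal := hpr.isMaximal (by
    simp [hq.ne_zero])
  constructor
  apply hmax.eq_of_le
  · exact (Ideal.IsPrime.under ℤ (primeOf F A)).ne_top
  · rw [Ideal.span_singleton_le_iff_mem, Ideal.under, Ideal.mem_comap]
    have := natCast_mem_primeOf F A hA
    simpa using this

/-- In the `q`-th cyclotomic field, the inertia group of a prime over `q` is everything. -/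
theorem k0_inertia_eq_top_of_cyclotomic (K : Type*) [Field K] [NumberField K] [IsGalois ℚ K]
    [Fact q.Prime] [IsCyclotomicExtension {q} ℚ K] (P : Ideal (𝓞 K)) [P.IsPrime]
    [P.LiesOver (Ideal.span {(q : ℤ)})] : Ideal.inertia Gal(K/ℚ) P = ⊤ := by
  have hp : q.Prime := Fact.out
  have hpr : (Ideal.span {(q : ℤ)}).IsPrime := by
    rw [Ideal.span_singleton_prime (by exact_mod_cast hp.ne_zero)]
    exact Nat.prime_iff_prime_int.mp hp
  have hmax : (Ideal.span {(q : ℤ)}).IsMaximal := hpr.isMaximal (by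
    simp [hp.ne_zero])
  have h1 := Ideal.card_inertia_eq_ramificationIdxIn (G := Gal(K/ℚ)) (Ideal.span {(q : ℤ)}) P
  rw [IsCyclotomicExtension.Rat.ramificationIdxIn_eq_of_prime q K] at h1
  apply Subgroup.eq_top_of_card_eq
  rw [h1, IsGalois.card_aut_eq_finrank, IsCyclotomicExtension.finrank K
    (Polynomial.cyclotomic.irreducible_rat hp.pos), Nat.totient_prime hp]

include hq hA hζ in
/-- **(TRANS)**: the inertia group of `A` acts transitively on the primitive `q`-th roots of
unity. -/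
theorem k0_zeta_trans {k : ℕ} (hk : ¬ q ∣ k) :
    ∃ σ ∈ A.inertiaSubgroupIn ℚ, σ ζ = ζ ^ k := by
  haveI : Fact q.Prime := ⟨hq⟩
  haveI : NeZero q := ⟨hq.ne_zero⟩
  haveI := isAlgebraic_Qbar
  haveI := normal_Qbar
  -- an automorphism with `σ₀ ζ = ζ ^ k`
  have hcop : Nat.Coprime k q := (Nat.Coprime.symm ((Nat.Prime.coprime_iff_not_dvd hq).mpr hk))
  have hζk : IsPrimitiveRoot (ζ ^ k) q := hζ.pow_of_coprime k hcop
  have hmin : minpoly ℚ (ζ ^ k) = Polynomial.cyclotomic q ℚ :=
    (Polynomial.cyclotomic_eq_minpoly_rat hζk hq.pos).symm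
  have hroot : Polynomial.aeval ζ (minpoly ℚ (ζ ^ k)) = 0 := by
    rw [hmin, Polynomial.aeval_def, Polynomial.eval₂_eq_eval_map, Polynomial.map_cyclotomic]
    exact hζ.isRoot_cyclotomic hq.pos
  obtain ⟨σ₀, hσ₀⟩ := minpoly.exists_algEquiv_of_root
    (isAlgebraic_Qbar.isAlgebraic (ζ ^ k)) hroot
  -- the cyclotomic field
  set L : IntermediateField ℚ (AlgebraicClosure ℚ) := IntermediateField.adjoin ℚ {ζ} with hL
  haveI : FiniteDimensional ℚ L :=
    IntermediateField.adjoin.finiteDimensional (Algebra.IsIntegral.isIntegral ζ)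
  haveI : NumberField L := NumberField.mk
  haveI : IsCyclotomicExtension {q} ℚ L := hζ.intermediateField_adjoin_isCyclotomicExtension (K := ℚ)
  haveI : IsGalois ℚ L := IsCyclotomicExtension.isGalois {q} ℚ L
  haveI := k0_primeOf_liesOver hq A hA (F := L)
  have htop := k0_inertia_eq_top_of_cyclotomic (q := q) L (primeOf L A)
  obtain ⟨σ, hσI, hσ⟩ := exists_mem_inertia_restrict_eq L A hq hA
    (AlgEquiv.restrictNormalHom L σ₀) (by rw [htop]; trivial)
  refine ⟨σ, hσI, ?_⟩
  have h1 := AlgEquiv.restrictNormal_commutes σ L ⟨ζ, IntermediateField.mem_adjoin_simple_self ℚ ζ⟩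
  have h2 := AlgEquiv.restrictNormal_commutes σ₀ L
    ⟨ζ, IntermediateField.mem_adjoin_simple_self ℚ ζ⟩
  have h3 : σ.restrictNormal L = σ₀.restrictNormal L := hσ
  rw [h3] at h1
  exact (h1.symm.trans h2).trans hσ₀

include hq hA hζ in
/-- **(FREE)**: `1, ζ, …, ζ^(q-2)` are linearly independent over `K0 = ℚ̄^I`. -/
theorem k0_zeta_free (a : ℕ → AlgebraicClosure ℚ)
    (ha : ∀ i, ∀ σ ∈ A.inertiaSubgroupIn ℚ, σ (a i) = a i)
    (hsum : ∑ i ∈ Finset.range (q - 1), a i * ζ ^ i = 0) :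
    ∀ i ∈ Finset.range (q - 1), a i = 0 := by
  classical
  haveI : NeZero q := ⟨hq.ne_zero⟩
  -- the polynomial `P = ∑ a_i X^i`
  set P : (AlgebraicClosure ℚ)[X] :=
    ∑ i ∈ Finset.range (q - 1), Polynomial.C (a i) * Polynomial.X ^ i with hP
  have hcoeff : ∀ m, P.coeff m = if m < q - 1 then a m else 0 := by
    intro m
    rw [hP, Polynomial.finsetSum_coeff]
    simp only [Polynomial.coeff_C_mul_X_pow]
    rw [Finset.sum_ite_eq (Finset.range (q - 1)) m (fun i => a i)]
    simp [Finset.mem_range]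
  have hdeg : P.degree < ((q - 1 : ℕ) : WithBot ℕ) := by
    rw [Polynomial.degree_lt_iff_coeff_zero]
    intro m hm
    rw [hcoeff, if_neg (not_lt.mpr hm)]
  have heval : ∀ μ ∈ primitiveRoots q (AlgebraicClosure ℚ), P.eval μ = 0 := by
    intro μ hμ
    have hμ' : IsPrimitiveRoot μ q := (mem_primitiveRoots hq.pos).mp hμ
    obtain ⟨k, -, hk⟩ := hζ.eq_pow_of_pow_eq_one hμ'.pow_eq_one
    have hkq : ¬ q ∣ k := by
      intro hdvd
      obtain ⟨c, rfl⟩ := hdvd
      rw [pow_mul, hζ.pow_eq_one, one_pow] at hk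
      exact hμ'.ne_one hq.one_lt hk.symm
    obtain ⟨σ, hσI, hσ⟩ := k0_zeta_trans hq A hA hζ hkq
    have h1 := congrArg σ hsum
    rw [map_sum, map_zero] at h1
    rw [hP, Polynomial.eval_finsetSum, ← h1]
    refine Finset.sum_congr rfl (fun i _ => ?_)
    rw [Polynomial.eval_mul, Polynomial.eval_C, Polynomial.eval_pow, Polynomial.eval_X, map_mul,
      map_pow, ha i σ hσI, hσ, hk]
  have hP0 : P = 0 := by
    refine Polynomial.eq_zero_of_degree_lt_of_eval_finset_eq_zero
      (primitiveRoots q (AlgebraicClosure ℚ)) ?_ heval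
    rw [hζ.card_primitiveRoots, Nat.totient_prime hq]
    exact hdeg
  intro i hi
  have := hcoeff i
  rw [hP0, Polynomial.coeff_zero, if_pos (Finset.mem_range.mp hi)] at this
  exact this.symm

end Trans

/-! ### The ring `O = A ∩ K0` -/

section Ring

/-- The subring `O = A ∩ ℚ̄^I` of `ℚ̄`: the elements of `A` fixed by the inertia group of `A`. -/
def k0Ring (A : ValuationSubring (AlgebraicClosure ℚ)) : Subring (AlgebraicClosure ℚ) where
  carrier := {x | x ∈ A ∧ ∀ σ ∈ A.inertiaSubgroupIn ℚ, σ x = x}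
  mul_mem' := fun ⟨ha, ha'⟩ ⟨hb, hb'⟩ =>
    ⟨A.mul_mem _ _ ha hb, fun σ hσ => by rw [map_mul, ha' σ hσ, hb' σ hσ]⟩
  one_mem' := ⟨A.one_mem, fun σ _ => map_one σ⟩
  add_mem' := fun ⟨ha, ha'⟩ ⟨hb, hb'⟩ =>
    ⟨A.add_mem _ _ ha hb, fun σ hσ => by rw [map_add, ha' σ hσ, hb' σ hσ]⟩
  zero_mem' := ⟨A.zero_mem, fun σ _ => map_zero σ⟩
  neg_mem' := fun ⟨ha, ha'⟩ => ⟨A.neg_mem _ ha, fun σ hσ => by rw [map_neg, ha' σ hσ]⟩

theorem mem_k0Ring_iff (A : ValuationSubring (AlgebraicClosure ℚ)) (x : AlgebraicClosure ℚ) :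
    x ∈ k0Ring A ↔ x ∈ A ∧ ∀ σ ∈ A.inertiaSubgroupIn ℚ, σ x = x := Iff.rfl

variable {q : ℕ} (hq : q.Prime) (A : ValuationSubring (AlgebraicClosure ℚ))
  (hA : A.LiesOverPrime q)

theorem k0Ring_valuation_le_one (a : k0Ring A) : A.valuation (a : AlgebraicClosure ℚ) ≤ 1 :=
  (A.valuation_le_one_iff _).mpr a.2.1

/-- the uniformiser `q` of `O` -/
noncomputable def k0Unif (q : ℕ) (A : ValuationSubring (AlgebraicClosure ℚ)) : k0Ring A :=
  ⟨((q : ℕ) : AlgebraicClosure ℚ), natCast_mem _ q, fun σ _ => map_natCast σ q⟩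

@[simp] theorem coe_k0Unif : ((k0Unif q A : k0Ring A) : AlgebraicClosure ℚ) = (q : ℕ) := rfl

/-- an element of `O` is a unit iff its valuation is one -/
theorem k0Ring_isUnit_iff (a : k0Ring A) :
    IsUnit a ↔ A.valuation (a : AlgebraicClosure ℚ) = 1 := by
  constructor
  · rintro ⟨u, rfl⟩
    have h1 := k0Ring_valuation_le_one A (u : k0Ring A)
    have h2 := k0Ring_valuation_le_one A ((u⁻¹ : (k0Ring A)ˣ) : k0Ring A)
    have h3 : ((u : k0Ring A) : AlgebraicClosure ℚ) * (((u⁻¹ : (k0Ring A)ˣ) : k0Ring A) :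
        AlgebraicClosure ℚ) = 1 := by
      rw [← Subring.coe_mul, Units.mul_inv, Subring.coe_one]
    have h4 := congrArg A.valuation h3
    rw [map_mul, map_one] at h4
    refine le_antisymm h1 ?_
    calc (1 : A.ValueGroup) = A.valuation ((u : k0Ring A) : AlgebraicClosure ℚ) *
          A.valuation ((((u⁻¹ : (k0Ring A)ˣ) : k0Ring A) : AlgebraicClosure ℚ)) := h4.symm
      _ ≤ A.valuation ((u : k0Ring A) : AlgebraicClosure ℚ) * 1 := by gcongr
      _ = A.valuation ((u : k0Ring A) : AlgebraicClosure ℚ) := mul_one _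
  · intro h
    have ha0 : (a : AlgebraicClosure ℚ) ≠ 0 := by
      intro h0
      rw [h0, map_zero] at h
      exact zero_ne_one h
    have hinv : (a : AlgebraicClosure ℚ)⁻¹ ∈ k0Ring A := by
      refine ⟨(A.valuation_le_one_iff _).mp (by rw [map_inv₀, h, inv_one]), fun σ hσ => ?_⟩
      rw [map_inv₀, a.2.2 σ hσ]
    refine ⟨⟨a, ⟨_, hinv⟩, ?_, ?_⟩, rfl⟩
    · exact Subtype.ext (mul_inv_cancel₀ ha0)
    · exact Subtype.ext (inv_mul_cancel₀ ha0)

include hq hA in
/-- every nonzero element of `O` is `q ^ m` times a unit of `O` -/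
theorem k0Ring_exists_pow_mul_unit (a : k0Ring A) (ha : a ≠ 0) :
    ∃ (m : ℕ) (u : (k0Ring A)ˣ), a = k0Unif q A ^ m * u := by
  have ha0 : (a : AlgebraicClosure ℚ) ≠ 0 := fun h0 => ha (Subtype.ext h0)
  obtain ⟨m, u, hu1, hufix, hau⟩ := k0_disc_unit hq A hA ha0 a.2.2
  have hvq : A.valuation ((q : ℕ) : AlgebraicClosure ℚ) < 1 := A.mem_nonunits_iff.mp hA
  have hvq0 : 0 < A.valuation ((q : ℕ) : AlgebraicClosure ℚ) :=
    zero_lt_iff.mpr ((Valuation.ne_zero_iff _).mpr (Nat.cast_ne_zero.mpr hq.ne_zero))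
  have hm : 0 ≤ m := by
    by_contra hneg
    have hlt : m < 0 := not_le.mp hneg
    have h1 := k0Ring_valuation_le_one A a
    rw [hau, map_mul, hu1, mul_one, map_zpow₀] at h1
    have h2 : (1 : A.ValueGroup) < A.valuation ((q : ℕ) : AlgebraicClosure ℚ) ^ m := by
      have := (zpow_lt_zpow_iff_right_of_lt_one₀ hvq0 hvq (m := 0) (n := m)).mpr hlt
      simpa using this
    exact absurd h1 (not_le.mpr h2)
  have huO : u ∈ k0Ring A := ⟨(A.valuation_le_one_iff _).mp hu1.le, hufix⟩
  have hunit : IsUnit (⟨u, huO⟩ : k0Ring A) := (k0Ring_isUnit_iff A _).mpr hu1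
  obtain ⟨w, hw⟩ := hunit
  refine ⟨m.toNat, w, ?_⟩
  apply Subtype.ext
  rw [Subring.coe_mul, Subring.coe_pow, hw, coe_k0Unif, hau]
  congr 1
  conv_lhs => rw [← Int.toNat_of_nonneg hm]
  rw [zpow_natCast]

include hq hA in
theorem k0Unif_irreducible : Irreducible (k0Unif q A) := by
  have hvq : A.valuation ((q : ℕ) : AlgebraicClosure ℚ) < 1 := A.mem_nonunits_iff.mp hA
  have hvq0 : 0 < A.valuation ((q : ℕ) : AlgebraicClosure ℚ) :=
    zero_lt_iff.mpr ((Valuation.ne_zero_iff _).mpr (Nat.cast_ne_zero.mpr hq.ne_zero))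
  have hq0 : k0Unif q A ≠ 0 := by
    intro h0
    have := congrArg (Subtype.val : k0Ring A → AlgebraicClosure ℚ) h0
    simp only [coe_k0Unif, ZeroMemClass.coe_zero] at this
    exact hq.ne_zero (by exact_mod_cast this)
  refine ⟨?_, ?_⟩
  · rw [k0Ring_isUnit_iff, coe_k0Unif]
    exact hvq.ne
  · intro a b hab
    have ha0 : a ≠ 0 := by
      rintro rfl
      rw [zero_mul] at hab
      exact hq0 hab
    have hb0 : b ≠ 0 := by
      rintro rfl
      rw [mul_zero] at hab
      exact hq0 hab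
    obtain ⟨i, u, hu⟩ := k0Ring_exists_pow_mul_unit hq A hA a ha0
    obtain ⟨j, w, hw⟩ := k0Ring_exists_pow_mul_unit hq A hA b hb0
    have hvu := (k0Ring_isUnit_iff A (u : k0Ring A)).mp u.isUnit
    have hvw := (k0Ring_isUnit_iff A (w : k0Ring A)).mp w.isUnit
    have h1 := congrArg (fun x : k0Ring A => A.valuation (x : AlgebraicClosure ℚ)) hab
    simp only [coe_k0Unif, Subring.coe_mul, map_mul] at h1
    rw [hu, hw] at h1
    simp only [Subring.coe_mul, Subring.coe_pow, coe_k0Unif, map_mul, map_pow, hvu, hvw,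
      mul_one] at h1
    rw [← pow_add] at h1
    have h2 : i + j = 1 := by
      have h3 : A.valuation ((q : ℕ) : AlgebraicClosure ℚ) ^ ((1 : ℕ) : ℤ) =
          A.valuation ((q : ℕ) : AlgebraicClosure ℚ) ^ ((i + j : ℕ) : ℤ) := by
        rw [zpow_natCast, zpow_natCast, pow_one]
        exact h1
      have := (zpow_right_inj₀ hvq0 hvq.ne).mp h3
      exact_mod_cast this.symm
    rcases Nat.eq_zero_or_pos i with hi | hi
    · left
      rw [hu, hi, pow_zero, one_mul]
      exact u.isUnit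
    · right
      have hj : j = 0 := by omega
      rw [hw, hj, pow_zero, one_mul]
      exact w.isUnit

include hq hA in
/-- **`O = A ∩ K0` is a discrete valuation ring** (with uniformiser `q`). -/
theorem k0Ring_isDiscreteValuationRing : IsDiscreteValuationRing (k0Ring A) := by
  apply IsDiscreteValuationRing.ofHasUnitMulPowIrreducibleFactorization
  refine ⟨k0Unif q A, k0Unif_irreducible hq A hA, ?_⟩
  intro x hx
  obtain ⟨m, u, hu⟩ := k0Ring_exists_pow_mul_unit hq A hA x hx
  exact ⟨m, u, hu.symm⟩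

include hq hA in
/-- an element of `O` is divisible by `q` iff its valuation is `< 1` -/
theorem k0Unif_dvd_iff (a : k0Ring A) :
    k0Unif q A ∣ a ↔ A.valuation (a : AlgebraicClosure ℚ) < 1 := by
  have hvq : A.valuation ((q : ℕ) : AlgebraicClosure ℚ) < 1 := A.mem_nonunits_iff.mp hA
  constructor
  · rintro ⟨b, rfl⟩
    rw [Subring.coe_mul, map_mul, coe_k0Unif]
    calc A.valuation ((q : ℕ) : AlgebraicClosure ℚ) * A.valuation (b : AlgebraicClosure ℚ)
        ≤ A.valuation ((q : ℕ) : AlgebraicClosure ℚ) * 1 := by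
          gcongr
          exact k0Ring_valuation_le_one A b
      _ = A.valuation ((q : ℕ) : AlgebraicClosure ℚ) := mul_one _
      _ < 1 := hvq
  · intro h
    rcases eq_or_ne a 0 with rfl | ha
    · exact dvd_zero _
    obtain ⟨m, u, hu⟩ := k0Ring_exists_pow_mul_unit hq A hA a ha
    rcases Nat.eq_zero_or_pos m with hm | hm
    · exfalso
      rw [hu, hm, pow_zero, one_mul] at h
      rw [(k0Ring_isUnit_iff A (u : k0Ring A)).mp u.isUnit] at h
      exact lt_irrefl _ h
    · rw [hu]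
      exact Dvd.dvd.mul_right (dvd_pow_self _ hm.ne') _

/-- the residue map `O → k_A` -/
noncomputable def k0Residue (A : ValuationSubring (AlgebraicClosure ℚ)) :
    k0Ring A →+* IsLocalRing.ResidueField A :=
  (IsLocalRing.residue A).comp (Subring.inclusion (fun _ hx => hx.1 : k0Ring A ≤ A.toSubring))

include hq hA in
/-- the residue field of `O` is the residue field of `A` -/
theorem k0Residue_surjective : Function.Surjective (k0Residue A) := by
  intro xbar
  obtain ⟨a, rfl⟩ := IsLocalRing.residue_surjective xbar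
  obtain ⟨b, hbA, hbfix, hlt⟩ := k0_res hq A hA a.2
  refine ⟨⟨b, hbA, hbfix⟩, ?_⟩
  show IsLocalRing.residue A ⟨b, hbA⟩ = IsLocalRing.residue A a
  rw [← sub_eq_zero, ← map_sub, IsLocalRing.residue_eq_zero_iff, A.valuation_lt_one_iff]
  have : ((⟨b, hbA⟩ - a : A) : AlgebraicClosure ℚ) = -((a : AlgebraicClosure ℚ) - b) := by
    simp
  rw [this, Valuation.map_neg]
  exact hlt

include hq hA in
/-- the kernel of the residue map is generated by `q` -/
theorem k0Residue_eq_zero_iff (a : k0Ring A) : k0Residue A a = 0 ↔ k0Unif q A ∣ a := by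
  rw [k0Unif_dvd_iff hq A hA]
  show IsLocalRing.residue A ⟨a, a.2.1⟩ = 0 ↔ _
  rw [IsLocalRing.residue_eq_zero_iff, A.valuation_lt_one_iff]

end Ring

end Fermat.Agent.T3.helper84
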