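/-
T3 / S36, box [HOR] of `helper22.Ideal3Rest` (helper84, second prover), ABSTRACT part:
**Galois descent without traces** for finite-dimensional spaces of Laurent series.

Mathlib + the Prelude's `coeffMap` vocabulary only.

`K` a field, `V` a finite-dimensional `K`-subspace of `K((t))`, `G` a set of ring endomorphisms
of `K` acting coefficientwise and preserving `V`.

* `hor_exists_order_bound`   : the orders of the nonzero elements of `V` are bounded above;
* `hor_exists_max_order`     : a nonzero element of maximal order, with leading coefficient `1`;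
* `hor_fixed_of_max_order`   : such an element is fixed by `G` (uniqueness);
* `hor_le_span_fixed`        : **`V` is spanned by its `G`-fixed elements**;
* `hor_exists_fixed_notMem`  : if `W` is a `K`-subspace and `V ⊄ W`, some `G`-fixed element of `V`
                               is not in `W`.
-/
import Mathlib
import Fermat.Prelude.Def_ModularCurve_LaurentCoeff

set_option autoImplicit false
set_option linter.unusedSectionVars false
set_option linter.style.haveILetI false
set_option linter.style.longLine false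

open HahnSeries ModularCurve

noncomputable section

namespace Fermat.Agent.T3.helper84

section Descent

variable {K : Type*} [Field K]

/-- the `m`-th coefficient, as a linear functional -/
def horCoeff (m : ℤ) : LaurentSeries K →ₗ[K] K where
  toFun x := x.coeff m
  map_add' x y := by simp
  map_smul' c x := by simp

@[simp] theorem horCoeff_apply (m : ℤ) (x : LaurentSeries K) : horCoeff m x = x.coeff m := rfl

/-- the subspace of `V` where the `m`-th coefficient vanishes -/
def horCut (V : Submodule K (LaurentSeries K)) (m : ℤ) : Submodule K (LaurentSeries K) :=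
  V ⊓ LinearMap.ker (horCoeff (K := K) m)

theorem mem_horCut {V : Submodule K (LaurentSeries K)} {m : ℤ} {x : LaurentSeries K} :
    x ∈ horCut V m ↔ x ∈ V ∧ x.coeff m = 0 := by
  unfold horCut
  rw [Submodule.mem_inf, LinearMap.mem_ker, horCoeff_apply]

theorem horCut_le (V : Submodule K (LaurentSeries K)) (m : ℤ) : horCut V m ≤ V := inf_le_left

/-- the cut is strictly smaller when some element of `V` has nonzero `m`-th coefficient -/
theorem horCut_finrank_lt (V : Submodule K (LaurentSeries K)) [FiniteDimensional K V] {m : ℤ}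
    {b : LaurentSeries K} (hb : b ∈ V) (hbm : b.coeff m ≠ 0) :
    Module.finrank K (horCut V m) < Module.finrank K V := by
  apply Submodule.finrank_lt_finrank_of_lt
  refine lt_of_le_of_ne (horCut_le V m) ?_
  intro h
  have : b ∈ horCut V m := by rw [h]; exact hb
  exact hbm (mem_horCut.mp this).2

instance horCut_finiteDimensional (V : Submodule K (LaurentSeries K)) [FiniteDimensional K V]
    (m : ℤ) : FiniteDimensional K (horCut V m) :=
  Submodule.finiteDimensional_of_le (horCut_le V m)

/-- the orders of the nonzero elements of a finite-dimensional space of Laurent series are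
bounded above -/
theorem hor_exists_order_bound :
    ∀ (d : ℕ) (V : Submodule K (LaurentSeries K)) [FiniteDimensional K V],
      Module.finrank K V = d → ∃ B : ℤ, ∀ v ∈ V, v ≠ 0 → v.order ≤ B := by
  intro d
  induction d using Nat.strong_induction_on with
  | _ d ih =>
    intro V _ hd
    by_cases hV : ∀ v ∈ V, v = 0
    · exact ⟨0, fun v hv hv0 => absurd (hV v hv) hv0⟩
    · push Not at hV
      obtain ⟨v₀, hv₀, hv₀0⟩ := hV
      have hc : v₀.coeff v₀.order ≠ 0 := fun h => hv₀0 (HahnSeries.coeff_order_eq_zero.mp h)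
      have hlt := horCut_finrank_lt V hv₀ hc
      obtain ⟨B₁, hB₁⟩ := ih _ (hd ▸ hlt) (horCut V v₀.order) rfl
      refine ⟨max B₁ v₀.order, fun v hv hv0 => ?_⟩
      by_cases hvc : v.coeff v₀.order = 0
      · exact (hB₁ v (mem_horCut.mpr ⟨hv, hvc⟩) hv0).trans (le_max_left _ _)
      · exact (HahnSeries.order_le_of_coeff_ne_zero hvc).trans (le_max_right _ _)

/-- a nonzero finite-dimensional space of Laurent series has an element of maximal order, with
leading coefficient `1` -/
theorem hor_exists_max_order (V : Submodule K (LaurentSeries K)) [FiniteDimensional K V]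
    {v₀ : LaurentSeries K} (hv₀ : v₀ ∈ V) (hv₀0 : v₀ ≠ 0) :
    ∃ (b : LaurentSeries K) (m : ℤ), b ∈ V ∧ b.coeff m = 1 ∧ (∀ k < m, b.coeff k = 0) ∧
      ∀ v ∈ V, v ≠ 0 → v.order ≤ m := by
  obtain ⟨B, hB⟩ := hor_exists_order_bound (Module.finrank K V) V rfl
  obtain ⟨m, ⟨b, hb, hb0, hbm⟩, hmax⟩ := Int.exists_greatest_of_bdd
    (P := fun o => ∃ v ∈ V, v ≠ 0 ∧ v.order = o)
    ⟨B, fun o ⟨v, hv, hv0, ho⟩ => ho ▸ hB v hv hv0⟩ ⟨v₀.order, v₀, hv₀, hv₀0, rfl⟩
  have hc : b.coeff m ≠ 0 := by
    rw [← hbm]
    exact fun h => hb0 (HahnSeries.coeff_order_eq_zero.mp h)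
  refine ⟨(b.coeff m)⁻¹ • b, m, V.smul_mem _ hb, ?_, ?_, ?_⟩
  · rw [HahnSeries.coeff_smul, smul_eq_mul, inv_mul_cancel₀ hc]
  · intro k hk
    have hk0 : b.coeff k = 0 := HahnSeries.coeff_eq_zero_of_lt_order (by rw [hbm]; exact hk)
    rw [HahnSeries.coeff_smul, hk0, smul_zero]
  · intro v hv hv0
    exact hmax _ ⟨v, hv, hv0, rfl⟩

variable (G : Set (K →+* K))

/-- an element of maximal order with leading coefficient `1` is fixed by every coefficientwise
endomorphism preserving `V` -/
theorem hor_fixed_of_max_order (V : Submodule K (LaurentSeries K))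
    (hV : ∀ σ ∈ G, ∀ v ∈ V, coeffMap σ v ∈ V)
    {b : LaurentSeries K} {m : ℤ} (hb : b ∈ V) (hbm : b.coeff m = 1)
    (hlow : ∀ k < m, b.coeff k = 0) (hmax : ∀ v ∈ V, v ≠ 0 → v.order ≤ m) :
    ∀ σ ∈ G, coeffMap σ b = b := by
  intro σ hσ
  by_contra hne
  have hd : coeffMap σ b - b ≠ 0 := sub_ne_zero.mpr hne
  have hdV : coeffMap σ b - b ∈ V := V.sub_mem (hV σ hσ b hb) hb
  have ho := hmax _ hdV hd
  have hc : (coeffMap σ b - b).coeff (coeffMap σ b - b).order ≠ 0 :=
    fun h => hd (HahnSeries.coeff_order_eq_zero.mp h)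
  apply hc
  rw [HahnSeries.coeff_sub, coeffMap_coeff]
  rcases lt_or_eq_of_le ho with h | h
  · rw [hlow _ h, map_zero, sub_zero]
  · rw [h, hbm, map_one, sub_self]

/-- **Galois descent without traces**: a finite-dimensional space of Laurent series which is
stable under a set `G` of coefficientwise endomorphisms is spanned by its `G`-fixed elements. -/
theorem hor_le_span_fixed :
    ∀ (d : ℕ) (V : Submodule K (LaurentSeries K)) [FiniteDimensional K V],
      Module.finrank K V = d → (∀ σ ∈ G, ∀ v ∈ V, coeffMap σ v ∈ V) →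
      V ≤ Submodule.span K {w | w ∈ V ∧ ∀ σ ∈ G, coeffMap σ w = w} := by
  intro d
  induction d using Nat.strong_induction_on with
  | _ d ih =>
    intro V _ hd hV
    by_cases hV0 : ∀ v ∈ V, v = 0
    · intro v hv
      rw [hV0 v hv]
      exact Submodule.zero_mem _
    · push Not at hV0
      obtain ⟨v₀, hv₀, hv₀0⟩ := hV0
      obtain ⟨b, m, hb, hbm, hlow, hmax⟩ := hor_exists_max_order V hv₀ hv₀0
      have hbfix := hor_fixed_of_max_order G V hV hb hbm hlow hmax
      have hlt := horCut_finrank_lt V hb (by rw [hbm]; exact one_ne_zero)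
      have hV₁ : ∀ σ ∈ G, ∀ v ∈ horCut V m, coeffMap σ v ∈ horCut V m := by
        intro σ hσ v hv
        obtain ⟨h1, h2⟩ := mem_horCut.mp hv
        exact mem_horCut.mpr ⟨hV σ hσ v h1, by rw [coeffMap_coeff, h2, map_zero]⟩
      have h₁ := ih _ (hd ▸ hlt) (horCut V m) rfl hV₁
      have hmono : Submodule.span K {w | w ∈ horCut V m ∧ ∀ σ ∈ G, coeffMap σ w = w} ≤
          Submodule.span K {w | w ∈ V ∧ ∀ σ ∈ G, coeffMap σ w = w} :=
        Submodule.span_mono fun w hw => ⟨horCut_le V m hw.1, hw.2⟩
      intro v hv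
      have hdec : v = v.coeff m • b + (v - v.coeff m • b) := by abel
      rw [hdec]
      refine Submodule.add_mem _ (Submodule.smul_mem _ _ (Submodule.subset_span ⟨hb, hbfix⟩)) ?_
      apply hmono
      apply h₁
      refine mem_horCut.mpr ⟨V.sub_mem hv (V.smul_mem _ hb), ?_⟩
      rw [HahnSeries.coeff_sub, HahnSeries.coeff_smul, hbm, smul_eq_mul, mul_one, sub_self]

/-- if `V ⊄ W`, some `G`-fixed element of `V` is not in `W` -/
theorem hor_exists_fixed_notMem (V : Submodule K (LaurentSeries K)) [FiniteDimensional K V]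
    (hV : ∀ σ ∈ G, ∀ v ∈ V, coeffMap σ v ∈ V) (W : Submodule K (LaurentSeries K))
    {t : LaurentSeries K} (ht : t ∈ V) (htW : t ∉ W) :
    ∃ w ∈ V, (∀ σ ∈ G, coeffMap σ w = w) ∧ w ∉ W := by
  by_contra hcon
  push Not at hcon
  apply htW
  have h := hor_le_span_fixed G (Module.finrank K V) V rfl hV ht
  refine (Submodule.span_le (p := W)).mpr ?_ h
  intro w hw
  exact hcon w hw.1 hw.2

end Descent

end Fermat.Agent.T3.helper84

end
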