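/-
T3 / S36, box [HOR] of `helper22.Ideal3Rest` (helper84), part 3: the EXACT-ORDER element.

`u ≠ 0` inertia-fixed of level `M` with `n ∣ div u` (`n ≠ 0`), `P` a place where `j` is finite.
Then there is an inertia-fixed `w ≠ 0` with `n · ord_Q w ≥ ord_Q u` at every place `Q` where `j`
is finite, and `n · ord_P w = ord_P u`.

Route: `E := - (div u / n)` off the poles of `j`, `+ m [∞]`; `t` with the prescribed orders
(`P2.helper74.exists_prescribed_ord`, auxiliary pole at `∞`) lies in `L(E)` and not in
`L(E - P)`; `L(E)` is finite-dimensional and stable under the inertia group, so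
(`hor_exists_fixed_notMem`) some inertia-fixed element of `L(E)` is not in `L(E - P)`.

* `hor_order_coeffMap`  : coefficientwise automorphisms preserve the order;
* `hor_ord_smul`        : `ord_v (σ f) = ord_{σ⁻¹ v} f`;
* `hor_smul_infty`      : `σ ∞ = ∞`;
* `hor_exists_exact`    : the exact-order element.
-/
import Mathlib
import Fermat.Agent.T3.helper84_HorAbs
import Fermat.Agent.P2.helper74_NonSpecial
import Fermat.Agent.P2.helper74_RieInst
import Fermat.Agent.P2.helper29_Infty
import Fermat.Agent.T3.helper74_Sat3Defs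
import Fermat.Prelude.Def_ModularCurve_ArithmeticGalois

set_option autoImplicit false
set_option linter.unusedSectionVars false
set_option linter.unusedVariables false
set_option linter.style.haveILetI false
set_option linter.style.longLine false

open HahnSeries ModularCurve IntermediateField AlgebraicCurve
open Fermat.Agent.S18.helper19 Fermat.Agent.P2.helper29 Fermat.Agent.S24

noncomputable section

namespace Fermat.Agent.T3.helper84

open Fermat.Agent.T3.helper74 (IsFixI)

section Places

variable (M : ℕ) [NeZero M]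

/-- the semilinear automorphism of `F_M` attached to `σ` -/
abbrev horAut (σ : Kb ≃ₐ[ℚ] Kb) : SemilinearAut Kb (FF M) :=
  arithmeticGalois (modularFunctionFieldFull M) σ

variable {M}

theorem horAut_smul (σ : Kb ≃ₐ[ℚ] Kb) (f : FF M) :
    horAut M σ • f = arithmeticRingAut (modularFunctionFieldFull M) σ f := rfl

/-- `ord_v (σ f) = ord_{σ⁻¹ v} f` -/
theorem hor_ord_smul (σ : Kb ≃ₐ[ℚ] Kb) (v : Place Kb (FF M)) (f : FF M) :
    v.ord (arithmeticRingAut (modularFunctionFieldFull M) σ f) = ((horAut M σ)⁻¹ • v).ord f := by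
  have h := SemilinearAut.ord_smul (horAut M σ) ((horAut M σ)⁻¹ • v) f
  rw [smul_inv_smul] at h
  exact h

/-- the orders of a `σ`-fixed function are `σ`-invariant -/
theorem hor_ord_of_fix {σ : Kb ≃ₐ[ℚ] Kb} {f : FF M}
    (hf : arithmeticRingAut (modularFunctionFieldFull M) σ f = f) (v : Place Kb (FF M)) :
    ((horAut M σ)⁻¹ • v).ord f = v.ord f := by
  rw [← hor_ord_smul, hf]

/-- coefficientwise automorphisms preserve the order -/
theorem hor_order_coeffMap (σ : Kb ≃ₐ[ℚ] Kb) (x : LaurentSeries Kb) :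
    (coeffMap (σ : Kb →+* Kb) x).order = x.order := by
  have hinj : Function.Injective ((σ : Kb →+* Kb)) := σ.injective
  by_cases hx : x = 0
  · rw [hx, map_zero]
  have hx' : coeffMap (σ : Kb →+* Kb) x ≠ 0 := by
    intro h0
    apply hx
    ext k
    have := congrArg (fun z => HahnSeries.coeff z k) h0
    simp only [coeffMap_coeff, HahnSeries.coeff_zero] at this
    exact hinj (this.trans (map_zero _).symm)
  apply le_antisymm
  · apply HahnSeries.order_le_of_coeff_ne_zero
    rw [coeffMap_coeff]
    intro h0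
    exact hx (HahnSeries.coeff_order_eq_zero.mp (hinj (h0.trans (map_zero _).symm)))
  · have h1 : (coeffMap (σ : Kb →+* Kb) x).coeff (coeffMap (σ : Kb →+* Kb) x).order ≠ 0 :=
      fun h0 => hx' (HahnSeries.coeff_order_eq_zero.mp h0)
    rw [coeffMap_coeff] at h1
    have h2 : x.coeff (coeffMap (σ : Kb →+* Kb) x).order ≠ 0 := fun h0 => h1 (by rw [h0, map_zero])
    exact HahnSeries.order_le_of_coeff_ne_zero h2

/-- the place at infinity is fixed by the Galois action -/
theorem hor_smul_infty (σ : Kb ≃ₐ[ℚ] Kb) : (horAut M σ)⁻¹ • inftyBar M = inftyBar M := by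
  refine IsInfty.unique (FF M) ?_ (isInfty_inftyBar M)
  intro f hf
  rw [← hor_ord_smul]
  have hf' : arithmeticRingAut (modularFunctionFieldFull M) σ f ≠ 0 :=
    (map_ne_zero_iff _ (arithmeticRingAut (modularFunctionFieldFull M) σ).injective).mpr hf
  rw [isInfty_inftyBar M _ hf', coe_arithmeticRingAut_apply, hor_order_coeffMap]

/-- a place is the place at infinity iff its translate is -/
theorem hor_smul_eq_infty_iff (σ : Kb ≃ₐ[ℚ] Kb) (v : Place Kb (FF M)) :
    (horAut M σ)⁻¹ • v = inftyBar M ↔ v = inftyBar M := by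
  constructor
  · intro h
    have h1 := congrArg (fun w => horAut M σ • w) h
    simp only [smul_inv_smul] at h1
    rw [h1]
    have h2 := congrArg (fun w => horAut M σ • w) (hor_smul_infty (M := M) σ)
    simp only [smul_inv_smul] at h2
    exact h2.symm
  · rintro rfl
    exact hor_smul_infty σ


/-- the two scalar multiplications on `ℚ̄((t))` agree -/
theorem hor_smul_eq (c : Kb) (x : LaurentSeries Kb) :
    c • x = algebraMap Kb (LaurentSeries Kb) c * x := by
  rw [algebraMap_laurentSeries_eq_single]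
  ext m
  rw [HahnSeries.coeff_smul, HahnSeries.coeff_single_zero_mul, smul_eq_mul]

variable (M) in
/-- the expansion at infinity, as a linear map (for the coefficientwise module structure of
`ℚ̄((t))`) -/
def horIota : FF M →ₗ[Kb] LaurentSeries Kb where
  toFun f := (f : LaurentSeries Kb)
  map_add' _ _ := rfl
  map_smul' c f := by
    show ((c • f : FF M) : LaurentSeries Kb) = c • (f : LaurentSeries Kb)
    rw [hor_smul_eq, Algebra.smul_def]
    rfl

@[simp] theorem horIota_apply (f : FF M) : horIota M f = (f : LaurentSeries Kb) := rfl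

theorem horIota_injective : Function.Injective (horIota M) := fun _ _ h => Subtype.ext h

/-- `j` has a pole at infinity -/
theorem hor_ord_jElt_infty : (inftyBar M).ord (jElt M) < 0 := by
  have h0 : jElt M ≠ 0 := by
    intro h
    have h1 := congrArg (fun x : FF M => (x : LaurentSeries Kb).order) h
    simp only [ZeroMemClass.coe_zero, HahnSeries.order_zero] at h1
    have h2 : ((jElt M : FF M) : LaurentSeries Kb).order = -1 := order_jqModC Kb
    rw [h2] at h1
    omega
  rw [isInfty_inftyBar M _ h0]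
  have h2 : ((jElt M : FF M) : LaurentSeries Kb).order = -1 := order_jqModC Kb
  rw [h2]
  omega

/-- `j` is fixed by the Galois action -/
theorem hor_fix_jElt (σ : Kb ≃ₐ[ℚ] Kb) :
    arithmeticRingAut (modularFunctionFieldFull M) σ (jElt M) = jElt M := by
  apply Subtype.ext
  rw [coe_arithmeticRingAut_apply]
  show coeffMap (σ : Kb →+* Kb) (jqModC Kb) = jqModC Kb
  exact coeffMap_jqModC _

variable (A : ValuationSubring Kb)

/-- **the exact-order element**: `u ≠ 0` inertia-fixed with `n ∣ div u`, `P` a place where `j`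
is finite.  There is an inertia-fixed `w ≠ 0` with `n · ord_Q w ≥ ord_Q u` wherever `j` is
finite, and equality at `P`. -/
theorem hor_exists_exact {n : ℕ} (hn : n ≠ 0) {u : FF M} (hu0 : u ≠ 0) (hufix : IsFixI A M u)
    (hdiv : ∀ Q : Place Kb (FF M), (n : ℤ) ∣ Q.ord u)
    (P : Place Kb (FF M)) (hP : 0 ≤ P.ord (jElt M)) :
    ∃ w : FF M, w ≠ 0 ∧ IsFixI A M w ∧
      (∀ Q : Place Kb (FF M), 0 ≤ Q.ord (jElt M) → Q.ord u ≤ n * Q.ord w) ∧
      (n : ℤ) * P.ord w = P.ord u := by
  classical
  have hS := Fermat.Agent.P2.helper74.riemannSetting_FF M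
  obtain ⟨g, -, c, hc⟩ := Fermat.Agent.P2.helper74.riemannStatement M
  haveI := hS.principal
  obtain ⟨Du, hDu, -⟩ := HasPrincipalDivisors.exists_divisor (K := Kb) u hu0
  have hn' : (n : ℤ) ≠ 0 := Int.natCast_ne_zero.mpr hn
  -- the place at infinity
  have hPinf : P ≠ inftyBar M := by
    rintro rfl
    exact absurd hP (not_le.mpr hor_ord_jElt_infty)
  -- the prescribed orders
  set nfun : Place Kb (FF M) → ℤ := fun Q => if 0 ≤ Q.ord (jElt M) then Q.ord u / n else 0
    with hnfun
  set T : Finset (Place Kb (FF M)) := (insert P Du.support).erase (inftyBar M) with hT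
  obtain ⟨t, ht0, htT, htoff⟩ := Fermat.Agent.P2.helper74.exists_prescribed_ord hS hc T nfun
    (inftyBar M) (Finset.notMem_erase _ _)
  have hsupp : ∀ Q : Place Kb (FF M), Q ∉ Du.support → nfun Q = 0 := by
    intro Q hQ
    have h0 : Q.ord u = 0 := by
      rw [← hDu Q]
      exact Finsupp.notMem_support_iff.mp hQ
    simp only [hnfun, h0, Int.zero_ediv, ite_self]
  have ht : ∀ Q : Place Kb (FF M), Q ≠ inftyBar M → nfun Q ≤ Q.ord t := by
    intro Q hQ
    by_cases hQT : Q ∈ T
    · exact (htT Q hQT).ge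
    · have h1 : Q ∉ Du.support := by
        intro h
        exact hQT (Finset.mem_erase.mpr ⟨hQ, Finset.mem_insert_of_mem h⟩)
      rw [hsupp Q h1]
      exact htoff Q hQT hQ
  have htP : P.ord t = nfun P :=
    htT P (Finset.mem_erase.mpr ⟨hPinf, Finset.mem_insert_self _ _⟩)
  -- the divisor `E`
  set efun : Place Kb (FF M) → ℤ :=
    fun Q => if Q = inftyBar M then -((inftyBar M).ord t) else -(nfun Q) with hefun
  set E : Divisor Kb (FF M) := Finsupp.onFinset (insert (inftyBar M) Du.support) efun (by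
    intro Q hQ
    by_contra hmem
    rw [Finset.mem_insert, not_or] at hmem
    apply hQ
    simp only [hefun, if_neg hmem.1, hsupp Q hmem.2, neg_zero]) with hE
  have hEinf : E (inftyBar M) = -((inftyBar M).ord t) := by
    rw [hE, Finsupp.onFinset_apply]
    simp only [hefun, if_true]
  have hEoff : ∀ Q : Place Kb (FF M), Q ≠ inftyBar M → E Q = -(nfun Q) := by
    intro Q hQ
    rw [hE, Finsupp.onFinset_apply]
    simp only [hefun, if_neg hQ]
  -- invariance of `E`
  have hnfun_inv : ∀ σ ∈ A.inertiaSubgroupIn ℚ, ∀ v : Place Kb (FF M),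
      nfun ((horAut M σ)⁻¹ • v) = nfun v := by
    intro σ hσ v
    simp only [hnfun]
    rw [hor_ord_of_fix (hor_fix_jElt σ) v, hor_ord_of_fix (hufix σ hσ) v]
  have hE_inv : ∀ σ ∈ A.inertiaSubgroupIn ℚ, ∀ v : Place Kb (FF M),
      E ((horAut M σ)⁻¹ • v) = E v := by
    intro σ hσ v
    by_cases hv : v = inftyBar M
    · rw [hv, hor_smul_infty]
    · have hv' : (horAut M σ)⁻¹ • v ≠ inftyBar M := fun h => hv ((hor_smul_eq_infty_iff σ v).mp h)
      rw [hEoff _ hv', hEoff _ hv, hnfun_inv σ hσ v]
  -- the spaces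
  haveI : FiniteDimensional Kb (riemannRochSpace E) :=
    Fermat.Agent.P2.helper74.finiteDimensional_L hS E
  let ι : FF M →ₗ[Kb] LaurentSeries Kb := horIota M
  have hι : Function.Injective ι := horIota_injective
  set V : Submodule Kb (LaurentSeries Kb) := (riemannRochSpace E).map ι with hV
  set W : Submodule Kb (LaurentSeries Kb) :=
    (riemannRochSpace (E - Finsupp.single P 1)).map ι with hW
  haveI : FiniteDimensional Kb V := by
    rw [hV]
    infer_instance
  set G : Set (Kb →+* Kb) := {τ | ∃ σ ∈ A.inertiaSubgroupIn ℚ, τ = (σ : Kb →+* Kb)} with hG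
  have hVstab : ∀ τ ∈ G, ∀ x ∈ V, coeffMap τ x ∈ V := by
    rintro τ ⟨σ, hσ, rfl⟩ x ⟨f, hf, rfl⟩
    refine ⟨arithmeticRingAut (modularFunctionFieldFull M) σ f, ?_, rfl⟩
    rw [SetLike.mem_coe, Fermat.Agent.P2.helper74.mem_L_iff] at hf ⊢
    intro v
    rcases hf ((horAut M σ)⁻¹ • v) with h0 | h1
    · left
      rw [h0, map_zero]
    · right
      rw [hor_ord_smul, ← hE_inv σ hσ v]
      exact h1
  have htV : ι t ∈ V := by
    refine ⟨t, ?_, rfl⟩
    rw [SetLike.mem_coe, Fermat.Agent.P2.helper74.mem_L_iff' ht0]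
    intro v
    by_cases hv : v = inftyBar M
    · rw [hv, hEinf, neg_neg]
    · rw [hEoff v hv, neg_neg]
      exact ht v hv
  have hEP : E P = -(nfun P) := hEoff P hPinf
  have htW : ι t ∉ W := by
    rintro ⟨f, hf, hft⟩
    have hft' : f = t := hι hft
    rw [hft', SetLike.mem_coe, Fermat.Agent.P2.helper74.mem_L_iff' ht0] at hf
    have h1 := hf P
    rw [Finsupp.coe_sub, Pi.sub_apply, Finsupp.single_eq_same, hEP, htP] at h1
    omega
  obtain ⟨x, hxV, hxfix, hxW⟩ := hor_exists_fixed_notMem G V hVstab W htV htW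
  obtain ⟨w, hw, rfl⟩ := hxV
  have hw0 : w ≠ 0 := by
    rintro rfl
    apply hxW
    rw [map_zero]
    exact W.zero_mem
  rw [SetLike.mem_coe, Fermat.Agent.P2.helper74.mem_L_iff' hw0] at hw
  have hwfix : IsFixI A M w := by
    intro σ hσ
    apply Subtype.ext
    rw [coe_arithmeticRingAut_apply]
    exact hxfix _ ⟨σ, hσ, rfl⟩
  have hdivQ : ∀ Q : Place Kb (FF M), 0 ≤ Q.ord (jElt M) → (n : ℤ) * nfun Q = Q.ord u := by
    intro Q hQ
    simp only [hnfun, if_pos hQ]
    exact Int.mul_ediv_cancel' (hdiv Q)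
  have hQinf : ∀ Q : Place Kb (FF M), 0 ≤ Q.ord (jElt M) → Q ≠ inftyBar M := by
    rintro Q hQ rfl
    exact absurd hQ (not_le.mpr hor_ord_jElt_infty)
  have hnpos : (0 : ℤ) < n := by
    have := Nat.pos_of_ne_zero hn
    exact_mod_cast this
  refine ⟨w, hw0, hwfix, ?_, ?_⟩
  · intro Q hQ
    have h1 := hw Q
    rw [hEoff Q (hQinf Q hQ), neg_neg] at h1
    rw [← hdivQ Q hQ]
    exact mul_le_mul_of_nonneg_left h1 hnpos.le
  · have h1 := hw P
    rw [hEP, neg_neg] at h1
    have h2 : ¬ (nfun P + 1 ≤ P.ord w) := by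
      intro h
      apply hxW
      refine ⟨w, ?_, rfl⟩
      rw [SetLike.mem_coe, Fermat.Agent.P2.helper74.mem_L_iff' hw0]
      intro v
      by_cases hv : v = P
      · rw [hv, Finsupp.coe_sub, Pi.sub_apply, Finsupp.single_eq_same, hEP]
        omega
      · rw [Finsupp.coe_sub, Pi.sub_apply, Finsupp.single_eq_of_ne hv, sub_zero]
        exact hw v
    have h3 : P.ord w = nfun P := by omega
    rw [h3]
    exact hdivQ P hP

end Places

end Fermat.Agent.T3.helper84

end
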