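import Mathlib
import Fermat.Agent.T2.helper87_RegRed2
import Fermat.Agent.T2.helper48_UOpDeg

/-!
# Tier 3, [T3-VAL3] (helper87): the embeddings of `F_{N q²}` at the middle cusps

Setting: `q` a prime not dividing `N`; levels `N q` and `N q q`; `α, β : F_{Nq} → F_{Nqq}` the two
degeneracy maps (`f(τ)`, `f(q τ)`), `W'` the Atkin–Lehner involution of `F_{Nq}`.

The curve `X₀(N q²)` has, over the cusp `∞` of `X₀(N q)` (along `α`), the cusp `∞` and the `q - 1`
"middle" cusps `a / q`.  The expansions at the middle cusps are the embeddings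
`E_k : F_{Nqq} → ℚ̄((t))`, `k = 1, …, q - 1`, characterised by

* `E_k ∘ α = ` inclusion,
* `E_k ∘ β = (f ↦ (W' f)(ζ^k t))`.

They are constructed here without analysis: `[F_{Nqq} : α F_{Nq}] = q`, every embedding over
`α F_{Nq}` into an algebraic closure composed with `β` is one of the `q + 1` embeddings `embW` of
`F_{Nq}` over `α F_N` (T2 RegRed2), the value `some 0` is impossible, and one counts.

Main results: `exists_embMid`, `embMid`, `embMid_alpha`, `embMid_beta`, `embMid_unique`.
The full family of `q` embeddings over `α F_{Nq}` and the Galois equivariance are in the follow-up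
file `helper87_EmbAll.lean`.
-/

set_option autoImplicit false
set_option synthInstance.maxHeartbeats 400000
set_option linter.style.haveILetI false
set_option linter.unusedSectionVars false
set_option linter.unusedVariables false
set_option linter.style.longLine false

noncomputable section

open HahnSeries IntermediateField AlgebraicCurve ModularCurve
open Fermat.Agent.S18.helper19 Fermat.Agent.P2.helper29 Fermat.Agent.T2.helper36

namespace Fermat.Agent.T3.helper87

open Fermat.Agent.P2.helper93 (twistL twistL_coeff)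
open Fermat.Agent.T2.helper87 (embW embW_none embW_some embW_alpha embW_injective coeHom
  coeHom_apply twistHom)

/-! ### Classification of ring homomorphisms by a full family of embeddings -/

section Abstract

open Module

/-- `E / F` finite separable, `τ` an injective family of `[E : F]` ring homomorphisms `E → Ω`
with the same restriction `σ` to `F`: every ring homomorphism of `E` into an algebraically closed
field `L ⊇ Ω` restricting to `σ` is one of the `τ i`. -/
theorem exists_eq_of_embeddings {F E Ω : Type*} [Field F] [Field E] [Field Ω]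
    [Algebra F E] [FiniteDimensional F E] [Algebra.IsSeparable F E] (σ : F →+* Ω) {ι : Type*}
    [Fintype ι] (τ : ι → (E →+* Ω)) (hτ : Function.Injective τ)
    (hcomp : ∀ i, (τ i).comp (algebraMap F E) = σ)
    (hcard : Fintype.card ι = finrank F E)
    {L : Type*} [Field L] [IsAlgClosed L] (j : Ω →+* L) (ψ : E →+* L)
    (hψ : ψ.comp (algebraMap F E) = j.comp σ) : ∃ i, ψ = j.comp (τ i) := by
  classical
  let _ : Algebra F L := (j.comp σ).toAlgebra
  have halg : ∀ a : F, algebraMap F L a = j (σ a) := fun a => rfl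
  let τ' : ι → (E →ₐ[F] L) := fun i =>
    { j.comp (τ i) with
      commutes' := fun a => by
        show j (τ i (algebraMap F E a)) = algebraMap F L a
        rw [halg, ← hcomp i]
        rfl }
  have hτ'app : ∀ i y, τ' i y = j (τ i y) := fun i y => rfl
  have hinj : Function.Injective τ' := by
    intro i k hik
    apply hτ
    ext y
    have := congrArg (fun f : E →ₐ[F] L => f y) hik
    simp only [hτ'app] at this
    exact j.injective this
  have hcard' : Fintype.card ι = Fintype.card (E →ₐ[F] L) := by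
    rw [hcard, AlgHom.card F E L]
  have hsurj : Function.Surjective τ' :=
    ((Fintype.bijective_iff_injective_and_card τ').mpr ⟨hinj, hcard'⟩).2
  let ψ' : E →ₐ[F] L :=
    { ψ with
      commutes' := fun a => by
        show ψ (algebraMap F E a) = algebraMap F L a
        rw [halg]
        exact congrArg (fun f : F →+* L => f a) hψ }
  obtain ⟨i, hi⟩ := hsurj ψ'
  refine ⟨i, ?_⟩
  ext y
  have := congrArg (fun f : E →ₐ[F] L => f y) hi
  exact this.symm

end Abstract

/-! ### Generation of `F_{Nqq}` by the images of `α` and `β` -/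

section Gen

variable (N q : ℕ) [NeZero N] [NeZero q]

/-- the generators of `F_{M q}` are images under `α` or `β` of generators of `F_M`. -/
theorem genBar_mem_alpha_or_beta (M : ℕ) [NeZero M] (hq : q.Prime) (d : (M * q).divisors) :
    (∃ e : M.divisors, genBar (M * q) d = heckeAlphaBar Kb M q (genBar M e)) ∨
      ∃ e : M.divisors, genBar (M * q) d = heckeBetaBar Kb M q (genBar M e) := by
  obtain ⟨hd1, hd2⟩ := Nat.mem_divisors.mp d.2
  by_cases h : q ∣ d.1
  · right
    obtain ⟨e, he⟩ := h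
    have heM : e ∣ M := by
      have h1 : q * e ∣ q * M := by
        rw [← he, mul_comm q M]
        exact hd1
      exact (Nat.mul_dvd_mul_iff_left hq.pos).mp h1
    have hemem : e ∈ M.divisors := Nat.mem_divisors.mpr ⟨heM, NeZero.ne M⟩
    refine ⟨⟨e, hemem⟩, ?_⟩
    rw [heckeBetaBar_genBar]
    congr 1
    apply Subtype.ext
    show d.1 = e * q
    rw [he, mul_comm]
  · left
    have hcop : Nat.Coprime d.1 q := (Nat.Coprime.symm ((Nat.Prime.coprime_iff_not_dvd hq).mpr h))
    have hdM : d.1 ∣ M := hcop.dvd_of_dvd_mul_right hd1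
    have hmem : d.1 ∈ M.divisors := Nat.mem_divisors.mpr ⟨hdM, NeZero.ne M⟩
    refine ⟨⟨d.1, hmem⟩, ?_⟩
    rw [heckeAlphaBar_genBar]

/-- two ring homomorphisms out of `F_{M q}` which agree on the images of `α` and of `β` are
equal. -/
theorem ringHom_ext_alpha_beta (M : ℕ) [NeZero M] (hq : q.Prime) {L : Type*} [CommSemiring L]
    (ψ₁ ψ₂ : FF (M * q) →+* L)
    (hα : ∀ f : FF M, ψ₁ (heckeAlphaBar Kb M q f) = ψ₂ (heckeAlphaBar Kb M q f))
    (hβ : ∀ f : FF M, ψ₁ (heckeBetaBar Kb M q f) = ψ₂ (heckeBetaBar Kb M q f)) : ψ₁ = ψ₂ := by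
  let _ : Algebra Kb L := (ψ₁.comp (algebraMap Kb (FF (M * q)))).toAlgebra
  have halg : ∀ c : Kb, algebraMap Kb L c = ψ₁ (algebraMap Kb (FF (M * q)) c) := fun c => rfl
  have hc : ∀ c : Kb, algebraMap Kb (FF (M * q)) c
      = heckeAlphaBar Kb M q (algebraMap Kb (FF M) c) := fun c =>
    ((heckeAlphaBar Kb M q).commutes c).symm
  let φ₁ : FF (M * q) →ₐ[Kb] L := { ψ₁ with commutes' := fun c => rfl }
  let φ₂ : FF (M * q) →ₐ[Kb] L :=
    { ψ₂ with
      commutes' := fun c => by
        show ψ₂ (algebraMap Kb (FF (M * q)) c) = algebraMap Kb L c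
        rw [halg, hc, hα] }
  have key : φ₁ = φ₂ := by
    apply algHom_ext_genBar
    intro d
    rcases genBar_mem_alpha_or_beta q M hq d with ⟨e, he⟩ | ⟨e, he⟩
    · rw [he]
      exact hα _
    · rw [he]
      exact hβ _
  ext y
  exact congrArg (fun f : FF (M * q) →ₐ[Kb] L => f y) key

end Gen

/-! ### The embeddings at the middle cusps -/

section Main

variable (N q : ℕ) [NeZero N] [NeZero q] (hq : q.Prime) (hqN : ¬ q ∣ N)

/-- `β ∘ α₀ = α ∘ β₀`: both are `c ↦ c(t^q)`. -/
theorem beta_alpha_eq_alpha_beta (c : FF N) :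
    heckeBetaBar Kb (N * q) q (heckeAlphaBar Kb N q c)
      = heckeAlphaBar Kb (N * q) q (heckeBetaBar Kb N q c) := by
  apply Subtype.ext
  rw [coe_heckeBetaBar, coe_heckeAlphaBar, coe_heckeAlphaBar, coe_heckeBetaBar]

theorem twistL_one' {K : Type*} [Field K] (f : LaurentSeries K) : twistL (1 : K) f = f := by
  ext n
  rw [twistL_coeff, one_zpow, one_mul]

/-- the algebraic closure of `ℚ̄((t))` -/
abbrev Ωb : Type := AlgebraicClosure (LaurentSeries Kb)

/-- the inclusion of `ℚ̄((t))` in its algebraic closure -/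
abbrev ιΩ : LaurentSeries Kb →+* Ωb := algebraMap (LaurentSeries Kb) Ωb

variable {N q hq hqN}

/-- **classification**: an embedding of `F_{Nqq}` which is the inclusion on `α F_{Nq}` is, on
`β F_{Nq}`, one of the `q + 1` embeddings `embW`. -/
theorem exists_embW_of_alpha {ζ : Kb} (hζ : IsPrimitiveRoot ζ q)
    (E : FF (N * q * q) →+* Ωb)
    (hE : ∀ f : FF (N * q), E (heckeAlphaBar Kb (N * q) q f) = ιΩ (f : LaurentSeries Kb)) :
    ∃ i : Option (Fin q), ∀ f : FF (N * q),
      E (heckeBetaBar Kb (N * q) q f)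
        = ιΩ (embW N q hq hqN ζ (hζ.ne_zero hq.ne_zero) i f) := by
  letI := algebraAlong (heckeAlphaBar Kb N q)
  have hfr := Fermat.Agent.P2.helper93.finrank_alpha N q hq hqN
  haveI fd : FiniteDimensional (FF N) (FF (N * q)) :=
    Module.finite_of_finrank_pos (by rw [hfr]; omega)
  haveI : Algebra.IsSeparable (FF N) (FF (N * q)) := inferInstance
  have hζ1 : ζ ^ q = 1 := hζ.pow_eq_one
  have hζ0 : ζ ≠ 0 := hζ.ne_zero hq.ne_zero
  obtain ⟨i, hi⟩ := exists_eq_of_embeddings (F := FF N) (E := FF (N * q))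
    ((qExpand Kb q).comp (coeHom N)) (embW N q hq hqN ζ hζ0) (embW_injective hζ0 hζ)
    (fun i => RingHom.ext fun c => embW_alpha hζ0 hζ1 i c)
    (by rw [Fintype.card_option, Fintype.card_fin, hfr]) ιΩ
    (E.comp (heckeBetaBar Kb (N * q) q).toRingHom) (by
      ext c
      show E (heckeBetaBar Kb (N * q) q (heckeAlphaBar Kb N q c))
        = ιΩ (qExpand Kb q ((c : FF N) : LaurentSeries Kb))
      rw [beta_alpha_eq_alpha_beta, hE, coe_heckeBetaBar])
  exact ⟨i, fun f => congrArg (fun φ : FF (N * q) →+* Ωb => φ f) hi⟩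

/-- the value `some 0` does not occur. -/
theorem ne_some_zero_of_alpha {ζ : Kb} (hζ : IsPrimitiveRoot ζ q)
    (E : FF (N * q * q) →+* Ωb)
    (hE : ∀ f : FF (N * q), E (heckeAlphaBar Kb (N * q) q f) = ιΩ (f : LaurentSeries Kb))
    (k : Fin q) (hk : (k : ℕ) = 0)
    (hβ : ∀ f : FF (N * q), E (heckeBetaBar Kb (N * q) q f)
        = ιΩ (embW N q hq hqN ζ (hζ.ne_zero hq.ne_zero) (some k) f)) : False := by
  set c : FF N := Fermat.Agent.T2.helper87.jN N with hc
  have h1 : E (heckeBetaBar Kb (N * q) q (heckeBetaBar Kb N q c))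
      = E (heckeAlphaBar Kb (N * q) q (heckeAlphaBar Kb N q c)) := by
    rw [hβ, hE, embW_some, hk, pow_zero, twistL_one', atkinLehner_heckeBetaBar]
  have h2 := E.injective h1
  have h3 := congrArg (fun x : FF (N * q * q) => (x : LaurentSeries Kb).coeff (-1)) h2
  simp only [coe_heckeBetaBar, coe_heckeAlphaBar] at h3
  have h4 : (qExpand Kb q (qExpand Kb q ((c : FF N) : LaurentSeries Kb))).coeff (-1) = 0 := by
    apply qExpand_coeff_of_not_dvd
    intro h
    have h1 : (q : ℤ) ∣ 1 := (dvd_neg).mp h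
    have h2 : q ∣ 1 := by exact_mod_cast h1
    exact hq.one_lt.ne' (Nat.dvd_one.mp h2)
  rw [h4] at h3
  have h5 : ((c : FF N) : LaurentSeries Kb).coeff (-1) = 1 := coeff_jqModC_neg_one Kb
  rw [h5] at h3
  exact zero_ne_one h3

end Main

/-! ### Counting -/

section Count

variable (N q : ℕ) [NeZero N] [NeZero q] (hq : q.Prime) (hqN : ¬ q ∣ N)

/-- existence of the middle embeddings, with values in the algebraic closure of `ℚ̄((t))`. -/
theorem exists_embΩ {ζ : Kb} (hζ : IsPrimitiveRoot ζ q) (k : Fin q) (hk : (k : ℕ) ≠ 0) :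
    ∃ E : FF (N * q * q) →+* Ωb,
      (∀ f : FF (N * q), E (heckeAlphaBar Kb (N * q) q f) = ιΩ (f : LaurentSeries Kb)) ∧
      (∀ f : FF (N * q), E (heckeBetaBar Kb (N * q) q f)
        = ιΩ (embW N q hq hqN ζ (hζ.ne_zero hq.ne_zero) (some k) f)) := by
  classical
  letI algα : Algebra (FF (N * q)) (FF (N * q * q)) :=
    algebraAlong (heckeAlphaBar Kb (N * q) q)
  letI algΩ : Algebra (FF (N * q)) Ωb := (ιΩ.comp (coeHom (N * q))).toAlgebra
  have hfr : Module.finrank (FF (N * q)) (FF (N * q * q)) = q :=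
    Fermat.Agent.T2.helper48.finrank_alpha_of_dvd (N * q) q hq (Dvd.intro_left N rfl)
  haveI fd : FiniteDimensional (FF (N * q)) (FF (N * q * q)) :=
    Module.finite_of_finrank_pos (by rw [hfr]; exact hq.pos)
  haveI : Algebra.IsSeparable (FF (N * q)) (FF (N * q * q)) := inferInstance
  have hcard : Fintype.card (FF (N * q * q) →ₐ[FF (N * q)] Ωb) = q := by
    rw [AlgHom.card, hfr]
  have hEα : ∀ (E : FF (N * q * q) →ₐ[FF (N * q)] Ωb) (f : FF (N * q)),
      (E : FF (N * q * q) →+* Ωb) (heckeAlphaBar Kb (N * q) q f)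
        = ιΩ (f : LaurentSeries Kb) :=
    fun E f => E.commutes f
  choose Φ hΦ using fun E : FF (N * q * q) →ₐ[FF (N * q)] Ωb =>
    exists_embW_of_alpha (hq := hq) (hqN := hqN) hζ (E : FF (N * q * q) →+* Ωb) (hEα E)
  have hinj : Function.Injective Φ := by
    intro E E' h
    have h1 : (E : FF (N * q * q) →+* Ωb) = (E' : FF (N * q * q) →+* Ωb) := by
      apply ringHom_ext_alpha_beta q (N * q) hq
      · intro f
        rw [hEα, hEα]
      · intro f
        rw [hΦ E f, hΦ E' f, h]
    ext y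
    exact congrArg (fun φ : FF (N * q * q) →+* Ωb => φ y) h1
  have hne : ∀ E, Φ E ≠ some ⟨0, hq.pos⟩ := by
    intro E h
    exact ne_some_zero_of_alpha (hq := hq) (hqN := hqN) hζ _ (hEα E) ⟨0, hq.pos⟩ rfl
      (fun f => by rw [hΦ E f, h])
  have himg : Finset.image Φ Finset.univ
      = (Finset.univ : Finset (Option (Fin q))).erase (some ⟨0, hq.pos⟩) := by
    apply Finset.eq_of_subset_of_card_le
    · intro x hx
      obtain ⟨E, -, rfl⟩ := Finset.mem_image.mp hx
      exact Finset.mem_erase.mpr ⟨hne E, Finset.mem_univ _⟩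
    · rw [Finset.card_erase_of_mem (Finset.mem_univ _), Finset.card_univ, Fintype.card_option,
        Fintype.card_fin, Finset.card_image_of_injective _ hinj, Finset.card_univ, hcard]
      simp
  have hk' : (some k : Option (Fin q))
      ∈ (Finset.univ : Finset (Option (Fin q))).erase (some ⟨0, hq.pos⟩) := by
    refine Finset.mem_erase.mpr ⟨?_, Finset.mem_univ _⟩
    intro h
    have := Option.some.inj h
    exact hk (congrArg Fin.val this)
  rw [← himg] at hk'
  obtain ⟨E, -, hE⟩ := Finset.mem_image.mp hk'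
  exact ⟨E, hEα E, fun f => by rw [hΦ E f, hE]⟩

end Count

/-! ### Values in `ℚ̄((t))` -/

section Range

variable (q : ℕ) [NeZero q]

/-- a ring homomorphism of `F_{M q}` into `Ωb` with values in `ℚ̄((t))` on the images of `α` and
`β` has values in `ℚ̄((t))`. -/
theorem mem_fieldRange_of_alpha_beta (M : ℕ) [NeZero M] (hq : q.Prime)
    (E : FF (M * q) →+* Ωb)
    (hα : ∀ f : FF M, E (heckeAlphaBar Kb M q f) ∈ ιΩ.fieldRange)
    (hβ : ∀ f : FF M, E (heckeBetaBar Kb M q f) ∈ ιΩ.fieldRange) (x : FF (M * q)) :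
    E x ∈ ιΩ.fieldRange := by
  let T : IntermediateField Kb (LaurentSeries Kb) :=
    { carrier := {y | ∃ hy : y ∈ FF (M * q), E ⟨y, hy⟩ ∈ ιΩ.fieldRange}
      mul_mem' := by
        rintro a b ⟨ha, ha'⟩ ⟨hb, hb'⟩
        refine ⟨(FF (M * q)).mul_mem ha hb, ?_⟩
        have e : (⟨a * b, (FF (M * q)).mul_mem ha hb⟩ : FF (M * q)) = ⟨a, ha⟩ * ⟨b, hb⟩ := rfl
        rw [e, map_mul]
        exact ιΩ.fieldRange.mul_mem ha' hb'
      one_mem' := by
        refine ⟨(FF (M * q)).one_mem, ?_⟩
        have e : (⟨1, (FF (M * q)).one_mem⟩ : FF (M * q)) = 1 := rfl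
        rw [e, map_one]
        exact ιΩ.fieldRange.one_mem
      add_mem' := by
        rintro a b ⟨ha, ha'⟩ ⟨hb, hb'⟩
        refine ⟨(FF (M * q)).add_mem ha hb, ?_⟩
        have e : (⟨a + b, (FF (M * q)).add_mem ha hb⟩ : FF (M * q)) = ⟨a, ha⟩ + ⟨b, hb⟩ := rfl
        rw [e, map_add]
        exact ιΩ.fieldRange.add_mem ha' hb'
      zero_mem' := by
        refine ⟨(FF (M * q)).zero_mem, ?_⟩
        have e : (⟨0, (FF (M * q)).zero_mem⟩ : FF (M * q)) = 0 := rfl
        rw [e, map_zero]
        exact ιΩ.fieldRange.zero_mem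
      algebraMap_mem' := by
        intro c
        refine ⟨(FF (M * q)).algebraMap_mem c, ?_⟩
        have e : (⟨algebraMap Kb (LaurentSeries Kb) c, (FF (M * q)).algebraMap_mem c⟩ :
            FF (M * q)) = heckeAlphaBar Kb M q (algebraMap Kb (FF M) c) := by
          rw [AlgHom.commutes]
          rfl
        rw [e]
        exact hα _
      inv_mem' := by
        rintro a ⟨ha, ha'⟩
        refine ⟨(FF (M * q)).inv_mem ha, ?_⟩
        have e : (⟨a⁻¹, (FF (M * q)).inv_mem ha⟩ : FF (M * q)) = (⟨a, ha⟩ : FF (M * q))⁻¹ := rfl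
        rw [e, map_inv₀]
        exact ιΩ.fieldRange.inv_mem ha' }
  have hT : FF (M * q) ≤ T := by
    show modularFunctionFieldBar (M * q) ≤ T
    rw [Fermat.Agent.S24.helper24.modularFunctionFieldBar_eq_adjoin,
      IntermediateField.adjoin_le_iff]
    rintro y ⟨d, rfl⟩
    refine ⟨(genBar (M * q) d).2, ?_⟩
    have e : (⟨Fermat.Agent.S24.helper24.genJ (M * q) d, (genBar (M * q) d).2⟩ : FF (M * q))
        = genBar (M * q) d := rfl
    rw [e]
    rcases genBar_mem_alpha_or_beta q M hq d with ⟨e', he⟩ | ⟨e', he⟩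
    · rw [he]
      exact hα _
    · rw [he]
      exact hβ _
  obtain ⟨hy, h⟩ := hT x.2
  exact h

end Range

/-! ### The middle embeddings -/

section Mid

variable (N q : ℕ) [NeZero N] [NeZero q] (hq : q.Prime) (hqN : ¬ q ∣ N)

/-- **[T3-VAL3] existence of the embeddings at the middle cusps.** -/
theorem exists_embMid {ζ : Kb} (hζ : IsPrimitiveRoot ζ q) (k : Fin q) (hk : (k : ℕ) ≠ 0) :
    ∃ E : FF (N * q * q) →ₐ[Kb] LaurentSeries Kb,
      (∀ f : FF (N * q), E (heckeAlphaBar Kb (N * q) q f) = (f : LaurentSeries Kb)) ∧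
      (∀ f : FF (N * q), E (heckeBetaBar Kb (N * q) q f)
        = twistL (ζ ^ (k : ℕ)) ((atkinLehner N q hq hqN f : FF (N * q)) : LaurentSeries Kb)) := by
  obtain ⟨E₀, hα, hβ⟩ := exists_embΩ N q hq hqN hζ k hk
  have hr : ∀ x, E₀ x ∈ ιΩ.fieldRange :=
    mem_fieldRange_of_alpha_beta q (N * q) hq E₀
      (fun f => by rw [hα]; exact ⟨_, rfl⟩) (fun f => by rw [hβ]; exact ⟨_, rfl⟩)
  have hinj : Function.Injective ιΩ := ιΩ.injective
  choose e he using fun x => RingHom.mem_fieldRange.mp (hr x)
  have hαe : ∀ f : FF (N * q), e (heckeAlphaBar Kb (N * q) q f) = (f : LaurentSeries Kb) :=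
    fun f => hinj (by rw [he, hα])
  refine ⟨{ toFun := e
            map_one' := hinj (by rw [he, map_one, map_one])
            map_mul' := fun x y => hinj (by rw [he, map_mul, map_mul, he, he])
            map_zero' := hinj (by rw [he, map_zero, map_zero])
            map_add' := fun x y => hinj (by rw [he, map_add, map_add, he, he])
            commutes' := fun c => by
              have e1 : algebraMap Kb (FF (N * q * q)) c
                  = heckeAlphaBar Kb (N * q) q (algebraMap Kb (FF (N * q)) c) := by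
                rw [AlgHom.commutes]
              rw [e1, hαe]
              rfl }, hαe, fun f => hinj ?_⟩
  show ιΩ (e _) = _
  rw [he, hβ, embW_some]

/-- **the embedding of `F_{Nqq}` at the middle cusp `k`** (`k ≠ 0`). -/
def embMid {ζ : Kb} (hζ : IsPrimitiveRoot ζ q) (k : Fin q) (hk : (k : ℕ) ≠ 0) :
    FF (N * q * q) →ₐ[Kb] LaurentSeries Kb :=
  (exists_embMid N q hq hqN hζ k hk).choose

variable {N q hq hqN}

@[simp]
theorem embMid_alpha {ζ : Kb} (hζ : IsPrimitiveRoot ζ q) (k : Fin q) (hk : (k : ℕ) ≠ 0)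
    (f : FF (N * q)) :
    embMid N q hq hqN hζ k hk (heckeAlphaBar Kb (N * q) q f) = (f : LaurentSeries Kb) :=
  (exists_embMid N q hq hqN hζ k hk).choose_spec.1 f

theorem embMid_beta {ζ : Kb} (hζ : IsPrimitiveRoot ζ q) (k : Fin q) (hk : (k : ℕ) ≠ 0)
    (f : FF (N * q)) :
    embMid N q hq hqN hζ k hk (heckeBetaBar Kb (N * q) q f)
      = twistL (ζ ^ (k : ℕ)) ((atkinLehner N q hq hqN f : FF (N * q)) : LaurentSeries Kb) :=
  (exists_embMid N q hq hqN hζ k hk).choose_spec.2 f

/-- uniqueness of the middle embedding. -/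
theorem embMid_unique {ζ : Kb} (hζ : IsPrimitiveRoot ζ q) (k : Fin q) (hk : (k : ℕ) ≠ 0)
    (E : FF (N * q * q) →+* LaurentSeries Kb)
    (hα : ∀ f : FF (N * q), E (heckeAlphaBar Kb (N * q) q f) = (f : LaurentSeries Kb))
    (hβ : ∀ f : FF (N * q), E (heckeBetaBar Kb (N * q) q f)
      = twistL (ζ ^ (k : ℕ)) ((atkinLehner N q hq hqN f : FF (N * q)) : LaurentSeries Kb)) :
    E = (embMid N q hq hqN hζ k hk : FF (N * q * q) →+* LaurentSeries Kb) := by
  apply ringHom_ext_alpha_beta q (N * q) hq
  · intro f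
    rw [hα]
    exact (embMid_alpha hζ k hk f).symm
  · intro f
    rw [hβ]
    exact (embMid_beta hζ k hk f).symm

end Mid

end Fermat.Agent.T3.helper87

end
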