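import Mathlib
import Fermat.Agent.P2.helper73_DiscRatio
import Fermat.Agent.P2.helper31_DiscUnity
import Fermat.Agent.T3.helper87_EmbMid

/-!
# T3 [DISC3] (helper23): the expansions at the middle cusps are quotients of integral series

* `isRatioEv_twistL` : the twist `f(t) ↦ f(c t)` by an element `c ≠ 0` of the valuation ring
  preserves "quotient of two power series with coefficients in `A ∩ K₀` for all large `K₀`";
* `mem_subfield_of_alpha_beta` : a ring homomorphism of `F_{M q}` into `ℚ̄((t))` with values in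
  a subfield on the images of `α` and `β` has values in that subfield;
* `isRatioEv_embMid` : **(D4) at the middle cusps**.
-/

set_option autoImplicit false
set_option linter.unusedSectionVars false
set_option linter.unusedVariables false
set_option linter.style.longLine false

noncomputable section

open HahnSeries IntermediateField AlgebraicCurve ModularCurve

namespace Fermat.Agent.T3.helper23

open Fermat.Agent.P2.helper23 Fermat.Agent.P2.helper73
open Fermat.Agent.P2.helper93 (twistL twistL_coeff)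
open Fermat.Agent.T2.helper87 (twistHom twistHom_apply)
open Fermat.Agent.T2.helper36 (atkinLehner)
open Fermat.Agent.T3.helper87 (embMid embMid_alpha embMid_beta genBar_mem_alpha_or_beta)

/-! ### Twists -/

section Twist

variable (A : ValuationSubring Kb)

/-- the twist of a power series with coefficients in `R₀` by an element of `R₀` -/
def twistPS (R₀ : Subring Kb) (c : R₀) (G : PowerSeries R₀) : PowerSeries R₀ :=
  PowerSeries.mk fun n => c ^ n * PowerSeries.coeff n G

theorem phi_twistPS (R₀ : Subring Kb) (c : R₀) (G : PowerSeries R₀) :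
    phi R₀ (twistPS R₀ c G) = twistL (c : Kb) (phi R₀ G) := by
  ext k
  rw [twistL_coeff]
  rcases lt_or_ge k 0 with hk | hk
  · rw [phi_apply, phi_apply, ofPowerSeries_coeff_of_neg _ hk,
      ofPowerSeries_coeff_of_neg _ hk, mul_zero]
  · obtain ⟨n, rfl⟩ := Int.eq_ofNat_of_zero_le hk
    rw [phi_coeff_natCast, phi_coeff_natCast, twistPS, PowerSeries.coeff_mk, zpow_natCast]
    rfl

theorem twistPS_ne_zero (R₀ : Subring Kb) (c : R₀) (hc : c ≠ 0) {G : PowerSeries R₀}
    (hG : G ≠ 0) : twistPS R₀ c G ≠ 0 := by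
  intro h
  apply hG
  ext n
  have h1 := congrArg (PowerSeries.coeff n) h
  rw [twistPS, PowerSeries.coeff_mk, map_zero] at h1
  rcases mul_eq_zero.mp h1 with h2 | h2
  · exact absurd (eq_zero_of_pow_eq_zero h2) hc
  · rw [h2, map_zero]

theorem isRatio_twistL (R₀ : Subring Kb) (c : R₀) (hc : c ≠ 0) {f : LaurentSeries Kb}
    (hf : IsRatio R₀ f) : IsRatio R₀ (twistL (c : Kb) f) := by
  obtain ⟨G₁, G₂, hG₂, hG⟩ := hf
  have hc' : (c : Kb) ≠ 0 := fun h => hc (Subtype.ext h)
  refine ⟨twistPS R₀ c G₁, twistPS R₀ c G₂, twistPS_ne_zero R₀ c hc hG₂, ?_⟩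
  rw [phi_twistPS, phi_twistPS, ← hG, ← twistHom_apply (c : Kb) hc', ← twistHom_apply (c : Kb) hc',
    ← twistHom_apply (c : Kb) hc', map_mul]

/-- **twists preserve ratios** -/
theorem isRatioEv_twistL {c : Kb} (hcA : c ∈ A) (hc : c ≠ 0) {f : LaurentSeries Kb}
    (hf : IsRatioEv A f) : IsRatioEv A (twistL c f) := by
  classical
  obtain ⟨S, hS⟩ := hf
  refine ⟨insert c S, fun K₀ h => ?_⟩
  have hcK : c ∈ K₀ := h (by simp)
  have hSK : (S : Set Kb) ⊆ K₀ := fun x hx => h (by
    rw [Finset.coe_insert]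
    exact Set.mem_insert_of_mem _ hx)
  have hcR : c ∈ capSubring A K₀ := ⟨hcA, hcK⟩
  exact isRatio_twistL (capSubring A K₀) ⟨c, hcR⟩ (fun h0 => hc (congrArg Subtype.val h0))
    (hS K₀ hSK)

end Twist

/-! ### Generation by the images of `α` and `β` -/

section Gen

variable (q : ℕ) [NeZero q]

/-- a ring homomorphism of `F_{M q}` into a field with values in a subfield on the images of `α`
and `β` has values in that subfield. -/
theorem mem_subfield_of_alpha_beta (M : ℕ) [NeZero M] (hq : q.Prime)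
    {L : Type*} [Field L] (T₀ : Subfield L)
    (E : FF (M * q) →+* L)
    (hα : ∀ f : FF M, E (heckeAlphaBar Kb M q f) ∈ T₀)
    (hβ : ∀ f : FF M, E (heckeBetaBar Kb M q f) ∈ T₀) (x : FF (M * q)) :
    E x ∈ T₀ := by
  let T : IntermediateField Kb (LaurentSeries Kb) :=
    { carrier := {y | ∃ hy : y ∈ FF (M * q), E ⟨y, hy⟩ ∈ T₀}
      mul_mem' := by
        rintro a b ⟨ha, ha'⟩ ⟨hb, hb'⟩
        refine ⟨(FF (M * q)).mul_mem ha hb, ?_⟩
        have e : (⟨a * b, (FF (M * q)).mul_mem ha hb⟩ : FF (M * q)) = ⟨a, ha⟩ * ⟨b, hb⟩ := rfl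
        rw [e, map_mul]
        exact T₀.mul_mem ha' hb'
      one_mem' := by
        refine ⟨(FF (M * q)).one_mem, ?_⟩
        have e : (⟨1, (FF (M * q)).one_mem⟩ : FF (M * q)) = 1 := rfl
        rw [e, map_one]
        exact T₀.one_mem
      add_mem' := by
        rintro a b ⟨ha, ha'⟩ ⟨hb, hb'⟩
        refine ⟨(FF (M * q)).add_mem ha hb, ?_⟩
        have e : (⟨a + b, (FF (M * q)).add_mem ha hb⟩ : FF (M * q)) = ⟨a, ha⟩ + ⟨b, hb⟩ := rfl
        rw [e, map_add]
        exact T₀.add_mem ha' hb'
      zero_mem' := by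
        refine ⟨(FF (M * q)).zero_mem, ?_⟩
        have e : (⟨0, (FF (M * q)).zero_mem⟩ : FF (M * q)) = 0 := rfl
        rw [e, map_zero]
        exact T₀.zero_mem
      algebraMap_mem' := by
        intro c
        refine ⟨(FF (M * q)).algebraMap_mem c, ?_⟩
        have e : (⟨algebraMap Kb (LaurentSeries Kb) c, (FF (M * q)).algebraMap_mem c⟩ :
            FF (M * q)) = heckeAlphaBar Kb M q (algebraMap Kb (FF M) c) := by
          rw [AlgHom.commutes]
          rfl
        rw [e]
        exact hα _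
      inv_mem' := by
        rintro a ⟨ha, ha'⟩
        refine ⟨(FF (M * q)).inv_mem ha, ?_⟩
        have e : (⟨a⁻¹, (FF (M * q)).inv_mem ha⟩ : FF (M * q)) = (⟨a, ha⟩ : FF (M * q))⁻¹ := rfl
        rw [e, map_inv₀]
        exact T₀.inv_mem ha' }
  have hT : FF (M * q) ≤ T := by
    show modularFunctionFieldBar (M * q) ≤ T
    rw [Fermat.Agent.S24.helper24.modularFunctionFieldBar_eq_adjoin,
      IntermediateField.adjoin_le_iff]
    rintro y ⟨d, rfl⟩
    refine ⟨(Fermat.Agent.T2.helper36.genBar (M * q) d).2, ?_⟩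
    have e : (⟨Fermat.Agent.S24.helper24.genJ (M * q) d,
        (Fermat.Agent.T2.helper36.genBar (M * q) d).2⟩ : FF (M * q))
        = Fermat.Agent.T2.helper36.genBar (M * q) d := rfl
    rw [e]
    rcases genBar_mem_alpha_or_beta q M hq d with ⟨e', he⟩ | ⟨e', he⟩
    · rw [he]
      exact hα _
    · rw [he]
      exact hβ _
  obtain ⟨hy, h⟩ := hT x.2
  exact h

end Gen

/-! ### (D4) at the middle cusps -/

section Mid

variable (N q : ℕ) [NeZero N] [NeZero q] (hq : q.Prime) (hqN : ¬ q ∣ N)

/-- **(D4) at the middle cusps**: the expansion of every function at a middle cusp is a quotient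
of two power series with coefficients in `A ∩ K₀` for all large number fields `K₀`. -/
theorem isRatioEv_embMid (A : ValuationSubring Kb) {ζ : Kb} (hζ : IsPrimitiveRoot ζ q)
    (k : Fin q) (hk : (k : ℕ) ≠ 0) (x : FF (N * q * q)) :
    IsRatioEv A (embMid N q hq hqN hζ k hk x) := by
  have hq0 : q ≠ 0 := hq.ne_zero
  have hζA : ζ ^ (k : ℕ) ∈ A :=
    pow_mem (Fermat.Agent.P2.helper31.mem_valuationSubring_of_pow_eq_one A hq0 hζ.pow_eq_one) _
  have hζ0 : ζ ^ (k : ℕ) ≠ 0 := pow_ne_zero _ (hζ.ne_zero hq0)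
  have key := mem_subfield_of_alpha_beta q (N * q) hq (ratioSubfield A)
    (embMid N q hq hqN hζ k hk : FF (N * q * q) →+* LaurentSeries Kb)
    (fun f => by
      show IsRatioEv A (embMid N q hq hqN hζ k hk (heckeAlphaBar Kb (N * q) q f))
      rw [embMid_alpha]
      exact exists_finset_isRatio (N * q) A _ f.2)
    (fun f => by
      show IsRatioEv A (embMid N q hq hqN hζ k hk (heckeBetaBar Kb (N * q) q f))
      rw [embMid_beta]
      exact isRatioEv_twistL A hζA hζ0
        (exists_finset_isRatio (N * q) A _ (atkinLehner N q hq hqN f).2)) x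
  exact key

end Mid

end Fermat.Agent.T3.helper23

end
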