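import Mathlib
import Fermat.Prelude.Def_AlgebraicCurve_DivisorClassGroup

/-!
# T3 [DISC3] (helper23): transport of places along an isomorphism of function fields

For a `K`-algebra isomorphism `e : F ≃ₐ[K] F'` and a place `P` of `F' / K` the preimage
`placeComap e P` is a place of `F / K` and `(placeComap e P).ord f = P.ord (e f)`.
-/

set_option autoImplicit false

noncomputable section

open AlgebraicCurve

namespace Fermat.Agent.T3.helper23

variable {K F F' : Type*} [Field K] [Field F] [Field F'] [Algebra K F] [Algebra K F']

/-- the ring isomorphism `V.comap e ≃ V` -/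
def comapRingEquiv (e : F ≃ₐ[K] F') (V : ValuationSubring F') :
    (V.comap (e : F →+* F')) ≃+* V where
  toFun x := ⟨e x, x.2⟩
  invFun y := ⟨e.symm y, by
    show (e : F →+* F') (e.symm y) ∈ V
    have h : (e : F →+* F') (e.symm y) = (y : F') := e.apply_symm_apply _
    rw [h]
    exact y.2⟩
  left_inv x := Subtype.ext (e.symm_apply_apply _)
  right_inv y := Subtype.ext (e.apply_symm_apply _)
  map_mul' x y := Subtype.ext (map_mul e _ _)
  map_add' x y := Subtype.ext (map_add e _ _)

@[simp]
theorem coe_comapRingEquiv_apply (e : F ≃ₐ[K] F') (V : ValuationSubring F')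
    (x : V.comap (e : F →+* F')) : ((comapRingEquiv e V x : V) : F') = e (x : F) := rfl

/-- the preimage of a place under an isomorphism of function fields -/
def placeComap (e : F ≃ₐ[K] F') (P : Place K F') : Place K F where
  toValuationSubring := P.toValuationSubring.comap (e : F →+* F')
  algebraMap_mem' a := by
    rw [ValuationSubring.mem_comap]
    have h : (e : F →+* F') (algebraMap K F a) = algebraMap K F' a := e.commutes a
    rw [h]
    exact P.algebraMap_mem' a
  ne_top' := by
    intro h
    apply P.ne_top'
    refine SetLike.ext fun y => ⟨fun _ => ValuationSubring.mem_top y, fun _ => ?_⟩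
    have h1 : e.symm y ∈ P.toValuationSubring.comap (e : F →+* F') := by
      rw [h]
      exact ValuationSubring.mem_top _
    rw [ValuationSubring.mem_comap] at h1
    have h2 : (e : F →+* F') (e.symm y) = y := e.apply_symm_apply _
    rwa [h2] at h1
  isPrincipalIdealRing' :=
    IsPrincipalIdealRing.of_surjective
      (comapRingEquiv e P.toValuationSubring).symm.toRingHom
      (comapRingEquiv e P.toValuationSubring).symm.surjective

@[simp]
theorem placeComap_toValuationSubring (e : F ≃ₐ[K] F') (P : Place K F') :
    (placeComap e P).toValuationSubring = P.toValuationSubring.comap (e : F →+* F') := rfl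

theorem mem_placeComap (e : F ≃ₐ[K] F') (P : Place K F') (f : F) :
    f ∈ (placeComap e P).toValuationSubring ↔ e f ∈ P.toValuationSubring := Iff.rfl

/-- **transport of the order function** -/
theorem ord_placeComap (e : F ≃ₐ[K] F') (P : Place K F') (f : F) :
    (placeComap e P).ord f = P.ord (e f) := by
  rcases eq_or_ne f 0 with rfl | hf
  · simp
  set Q := placeComap e P with hQ
  obtain ⟨π, hπ⟩ := IsDiscreteValuationRing.exists_irreducible Q.toValuationSubring
  obtain ⟨u, hu⟩ := Q.exists_unit_mul_zpow hf hπ
  set n := Q.ord f with hn
  set ε := comapRingEquiv e P.toValuationSubring with hε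
  have hπ' : Irreducible (ε π) := (MulEquiv.irreducible_iff ε).mpr hπ
  have hu' : IsUnit (ε (u : Q.toValuationSubring)) := u.isUnit.map ε
  have hcoeu : ((hu'.unit : P.toValuationSubring) : F') = e ((u : Q.toValuationSubring) : F) := by
    rw [IsUnit.unit_spec]
    rfl
  have hcoeπ : ((ε π : P.toValuationSubring) : F') = e (π : F) := rfl
  have key : e f = ((hu'.unit : P.toValuationSubring) : F')
      * (((ε π : P.toValuationSubring) : F') ^ n) := by
    rw [hcoeu, hcoeπ, hu, map_mul, map_zpow₀]
  rw [key, P.ord_unit_smul_zpow hu'.unit hπ' n]

theorem placeComap_injective (e : F ≃ₐ[K] F') :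
    Function.Injective (placeComap (K := K) e) := by
  intro P P' h
  apply Place.ext
  apply SetLike.ext
  intro y
  have h1 := congrArg (fun Q : Place K F => e.symm y ∈ Q.toValuationSubring) h
  simp only [mem_placeComap, AlgEquiv.apply_symm_apply] at h1
  exact Iff.of_eq h1

/-- every place of `F` is the preimage of a place of `F'` -/
theorem placeComap_symm_placeComap (e : F ≃ₐ[K] F') (P : Place K F) :
    placeComap e (placeComap e.symm P) = P := by
  apply Place.ext
  apply SetLike.ext
  intro f
  rw [mem_placeComap, mem_placeComap, AlgEquiv.symm_apply_apply]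

end Fermat.Agent.T3.helper23

end
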