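import Mathlib
import Fermat.Agent.P2.helper23_Disc
import Fermat.Agent.T3.helper23_PlaceTransport
import Fermat.Agent.T3.helper23_Disc3Ratio

/-!
# T3 [DISC3] (helper23): the DISC step at an arbitrary cusp

`disc_root_emb` : let `E : F_M → ℚ̄((t))` be a `ℚ̄`-algebra embedding (the expansion at a cusp)
with `E j = j` and such that all expansions are quotients of integral power series.  A function
`H` whose divisor is divisible by `m` (`m ∈ Aˣ`), which is regular where `j` is finite and whose
expansion `E H` is a quotient `Y₁ / Y₂` of integral series with the same nonzero reduction, has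
an integral formal `m`-th root of `E H` with reduction `1`.

`disc_root_mid` : the instance `E = helper87.embMid` (middle cusps of `X₀(N q²)`).

Proof: transport of `Fermat.Agent.P2.helper23.disc_root_core` to the field `E(F_M)`.
-/

set_option autoImplicit false
set_option linter.unusedSectionVars false
set_option linter.unusedVariables false
set_option linter.style.longLine false

noncomputable section

open HahnSeries IntermediateField AlgebraicCurve ModularCurve

namespace Fermat.Agent.T3.helper23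

open Fermat.Agent.P2.helper23 Fermat.Agent.P2.helper73
open Fermat.Agent.T3.helper87 (embMid embMid_alpha embMid_beta)

section Emb

variable {M : ℕ} [NeZero M] (E : FF M →ₐ[Kb] LaurentSeries Kb)

/-- `F_M ≃ E(F_M)` -/
def toRange : FF M ≃ₐ[Kb] E.fieldRange := AlgEquiv.ofInjectiveField E

@[simp]
theorem coe_toRange (x : FF M) : ((toRange E x : E.fieldRange) : LaurentSeries Kb) = E x := rfl

/-- the place of `F_M` of the cusp with expansion map `E` -/
def cuspPlace (hj : E (Fermat.Agent.P2.helper29.jElt M) = jqModC Kb) : Place Kb (FF M) :=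
  placeComap (toRange E)
    (Fermat.Agent.P2.helper29.qPlace E.fieldRange (toRange E (Fermat.Agent.P2.helper29.jElt M))⁻¹ (by
      rw [Fermat.Agent.P2.helper29.order_coe_inv, coe_toRange, hj,
        Fermat.Agent.P2.helper29.order_jqModC]
      rfl))

theorem cuspPlace_ord (hj : E (Fermat.Agent.P2.helper29.jElt M) = jqModC Kb) (f : FF M)
    (hf : f ≠ 0) : (cuspPlace E hj).ord f = (E f).order := by
  rw [cuspPlace, ord_placeComap, Fermat.Agent.P2.helper29.qPlace_ord _ _ _
    ((EmbeddingLike.map_ne_zero_iff).mpr hf), coe_toRange]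

/-- `j` has a pole at the cusp -/
theorem cuspPlace_ord_jElt (hj : E (Fermat.Agent.P2.helper29.jElt M) = jqModC Kb) :
    (cuspPlace E hj).ord (Fermat.Agent.P2.helper29.jElt M) = -1 := by
  have h0 : Fermat.Agent.P2.helper29.jElt M ≠ 0 := by
    intro h
    have h1 := congrArg (fun x : FF M => (E x).order) h
    simp only [map_zero, HahnSeries.order_zero] at h1
    rw [hj, Fermat.Agent.P2.helper29.order_jqModC] at h1
    omega
  rw [cuspPlace_ord E hj _ h0, hj, Fermat.Agent.P2.helper29.order_jqModC]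

/-- **DISC step at the cusp with expansion map `E`.** -/
theorem disc_root_emb (A : ValuationSubring Kb)
    (hratio : ∀ x : FF M, IsRatioEv A (E x))
    (hj : E (Fermat.Agent.P2.helper29.jElt M) = jqModC Kb)
    (m : ℕ) (hm : IsUnit ((m : ℕ) : A)) (H : FF M) (hH : H ≠ 0)
    (hdiv : ∀ P : Place Kb (FF M), (m : ℤ) ∣ P.ord H)
    (hreg : ∀ P : Place Kb (FF M), 0 ≤ P.ord (Fermat.Agent.P2.helper29.jElt M) → 0 ≤ P.ord H)
    (Y₁ Y₂ : LaurentSeries A) (h₁ : ∃ x : FF M, E x = coeffMap A.subtype Y₁)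
    (h₂ : ∃ x : FF M, E x = coeffMap A.subtype Y₂)
    (h12 : coeffMap A.subtype Y₁ = E H * coeffMap A.subtype Y₂)
    (hred : coeffMap (IsLocalRing.residue A) Y₁ = coeffMap (IsLocalRing.residue A) Y₂)
    (hne : coeffMap (IsLocalRing.residue A) Y₂ ≠ 0) :
    ∃ Z : LaurentSeries A, (coeffMap A.subtype Z) ^ m = E H ∧
      coeffMap (IsLocalRing.residue A) Z = 1 := by
  set e := toRange E with he
  have hD5 : ∀ V : ValuationSubring E.fieldRange,
      (∀ a : Kb, algebraMap Kb E.fieldRange a ∈ V) → V ≠ ⊤ →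
      ∃ 𝔓 : Place Kb E.fieldRange, 𝔓.toValuationSubring = V := by
    intro V hK hV
    have hK' : ∀ a : Kb, algebraMap Kb (FF M) a ∈ V.comap (e : FF M →+* E.fieldRange) := by
      intro a
      rw [ValuationSubring.mem_comap]
      have h : (e : FF M →+* E.fieldRange) (algebraMap Kb (FF M) a)
          = algebraMap Kb E.fieldRange a := e.commutes a
      rw [h]
      exact hK a
    have hV' : V.comap (e : FF M →+* E.fieldRange) ≠ ⊤ := by
      intro h
      apply hV
      refine SetLike.ext fun y => ⟨fun _ => ValuationSubring.mem_top y, fun _ => ?_⟩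
      have h1 : e.symm y ∈ V.comap (e : FF M →+* E.fieldRange) := by
        rw [h]
        exact ValuationSubring.mem_top _
      rw [ValuationSubring.mem_comap] at h1
      have h2 : (e : FF M →+* E.fieldRange) (e.symm y) = y := e.apply_symm_apply _
      rwa [h2] at h1
    obtain ⟨P, hP⟩ := exists_place_of_valuationSubring_FF M _ hK' hV'
    refine ⟨placeComap e.symm P, ?_⟩
    apply SetLike.ext
    intro y
    rw [mem_placeComap, hP, ValuationSubring.mem_comap]
    have h2 : (e : FF M →+* E.fieldRange) (e.symm y) = y := e.apply_symm_apply _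
    rw [h2]
  have hD4 : ∀ f : E.fieldRange, ∃ S : Finset Kb, ∀ K₀ : IntermediateField ℚ Kb,
      (S : Set Kb) ⊆ K₀ → IsRatio (capSubring A K₀) (f : LaurentSeries Kb) := by
    intro f
    have h := hratio (e.symm f)
    have h2 : E (e.symm f) = (f : LaurentSeries Kb) := by
      rw [← coe_toRange]
      exact congrArg Subtype.val (e.apply_symm_apply f)
    rw [h2] at h
    exact h
  have hfin : {𝔓 : Place Kb E.fieldRange | 𝔓.ord (e H) ≠ 0}.Finite := by
    have h1 : {𝔓 : Place Kb E.fieldRange | 𝔓.ord (e H) ≠ 0}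
        = (placeComap e) ⁻¹' {P : Place Kb (FF M) | P.ord H ≠ 0} := by
      ext 𝔓
      simp only [Set.mem_setOf_eq, Set.mem_preimage, ord_placeComap]
    rw [h1]
    exact Set.Finite.preimage (placeComap_injective e).injOn (finite_ord_ne_zero M H hH)
  have hord : (m : ℤ) ∣ ((e H : E.fieldRange) : LaurentSeries Kb).order := by
    rw [coe_toRange, ← cuspPlace_ord E hj H hH]
    exact hdiv _
  have hjF : ((e (Fermat.Agent.P2.helper29.jElt M) : E.fieldRange) : LaurentSeries Kb)
      = jqModC Kb := by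
    rw [coe_toRange, hj]
  have hdiv' : ∀ 𝔓 : Place Kb E.fieldRange,
      0 ≤ 𝔓.ord (e (Fermat.Agent.P2.helper29.jElt M)) → (m : ℤ) ∣ 𝔓.ord (e H) := by
    intro 𝔓 _
    rw [← ord_placeComap]
    exact hdiv _
  have hreg' : ∀ 𝔓 : Place Kb E.fieldRange,
      0 ≤ 𝔓.ord (e (Fermat.Agent.P2.helper29.jElt M)) → 0 ≤ 𝔓.ord (e H) := by
    intro 𝔓 h
    rw [← ord_placeComap] at h ⊢
    exact hreg _ h
  have hmem : ∀ Y : LaurentSeries A, (∃ x : FF M, E x = coeffMap A.subtype Y) →
      coeffMap A.subtype Y ∈ E.fieldRange := by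
    rintro Y ⟨x, hx⟩
    rw [← hx]
    exact ⟨x, rfl⟩
  obtain ⟨Z, hZ, hZr⟩ := disc_root_core E.fieldRange A hD5 hD4
    (fun K₀ _ => Fermat.Agent.P2.helper89.isPrincipalIdealRing_capSubring A K₀)
    (e (Fermat.Agent.P2.helper29.jElt M)) hjF m hm (e H)
    ((EmbeddingLike.map_ne_zero_iff).mpr hH) hfin hord hdiv' hreg' Y₁ Y₂ (hmem Y₁ h₁)
    (hmem Y₂ h₂) (by rw [coe_toRange]; exact h12) hred hne
  exact ⟨Z, by rw [hZ, coe_toRange], hZr⟩

/-- **DISC step at the cusp with expansion map `E`**, for a function whose expansion is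
integral with reduction `1`. -/
theorem disc_root_emb_one (A : ValuationSubring Kb)
    (hratio : ∀ x : FF M, IsRatioEv A (E x))
    (hj : E (Fermat.Agent.P2.helper29.jElt M) = jqModC Kb)
    (m : ℕ) (hm : IsUnit ((m : ℕ) : A)) (H : FF M)
    (hdiv : ∀ P : Place Kb (FF M), (m : ℤ) ∣ P.ord H)
    (hreg : ∀ P : Place Kb (FF M), 0 ≤ P.ord (Fermat.Agent.P2.helper29.jElt M) → 0 ≤ P.ord H)
    (Y : LaurentSeries A) (hY : coeffMap A.subtype Y = E H)
    (hr : coeffMap (IsLocalRing.residue A) Y = 1) :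
    ∃ Z : LaurentSeries A, (coeffMap A.subtype Z) ^ m = E H ∧
      coeffMap (IsLocalRing.residue A) Z = 1 := by
  have hH : H ≠ 0 := by
    rintro rfl
    rw [map_zero] at hY
    have hY0 : Y = 0 := by
      ext k
      have := congrArg (fun Z : LaurentSeries Kb => Z.coeff k) hY
      simpa using this
    rw [hY0, map_zero] at hr
    exact zero_ne_one hr
  refine disc_root_emb E A hratio hj m hm H hH hdiv hreg Y 1 ⟨H, hY.symm⟩
    ⟨1, by rw [map_one, map_one]⟩ (by rw [map_one, mul_one, hY]) (by rw [hr, map_one]) ?_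
  rw [map_one]
  exact one_ne_zero

end Emb

/-! ### The middle cusps of `X₀(N q²)` -/

section Mid

variable (N q : ℕ) [NeZero N] [NeZero q] (hq : q.Prime) (hqN : ¬ q ∣ N)

/-- the expansion of `j` at a middle cusp is `j` -/
theorem embMid_jElt {ζ : Kb} (hζ : IsPrimitiveRoot ζ q) (k : Fin q) (hk : (k : ℕ) ≠ 0) :
    embMid N q hq hqN hζ k hk (Fermat.Agent.P2.helper29.jElt (N * q * q)) = jqModC Kb := by
  have e : Fermat.Agent.P2.helper29.jElt (N * q * q)
      = heckeAlphaBar Kb (N * q) q (Fermat.Agent.P2.helper29.jElt (N * q)) := by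
    apply Subtype.ext
    rfl
  rw [e, embMid_alpha]
  rfl

/-- **DISC step at a middle cusp of `X₀(N q²)`.** -/
theorem disc_root_mid {ζ : Kb} (hζ : IsPrimitiveRoot ζ q) (k : Fin q) (hk : (k : ℕ) ≠ 0)
    (A : ValuationSubring Kb) (m : ℕ) (hm : IsUnit ((m : ℕ) : A)) (H : FF (N * q * q))
    (hdiv : ∀ P : Place Kb (FF (N * q * q)), (m : ℤ) ∣ P.ord H)
    (hreg : ∀ P : Place Kb (FF (N * q * q)),
      0 ≤ P.ord (Fermat.Agent.P2.helper29.jElt (N * q * q)) → 0 ≤ P.ord H)
    (Y : LaurentSeries A) (hY : coeffMap A.subtype Y = embMid N q hq hqN hζ k hk H)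
    (hr : coeffMap (IsLocalRing.residue A) Y = 1) :
    ∃ Z : LaurentSeries A, (coeffMap A.subtype Z) ^ m = embMid N q hq hqN hζ k hk H ∧
      coeffMap (IsLocalRing.residue A) Z = 1 :=
  disc_root_emb_one (embMid N q hq hqN hζ k hk) A
    (isRatioEv_embMid N q hq hqN A hζ k hk) (embMid_jElt N q hq hqN hζ k hk) m hm H hdiv hreg
    Y hY hr

/-- the place of the middle cusp `k` -/
def midPlace {ζ : Kb} (hζ : IsPrimitiveRoot ζ q) (k : Fin q) (hk : (k : ℕ) ≠ 0) :
    Place Kb (FF (N * q * q)) :=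
  cuspPlace (embMid N q hq hqN hζ k hk) (embMid_jElt N q hq hqN hζ k hk)

theorem midPlace_ord {ζ : Kb} (hζ : IsPrimitiveRoot ζ q) (k : Fin q) (hk : (k : ℕ) ≠ 0)
    (f : FF (N * q * q)) (hf : f ≠ 0) :
    (midPlace N q hq hqN hζ k hk).ord f = (embMid N q hq hqN hζ k hk f).order :=
  cuspPlace_ord _ _ f hf

end Mid

end Fermat.Agent.T3.helper23

end
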