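import Mathlib
import Fermat.Agent.P2.helper23_Disc
import Fermat.Agent.T3.helper23_Disc3

/-!
# T3 [DISC3] / [CUSP-ALL] (helper23): the DISC step at a cusp of ANY width

The DISC step of `Fermat.Agent.P2.helper23.disc_root_core` uses the expansion `j = 1/t + ...`
only through the fact that `j` has value `0` at every prime `P ∤ X` of `R₀⟦X⟧`.  Here the step
is redone for an arbitrary function `x` (instead of `j`) whose expansion is `A`-integral with a
unit leading coefficient: `E x = t ^ k * (unit of A⟦t⟧)`, `k : ℤ` arbitrary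
(for `x = j` at a cusp of width `w` with any parameter: `k = - w`).

* `mult_claim_gen`, `disc_root_core_gen` : the generalised core;
* `hasVal_zero_of_unit_lead` : the value of such an `x` at the horizontal primes is `0`;
* `disc_root_emb_gen`, `disc_root_emb_gen_one` : the DISC step for an arbitrary embedding
  `E : F_M → ℚ̄((t))` (expansion at a cusp of any width).
-/

set_option autoImplicit false
set_option linter.unusedSectionVars false
set_option linter.unusedVariables false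
set_option linter.style.longLine false

noncomputable section

open HahnSeries IntermediateField AlgebraicCurve ModularCurve

namespace Fermat.Agent.T3.helper23

open Fermat.Agent.P2.helper23 Fermat.Agent.P2.helper73

section Core

variable {R₀ : Subring Kb} [IsPrincipalIdealRing R₀]
  (F : IntermediateField Kb (LaurentSeries Kb))

/-- **Multiplicity claim**, for a function `xF` with value `0` at the primes `P ∤ X`. -/
theorem mult_claim_gen
    (hD5 : ∀ V : ValuationSubring F, (∀ a : Kb, algebraMap Kb F a ∈ V) → V ≠ ⊤ →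
      ∃ 𝔓 : Place Kb F, 𝔓.toValuationSubring = V)
    (xF : F)
    (hxv : ∀ P : PowerSeries R₀, Prime P → ¬ P ∣ PowerSeries.X →
      HasVal P (xF : LaurentSeries Kb) 0)
    (m : ℕ) (hm0 : m ≠ 0) (H : F) (hH : H ≠ 0)
    (hord : (m : ℤ) ∣ (H : LaurentSeries Kb).order)
    (hdiv : ∀ 𝔓 : Place Kb F, 0 ≤ 𝔓.ord xF → (m : ℤ) ∣ 𝔓.ord H)
    (hreg : ∀ 𝔓 : Place Kb F, 0 ≤ 𝔓.ord xF → 0 ≤ 𝔓.ord H)
    (hunif : ∀ 𝔓 : Place Kb F, 𝔓.ord H ≠ 0 →
      ∃ t : F, 𝔓.ord t = 1 ∧ IsRatio R₀ (t : LaurentSeries Kb))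
    (a b : PowerSeries R₀) (ha : a ≠ 0) (hb : b ≠ 0)
    (hab : (H : LaurentSeries Kb) * phi R₀ b = phi R₀ a)
    (hconst : ∀ P : PowerSeries R₀, Prime P → (∃ r : R₀, r ≠ 0 ∧ P ∣ PowerSeries.C r) →
      ¬ P ∣ PowerSeries.X → ¬ P ∣ a ∧ ¬ P ∣ b)
    (P : PowerSeries R₀) (hP : Prime P) :
    multiplicity P b ≤ multiplicity P (a * PowerSeries.X ^ (m * multiplicity PowerSeries.X b)) ∧
      m ∣ multiplicity P (a * PowerSeries.X ^ (m * multiplicity PowerSeries.X b)) -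
        multiplicity P b := by
  have hXk : ∀ k : ℕ, (PowerSeries.X : PowerSeries R₀) ^ k ≠ 0 :=
    fun k => pow_ne_zero _ PowerSeries.X_ne_zero
  have hH' : (H : LaurentSeries Kb) ≠ 0 := by
    intro h
    exact hH (Subtype.ext h)
  set n' := multiplicity PowerSeries.X b with hn'
  have key : ∀ (x y : ℕ) (z : ℤ), (x : ℤ) - y = z → 0 ≤ z → (m : ℤ) ∣ z →
      y ≤ x ∧ m ∣ x - y := by
    intro x y z hz h0 hdvd
    have hle : y ≤ x := by omega
    refine ⟨hle, ?_⟩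
    have : ((x - y : ℕ) : ℤ) = z := by
      rw [Nat.cast_sub hle]
      exact hz
    rw [← this] at hdvd
    exact_mod_cast hdvd
  by_cases hX : P ∣ PowerSeries.X
  · -- `P` is associated to `X`
    rw [Fermat.Agent.P2.helper44.multiplicity_eq_of_dvd_X hP hX (a * PowerSeries.X ^ (m * n')),
      Fermat.Agent.P2.helper44.multiplicity_eq_of_dvd_X hP hX b, mult_X_mul_pow a ha (m * n')]
    have h1 := congrArg HahnSeries.order hab
    rw [laurent_order_mul hH' (phi_ne_zero R₀ hb), Fermat.Agent.P2.helper44.order_phi R₀ hb,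
      Fermat.Agent.P2.helper44.order_phi R₀ ha] at h1
    obtain ⟨c, hc⟩ := hord
    refine key _ _ ((H : LaurentSeries Kb).order + m * n') ?_ ?_ ?_
    · push_cast
      rw [← h1, ← hn']
      ring
    · have hm1 : (1 : ℤ) ≤ m := by exact_mod_cast Nat.one_le_iff_ne_zero.mpr hm0
      have h2 : (0 : ℤ) ≤ multiplicity PowerSeries.X a := Int.natCast_nonneg _
      have h3 : (0 : ℤ) ≤ n' := Int.natCast_nonneg _
      have h4 : (n' : ℤ) ≤ m * n' := by nlinarith
      rw [← hn'] at h1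
      linarith
    · exact dvd_add ⟨c, hc⟩ (dvd_mul_right _ _)
  by_cases hC : ∃ r : R₀, r ≠ 0 ∧ P ∣ PowerSeries.C r
  · obtain ⟨hna, hnb⟩ := hconst P hP hC hX
    have hna' : ¬ P ∣ a * PowerSeries.X ^ (m * n') := by
      intro h
      rcases hP.dvd_or_dvd h with h | h
      · exact hna h
      · exact hX (hP.dvd_of_dvd_pow h)
    rw [multiplicity_eq_zero.mpr hna', multiplicity_eq_zero.mpr hnb]
    simp
  · -- the dictionary case
    have hconst' : ∀ n : ℕ, n ≠ 0 → ¬ P ∣ PowerSeries.C ((n : ℕ) : R₀) := by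
      intro n hn h
      exact hC ⟨_, natCast_ne_zero_R₀ hn, h⟩
    have hXm : multiplicity P ((PowerSeries.X : PowerSeries R₀) ^ (m * n')) = 0 :=
      multiplicity_eq_zero.mpr fun h => hX (hP.dvd_of_dvd_pow h)
    rw [multiplicity_mul' hP ha (hXk _), hXm, add_zero]
    have hval : HasVal P (H : LaurentSeries Kb)
        ((multiplicity P a : ℤ) - multiplicity P b) := ⟨a, b, ha, hb, hab, rfl⟩
    by_cases hk0 : (multiplicity P a : ℤ) - multiplicity P b = 0
    · exact key _ _ 0 hk0 le_rfl (dvd_zero _)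
    obtain ⟨𝔓, hnn, hpos, hprop⟩ := exists_place_of_prime F hD5 hP hconst' H hk0 hval
    have hjv : HasVal P (xF : LaurentSeries Kb) 0 := hxv P hP hX
    have hordj : 𝔓.ord xF = 0 := by
      have := hprop xF H 0 _ hjv hval
      rw [zero_mul] at this
      rcases mul_eq_zero.mp this.symm with h | h
      · exact absurd h hk0
      · exact h
    have hreg' := hreg 𝔓 hordj.ge
    have hdiv' := hdiv 𝔓 hordj.ge
    have hkpos : 0 < (multiplicity P a : ℤ) - multiplicity P b := by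
      by_contra hneg
      have hlt : (multiplicity P a : ℤ) - multiplicity P b < 0 := by omega
      have h1 : HasVal P ((H⁻¹ : F) : LaurentSeries Kb)
          (-((multiplicity P a : ℤ) - multiplicity P b)) := by
        simpa using hval.inv
      have h2 := hpos H⁻¹ _ h1 (by omega)
      rw [Place.ord_inv] at h2
      omega
    have hordH : 0 < 𝔓.ord H := hpos H _ hval hkpos
    obtain ⟨t, ht1, htR⟩ := hunif 𝔓 hordH.ne'
    have ht0 : (t : LaurentSeries Kb) ≠ 0 := by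
      intro h
      have : t = 0 := Subtype.ext h
      rw [this, Place.ord_zero] at ht1
      exact zero_ne_one ht1
    obtain ⟨l, hl⟩ := htR.exists_hasVal (P := P) ht0
    have h3 := hprop H t _ l hval hl
    rw [ht1, mul_one] at h3
    refine key _ _ _ rfl hkpos.le ?_
    rw [h3]
    exact Dvd.dvd.mul_left hdiv' l

end Core

/-- **Core theorem**, for a function `xF` with value `0` at the primes `P ∤ X` (over all
sufficiently large number fields). -/
theorem disc_root_core_gen (F : IntermediateField Kb (LaurentSeries Kb))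
    (A : ValuationSubring Kb)
    (hD5 : ∀ V : ValuationSubring F, (∀ a : Kb, algebraMap Kb F a ∈ V) → V ≠ ⊤ →
      ∃ 𝔓 : Place Kb F, 𝔓.toValuationSubring = V)
    (hD4 : ∀ f : F, ∃ S : Finset Kb, ∀ K₀ : IntermediateField ℚ Kb, (S : Set Kb) ⊆ K₀ →
      IsRatio (capSubring A K₀) (f : LaurentSeries Kb))
    (hPID : ∀ K₀ : IntermediateField ℚ Kb, FiniteDimensional ℚ K₀ →
      IsPrincipalIdealRing (capSubring A K₀))
    (xF : F)
    (hxv : ∃ Sx : Finset Kb, ∀ K₀ : IntermediateField ℚ Kb, (Sx : Set Kb) ⊆ K₀ →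
      ∀ P : PowerSeries (capSubring A K₀), Prime P → ¬ P ∣ PowerSeries.X →
        HasVal P (xF : LaurentSeries Kb) 0)
    (m : ℕ) (hm : IsUnit ((m : ℕ) : A)) (H : F) (hH : H ≠ 0)
    (hfin : {𝔓 : Place Kb F | 𝔓.ord H ≠ 0}.Finite)
    (hord : (m : ℤ) ∣ (H : LaurentSeries Kb).order)
    (hdiv : ∀ 𝔓 : Place Kb F, 0 ≤ 𝔓.ord xF → (m : ℤ) ∣ 𝔓.ord H)
    (hreg : ∀ 𝔓 : Place Kb F, 0 ≤ 𝔓.ord xF → 0 ≤ 𝔓.ord H)
    (Y₁ Y₂ : LaurentSeries A) (h₁ : coeffMap A.subtype Y₁ ∈ F) (h₂ : coeffMap A.subtype Y₂ ∈ F)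
    (h12 : coeffMap A.subtype Y₁ = (H : LaurentSeries Kb) * coeffMap A.subtype Y₂)
    (hred : coeffMap (IsLocalRing.residue A) Y₁ = coeffMap (IsLocalRing.residue A) Y₂)
    (hne : coeffMap (IsLocalRing.residue A) Y₂ ≠ 0) :
    ∃ Z : LaurentSeries A, (coeffMap A.subtype Z) ^ m = (H : LaurentSeries Kb) ∧
      coeffMap (IsLocalRing.residue A) Z = 1 := by
  classical
  have hm0 := natCast_ne_zero_of_isUnit A m hm
  have hH' : (H : LaurentSeries Kb) ≠ 0 := fun h => hH (Subtype.ext h)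
  -- the number field `K₀`
  choose t ht using fun 𝔓 : Place Kb F => exists_uniformizer 𝔓
  choose St hSt using fun 𝔓 : Place Kb F => hD4 (t 𝔓)
  obtain ⟨S₁, hS₁⟩ := hD4 ⟨_, h₁⟩
  obtain ⟨S₂, hS₂⟩ := hD4 ⟨_, h₂⟩
  obtain ⟨Sx, hSx⟩ := hxv
  set S : Finset Kb := Sx ∪ (S₁ ∪ S₂ ∪ hfin.toFinset.biUnion St) with hS
  set K₀ : IntermediateField ℚ Kb := IntermediateField.adjoin ℚ (S : Set Kb) with hK₀
  have hSK : (S : Set Kb) ⊆ K₀ := IntermediateField.subset_adjoin ℚ _
  have hfd : FiniteDimensional ℚ K₀ := finiteDimensional_adjoin_finset S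
  have : IsPrincipalIdealRing (capSubring A K₀) := hPID K₀ hfd
  have hSxK : (Sx : Set Kb) ⊆ K₀ := fun x hx => hSK (by
    rw [hS]
    simp only [Finset.coe_union, Set.mem_union, Finset.mem_coe]
    exact Or.inl hx)
  have hS₁K : (S₁ : Set Kb) ⊆ K₀ := fun x hx => hSK (by
    rw [hS]
    simp only [Finset.coe_union, Set.mem_union, Finset.mem_coe]
    exact Or.inr (Or.inl (Or.inl hx)))
  have hS₂K : (S₂ : Set Kb) ⊆ K₀ := fun x hx => hSK (by
    rw [hS]
    simp only [Finset.coe_union, Set.mem_union, Finset.mem_coe]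
    exact Or.inr (Or.inl (Or.inr hx)))
  have hStK : ∀ 𝔓 : Place Kb F, 𝔓.ord H ≠ 0 → ((St 𝔓 : Finset Kb) : Set Kb) ⊆ K₀ := by
    intro 𝔓 h𝔓 x hx
    refine hSK ?_
    rw [hS]
    simp only [Finset.coe_union, Set.mem_union, Finset.mem_coe, Finset.mem_biUnion,
      Set.Finite.mem_toFinset, Set.mem_ofPred_eq]
    exact Or.inr (Or.inr ⟨𝔓, h𝔓, hx⟩)
  -- numerator and denominator
  obtain ⟨k₁, G₁, hG₁, hu₁⟩ :=
    Fermat.Agent.P2.helper56.exists_phi_of_isRatio A K₀ Y₁ (hS₁ K₀ hS₁K)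
  obtain ⟨k₂, G₂, hG₂, hu₂⟩ :=
    Fermat.Agent.P2.helper56.exists_phi_of_isRatio A K₀ Y₂ (hS₂ K₀ hS₂K)
  obtain ⟨n₁, hn₁⟩ := hu₁ (by rw [hred]; exact hne)
  obtain ⟨n₂, hn₂⟩ := hu₂ hne
  have hG₁0 : G₁ ≠ 0 := by
    rintro rfl
    simp at hn₁
  have hG₂0 : G₂ ≠ 0 := by
    rintro rfl
    simp at hn₂
  have hXk : ∀ k : ℕ, (PowerSeries.X : PowerSeries (capSubring A K₀)) ^ k ≠ 0 :=
    fun k => pow_ne_zero _ PowerSeries.X_ne_zero
  have ha : G₁ * PowerSeries.X ^ k₂ ≠ 0 := mul_ne_zero hG₁0 (hXk _)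
  have hb : G₂ * PowerSeries.X ^ k₁ ≠ 0 := mul_ne_zero hG₂0 (hXk _)
  have hab : (H : LaurentSeries Kb) * phi (capSubring A K₀) (G₂ * PowerSeries.X ^ k₁)
      = phi (capSubring A K₀) (G₁ * PowerSeries.X ^ k₂) := by
    rw [map_mul, map_mul, ← hG₁, ← hG₂, h12]
    ring
  have hconst : ∀ P : PowerSeries (capSubring A K₀), Prime P →
      (∃ r : capSubring A K₀, r ≠ 0 ∧ P ∣ PowerSeries.C r) →
      ¬ P ∣ PowerSeries.X → ¬ P ∣ G₁ * PowerSeries.X ^ k₂ ∧ ¬ P ∣ G₂ * PowerSeries.X ^ k₁ := by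
    rintro P hP ⟨r, hr, hPr⟩ hX
    constructor
    · intro h
      rcases hP.dvd_or_dvd h with h | h
      · exact Fermat.Agent.P2.helper13.not_dvd_of_dvd_C hP hr hPr hn₁ h
      · exact hX (hP.dvd_of_dvd_pow h)
    · intro h
      rcases hP.dvd_or_dvd h with h | h
      · exact Fermat.Agent.P2.helper13.not_dvd_of_dvd_C hP hr hPr hn₂ h
      · exact hX (hP.dvd_of_dvd_pow h)
  have hunif : ∀ 𝔓 : Place Kb F, 𝔓.ord H ≠ 0 →
      ∃ t : F, 𝔓.ord t = 1 ∧ IsRatio (capSubring A K₀) (t : LaurentSeries Kb) :=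
    fun 𝔓 h𝔓 => ⟨t 𝔓, ht 𝔓, hSt 𝔓 K₀ (hStK 𝔓 h𝔓)⟩
  have hmult := mult_claim_gen F hD5 xF (hSx K₀ hSxK) m hm0 H hH hord hdiv hreg hunif _ _ ha hb
    hab hconst
  obtain ⟨u, Z0, hU3⟩ := Fermat.Agent.P2.helper9.exists_unit_mul_pow_mul m hm0 _ _
    (mul_ne_zero ha (hXk _)) hb hmult
  have hZ0 : Z0 ≠ 0 := by
    rintro rfl
    rw [zero_pow hm0, mul_zero, zero_mul] at hU3
    exact mul_ne_zero ha (hXk _) hU3
  have hkey := root_eq_of_unit_eq (H : LaurentSeries Kb) _ _ hb hab m _ u Z0 hU3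
  obtain ⟨Z₁, hZ₁⟩ := exists_integral_root A (capSubring_le A K₀) m hm (H : LaurentSeries Kb) hH'
    hord _ u Z0 hZ0 hkey
  exact exists_normalized_root A m hm _ Y₁ Y₂ h12 hred hne Z₁ hZ₁

end Fermat.Agent.T3.helper23

end
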