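import Mathlib
import Fermat.Agent.T3.helper23_DiscGen

/-!
# T3 [DISC3] / [CUSP-ALL] (helper23): the DISC step for an arbitrary expansion map

* `hasVal_zero_of_unit_lead` : an `A`-integral Laurent series with unit leading coefficient
  which is a ratio over `A ∩ K₀` has value `0` at every prime `P ∤ X` of `(A ∩ K₀)⟦X⟧`;
* `dvd_order_of_dvd_ord` : if `m` divides the order of `H` at every place, it divides the
  order of the expansion of `H`;
* `disc_root_emb_gen`, `disc_root_emb_gen_one` : **DISC step** for an arbitrary `ℚ̄`-algebra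
  embedding `E : F_M → ℚ̄((t))` (expansion at a cusp of any width, any parameter) and any
  function `x` whose expansion is `A`-integral with unit leading coefficient (`x = j`), for
  functions `H` regular where `x` is finite.
-/

set_option autoImplicit false
set_option linter.unusedSectionVars false
set_option linter.unusedVariables false
set_option linter.style.longLine false

noncomputable section

open HahnSeries IntermediateField AlgebraicCurve ModularCurve

namespace Fermat.Agent.T3.helper23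

open Fermat.Agent.P2.helper23 Fermat.Agent.P2.helper73

/-- An `A`-integral Laurent series with unit leading coefficient has value `0` at the
horizontal primes. -/
theorem hasVal_zero_of_unit_lead (A : ValuationSubring Kb) (K₀ : IntermediateField ℚ Kb)
    (Yx : LaurentSeries A) (hu : IsUnit (Yx.coeff Yx.order))
    (hR : IsRatio (capSubring A K₀) (coeffMap A.subtype Yx))
    (P : PowerSeries (capSubring A K₀)) (hP : Prime P) (hX : ¬ P ∣ PowerSeries.X) :
    HasVal P (coeffMap A.subtype Yx) 0 := by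
  set f : LaurentSeries Kb := coeffMap A.subtype Yx with hf
  set d : ℤ := Yx.order with hd
  have hfc : ∀ n : ℤ, f.coeff n = ((Yx.coeff n : A) : Kb) := fun n => by
    rw [hf, coeffMap_coeff]
    rfl
  have hK : ∀ n : ℤ, f.coeff n ∈ K₀ := fun n =>
    Fermat.Agent.P2.helper56.coeff_mem_of_isRatio K₀ (fun x hx => (mem_capSubring.1 hx).2) hR n
  have hA : ∀ n : ℤ, f.coeff n ∈ A := fun n => by
    rw [hfc]
    exact (Yx.coeff n).2
  -- the shifted series
  set h : LaurentSeries Kb := f * HahnSeries.single (-d) (1 : Kb) with hh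
  have hhc : ∀ n : ℤ, h.coeff n = f.coeff (n + d) := by
    intro n
    have e := HahnSeries.coeff_mul_single_add (x := f) (a := n + d) (b := -d) (r := (1 : Kb))
    rw [mul_one] at e
    rw [hh, ← e]
    congr 1
    ring
  have hneg : ∀ n : ℤ, n < 0 → h.coeff n = 0 := by
    intro n hn
    rw [hhc, hfc]
    have : Yx.coeff (n + d) = 0 := HahnSeries.coeff_eq_zero_of_lt_order (by omega)
    rw [this]
    rfl
  have hmem : ∀ n : ℕ, h.coeff (n : ℤ) ∈ capSubring A K₀ := by
    intro n
    rw [hhc]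
    exact mem_capSubring.2 ⟨hA _, hK _⟩
  obtain ⟨J, hJ⟩ := exists_phi_eq h hneg hmem
  -- `J` is a unit
  have hJ0 : ((PowerSeries.coeff 0 J : capSubring A K₀) : Kb) = ((Yx.coeff d : A) : Kb) := by
    have e := phi_coeff_natCast (capSubring A K₀) J 0
    rw [hJ] at e
    rw [← e]
    have e2 := hhc ((0 : ℕ) : ℤ)
    rw [e2, hfc]
    simp
  have hJu : IsUnit J := by
    rw [PowerSeries.isUnit_iff_constantCoeff, ← PowerSeries.coeff_zero_eq_constantCoeff_apply]
    apply Fermat.Agent.P2.helper56.isUnit_capSubring A K₀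
    intro hAmem
    have e : (⟨((PowerSeries.coeff 0 J : capSubring A K₀) : Kb), hAmem⟩ : A) = Yx.coeff d :=
      Subtype.ext hJ0
    rw [e]
    exact hu
  have hXk : ∀ k : ℕ, (PowerSeries.X : PowerSeries (capSubring A K₀)) ^ k ≠ 0 :=
    fun k => pow_ne_zero _ PowerSeries.X_ne_zero
  have hnd : ∀ k : ℕ, ¬ P ∣ J * PowerSeries.X ^ k := by
    intro k hdvd
    rcases hP.dvd_or_dvd hdvd with h1 | h1
    · exact hP.not_unit (isUnit_of_dvd_unit h1 hJu)
    · exact hX (hP.dvd_of_dvd_pow h1)
  have hndX : ∀ k : ℕ, ¬ P ∣ (PowerSeries.X : PowerSeries (capSubring A K₀)) ^ k :=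
    fun k hdvd => hX (hP.dvd_of_dvd_pow hdvd)
  refine ⟨J * PowerSeries.X ^ d.toNat, PowerSeries.X ^ (-d).toNat,
    mul_ne_zero hJu.ne_zero (hXk _), hXk _, ?_, ?_⟩
  · rw [map_mul, hJ, phi_X_pow, phi_X_pow, hh, mul_assoc, HahnSeries.single_mul_single, mul_one]
    have e : -d + ((d.toNat : ℕ) : ℤ) = (((-d).toNat : ℕ) : ℤ) := by omega
    rw [e]
  · rw [multiplicity_eq_zero.mpr (hnd _), multiplicity_eq_zero.mpr (hndX _)]
    simp

/-- If `m` divides the order of `H` at every place of a subfield `F ⊆ ℚ̄((t))`, then `m`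
divides the `t`-order of `H`. -/
theorem dvd_order_of_dvd_ord (F : IntermediateField Kb (LaurentSeries Kb))
    (hD5 : ∀ V : ValuationSubring F, (∀ a : Kb, algebraMap Kb F a ∈ V) → V ≠ ⊤ →
      ∃ 𝔓 : Place Kb F, 𝔓.toValuationSubring = V)
    (m : ℤ) (H : F) (hH : H ≠ 0) (hdiv : ∀ 𝔓 : Place Kb F, m ∣ 𝔓.ord H) :
    m ∣ (H : LaurentSeries Kb).order := by
  by_cases hV : Fermat.Agent.P2.helper29.qSubring F = ⊤
  · have h1 : H ∈ Fermat.Agent.P2.helper29.qSubring F := by
      rw [hV]
      exact ValuationSubring.mem_top _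
    have h2 : H⁻¹ ∈ Fermat.Agent.P2.helper29.qSubring F := by
      rw [hV]
      exact ValuationSubring.mem_top _
    rw [Fermat.Agent.P2.helper29.mem_qSubring] at h1 h2
    rw [Fermat.Agent.P2.helper29.order_coe_inv] at h2
    have h3 : (H : LaurentSeries Kb).order = 0 := by omega
    rw [h3]
    exact dvd_zero _
  · obtain ⟨𝔓, h𝔓⟩ := hD5 (Fermat.Agent.P2.helper29.qSubring F) (fun a => by
      rw [Fermat.Agent.P2.helper29.mem_qSubring]
      exact le_of_eq (Fermat.Agent.P2.helper29.order_algebraMap a).symm) hV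
    obtain ⟨t, ht⟩ := exists_uniformizer 𝔓
    have ht0 : t ≠ 0 := by
      rintro rfl
      rw [Place.ord_zero] at ht
      exact zero_ne_one ht
    set n : ℤ := 𝔓.ord H with hn
    have hg0 : H * (t ^ n)⁻¹ ≠ 0 := mul_ne_zero hH (inv_ne_zero (zpow_ne_zero n ht0))
    have hordg : 𝔓.ord (H * (t ^ n)⁻¹) = 0 := by
      rw [Place.ord_mul 𝔓 hH (inv_ne_zero (zpow_ne_zero n ht0)), Place.ord_inv, Place.ord_zpow,
        ht]
      ring
    have hmem1 : H * (t ^ n)⁻¹ ∈ Fermat.Agent.P2.helper29.qSubring F := by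
      rw [← h𝔓, Fermat.Agent.S24.helper82.mem_iff_ord_nonneg, hordg]
    have hmem2 : (H * (t ^ n)⁻¹)⁻¹ ∈ Fermat.Agent.P2.helper29.qSubring F := by
      rw [← h𝔓, Fermat.Agent.S24.helper82.mem_iff_ord_nonneg, Place.ord_inv, hordg]
      simp
    rw [Fermat.Agent.P2.helper29.mem_qSubring] at hmem1 hmem2
    rw [Fermat.Agent.P2.helper29.order_coe_inv] at hmem2
    have h0 : ((H * (t ^ n)⁻¹ : F) : LaurentSeries Kb).order = 0 := by omega
    rw [Fermat.Agent.P2.helper29.order_coe_mul hH (inv_ne_zero (zpow_ne_zero n ht0)),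
      Fermat.Agent.P2.helper29.order_coe_inv, Fermat.Agent.P2.helper29.order_coe_zpow ht0] at h0
    have h1 : (H : LaurentSeries Kb).order = n * (t : LaurentSeries Kb).order := by linarith
    rw [h1]
    exact Dvd.dvd.mul_right (hdiv 𝔓) _

section Emb

variable {M : ℕ} [NeZero M] (E : FF M →ₐ[Kb] LaurentSeries Kb)

/-- **DISC step for an arbitrary expansion map `E`** (cusp of any width): `x` is a function
whose expansion is `A`-integral with unit leading coefficient (e.g. `x = j`), `H` is regular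
where `x` is finite, `m ∣ div H`, and `E H = Y₁ / Y₂` with integral `Y₁, Y₂` of the same nonzero
reduction. Then `E H` has an integral `m`-th root with reduction `1`. -/
theorem disc_root_emb_gen (A : ValuationSubring Kb)
    (hratio : ∀ y : FF M, IsRatioEv A (E y))
    (x : FF M) (Yx : LaurentSeries A) (hYx : coeffMap A.subtype Yx = E x)
    (hu : IsUnit (Yx.coeff Yx.order))
    (m : ℕ) (hm : IsUnit ((m : ℕ) : A)) (H : FF M) (hH : H ≠ 0)
    (hdiv : ∀ P : Place Kb (FF M), (m : ℤ) ∣ P.ord H)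
    (hreg : ∀ P : Place Kb (FF M), 0 ≤ P.ord x → 0 ≤ P.ord H)
    (Y₁ Y₂ : LaurentSeries A) (h₁ : ∃ y : FF M, E y = coeffMap A.subtype Y₁)
    (h₂ : ∃ y : FF M, E y = coeffMap A.subtype Y₂)
    (h12 : coeffMap A.subtype Y₁ = E H * coeffMap A.subtype Y₂)
    (hred : coeffMap (IsLocalRing.residue A) Y₁ = coeffMap (IsLocalRing.residue A) Y₂)
    (hne : coeffMap (IsLocalRing.residue A) Y₂ ≠ 0) :
    ∃ Z : LaurentSeries A, (coeffMap A.subtype Z) ^ m = E H ∧
      coeffMap (IsLocalRing.residue A) Z = 1 := by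
  set e := toRange E with he
  have hD5 : ∀ V : ValuationSubring E.fieldRange,
      (∀ a : Kb, algebraMap Kb E.fieldRange a ∈ V) → V ≠ ⊤ →
      ∃ 𝔓 : Place Kb E.fieldRange, 𝔓.toValuationSubring = V := by
    intro V hK hV
    have hK' : ∀ a : Kb, algebraMap Kb (FF M) a ∈ V.comap (e : FF M →+* E.fieldRange) := by
      intro a
      rw [ValuationSubring.mem_comap]
      have h : (e : FF M →+* E.fieldRange) (algebraMap Kb (FF M) a)
          = algebraMap Kb E.fieldRange a := e.commutes a
      rw [h]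
      exact hK a
    have hV' : V.comap (e : FF M →+* E.fieldRange) ≠ ⊤ := by
      intro h
      apply hV
      refine SetLike.ext fun y => ⟨fun _ => ValuationSubring.mem_top y, fun _ => ?_⟩
      have h1 : e.symm y ∈ V.comap (e : FF M →+* E.fieldRange) := by
        rw [h]
        exact ValuationSubring.mem_top _
      rw [ValuationSubring.mem_comap] at h1
      have h2 : (e : FF M →+* E.fieldRange) (e.symm y) = y := e.apply_symm_apply _
      rwa [h2] at h1
    obtain ⟨P, hP⟩ := exists_place_of_valuationSubring_FF M _ hK' hV'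
    refine ⟨placeComap e.symm P, ?_⟩
    apply SetLike.ext
    intro y
    rw [mem_placeComap, hP, ValuationSubring.mem_comap]
    have h2 : (e : FF M →+* E.fieldRange) (e.symm y) = y := e.apply_symm_apply _
    rw [h2]
  have hD4 : ∀ f : E.fieldRange, ∃ S : Finset Kb, ∀ K₀ : IntermediateField ℚ Kb,
      (S : Set Kb) ⊆ K₀ → IsRatio (capSubring A K₀) (f : LaurentSeries Kb) := by
    intro f
    have h := hratio (e.symm f)
    have h2 : E (e.symm f) = (f : LaurentSeries Kb) := by
      rw [← coe_toRange]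
      exact congrArg Subtype.val (e.apply_symm_apply f)
    rw [h2] at h
    exact h
  have hfin : {𝔓 : Place Kb E.fieldRange | 𝔓.ord (e H) ≠ 0}.Finite := by
    have h1 : {𝔓 : Place Kb E.fieldRange | 𝔓.ord (e H) ≠ 0}
        = (placeComap e) ⁻¹' {P : Place Kb (FF M) | P.ord H ≠ 0} := by
      ext 𝔓
      simp only [Set.mem_ofPred_eq, Set.mem_preimage, ord_placeComap]
    rw [h1]
    exact Set.Finite.preimage (placeComap_injective e).injOn (finite_ord_ne_zero M H hH)
  have heH : e H ≠ 0 := (EmbeddingLike.map_ne_zero_iff).mpr hH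
  have hord : (m : ℤ) ∣ ((e H : E.fieldRange) : LaurentSeries Kb).order := by
    refine dvd_order_of_dvd_ord E.fieldRange hD5 m (e H) heH fun 𝔓 => ?_
    rw [← ord_placeComap]
    exact hdiv _
  have hxv : ∃ Sx : Finset Kb, ∀ K₀ : IntermediateField ℚ Kb, (Sx : Set Kb) ⊆ K₀ →
      ∀ P : PowerSeries (capSubring A K₀), Prime P → ¬ P ∣ PowerSeries.X →
        HasVal P ((e x : E.fieldRange) : LaurentSeries Kb) 0 := by
    obtain ⟨Sx, hSx⟩ := hratio x
    refine ⟨Sx, fun K₀ hK₀ P hP hX => ?_⟩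
    have h1 := hSx K₀ hK₀
    rw [← hYx] at h1
    have h2 : ((e x : E.fieldRange) : LaurentSeries Kb) = coeffMap A.subtype Yx := by
      rw [coe_toRange, hYx]
    rw [h2]
    exact hasVal_zero_of_unit_lead A K₀ Yx hu h1 P hP hX
  have hdiv' : ∀ 𝔓 : Place Kb E.fieldRange, 0 ≤ 𝔓.ord (e x) → (m : ℤ) ∣ 𝔓.ord (e H) := by
    intro 𝔓 _
    rw [← ord_placeComap]
    exact hdiv _
  have hreg' : ∀ 𝔓 : Place Kb E.fieldRange, 0 ≤ 𝔓.ord (e x) → 0 ≤ 𝔓.ord (e H) := by
    intro 𝔓 h
    rw [← ord_placeComap] at h ⊢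
    exact hreg _ h
  have hmem : ∀ Y : LaurentSeries A, (∃ y : FF M, E y = coeffMap A.subtype Y) →
      coeffMap A.subtype Y ∈ E.fieldRange := by
    rintro Y ⟨y, hy⟩
    rw [← hy]
    exact ⟨y, rfl⟩
  obtain ⟨Z, hZ, hZr⟩ := disc_root_core_gen E.fieldRange A hD5 hD4
    (fun K₀ _ => Fermat.Agent.P2.helper89.isPrincipalIdealRing_capSubring A K₀)
    (e x) hxv m hm (e H) heH hfin hord hdiv' hreg' Y₁ Y₂ (hmem Y₁ h₁)
    (hmem Y₂ h₂) (by rw [coe_toRange]; exact h12) hred hne
  exact ⟨Z, by rw [hZ, coe_toRange], hZr⟩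

/-- **DISC step for an arbitrary expansion map `E`**, for a function whose expansion is
integral with reduction `1`. -/
theorem disc_root_emb_gen_one (A : ValuationSubring Kb)
    (hratio : ∀ y : FF M, IsRatioEv A (E y))
    (x : FF M) (Yx : LaurentSeries A) (hYx : coeffMap A.subtype Yx = E x)
    (hu : IsUnit (Yx.coeff Yx.order))
    (m : ℕ) (hm : IsUnit ((m : ℕ) : A)) (H : FF M)
    (hdiv : ∀ P : Place Kb (FF M), (m : ℤ) ∣ P.ord H)
    (hreg : ∀ P : Place Kb (FF M), 0 ≤ P.ord x → 0 ≤ P.ord H)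
    (Y : LaurentSeries A) (hY : coeffMap A.subtype Y = E H)
    (hr : coeffMap (IsLocalRing.residue A) Y = 1) :
    ∃ Z : LaurentSeries A, (coeffMap A.subtype Z) ^ m = E H ∧
      coeffMap (IsLocalRing.residue A) Z = 1 := by
  have hH : H ≠ 0 := by
    rintro rfl
    rw [map_zero] at hY
    have hY0 : Y = 0 := by
      ext k
      have := congrArg (fun Z : LaurentSeries Kb => Z.coeff k) hY
      simpa using this
    rw [hY0, map_zero] at hr
    exact zero_ne_one hr
  refine disc_root_emb_gen E A hratio x Yx hYx hu m hm H hH hdiv hreg Y 1 ⟨H, hY.symm⟩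
    ⟨1, by rw [map_one, map_one]⟩ (by rw [map_one, mul_one, hY]) (by rw [hr, map_one]) ?_
  rw [map_one]
  exact one_ne_zero

end Emb

end Fermat.Agent.T3.helper23

end
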