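import Mathlib
import Fermat.Agent.T3.helper23_DiscGenEmb

/-!
# T3 [DISC3] / [CUSP-ALL] (helper23): the DISC step at a cusp where `j = j(T ^ w)`

`disc_root_emb_jqN`, `disc_root_emb_jqN_one` : the DISC step for an expansion map
`E : F_M → ℚ̄((T))` with `E j = j(T ^ w)` (`w ≥ 1` arbitrary: the expansions of the coset
dictionary have `w = M`, those at the cusp `∞` have `w = 1`), for functions regular where `j`
is finite.
-/

set_option autoImplicit false
set_option linter.unusedSectionVars false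
set_option linter.unusedVariables false
set_option linter.style.longLine false

noncomputable section

open HahnSeries IntermediateField AlgebraicCurve ModularCurve

namespace Fermat.Agent.T3.helper23

open Fermat.Agent.P2.helper23 Fermat.Agent.P2.helper73

theorem coeff_jqNModC_neg (R : Type*) [CommRing R] (w : ℕ) [NeZero w] :
    (jqNModC R w).coeff (-(w : ℤ)) = 1 := by
  have h := qExpand_coeff_mul (R := R) w (jqModC R) (-1)
  rw [coeff_jqModC_neg_one] at h
  rw [jqNModC, ← h]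
  congr 1
  ring

theorem coeff_jqNModC_of_lt (R : Type*) [CommRing R] (w : ℕ) [NeZero w] {k : ℤ}
    (hk : k < -(w : ℤ)) : (jqNModC R w).coeff k = 0 := by
  rw [jqNModC]
  by_cases hd : (w : ℤ) ∣ k
  · obtain ⟨k', rfl⟩ := hd
    rw [qExpand_coeff_mul]
    apply coeff_jqModC_of_lt
    have hw : (0 : ℤ) < w := by exact_mod_cast Nat.pos_of_ne_zero (NeZero.ne w)
    by_contra hcon
    rw [not_lt] at hcon
    have : -(w : ℤ) ≤ (w : ℤ) * k' := by nlinarith
    omega
  · exact qExpand_coeff_of_not_dvd _ _ hd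

theorem order_jqNModC (R : Type*) [CommRing R] [Nontrivial R] (w : ℕ) [NeZero w] :
    (jqNModC R w).order = -(w : ℤ) := by
  have hn : (jqNModC R w).coeff (-(w : ℤ)) ≠ 0 := by
    rw [coeff_jqNModC_neg]
    exact one_ne_zero
  refine le_antisymm (HahnSeries.order_le_of_coeff_ne_zero hn) ?_
  by_contra h
  rw [not_le] at h
  have hx : jqNModC R w ≠ 0 := HahnSeries.ne_zero_of_coeff_ne_zero hn
  exact hx (HahnSeries.coeff_order_eq_zero.mp (coeff_jqNModC_of_lt R w h))

/-- `j(T ^ w)` is `A`-integral with unit leading coefficient. -/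
theorem exists_unit_lead_jqN (A : ValuationSubring Kb) (w : ℕ) [NeZero w] :
    ∃ Yx : LaurentSeries A, coeffMap A.subtype Yx = jqNModC Kb w ∧
      IsUnit (Yx.coeff Yx.order) := by
  refine ⟨jqNModC A w, coeffMap_jqNModC _ _, ?_⟩
  rw [order_jqNModC, coeff_jqNModC_neg]
  exact isUnit_one

section Emb

variable {M : ℕ} [NeZero M] (E : FF M →ₐ[Kb] LaurentSeries Kb)

/-- **DISC step at a cusp with `E j = j(T ^ w)`.** -/
theorem disc_root_emb_jqN (A : ValuationSubring Kb)
    (hratio : ∀ y : FF M, IsRatioEv A (E y))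
    (w : ℕ) [NeZero w] (hj : E (Fermat.Agent.P2.helper29.jElt M) = jqNModC Kb w)
    (m : ℕ) (hm : IsUnit ((m : ℕ) : A)) (H : FF M) (hH : H ≠ 0)
    (hdiv : ∀ P : Place Kb (FF M), (m : ℤ) ∣ P.ord H)
    (hreg : ∀ P : Place Kb (FF M), 0 ≤ P.ord (Fermat.Agent.P2.helper29.jElt M) → 0 ≤ P.ord H)
    (Y₁ Y₂ : LaurentSeries A) (h₁ : ∃ y : FF M, E y = coeffMap A.subtype Y₁)
    (h₂ : ∃ y : FF M, E y = coeffMap A.subtype Y₂)
    (h12 : coeffMap A.subtype Y₁ = E H * coeffMap A.subtype Y₂)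
    (hred : coeffMap (IsLocalRing.residue A) Y₁ = coeffMap (IsLocalRing.residue A) Y₂)
    (hne : coeffMap (IsLocalRing.residue A) Y₂ ≠ 0) :
    ∃ Z : LaurentSeries A, (coeffMap A.subtype Z) ^ m = E H ∧
      coeffMap (IsLocalRing.residue A) Z = 1 := by
  obtain ⟨Yx, hYx, hu⟩ := exists_unit_lead_jqN A w
  exact disc_root_emb_gen E A hratio (Fermat.Agent.P2.helper29.jElt M) Yx (by rw [hYx, hj]) hu
    m hm H hH hdiv hreg Y₁ Y₂ h₁ h₂ h12 hred hne

/-- **DISC step at a cusp with `E j = j(T ^ w)`**, for a function whose expansion is integral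
with reduction `1`. -/
theorem disc_root_emb_jqN_one (A : ValuationSubring Kb)
    (hratio : ∀ y : FF M, IsRatioEv A (E y))
    (w : ℕ) [NeZero w] (hj : E (Fermat.Agent.P2.helper29.jElt M) = jqNModC Kb w)
    (m : ℕ) (hm : IsUnit ((m : ℕ) : A)) (H : FF M)
    (hdiv : ∀ P : Place Kb (FF M), (m : ℤ) ∣ P.ord H)
    (hreg : ∀ P : Place Kb (FF M), 0 ≤ P.ord (Fermat.Agent.P2.helper29.jElt M) → 0 ≤ P.ord H)
    (Y : LaurentSeries A) (hY : coeffMap A.subtype Y = E H)
    (hr : coeffMap (IsLocalRing.residue A) Y = 1) :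
    ∃ Z : LaurentSeries A, (coeffMap A.subtype Z) ^ m = E H ∧
      coeffMap (IsLocalRing.residue A) Z = 1 := by
  obtain ⟨Yx, hYx, hu⟩ := exists_unit_lead_jqN A w
  exact disc_root_emb_gen_one E A hratio (Fermat.Agent.P2.helper29.jElt M) Yx (by rw [hYx, hj])
    hu m hm H hdiv hreg Y hY hr

end Emb

end Fermat.Agent.T3.helper23

end
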