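import Mathlib
import Fermat.Agent.T3.helper23_DiscGenJ

/-!
# T3 [DISC3] / [CUSP-ALL] (helper23): tools for "all expansions are quotients of integral series"

The hypothesis `hratio : ∀ y, IsRatioEv A (E y)` of `disc_root_emb_gen` from generators:

* `isRatioEv_of_coeff_mem` : a Laurent series whose coefficients lie in `A` and in one number
  field is a ratio;
* `isRatioEv_qExpand` : the substitution `t ↦ t ^ m` preserves ratios
  (`isRatioEv_twistL` of `helper23_Disc3Ratio` : the twists `t ↦ c t` do);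
* `isRatioEv_of_dg` : a ring homomorphism `E : F_{N q q} → ℚ̄((t))` whose values on the images of
  the degeneracy maps `αα, αβ, βα, ββ : F_N → F_{N q q}` are ratios has only ratios as values.
-/

set_option autoImplicit false
set_option linter.unusedSectionVars false
set_option linter.unusedVariables false
set_option linter.style.longLine false

noncomputable section

open HahnSeries IntermediateField AlgebraicCurve ModularCurve

namespace Fermat.Agent.T3.helper23

open Fermat.Agent.P2.helper23 Fermat.Agent.P2.helper73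

/-! ### Series with coefficients in `R₀` -/

/-- a Laurent series with coefficients in `R₀` is a ratio over `R₀` -/
theorem isRatio_of_coeff_mem (R₀ : Subring Kb) (f : LaurentSeries Kb)
    (h : ∀ n : ℤ, f.coeff n ∈ R₀) : IsRatio R₀ f := by
  obtain ⟨k, hk⟩ : ∃ k : ℕ, ∀ n : ℤ, n < -(k : ℤ) → f.coeff n = 0 := by
    refine ⟨(-f.order).toNat, fun n hn => ?_⟩
    apply HahnSeries.coeff_eq_zero_of_lt_order
    have h1 : -f.order ≤ ((-f.order).toNat : ℤ) := Int.self_le_toNat _
    omega
  have hneg : ∀ n : ℤ, n < 0 → (f * phi R₀ (PowerSeries.X ^ k)).coeff n = 0 := by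
    intro n hn
    rw [Fermat.Agent.P2.helper56.coeff_mul_phi_X_pow]
    exact hk _ (by omega)
  have hmem : ∀ n : ℕ, (f * phi R₀ (PowerSeries.X ^ k)).coeff (n : ℤ) ∈ R₀ := by
    intro n
    rw [Fermat.Agent.P2.helper56.coeff_mul_phi_X_pow]
    exact h _
  obtain ⟨G, hG⟩ := exists_phi_eq (f * phi R₀ (PowerSeries.X ^ k)) hneg hmem
  exact ⟨G, PowerSeries.X ^ k, pow_ne_zero _ PowerSeries.X_ne_zero, hG.symm⟩

/-- a Laurent series whose coefficients lie in `A` and in the number field generated by a
finite set is a ratio -/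
theorem isRatioEv_of_coeff_mem (A : ValuationSubring Kb) (S : Finset Kb)
    (f : LaurentSeries Kb) (hA : ∀ n : ℤ, f.coeff n ∈ A)
    (hS : ∀ n : ℤ, f.coeff n ∈ IntermediateField.adjoin ℚ (S : Set Kb)) : IsRatioEv A f := by
  refine ⟨S, fun K₀ hK₀ => isRatio_of_coeff_mem _ f fun n => ?_⟩
  refine mem_capSubring.2 ⟨hA n, ?_⟩
  have hle : IntermediateField.adjoin ℚ (S : Set Kb) ≤ K₀ :=
    IntermediateField.adjoin_le_iff.mpr hK₀
  exact hle (hS n)

/-! ### Substitution `t ↦ t ^ m` -/

section Expand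

variable (m : ℕ) [NeZero m]

/-- `G(X ^ m)` -/
def expandPS (R₀ : Subring Kb) (G : PowerSeries R₀) : PowerSeries R₀ :=
  PowerSeries.mk fun n => if m ∣ n then PowerSeries.coeff (n / m) G else 0

theorem phi_expandPS (R₀ : Subring Kb) (G : PowerSeries R₀) :
    phi R₀ (expandPS m R₀ G) = qExpand Kb m (phi R₀ G) := by
  have hm0 : (0 : ℤ) < m := by exact_mod_cast Nat.pos_of_ne_zero (NeZero.ne m)
  ext k
  rcases lt_or_ge k 0 with hk | hk
  · rw [phi_apply, ofPowerSeries_coeff_of_neg _ hk]
    by_cases hd : (m : ℤ) ∣ k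
    · obtain ⟨j, rfl⟩ := hd
      rw [qExpand_coeff_mul]
      have hj : j < 0 := by
        by_contra hj
        rw [not_lt] at hj
        exact absurd (mul_nonneg hm0.le hj) (not_le.mpr hk)
      rw [phi_apply, ofPowerSeries_coeff_of_neg _ hj]
    · rw [qExpand_coeff_of_not_dvd _ _ hd]
  · obtain ⟨n, rfl⟩ := Int.eq_ofNat_of_zero_le hk
    rw [phi_coeff_natCast, expandPS, PowerSeries.coeff_mk]
    by_cases hd : m ∣ n
    · rw [if_pos hd]
      obtain ⟨j, rfl⟩ := hd
      rw [Nat.mul_div_cancel_left _ (Nat.pos_of_ne_zero (NeZero.ne m))]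
      push_cast
      rw [qExpand_coeff_mul, phi_coeff_natCast]
    · rw [if_neg hd]
      have hd' : ¬ (m : ℤ) ∣ (n : ℤ) := by
        intro h
        exact hd (by exact_mod_cast h)
      rw [qExpand_coeff_of_not_dvd _ _ hd']
      rfl

theorem isRatio_qExpand (R₀ : Subring Kb) {f : LaurentSeries Kb} (hf : IsRatio R₀ f) :
    IsRatio R₀ (qExpand Kb m f) := by
  obtain ⟨G₁, G₂, hG₂, hG⟩ := hf
  refine ⟨expandPS m R₀ G₁, expandPS m R₀ G₂, ?_, ?_⟩
  · intro h
    have h1 := congrArg (phi R₀) h
    rw [phi_expandPS, map_zero] at h1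
    have h2 : phi R₀ G₂ = 0 := by
      apply qExpand_injective (R := Kb) m
      rw [h1, map_zero]
    exact phi_ne_zero R₀ hG₂ h2
  · rw [phi_expandPS, phi_expandPS, ← hG, map_mul]

/-- **the substitution `t ↦ t ^ m` preserves ratios** -/
theorem isRatioEv_qExpand (A : ValuationSubring Kb) {f : LaurentSeries Kb}
    (hf : IsRatioEv A f) : IsRatioEv A (qExpand Kb m f) := by
  obtain ⟨S, hS⟩ := hf
  exact ⟨S, fun K₀ h => isRatio_qExpand m _ (hS K₀ h)⟩

end Expand

/-! ### Generation of `F_{N q q}` by the images of `F_N` -/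

section Gen

variable (N q : ℕ) [NeZero N] [NeZero q]

/-- a ring homomorphism of `F_{N q q}` into `ℚ̄((t))` whose values on the images of the four
composites of `α` and `β` are ratios has only ratios as values. -/
theorem isRatioEv_of_dg (hq : q.Prime) (A : ValuationSubring Kb)
    (E : FF (N * q * q) →+* LaurentSeries Kb)
    (hαα : ∀ f : FF N, IsRatioEv A
      (E (heckeAlphaBar Kb (N * q) q (heckeAlphaBar Kb N q f))))
    (hαβ : ∀ f : FF N, IsRatioEv A
      (E (heckeAlphaBar Kb (N * q) q (heckeBetaBar Kb N q f))))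
    (hβα : ∀ f : FF N, IsRatioEv A
      (E (heckeBetaBar Kb (N * q) q (heckeAlphaBar Kb N q f))))
    (hββ : ∀ f : FF N, IsRatioEv A
      (E (heckeBetaBar Kb (N * q) q (heckeBetaBar Kb N q f))))
    (x : FF (N * q * q)) : IsRatioEv A (E x) := by
  refine mem_subfield_of_alpha_beta q (N * q) hq (ratioSubfield A) E (fun g => ?_) (fun g => ?_) x
  · exact mem_subfield_of_alpha_beta q N hq (ratioSubfield A)
      (E.comp ((heckeAlphaBar Kb (N * q) q : FF (N * q) →ₐ[Kb] FF (N * q * q)) :
        FF (N * q) →+* FF (N * q * q))) (fun f => hαα f) (fun f => hαβ f) g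
  · exact mem_subfield_of_alpha_beta q N hq (ratioSubfield A)
      (E.comp ((heckeBetaBar Kb (N * q) q : FF (N * q) →ₐ[Kb] FF (N * q * q)) :
        FF (N * q) →+* FF (N * q * q))) (fun f => hβα f) (fun f => hββ f) g

end Gen

end Fermat.Agent.T3.helper23

end
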