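import Mathlib
import Fermat.Agent.T3.helper23_DiscGenRatio

/-!
# T3 [DISC-ALL] (helper23): the DISC step for a family of expansions (all cusps)

`E : ι → F_M →+* ℚ̄((T))` is a family of expansion maps (ring homomorphisms which are the identity
on the constants), e.g. the expansions at all the cusps of `X₀(N q²)` ([CUSP-Q]).

* `DiscPack A E` : what DISC needs from the producer of `E`:
  `alg` (identity on constants), `ratio` (all expansions are quotients of `A`-integral power
  series with coefficients in a number field), `jlead` (the expansion of `j` is `A`-integral with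
  unit leading coefficient; e.g. `E i j = j(T ^ w)`).
* `disc_all` : **DISC at all indices** : for `H` regular where `j` is finite, `n ∣ div H`
  (`n ∈ Aˣ`), with `A`-integral expansions of reduction `1` at every index, every expansion
  `E i H` has an `A`-integral formal `n`-th root with reduction `1`
  (`= hroot` of `helper27.root_of_pack`).
* `DiscPack.of_jqN`, `isRatioEv_rot` : constructors.
-/

set_option autoImplicit false
set_option linter.unusedSectionVars false
set_option linter.unusedVariables false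
set_option linter.style.longLine false

noncomputable section

open HahnSeries IntermediateField AlgebraicCurve ModularCurve

namespace Fermat.Agent.T3.helper23

open Fermat.Agent.P2.helper23 Fermat.Agent.P2.helper73

section Pack

variable {M : ℕ} [NeZero M] (A : ValuationSubring Kb) {ι : Type*}
  (E : ι → FF M →+* LaurentSeries Kb)

/-- the input of DISC for a family of expansions -/
structure DiscPack : Prop where
  /-- the expansions are the identity on the constants -/
  alg : ∀ (i : ι) (c : Kb), E i (algebraMap Kb (FF M) c) = algebraMap Kb (LaurentSeries Kb) c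
  /-- all expansions are quotients of integral power series over a number field -/
  ratio : ∀ (i : ι) (y : FF M), IsRatioEv A (E i y)
  /-- the expansions of `j` are integral with unit leading coefficient -/
  jlead : ∀ i : ι, ∃ Yj : LaurentSeries A,
    coeffMap A.subtype Yj = E i (Fermat.Agent.P2.helper29.jElt M) ∧ IsUnit (Yj.coeff Yj.order)

variable {A E}

/-- the expansion map at the index `i` as a `ℚ̄`-algebra homomorphism -/
def DiscPack.toAlgHom (hD : DiscPack A E) (i : ι) : FF M →ₐ[Kb] LaurentSeries Kb :=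
  { (E i) with commutes' := hD.alg i }

@[simp]
theorem DiscPack.toAlgHom_apply (hD : DiscPack A E) (i : ι) (f : FF M) :
    hD.toAlgHom i f = E i f := rfl

/-- **[DISC-ALL]**, quotient form. -/
theorem disc_all_quot (hD : DiscPack A E) (n : ℕ) (hn : IsUnit ((n : ℕ) : A)) (H : FF M)
    (hH : H ≠ 0)
    (hdiv : ∀ P : Place Kb (FF M), (n : ℤ) ∣ P.ord H)
    (hreg : ∀ P : Place Kb (FF M), 0 ≤ P.ord (Fermat.Agent.P2.helper29.jElt M) → 0 ≤ P.ord H)
    (i : ι) (Y₁ Y₂ : LaurentSeries A) (h₁ : ∃ y : FF M, E i y = coeffMap A.subtype Y₁)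
    (h₂ : ∃ y : FF M, E i y = coeffMap A.subtype Y₂)
    (h12 : coeffMap A.subtype Y₁ = E i H * coeffMap A.subtype Y₂)
    (hred : coeffMap (IsLocalRing.residue A) Y₁ = coeffMap (IsLocalRing.residue A) Y₂)
    (hne : coeffMap (IsLocalRing.residue A) Y₂ ≠ 0) :
    ∃ Z : LaurentSeries A, (coeffMap A.subtype Z) ^ n = E i H ∧
      coeffMap (IsLocalRing.residue A) Z = 1 := by
  obtain ⟨Yj, hYj, hu⟩ := hD.jlead i
  exact disc_root_emb_gen (hD.toAlgHom i) A (hD.ratio i) (Fermat.Agent.P2.helper29.jElt M) Yj hYj
    hu n hn H hH hdiv hreg Y₁ Y₂ h₁ h₂ h12 hred hne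

/-- **[DISC-ALL]** : the hypothesis `hroot` of `helper27.root_of_pack`. -/
theorem disc_all (hD : DiscPack A E) (n : ℕ) (hn : IsUnit ((n : ℕ) : A)) (H : FF M)
    (hdiv : ∀ P : Place Kb (FF M), (n : ℤ) ∣ P.ord H)
    (hreg : ∀ P : Place Kb (FF M), 0 ≤ P.ord (Fermat.Agent.P2.helper29.jElt M) → 0 ≤ P.ord H)
    (hint : ∀ i : ι, ∃ Y : LaurentSeries A, coeffMap A.subtype Y = E i H ∧
      coeffMap (IsLocalRing.residue A) Y = 1) :
    ∀ i : ι, ∃ Z : LaurentSeries A, (coeffMap A.subtype Z) ^ n = E i H ∧
      coeffMap (IsLocalRing.residue A) Z = 1 := by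
  intro i
  obtain ⟨Yj, hYj, hu⟩ := hD.jlead i
  obtain ⟨Y, hY, hr⟩ := hint i
  exact disc_root_emb_gen_one (hD.toAlgHom i) A (hD.ratio i) (Fermat.Agent.P2.helper29.jElt M)
    Yj hYj hu n hn H hdiv hreg Y hY hr

/-- constructor: `E i j = j(T ^ w i)` -/
theorem DiscPack.of_jqN
    (halg : ∀ (i : ι) (c : Kb),
      E i (algebraMap Kb (FF M) c) = algebraMap Kb (LaurentSeries Kb) c)
    (hratio : ∀ (i : ι) (y : FF M), IsRatioEv A (E i y))
    (w : ι → ℕ) (hw : ∀ i, w i ≠ 0)
    (hj : ∀ i, ∀ _ : NeZero (w i), E i (Fermat.Agent.P2.helper29.jElt M) = jqNModC Kb (w i)) :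
    DiscPack A E where
  alg := halg
  ratio := hratio
  jlead := fun i => by
    haveI : NeZero (w i) := ⟨hw i⟩
    obtain ⟨Yx, hYx, hu⟩ := exists_unit_lead_jqN A (w i)
    exact ⟨Yx, by rw [hYx, hj i inferInstance], hu⟩

end Pack

/-! ### Rotations -/

/-- **rotations by units of `A` preserve ratios** -/
theorem isRatioEv_rot (A : ValuationSubring Kb) (u : Kbˣ) (hu : (u : Kb) ∈ A)
    {f : LaurentSeries Kb} (hf : IsRatioEv A f) :
    IsRatioEv A (Fermat.Agent.P2.helper94.rot u f) := by
  have e : Fermat.Agent.P2.helper94.rot u f = Fermat.Agent.P2.helper93.twistL (u : Kb) f := by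
    ext k
    rw [Fermat.Agent.P2.helper94.rot_coeff, Fermat.Agent.P2.helper93.twistL_coeff,
      Units.val_zpow_eq_zpow_val]
  rw [e]
  exact isRatioEv_twistL A hu u.ne_zero hf

end Fermat.Agent.T3.helper23

end
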