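import Fermat.Agent.T3.helper48_WGen

/-!
# Tier 3, [T3-W] (helper48, task 904), part 2: the Atkin–Lehner involution at an exact divisor,
with its dictionary, and the case `Q = q ^ 2` at level `N * q * q`

* `jfunDT_alExact_eq_mat_smul` : for `M = N Q` and ANY Atkin–Lehner matrix `W : ALData M Q`
  (`[[Q x, y], [M z, Q w]]`, determinant `Q`): `j_{w d}(τ) = j_d(W τ)` for all `d ∣ M`, where
  `w d = (Q / gcd(d, Q)) · gcd(d, N)` (`helper36.alExact`);
* `atkinLehnerM M N Q hM hcop` : the Atkin–Lehner automorphism `W_Q` of `F_M` over `ℚ̄`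
  (`M = N Q`, `gcd(N, Q) = 1`), `W_Q (j_d) = j_{w d}`; involution; commutes with Galois;
* `isEv_atkinLehnerM`, `normDictWM`, `bridgeWM` : the analytic dictionary for `W_Q`;
* `atkinLehnerSq N q hq hqN` : the case `M = N * q * q`, `Q = q * q` (`q` prime, `q ∤ N`), with
  `W₂ ∘ α₂ = β₂ ∘ W₁`, `W₂ ∘ β₂ = α₂ ∘ W₁` (`α₂, β₂ : F_{Nq} → F_{Nq²}` the two degeneracy maps of
  the Prelude, `W₁ = T2.helper36.atkinLehner N q`), `W₂ ∘ α₂ ∘ α₁ = β₂ ∘ β₁`, and `W₂` fixes the
  middle embedding `α₂ ∘ β₁ = β₂ ∘ α₁`.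
-/

set_option autoImplicit false
set_option linter.unusedSectionVars false
set_option linter.unusedVariables false
set_option linter.style.haveILetI false

open Filter Topology Set UpperHalfPlane ModularCurve AlgebraicCurve CongruenceSubgroup
open scoped MatrixGroups Manifold
open Fermat.Agent.S24 Fermat.Agent.S24.helper24 Fermat.Agent.P3.helper80
open Fermat.Agent.S16.helper26 Fermat.Agent.P3.helper34
open Fermat.Agent.T2.helper76 Fermat.Agent.T2.helper36 Fermat.Agent.T2.helper17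

noncomputable section

namespace Fermat.Agent.T3.helper48

/-! ### The analytic substitution for a general Atkin–Lehner matrix at an exact divisor -/

section Subst

variable {M N Q : ℕ}

theorem m_eq_of_eq (hM : M = N * Q) (W : ALData M Q) : W.m = N := by
  have h : Q * N = Q * W.m := (mul_comm Q N).trans (hM.symm.trans W.hM)
  exact (Nat.eq_of_mul_eq_mul_left (Nat.pos_of_ne_zero W.hq) h).symm

theorem det_eq_of_eq (hM : M = N * Q) (W : ALData M Q) :
    (Q : ℤ) * W.x * W.w - (N : ℤ) * W.y * W.z = 1 := by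
  have := W.det_eq
  rwa [m_eq_of_eq hM W] at this

theorem coprime_of_alData (hM : M = N * Q) (W : ALData M Q) : Nat.Coprime N Q := by
  rw [← Nat.isCoprime_iff_coprime]
  exact ⟨-(W.y * W.z), W.x * W.w, by linear_combination det_eq_of_eq hM W⟩

/-- **The Atkin–Lehner substitution for a general Atkin–Lehner matrix at the exact divisor `Q`**:
`j_{w d}(τ) = j_d (W τ)` for all `d ∣ M = N Q`. -/
theorem jfunDT_alExact_eq_mat_smul (hM : M = N * Q) (hM0 : M ≠ 0) (W : ALData M Q) :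
    ∀ d ∈ M.divisors, ∀ τ : ℍ, jfunDT (alExact N Q d) τ = jfunDT d (W.mat • τ) := by
  intro d hd τ
  have hQ : Q ≠ 0 := W.hq
  have hN : N ≠ 0 := fun h => hM0 (by rw [hM, h, zero_mul])
  have hcop : Nat.Coprime N Q := coprime_of_alData hM W
  have hdet := det_eq_of_eq hM W
  obtain ⟨hd1, hd2⟩ := Nat.mem_divisors.mp hd
  have hd1' : d ∣ N * Q := hM ▸ hd1
  have hd0 : d ≠ 0 := fun h => hd2 (by rw [h] at hd1; exact Nat.eq_zero_of_zero_dvd hd1)
  haveI : NeZero d := ⟨hd0⟩
  have hW := mat_denom_ne_zero W τ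
  -- the decomposition `d = g₁ g₂`, `Q = g₁ q₁`, `N = g₂ n₂`
  obtain ⟨q₁, hq₁⟩ : Nat.gcd d Q ∣ Q := Nat.gcd_dvd_right d Q
  obtain ⟨n₂, hn₂⟩ : Nat.gcd d N ∣ N := Nat.gcd_dvd_right d N
  have hdg : d = Nat.gcd d Q * Nat.gcd d N := eq_gcd_mul_gcd hcop hd1'
  have hg₁0 : Nat.gcd d Q ≠ 0 := fun h => hQ (by rw [hq₁, h, zero_mul])
  have hg₂0 : Nat.gcd d N ≠ 0 := fun h => hN (by rw [hn₂, h, zero_mul])
  have hq₁0 : q₁ ≠ 0 := fun h => hQ (by rw [hq₁, h, mul_zero])
  have he : alExact N Q d = q₁ * Nat.gcd d N := by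
    unfold alExact
    congr 1
    exact Nat.div_eq_of_eq_mul_right (Nat.pos_of_ne_zero hg₁0) hq₁
  have he0 : alExact N Q d ≠ 0 := by rw [he]; exact Nat.mul_ne_zero hq₁0 hg₂0
  haveI : NeZero (alExact N Q d) := ⟨he0⟩
  rw [helper24.jfunDT_of_ne_zero, helper24.jfunDT_of_ne_zero]
  set g₁ := Nat.gcd d Q with hg₁
  set g₂ := Nat.gcd d N with hg₂
  have hQZ : (Q : ℤ) = g₁ * q₁ := by exact_mod_cast hq₁
  have hNZ : (N : ℤ) = g₂ * n₂ := by exact_mod_cast hn₂
  let γ' : SL(2, ℤ) := ⟨!![(g₁ : ℤ) * W.x, (g₂ : ℤ) * W.y; (n₂ : ℤ) * W.z, (q₁ : ℤ) * W.w], by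
    rw [Matrix.det_fin_two_of]
    rw [hQZ, hNZ] at hdet
    linear_combination hdet⟩
  have key : scaleH d (W.mat • τ) = γ' • scaleH (alExact N Q d) τ := by
    apply UpperHalfPlane.ext
    rw [helper77.coe_scaleH, helper77.coe_SL_smul, helper77.coe_scaleH, coe_mat_smul]
    have h2 := helper77.SL_denom_ne_zero γ' (scaleH (alExact N Q d) τ)
    rw [helper77.coe_scaleH] at h2
    have f00 : (γ' 0 0 : ℤ) = g₁ * W.x := rfl
    have f01 : (γ' 0 1 : ℤ) = g₂ * W.y := rfl
    have f10 : (γ' 1 0 : ℤ) = n₂ * W.z := rfl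
    have f11 : (γ' 1 1 : ℤ) = q₁ * W.w := rfl
    rw [f10, f11] at h2
    rw [f00, f01, f10, f11]
    have hdC : (d : ℂ) = (g₁ : ℂ) * (g₂ : ℂ) := by
      have := congrArg (Nat.cast : ℕ → ℂ) hdg
      simpa using this
    have hQC : (Q : ℂ) = (g₁ : ℂ) * (q₁ : ℂ) := by
      have := congrArg (Nat.cast : ℕ → ℂ) hq₁
      simpa using this
    have hNC : (N : ℂ) = (g₂ : ℂ) * (n₂ : ℂ) := by
      have := congrArg (Nat.cast : ℕ → ℂ) hn₂
      simpa using this
    have hMC : (M : ℂ) = (g₂ : ℂ) * (n₂ : ℂ) * ((g₁ : ℂ) * (q₁ : ℂ)) := by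
      rw [← hNC, ← hQC, hM]
      push_cast
      ring
    have heC : ((alExact N Q d : ℕ) : ℂ) = (q₁ : ℂ) * (g₂ : ℂ) := by
      have := congrArg (Nat.cast : ℕ → ℂ) he
      simpa using this
    have hg₁C : (g₁ : ℂ) ≠ 0 := by exact_mod_cast hg₁0
    have hq₁C : (q₁ : ℂ) ≠ 0 := by exact_mod_cast hq₁0
    rw [hdC, heC]
    rw [hMC, hQC] at hW ⊢
    rw [heC] at h2
    push_cast at h2 ⊢
    have h3 : (g₂ : ℂ) * n₂ * (g₁ * q₁) * W.z * τ + g₁ * q₁ * W.w
        = g₁ * (n₂ * W.z * (q₁ * g₂ * τ) + q₁ * W.w) := by ring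
    rw [h3]
    field_simp
  show jfun (scaleH (alExact N Q d) τ) = jfun (scaleH d (W.mat • τ))
  rw [key, helper24.jfun_smul]

end Subst

/-! ### The involution of the divisors of `M = N Q` -/

section Idx

variable {M N Q : ℕ}

theorem alExact_mem_divisors_of_eq (hM : M = N * Q) {d : ℕ} (hd : d ∈ M.divisors) :
    alExact N Q d ∈ M.divisors := by
  subst hM
  exact alExact_mem_divisors hd

/-- The involution `d ↦ (Q / gcd(d, Q)) · gcd(d, N)` on the divisors of `M = N Q`. -/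
def alIdxM (hM : M = N * Q) (d : M.divisors) : M.divisors :=
  ⟨alExact N Q d.1, alExact_mem_divisors_of_eq hM d.2⟩

@[simp]
theorem coe_alIdxM (hM : M = N * Q) (d : M.divisors) :
    ((alIdxM hM d : M.divisors) : ℕ) = alExact N Q d.1 := rfl

theorem alIdxM_alIdxM (hM : M = N * Q) (hcop : Nat.Coprime N Q) (hQ : Q ≠ 0)
    (d : M.divisors) : alIdxM hM (alIdxM hM d) = d :=
  Subtype.ext (alExact_alExact hcop hQ (hM ▸ (Nat.mem_divisors.mp d.2).1))

end Idx

/-! ### The automorphism `W_Q` of `F_M` -/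

section WM

variable (M N Q : ℕ) [NeZero M]

theorem exists_atkinLehnerM (hM : M = N * Q) (hcop : Nat.Coprime N Q) :
    ∃ WF : modularFunctionFieldBar M ≃ₐ[Kbar] modularFunctionFieldBar M,
      (∀ d : M.divisors, WF (genBar M d) = genBar M (alIdxM hM d)) ∧
      (∀ x, WF (WF x) = x) ∧
      (∀ (σ : Kbar ≃ₐ[ℚ] Kbar) (x : modularFunctionFieldBar M),
        WF (arithmeticRingAut (modularFunctionFieldFull M) σ x)
          = arithmeticRingAut (modularFunctionFieldFull M) σ (WF x)) := by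
  have hQ : Q ≠ 0 := fun h => NeZero.ne M (by rw [hM, h, mul_zero])
  let W : ALData M Q := ALData.ofCoprime hQ (hM.trans (mul_comm N Q)) hcop.symm
  exact exists_algEquiv_of_subst (alIdxM hM) (alIdxM_alIdxM hM hcop hQ) (fun τ => W.mat • τ)
    (fun d τ => jfunDT_alExact_eq_mat_smul hM (NeZero.ne M) W d.1 d.2 τ)

/-- **The Atkin–Lehner automorphism `W_Q` of the function field of `X₀(M)` over `ℚ̄`**,
`M = N Q` with `gcd(N, Q) = 1`. -/
def atkinLehnerM (hM : M = N * Q) (hcop : Nat.Coprime N Q) :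
    modularFunctionFieldBar M ≃ₐ[Kbar] modularFunctionFieldBar M :=
  (exists_atkinLehnerM M N Q hM hcop).choose

/-- `W_Q (j_d) = j_{w d}`. -/
theorem atkinLehnerM_genBar (hM : M = N * Q) (hcop : Nat.Coprime N Q) (d : M.divisors) :
    atkinLehnerM M N Q hM hcop (genBar M d) = genBar M (alIdxM hM d) :=
  (exists_atkinLehnerM M N Q hM hcop).choose_spec.1 d

/-- `W_Q` is an involution. -/
theorem atkinLehnerM_atkinLehnerM (hM : M = N * Q) (hcop : Nat.Coprime N Q)
    (x : modularFunctionFieldBar M) :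
    atkinLehnerM M N Q hM hcop (atkinLehnerM M N Q hM hcop x) = x :=
  (exists_atkinLehnerM M N Q hM hcop).choose_spec.2.1 x

/-- `W_Q` commutes with the arithmetic Galois action. -/
theorem atkinLehnerM_arithmeticRingAut (hM : M = N * Q) (hcop : Nat.Coprime N Q)
    (σ : Kbar ≃ₐ[ℚ] Kbar) (x : modularFunctionFieldBar M) :
    atkinLehnerM M N Q hM hcop (arithmeticRingAut (modularFunctionFieldFull M) σ x)
      = arithmeticRingAut (modularFunctionFieldFull M) σ (atkinLehnerM M N Q hM hcop x) :=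
  (exists_atkinLehnerM M N Q hM hcop).choose_spec.2.2 σ x

/-- `W_Q` is determined by its values on the generators. -/
theorem atkinLehnerM_unique (hM : M = N * Q) (hcop : Nat.Coprime N Q)
    (W' : modularFunctionFieldBar M →ₐ[Kbar] modularFunctionFieldBar M)
    (h : ∀ d : M.divisors, W' (genBar M d) = genBar M (alIdxM hM d)) :
    W' = (atkinLehnerM M N Q hM hcop : modularFunctionFieldBar M →ₐ[Kbar]
      modularFunctionFieldBar M) := by
  apply algHom_ext_genBar
  intro d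
  rw [h d]
  exact (atkinLehnerM_genBar M N Q hM hcop d).symm

/-! ### The dictionary for `W_Q` -/

/-- **Function dictionary for `W_Q`**, for ANY Atkin–Lehner matrix `W` at `Q`. -/
theorem isEv_atkinLehnerM (hM : M = N * Q) (hcop : Nat.Coprime N Q) (W : ALData M Q)
    (h : modularFunctionFieldBar M) {f : ℂ → ℂ}
    (hf : IsEv (Fermat.Agent.S24.helper17.toC (h : LaurentSeries Kbar)) f) :
    IsEv (Fermat.Agent.S24.helper17.toC
        ((atkinLehnerM M N Q hM hcop h : modularFunctionFieldBar M) : LaurentSeries Kbar))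
      (fun z => f (moebG W.mat z)) :=
  isEv_of_gen (atkinLehnerM M N Q hM hcop) (alIdxM hM) (atkinLehnerM_genBar M N Q hM hcop) W
    (fun d τ => jfunDT_alExact_eq_mat_smul hM (NeZero.ne M) W d.1 d.2 τ) h hf

open Fermat.Agent.P3.helper16 Fermat.Agent.P3.helper20 Fermat.Agent.P3.helper94
open Fermat.Agent.P3

/-- **The dictionary for `W_Q`** in the vocabulary of the analytic dictionary of `F_ℂ`. -/
theorem normDictWM (hM : M = N * Q) (hcop : Nat.Coprime N Q) (W : ALData M Q)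
    (h : modularFunctionFieldBar M) :
    EqH ((P3.helper48.anDictC M).ev (iotaFC M (atkinLehnerM M N Q hM hcop h)))
      (normProd (systemW W) ((P3.helper48.anDictC M).ev (iotaFC M h))) :=
  normDict_of_gen (atkinLehnerM M N Q hM hcop) (alIdxM hM) (atkinLehnerM_genBar M N Q hM hcop) W
    (fun d τ => jfunDT_alExact_eq_mat_smul hM (NeZero.ne M) W d.1 d.2 τ) h

/-- **(B) for `W_Q`**: equivariance of the analytic Kummer map for the Atkin–Lehner involution
at the exact divisor `Q`, transported to `J₀(M)`. -/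
theorem bridgeWM (hM : M = N * Q) (hcop : Nat.Coprime N Q) (W : ALData M Q) (p : ℕ) (hp : 0 < p)
    (κC : ℕ → LatChar M →+ JC M)
    (hκ : ∀ (n : ℕ) (ε : LatChar M),
      IsMonData (P3.helper48.anDictC M) (p ^ n) (κC n ε) (latPsi M p n ε))
    (n : ℕ) (ε : LatChar M) (x : JZero M) (hx : conC M x = κC n ε) :
    conC M (atkinLehnerM M N Q hM hcop • x) = κC n (Wst W ε) :=
  bridge_of_gen (atkinLehnerM M N Q hM hcop) (alIdxM hM) (atkinLehnerM_genBar M N Q hM hcop) W
    (fun d τ => jfunDT_alExact_eq_mat_smul hM (NeZero.ne M) W d.1 d.2 τ) p hp κC hκ n ε x hx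

end WM

/-! ### The case `Q = q ^ 2` at level `N * q * q` -/

section Sq

theorem coprime_mul_self {N q : ℕ} (hq : q.Prime) (hqN : ¬ q ∣ N) : Nat.Coprime N (q * q) := by
  have h : Nat.Coprime N q := ((Nat.Prime.coprime_iff_not_dvd hq).mpr hqN).symm
  exact Nat.Coprime.mul_right h h

/-- On the divisors of `N q` the involution for `Q = q²` is the involution for `q`, times `q`. -/
theorem alExact_sq_eq {N q d : ℕ} (hq : q.Prime) (hqN : ¬ q ∣ N) (hd : d ∣ N * q) :
    alExact N (q * q) d = alNat q d * q := by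
  have hcop : Nat.Coprime q N := (Nat.Prime.coprime_iff_not_dvd hq).mpr hqN
  by_cases h : q ∣ d
  · obtain ⟨e, rfl⟩ := h
    have heN : e ∣ N := by
      have : q * e ∣ q * N := by rwa [mul_comm N q] at hd
      exact (Nat.mul_dvd_mul_iff_left hq.pos).mp this
    have heq : Nat.Coprime e q := (Nat.Coprime.coprime_dvd_right heN hcop).symm
    have h1 : Nat.gcd (q * e) (q * q) = q := by
      rw [Nat.gcd_mul_left, heq.gcd_eq_one, mul_one]
    have h2 : Nat.gcd (q * e) N = e := by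
      rw [Nat.Coprime.gcd_mul_left_cancel e hcop]
      exact Nat.gcd_eq_left heN
    rw [alNat_of_dvd (dvd_mul_right q e), Nat.mul_div_cancel_left e hq.pos]
    unfold alExact
    rw [h1, h2, Nat.mul_div_cancel_left q hq.pos, mul_comm]
  · have hdN : d ∣ N := dvd_of_dvd_mul_of_not_dvd hq hd h
    have hdq : Nat.Coprime d q := ((Nat.Prime.coprime_iff_not_dvd hq).mpr h).symm
    have h1 : Nat.gcd d (q * q) = 1 := Nat.Coprime.mul_right hdq hdq
    have h2 : Nat.gcd d N = d := Nat.gcd_eq_left hdN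
    rw [alNat_of_not_dvd h]
    unfold alExact
    rw [h1, h2, Nat.div_one]
    ring

variable (N q : ℕ) [NeZero N] [NeZero q]

/-- **The Atkin–Lehner involution `W_{q²}` of the function field of `X₀(N q²)` over `ℚ̄`**
(`q` prime, `q ∤ N`), at the level written `N * q * q`. -/
def atkinLehnerSq (hq : q.Prime) (hqN : ¬ q ∣ N) :
    modularFunctionFieldBar (N * q * q) ≃ₐ[Kbar] modularFunctionFieldBar (N * q * q) :=
  atkinLehnerM (N * q * q) N (q * q) (Nat.mul_assoc N q q) (coprime_mul_self hq hqN)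

theorem atkinLehnerSq_genBar (hq : q.Prime) (hqN : ¬ q ∣ N) (d : (N * q * q).divisors) :
    atkinLehnerSq N q hq hqN (genBar (N * q * q) d)
      = genBar (N * q * q) (alIdxM (Nat.mul_assoc N q q) d) :=
  atkinLehnerM_genBar _ _ _ _ _ d

theorem atkinLehnerSq_atkinLehnerSq (hq : q.Prime) (hqN : ¬ q ∣ N)
    (x : modularFunctionFieldBar (N * q * q)) :
    atkinLehnerSq N q hq hqN (atkinLehnerSq N q hq hqN x) = x :=
  atkinLehnerM_atkinLehnerM _ _ _ _ _ x

theorem atkinLehnerSq_arithmeticRingAut (hq : q.Prime) (hqN : ¬ q ∣ N)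
    (σ : Kbar ≃ₐ[ℚ] Kbar) (x : modularFunctionFieldBar (N * q * q)) :
    atkinLehnerSq N q hq hqN (arithmeticRingAut (modularFunctionFieldFull (N * q * q)) σ x)
      = arithmeticRingAut (modularFunctionFieldFull (N * q * q)) σ
          (atkinLehnerSq N q hq hqN x) :=
  atkinLehnerM_arithmeticRingAut _ _ _ _ _ σ x

/-- **`W₂ ∘ α₂ = β₂ ∘ W₁`.** -/
theorem atkinLehnerSq_heckeAlphaBar (hq : q.Prime) (hqN : ¬ q ∣ N)
    (x : modularFunctionFieldBar (N * q)) :
    atkinLehnerSq N q hq hqN (heckeAlphaBar Kbar (N * q) q x)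
      = heckeBetaBar Kbar (N * q) q (T2.helper36.atkinLehner N q hq hqN x) := by
  have h : ((atkinLehnerSq N q hq hqN : modularFunctionFieldBar (N * q * q) →ₐ[Kbar]
      modularFunctionFieldBar (N * q * q)).comp (heckeAlphaBar Kbar (N * q) q))
      = (heckeBetaBar Kbar (N * q) q).comp
        (T2.helper36.atkinLehner N q hq hqN : modularFunctionFieldBar (N * q) →ₐ[Kbar]
          modularFunctionFieldBar (N * q)) := by
    apply algHom_ext_genBar
    intro d
    rw [AlgHom.comp_apply, AlgHom.comp_apply, heckeAlphaBar_genBar]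
    show atkinLehnerSq N q hq hqN _ = heckeBetaBar Kbar (N * q) q (T2.helper36.atkinLehner N q hq hqN _)
    rw [atkinLehnerSq_genBar, T2.helper36.atkinLehner_genBar, heckeBetaBar_genBar]
    exact congrArg (genBar (N * q * q))
      (Subtype.ext (alExact_sq_eq hq hqN (Nat.mem_divisors.mp d.2).1))
  exact congrArg (fun φ : modularFunctionFieldBar (N * q) →ₐ[Kbar]
    modularFunctionFieldBar (N * q * q) => φ x) h

/-- **`W₂ ∘ β₂ = α₂ ∘ W₁`.** -/
theorem atkinLehnerSq_heckeBetaBar (hq : q.Prime) (hqN : ¬ q ∣ N)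
    (x : modularFunctionFieldBar (N * q)) :
    atkinLehnerSq N q hq hqN (heckeBetaBar Kbar (N * q) q x)
      = heckeAlphaBar Kbar (N * q) q (T2.helper36.atkinLehner N q hq hqN x) := by
  have h := atkinLehnerSq_heckeAlphaBar N q hq hqN (T2.helper36.atkinLehner N q hq hqN x)
  rw [T2.helper36.atkinLehner_atkinLehner] at h
  rw [← h, atkinLehnerSq_atkinLehnerSq]

/-- **`W₂ ∘ α₂ ∘ α₁ = β₂ ∘ β₁`** (`F_N → F_{N q²}`). -/
theorem atkinLehnerSq_alpha_alpha (hq : q.Prime) (hqN : ¬ q ∣ N)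
    (y : modularFunctionFieldBar N) :
    atkinLehnerSq N q hq hqN (heckeAlphaBar Kbar (N * q) q (heckeAlphaBar Kbar N q y))
      = heckeBetaBar Kbar (N * q) q (heckeBetaBar Kbar N q y) := by
  rw [atkinLehnerSq_heckeAlphaBar, T2.helper36.atkinLehner_heckeAlphaBar]

/-- **`W₂ ∘ β₂ ∘ β₁ = α₂ ∘ α₁`.** -/
theorem atkinLehnerSq_beta_beta (hq : q.Prime) (hqN : ¬ q ∣ N)
    (y : modularFunctionFieldBar N) :
    atkinLehnerSq N q hq hqN (heckeBetaBar Kbar (N * q) q (heckeBetaBar Kbar N q y))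
      = heckeAlphaBar Kbar (N * q) q (heckeAlphaBar Kbar N q y) := by
  rw [atkinLehnerSq_heckeBetaBar, T2.helper36.atkinLehner_heckeBetaBar]

/-- The two middle embeddings `F_N → F_{N q²}` coincide: `α₂ ∘ β₁ = β₂ ∘ α₁` (`f ↦ f(q τ)`). -/
theorem heckeAlphaBar_heckeBetaBar (y : modularFunctionFieldBar N) :
    heckeAlphaBar Kbar (N * q) q (heckeBetaBar Kbar N q y)
      = heckeBetaBar Kbar (N * q) q (heckeAlphaBar Kbar N q y) := by
  have h : (heckeAlphaBar Kbar (N * q) q).comp (heckeBetaBar Kbar N q)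
      = (heckeBetaBar Kbar (N * q) q).comp (heckeAlphaBar Kbar N q) := by
    apply algHom_ext_genBar
    intro d
    rw [AlgHom.comp_apply, AlgHom.comp_apply, heckeBetaBar_genBar, heckeAlphaBar_genBar,
      heckeAlphaBar_genBar, heckeBetaBar_genBar]
  exact congrArg (fun φ : modularFunctionFieldBar N →ₐ[Kbar]
    modularFunctionFieldBar (N * q * q) => φ y) h

/-- **`W₂` fixes the middle embedding `α₂ ∘ β₁`.** -/
theorem atkinLehnerSq_alpha_beta (hq : q.Prime) (hqN : ¬ q ∣ N)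
    (y : modularFunctionFieldBar N) :
    atkinLehnerSq N q hq hqN (heckeAlphaBar Kbar (N * q) q (heckeBetaBar Kbar N q y))
      = heckeAlphaBar Kbar (N * q) q (heckeBetaBar Kbar N q y) := by
  rw [atkinLehnerSq_heckeAlphaBar, T2.helper36.atkinLehner_heckeBetaBar,
    heckeAlphaBar_heckeBetaBar]

/-- An Atkin–Lehner matrix at `q²` of level `N q²`. -/
def alDataSq (hq : q.Prime) (hqN : ¬ q ∣ N) : ALData (N * q * q) (q * q) :=
  ALData.ofCoprime (Nat.mul_ne_zero hq.ne_zero hq.ne_zero)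
    ((Nat.mul_assoc N q q).trans (mul_comm N (q * q))) (coprime_mul_self hq hqN).symm

open Fermat.Agent.P3.helper16 Fermat.Agent.P3.helper20 Fermat.Agent.P3.helper94
open Fermat.Agent.P3

/-- **Function dictionary for `W_{q²}`**, for ANY Atkin–Lehner matrix `W` at `q²`. -/
theorem isEv_atkinLehnerSq (hq : q.Prime) (hqN : ¬ q ∣ N) (W : ALData (N * q * q) (q * q))
    (h : modularFunctionFieldBar (N * q * q)) {f : ℂ → ℂ}
    (hf : IsEv (Fermat.Agent.S24.helper17.toC (h : LaurentSeries Kbar)) f) :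
    IsEv (Fermat.Agent.S24.helper17.toC
        ((atkinLehnerSq N q hq hqN h : modularFunctionFieldBar (N * q * q)) :
          LaurentSeries Kbar))
      (fun z => f (moebG W.mat z)) :=
  isEv_atkinLehnerM _ _ _ _ _ W h hf

/-- **(B) for `W_{q²}`**: `conC x = κC n ε → conC (W₂ • x) = κC n (ε ∘ wTr W)`. -/
theorem bridgeWSq (hq : q.Prime) (hqN : ¬ q ∣ N) (W : ALData (N * q * q) (q * q))
    (p : ℕ) (hp : 0 < p) (κC : ℕ → LatChar (N * q * q) →+ JC (N * q * q))
    (hκ : ∀ (n : ℕ) (ε : LatChar (N * q * q)),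
      IsMonData (P3.helper48.anDictC (N * q * q)) (p ^ n) (κC n ε) (latPsi (N * q * q) p n ε))
    (n : ℕ) (ε : LatChar (N * q * q)) (x : JZero (N * q * q))
    (hx : conC (N * q * q) x = κC n ε) :
    conC (N * q * q) (atkinLehnerSq N q hq hqN • x) = κC n (Wst W ε) :=
  bridgeWM _ _ _ _ _ W p hp κC hκ n ε x hx

end Sq

end Fermat.Agent.T3.helper48

end
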