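import Mathlib
import Fermat.Agent.T3.helper23_Disc3
import Fermat.Agent.T3.helper48_AtkinLehnerQ

/-!
# T3 [DISC3] (helper23): the DISC step at the cusp `0` of `X₀(N q²)` and the three cusps together

* `ord_genBar_nonneg` : the generators `j_d` are regular where `j` is finite (integrality over
  `ℚ̄[j]`, from `S24.helper77.formal_relation`);
* `ord_map_nonneg_of_gen` : a `ℚ̄`-automorphism permuting the generators preserves "regular where
  `j` is finite";
* `disc_root_zero` : the DISC step for `W H`, `W = helper48.atkinLehnerSq`;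
* `disc_root_triple` : the roots at `∞`, `0` and all middle cusps.
-/

set_option autoImplicit false
set_option linter.unusedSectionVars false
set_option linter.unusedVariables false
set_option linter.style.longLine false

noncomputable section

open HahnSeries IntermediateField AlgebraicCurve ModularCurve

namespace Fermat.Agent.T3.helper23

open Fermat.Agent.P2.helper23 Fermat.Agent.P2.helper73
open Fermat.Agent.T2.helper36 (genBar coe_genBar)
open Fermat.Agent.T3.helper87 (embMid)
open Fermat.Agent.T3.helper48 (atkinLehnerSq atkinLehnerSq_genBar atkinLehnerSq_atkinLehnerSq)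

/-! ### Integrality of the generators -/

section Integral

variable {M : ℕ} [NeZero M]

/-- an element of `F_M` satisfying a monic equation with coefficients in `ℚ̄[y]` is regular at
every place where `y` is regular. -/
theorem ord_nonneg_of_relation (x y : FF M) (n : ℕ) (c : ℕ → Polynomial Kb) (hc : c n = 1)
    (hrel : ∑ k ∈ Finset.range (n + 1),
      Polynomial.aeval (y : LaurentSeries Kb) (c k) * (x : LaurentSeries Kb) ^ k = 0)
    (P : Place Kb (FF M)) (hP : 0 ≤ P.ord y) : 0 ≤ P.ord x := by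
  rw [← Fermat.Agent.S24.helper82.mem_iff_ord_nonneg] at hP ⊢
  set V := P.toValuationSubring with hV
  -- the relation in `F_M`
  have hrel' : ∑ k ∈ Finset.range (n + 1), Polynomial.aeval y (c k) * x ^ k = 0 := by
    apply Subtype.ext
    have h1 : ((∑ k ∈ Finset.range (n + 1), Polynomial.aeval y (c k) * x ^ k : FF M) :
        LaurentSeries Kb) = ∑ k ∈ Finset.range (n + 1),
          Polynomial.aeval (y : LaurentSeries Kb) (c k) * (x : LaurentSeries Kb) ^ k := by
      rw [← IntermediateField.coe_val, map_sum]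
      refine Finset.sum_congr rfl fun k _ => ?_
      rw [map_mul, map_pow, ← Polynomial.aeval_algHom_apply]
    rw [h1, hrel]
    rfl
  have ha : ∀ k, Polynomial.aeval y (c k) ∈ V := by
    intro k
    rw [Polynomial.aeval_eq_sum_range]
    refine sum_mem fun i _ => ?_
    rw [Algebra.smul_def]
    exact mul_mem (P.algebraMap_mem' _) (pow_mem hP _)
  by_contra hx
  have hx0 : x ≠ 0 := fun h => hx (h ▸ V.zero_mem)
  have hy : x⁻¹ ∈ V := (V.mem_or_inv_mem x).resolve_left hx
  rw [Finset.sum_range_succ, hc, map_one, one_mul] at hrel'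
  have hxn : x ^ n = -∑ k ∈ Finset.range n, Polynomial.aeval y (c k) * x ^ k :=
    eq_neg_of_add_eq_zero_right hrel'
  rcases Nat.eq_zero_or_pos n with hn | hn
  · subst hn
    simp at hxn
  have key : x = -∑ k ∈ Finset.range n, Polynomial.aeval y (c k) * x⁻¹ ^ (n - 1 - k) := by
    have h1 : x = x ^ n * x⁻¹ ^ (n - 1) := by
      have : x ^ n = x ^ (n - 1) * x := by
        rw [← pow_succ, Nat.sub_add_cancel hn]
      rw [this, inv_pow]
      field_simp
    conv_lhs => rw [h1, hxn]
    rw [neg_mul, Finset.sum_mul]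
    congr 1
    refine Finset.sum_congr rfl fun k hk => ?_
    have hk' : k ≤ n - 1 := by
      have := Finset.mem_range.mp hk
      omega
    have h2 : x ^ k * x⁻¹ ^ (n - 1) = x⁻¹ ^ (n - 1 - k) := by
      have h3 : x⁻¹ ^ (n - 1) = x⁻¹ ^ (n - 1 - k) * x⁻¹ ^ k := by
        rw [← _root_.pow_add, Nat.sub_add_cancel hk']
      rw [h3, inv_pow x k]
      field_simp
    rw [mul_assoc, h2]
  apply hx
  rw [key]
  exact neg_mem (sum_mem fun k _ => mul_mem (ha k) (pow_mem hy _))

/-- `j` as a generator -/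
theorem jElt_eq_genBar :
    Fermat.Agent.P2.helper29.jElt M = genBar M (Fermat.Agent.S24.helper77.idxOne M) := by
  apply Subtype.ext
  show jqModC Kb = Fermat.Agent.S24.JdT 1
  rw [Fermat.Agent.S24.helper24.JdT_eq_coeffEmb]
  exact (coe_xJ M).symm

/-- **the generators are regular where `j` is finite** -/
theorem ord_genBar_nonneg (d : M.divisors) (P : Place Kb (FF M))
    (hP : 0 ≤ P.ord (Fermat.Agent.P2.helper29.jElt M)) : 0 ≤ P.ord (genBar M d) := by
  obtain ⟨c, hc1, hc⟩ := Fermat.Agent.S24.helper77.formal_relation M (MvPolynomial.X d)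
  refine ord_nonneg_of_relation (genBar M d) (Fermat.Agent.P2.helper29.jElt M) _ c hc1 ?_ P hP
  rw [MvPolynomial.aeval_X] at hc
  have h1 : ((Fermat.Agent.P2.helper29.jElt M : FF M) : LaurentSeries Kb)
      = coeffEmb Kb jq := by
    have h : jqModC Kb = coeffEmb Kb (qExpand ℚ 1 jq) := (coe_xJ M).symm
    rw [qExpand_one_apply] at h
    exact h
  rw [h1, coe_genBar]
  exact hc

/-- a `ℚ̄`-automorphism mapping `j` to a generator maps functions which are regular where `j` is
finite to such functions. -/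
theorem ord_map_nonneg_of_gen (W : FF M ≃ₐ[Kb] FF M) (hWW : ∀ f, W (W f) = f)
    (hW : ∃ d : M.divisors, W (Fermat.Agent.P2.helper29.jElt M) = genBar M d)
    {H : FF M}
    (hreg : ∀ P : Place Kb (FF M), 0 ≤ P.ord (Fermat.Agent.P2.helper29.jElt M) → 0 ≤ P.ord H)
    (P : Place Kb (FF M)) (hP : 0 ≤ P.ord (Fermat.Agent.P2.helper29.jElt M)) :
    0 ≤ P.ord (W H) := by
  obtain ⟨d, hd⟩ := hW
  have h1 : (W • P).ord H = P.ord (W H) := by
    have h := Place.ord_smul W P (W H)
    rwa [hWW] at h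
  rw [← h1]
  apply hreg
  have h2 : (W • P).ord (Fermat.Agent.P2.helper29.jElt M)
      = P.ord (W (Fermat.Agent.P2.helper29.jElt M)) := by
    have h := Place.ord_smul W P (W (Fermat.Agent.P2.helper29.jElt M))
    rwa [hWW] at h
  rw [h2, hd]
  exact ord_genBar_nonneg d P hP

/-- **DISC step for `W H`**, `W` an involution of `F_M` mapping `j` to a generator. -/
theorem disc_root_invol (W : FF M ≃ₐ[Kb] FF M) (hWW : ∀ f, W (W f) = f)
    (hW : ∃ d : M.divisors, W (Fermat.Agent.P2.helper29.jElt M) = genBar M d)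
    (A : ValuationSubring Kb) (m : ℕ) (hm : IsUnit ((m : ℕ) : A)) (H : FF M)
    (hdiv : ∀ P : Place Kb (FF M), (m : ℤ) ∣ P.ord H)
    (hreg : ∀ P : Place Kb (FF M), 0 ≤ P.ord (Fermat.Agent.P2.helper29.jElt M) → 0 ≤ P.ord H)
    (Y : LaurentSeries A) (hY : coeffMap A.subtype Y = ((W H : FF M) : LaurentSeries Kb))
    (hr : coeffMap (IsLocalRing.residue A) Y = 1) :
    ∃ Z : LaurentSeries A, (coeffMap A.subtype Z) ^ m = ((W H : FF M) : LaurentSeries Kb) ∧
      coeffMap (IsLocalRing.residue A) Z = 1 := by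
  have hWH : W H ≠ 0 := by
    intro h
    rw [h] at hY
    have hY0 : Y = 0 := by
      ext k
      have := congrArg (fun Z : LaurentSeries Kb => Z.coeff k) hY
      simpa using this
    rw [hY0, map_zero] at hr
    exact zero_ne_one hr
  have hdivW : ∀ P : Place Kb (FF M), (m : ℤ) ∣ P.ord (W H) := by
    intro P
    have h := Place.ord_smul W P (W H)
    rw [hWW] at h
    rw [← h]
    exact hdiv _
  refine disc_root_jElt M A m hm (W H) hWH hdivW
    (fun P hP => ord_map_nonneg_of_gen W hWW hW hreg P hP) Y 1 (by rw [hY]; exact (W H).2)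
    (by rw [map_one]; exact one_mem _) (by rw [map_one, mul_one, hY]) (by rw [hr, map_one]) ?_
  rw [map_one]
  exact one_ne_zero

end Integral

/-! ### The three cusps of `X₀(N q²)` -/

section Triple

variable (N q : ℕ) [NeZero N] [NeZero q] (hq : q.Prime) (hqN : ¬ q ∣ N)

theorem atkinLehnerSq_jElt :
    ∃ d : (N * q * q).divisors,
      atkinLehnerSq N q hq hqN (Fermat.Agent.P2.helper29.jElt (N * q * q))
        = genBar (N * q * q) d :=
  ⟨_, by rw [jElt_eq_genBar, atkinLehnerSq_genBar]⟩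

/-- **DISC step at the cusp `0` of `X₀(N q²)`.** -/
theorem disc_root_zero (A : ValuationSubring Kb) (m : ℕ) (hm : IsUnit ((m : ℕ) : A))
    (H : FF (N * q * q))
    (hdiv : ∀ P : Place Kb (FF (N * q * q)), (m : ℤ) ∣ P.ord H)
    (hreg : ∀ P : Place Kb (FF (N * q * q)),
      0 ≤ P.ord (Fermat.Agent.P2.helper29.jElt (N * q * q)) → 0 ≤ P.ord H)
    (Y : LaurentSeries A)
    (hY : coeffMap A.subtype Y = ((atkinLehnerSq N q hq hqN H : FF (N * q * q)) : LaurentSeries Kb))
    (hr : coeffMap (IsLocalRing.residue A) Y = 1) :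
    ∃ Z : LaurentSeries A,
      (coeffMap A.subtype Z) ^ m
        = ((atkinLehnerSq N q hq hqN H : FF (N * q * q)) : LaurentSeries Kb) ∧
      coeffMap (IsLocalRing.residue A) Z = 1 :=
  disc_root_invol (atkinLehnerSq N q hq hqN) (atkinLehnerSq_atkinLehnerSq N q hq hqN)
    (atkinLehnerSq_jElt N q hq hqN) A m hm H hdiv hreg Y hY hr

/-- **DISC step at the cusp `∞`**, in the same shape. -/
theorem disc_root_infty (M : ℕ) [NeZero M] (A : ValuationSubring Kb) (m : ℕ)
    (hm : IsUnit ((m : ℕ) : A)) (H : FF M)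
    (hdiv : ∀ P : Place Kb (FF M), (m : ℤ) ∣ P.ord H)
    (hreg : ∀ P : Place Kb (FF M), 0 ≤ P.ord (Fermat.Agent.P2.helper29.jElt M) → 0 ≤ P.ord H)
    (Y : LaurentSeries A) (hY : coeffMap A.subtype Y = (H : LaurentSeries Kb))
    (hr : coeffMap (IsLocalRing.residue A) Y = 1) :
    ∃ Z : LaurentSeries A, (coeffMap A.subtype Z) ^ m = (H : LaurentSeries Kb) ∧
      coeffMap (IsLocalRing.residue A) Z = 1 := by
  have h := disc_root_invol (AlgEquiv.refl : FF M ≃ₐ[Kb] FF M) (fun _ => rfl)
    ⟨_, jElt_eq_genBar⟩ A m hm H hdiv hreg Y hY hr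
  exact h

/-- **[T3-DISC3]** the integral formal `m`-th roots with reduction `1` at the three kinds of
cusps of `X₀(N q²)` over the cusp `∞` of `X₀(N)`: at `∞`, at `0` (expansion of
`W_{q²} H`) and at every middle cusp (expansion `embMid k H`). -/
theorem disc_root_triple {ζ : Kb} (hζ : IsPrimitiveRoot ζ q)
    (A : ValuationSubring Kb) (m : ℕ) (hm : IsUnit ((m : ℕ) : A)) (H : FF (N * q * q))
    (hdiv : ∀ P : Place Kb (FF (N * q * q)), (m : ℤ) ∣ P.ord H)
    (hreg : ∀ P : Place Kb (FF (N * q * q)),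
      0 ≤ P.ord (Fermat.Agent.P2.helper29.jElt (N * q * q)) → 0 ≤ P.ord H)
    (Y₁ Y₂ : LaurentSeries A) (Y₃ : ∀ k : Fin q, (k : ℕ) ≠ 0 → LaurentSeries A)
    (hY₁ : coeffMap A.subtype Y₁ = (H : LaurentSeries Kb))
    (hY₂ : coeffMap A.subtype Y₂
      = ((atkinLehnerSq N q hq hqN H : FF (N * q * q)) : LaurentSeries Kb))
    (hY₃ : ∀ (k : Fin q) (hk : (k : ℕ) ≠ 0),
      coeffMap A.subtype (Y₃ k hk) = embMid N q hq hqN hζ k hk H)
    (hr₁ : coeffMap (IsLocalRing.residue A) Y₁ = 1)
    (hr₂ : coeffMap (IsLocalRing.residue A) Y₂ = 1)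
    (hr₃ : ∀ (k : Fin q) (hk : (k : ℕ) ≠ 0), coeffMap (IsLocalRing.residue A) (Y₃ k hk) = 1) :
    (∃ Z : LaurentSeries A, (coeffMap A.subtype Z) ^ m = (H : LaurentSeries Kb) ∧
      coeffMap (IsLocalRing.residue A) Z = 1) ∧
    (∃ Z : LaurentSeries A, (coeffMap A.subtype Z) ^ m
        = ((atkinLehnerSq N q hq hqN H : FF (N * q * q)) : LaurentSeries Kb) ∧
      coeffMap (IsLocalRing.residue A) Z = 1) ∧
    ∀ (k : Fin q) (hk : (k : ℕ) ≠ 0), ∃ Z : LaurentSeries A,
      (coeffMap A.subtype Z) ^ m = embMid N q hq hqN hζ k hk H ∧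
      coeffMap (IsLocalRing.residue A) Z = 1 :=
  ⟨disc_root_infty (N * q * q) A m hm H hdiv hreg Y₁ hY₁ hr₁,
    disc_root_zero N q hq hqN A m hm H hdiv hreg Y₂ hY₂ hr₂,
    fun k hk => disc_root_mid N q hq hqN hζ k hk A m hm H hdiv hreg (Y₃ k hk) (hY₃ k hk)
      (hr₃ k hk)⟩

end Triple

end Fermat.Agent.T3.helper23

end
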