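import Mathlib
import Fermat.Agent.P2.helper93_CoreWire
import Fermat.Agent.P2.helper56_DiscCoeff

/-!
# T3 [DISC3] (helper23): uniqueness and Galois invariance of the integral roots

* `root_unique` : two integral Laurent series with reduction `1` and the same `m`-th power
  (`m` a unit of `A`) are equal;
* `root_invariant` : if `σ` lies in the decomposition group of `A` and fixes the expansion
  `(incl Z) ^ m`, then it fixes the root `Z` with reduction `1` (coefficientwise);
* `root_coeff_fixed` : the same, coefficient by coefficient, for `σ` in the inertia group.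
-/

set_option autoImplicit false
set_option linter.unusedSectionVars false
set_option linter.unusedVariables false

noncomputable section

open HahnSeries IntermediateField AlgebraicCurve ModularCurve

namespace Fermat.Agent.T3.helper23

open Fermat.Agent.S18.helper19 Fermat.Agent.P2.helper93

variable {A : ValuationSubring Kb}

/-- **uniqueness of the normalised root** (in `A((t))`) -/
theorem root_unique' (m : ℕ) (hm : IsUnit ((m : ℕ) : A)) (Z Z' : LaurentSeries A)
    (h : Z ^ m = Z' ^ m)
    (hr : coeffMap (IsLocalRing.residue A) Z = 1)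
    (hr' : coeffMap (IsLocalRing.residue A) Z' = 1) : Z = Z' := by
  have hgeom := Commute.geom_sum₂_mul (Commute.all Z Z') m
  rw [h, sub_self] at hgeom
  rcases mul_eq_zero.mp hgeom with h0 | h0
  · exfalso
    have h1 := congrArg (coeffMap (IsLocalRing.residue A)) h0
    rw [map_sum, map_zero] at h1
    have h2 : ∀ i ∈ Finset.range m,
        coeffMap (IsLocalRing.residue A) (Z ^ i * Z' ^ (m - 1 - i)) = 1 := by
      intro i _
      rw [map_mul, map_pow, map_pow, hr, hr', one_pow, one_pow, one_mul]
    rw [Finset.sum_congr rfl h2, Finset.sum_const, Finset.card_range, nsmul_eq_mul, mul_one]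
      at h1
    have h3 := hm.map (IsLocalRing.residue A)
    rw [map_natCast] at h3
    have h4 := congrArg (fun Y : LaurentSeries (IsLocalRing.ResidueField A) => Y.coeff 0) h1
    simp only [HahnSeries.coeff_zero] at h4
    have h5 : ((m : ℕ) : LaurentSeries (IsLocalRing.ResidueField A))
        = HahnSeries.single 0 ((m : ℕ) : IsLocalRing.ResidueField A) := by
      rw [← HahnSeries.C_apply, map_natCast]
    rw [h5, HahnSeries.coeff_single_same] at h4
    exact h3.ne_zero h4
  · exact sub_eq_zero.mp h0

/-- **uniqueness of the normalised root** -/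
theorem root_unique (m : ℕ) (hm : IsUnit ((m : ℕ) : A)) (Z Z' : LaurentSeries A)
    (h : (coeffMap A.subtype Z) ^ m = (coeffMap A.subtype Z') ^ m)
    (hr : coeffMap (IsLocalRing.residue A) Z = 1)
    (hr' : coeffMap (IsLocalRing.residue A) Z' = 1) : Z = Z' := by
  refine root_unique' m hm Z Z' ?_ hr hr'
  apply Fermat.Agent.P2.helper56.coeffMap_subtype_injective A
  rw [map_pow, map_pow, h]

/-- **invariance of the normalised root under the decomposition group** -/
theorem root_invariant (m : ℕ) (hm : IsUnit ((m : ℕ) : A)) (σ : Kb ≃ₐ[ℚ] Kb)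
    (hσ : σ ∈ A.decompositionSubgroup ℚ) (Z : LaurentSeries A)
    (hfix : coeffMap (σ : Kb →+* Kb) ((coeffMap A.subtype Z) ^ m) = (coeffMap A.subtype Z) ^ m)
    (hr : coeffMap (IsLocalRing.residue A) Z = 1) :
    coeffMap (σ : Kb →+* Kb) (coeffMap A.subtype Z) = coeffMap A.subtype Z := by
  have h1 : actA σ hσ Z = Z := by
    refine root_unique m hm _ _ ?_ ?_ hr
    · rw [coeffMap_subtype_actA, ← map_pow, hfix]
    · rw [coeffMap_residue_actA, hr, map_one]
  rw [← coeffMap_subtype_actA σ hσ, h1]

/-- the coefficients of the normalised root are fixed by every element of the inertia group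
which fixes the expansion -/
theorem root_coeff_fixed (m : ℕ) (hm : IsUnit ((m : ℕ) : A)) (σ : Kb ≃ₐ[ℚ] Kb)
    (hσ : σ ∈ A.inertiaSubgroupIn ℚ) (Z : LaurentSeries A)
    (hfix : coeffMap (σ : Kb →+* Kb) ((coeffMap A.subtype Z) ^ m) = (coeffMap A.subtype Z) ^ m)
    (hr : coeffMap (IsLocalRing.residue A) Z = 1) (k : ℤ) :
    σ ((Z.coeff k : A) : Kb) = ((Z.coeff k : A) : Kb) := by
  obtain ⟨hd, -⟩ := decK_eq_id_of_mem_inertia (A := A) hσ
  have h := root_invariant m hm σ hd Z hfix hr
  have h1 := congrArg (fun Y : LaurentSeries Kb => Y.coeff k) h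
  simpa using h1

end Fermat.Agent.T3.helper23

end
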