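import Mathlib
import Fermat.Agent.T3.helper87_EmbMid

/-!
# Tier 3, [T3-VAL3] continued (helper87): the full family of embeddings over `α F_{Nq}` and the
Galois equivariance of the middle embeddings

* `embAll` : the `q` embeddings of `F_{Nqq}` into `ℚ̄((t))` which are the inclusion on `α F_{Nq}`:
  the inclusion (cusp `∞`) and the middle embeddings `embMid k`, `k ≠ 0`; `embAll_alpha`,
  `embAll_beta`, `embAll_injective`, `card_midIdx`.
* `minpoly_coeff_mem_embAll` : the coefficients of the minimal polynomial over `α F_{Nq}` of an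
  `f ∈ F_{Nqq}` whose expansions at `∞` and at all the middle cusps lie in a subring `B` of
  `ℚ̄((t))` have their expansion (at `∞`, level `N q`) in `B`.
* `coeffMap_embMid` : Galois equivariance, `σ (E_{ζ,k} f) = E_{σ ζ, k} (σ f)`;
  `embMid_congr` : `E_{ζ',k'} = E_{ζ,k}` when `ζ' ^ k' = ζ ^ k`.
-/

set_option autoImplicit false
set_option synthInstance.maxHeartbeats 400000
set_option linter.style.haveILetI false
set_option linter.unusedSectionVars false
set_option linter.unusedVariables false
set_option linter.style.longLine false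

noncomputable section

open HahnSeries IntermediateField AlgebraicCurve ModularCurve
open Fermat.Agent.S18.helper19 Fermat.Agent.P2.helper29 Fermat.Agent.T2.helper36

namespace Fermat.Agent.T3.helper87

open Fermat.Agent.P2.helper93 (twistL twistL_coeff)
open Fermat.Agent.T2.helper87 (embW embW_none embW_some embW_alpha embW_injective coeHom
  coeHom_apply twistHom minpoly_coeff_mem_of_embeddings)

/-! ### The full family -/

section All

variable (N q : ℕ) [NeZero N] [NeZero q] (hq : q.Prime) (hqN : ¬ q ∣ N)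

/-- the index set of the middle cusps -/
abbrev MidIdx (q : ℕ) : Type := {k : Fin q // (k : ℕ) ≠ 0}

include hq in
theorem card_midIdx : Fintype.card (Option (MidIdx q)) = q := by
  classical
  have h0 : Fintype.card {k : Fin q // (k : ℕ) = 0} = 1 := by
    rw [Fintype.card_eq_one_iff]
    refine ⟨⟨⟨0, hq.pos⟩, rfl⟩, fun y => ?_⟩
    apply Subtype.ext
    apply Fin.ext
    exact y.2
  have h1 : Fintype.card (MidIdx q) = q - 1 := by
    have := Fintype.card_subtype_compl (fun k : Fin q => (k : ℕ) = 0)
    rw [Fintype.card_fin, h0] at this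
    exact this
  rw [Fintype.card_option, h1]
  have := hq.pos
  omega

/-- **the `q` embeddings of `F_{Nqq}` over `α F_{Nq}`**: the inclusion and the middle
embeddings. -/
def embAll {ζ : Kb} (hζ : IsPrimitiveRoot ζ q) :
    Option (MidIdx q) → (FF (N * q * q) →+* LaurentSeries Kb)
  | none => coeHom (N * q * q)
  | some k => (embMid N q hq hqN hζ k.1 k.2 : FF (N * q * q) →+* LaurentSeries Kb)

variable {N q hq hqN}

theorem embAll_none {ζ : Kb} (hζ : IsPrimitiveRoot ζ q) (f : FF (N * q * q)) :
    embAll N q hq hqN hζ none f = (f : LaurentSeries Kb) := rfl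

theorem embAll_some {ζ : Kb} (hζ : IsPrimitiveRoot ζ q) (k : MidIdx q) (f : FF (N * q * q)) :
    embAll N q hq hqN hζ (some k) f = embMid N q hq hqN hζ k.1 k.2 f := rfl

/-- all the embeddings are the inclusion on `α F_{Nq}`. -/
theorem embAll_alpha {ζ : Kb} (hζ : IsPrimitiveRoot ζ q) (i : Option (MidIdx q))
    (f : FF (N * q)) :
    embAll N q hq hqN hζ i (heckeAlphaBar Kb (N * q) q f) = (f : LaurentSeries Kb) := by
  cases i with
  | none => rw [embAll_none, coe_heckeAlphaBar]
  | some k => rw [embAll_some, embMid_alpha]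

/-- on `β F_{Nq}` the embeddings are the embeddings `embW` of level `N q`. -/
theorem embAll_beta {ζ : Kb} (hζ : IsPrimitiveRoot ζ q) (i : Option (MidIdx q))
    (f : FF (N * q)) :
    embAll N q hq hqN hζ i (heckeBetaBar Kb (N * q) q f)
      = embW N q hq hqN ζ (hζ.ne_zero hq.ne_zero) (i.map fun k => k.1) f := by
  cases i with
  | none =>
    rw [embAll_none, coe_heckeBetaBar]
    rfl
  | some k =>
    rw [embAll_some, embMid_beta]
    rfl

theorem embAll_injective {ζ : Kb} (hζ : IsPrimitiveRoot ζ q) :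
    Function.Injective (embAll N q hq hqN hζ) := by
  intro i i' h
  have h1 : embW N q hq hqN ζ (hζ.ne_zero hq.ne_zero) (i.map fun k => k.1)
      = embW N q hq hqN ζ (hζ.ne_zero hq.ne_zero) (i'.map fun k => k.1) := by
    ext f
    rw [← embAll_beta hζ i f, ← embAll_beta hζ i' f, h]
  have h2 := embW_injective (hζ.ne_zero hq.ne_zero) hζ h1
  exact Option.map_injective Subtype.val_injective h2

/-- **the coefficients of the minimal polynomial over `α F_{Nq}`**: if the expansions of `f` at
`∞` and at all the middle cusps lie in a subring `B`, then so do the expansions (at `∞`, level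
`N q`) of the coefficients of the minimal polynomial of `f` over `α F_{Nq}`. -/
theorem minpoly_coeff_mem_embAll {ζ : Kb} (hζ : IsPrimitiveRoot ζ q)
    (B : Subring (LaurentSeries Kb)) (f : FF (N * q * q))
    (hinf : (f : LaurentSeries Kb) ∈ B)
    (hmid : ∀ (k : Fin q) (hk : (k : ℕ) ≠ 0), embMid N q hq hqN hζ k hk f ∈ B) (n : ℕ) :
    letI := algebraAlong (heckeAlphaBar Kb (N * q) q)
    ((((minpoly (FF (N * q)) f).coeff n : FF (N * q)) : LaurentSeries Kb)) ∈ B := by
  letI := algebraAlong (heckeAlphaBar Kb (N * q) q)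
  have hfr : Module.finrank (FF (N * q)) (FF (N * q * q)) = q :=
    Fermat.Agent.T2.helper48.finrank_alpha_of_dvd (N * q) q hq (Dvd.intro_left N rfl)
  haveI fd : FiniteDimensional (FF (N * q)) (FF (N * q * q)) :=
    Module.finite_of_finrank_pos (by rw [hfr]; exact hq.pos)
  haveI : Algebra.IsSeparable (FF (N * q)) (FF (N * q * q)) := inferInstance
  exact minpoly_coeff_mem_of_embeddings (F := FF (N * q)) (E := FF (N * q * q))
    (coeHom (N * q)) (embAll N q hq hqN hζ) (embAll_injective hζ)
    (fun i => RingHom.ext fun c => embAll_alpha hζ i c)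
    (by rw [card_midIdx q hq, hfr]) B f
    (fun i => by
      cases i with
      | none => exact hinf
      | some k => exact hmid k.1 k.2) n

end All

/-! ### Galois equivariance -/

section Galois

variable {N q : ℕ} [NeZero N] [NeZero q] {hq : q.Prime} {hqN : ¬ q ∣ N}

theorem coeffMap_twistL {K : Type*} [Field K] (φ : K →+* K) (c : K) (g : LaurentSeries K) :
    coeffMap φ (twistL c g) = twistL (φ c) (coeffMap φ g) := by
  ext n
  rw [coeffMap_coeff, twistL_coeff, twistL_coeff, coeffMap_coeff, map_mul, map_zpow₀]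

theorem arithmeticRingAut_heckeAlphaBar (M : ℕ) [NeZero M] (σ : Kb ≃ₐ[ℚ] Kb) (f : FF M) :
    arithmeticRingAut (modularFunctionFieldFull (M * q)) σ (heckeAlphaBar Kb M q f)
      = heckeAlphaBar Kb M q (arithmeticRingAut (modularFunctionFieldFull M) σ f) := by
  apply Subtype.ext
  rw [coe_arithmeticRingAut_apply, coe_heckeAlphaBar, coe_heckeAlphaBar,
    coe_arithmeticRingAut_apply]

theorem arithmeticRingAut_heckeBetaBar (M : ℕ) [NeZero M] (σ : Kb ≃ₐ[ℚ] Kb) (f : FF M) :
    arithmeticRingAut (modularFunctionFieldFull (M * q)) σ (heckeBetaBar Kb M q f)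
      = heckeBetaBar Kb M q (arithmeticRingAut (modularFunctionFieldFull M) σ f) := by
  apply Subtype.ext
  rw [coe_arithmeticRingAut_apply, coe_heckeBetaBar, coe_heckeBetaBar,
    coe_arithmeticRingAut_apply, coeffMap_qExpand]

theorem coeffMap_symm_coeffMap (σ : Kb ≃ₐ[ℚ] Kb) (x : LaurentSeries Kb) :
    coeffMap (σ.symm : Kb →+* Kb) (coeffMap (σ : Kb →+* Kb) x) = x := by
  rw [coeffMap_coeffMap,
    coeffMap_congr (g := RingHom.id Kb) (RingHom.ext fun a => σ.symm_apply_apply a) x,
    coeffMap_id]

theorem coeffMap_coeffMap_symm (σ : Kb ≃ₐ[ℚ] Kb) (x : LaurentSeries Kb) :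
    coeffMap (σ : Kb →+* Kb) (coeffMap (σ.symm : Kb →+* Kb) x) = x := by
  rw [coeffMap_coeffMap,
    coeffMap_congr (g := RingHom.id Kb) (RingHom.ext fun a => σ.apply_symm_apply a) x,
    coeffMap_id]

/-- the middle embedding depends only on `ζ ^ k`. -/
theorem embMid_congr {ζ ζ' : Kb} (hζ : IsPrimitiveRoot ζ q) (hζ' : IsPrimitiveRoot ζ' q)
    (k k' : Fin q) (hk : (k : ℕ) ≠ 0) (hk' : (k' : ℕ) ≠ 0) (h : ζ' ^ (k' : ℕ) = ζ ^ (k : ℕ)) :
    embMid N q hq hqN hζ' k' hk' = embMid N q hq hqN hζ k hk := by
  have := embMid_unique hζ k hk (embMid N q hq hqN hζ' k' hk' : FF (N * q * q) →+* _)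
    (fun f => embMid_alpha hζ' k' hk' f)
    (fun f => by
      show embMid N q hq hqN hζ' k' hk' (heckeBetaBar Kb (N * q) q f) = _
      rw [embMid_beta, h])
  apply AlgHom.ext
  intro y
  exact congrArg (fun φ : FF (N * q * q) →+* LaurentSeries Kb => φ y) this

/-- **Galois equivariance of the middle embeddings**: `σ (E_{ζ,k} f) = E_{σ ζ,k} (σ f)`. -/
theorem coeffMap_embMid {ζ : Kb} (hζ : IsPrimitiveRoot ζ q) (k : Fin q) (hk : (k : ℕ) ≠ 0)
    (σ : Kb ≃ₐ[ℚ] Kb) (f : FF (N * q * q)) :
    coeffMap (σ : Kb →+* Kb) (embMid N q hq hqN hζ k hk f)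
      = embMid N q hq hqN (hζ.map_of_injective (f := σ) σ.injective) k hk
          (arithmeticRingAut (modularFunctionFieldFull (N * q * q)) σ f) := by
  have hζ' : IsPrimitiveRoot (σ ζ) q := hζ.map_of_injective (f := σ) σ.injective
  let E' : FF (N * q * q) →+* LaurentSeries Kb :=
    (coeffMap (σ.symm : Kb →+* Kb)).comp
      ((embMid N q hq hqN hζ' k hk : FF (N * q * q) →+* LaurentSeries Kb).comp
        ((arithmeticRingAut (modularFunctionFieldFull (N * q * q)) σ :
          FF (N * q * q) ≃+* FF (N * q * q)) : FF (N * q * q) →+* FF (N * q * q)))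
  have hE' : ∀ y, E' y = coeffMap (σ.symm : Kb →+* Kb)
      (embMid N q hq hqN hζ' k hk
        (arithmeticRingAut (modularFunctionFieldFull (N * q * q)) σ y)) := fun y => rfl
  have key := embMid_unique hζ k hk E'
    (fun c => by
      rw [hE', arithmeticRingAut_heckeAlphaBar, embMid_alpha, coe_arithmeticRingAut_apply,
        coeffMap_symm_coeffMap])
    (fun c => by
      rw [hE', arithmeticRingAut_heckeBetaBar, embMid_beta, atkinLehner_arithmeticRingAut,
        coe_arithmeticRingAut_apply]
      have e : twistL ((σ ζ) ^ (k : ℕ))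
          (coeffMap (σ : Kb →+* Kb) ((atkinLehner N q hq hqN c : FF (N * q)) : LaurentSeries Kb))
          = coeffMap (σ : Kb →+* Kb)
            (twistL (ζ ^ (k : ℕ)) ((atkinLehner N q hq hqN c : FF (N * q)) : LaurentSeries Kb)) := by
        rw [coeffMap_twistL, map_pow]
        rfl
      rw [e, coeffMap_symm_coeffMap])
  have h1 := congrArg (fun φ : FF (N * q * q) →+* LaurentSeries Kb => φ f) key
  simp only [hE'] at h1
  have h2 := congrArg (coeffMap (σ : Kb →+* Kb)) h1
  rw [coeffMap_coeffMap_symm] at h2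
  exact h2.symm

end Galois

end Fermat.Agent.T3.helper87

end
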