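import Mathlib
import Fermat.Agent.T3.helper23_Disc3W
import Fermat.Agent.T3.helper23_RootUnique
import Fermat.Agent.T3.helper87_EmbAll

/-!
# T3 [DISC3] (helper23): the integral roots of an inertia-invariant function are invariant

For `H ∈ F_{N q²}` fixed by an element `σ` of the decomposition group of `A`
(`galF σ H = H`, i.e. the `q`-expansion of `H` at `∞` has `σ`-fixed coefficients):

* `root_fixed_infty` : the normalised root at `∞` is fixed by `σ`;
* `root_fixed_zero`  : the normalised root at `0` (root of `W H`) is fixed by `σ`;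
* `root_fixed_mid`   : the normalised root at the middle cusp `k` is fixed by `σ` as soon as
  `σ ζ = ζ`.
-/

set_option autoImplicit false
set_option linter.unusedSectionVars false
set_option linter.unusedVariables false
set_option linter.style.longLine false

noncomputable section

open HahnSeries IntermediateField AlgebraicCurve ModularCurve

namespace Fermat.Agent.T3.helper23

open Fermat.Agent.P2.helper23 Fermat.Agent.P2.helper93
open Fermat.Agent.T3.helper87 (embMid coeffMap_embMid embMid_congr)
open Fermat.Agent.T3.helper48 (atkinLehnerSq atkinLehnerSq_arithmeticRingAut)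

variable {A : ValuationSubring Kb}

/-- the normalised root at `∞` of a `σ`-invariant function is `σ`-invariant -/
theorem root_fixed_infty (M : ℕ) [NeZero M] (m : ℕ) (hm : IsUnit ((m : ℕ) : A))
    (σ : Kb ≃ₐ[ℚ] Kb) (hσ : σ ∈ A.decompositionSubgroup ℚ) (H : FF M)
    (hH : galF M σ H = H) (Z : LaurentSeries A)
    (hZ : (coeffMap A.subtype Z) ^ m = (H : LaurentSeries Kb))
    (hr : coeffMap (IsLocalRing.residue A) Z = 1) :
    coeffMap (σ : Kb →+* Kb) (coeffMap A.subtype Z) = coeffMap A.subtype Z := by
  refine root_invariant m hm σ hσ Z ?_ hr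
  rw [hZ, ← coe_galF, hH]

variable (N q : ℕ) [NeZero N] [NeZero q] (hq : q.Prime) (hqN : ¬ q ∣ N)

/-- the normalised root at `0` of a `σ`-invariant function is `σ`-invariant -/
theorem root_fixed_zero (m : ℕ) (hm : IsUnit ((m : ℕ) : A))
    (σ : Kb ≃ₐ[ℚ] Kb) (hσ : σ ∈ A.decompositionSubgroup ℚ) (H : FF (N * q * q))
    (hH : galF (N * q * q) σ H = H) (Z : LaurentSeries A)
    (hZ : (coeffMap A.subtype Z) ^ m
      = ((atkinLehnerSq N q hq hqN H : FF (N * q * q)) : LaurentSeries Kb))
    (hr : coeffMap (IsLocalRing.residue A) Z = 1) :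
    coeffMap (σ : Kb →+* Kb) (coeffMap A.subtype Z) = coeffMap A.subtype Z := by
  refine root_fixed_infty (N * q * q) m hm σ hσ (atkinLehnerSq N q hq hqN H) ?_ Z hZ hr
  have h := atkinLehnerSq_arithmeticRingAut N q hq hqN σ H
  have hH' : arithmeticRingAut (modularFunctionFieldFull (N * q * q)) σ H = H := hH
  rw [hH'] at h
  exact h.symm

/-- the normalised root at a middle cusp of a `σ`-invariant function is `σ`-invariant, if
`σ` fixes `ζ`. -/
theorem root_fixed_mid {ζ : Kb} (hζ : IsPrimitiveRoot ζ q) (k : Fin q) (hk : (k : ℕ) ≠ 0)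
    (m : ℕ) (hm : IsUnit ((m : ℕ) : A))
    (σ : Kb ≃ₐ[ℚ] Kb) (hσ : σ ∈ A.decompositionSubgroup ℚ) (hσζ : σ ζ = ζ)
    (H : FF (N * q * q)) (hH : galF (N * q * q) σ H = H) (Z : LaurentSeries A)
    (hZ : (coeffMap A.subtype Z) ^ m = embMid N q hq hqN hζ k hk H)
    (hr : coeffMap (IsLocalRing.residue A) Z = 1) :
    coeffMap (σ : Kb →+* Kb) (coeffMap A.subtype Z) = coeffMap A.subtype Z := by
  refine root_invariant m hm σ hσ Z ?_ hr
  have hH' : arithmeticRingAut (modularFunctionFieldFull (N * q * q)) σ H = H := hH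
  rw [hZ, coeffMap_embMid, hH']
  exact congrArg (fun E : FF (N * q * q) →ₐ[Kb] LaurentSeries Kb => E H)
    (embMid_congr hζ (hζ.map_of_injective (f := σ) σ.injective) k k hk hk (by rw [hσζ]))

end Fermat.Agent.T3.helper23

end
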