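/-
T3 (S36), helper27: the ABSTRACT root step over a discrete base (finding #2025, ROOT3 (ii)+(iii)).

`P` is a commutative ring (think: families of integral Laurent expansions at the cusps),
`ϖ ∈ P` (the uniformiser of the unramified base), `R ⊆ P` a subring (the expansions of the
integral functions regular off the cusps), `Q ⊆ P` an additive subgroup (pole orders `≤ N`),
`Λ ⊆ R ∩ Q` (the lattice `Λ_N`).  If `w ∈ Q`, `w ≡ 1 mod ϖ`, `w ^ n ∈ R`, `n` invertible, and
(SAT) every element of `R` which is in `Q` modulo `ϖ` is in `Λ` modulo `ϖ R`, then `w` is a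
`ϖ`-adic limit of elements of `Λ` (`newton_approx`); with pivot functionals it lies in `Λ`
(`mem_of_pivot`).  Mathlib only.
-/
import Mathlib

set_option autoImplicit false

namespace Fermat.Agent.T3.helper27

open Finset Module

section Newton

variable {P : Type*} [CommRing P]

/-- if `x ≡ 1` and `y ≡ 1` modulo `ϖ`, the geometric sum `∑_{i<n} x^i y^(n-1-i)` is `≡ n`. -/
theorem newton_geom_sum_congr (ϖ x y : P) (n : ℕ) (hx : ϖ ∣ x - 1) (hy : ϖ ∣ y - 1) :
    ϖ ∣ (∑ i ∈ range n, x ^ i * y ^ (n - 1 - i)) - (n : P) := by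
  have hI : ∀ z : P, ϖ ∣ z - 1 → Ideal.Quotient.mk (Ideal.span {ϖ}) z = 1 := by
    intro z hz
    have h1 : Ideal.Quotient.mk (Ideal.span {ϖ}) (z - 1) = 0 :=
      Ideal.Quotient.eq_zero_iff_mem.mpr (Ideal.mem_span_singleton.mpr hz)
    rw [map_sub, map_one, sub_eq_zero] at h1
    exact h1
  rw [← Ideal.mem_span_singleton, ← Ideal.Quotient.eq_zero_iff_mem, map_sub, map_sum,
    map_natCast]
  have : ∀ i ∈ range n, Ideal.Quotient.mk (Ideal.span {ϖ}) (x ^ i * y ^ (n - 1 - i)) = 1 := by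
    intro i _
    rw [map_mul, map_pow, map_pow, hI x hx, hI y hy, one_pow, one_pow, one_mul]
  rw [Finset.sum_congr rfl this]
  simp

/-- saturation for powers of `ϖ`. -/
theorem newton_sat_pow {S : Set P} (ϖ : P) (hS : ∀ x : P, ϖ * x ∈ S → x ∈ S) (m : ℕ) (x : P)
    (hx : ϖ ^ m * x ∈ S) : x ∈ S := by
  induction m generalizing x with
  | zero => simpa using hx
  | succ m ih =>
    apply hS
    apply ih
    rw [← mul_assoc, ← pow_succ]
    exact hx

/-- **Newton iteration** (ROOT3 (ii) of #2025). -/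
theorem newton_approx (ϖ : P) (R : Subring P) (Λ Q : AddSubgroup P)
    (n : ℕ) (ninv : P) (hn : (n : P) * ninv = 1)
    (hΛQ : Λ ≤ Q) (hΛR : ∀ x ∈ Λ, x ∈ R) (h1 : (1 : P) ∈ Λ)
    (hΛϖ : ∀ x ∈ Λ, ϖ * x ∈ Λ) (hΛn : ∀ x ∈ Λ, ninv * x ∈ Λ)
    (hQsat : ∀ x : P, ϖ * x ∈ Q → x ∈ Q)
    (hRsat : ∀ x : P, ϖ * x ∈ R → x ∈ R)
    (hSAT : ∀ Φ ∈ R, (∃ y ∈ Q, ∃ z : P, Φ = y + ϖ * z) → ∃ l ∈ Λ, ∃ r ∈ R, Φ = l + ϖ * r)
    (w : P) (hwQ : w ∈ Q) (hwR : w ^ n ∈ R) (hw1 : ϖ ∣ w - 1) :
    ∀ m : ℕ, ∃ u ∈ Λ, ∃ z : P, w = u + ϖ ^ (m + 1) * z := by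
  intro m
  induction m with
  | zero =>
    obtain ⟨z, hz⟩ := hw1
    exact ⟨1, h1, z, by rw [zero_add, pow_one, ← hz]; ring⟩
  | succ m ih =>
    obtain ⟨u, hu, θ, hθ⟩ := ih
    -- `θ ∈ Q`
    have hθQ : θ ∈ Q := by
      apply newton_sat_pow (S := (Q : Set P)) ϖ hQsat (m + 1) θ
      have : ϖ ^ (m + 1) * θ = w - u := by rw [hθ]; ring
      rw [this]
      exact Q.sub_mem hwQ (hΛQ hu)
    -- the geometric sum
    set S : P := ∑ i ∈ range n, w ^ i * u ^ (n - 1 - i) with hS
    have hu1 : ϖ ∣ u - 1 := by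
      obtain ⟨z, hz⟩ := hw1
      refine ⟨z - ϖ ^ m * θ, ?_⟩
      have : u = w - ϖ ^ (m + 1) * θ := by rw [hθ]; ring
      rw [this, pow_succ]
      linear_combination hz
    obtain ⟨S', hS'⟩ := newton_geom_sum_congr ϖ w u n hw1 hu1
    have hgeom : (w - u) * S = w ^ n - u ^ n := (Commute.all w u).mul_geom_sum₂ n
    -- `Φ = θ S ∈ R`
    have hΦR : θ * S ∈ R := by
      apply newton_sat_pow (S := (R : Set P)) ϖ hRsat (m + 1) (θ * S)
      have : ϖ ^ (m + 1) * (θ * S) = w ^ n - u ^ n := by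
        rw [← hgeom, hθ]; ring
      rw [this]
      exact R.sub_mem hwR (R.pow_mem (hΛR u hu) n)
    have hΦ : θ * S = (n : P) * θ + ϖ * (θ * S') := by
      have : S = (n : P) + ϖ * S' := by rw [← hS']; ring
      rw [this]; ring
    obtain ⟨l, hl, r, -, hlr⟩ := hSAT (θ * S) hΦR
      ⟨(n : P) * θ, by
        have : (n : P) * θ = n • θ := by rw [nsmul_eq_mul]
        rw [this]
        exact Q.nsmul_mem hθQ n, θ * S', hΦ⟩
    refine ⟨u + ϖ ^ (m + 1) * (ninv * l), ?_, ninv * (r - θ * S'), ?_⟩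
    · refine Λ.add_mem hu ?_
      have hpow : ∀ k : ℕ, ∀ x ∈ Λ, ϖ ^ k * x ∈ Λ := by
        intro k
        induction k with
        | zero => intro x hx; simpa using hx
        | succ k ihk =>
          intro x hx
          rw [pow_succ, mul_assoc]
          exact ihk _ (hΛϖ x hx)
      exact hpow (m + 1) _ (hΛn l hl)
    · have h2 : (n : P) * θ - l = ϖ * (r - θ * S') := by
        have := hΦ.symm.trans hlr
        linear_combination this
      have h3 : θ - ninv * l = ninv * ϖ * (r - θ * S') := by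
        have : θ - ninv * l = ninv * ((n : P) * θ - l) + (1 - (n : P) * ninv) * θ := by ring
        rw [this, h2, hn]; ring
      rw [hθ, pow_succ (ϖ) (m + 1)]
      linear_combination (ϖ ^ (m + 1)) * h3

end Newton

section Limit

variable {𝒪 : Type*} [CommRing 𝒪] {P : Type*} [AddCommGroup P] [Module 𝒪 P]

/-- **Limit step with pivot functionals** (ROOT3 (iii) of #2025): if `ℓ : P → 𝒪 ^ r` restricts to
a bijection on `Λ`, `P` is `ϖ`-adically separated and `w` is a `ϖ`-adic limit of elements of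
`Λ`, then `w ∈ Λ`. -/
theorem mem_of_pivot (ϖ : 𝒪) {ι : Type*} (Λ : Submodule 𝒪 P) (ℓ : P →ₗ[𝒪] (ι → 𝒪))
    (hsurj : ∀ y : ι → 𝒪, ∃ u ∈ Λ, ℓ u = y)
    (hker : ∀ u ∈ Λ, ∀ m : ℕ, (∃ y : ι → 𝒪, ℓ u = ϖ ^ m • y) → ∃ v ∈ Λ, u = ϖ ^ m • v)
    (hsep : ∀ x : P, (∀ m : ℕ, ∃ z : P, x = ϖ ^ m • z) → x = 0)
    (w : P) (hw : ∀ m : ℕ, ∃ u ∈ Λ, ∃ z : P, w = u + ϖ ^ m • z) : w ∈ Λ := by
  obtain ⟨u0, hu0, hu0w⟩ := hsurj (ℓ w)
  have : w - u0 = 0 := by
    apply hsep
    intro m
    obtain ⟨u, hu, z, hz⟩ := hw m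
    have h1 : ℓ (u0 - u) = ϖ ^ m • ℓ z := by
      rw [map_sub, hu0w, hz, map_add, map_smul]; abel
    obtain ⟨v, -, hv⟩ := hker (u0 - u) (Λ.sub_mem hu0 hu) m ⟨ℓ z, h1⟩
    refine ⟨z - v, ?_⟩
    rw [smul_sub, ← hv, hz]; abel
  rw [sub_eq_zero] at this
  rw [this]
  exact hu0

end Limit



/-- a finite-dimensional space of functions is separated by `dim` coordinates. -/
theorem exists_coords {k : Type*} [Field k] {J : Type*} :
    ∀ (d : ℕ) (V : Submodule k (J → k)), FiniteDimensional k V → finrank k V = d →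
      ∃ j : Fin d → J, ∀ v ∈ V, (∀ i, v (j i) = 0) → v = 0 := by
  intro d
  induction d with
  | zero =>
    intro V hV h0
    refine ⟨Fin.elim0, fun v hv _ => ?_⟩
    have : V = ⊥ := Submodule.finrank_eq_zero.mp h0
    rw [this] at hv
    exact (Submodule.mem_bot k).mp hv
  | succ d ih =>
    intro V hV hd
    have hne : V ≠ ⊥ := by
      intro h
      rw [h, finrank_bot] at hd
      omega
    obtain ⟨v₀, hv₀, hv₀0⟩ := Submodule.exists_mem_ne_zero_of_ne_bot hne
    obtain ⟨j₀, hj₀⟩ : ∃ j₀, v₀ j₀ ≠ 0 := by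
      by_contra h
      push Not at h
      exact hv₀0 (funext h)
    set f : V →ₗ[k] k := (LinearMap.proj j₀).domRestrict V with hf
    set V' : Submodule k (J → k) := V ⊓ LinearMap.ker (LinearMap.proj j₀ : (J → k) →ₗ[k] k)
      with hV'
    have hV'fd : FiniteDimensional k V' := Submodule.finiteDimensional_inf_left V _
    have hsurj : Function.Surjective f := by
      intro c
      refine ⟨(c * (v₀ j₀)⁻¹) • ⟨v₀, hv₀⟩, ?_⟩
      simp [hf, LinearMap.domRestrict_apply, mul_assoc, inv_mul_cancel₀ hj₀]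
    have hker : finrank k (LinearMap.ker f) = finrank k V' := by
      have e : LinearMap.ker f = Submodule.comap V.subtype V' := by
        ext x
        simp [hf, hV', LinearMap.domRestrict_apply]
      rw [e]
      have e2 := (Submodule.equivSubtypeMap V (Submodule.comap V.subtype V')).finrank_eq
      rw [Submodule.map_comap_subtype] at e2
      have e3 : V ⊓ V' = V' := inf_eq_right.mpr inf_le_left
      rw [e3] at e2
      exact e2
    have hrn := LinearMap.finrank_range_add_finrank_ker f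
    rw [LinearMap.range_eq_top.mpr hsurj, finrank_top, Module.finrank_self, hker, hd] at hrn
    have hd' : finrank k V' = d := by omega
    obtain ⟨j', hj'⟩ := ih V' hV'fd hd'
    refine ⟨Fin.cons j₀ j', fun v hv hvan => ?_⟩
    have h0 : v j₀ = 0 := by simpa using hvan 0
    apply hj' v ⟨hv, by simpa using h0⟩
    intro i
    simpa using hvan i.succ

section Pivot

variable {𝒪 : Type*} [CommRing 𝒪] [IsDomain 𝒪] [IsLocalRing 𝒪] {J : Type*}

/-- coordinatewise reduction -/
noncomputable def redFun (x : J → 𝒪) : J → IsLocalRing.ResidueField 𝒪 :=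
  fun j => IsLocalRing.residue 𝒪 (x j)

/-- **existence of pivot coordinates** for a finitely generated SATURATED submodule of `J → 𝒪`,
`𝒪` a local domain with principal maximal ideal `(ϖ)`. -/
theorem exists_pivot (ϖ : 𝒪) (hϖ : IsLocalRing.maximalIdeal 𝒪 = Ideal.span {ϖ}) (hϖ0 : ϖ ≠ 0)
    (Λ : Submodule 𝒪 (J → 𝒪)) (hfg : Λ.FG)
    (hsat : ∀ x : J → 𝒪, ϖ • x ∈ Λ → x ∈ Λ) :
    ∃ (r : ℕ) (j : Fin r → J),
      (∀ y : Fin r → 𝒪, ∃ u ∈ Λ, (fun i => u (j i)) = y) ∧
      (∀ u ∈ Λ, ∀ m : ℕ, (∃ y : Fin r → 𝒪, (fun i => u (j i)) = ϖ ^ m • y) →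
        ∃ v ∈ Λ, u = ϖ ^ m • v) := by
  classical
  set k := IsLocalRing.ResidueField 𝒪 with hk
  -- the reduction of `Λ` is a finite-dimensional subspace
  set V : Submodule k (J → k) := Submodule.span k (redFun '' (Λ : Set (J → 𝒪))) with hV
  have hredadd : ∀ x y : J → 𝒪, redFun (x + y) = redFun x + redFun y := by
    intro x y; funext j; simp [redFun]
  have hredsmul : ∀ (c : 𝒪) (x : J → 𝒪), redFun (c • x) = IsLocalRing.residue 𝒪 c • redFun x := by
    intro c x; funext j; simp [redFun]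
  have hredzero : redFun (0 : J → 𝒪) = 0 := by funext j; simp [redFun]
  have hVmem : ∀ v ∈ V, ∃ u ∈ Λ, redFun u = v := by
    intro v hv
    induction hv using Submodule.span_induction with
    | mem x hx => obtain ⟨u, hu, rfl⟩ := hx; exact ⟨u, hu, rfl⟩
    | zero => exact ⟨0, Λ.zero_mem, hredzero⟩
    | add x y _ _ hx hy =>
      obtain ⟨u, hu, rfl⟩ := hx
      obtain ⟨u', hu', rfl⟩ := hy
      exact ⟨u + u', Λ.add_mem hu hu', hredadd u u'⟩
    | smul c x _ hx =>
      obtain ⟨u, hu, rfl⟩ := hx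
      obtain ⟨c', rfl⟩ := IsLocalRing.residue_surjective c
      exact ⟨c' • u, Λ.smul_mem c' hu, hredsmul c' u⟩
  have hVfd : FiniteDimensional k V := by
    obtain ⟨S, hS⟩ := hfg
    have : V = Submodule.span k (redFun '' (S : Set (J → 𝒪))) := by
      apply le_antisymm
      · rw [hV, Submodule.span_le]
        have key : ∀ u ∈ Submodule.span 𝒪 (S : Set (J → 𝒪)),
            redFun u ∈ Submodule.span k (redFun '' (S : Set (J → 𝒪))) := by
          intro u hu'
          induction hu' using Submodule.span_induction with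
          | mem x hx => exact Submodule.subset_span ⟨x, hx, rfl⟩
          | zero => rw [hredzero]; exact Submodule.zero_mem _
          | add x y _ _ hx hy => rw [hredadd]; exact Submodule.add_mem _ hx hy
          | smul c x _ hx => rw [hredsmul]; exact Submodule.smul_mem _ _ hx
        rintro _ ⟨u, hu, rfl⟩
        exact key u (by rw [hS]; exact hu)
      · apply Submodule.span_mono
        apply Set.image_mono
        intro x hx
        rw [← hS]
        exact Submodule.subset_span hx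
    rw [this]
    exact FiniteDimensional.span_of_finite k ((Finset.finite_toSet S).image _)
  obtain ⟨j, hj⟩ := exists_coords (finrank k V) V hVfd rfl
  refine ⟨finrank k V, j, ?_, ?_⟩
  · -- surjectivity: first modulo `ϖ`, then Nakayama
    set g : V →ₗ[k] (Fin (finrank k V) → k) :=
      { toFun := fun v i => (v : J → k) (j i)
        map_add' := fun _ _ => rfl
        map_smul' := fun _ _ => rfl } with hg
    have hginj : Function.Injective g := by
      rw [← LinearMap.ker_eq_bot, LinearMap.ker_eq_bot']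
      intro v hv
      apply Subtype.ext
      apply hj v.1 v.2
      intro i
      exact congrFun hv i
    have hgsurj : Function.Surjective g :=
      (LinearMap.injective_iff_surjective_of_finrank_eq_finrank (by simp)).mp hginj
    set N : Submodule 𝒪 (Fin (finrank k V) → 𝒪) :=
      Submodule.map (LinearMap.funLeft 𝒪 𝒪 j) Λ with hN
    have hNtop : N = ⊤ := by
      apply top_le_iff.mp
      apply Submodule.le_of_le_smul_of_le_jacobson_bot (I := IsLocalRing.maximalIdeal 𝒪)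
        (Module.Finite.fg_top)
        (IsLocalRing.maximalIdeal_le_jacobson ⊥)
      intro y _
      obtain ⟨v, hv⟩ := hgsurj (redFun y)
      obtain ⟨u, hu, huv⟩ := hVmem v.1 v.2
      have hdiff : ∀ i, y i - u (j i) ∈ IsLocalRing.maximalIdeal 𝒪 := by
        intro i
        rw [← IsLocalRing.residue_eq_zero_iff, map_sub, sub_eq_zero]
        have h1 := congrFun hv i
        have h2 := congrFun huv (j i)
        simp only [redFun] at h1 h2
        rw [h2]
        exact h1.symm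
      have hy : y = (LinearMap.funLeft 𝒪 𝒪 j) u + (y - (LinearMap.funLeft 𝒪 𝒪 j) u) := by abel
      rw [hy]
      refine Submodule.add_mem_sup (Submodule.mem_map_of_mem hu) ?_
      have hz : (y - (LinearMap.funLeft 𝒪 𝒪 j) u) =
          ∑ i, (y i - u (j i)) • (Pi.single i (1 : 𝒪) : Fin (finrank k V) → 𝒪) := by
        funext i'
        simp [Finset.sum_apply, Pi.single_apply, LinearMap.funLeft_apply]
      rw [hz]
      exact Submodule.sum_mem _ fun i _ =>
        Submodule.smul_mem_smul (hdiff i) Submodule.mem_top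
    intro y
    have : y ∈ N := by rw [hNtop]; exact Submodule.mem_top
    obtain ⟨u, hu, rfl⟩ := this
    exact ⟨u, hu, rfl⟩
  · intro u hu m
    induction m generalizing u with
    | zero => intro _; exact ⟨u, hu, by simp⟩
    | succ m ih =>
      rintro ⟨y, hy⟩
      -- the reduction of `u` vanishes
      have hred0 : redFun u = 0 := by
        apply hj (redFun u) (Submodule.subset_span ⟨u, hu, rfl⟩)
        intro i
        have := congrFun hy i
        simp only [Pi.smul_apply, smul_eq_mul] at this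
        simp only [redFun]
        rw [this, map_mul, map_pow]
        have : IsLocalRing.residue 𝒪 ϖ = 0 := by
          rw [IsLocalRing.residue_eq_zero_iff, hϖ]
          exact Ideal.mem_span_singleton_self ϖ
        rw [this, pow_succ, mul_zero, zero_mul]
      have hdiv : ∀ j' : J, ∃ c : 𝒪, u j' = ϖ * c := by
        intro j'
        have := congrFun hred0 j'
        simp only [redFun, Pi.zero_apply] at this
        rw [IsLocalRing.residue_eq_zero_iff, hϖ, Ideal.mem_span_singleton] at this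
        exact this
      choose x hx using hdiv
      have hux : u = ϖ • x := by
        funext j'
        simp [hx j']
      have hxΛ : x ∈ Λ := hsat x (hux ▸ hu)
      obtain ⟨v, hv, hxv⟩ := ih x hxΛ ⟨y, by
        funext i
        have := congrFun hy i
        simp only [Pi.smul_apply, smul_eq_mul] at this ⊢
        rw [hx (j i), pow_succ, mul_comm (ϖ ^ m) ϖ, mul_assoc] at this
        exact mul_left_cancel₀ hϖ0 this⟩
      refine ⟨v, hv, ?_⟩
      rw [hux, hxv, smul_smul, pow_succ, mul_comm]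

end Pivot


section Root

open Module

variable {𝒪 : Type*} [CommRing 𝒪] [IsDomain 𝒪] [IsLocalRing 𝒪] {J : Type*}
  {P : Type*} [CommRing P] [Algebra 𝒪 P]

/-- **ROOT3, abstract form** (finding #2025): `P` = families of integral expansions with
coordinate map `c` (coefficients), `R` = expansions of the integral functions regular off the
cusps, `Q` = pole orders `≤ N`, `Λ ⊆ R ∩ Q` the finitely generated saturated lattice `Λ_N`.
If (SAT) holds, then every `w ∈ Q` with `w ≡ 1 mod ϖ` and `w ^ n ∈ R` (`n` a unit) lies in `Λ`. -/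
theorem root_mem_lattice (ϖ : 𝒪) (hϖ : IsLocalRing.maximalIdeal 𝒪 = Ideal.span {ϖ})
    (hϖ0 : ϖ ≠ 0) (hsep𝒪 : ∀ a : 𝒪, (∀ m : ℕ, ϖ ^ m ∣ a) → a = 0)
    (c : P →ₗ[𝒪] (J → 𝒪)) (hcinj : Function.Injective c)
    (hcdiv : ∀ x : P, (∀ j, ϖ ∣ c x j) → ∃ x' : P, x = ϖ • x')
    (R : Subalgebra 𝒪 P) (Λ Q : Submodule 𝒪 P) (hfg : Λ.FG)
    (hΛQ : Λ ≤ Q) (hΛR : ∀ x ∈ Λ, x ∈ R) (h1 : (1 : P) ∈ Λ)
    (hΛsat : ∀ x : P, ϖ • x ∈ Λ → x ∈ Λ)
    (hQsat : ∀ x : P, ϖ • x ∈ Q → x ∈ Q)
    (hRsat : ∀ x : P, ϖ • x ∈ R → x ∈ R)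
    (hSAT : ∀ Φ ∈ R, (∃ y ∈ Q, ∃ z : P, Φ = y + ϖ • z) → ∃ l ∈ Λ, ∃ r ∈ R, Φ = l + ϖ • r)
    (n : ℕ) (hn : IsUnit (n : 𝒪))
    (w : P) (hwQ : w ∈ Q) (hwR : w ^ n ∈ R) (hw1 : ∃ z : P, w - 1 = ϖ • z) : w ∈ Λ := by
  classical
  obtain ⟨ν, hν⟩ := hn.exists_right_inv
  have hsm : ∀ (a : 𝒪) (x : P), a • x = algebraMap 𝒪 P a * x := fun a x => Algebra.smul_def a x
  -- Newton approximations in `P`
  have happ := newton_approx (algebraMap 𝒪 P ϖ) R.toSubring Λ.toAddSubgroup Q.toAddSubgroup n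
    (algebraMap 𝒪 P ν) (by rw [← map_natCast (algebraMap 𝒪 P), ← map_mul, hν, map_one])
    (fun x hx => hΛQ hx) (fun x hx => hΛR x hx) h1
    (fun x hx => by rw [← hsm]; exact Λ.smul_mem ϖ hx)
    (fun x hx => by rw [← hsm]; exact Λ.smul_mem ν hx)
    (fun x hx => hQsat x (by rw [hsm]; exact hx))
    (fun x hx => hRsat x (by rw [hsm]; exact hx))
    (fun Φ hΦ ⟨y, hy, z, hz⟩ => by
      obtain ⟨l, hl, r, hr, hlr⟩ := hSAT Φ hΦ ⟨y, hy, z, by rw [hsm]; exact hz⟩
      exact ⟨l, hl, r, hr, by rw [← hsm]; exact hlr⟩)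
    w hwQ hwR (by obtain ⟨z, hz⟩ := hw1; exact ⟨z, by rw [hz, hsm]⟩)
  -- transport to coordinates
  set Λ' : Submodule 𝒪 (J → 𝒪) := Λ.map c with hΛ'
  have hfg' : Λ'.FG := hfg.map c
  have hsat' : ∀ y : J → 𝒪, ϖ • y ∈ Λ' → y ∈ Λ' := by
    rintro y ⟨u, hu, huy⟩
    obtain ⟨u', rfl⟩ := hcdiv u (fun j => ⟨y j, by rw [huy]; rfl⟩)
    refine ⟨u', hΛsat u' hu, ?_⟩
    funext j
    have := congrFun huy j
    rw [map_smul] at this
    simp only [Pi.smul_apply, smul_eq_mul] at this
    exact mul_left_cancel₀ hϖ0 this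
  obtain ⟨r, j, hsurj, hker⟩ := exists_pivot ϖ hϖ hϖ0 Λ' hfg' hsat'
  have hmem : c w ∈ Λ' := by
    apply mem_of_pivot ϖ Λ' (LinearMap.funLeft 𝒪 𝒪 j)
    · intro y
      obtain ⟨u, hu, huy⟩ := hsurj y
      exact ⟨u, hu, huy⟩
    · intro u hu m ⟨y, hy⟩
      exact hker u hu m ⟨y, hy⟩
    · intro x hx
      funext i
      apply hsep𝒪
      intro m
      obtain ⟨z, hz⟩ := hx m
      exact ⟨z i, by rw [hz]; rfl⟩
    · intro m
      obtain ⟨u, hu, z, hz⟩ := happ m
      refine ⟨c u, Submodule.mem_map_of_mem hu, ϖ • c z, ?_⟩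
      rw [hz, map_add, ← map_pow, ← hsm, map_smul, pow_succ, smul_smul]
  obtain ⟨u, hu, huw⟩ := hmem
  rw [← hcinj huw]
  exact hu

end Root

end Fermat.Agent.T3.helper27
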