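/-
T3 (S36), helper74: ABSTRACT WEIGHTED PEELING = the saturation hypothesis `hSAT` of
`helper27.root_mem_lattice` / `helper27.newton_approx` from "peelers" (finding #2060).

`P = Π i, LaurentSeries (C i)` : families of (integral) Laurent expansions at finitely many cusps
`i : ι`, coefficient rings `C i`;  `ϖ = (p i)_i` the family of constants;  `R ⊆ P` a subring
(the expansions of the integral functions regular off the cusps);  `ω i` = the co-weight of the
cusp `i`: a pole of order `m` at the cusp `i` has LEVEL `m * ω i`.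

A *peeler* for `(i, m, c)` is an element `E ∈ R` whose expansion at `i` is `c t^(-m) + higher`
and whose level at every other cusp is `< m * ω i`.

`sat_of_peelable` : if every top coefficient (of level `> L₀`) of an element of `R` which is
divisible by `p i` can be peeled, then for `L ≥ L₀`
  `Φ ∈ R`, `Φ ≡ y mod ϖ`, `level y ≤ L`  ⟹  `Φ = l + ϖ r`, `l ∈ R`, `level l ≤ L`, `r ∈ R`.
`sat_of_peelers` : the same from peelers for ALL `c : C i`.  Mathlib only.
-/
import Mathlib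

set_option autoImplicit false

noncomputable section

namespace Fermat.Agent.T3.helper74

open HahnSeries

variable {ι : Type*} {C : ι → Type*} [∀ i, CommRing (C i)]

/-- the family of expansions has level `≤ L` (co-weights `ω`): the coefficient of `t^k` at the
cusp `i` vanishes as soon as `(-k) * ω i > L`. -/
def LevelLE (ω : ι → ℕ) (L : ℤ) (x : (i : ι) → LaurentSeries (C i)) : Prop :=
  ∀ i (k : ℤ), L < -k * (ω i : ℤ) → (x i).coeff k = 0

/-- the family of constants -/
def constFam (p : (i : ι) → C i) : (i : ι) → LaurentSeries (C i) :=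
  fun i => HahnSeries.C (p i)

theorem constFam_mul_coeff (p : (i : ι) → C i) (x : (i : ι) → LaurentSeries (C i)) (i : ι)
    (k : ℤ) : ((constFam p * x) i).coeff k = p i * (x i).coeff k := by
  show (HahnSeries.C (p i) * x i).coeff k = _
  rw [HahnSeries.C_mul_eq_smul, HahnSeries.coeff_smul, smul_eq_mul]

theorem LevelLE.mono {ω : ι → ℕ} {L L' : ℤ} (h : L ≤ L') {x : (i : ι) → LaurentSeries (C i)}
    (hx : LevelLE ω L x) : LevelLE ω L' x :=
  fun i k hk => hx i k (lt_of_le_of_lt h hk)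

theorem LevelLE.add {ω : ι → ℕ} {L : ℤ} {x y : (i : ι) → LaurentSeries (C i)}
    (hx : LevelLE ω L x) (hy : LevelLE ω L y) : LevelLE ω L (x + y) := by
  intro i k hk
  show (x i + y i).coeff k = 0
  rw [HahnSeries.coeff_add, hx i k hk, hy i k hk, add_zero]

theorem LevelLE.sub {ω : ι → ℕ} {L : ℤ} {x y : (i : ι) → LaurentSeries (C i)}
    (hx : LevelLE ω L x) (hy : LevelLE ω L y) : LevelLE ω L (x - y) := by
  intro i k hk
  show (x i - y i).coeff k = 0
  rw [HahnSeries.coeff_sub, hx i k hk, hy i k hk, sub_zero]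

theorem LevelLE.zero {ω : ι → ℕ} {L : ℤ} :
    LevelLE ω L (0 : (i : ι) → LaurentSeries (C i)) := by
  intro i k _
  rfl

/-- every family over a finite index set has a finite level -/
theorem exists_levelLE [Finite ι] (ω : ι → ℕ) (L : ℤ) (x : (i : ι) → LaurentSeries (C i)) :
    ∃ d : ℕ, LevelLE ω (L + d) x := by
  classical
  have := Fintype.ofFinite ι
  -- a common bound for the pole orders
  have h1 : ∀ i, ∃ b : ℕ, ∀ k : ℤ, k < -(b : ℤ) → (x i).coeff k = 0 := by
    intro i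
    refine ⟨(-(x i).order).toNat, fun k hk => ?_⟩
    apply HahnSeries.coeff_eq_zero_of_lt_order
    have := Int.self_le_toNat (-(x i).order)
    omega
  choose b hb using h1
  set B : ℕ := Finset.univ.sup fun i => b i * ω i with hB
  refine ⟨(B - L).toNat, fun i k hk => ?_⟩
  apply hb i
  by_contra hcon
  rw [not_lt] at hcon
  have h2 : b i * ω i ≤ B := Finset.le_sup (f := fun i => b i * ω i) (Finset.mem_univ i)
  have h3 : (B : ℤ) - L ≤ ((B - L).toNat : ℤ) := Int.self_le_toNat _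
  have h4 : -k * (ω i : ℤ) ≤ (b i : ℤ) * (ω i : ℤ) := by
    apply mul_le_mul_of_nonneg_right _ (Int.natCast_nonneg _)
    omega
  have h5 : ((b i * ω i : ℕ) : ℤ) ≤ (B : ℤ) := by exact_mod_cast h2
  push_cast at h5
  omega

/-- **peelability**: every top coefficient of level `> L₀` of an element of `R` which is
divisible by `p i` can be removed by an element of `ϖ R` of the same level. -/
def Peelable (R : Subring ((i : ι) → LaurentSeries (C i))) (p : (i : ι) → C i) (ω : ι → ℕ)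
    (L₀ : ℤ) : Prop :=
  ∀ (i : ι) (m : ℤ), L₀ < m * (ω i : ℤ) → ∀ Φ ∈ R, LevelLE ω (m * (ω i : ℤ)) Φ →
    ∀ c : C i, (Φ i).coeff (-m) = p i * c →
      ∃ E ∈ R, (E i).coeff (-m) = c ∧ (∀ k : ℤ, k < -m → (E i).coeff k = 0) ∧
        ∀ j, j ≠ i → ∀ k : ℤ, m * (ω i : ℤ) ≤ -k * (ω j : ℤ) → (E j).coeff k = 0

/-- **peelers** for all leading coefficients -/
def HasPeelersW (R : Subring ((i : ι) → LaurentSeries (C i))) (ω : ι → ℕ) (L₀ : ℤ) : Prop :=
  ∀ (i : ι) (m : ℤ), L₀ < m * (ω i : ℤ) → ∀ c : C i,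
    ∃ E ∈ R, (E i).coeff (-m) = c ∧ (∀ k : ℤ, k < -m → (E i).coeff k = 0) ∧
      ∀ j, j ≠ i → ∀ k : ℤ, m * (ω i : ℤ) ≤ -k * (ω j : ℤ) → (E j).coeff k = 0

theorem HasPeelersW.peelable {R : Subring ((i : ι) → LaurentSeries (C i))} {ω : ι → ℕ}
    {L₀ : ℤ} (h : HasPeelersW R ω L₀) (p : (i : ι) → C i) : Peelable R p ω L₀ :=
  fun i m hm _ _ _ c _ => h i m hm c

section Step

variable [Fintype ι] [DecidableEq ι]

/-- one peeling step: the level drops by one. -/
theorem peel_stepW (R : Subring ((i : ι) → LaurentSeries (C i))) (p : (i : ι) → C i)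
    (ω : ι → ℕ) (hω : ∀ i, 0 < ω i) (L₀ : ℤ) (hP : Peelable R p ω L₀) (L : ℤ) (hL : L₀ ≤ L)
    (Φ : (i : ι) → LaurentSeries (C i)) (hΦ : Φ ∈ R) (hΦL : LevelLE ω (L + 1) Φ)
    (y z : (i : ι) → LaurentSeries (C i)) (hy : LevelLE ω L y) (hΦy : Φ = y + constFam p * z) :
    ∃ E ∈ R, LevelLE ω L (Φ - constFam p * E) := by
  classical
  -- the peeler at the cusp `i`
  have hex : ∀ i : ι, ∃ E ∈ R, (∀ j k, L + 1 < -k * (ω j : ℤ) → (E j).coeff k = 0) ∧
      (∀ j, j ≠ i → ∀ k : ℤ, L + 1 = -k * (ω j : ℤ) → (E j).coeff k = 0) ∧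
      (∀ k : ℤ, L + 1 = -k * (ω i : ℤ) → (Φ i).coeff k = p i * (E i).coeff k) := by
    intro i
    have hωi : (0 : ℤ) < (ω i : ℤ) := by exact_mod_cast hω i
    by_cases hdiv : ∃ m : ℤ, m * (ω i : ℤ) = L + 1
    · obtain ⟨m, hm⟩ := hdiv
      have hc : (Φ i).coeff (-m) = p i * (z i).coeff (-m) := by
        have h1 : (Φ i).coeff (-m) = (y i).coeff (-m) + ((constFam p * z) i).coeff (-m) := by
          rw [hΦy]; rfl
        rw [h1, constFam_mul_coeff, hy i (-m) (by rw [neg_neg, hm]; omega), zero_add]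
      obtain ⟨E, hE, hE1, hE2, hE3⟩ := hP i m (by rw [hm]; omega) Φ hΦ (by rw [hm]; exact hΦL)
        ((z i).coeff (-m)) hc
      refine ⟨E, hE, ?_, ?_, ?_⟩
      · intro j k hk
        by_cases hji : j = i
        · subst hji
          apply hE2
          have : m * (ω j : ℤ) < -k * (ω j : ℤ) := by rw [hm]; exact hk
          have := lt_of_mul_lt_mul_right this hωi.le
          omega
        · exact hE3 j hji k (by rw [hm]; omega)
      · intro j hji k hk
        exact hE3 j hji k (by rw [hm, hk])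
      · intro k hk
        have hkm : k = -m := by
          have : m * (ω i : ℤ) = -k * (ω i : ℤ) := by rw [hm, hk]
          have := mul_right_cancel₀ hωi.ne' this
          omega
        rw [hkm, hE1, hc]
    · refine ⟨0, R.zero_mem, fun _ _ _ => rfl, fun _ _ _ _ => rfl, fun k hk => ?_⟩
      exact absurd ⟨-k, hk.symm⟩ hdiv
  choose E hER hE1 hE2 hE3 using hex
  refine ⟨∑ i, E i, R.sum_mem fun i _ => hER i, ?_⟩
  intro j k hk
  have hcoef : ((Φ - constFam p * ∑ i, E i) j).coeff k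
      = (Φ j).coeff k - p j * ∑ i, (E i j).coeff k := by
    have h1 : ((Φ - constFam p * ∑ i, E i) j).coeff k
        = (Φ j).coeff k - ((constFam p * ∑ i, E i) j).coeff k := rfl
    rw [h1, constFam_mul_coeff]
    congr 2
    have h2 : (∑ i, E i) j = ∑ i, E i j := Finset.sum_apply j Finset.univ E
    rw [h2]
    exact HahnSeries.coeff_sum k
  rw [hcoef]
  rcases (show L + 1 < -k * (ω j : ℤ) ∨ L + 1 = -k * (ω j : ℤ) by omega) with hlt | heq
  · rw [hΦL j k hlt, Finset.sum_eq_zero (fun i _ => hE1 i j k hlt), mul_zero, sub_zero]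
  · have h3 : ∑ i, (E i j).coeff k = (E j j).coeff k := by
      apply Finset.sum_eq_single j
      · intro i _ hij
        exact hE2 i j (Ne.symm hij) k heq
      · intro h
        exact absurd (Finset.mem_univ j) h
    rw [h3, hE3 j k heq, sub_self]

/-- iterated peeling -/
theorem peel_iterW (R : Subring ((i : ι) → LaurentSeries (C i))) (p : (i : ι) → C i)
    (hpR : constFam p ∈ R)
    (ω : ι → ℕ) (hω : ∀ i, 0 < ω i) (L₀ : ℤ) (hP : Peelable R p ω L₀) (L : ℤ) (hL : L₀ ≤ L)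
    (d : ℕ) :
    ∀ Φ ∈ R, LevelLE ω (L + d) Φ →
      (∃ y, LevelLE ω L y ∧ ∃ z, Φ = y + constFam p * z) →
      ∃ l ∈ R, LevelLE ω L l ∧ ∃ r ∈ R, Φ = l + constFam p * r := by
  induction d with
  | zero =>
    intro Φ hΦ hΦL _
    refine ⟨Φ, hΦ, ?_, 0, R.zero_mem, by rw [mul_zero, add_zero]⟩
    simpa using hΦL
  | succ d ih =>
    intro Φ hΦ hΦL ⟨y, hy, z, hz⟩
    have e : L + ((d + 1 : ℕ) : ℤ) = (L + d) + 1 := by push_cast; ring
    rw [e] at hΦL
    obtain ⟨E, hE, hEL⟩ := peel_stepW R p ω hω L₀ hP (L + d) (by omega) Φ hΦ hΦL y z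
      (hy.mono (by omega)) hz
    obtain ⟨l, hl, hlL, r, hr, hlr⟩ := ih (Φ - constFam p * E)
      (R.sub_mem hΦ (R.mul_mem hpR hE)) hEL ⟨y, hy, z - E, by rw [hz]; ring⟩
    refine ⟨l, hl, hlL, r + E, R.add_mem hr hE, ?_⟩
    have : Φ = (Φ - constFam p * E) + constFam p * E := by ring
    rw [this, hlr]
    ring

/-- **(SAT) from peelability**: the hypothesis `hSAT` of `helper27.newton_approx` for
`Q = {level ≤ L}`, `Λ = R ∩ Q`, `L ≥ L₀`. -/
theorem sat_of_peelable (R : Subring ((i : ι) → LaurentSeries (C i))) (p : (i : ι) → C i)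
    (hpR : constFam p ∈ R)
    (ω : ι → ℕ) (hω : ∀ i, 0 < ω i) (L₀ : ℤ) (hP : Peelable R p ω L₀) (L : ℤ) (hL : L₀ ≤ L) :
    ∀ Φ ∈ R, (∃ y, LevelLE ω L y ∧ ∃ z, Φ = y + constFam p * z) →
      ∃ l ∈ R, LevelLE ω L l ∧ ∃ r ∈ R, Φ = l + constFam p * r := by
  intro Φ hΦ h
  obtain ⟨d, hd⟩ := exists_levelLE ω L Φ
  exact peel_iterW R p hpR ω hω L₀ hP L hL d Φ hΦ hd h

/-- **(SAT) from peelers**. -/
theorem sat_of_peelers (R : Subring ((i : ι) → LaurentSeries (C i))) (p : (i : ι) → C i)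
    (hpR : constFam p ∈ R)
    (ω : ι → ℕ) (hω : ∀ i, 0 < ω i) (L₀ : ℤ) (hP : HasPeelersW R ω L₀) (L : ℤ) (hL : L₀ ≤ L) :
    ∀ Φ ∈ R, (∃ y, LevelLE ω L y ∧ ∃ z, Φ = y + constFam p * z) →
      ∃ l ∈ R, LevelLE ω L l ∧ ∃ r ∈ R, Φ = l + constFam p * r :=
  sat_of_peelable R p hpR ω hω L₀ (hP.peelable p) L hL

end Step

end Fermat.Agent.T3.helper74

end
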