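/-
T3 (S36), helper27: ROOT3 in the coordinates of `helper74_PeelAbs` - the abstract root step
`helper27.root_mem_lattice` for `P = Π i, LaurentSeries (C i)` (families of integral Laurent
expansions at finitely many cusps `i`, coefficient rings `C i` free over the discrete base `𝒪`).

`root_of_sat`  : `R ⊆ P` a subring containing the constants of `𝒪`, `ϖ`-saturated, with (SAT) at
level `L` and finitely generated lattice `Λ_L = {x ∈ R : level x ≤ L}`.  If `w ∈ P` has level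
`≤ L`, `w ≡ 1 mod ϖ` and `w ^ n ∈ R` (`n` a unit of `𝒪`), then `w ∈ R`.
`root_of_peelable` : the same with (SAT) replaced by `helper74.Peelable`.
Mathlib only (+ helper27_Newton, helper74_PeelAbs).
-/
import Mathlib
import Fermat.Agent.T3.helper27_Newton
import Fermat.Agent.T3.helper74_PeelAbs

set_option autoImplicit false

noncomputable section

namespace Fermat.Agent.T3.helper27

open HahnSeries Fermat.Agent.T3.helper74

section Coord

variable {𝒪 : Type*} [CommRing 𝒪] {ι : Type*} {C : ι → Type*} [∀ i, CommRing (C i)]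
  [∀ i, Algebra 𝒪 (C i)]

/-- the constants of `𝒪` as families of constant series -/
def constHom (𝒪 : Type*) [CommRing 𝒪] {ι : Type*} (C : ι → Type*) [∀ i, CommRing (C i)]
    [∀ i, Algebra 𝒪 (C i)] : 𝒪 →+* ((i : ι) → LaurentSeries (C i)) :=
  RingHom.pi fun i => (HahnSeries.C : C i →+* LaurentSeries (C i)).comp (algebraMap 𝒪 (C i))

theorem constHom_apply (r : 𝒪) (i : ι) :
    constHom 𝒪 C r i = HahnSeries.C (algebraMap 𝒪 (C i) r) := rfl

theorem constHom_eq_constFam (r : 𝒪) :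
    constHom 𝒪 C r = constFam (fun i => algebraMap 𝒪 (C i) r) := rfl

theorem constHom_mul_coeff (r : 𝒪) (x : (i : ι) → LaurentSeries (C i)) (i : ι) (k : ℤ) :
    ((constHom 𝒪 C r * x) i).coeff k = r • (x i).coeff k := by
  rw [constHom_eq_constFam, constFam_mul_coeff, Algebra.smul_def]

/-- type synonym of `Π i, LaurentSeries (C i)` carrying the `𝒪`-algebra structure by constants -/
def PFam (𝒪 : Type*) [CommRing 𝒪] {ι : Type*} (C : ι → Type*) [∀ i, CommRing (C i)]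
    [∀ i, Algebra 𝒪 (C i)] : Type _ :=
  (i : ι) → LaurentSeries (C i)

instance instCommRingPFam : CommRing (PFam 𝒪 C) :=
  inferInstanceAs (CommRing ((i : ι) → LaurentSeries (C i)))

instance instAlgebraPFam : Algebra 𝒪 (PFam 𝒪 C) := (constHom 𝒪 C).toAlgebra

/-- the identity map, used to switch between the two names of the type -/
def toPFam (x : (i : ι) → LaurentSeries (C i)) : PFam 𝒪 C := x

/-- the identity map, used to switch between the two names of the type -/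
def ofPFam (x : PFam 𝒪 C) : (i : ι) → LaurentSeries (C i) := x

theorem pfam_algebraMap (r : 𝒪) :
    ofPFam (algebraMap 𝒪 (PFam 𝒪 C) r) = constHom 𝒪 C r := rfl

theorem pfam_smul_def (r : 𝒪) (x : PFam 𝒪 C) :
    ofPFam (r • x) = constHom 𝒪 C r * ofPFam x := by
  rw [Algebra.smul_def]
  rfl

theorem pfam_smul_coeff (r : 𝒪) (x : PFam 𝒪 C) (i : ι) (k : ℤ) :
    ((r • x : PFam 𝒪 C) i).coeff k = r • (x i).coeff k :=
  constHom_mul_coeff r x i k

end Coord

section CoordMap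

variable {𝒪 : Type*} [CommRing 𝒪]
  {ι : Type*} {C : ι → Type*} [∀ i, CommRing (C i)] [∀ i, Algebra 𝒪 (C i)] {κ : ι → Type*}

/-- the coordinate map of a family of expansions with respect to `𝒪`-bases of the coefficient
rings -/
def coordMap (b : ∀ i, Module.Basis (κ i) 𝒪 (C i)) :
    PFam 𝒪 C →ₗ[𝒪] ((Σ i, ℤ × κ i) → 𝒪) where
  toFun x j := (b j.1).repr ((ofPFam x j.1).coeff j.2.1) j.2.2
  map_add' x y := by
    funext j
    have h : (ofPFam (x + y) j.1).coeff j.2.1 =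
        (ofPFam x j.1).coeff j.2.1 + (ofPFam y j.1).coeff j.2.1 := rfl
    show (b j.1).repr ((ofPFam (x + y) j.1).coeff j.2.1) j.2.2 = _
    rw [h, map_add]
    rfl
  map_smul' r x := by
    funext j
    show (b j.1).repr ((ofPFam (r • x) j.1).coeff j.2.1) j.2.2 = _
    rw [pfam_smul_def, constHom_mul_coeff, map_smul]
    rfl

theorem coordMap_apply (b : ∀ i, Module.Basis (κ i) 𝒪 (C i)) (x : PFam 𝒪 C) (i : ι) (k : ℤ)
    (j : κ i) : coordMap b x ⟨i, k, j⟩ = (b i).repr ((ofPFam x i).coeff k) j := rfl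

theorem coordMap_injective (b : ∀ i, Module.Basis (κ i) 𝒪 (C i)) :
    Function.Injective (coordMap b) := by
  rw [← LinearMap.ker_eq_bot, LinearMap.ker_eq_bot']
  intro x hx
  funext i
  apply HahnSeries.ext
  funext k
  have h : (b i).repr ((ofPFam x i).coeff k) = 0 := by
    ext j
    have := congrFun hx ⟨i, k, j⟩
    rw [coordMap_apply] at this
    simpa using this
  exact (b i).repr.map_eq_zero_iff.mp h

/-- an element of a free module all of whose coordinates are divisible by `ϖ` is divisible by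
`ϖ` -/
theorem exists_smul_of_dvd_repr {M : Type*} [AddCommGroup M] [Module 𝒪 M] {κ' : Type*}
    (b : Module.Basis κ' 𝒪 M) (ϖ : 𝒪) (a : M) (h : ∀ j, ϖ ∣ b.repr a j) :
    ∃ a' : M, a = ϖ • a' := by
  classical
  choose g hg using h
  refine ⟨∑ j ∈ (b.repr a).support, g j • b j, ?_⟩
  rw [Finset.smul_sum]
  conv_lhs => rw [← b.linearCombination_repr a, Finsupp.linearCombination_apply, Finsupp.sum]
  refine Finset.sum_congr rfl fun j _ => ?_
  rw [smul_smul, ← hg j]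

theorem coordMap_dvd (b : ∀ i, Module.Basis (κ i) 𝒪 (C i)) (ϖ : 𝒪) (x : PFam 𝒪 C)
    (h : ∀ j, ϖ ∣ coordMap b x j) : ∃ x' : PFam 𝒪 C, x = ϖ • x' := by
  classical
  have h1 : ∀ (i : ι) (k : ℤ), ∃ a' : C i, (ofPFam x i).coeff k = ϖ • a' :=
    fun i k => exists_smul_of_dvd_repr (b i) ϖ _ fun j => h ⟨i, k, j⟩
  choose a ha using h1
  let a₀ : (i : ι) → ℤ → C i := fun i k => if (ofPFam x i).coeff k = 0 then 0 else a i k
  have ha₀ : ∀ i k, (ofPFam x i).coeff k = ϖ • a₀ i k := by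
    intro i k
    by_cases h0 : (ofPFam x i).coeff k = 0
    · simp [a₀, h0]
    · simp only [a₀, if_neg h0]
      exact ha i k
  have hsupp : ∀ i, Function.support (a₀ i) ⊆ Function.support (ofPFam x i).coeff := by
    intro i k hk h0
    apply hk
    simp [a₀, h0]
  let x' : (i : ι) → LaurentSeries (C i) :=
    fun i => ⟨a₀ i, (ofPFam x i).isPWO_support.mono (hsupp i)⟩
  refine ⟨toPFam x', ?_⟩
  have e : ofPFam x = ofPFam (ϖ • toPFam (𝒪 := 𝒪) x') := by
    rw [pfam_smul_def]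
    funext i
    apply HahnSeries.ext
    funext k
    rw [constHom_mul_coeff]
    exact ha₀ i k
  exact e

end CoordMap

section Level

variable {𝒪 : Type*} [CommRing 𝒪]
  {ι : Type*} {C : ι → Type*} [∀ i, CommRing (C i)] [∀ i, Algebra 𝒪 (C i)]

/-- the level of the unit family -/
theorem levelLE_one (ω : ι → ℕ) {L : ℤ} (hL : 0 ≤ L) :
    LevelLE ω L (1 : (i : ι) → LaurentSeries (C i)) := by
  intro i k hk
  have hk0 : k ≠ 0 := by
    rintro rfl
    simp at hk
    omega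
  show (1 : LaurentSeries (C i)).coeff k = 0
  rw [HahnSeries.coeff_one]
  exact if_neg hk0

/-- multiplication by a constant does not raise the level -/
theorem levelLE_const_mul (ω : ι → ℕ) {L : ℤ} (r : 𝒪) {x : (i : ι) → LaurentSeries (C i)}
    (hx : LevelLE ω L x) : LevelLE ω L (constHom 𝒪 C r * x) := by
  intro i k hk
  rw [constHom_mul_coeff, hx i k hk, smul_zero]

end Level

section Root

variable {𝒪 : Type*} [CommRing 𝒪] [IsDomain 𝒪] [IsLocalRing 𝒪]
  {ι : Type*} {C : ι → Type*} [∀ i, CommRing (C i)] [∀ i, Algebra 𝒪 (C i)] {κ : ι → Type*}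

/-- **ROOT3 in coordinates, from (SAT)**. -/
theorem root_of_sat (ϖ : 𝒪) (hϖ : IsLocalRing.maximalIdeal 𝒪 = Ideal.span {ϖ}) (hϖ0 : ϖ ≠ 0)
    (hsep𝒪 : ∀ a : 𝒪, (∀ m : ℕ, ϖ ^ m ∣ a) → a = 0)
    (b : ∀ i, Module.Basis (κ i) 𝒪 (C i))
    (R : Subring ((i : ι) → LaurentSeries (C i)))
    (hconst : ∀ r : 𝒪, constHom 𝒪 C r ∈ R)
    (hRsat : ∀ x, constHom 𝒪 C ϖ * x ∈ R → x ∈ R)
    (ω : ι → ℕ) (L : ℤ) (hL : 0 ≤ L)
    (hSAT : ∀ Φ ∈ R, (∃ y, LevelLE ω L y ∧ ∃ z, Φ = y + constHom 𝒪 C ϖ * z) →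
      ∃ l ∈ R, LevelLE ω L l ∧ ∃ r ∈ R, Φ = l + constHom 𝒪 C ϖ * r)
    (hfg : ∃ S : Finset ((i : ι) → LaurentSeries (C i)), (∀ s ∈ S, s ∈ R ∧ LevelLE ω L s) ∧
      ∀ x ∈ R, LevelLE ω L x → ∃ a : ((i : ι) → LaurentSeries (C i)) → 𝒪,
        x = ∑ s ∈ S, constHom 𝒪 C (a s) * s)
    (n : ℕ) (hn : IsUnit (n : 𝒪))
    (w : (i : ι) → LaurentSeries (C i)) (hwL : LevelLE ω L w) (hwR : w ^ n ∈ R)
    (hw1 : ∃ z, w - 1 = constHom 𝒪 C ϖ * z) : w ∈ R := by
  classical
  -- torsion-freeness of the coefficients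
  have htf : ∀ (i : ι) (a : C i), ϖ • a = 0 → a = 0 := by
    intro i a ha
    have h1 : ϖ • (b i).repr a = 0 := by rw [← map_smul, ha, map_zero]
    have h2 : (b i).repr a = 0 := by
      ext j
      have := DFunLike.congr_fun h1 j
      simp only [Finsupp.smul_apply, smul_eq_mul, Finsupp.zero_apply] at this
      rcases mul_eq_zero.mp this with h | h
      · exact absurd h hϖ0
      · simpa using h
    exact (b i).repr.map_eq_zero_iff.mp h2
  -- the subalgebra, the submodules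
  let R' : Subalgebra 𝒪 (PFam 𝒪 C) :=
    { carrier := {x | ofPFam x ∈ R}
      mul_mem' := fun {x y} hx hy => R.mul_mem hx hy
      one_mem' := R.one_mem
      add_mem' := fun {x y} hx hy => R.add_mem hx hy
      zero_mem' := R.zero_mem
      algebraMap_mem' := fun r => hconst r }
  have hR' : ∀ x : PFam 𝒪 C, x ∈ R' ↔ ofPFam x ∈ R := fun x => Iff.rfl
  let Q : Submodule 𝒪 (PFam 𝒪 C) :=
    { carrier := {x | LevelLE ω L (ofPFam x)}
      add_mem' := fun {x y} hx hy => LevelLE.add hx hy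
      zero_mem' := LevelLE.zero
      smul_mem' := fun r x hx => by
        show LevelLE ω L (ofPFam (r • x))
        rw [pfam_smul_def]
        exact levelLE_const_mul ω r hx }
  have hQ : ∀ x : PFam 𝒪 C, x ∈ Q ↔ LevelLE ω L (ofPFam x) := fun x => Iff.rfl
  let Λ : Submodule 𝒪 (PFam 𝒪 C) := Subalgebra.toSubmodule R' ⊓ Q
  have hΛ : ∀ x : PFam 𝒪 C, x ∈ Λ ↔ ofPFam x ∈ R ∧ LevelLE ω L (ofPFam x) := fun x => Iff.rfl
  -- finite generation
  have hΛfg : Λ.FG := by
    obtain ⟨S, hS, hgen⟩ := hfg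
    refine ⟨S.image toPFam, le_antisymm ?_ ?_⟩
    · rw [Submodule.span_le]
      intro x hx
      simp only [Finset.coe_image, Set.mem_image, Finset.mem_coe] at hx
      obtain ⟨s, hs, rfl⟩ := hx
      exact (hΛ _).mpr (hS s hs)
    · intro x hx
      obtain ⟨a, ha⟩ := hgen (ofPFam x) ((hΛ x).mp hx).1 ((hΛ x).mp hx).2
      have e : x = ∑ s ∈ S, a s • toPFam (𝒪 := 𝒪) s := by
        have e1 : ∀ T : Finset ((i : ι) → LaurentSeries (C i)),
            ofPFam (∑ s ∈ T, a s • toPFam (𝒪 := 𝒪) s) = ∑ s ∈ T, constHom 𝒪 C (a s) * s := by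
          intro T
          induction T using Finset.induction_on with
          | empty => rfl
          | insert s T hsT ih =>
            rw [Finset.sum_insert hsT, Finset.sum_insert hsT, ← ih]
            rfl
        have e2 : ofPFam x = ofPFam (∑ s ∈ S, a s • toPFam (𝒪 := 𝒪) s) := by
          rw [e1, ← ha]
        exact e2
      rw [e]
      exact Submodule.sum_mem _ fun s hs =>
        Submodule.smul_mem _ _ (Submodule.subset_span (Finset.mem_coe.mpr
          (Finset.mem_image_of_mem _ hs)))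
  -- saturation of `Q`
  have hQsat : ∀ x : PFam 𝒪 C, ϖ • x ∈ Q → x ∈ Q := by
    intro x hx i k hk
    have := hx i k hk
    rw [pfam_smul_def, constHom_mul_coeff] at this
    exact htf i _ this
  have hRsat' : ∀ x : PFam 𝒪 C, ϖ • x ∈ R' → x ∈ R' := by
    intro x hx
    rw [hR', pfam_smul_def] at hx
    exact (hR' x).mpr (hRsat _ hx)
  have hmem : toPFam (𝒪 := 𝒪) w ∈ Λ := by
    refine root_mem_lattice ϖ hϖ hϖ0 hsep𝒪 (coordMap b) (coordMap_injective b)
      (fun x hx => coordMap_dvd b ϖ x hx) R' Λ Q hΛfg inf_le_right (fun x hx => hx.1)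
      ((hΛ 1).mpr ⟨R.one_mem, levelLE_one ω hL⟩)
      (fun x hx => ⟨hRsat' x hx.1, hQsat x hx.2⟩) hQsat hRsat' ?_ n hn (toPFam w) hwL hwR ?_
    · rintro Φ hΦ ⟨y, hy, z, hz⟩
      obtain ⟨l, hl, hlL, r, hr, hlr⟩ := hSAT (ofPFam Φ) hΦ ⟨ofPFam y, hy, ofPFam z, by
        have : ofPFam Φ = ofPFam (y + ϖ • z) := by rw [hz]
        rw [this]
        show ofPFam y + ofPFam (ϖ • z) = _
        rw [pfam_smul_def]⟩
      refine ⟨toPFam l, (hΛ _).mpr ⟨hl, hlL⟩, toPFam r, hr, ?_⟩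
      have : ofPFam Φ = ofPFam (toPFam (𝒪 := 𝒪) l + ϖ • toPFam (𝒪 := 𝒪) r) := by
        show ofPFam Φ = l + ofPFam (ϖ • toPFam (𝒪 := 𝒪) r)
        rw [pfam_smul_def]
        exact hlr
      exact this
    · obtain ⟨z, hz⟩ := hw1
      refine ⟨toPFam z, ?_⟩
      have : ofPFam (toPFam (𝒪 := 𝒪) w - 1) = ofPFam (ϖ • toPFam (𝒪 := 𝒪) z) := by
        rw [pfam_smul_def]
        exact hz
      exact this
  exact ((hΛ _).mp hmem).1

/-- **ROOT3 in coordinates, from peelability** (`helper74.Peelable`, e.g. from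
`helper74.HasPeelersW`). -/
theorem root_of_peelable [Fintype ι] [DecidableEq ι]
    (ϖ : 𝒪) (hϖ : IsLocalRing.maximalIdeal 𝒪 = Ideal.span {ϖ}) (hϖ0 : ϖ ≠ 0)
    (hsep𝒪 : ∀ a : 𝒪, (∀ m : ℕ, ϖ ^ m ∣ a) → a = 0)
    (b : ∀ i, Module.Basis (κ i) 𝒪 (C i))
    (R : Subring ((i : ι) → LaurentSeries (C i)))
    (hconst : ∀ r : 𝒪, constHom 𝒪 C r ∈ R)
    (hRsat : ∀ x, constHom 𝒪 C ϖ * x ∈ R → x ∈ R)
    (ω : ι → ℕ) (hω : ∀ i, 0 < ω i) (L₀ : ℤ)
    (hP : Peelable R (fun i => algebraMap 𝒪 (C i) ϖ) ω L₀)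
    (L : ℤ) (hL : 0 ≤ L) (hL₀ : L₀ ≤ L)
    (hfg : ∃ S : Finset ((i : ι) → LaurentSeries (C i)), (∀ s ∈ S, s ∈ R ∧ LevelLE ω L s) ∧
      ∀ x ∈ R, LevelLE ω L x → ∃ a : ((i : ι) → LaurentSeries (C i)) → 𝒪,
        x = ∑ s ∈ S, constHom 𝒪 C (a s) * s)
    (n : ℕ) (hn : IsUnit (n : 𝒪))
    (w : (i : ι) → LaurentSeries (C i)) (hwL : LevelLE ω L w) (hwR : w ^ n ∈ R)
    (hw1 : ∃ z, w - 1 = constHom 𝒪 C ϖ * z) : w ∈ R :=
  root_of_sat ϖ hϖ hϖ0 hsep𝒪 b R hconst hRsat ω L hL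
    (sat_of_peelable R (fun i => algebraMap 𝒪 (C i) ϖ) (hconst ϖ) ω hω L₀ hP L hL₀)
    hfg n hn w hwL hwR hw1

end Root

end Fermat.Agent.T3.helper27
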