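/-
T3 (S36), helper74, row 914 [T3-SAT3-PEEL]: vocabulary and statements.

Level `N q q` (`q` prime, `q ∤ N`), `A` a valuation subring of `ℚ̄` over `q`,
`I = A.inertiaSubgroupIn ℚ`.

* `dg0, dg1, dg2 : F_N → F_{Nqq}` : the three degeneracy maps `f(τ)`, `f(q τ)`, `f(q² τ)`.
* `ex3 hζ i` (`i : Fin 3`) : the expansions of `F_{Nqq}` at the cusps `∞`, `0`, `1/q`
  (`coe`, `coe ∘ W_{q²}`, `helper87.embMid` at `k = 1`).
* `wt3 q = ![1, 1, q]` : the co-weights (a pole of order `m` at the middle cusp has level `q m`).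
* `IsFixI A f` : `f` is fixed by the inertia group; `IsInt3 A hζ f` : the three expansions of
  `f` are `A`-integral.
* `ExactPoleFix N A m₀` : **[SAT3-X]** integral exact-pole elements at level `N` which are fixed
  by the inertia group.
* `CycloDecompStatement q A ζ` : **[SAT3-K]** an element of `A` fixed by the inertia elements
  fixing `ζ` is an `A^I`-combination of `q - 1` consecutive powers of `ζ`.
* `Sat3Statement N q hq hqN A hζ B L₀` : **(SAT_q)** for the ring `B`.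
-/
import Mathlib
import Fermat.Agent.T3.helper74_PeelAbs
import Fermat.Agent.T3.helper87_EmbMid
import Fermat.Agent.T3.helper48_AtkinLehnerQ
import Fermat.Agent.T2.helper96_Sat

set_option autoImplicit false
set_option synthInstance.maxHeartbeats 400000
set_option linter.unusedSectionVars false
set_option linter.style.haveILetI false

noncomputable section

open HahnSeries IntermediateField AlgebraicCurve ModularCurve
open Fermat.Agent.S18.helper19 Fermat.Agent.P2.helper29 Fermat.Agent.T2.helper36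

namespace Fermat.Agent.T3.helper74

variable (N q : ℕ) [NeZero N] [NeZero q]

/-- `f(τ)` : `F_N → F_{Nqq}` -/
def dg0 : FF N →ₐ[Kb] FF (N * q * q) :=
  (heckeAlphaBar Kb (N * q) q).comp (heckeAlphaBar Kb N q)

/-- `f(q τ)` : `F_N → F_{Nqq}` -/
def dg1 : FF N →ₐ[Kb] FF (N * q * q) :=
  (heckeAlphaBar Kb (N * q) q).comp (heckeBetaBar Kb N q)

/-- `f(q² τ)` : `F_N → F_{Nqq}` -/
def dg2 : FF N →ₐ[Kb] FF (N * q * q) :=
  (heckeBetaBar Kb (N * q) q).comp (heckeBetaBar Kb N q)

variable (hq : q.Prime) (hqN : ¬ q ∣ N)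

/-- the index `1 : Fin q` of the middle cusp `1/q` -/
def midOne : Fin q := ⟨1, hq.one_lt⟩

theorem midOne_ne : ((midOne q hq : Fin q) : ℕ) ≠ 0 := one_ne_zero

/-- the expansions of `F_{Nqq}` at the cusps `∞`, `0`, `1/q` -/
def ex3 {ζ : Kb} (hζ : IsPrimitiveRoot ζ q) (i : Fin 3) : FF (N * q * q) →+* LaurentSeries Kb :=
  if i = 0 then (FF (N * q * q)).val.toRingHom
  else if i = 1 then
    ((FF (N * q * q)).val.toRingHom).comp
      ((Fermat.Agent.T3.helper48.atkinLehnerSq N q hq hqN : FF (N * q * q) →ₐ[Kb]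
        FF (N * q * q)) : FF (N * q * q) →+* FF (N * q * q))
  else ((Fermat.Agent.T3.helper87.embMid N q hq hqN hζ (midOne q hq) (midOne_ne q hq) :
    FF (N * q * q) →ₐ[Kb] LaurentSeries Kb) : FF (N * q * q) →+* LaurentSeries Kb)

/-- the co-weights of the three cusps -/
def wt3 : Fin 3 → ℕ := ![1, 1, q]

variable (A : ValuationSubring Kb)

/-- `f` is fixed by the inertia group of `A` -/
def IsFixI (M : ℕ) (f : FF M) : Prop :=
  ∀ σ ∈ A.inertiaSubgroupIn ℚ, arithmeticRingAut (modularFunctionFieldFull M) σ f = f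

/-- the three expansions of `f` are `A`-integral -/
def IsInt3 {ζ : Kb} (hζ : IsPrimitiveRoot ζ q) (f : FF (N * q * q)) : Prop :=
  ∀ i : Fin 3, ∃ Y : LaurentSeries A, incl A Y = ex3 N q hq hqN hζ i f

/-- **[SAT3-X]** for every `m ≥ m₀` there is an integral series `X = t^(-m) + …` in `L(m ∞)` at
level `N` whose coefficients are fixed by the inertia group of `A`. -/
def ExactPoleFix (m₀ : ℕ) : Prop :=
  ∀ m : ℕ, m₀ ≤ m → ∃ X : LaurentSeries A, InL (FF N) m (incl A X) ∧ X.coeff (-(m : ℤ)) = 1 ∧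
    ∀ σ ∈ A.inertiaSubgroupIn ℚ, ∀ k : ℤ, σ ((X.coeff k : A) : Kb) = ((X.coeff k : A) : Kb)

/-- **[SAT3-K]** an element of `A` which is fixed by every inertia element fixing `ζ` is a
combination of `ζ^e, …, ζ^(e+q-2)` with coefficients in `A^I`, for every `e`. -/
def CycloDecompStatement (ζ : Kb) : Prop :=
  ∀ x : Kb, x ∈ A → (∀ σ ∈ A.inertiaSubgroupIn ℚ, σ ζ = ζ → σ x = x) → ∀ e : ℤ,
    ∃ c : Fin (q - 1) → Kb, (∀ i, c i ∈ A) ∧ (∀ i, ∀ σ ∈ A.inertiaSubgroupIn ℚ, σ (c i) = c i) ∧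
      x = ∑ i : Fin (q - 1), c i * ζ ^ (e + (i : ℕ))

/-- **(SAT_q)** for a ring `B` of functions: an inertia-fixed element of `B` with integral
expansions whose expansions modulo `q` have level `≤ L` is, modulo `q` times such an element, of
level `≤ L`. -/
def Sat3Statement {ζ : Kb} (hζ : IsPrimitiveRoot ζ q) (B : Subalgebra Kb (FF (N * q * q)))
    (L₀ : ℤ) : Prop :=
  ∀ L : ℤ, L₀ ≤ L → ∀ f : FF (N * q * q), f ∈ B → IsFixI A (N * q * q) f →
    IsInt3 N q hq hqN A hζ f →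
    (∀ (i : Fin 3) (k : ℤ), L < -k * (wt3 q i : ℤ) →
      ∃ c : Kb, c ∈ A ∧ (ex3 N q hq hqN hζ i f).coeff k = (q : Kb) * c) →
    ∃ g : FF (N * q * q), g ∈ B ∧ IsFixI A (N * q * q) g ∧ IsInt3 N q hq hqN A hζ g ∧
      ∀ (i : Fin 3) (k : ℤ), L < -k * (wt3 q i : ℤ) →
        (ex3 N q hq hqN hζ i (f - algebraMap Kb (FF (N * q * q)) (q : Kb) * g)).coeff k = 0

end Fermat.Agent.T3.helper74

end
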