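/-
T3 (S36), helper74, row 914 [T3-SAT3-PEEL]: the instance of the weighted peeling at level
`N q q` (shapes in `helper74_Sat3Defs`).

* `exists_decomp_of_dvd` : coefficientwise divisibility above the level `L` gives the
  decomposition `Φ = y + ϖ z` used by `sat_of_peelable`.
* `twistA` : the integral twist `t ↦ ζ t`.
* `ex3_dg0 … ex3_dg2` : the expansions of `f(τ)`, `f(q τ)`, `f(q² τ)` at the three cusps.
* `sat3_of` : **(SAT_q)** from [SAT3-X] (`ExactPoleFix`) and [SAT3-K] (`CycloDecompStatement`).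
-/
import Mathlib
import Fermat.Agent.T3.helper74_Sat3Defs
import Fermat.Agent.T3.helper87_EmbAll
import Fermat.Agent.T3.helper84_K0Basic

set_option autoImplicit false
set_option synthInstance.maxHeartbeats 400000
set_option maxHeartbeats 1000000
set_option linter.unusedSectionVars false
set_option linter.style.haveILetI false

noncomputable section

open HahnSeries IntermediateField AlgebraicCurve ModularCurve
open Fermat.Agent.S18.helper19 Fermat.Agent.P2.helper29 Fermat.Agent.T2.helper36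

namespace Fermat.Agent.T3.helper74

/-! ### Coefficientwise divisibility -/

section Abs

variable {ι : Type*} {C : ι → Type*} [∀ i, CommRing (C i)]

/-- coefficientwise divisibility above the level `L` gives a decomposition `Φ = y + ϖ z` with
`y` of level `≤ L`. -/
theorem exists_decomp_of_dvd (p : (i : ι) → C i) (ω : ι → ℕ) (L : ℤ)
    (Φ : (i : ι) → LaurentSeries (C i))
    (h : ∀ i (k : ℤ), L < -k * (ω i : ℤ) → ∃ c : C i, (Φ i).coeff k = p i * c) :
    ∃ y, LevelLE ω L y ∧ ∃ z, Φ = y + constFam p * z := by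
  classical
  choose c hc using h
  let z : (i : ι) → LaurentSeries (C i) := fun i =>
    { coeff := fun k => if hk : L < -k * (ω i : ℤ) ∧ (Φ i).coeff k ≠ 0 then c i k hk.1 else 0
      isPWO_support' := (Φ i).isPWO_support.mono fun k hk => by
        simp only [Function.mem_support, ne_eq] at hk ⊢
        by_cases hk' : L < -k * (ω i : ℤ) ∧ (Φ i).coeff k ≠ 0
        · exact hk'.2
        · rw [dif_neg hk'] at hk
          exact absurd rfl hk }
  have hz : ∀ i k, (z i).coeff k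
      = if hk : L < -k * (ω i : ℤ) ∧ (Φ i).coeff k ≠ 0 then c i k hk.1 else 0 := fun _ _ => rfl
  refine ⟨Φ - constFam p * z, ?_, z, by ring⟩
  intro i k hk
  have h1 : ((Φ - constFam p * z) i).coeff k = (Φ i).coeff k - ((constFam p * z) i).coeff k :=
    rfl
  rw [h1, constFam_mul_coeff, hz]
  by_cases h0 : (Φ i).coeff k = 0
  · rw [dif_neg (fun h => h.2 h0), h0, mul_zero, sub_zero]
  · rw [dif_pos ⟨hk, h0⟩, ← hc i k hk, sub_self]

end Abs

/-! ### The expansions of the three degeneracy maps -/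

section Exp

variable (N q : ℕ) [NeZero N] [NeZero q] (hq : q.Prime) (hqN : ¬ q ∣ N)

theorem ex3_zero {ζ : Kb} (hζ : IsPrimitiveRoot ζ q) (f : FF (N * q * q)) :
    ex3 N q hq hqN hζ 0 f = (f : LaurentSeries Kb) := by
  rw [ex3, if_pos rfl]
  rfl

theorem ex3_one {ζ : Kb} (hζ : IsPrimitiveRoot ζ q) (f : FF (N * q * q)) :
    ex3 N q hq hqN hζ 1 f
      = ((Fermat.Agent.T3.helper48.atkinLehnerSq N q hq hqN f : FF (N * q * q)) :
          LaurentSeries Kb) := by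
  rw [ex3, if_neg (by decide), if_pos rfl]
  rfl

theorem ex3_two {ζ : Kb} (hζ : IsPrimitiveRoot ζ q) (f : FF (N * q * q)) :
    ex3 N q hq hqN hζ 2 f
      = Fermat.Agent.T3.helper87.embMid N q hq hqN hζ (midOne q hq) (midOne_ne q hq) f := by
  rw [ex3, if_neg (by decide), if_neg (by decide)]
  rfl

theorem coe_dg0 (f : FF N) : ((dg0 N q f : FF (N * q * q)) : LaurentSeries Kb) = f := by
  rw [dg0, AlgHom.comp_apply, coe_heckeAlphaBar, coe_heckeAlphaBar]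

theorem coe_dg1 (f : FF N) :
    ((dg1 N q f : FF (N * q * q)) : LaurentSeries Kb) = qExpand Kb q (f : LaurentSeries Kb) := by
  rw [dg1, AlgHom.comp_apply, coe_heckeAlphaBar, coe_heckeBetaBar]

theorem coe_dg2 (f : FF N) :
    ((dg2 N q f : FF (N * q * q)) : LaurentSeries Kb)
      = qExpand Kb q (qExpand Kb q (f : LaurentSeries Kb)) := by
  rw [dg2, AlgHom.comp_apply, coe_heckeBetaBar, coe_heckeBetaBar]

theorem atkinLehnerSq_dg0 (f : FF N) :
    Fermat.Agent.T3.helper48.atkinLehnerSq N q hq hqN (dg0 N q f) = dg2 N q f :=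
  Fermat.Agent.T3.helper48.atkinLehnerSq_alpha_alpha N q hq hqN f

theorem atkinLehnerSq_dg1 (f : FF N) :
    Fermat.Agent.T3.helper48.atkinLehnerSq N q hq hqN (dg1 N q f) = dg1 N q f :=
  Fermat.Agent.T3.helper48.atkinLehnerSq_alpha_beta N q hq hqN f

theorem atkinLehnerSq_dg2 (f : FF N) :
    Fermat.Agent.T3.helper48.atkinLehnerSq N q hq hqN (dg2 N q f) = dg0 N q f :=
  Fermat.Agent.T3.helper48.atkinLehnerSq_beta_beta N q hq hqN f

theorem embMid_dg0 {ζ : Kb} (hζ : IsPrimitiveRoot ζ q) (k : Fin q) (hk : (k : ℕ) ≠ 0)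
    (f : FF N) :
    Fermat.Agent.T3.helper87.embMid N q hq hqN hζ k hk (dg0 N q f) = (f : LaurentSeries Kb) := by
  rw [dg0, AlgHom.comp_apply, Fermat.Agent.T3.helper87.embMid_alpha, coe_heckeAlphaBar]

theorem embMid_dg1 {ζ : Kb} (hζ : IsPrimitiveRoot ζ q) (k : Fin q) (hk : (k : ℕ) ≠ 0)
    (f : FF N) :
    Fermat.Agent.T3.helper87.embMid N q hq hqN hζ k hk (dg1 N q f)
      = qExpand Kb q (f : LaurentSeries Kb) := by
  rw [dg1, AlgHom.comp_apply, Fermat.Agent.T3.helper87.embMid_alpha, coe_heckeBetaBar]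

theorem embMid_dg2 {ζ : Kb} (hζ : IsPrimitiveRoot ζ q) (k : Fin q) (hk : (k : ℕ) ≠ 0)
    (f : FF N) :
    Fermat.Agent.T3.helper87.embMid N q hq hqN hζ k hk (dg2 N q f)
      = Fermat.Agent.P2.helper93.twistL (ζ ^ (k : ℕ)) (f : LaurentSeries Kb) := by
  rw [dg2, AlgHom.comp_apply, Fermat.Agent.T3.helper87.embMid_beta,
    atkinLehner_heckeBetaBar, coe_heckeAlphaBar]

theorem galF_dg0 (σ : Kb ≃ₐ[ℚ] Kb) (f : FF N) :
    arithmeticRingAut (modularFunctionFieldFull (N * q * q)) σ (dg0 N q f)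
      = dg0 N q (arithmeticRingAut (modularFunctionFieldFull N) σ f) := by
  rw [dg0, AlgHom.comp_apply, AlgHom.comp_apply,
    Fermat.Agent.T3.helper87.arithmeticRingAut_heckeAlphaBar,
    Fermat.Agent.T3.helper87.arithmeticRingAut_heckeAlphaBar]

theorem galF_dg1 (σ : Kb ≃ₐ[ℚ] Kb) (f : FF N) :
    arithmeticRingAut (modularFunctionFieldFull (N * q * q)) σ (dg1 N q f)
      = dg1 N q (arithmeticRingAut (modularFunctionFieldFull N) σ f) := by
  rw [dg1, AlgHom.comp_apply, AlgHom.comp_apply,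
    Fermat.Agent.T3.helper87.arithmeticRingAut_heckeAlphaBar,
    Fermat.Agent.T3.helper87.arithmeticRingAut_heckeBetaBar]

theorem galF_dg2 (σ : Kb ≃ₐ[ℚ] Kb) (f : FF N) :
    arithmeticRingAut (modularFunctionFieldFull (N * q * q)) σ (dg2 N q f)
      = dg2 N q (arithmeticRingAut (modularFunctionFieldFull N) σ f) := by
  rw [dg2, AlgHom.comp_apply, AlgHom.comp_apply,
    Fermat.Agent.T3.helper87.arithmeticRingAut_heckeBetaBar,
    Fermat.Agent.T3.helper87.arithmeticRingAut_heckeBetaBar]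

end Exp

/-! ### The integral twist -/

section Twist

open Fermat.Agent.T2.helper96

variable (A : ValuationSubring Kb)

/-- the integral twist `t ↦ ζ t` for `ζ` of valuation one -/
def twistA (ζ : Kb) (hζ : A.valuation ζ = 1) (X : LaurentSeries A) : LaurentSeries A where
  coeff k := ⟨ζ ^ k * ((X.coeff k : A) : Kb),
    A.mul_mem _ _ ((A.valuation_le_one_iff _).mp (by rw [map_zpow₀, hζ, one_zpow]))
      (X.coeff k).2⟩
  isPWO_support' := X.isPWO_support.mono fun k hk => by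
    simp only [Function.mem_support, ne_eq] at hk ⊢
    intro h
    apply hk
    apply Subtype.ext
    show ζ ^ k * ((X.coeff k : A) : Kb) = 0
    rw [h]
    simp

theorem twistA_coeff (ζ : Kb) (hζ : A.valuation ζ = 1) (X : LaurentSeries A) (k : ℤ) :
    (((twistA A ζ hζ X).coeff k : A) : Kb) = ζ ^ k * ((X.coeff k : A) : Kb) := rfl

theorem incl_twistA (ζ : Kb) (hζ : A.valuation ζ = 1) (X : LaurentSeries A) :
    incl A (twistA A ζ hζ X) = Fermat.Agent.P2.helper93.twistL ζ (incl A X) := by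
  ext k
  rw [coeffMap_coeff, Fermat.Agent.P2.helper93.twistL_coeff, coeffMap_coeff]
  rfl

variable {A}

/-- the leading term of a product with a monic series -/
theorem coeff_mul_of_isMonicAt {X Y : LaurentSeries A} {m n : ℤ} (hX : IsMonicAt X m)
    (hY0 : Y.coeff (-n) ≠ 0) (hY : ∀ k : ℤ, k < -n → Y.coeff k = 0) :
    (X * Y).coeff (-(m + n)) = Y.coeff (-n) ∧ ∀ k : ℤ, k < -(m + n) → (X * Y).coeff k = 0 := by
  have hYo : Y.order = -n := Fermat.Agent.S28.helper81.order_eq_of_coeff Y (-n) hY0 hY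
  have hYne : Y ≠ 0 := by
    intro h0
    rw [h0, HahnSeries.coeff_zero] at hY0
    exact hY0 rfl
  have hYl : Y.leadingCoeff = Y.coeff (-n) := by
    rw [HahnSeries.leadingCoeff_eq, hYo]
  refine ⟨?_, fun k hk => ?_⟩
  · have := HahnSeries.coeff_mul_order_add_order X Y
    rw [hX.order_eq, hYo, hX.leadingCoeff_eq, hYl, one_mul] at this
    rw [neg_add]
    exact this
  · apply HahnSeries.coeff_eq_zero_of_lt_order
    rw [HahnSeries.order_mul hX.ne_zero hYne, hX.order_eq, hYo]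
    omega

end Twist

/-! ### The ring of triples of expansions and the products `f_a(τ) f_b(q τ) f_c(q² τ)` -/

section Prod

open Fermat.Agent.T2.helper96

variable (N q : ℕ) [NeZero N] [NeZero q] (hq : q.Prime) (hqN : ¬ q ∣ N)
variable (A : ValuationSubring Kb)

/-- all coefficients of the integral series are fixed by the inertia group -/
def CoeffFix (X : LaurentSeries A) : Prop :=
  ∀ σ ∈ A.inertiaSubgroupIn ℚ, ∀ k : ℤ, σ ((X.coeff k : A) : Kb) = ((X.coeff k : A) : Kb)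

theorem isFixI_of_coeffFix (M : ℕ) [NeZero M] {X : LaurentSeries A} (hX : incl A X ∈ FF M)
    (h : CoeffFix A X) : IsFixI A M ⟨incl A X, hX⟩ := by
  intro σ hσ
  apply Subtype.ext
  rw [coe_arithmeticRingAut_apply]
  ext k
  rw [coeffMap_coeff, coeffMap_coeff]
  exact h σ hσ k

/-- the ring of the triples of integral expansions of the inertia-fixed elements of `B` -/
def ring3 {ζ : Kb} (hζ : IsPrimitiveRoot ζ q) (B : Subalgebra Kb (FF (N * q * q))) :
    Subring (Fin 3 → LaurentSeries A) where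
  carrier := {Φ | ∃ f : FF (N * q * q), f ∈ B ∧ IsFixI A (N * q * q) f ∧
    ∀ i, incl A (Φ i) = ex3 N q hq hqN hζ i f}
  mul_mem' := by
    rintro Φ Ψ ⟨f, hf, hfI, hfΦ⟩ ⟨g, hg, hgI, hgΨ⟩
    refine ⟨f * g, B.mul_mem hf hg, fun σ hσ => by rw [map_mul, hfI σ hσ, hgI σ hσ],
      fun i => ?_⟩
    rw [Pi.mul_apply, map_mul, map_mul, hfΦ, hgΨ]
  one_mem' := ⟨1, B.one_mem, fun σ _ => map_one _, fun i => by
    rw [Pi.one_apply, map_one, map_one]⟩
  add_mem' := by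
    rintro Φ Ψ ⟨f, hf, hfI, hfΦ⟩ ⟨g, hg, hgI, hgΨ⟩
    refine ⟨f + g, B.add_mem hf hg, fun σ hσ => by rw [map_add, hfI σ hσ, hgI σ hσ],
      fun i => ?_⟩
    rw [Pi.add_apply, map_add, map_add, hfΦ, hgΨ]
  zero_mem' := ⟨0, B.zero_mem, fun σ _ => map_zero _, fun i => by
    rw [Pi.zero_apply, map_zero, map_zero]⟩
  neg_mem' := by
    rintro Φ ⟨f, hf, hfI, hfΦ⟩
    refine ⟨-f, B.neg_mem hf, fun σ hσ => by rw [map_neg, hfI σ hσ], fun i => ?_⟩
    rw [Pi.neg_apply, map_neg, map_neg, hfΦ]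

theorem mem_ring3 {ζ : Kb} (hζ : IsPrimitiveRoot ζ q) (B : Subalgebra Kb (FF (N * q * q)))
    (Φ : Fin 3 → LaurentSeries A) :
    Φ ∈ ring3 N q hq hqN A hζ B ↔ ∃ f : FF (N * q * q), f ∈ B ∧ IsFixI A (N * q * q) f ∧
      ∀ i, incl A (Φ i) = ex3 N q hq hqN hζ i f := Iff.rfl

theorem incl_C3 (a : A) :
    incl A (HahnSeries.C a) = algebraMap Kb (LaurentSeries Kb) (a : Kb) := by
  rw [HahnSeries.C_apply, coeffMap_single, algebraMap_laurentSeries_eq_single]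
  rfl

/-- inertia-fixed integral constants -/
theorem const_mem_ring3 {ζ : Kb} (hζ : IsPrimitiveRoot ζ q) (B : Subalgebra Kb (FF (N * q * q)))
    (c : A) (hc : ∀ σ ∈ A.inertiaSubgroupIn ℚ, σ (c : Kb) = (c : Kb)) :
    (fun _ => HahnSeries.C c : Fin 3 → LaurentSeries A) ∈ ring3 N q hq hqN A hζ B := by
  refine ⟨algebraMap Kb (FF (N * q * q)) (c : Kb), B.algebraMap_mem _, fun σ hσ => ?_,
    fun i => ?_⟩
  · rw [arithmeticRingAut_algebraMap, hc σ hσ]
  · rw [incl_C3]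
    fin_cases i
    · refine Eq.trans ?_ (ex3_zero N q hq hqN hζ _).symm
      rfl
    · refine Eq.trans ?_ (ex3_one N q hq hqN hζ _).symm
      rw [AlgEquiv.commutes]
      rfl
    · refine Eq.trans ?_ (ex3_two N q hq hqN hζ _).symm
      rw [AlgHom.commutes]

theorem valuation_zeta_eq_one {ζ : Kb} (hζ : IsPrimitiveRoot ζ q) : A.valuation ζ = 1 :=
  Fermat.Agent.T3.helper84.k0_valuation_eq_one_of_pow A (NeZero.ne q)
    (by rw [hζ.pow_eq_one, map_one])

/-- the triple of expansions of `f_a(τ) f_b(q τ) f_c(q² τ)` -/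
theorem prod3_mem {ζ : Kb} (hζ : IsPrimitiveRoot ζ q) (B : Subalgebra Kb (FF (N * q * q)))
    (hB : ∀ (m : ℕ) (f : FF N), InL (FF N) m (f : LaurentSeries Kb) →
      dg0 N q f ∈ B ∧ dg1 N q f ∈ B ∧ dg2 N q f ∈ B)
    {a b c : ℕ} {Xa Xb Xc : LaurentSeries A}
    (hXa : InL (FF N) a (incl A Xa)) (hXa1 : Xa.coeff (-(a : ℤ)) = 1) (hXaI : CoeffFix A Xa)
    (hXb : InL (FF N) b (incl A Xb)) (hXb1 : Xb.coeff (-(b : ℤ)) = 1) (hXbI : CoeffFix A Xb)
    (hXc : InL (FF N) c (incl A Xc)) (hXc1 : Xc.coeff (-(c : ℤ)) = 1) (hXcI : CoeffFix A Xc) :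
    ∃ Φ ∈ ring3 N q hq hqN A hζ B,
      IsMonicAt (Φ 0) ((a : ℤ) + q * b + q * (q * c)) ∧
      IsMonicAt (Φ 1) ((q : ℤ) * (q * a) + q * b + c) ∧
      (((Φ 2).coeff (-((a : ℤ) + q * b + c)) : A) : Kb) = ζ ^ (-(c : ℤ)) ∧
      ∀ k : ℤ, k < -((a : ℤ) + q * b + c) → (Φ 2).coeff k = 0 := by
  have hma : IsMonicAt Xa a := isMonicAt_of_inL hXa hXa1
  have hmb : IsMonicAt Xb b := isMonicAt_of_inL hXb hXb1
  have hmc : IsMonicAt Xc c := isMonicAt_of_inL hXc hXc1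
  have hζv : A.valuation ζ = 1 := valuation_zeta_eq_one q A hζ
  set fa : FF N := ⟨incl A Xa, hXa.1⟩ with hfa
  set fb : FF N := ⟨incl A Xb, hXb.1⟩ with hfb
  set fc : FF N := ⟨incl A Xc, hXc.1⟩ with hfc
  have hIa : IsFixI A N fa := isFixI_of_coeffFix A N hXa.1 hXaI
  have hIb : IsFixI A N fb := isFixI_of_coeffFix A N hXb.1 hXbI
  have hIc : IsFixI A N fc := isFixI_of_coeffFix A N hXc.1 hXcI
  have hP : IsMonicAt (Xa * qExpand A q Xb) ((a : ℤ) + q * b) := hma.mul (hmb.qExpand q)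
  -- the twisted factor
  have hT0 : (twistA A ζ hζv Xc).coeff (-(c : ℤ)) ≠ 0 := by
    intro h0
    have h1 := twistA_coeff A ζ hζv Xc (-(c : ℤ))
    rw [h0, hXc1] at h1
    have h2 : ζ ^ (-(c : ℤ)) ≠ 0 := zpow_ne_zero _ (hζ.ne_zero (NeZero.ne q))
    apply h2
    have h3 : ((0 : A) : Kb) = ζ ^ (-(c : ℤ)) * ((1 : A) : Kb) := h1
    rw [ZeroMemClass.coe_zero, OneMemClass.coe_one, mul_one] at h3
    exact h3.symm
  have hT1 : ∀ k : ℤ, k < -(c : ℤ) → (twistA A ζ hζv Xc).coeff k = 0 := by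
    intro k hk
    apply Subtype.ext
    rw [twistA_coeff, hmc.2 k hk]
    simp
  obtain ⟨hE2a, hE2b⟩ := coeff_mul_of_isMonicAt hP hT0 hT1
  refine ⟨![Xa * qExpand A q Xb * qExpand A q (qExpand A q Xc),
      qExpand A q (qExpand A q Xa) * qExpand A q Xb * Xc,
      Xa * qExpand A q Xb * twistA A ζ hζv Xc], ⟨dg0 N q fa * dg1 N q fb * dg2 N q fc,
      B.mul_mem (B.mul_mem (hB a fa hXa).1 (hB b fb hXb).2.1) (hB c fc hXc).2.2, ?_, ?_⟩,
    ?_, ?_, ?_, ?_⟩
  · intro σ hσ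
    rw [map_mul, map_mul, galF_dg0, galF_dg1, galF_dg2, hIa σ hσ, hIb σ hσ, hIc σ hσ]
  · intro i
    fin_cases i
    · refine Eq.trans ?_ (ex3_zero N q hq hqN hζ _).symm
      show incl A (Xa * qExpand A q Xb * qExpand A q (qExpand A q Xc))
        = ((dg0 N q fa : FF (N * q * q)) : LaurentSeries Kb) * ((dg1 N q fb : FF (N * q * q)) :
          LaurentSeries Kb) * ((dg2 N q fc : FF (N * q * q)) : LaurentSeries Kb)
      rw [coe_dg0, coe_dg1, coe_dg2, map_mul, map_mul, incl_qExpand, incl_qExpand,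
        incl_qExpand]
    · refine Eq.trans ?_ (ex3_one N q hq hqN hζ _).symm
      rw [map_mul, map_mul, atkinLehnerSq_dg0, atkinLehnerSq_dg1, atkinLehnerSq_dg2]
      show incl A (qExpand A q (qExpand A q Xa) * qExpand A q Xb * Xc)
        = ((dg2 N q fa : FF (N * q * q)) : LaurentSeries Kb) * ((dg1 N q fb : FF (N * q * q)) :
          LaurentSeries Kb) * ((dg0 N q fc : FF (N * q * q)) : LaurentSeries Kb)
      rw [coe_dg0, coe_dg1, coe_dg2, map_mul, map_mul, incl_qExpand, incl_qExpand,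
        incl_qExpand]
    · refine Eq.trans ?_ (ex3_two N q hq hqN hζ _).symm
      rw [map_mul, map_mul, embMid_dg0, embMid_dg1, embMid_dg2]
      show incl A (Xa * qExpand A q Xb * twistA A ζ hζv Xc) = _
      rw [map_mul, map_mul, incl_qExpand, incl_twistA]
      have : ζ ^ ((midOne q hq : Fin q) : ℕ) = ζ := pow_one ζ
      rw [this]
  · exact hP.mul ((hmc.qExpand q).qExpand q)
  · exact (((hma.qExpand q).qExpand q).mul (hmb.qExpand q)).mul hmc
  · show ((((Xa * qExpand A q Xb * twistA A ζ hζv Xc).coeff (-((a : ℤ) + q * b + c)) : A)) : Kb)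
      = ζ ^ (-(c : ℤ))
    rw [hE2a, twistA_coeff, hXc1, OneMemClass.coe_one, mul_one]
  · exact hE2b

end Prod

/-! ### The peelers at the three cusps -/

section Peelers

open Fermat.Agent.T2.helper96

variable (N q : ℕ) [NeZero N] [NeZero q] (hq : q.Prime) (hqN : ¬ q ∣ N)
variable (A : ValuationSubring Kb)

/-- the threshold of the peeling -/
def lev3 (m₀ : ℕ) : ℕ := (q * q + 1) * ((q + 1) * m₀ + q * q + 1)

/-- arithmetic of the dominant cusp: `M = r + m₀ + q m₀ + q² c`, `r < q²`. -/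
theorem exists_split_sq {m₀ M : ℕ} (hq0 : 0 < q) (hM : lev3 q m₀ < M) :
    ∃ a c : ℕ, m₀ ≤ a ∧ a + q * m₀ + 1 ≤ c ∧ a + q * m₀ + q * (q * c) = M := by
  have hqq : 0 < q * q := Nat.mul_pos hq0 hq0
  have hle : (q + 1) * m₀ ≤ M := by
    unfold lev3 at hM
    nlinarith
  have key := Nat.mod_add_div (M - (q + 1) * m₀) (q * q)
  have hr : (M - (q + 1) * m₀) % (q * q) < q * q := Nat.mod_lt _ hqq
  have hc : (q + 1) * m₀ + q * q + 1 ≤ (M - (q + 1) * m₀) / (q * q) := by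
    rw [Nat.le_div_iff_mul_le hqq]
    unfold lev3 at hM
    have : ((q + 1) * m₀ + q * q + 1) * (q * q) + (q + 1) * m₀ ≤ M := by nlinarith
    omega
  generalize (M - (q + 1) * m₀) % (q * q) = r at key hr
  generalize (M - (q + 1) * m₀) / (q * q) = c at key hc
  refine ⟨m₀ + r, c, by omega, ?_, ?_⟩
  · have : (q + 1) * m₀ = q * m₀ + m₀ := by ring
    omega
  · have h1 : q * (q * c) = q * q * c := by ring
    have h2 : (q + 1) * m₀ = q * m₀ + m₀ := by ring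
    omega

/-- arithmetic of the middle cusp: `M = a + q b + c`, `b` dominant. -/
theorem exists_split_mid {m₀ M c : ℕ} (hq2 : 2 ≤ q) (hM : lev3 q m₀ < M * q) (hc : c ≤ m₀ + q) :
    ∃ a b : ℕ, m₀ ≤ a ∧ a + 1 ≤ b ∧ c + 1 ≤ b ∧ m₀ ≤ b ∧ a + q * b + c = M := by
  have hq0 : 0 < q := by omega
  have hMge : (q + 2) * m₀ + q * q + 2 * q ≤ M := by
    by_contra hcon
    rw [not_le] at hcon
    have h1 : M ≤ (q + 2) * m₀ + q * q + 2 * q := by omega
    have h2 : M * q ≤ ((q + 2) * m₀ + q * q + 2 * q) * q := Nat.mul_le_mul_right q h1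
    unfold lev3 at hM
    have h3 : 0 ≤ m₀ * q := Nat.zero_le _
    have h4 : 2 * q ≤ q * q := Nat.mul_le_mul_right q hq2
    have h5 : 2 * (q * q) ≤ q * q * q := by nlinarith
    have h6 : 2 * (q * q * q) ≤ q * q * q * q := by nlinarith
    nlinarith [Nat.zero_le (m₀ * q * q), Nat.zero_le (m₀ * q * q * q)]
  have hle : m₀ + c ≤ M := by nlinarith
  have key := Nat.mod_add_div (M - (m₀ + c)) q
  have hr : (M - (m₀ + c)) % q < q := Nat.mod_lt _ hq0
  have hb : m₀ + q + 1 ≤ (M - (m₀ + c)) / q := by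
    rw [Nat.le_div_iff_mul_le hq0]
    have : (m₀ + q + 1) * q + (m₀ + c) ≤ M := by nlinarith
    omega
  generalize (M - (m₀ + c)) % q = r at key hr
  generalize (M - (m₀ + c)) / q = b at key hb
  exact ⟨m₀ + r, b, by omega, by omega, by omega, by omega, by omega⟩

variable {N q hq hqN A}

theorem peeler_inf {ζ : Kb} (hζ : IsPrimitiveRoot ζ q) (B : Subalgebra Kb (FF (N * q * q)))
    (hB : ∀ (m : ℕ) (f : FF N), InL (FF N) m (f : LaurentSeries Kb) →
      dg0 N q f ∈ B ∧ dg1 N q f ∈ B ∧ dg2 N q f ∈ B)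
    {m₀ : ℕ} (hX : ExactPoleFix N A m₀) {M : ℕ} (hM : lev3 q m₀ < M) :
    ∃ Φ ∈ ring3 N q hq hqN A hζ B, IsMonicAt (Φ 0) M ∧
      (∀ k : ℤ, (M : ℤ) ≤ -k → (Φ 1).coeff k = 0) ∧
      (∀ k : ℤ, (M : ℤ) ≤ -k * q → (Φ 2).coeff k = 0) := by
  obtain ⟨a, c, ha, hc, hsum⟩ := exists_split_sq q hq.pos hM
  obtain ⟨Xa, hXa, hXa1, hXaI⟩ := hX a ha
  obtain ⟨Xb, hXb, hXb1, hXbI⟩ := hX m₀ le_rfl
  obtain ⟨Xc, hXc, hXc1, hXcI⟩ := hX c (by omega)
  obtain ⟨Φ, hΦ, h0, h1, -, h2⟩ := prod3_mem N q hq hqN A hζ B hB hXa hXa1 hXaI hXb hXb1 hXbI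
    hXc hXc1 hXcI
  have e : (a : ℤ) + q * m₀ + q * (q * c) = M := by exact_mod_cast hsum
  have hq2 : (2 : ℤ) ≤ q := by exact_mod_cast hq.two_le
  have hca : (a : ℤ) + q * m₀ + 1 ≤ c := by exact_mod_cast hc
  have ha0 : (0 : ℤ) ≤ a := Int.natCast_nonneg a
  have hm0 : (0 : ℤ) ≤ (q : ℤ) * m₀ := by positivity
  have hp1 : (0 : ℤ) < ((q : ℤ) * q - 1) * (c - a) := mul_pos (by nlinarith) (by linarith)
  have hqc : (c : ℤ) ≤ q * c := by nlinarith
  have hp2 : (0 : ℤ) < ((q : ℤ) - 1) * (q * c - a - q * m₀) :=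
    mul_pos (by linarith) (by linarith)
  refine ⟨Φ, hΦ, by rw [← e]; exact h0, fun k hk => ?_, fun k hk => ?_⟩
  · apply h1.2
    linarith
  · apply h2
    by_contra hcon
    rw [not_lt] at hcon
    have h3 : -k * (q : ℤ) ≤ ((a : ℤ) + q * m₀ + c) * q :=
      mul_le_mul_of_nonneg_right (by linarith) (by linarith)
    linarith

theorem peeler_zero {ζ : Kb} (hζ : IsPrimitiveRoot ζ q) (B : Subalgebra Kb (FF (N * q * q)))
    (hB : ∀ (m : ℕ) (f : FF N), InL (FF N) m (f : LaurentSeries Kb) →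
      dg0 N q f ∈ B ∧ dg1 N q f ∈ B ∧ dg2 N q f ∈ B)
    {m₀ : ℕ} (hX : ExactPoleFix N A m₀) {M : ℕ} (hM : lev3 q m₀ < M) :
    ∃ Φ ∈ ring3 N q hq hqN A hζ B, IsMonicAt (Φ 1) M ∧
      (∀ k : ℤ, (M : ℤ) ≤ -k → (Φ 0).coeff k = 0) ∧
      (∀ k : ℤ, (M : ℤ) ≤ -k * q → (Φ 2).coeff k = 0) := by
  obtain ⟨a, c, ha, hc, hsum⟩ := exists_split_sq q hq.pos hM
  obtain ⟨Xa, hXa, hXa1, hXaI⟩ := hX a ha
  obtain ⟨Xb, hXb, hXb1, hXbI⟩ := hX m₀ le_rfl
  obtain ⟨Xc, hXc, hXc1, hXcI⟩ := hX c (by omega)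
  obtain ⟨Φ, hΦ, h0, h1, -, h2⟩ := prod3_mem N q hq hqN A hζ B hB hXc hXc1 hXcI hXb hXb1 hXbI
    hXa hXa1 hXaI
  have e : (q : ℤ) * (q * c) + q * m₀ + a = M := by
    have : (a : ℤ) + q * m₀ + q * (q * c) = M := by exact_mod_cast hsum
    linarith
  have hq2 : (2 : ℤ) ≤ q := by exact_mod_cast hq.two_le
  have hca : (a : ℤ) + q * m₀ + 1 ≤ c := by exact_mod_cast hc
  have ha0 : (0 : ℤ) ≤ a := Int.natCast_nonneg a
  have hm0 : (0 : ℤ) ≤ (q : ℤ) * m₀ := by positivity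
  have hp1 : (0 : ℤ) < ((q : ℤ) * q - 1) * (c - a) := mul_pos (by nlinarith) (by linarith)
  have hqc : (c : ℤ) ≤ q * c := by nlinarith
  have hp2 : (0 : ℤ) < ((q : ℤ) - 1) * (q * c - a - q * m₀) :=
    mul_pos (by linarith) (by linarith)
  refine ⟨Φ, hΦ, by rw [← e]; exact h1, fun k hk => ?_, fun k hk => ?_⟩
  · apply h0.2
    linarith
  · apply h2
    by_contra hcon
    rw [not_lt] at hcon
    have h3 : -k * (q : ℤ) ≤ ((c : ℤ) + q * m₀ + a) * q :=
      mul_le_mul_of_nonneg_right (by linarith) (by linarith)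
    linarith

theorem peeler_mid {ζ : Kb} (hζ : IsPrimitiveRoot ζ q) (B : Subalgebra Kb (FF (N * q * q)))
    (hB : ∀ (m : ℕ) (f : FF N), InL (FF N) m (f : LaurentSeries Kb) →
      dg0 N q f ∈ B ∧ dg1 N q f ∈ B ∧ dg2 N q f ∈ B)
    {m₀ : ℕ} (hX : ExactPoleFix N A m₀) {M : ℕ} (hM : lev3 q m₀ < M * q) {c : ℕ}
    (hc : m₀ ≤ c) (hc' : c ≤ m₀ + q) :
    ∃ Φ ∈ ring3 N q hq hqN A hζ B,
      (((Φ 2).coeff (-(M : ℤ)) : A) : Kb) = ζ ^ (-(c : ℤ)) ∧
      (∀ k : ℤ, k < -(M : ℤ) → (Φ 2).coeff k = 0) ∧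
      (∀ k : ℤ, (M : ℤ) * q ≤ -k → (Φ 0).coeff k = 0) ∧
      (∀ k : ℤ, (M : ℤ) * q ≤ -k → (Φ 1).coeff k = 0) := by
  obtain ⟨a, b, ha, hab, hcb, hb, hsum⟩ := exists_split_mid q hq.two_le hM hc'
  obtain ⟨Xa, hXa, hXa1, hXaI⟩ := hX a ha
  obtain ⟨Xb, hXb, hXb1, hXbI⟩ := hX b hb
  obtain ⟨Xc, hXc, hXc1, hXcI⟩ := hX c hc
  obtain ⟨Φ, hΦ, h0, h1, h2, h3⟩ := prod3_mem N q hq hqN A hζ B hB hXa hXa1 hXaI hXb hXb1 hXbI
    hXc hXc1 hXcI
  have e : (a : ℤ) + q * b + c = M := by exact_mod_cast hsum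
  have hq2 : (2 : ℤ) ≤ q := by exact_mod_cast hq.two_le
  have hab' : (a : ℤ) + 1 ≤ b := by exact_mod_cast hab
  have hcb' : (c : ℤ) + 1 ≤ b := by exact_mod_cast hcb
  have ha0 : (0 : ℤ) ≤ a := Int.natCast_nonneg a
  have hc0 : (0 : ℤ) ≤ c := Int.natCast_nonneg c
  have hqb1 : (q : ℤ) * (c + 1) ≤ q * b := mul_le_mul_of_nonneg_left hcb' (by linarith)
  have hqb2 : (q : ℤ) * (a + 1) ≤ q * b := mul_le_mul_of_nonneg_left hab' (by linarith)
  have hp1 : (0 : ℤ) < ((q : ℤ) - 1) * (a + q * b - q * c) :=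
    mul_pos (by linarith) (by linarith)
  have hp2 : (0 : ℤ) < ((q : ℤ) - 1) * (q * b + c - q * a) :=
    mul_pos (by linarith) (by linarith)
  rw [e] at h2 h3
  refine ⟨Φ, hΦ, h2, h3, fun k hk => ?_, fun k hk => ?_⟩
  · apply h0.2
    rw [← e] at hk
    linarith
  · apply h1.2
    rw [← e] at hk
    linarith

/-! ### Inertia acts trivially on the coefficients -/

theorem coeff_fix_zero {ζ : Kb} (hζ : IsPrimitiveRoot ζ q) (B : Subalgebra Kb (FF (N * q * q)))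
    {Φ : Fin 3 → LaurentSeries A} (hΦ : Φ ∈ ring3 N q hq hqN A hζ B)
    (σ : Kb ≃ₐ[ℚ] Kb) (hσ : σ ∈ A.inertiaSubgroupIn ℚ) (k : ℤ) :
    σ (((Φ 0).coeff k : A) : Kb) = (((Φ 0).coeff k : A) : Kb) := by
  obtain ⟨f, -, hfI, hf⟩ := hΦ
  have h0 := hf 0
  rw [ex3_zero] at h0
  have h1 : coeffMap (σ : Kb →+* Kb) (incl A (Φ 0)) = incl A (Φ 0) := by
    rw [h0, ← coe_arithmeticRingAut_apply, hfI σ hσ]
  have h2 := congrArg (fun x => x.coeff k) h1
  simp only [coeffMap_coeff] at h2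
  exact h2

theorem coeff_fix_one {ζ : Kb} (hζ : IsPrimitiveRoot ζ q) (B : Subalgebra Kb (FF (N * q * q)))
    {Φ : Fin 3 → LaurentSeries A} (hΦ : Φ ∈ ring3 N q hq hqN A hζ B)
    (σ : Kb ≃ₐ[ℚ] Kb) (hσ : σ ∈ A.inertiaSubgroupIn ℚ) (k : ℤ) :
    σ (((Φ 1).coeff k : A) : Kb) = (((Φ 1).coeff k : A) : Kb) := by
  obtain ⟨f, -, hfI, hf⟩ := hΦ
  have h0 := hf 1
  rw [ex3_one] at h0
  have h1 : coeffMap (σ : Kb →+* Kb) (incl A (Φ 1)) = incl A (Φ 1) := by
    rw [h0, ← coe_arithmeticRingAut_apply,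
      ← Fermat.Agent.T3.helper48.atkinLehnerSq_arithmeticRingAut, hfI σ hσ]
  have h2 := congrArg (fun x => x.coeff k) h1
  simp only [coeffMap_coeff] at h2
  exact h2

theorem coeff_fix_two {ζ : Kb} (hζ : IsPrimitiveRoot ζ q) (B : Subalgebra Kb (FF (N * q * q)))
    {Φ : Fin 3 → LaurentSeries A} (hΦ : Φ ∈ ring3 N q hq hqN A hζ B)
    (σ : Kb ≃ₐ[ℚ] Kb) (hσ : σ ∈ A.inertiaSubgroupIn ℚ) (hσζ : σ ζ = ζ) (k : ℤ) :
    σ (((Φ 2).coeff k : A) : Kb) = (((Φ 2).coeff k : A) : Kb) := by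
  obtain ⟨f, -, hfI, hf⟩ := hΦ
  have h0 := hf 2
  rw [ex3_two] at h0
  have h1 : coeffMap (σ : Kb →+* Kb) (incl A (Φ 2)) = incl A (Φ 2) := by
    rw [h0, Fermat.Agent.T3.helper87.coeffMap_embMid, hfI σ hσ]
    exact congrArg (fun E : FF (N * q * q) →ₐ[Kb] LaurentSeries Kb => E f)
      (Fermat.Agent.T3.helper87.embMid_congr hζ (hζ.map_of_injective (f := σ) σ.injective)
        (midOne q hq) (midOne q hq) (midOne_ne q hq) (midOne_ne q hq) (by rw [hσζ]))
  have h2 := congrArg (fun x => x.coeff k) h1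
  simp only [coeffMap_coeff] at h2
  exact h2

/-! ### Peelability -/

theorem fin3_cases (i : Fin 3) : i = 0 ∨ i = 1 ∨ i = 2 := by
  fin_cases i
  · exact Or.inl rfl
  · exact Or.inr (Or.inl rfl)
  · exact Or.inr (Or.inr rfl)

theorem wt3_zero : wt3 q 0 = 1 := rfl

theorem wt3_one : wt3 q 1 = 1 := rfl

theorem wt3_two : wt3 q 2 = q := rfl

theorem peelable3 {ζ : Kb} (hζ : IsPrimitiveRoot ζ q) (B : Subalgebra Kb (FF (N * q * q)))
    (hB : ∀ (m : ℕ) (f : FF N), InL (FF N) m (f : LaurentSeries Kb) →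
      dg0 N q f ∈ B ∧ dg1 N q f ∈ B ∧ dg2 N q f ∈ B)
    {m₀ : ℕ} (hX : ExactPoleFix N A m₀) (hK : CycloDecompStatement q A ζ) :
    Peelable (C := fun _ : Fin 3 => ↥A) (ring3 N q hq hqN A hζ B) (fun _ => ((q : ℕ) : A))
      (wt3 q) (lev3 q m₀ : ℤ) := by
  intro i m hm Φ hΦ _ c hc
  have hq0 : ((q : ℕ) : Kb) ≠ 0 := Nat.cast_ne_zero.mpr hq.ne_zero
  have hfix : ∀ σ : Kb ≃ₐ[ℚ] Kb, σ (((Φ i).coeff (-m) : A) : Kb) = (((Φ i).coeff (-m) : A) : Kb) →
      σ ((c : A) : Kb) = ((c : A) : Kb) := by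
    intro σ h
    have hc' : (((Φ i).coeff (-m) : A) : Kb) = ((q : ℕ) : Kb) * ((c : A) : Kb) := by
      rw [hc]
      rfl
    rw [hc', map_mul, map_natCast] at h
    exact mul_left_cancel₀ hq0 h
  have hqpos : (0 : ℤ) < (q : ℤ) := by exact_mod_cast hq.pos
  rcases fin3_cases i with rfl | rfl | rfl
  · -- the cusp `∞`
    rw [wt3_zero, Nat.cast_one, mul_one] at hm
    obtain ⟨M, rfl⟩ := Int.eq_ofNat_of_zero_le
      (le_of_lt (lt_of_le_of_lt (Int.natCast_nonneg _) hm))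
    obtain ⟨Ψ, hΨ, h0, h1, h2⟩ := peeler_inf (hq := hq) (hqN := hqN) hζ B hB hX
      (show lev3 q m₀ < M by exact_mod_cast hm)
    refine ⟨(fun _ => HahnSeries.C c) * Ψ, Subring.mul_mem _ (const_mem_ring3 N q hq hqN A hζ B c
      (fun σ hσ => hfix σ (coeff_fix_zero hζ B hΦ σ hσ _))) hΨ, ?_, ?_, ?_⟩
    · show (HahnSeries.C c * Ψ 0).coeff (-(M : ℤ)) = c
      rw [coeff_C_mul, h0.1, mul_one]
    · intro k hk
      show (HahnSeries.C c * Ψ 0).coeff k = 0
      rw [coeff_C_mul, h0.2 k hk, mul_zero]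
    · intro j hj k hk
      rcases fin3_cases j with rfl | rfl | rfl
      · exact absurd rfl hj
      · show (HahnSeries.C c * Ψ 1).coeff k = 0
        rw [wt3_zero, wt3_one, Nat.cast_one, mul_one, mul_one] at hk
        rw [coeff_C_mul, h1 k hk, mul_zero]
      · show (HahnSeries.C c * Ψ 2).coeff k = 0
        rw [wt3_zero, wt3_two, Nat.cast_one, mul_one] at hk
        rw [coeff_C_mul, h2 k hk, mul_zero]
  · -- the cusp `0`
    rw [wt3_one, Nat.cast_one, mul_one] at hm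
    obtain ⟨M, rfl⟩ := Int.eq_ofNat_of_zero_le
      (le_of_lt (lt_of_le_of_lt (Int.natCast_nonneg _) hm))
    obtain ⟨Ψ, hΨ, h1, h0, h2⟩ := peeler_zero (hq := hq) (hqN := hqN) hζ B hB hX
      (show lev3 q m₀ < M by exact_mod_cast hm)
    refine ⟨(fun _ => HahnSeries.C c) * Ψ, Subring.mul_mem _ (const_mem_ring3 N q hq hqN A hζ B c
      (fun σ hσ => hfix σ (coeff_fix_one hζ B hΦ σ hσ _))) hΨ, ?_, ?_, ?_⟩
    · show (HahnSeries.C c * Ψ 1).coeff (-(M : ℤ)) = c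
      rw [coeff_C_mul, h1.1, mul_one]
    · intro k hk
      show (HahnSeries.C c * Ψ 1).coeff k = 0
      rw [coeff_C_mul, h1.2 k hk, mul_zero]
    · intro j hj k hk
      rcases fin3_cases j with rfl | rfl | rfl
      · show (HahnSeries.C c * Ψ 0).coeff k = 0
        rw [wt3_zero, wt3_one, Nat.cast_one, mul_one, mul_one] at hk
        rw [coeff_C_mul, h0 k hk, mul_zero]
      · exact absurd rfl hj
      · show (HahnSeries.C c * Ψ 2).coeff k = 0
        rw [wt3_one, wt3_two, Nat.cast_one, mul_one] at hk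
        rw [coeff_C_mul, h2 k hk, mul_zero]
  · -- the middle cusp
    rw [wt3_two] at hm
    have hm0 : 0 ≤ m := by
      by_contra hcon
      rw [not_le] at hcon
      have : m * (q : ℤ) < 0 := mul_neg_of_neg_of_pos hcon hqpos
      have := Int.natCast_nonneg (lev3 q m₀)
      linarith
    obtain ⟨M, rfl⟩ := Int.eq_ofNat_of_zero_le hm0
    have hM : lev3 q m₀ < M * q := by exact_mod_cast hm
    have hq2 := hq.two_le
    obtain ⟨d, hdA, hdI, hd⟩ := hK ((c : A) : Kb) c.2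
      (fun σ hσ hσζ => hfix σ (coeff_fix_two hζ B hΦ σ hσ hσζ _)) (-((m₀ + (q - 2) : ℕ) : ℤ))
    have hpe : ∀ i : Fin (q - 1), ∃ Ψ ∈ ring3 N q hq hqN A hζ B,
        (((Ψ 2).coeff (-(M : ℤ)) : A) : Kb) = ζ ^ (-((m₀ + (q - 2 - (i : ℕ)) : ℕ) : ℤ)) ∧
        (∀ k : ℤ, k < -(M : ℤ) → (Ψ 2).coeff k = 0) ∧
        (∀ k : ℤ, (M : ℤ) * q ≤ -k → (Ψ 0).coeff k = 0) ∧
        (∀ k : ℤ, (M : ℤ) * q ≤ -k → (Ψ 1).coeff k = 0) := fun i =>
      peeler_mid (hq := hq) (hqN := hqN) hζ B hB hX hM (c := m₀ + (q - 2 - (i : ℕ)))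
        (by omega) (by omega)
    choose Ψ hΨ h2 h3 h0 h1 using hpe
    have hcoef : ∀ (j : Fin 3) (k : ℤ),
        ((∑ i : Fin (q - 1), (fun _ => HahnSeries.C (⟨d i, hdA i⟩ : A)) * Ψ i :
          Fin 3 → LaurentSeries A) j).coeff k
          = ∑ i : Fin (q - 1), (⟨d i, hdA i⟩ : A) * (Ψ i j).coeff k := by
      intro j k
      have e1 : (∑ i : Fin (q - 1), (fun _ => HahnSeries.C (⟨d i, hdA i⟩ : A)) * Ψ i :
          Fin 3 → LaurentSeries A) j
          = ∑ i : Fin (q - 1), HahnSeries.C (⟨d i, hdA i⟩ : A) * Ψ i j := by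
        rw [Finset.sum_apply]
        rfl
      rw [e1, HahnSeries.coeff_sum]
      exact Finset.sum_congr rfl fun i _ => coeff_C_mul _ _ _
    refine ⟨∑ i : Fin (q - 1), (fun _ => HahnSeries.C (⟨d i, hdA i⟩ : A)) * Ψ i,
      Subring.sum_mem _ fun i _ => Subring.mul_mem _
        (const_mem_ring3 N q hq hqN A hζ B ⟨d i, hdA i⟩ (hdI i)) (hΨ i), ?_, ?_, ?_⟩
    · rw [hcoef]
      apply Subtype.ext
      rw [← A.subtype_apply, map_sum, hd]
      refine Finset.sum_congr rfl fun i _ => ?_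
      rw [map_mul, A.subtype_apply, A.subtype_apply, h2 i]
      congr 2
      have := i.2
      omega
    · intro k hk
      rw [hcoef]
      exact Finset.sum_eq_zero fun i _ => by rw [h3 i k hk, mul_zero]
    · intro j hj k hk
      rw [hcoef]
      rcases fin3_cases j with rfl | rfl | rfl
      · rw [wt3_two, wt3_zero, Nat.cast_one, mul_one] at hk
        exact Finset.sum_eq_zero fun i _ => by rw [h0 i k hk, mul_zero]
      · rw [wt3_two, wt3_one, Nat.cast_one, mul_one] at hk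
        exact Finset.sum_eq_zero fun i _ => by rw [h1 i k hk, mul_zero]
      · exact absurd rfl hj

/-! ### (SAT_q) -/

theorem ex3_algebraMap {ζ : Kb} (hζ : IsPrimitiveRoot ζ q) (i : Fin 3) (c : Kb) :
    ex3 N q hq hqN hζ i (algebraMap Kb (FF (N * q * q)) c)
      = algebraMap Kb (LaurentSeries Kb) c := by
  rcases fin3_cases i with rfl | rfl | rfl
  · rw [ex3_zero]
    rfl
  · rw [ex3_one, AlgEquiv.commutes]
    rfl
  · rw [ex3_two, AlgHom.commutes]

theorem wt3_pos (i : Fin 3) : 0 < wt3 q i := by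
  rcases fin3_cases i with rfl | rfl | rfl
  · exact Nat.one_pos
  · exact Nat.one_pos
  · exact Nat.pos_of_ne_zero (NeZero.ne q)

/-- **(SAT_q)** at level `N q q` from the inertia-fixed exact-pole elements at level `N`
([SAT3-X]) and the cyclotomic decomposition ([SAT3-K]). -/
theorem sat3_of {ζ : Kb} (hζ : IsPrimitiveRoot ζ q) (B : Subalgebra Kb (FF (N * q * q)))
    (hB : ∀ (m : ℕ) (f : FF N), InL (FF N) m (f : LaurentSeries Kb) →
      dg0 N q f ∈ B ∧ dg1 N q f ∈ B ∧ dg2 N q f ∈ B)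
    {m₀ : ℕ} (hX : ExactPoleFix N A m₀) (hK : CycloDecompStatement q A ζ) :
    Sat3Statement N q hq hqN A hζ B (lev3 q m₀ : ℤ) := by
  intro L hL f hfB hfI hfInt hdiv
  choose Y hY using hfInt
  have hΦ : Y ∈ ring3 N q hq hqN A hζ B := ⟨f, hfB, hfI, hY⟩
  have hqc : incl A (HahnSeries.C ((q : ℕ) : A)) = algebraMap Kb (LaurentSeries Kb) ((q : ℕ) : Kb) := by
    rw [incl_C3]
    rfl
  have hdec : ∃ y, LevelLE (wt3 q) L y ∧
      ∃ z, Y = y + constFam (C := fun _ : Fin 3 => ↥A) (fun _ => ((q : ℕ) : A)) * z := by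
    refine exists_decomp_of_dvd (C := fun _ : Fin 3 => ↥A) (fun _ => ((q : ℕ) : A)) (wt3 q) L Y
      (fun i k hk => ?_)
    obtain ⟨c, hcA, hc⟩ := hdiv i k hk
    refine ⟨⟨c, hcA⟩, Subtype.ext ?_⟩
    have h1 : (((Y i).coeff k : A) : Kb) = (ex3 N q hq hqN hζ i f).coeff k := by
      rw [← hY i, coeffMap_coeff]
      rfl
    rw [h1, hc]
    rfl
  have hpR : constFam (C := fun _ : Fin 3 => ↥A) (fun _ => ((q : ℕ) : A))
      ∈ ring3 N q hq hqN A hζ B :=
    const_mem_ring3 N q hq hqN A hζ B ((q : ℕ) : A) (fun σ _ => by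
      show σ (((q : ℕ) : A) : Kb) = _
      have : ((((q : ℕ) : A)) : Kb) = ((q : ℕ) : Kb) := rfl
      rw [this, map_natCast])
  obtain ⟨l, -, hlL, r, hr, hlr⟩ := sat_of_peelable (C := fun _ : Fin 3 => ↥A)
    (ring3 N q hq hqN A hζ B) (fun _ => ((q : ℕ) : A)) hpR (wt3 q) (wt3_pos (q := q))
    (lev3 q m₀ : ℤ) (peelable3 (hq := hq) (hqN := hqN) hζ B hB hX hK) L hL Y hΦ hdec
  obtain ⟨g, hgB, hgI, hg⟩ := hr
  refine ⟨g, hgB, hgI, fun i => ⟨r i, hg i⟩, fun i k hk => ?_⟩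
  have h1 : ex3 N q hq hqN hζ i (f - algebraMap Kb (FF (N * q * q)) ((q : ℕ) : Kb) * g)
      = incl A (l i) := by
    have h2 : l i = Y i - HahnSeries.C ((q : ℕ) : A) * r i := by
      have h3 := congrFun hlr i
      have h4 : (l + constFam (C := fun _ : Fin 3 => ↥A) (fun _ => ((q : ℕ) : A)) * r) i
          = l i + HahnSeries.C ((q : ℕ) : A) * r i := rfl
      rw [h4] at h3
      rw [h3]
      ring
    rw [map_sub, map_mul, ex3_algebraMap, h2, map_sub, map_mul, hqc, hY i, hg i]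
  rw [h1, coeffMap_coeff, hlL i k hk]
  rfl

end Peelers

end Fermat.Agent.T3.helper74

end
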