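/-
T3 / S36, package [T3-K0RING] part 2 (helper84): `O1 = O[ζ_q]`, `O = A ∩ K0`, `K0 = ℚ̄^{I_A}`.

`A` is a valuation subring of `ℚ̄` over the prime `q`, `I = A.inertiaSubgroupIn ℚ`, `ζ` a primitive
`q`-th root of unity, `π = 1 - ζ`.

* `k0_zeta_interp` : every `x` fixed by `{σ ∈ I | σ ζ = ζ}` is `P(1 - ζ)` for a polynomial `P` of
                     degree `< q - 1` with `I`-fixed coefficients (`ℚ̄^{I ∩ G_{ℚ(ζ)}} = K0(ζ)`);
* `k0_zeta_interp_int` : if moreover `x ∈ A` then the coefficients of `P` lie in `A`;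
* `k0_zeta_int`    : **(INT)** every `x ∈ A` fixed by `{σ ∈ I | σ ζ = ζ}` is `R(ζ)` with
                     `R ∈ O[X]`, `deg R < q - 1`  (`A ∩ K0(ζ) = O[ζ]`).
-/
import Mathlib
import Fermat.Agent.T3.helper84_K0Ring

set_option autoImplicit false
set_option linter.unusedSectionVars false
set_option linter.style.haveILetI false

open scoped NumberField Pointwise

namespace Fermat.Agent.T3.helper84

open Fermat.Agent.S54.helper91 Fermat.Agent.S14.helper91 Polynomial

section Interp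

variable {q : ℕ} (hq : q.Prime) (A : ValuationSubring (AlgebraicClosure ℚ))
  (hA : A.LiesOverPrime q) {ζ : AlgebraicClosure ℚ} (hζ : IsPrimitiveRoot ζ q)

/-- A finite sum whose nonzero terms have pairwise distinct valuations: the valuation of the sum
is the maximum of the valuations of the terms. -/
theorem k0_val_le_sum_of_distinct {ι : Type*} (s : Finset ι) (f : ι → AlgebraicClosure ℚ)
    (hdist : ∀ i ∈ s, ∀ j ∈ s, i ≠ j → f i ≠ 0 → f j ≠ 0 →
      A.valuation (f i) ≠ A.valuation (f j)) :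
    ∀ j ∈ s, A.valuation (f j) ≤ A.valuation (∑ i ∈ s, f i) := by
  classical
  intro j hj
  by_cases hfj : f j = 0
  · rw [hfj, map_zero]
    exact zero_le
  obtain ⟨i₀, hi₀, hmax⟩ := Finset.exists_max_image s (fun i => A.valuation (f i)) ⟨j, hj⟩
  have hvj : A.valuation (f j) ≠ 0 := (Valuation.ne_zero_iff _).mpr hfj
  have hv₀ : A.valuation (f i₀) ≠ 0 := by
    intro h0
    have := hmax j hj
    rw [h0] at this
    exact hvj (le_antisymm this zero_le)
  have hf₀ : f i₀ ≠ 0 := (Valuation.ne_zero_iff _).mp hv₀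
  have hsum : A.valuation (∑ i ∈ s, f i) = A.valuation (f i₀) := by
    rw [← Finset.add_sum_erase s f hi₀]
    refine Valuation.map_add_eq_of_lt_left _ ?_
    refine Valuation.map_sum_lt _ hv₀ (fun k hk => ?_)
    have hks : k ∈ s := Finset.mem_of_mem_erase hk
    have hki : k ≠ i₀ := Finset.ne_of_mem_erase hk
    by_cases hfk : f k = 0
    · rw [hfk, map_zero]
      exact zero_lt_iff.mpr hv₀
    · exact lt_of_le_of_ne (hmax k hks) (hdist k hks i₀ hi₀ hki hfk hf₀)
  rw [hsum]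
  exact hmax j hj

include hq hA hζ in
/-- every primitive `q`-th root of unity is `σ ζ` for some `σ` in the inertia group -/
theorem k0_zeta_trans' {μ : AlgebraicClosure ℚ} (hμ : IsPrimitiveRoot μ q) :
    ∃ σ ∈ A.inertiaSubgroupIn ℚ, σ ζ = μ := by
  haveI : NeZero q := ⟨hq.ne_zero⟩
  obtain ⟨k, -, hk⟩ := hζ.eq_pow_of_pow_eq_one hμ.pow_eq_one
  have hkq : ¬ q ∣ k := by
    intro hdvd
    obtain ⟨c, rfl⟩ := hdvd
    rw [pow_mul, hζ.pow_eq_one, one_pow] at hk
    exact hμ.ne_one hq.one_lt hk.symm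
  obtain ⟨σ, hσI, hσ⟩ := k0_zeta_trans hq A hA hζ hkq
  exact ⟨σ, hσI, hσ.trans hk⟩

include hq hA hζ in
/-- **(DESC-ζ)**: every element fixed by the elements of the inertia group which fix `ζ` is a
polynomial of degree `< q - 1` in `1 - ζ` with coefficients fixed by the inertia group. -/
theorem k0_zeta_interp {x : AlgebraicClosure ℚ}
    (hfix : ∀ σ ∈ A.inertiaSubgroupIn ℚ, σ ζ = ζ → σ x = x) :
    ∃ P : (AlgebraicClosure ℚ)[X], P.degree < ((q - 1 : ℕ) : WithBot ℕ) ∧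
      (∀ i, ∀ τ ∈ A.inertiaSubgroupIn ℚ, τ (P.coeff i) = P.coeff i) ∧
      P.eval (1 - ζ) = x := by
  classical
  haveI : NeZero q := ⟨hq.ne_zero⟩
  -- the values `r μ = σ x` for `σ ζ = μ`
  have hwd : ∀ σ ∈ A.inertiaSubgroupIn ℚ, ∀ τ ∈ A.inertiaSubgroupIn ℚ, σ ζ = τ ζ → σ x = τ x := by
    intro σ hσ τ hτ h
    have h1 : (τ⁻¹ * σ) ζ = ζ := by
      rw [AlgEquiv.mul_apply, h]
      exact τ.symm_apply_apply ζ
    have h2 := hfix (τ⁻¹ * σ) (Subgroup.mul_mem _ (Subgroup.inv_mem _ hτ) hσ) h1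
    rw [AlgEquiv.mul_apply] at h2
    have h3 := congrArg τ h2
    rw [show τ (τ⁻¹ (σ x)) = σ x from τ.apply_symm_apply (σ x)] at h3
    exact h3
  set r : AlgebraicClosure ℚ → AlgebraicClosure ℚ := fun μ =>
    if h : ∃ σ ∈ A.inertiaSubgroupIn ℚ, σ ζ = μ then h.choose x else 0 with hr
  have hrσ : ∀ σ ∈ A.inertiaSubgroupIn ℚ, r (σ ζ) = σ x := by
    intro σ hσ
    have h : ∃ τ ∈ A.inertiaSubgroupIn ℚ, τ ζ = σ ζ := ⟨σ, hσ, rfl⟩
    simp only [hr, dif_pos h]
    exact hwd _ h.choose_spec.1 σ hσ h.choose_spec.2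
  set s : Finset (AlgebraicClosure ℚ) := primitiveRoots q (AlgebraicClosure ℚ) with hs
  set v : AlgebraicClosure ℚ → AlgebraicClosure ℚ := fun μ => 1 - μ with hv
  have hvs : Set.InjOn v s := fun a _ b _ hab => sub_right_injective hab
  have hcard : s.card = q - 1 := by
    rw [hs, hζ.card_primitiveRoots, Nat.totient_prime hq]
  set P := Lagrange.interpolate s v r with hP
  have hPdeg : P.degree < ((q - 1 : ℕ) : WithBot ℕ) := by
    have := Lagrange.degree_interpolate_lt r hvs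
    rw [hcard] at this
    exact this
  refine ⟨P, hPdeg, ?_, ?_⟩
  · intro i τ hτ
    have hQ : P.map (τ : AlgebraicClosure ℚ →+* AlgebraicClosure ℚ) = P := by
      refine Lagrange.eq_interpolate_of_eval_eq r hvs ?_ ?_
      · rw [hcard]
        exact lt_of_le_of_lt (Polynomial.degree_map_le) hPdeg
      · intro μ' hμ'
        have hμ'p : IsPrimitiveRoot μ' q := (mem_primitiveRoots hq.pos).mp hμ'
        -- `μ' = τ μ`
        set μ := τ.symm μ' with hμ
        have hτμ : τ μ = μ' := τ.apply_symm_apply μ'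
        have hμp : IsPrimitiveRoot μ q := by
          have := hμ'p.map_of_injective (f := (τ.symm : AlgebraicClosure ℚ →+* AlgebraicClosure ℚ))
            τ.symm.injective
          exact this
        have hμs : μ ∈ s := (mem_primitiveRoots hq.pos).mpr hμp
        obtain ⟨σ, hσI, hσ⟩ := k0_zeta_trans' hq A hA hζ hμp
        have h1 : v μ' = (τ : AlgebraicClosure ℚ →+* AlgebraicClosure ℚ) (v μ) := by
          simp only [hv, RingHom.coe_coe, map_sub, map_one, hτμ]
        rw [h1, Polynomial.eval_map_apply, Lagrange.eval_interpolate_at_node r hvs hμs]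
        -- `τ (r μ) = r (τ μ)`
        have h2 : r μ = σ x := by rw [← hσ]; exact hrσ σ hσI
        have h3 : r μ' = (τ * σ) x := by
          have := hrσ (τ * σ) (Subgroup.mul_mem _ hτ hσI)
          rw [AlgEquiv.mul_apply, hσ, hτμ] at this
          exact this
        rw [h2, h3]
        rfl
    have := congrArg (fun p : (AlgebraicClosure ℚ)[X] => p.coeff i) hQ
    simpa [Polynomial.coeff_map] using this
  · have h1 := hrσ 1 (Subgroup.one_mem _)
    rw [AlgEquiv.one_apply, AlgEquiv.one_apply] at h1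
    have hζs : ζ ∈ s := (mem_primitiveRoots hq.pos).mpr hζ
    have := Lagrange.eval_interpolate_at_node r hvs hζs
    rw [h1] at this
    exact this

include hq hA hζ in
/-- **integrality**: if `x ∈ A` then the coefficients of the polynomial of `k0_zeta_interp` lie in
`A`, i.e. in `O = A ∩ K0`. -/
theorem k0_zeta_interp_int {P : (AlgebraicClosure ℚ)[X]}
    (hdeg : P.degree < ((q - 1 : ℕ) : WithBot ℕ))
    (hcoeff : ∀ i, ∀ τ ∈ A.inertiaSubgroupIn ℚ, τ (P.coeff i) = P.coeff i)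
    (hx : P.eval (1 - ζ) ∈ A) : ∀ i, P.coeff i ∈ k0Ring A := by
  classical
  set π : AlgebraicClosure ℚ := 1 - ζ with hπdef
  set γ := A.valuation π with hγdef
  have hγ0 : γ ≠ 0 := k0_zeta_val_ne_zero hq A hζ
  have hγpos : 0 < γ := zero_lt_iff.mpr hγ0
  have hγ1 : γ < 1 := k0_zeta_val_lt hq A hA hζ
  have hγq : γ ^ (q - 1) = A.valuation ((q : ℕ) : AlgebraicClosure ℚ) := k0_zeta_val hq A hζ
  set f : ℕ → AlgebraicClosure ℚ := fun i => P.coeff i * π ^ i with hf
  have hsum : P.eval π = ∑ i ∈ Finset.range (q - 1), f i := by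
    rcases eq_or_ne P 0 with h0 | h0
    · simp [h0, hf]
    have hnat : P.natDegree < q - 1 := (Polynomial.natDegree_lt_iff_degree_lt h0).mpr hdeg
    rw [Polynomial.eval_eq_sum_range' hnat]
  have hterm : ∀ i, P.coeff i ≠ 0 → ∃ m : ℤ,
      A.valuation (P.coeff i) = γ ^ (((q - 1 : ℕ) : ℤ) * m) ∧
      A.valuation (f i) = γ ^ (((q - 1 : ℕ) : ℤ) * m + (i : ℕ)) := by
    intro i hi
    obtain ⟨m, hm⟩ := k0_disc hq A hA hi (hcoeff i)
    refine ⟨m, ?_, ?_⟩
    · rw [hm, map_zpow₀, ← hγq, zpow_mul, zpow_natCast]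
    · simp only [hf]
      rw [map_mul, hm, map_zpow₀, ← hγq, map_pow, ← hγdef, zpow_add₀ hγ0, zpow_mul, zpow_natCast,
        zpow_natCast]
  have hfne : ∀ i, f i ≠ 0 → P.coeff i ≠ 0 := by
    intro i hi h0
    apply hi
    simp [hf, h0]
  have hdist : ∀ i ∈ Finset.range (q - 1), ∀ j ∈ Finset.range (q - 1),
      i ≠ j → f i ≠ 0 → f j ≠ 0 → A.valuation (f i) ≠ A.valuation (f j) := by
    intro i hi j hj hij hfi hfj heq
    obtain ⟨mi, -, hmi⟩ := hterm i (hfne i hfi)
    obtain ⟨mj, -, hmj⟩ := hterm j (hfne j hfj)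
    rw [hmi, hmj, zpow_right_inj₀ hγpos hγ1.ne] at heq
    have hi' : i < q - 1 := Finset.mem_range.mp hi
    have hj' : j < q - 1 := Finset.mem_range.mp hj
    have h1 := congrArg (fun z : ℤ => z % ((q - 1 : ℕ) : ℤ)) heq
    simp only [Int.mul_add_emod_self_left] at h1
    rw [Int.emod_eq_of_lt (by positivity) (by exact_mod_cast hi'),
      Int.emod_eq_of_lt (by positivity) (by exact_mod_cast hj')] at h1
    exact hij (by exact_mod_cast h1)
  have hle := k0_val_le_sum_of_distinct A (Finset.range (q - 1)) f hdist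
  rw [← hsum] at hle
  have hx1 : A.valuation (P.eval π) ≤ 1 := (A.valuation_le_one_iff _).mpr hx
  intro i
  refine ⟨?_, hcoeff i⟩
  by_cases hi0 : P.coeff i = 0
  · rw [hi0]; exact A.zero_mem
  have hi : i < q - 1 := by
    by_contra hcon
    apply hi0
    exact Polynomial.coeff_eq_zero_of_degree_lt
      (lt_of_lt_of_le hdeg (by exact_mod_cast not_lt.mp hcon))
  obtain ⟨m, hm1, hm2⟩ := hterm i hi0
  have h1 : A.valuation (f i) ≤ 1 := (hle i (Finset.mem_range.mpr hi)).trans hx1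
  rw [hm2] at h1
  have h2 : (0 : ℤ) ≤ ((q - 1 : ℕ) : ℤ) * m + (i : ℕ) := by
    have h3 : γ ^ (((q - 1 : ℕ) : ℤ) * m + (i : ℕ)) ≤ γ ^ (0 : ℤ) := by simpa using h1
    exact (zpow_le_zpow_iff_right_of_lt_one₀ hγpos hγ1).mp h3
  have hm : 0 ≤ m := by
    by_contra hneg
    have hlt : m ≤ -1 := by omega
    have hq1 : (0 : ℤ) < ((q - 1 : ℕ) : ℤ) := by
      have := hq.two_le
      have : 0 < q - 1 := by omega
      exact_mod_cast this
    have h4 : ((q - 1 : ℕ) : ℤ) * m ≤ -((q - 1 : ℕ) : ℤ) := by nlinarith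
    have h5 : ((i : ℕ) : ℤ) < ((q - 1 : ℕ) : ℤ) := by exact_mod_cast hi
    omega
  rw [← A.valuation_le_one_iff, hm1]
  have h6 : γ ^ (((q - 1 : ℕ) : ℤ) * m) ≤ γ ^ (0 : ℤ) :=
    (zpow_le_zpow_iff_right_of_lt_one₀ hγpos hγ1).mpr (by positivity)
  simpa using h6

include hq hA hζ in
/-- **(INT)**: `A ∩ K0(ζ) = O[ζ]`: every element of `A` fixed by the elements of the inertia group
fixing `ζ` is `R(ζ)` for a polynomial `R` of degree `< q - 1` with coefficients in
`O = k0Ring A`. -/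
theorem k0_zeta_int {x : AlgebraicClosure ℚ} (hxA : x ∈ A)
    (hfix : ∀ σ ∈ A.inertiaSubgroupIn ℚ, σ ζ = ζ → σ x = x) :
    ∃ R : (k0Ring A)[X], R.natDegree < q - 1 ∧ R.eval₂ (k0Ring A).subtype ζ = x := by
  classical
  obtain ⟨P, hdeg, hcoeff, hPx⟩ := k0_zeta_interp hq A hA hζ hfix
  have hint := k0_zeta_interp_int hq A hA hζ hdeg hcoeff (by rw [hPx]; exact hxA)
  -- lift `P` to `O[X]`
  have hlift : P ∈ Polynomial.lifts (k0Ring A).subtype := by
    rw [Polynomial.lifts_iff_coeff_lifts]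
    intro n
    exact ⟨⟨P.coeff n, hint n⟩, rfl⟩
  obtain ⟨P₀, hP₀, hP₀deg⟩ := Polynomial.exists_degree_eq_of_mem_lifts hlift
  have hq1 : 0 < q - 1 := by have := hq.two_le; omega
  set R : (k0Ring A)[X] := P₀.comp (Polynomial.C 1 - Polynomial.X) with hR
  refine ⟨R, ?_, ?_⟩
  · have h1 : R.natDegree ≤ P₀.natDegree * (Polynomial.C (1 : k0Ring A) - Polynomial.X).natDegree :=
      Polynomial.natDegree_comp_le
    have h2 : (Polynomial.C (1 : k0Ring A) - Polynomial.X).natDegree ≤ 1 := by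
      refine (Polynomial.natDegree_sub_le _ _).trans ?_
      simp
    have h3 : P₀.natDegree < q - 1 ∨ P₀ = 0 := by
      by_cases h0 : P₀ = 0
      · exact Or.inr h0
      · left
        rw [Polynomial.natDegree_lt_iff_degree_lt h0, hP₀deg]
        exact hdeg
    rcases h3 with h3 | h3
    · calc R.natDegree ≤ P₀.natDegree * (Polynomial.C (1 : k0Ring A) - Polynomial.X).natDegree := h1
        _ ≤ P₀.natDegree * 1 := Nat.mul_le_mul_left _ h2
        _ = P₀.natDegree := mul_one _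
        _ < q - 1 := h3
    · rw [hR, h3, Polynomial.zero_comp, Polynomial.natDegree_zero]
      exact hq1
  · rw [hR, Polynomial.eval₂_comp, Polynomial.eval₂_sub, Polynomial.eval₂_C, Polynomial.eval₂_X,
      map_one, ← Polynomial.eval_map, hP₀, hPx]

end Interp

/-! ### The ring `O1 = A ∩ K0(ζ)` as an `O`-module -/

section Module

/-- The subring `O1 = A ∩ ℚ̄^{I ∩ G_{ℚ(ζ)}}` of `ℚ̄`: the elements of `A` fixed by the elements of
the inertia group of `A` which fix `ζ`. -/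
def k0RingZeta (A : ValuationSubring (AlgebraicClosure ℚ)) (ζ : AlgebraicClosure ℚ) :
    Subring (AlgebraicClosure ℚ) where
  carrier := {x | x ∈ A ∧ ∀ σ ∈ A.inertiaSubgroupIn ℚ, σ ζ = ζ → σ x = x}
  mul_mem' := fun ⟨ha, ha'⟩ ⟨hb, hb'⟩ =>
    ⟨A.mul_mem _ _ ha hb, fun σ hσ h => by rw [map_mul, ha' σ hσ h, hb' σ hσ h]⟩
  one_mem' := ⟨A.one_mem, fun σ _ _ => map_one σ⟩
  add_mem' := fun ⟨ha, ha'⟩ ⟨hb, hb'⟩ =>
    ⟨A.add_mem _ _ ha hb, fun σ hσ h => by rw [map_add, ha' σ hσ h, hb' σ hσ h]⟩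
  zero_mem' := ⟨A.zero_mem, fun σ _ _ => map_zero σ⟩
  neg_mem' := fun ⟨ha, ha'⟩ => ⟨A.neg_mem _ ha, fun σ hσ h => by rw [map_neg, ha' σ hσ h]⟩

theorem mem_k0RingZeta_iff (A : ValuationSubring (AlgebraicClosure ℚ))
    (ζ x : AlgebraicClosure ℚ) :
    x ∈ k0RingZeta A ζ ↔ x ∈ A ∧ ∀ σ ∈ A.inertiaSubgroupIn ℚ, σ ζ = ζ → σ x = x := Iff.rfl

theorem k0Ring_le_k0RingZeta (A : ValuationSubring (AlgebraicClosure ℚ))
    (ζ : AlgebraicClosure ℚ) : k0Ring A ≤ k0RingZeta A ζ :=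
  fun _ hx => ⟨hx.1, fun σ hσ _ => hx.2 σ hσ⟩

/-- `O1` is an `O`-algebra -/
noncomputable instance k0RingZeta_algebra (A : ValuationSubring (AlgebraicClosure ℚ))
    (ζ : AlgebraicClosure ℚ) : Algebra (k0Ring A) (k0RingZeta A ζ) :=
  (Subring.inclusion (k0Ring_le_k0RingZeta A ζ)).toAlgebra

theorem k0RingZeta_algebraMap_coe (A : ValuationSubring (AlgebraicClosure ℚ))
    (ζ : AlgebraicClosure ℚ) (a : k0Ring A) :
    ((algebraMap (k0Ring A) (k0RingZeta A ζ) a : k0RingZeta A ζ) : AlgebraicClosure ℚ) = a := rfl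

theorem k0RingZeta_smul_coe (A : ValuationSubring (AlgebraicClosure ℚ))
    (ζ : AlgebraicClosure ℚ) (a : k0Ring A) (x : k0RingZeta A ζ) :
    ((a • x : k0RingZeta A ζ) : AlgebraicClosure ℚ) = (a : AlgebraicClosure ℚ) * x := by
  rw [Algebra.smul_def]
  rfl

variable {q : ℕ} (hq : q.Prime) (A : ValuationSubring (AlgebraicClosure ℚ))
  (hA : A.LiesOverPrime q) {ζ : AlgebraicClosure ℚ} (hζ : IsPrimitiveRoot ζ q)

include hq hζ in
theorem k0_zeta_mem_k0RingZeta : ζ ∈ k0RingZeta A ζ := by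
  refine ⟨?_, fun σ _ h => h⟩
  have hvζ : A.valuation ζ = 1 :=
    k0_valuation_eq_one_of_pow A hq.ne_zero (by rw [hζ.pow_eq_one, map_one])
  exact (A.valuation_le_one_iff ζ).mp hvζ.le

/-- the element `ζ` of `O1` -/
noncomputable def k0Zeta (hq : q.Prime) (A : ValuationSubring (AlgebraicClosure ℚ))
    {ζ : AlgebraicClosure ℚ} (hζ : IsPrimitiveRoot ζ q) : k0RingZeta A ζ :=
  ⟨ζ, k0_zeta_mem_k0RingZeta hq A hζ⟩

include hq hA hζ in
/-- the powers `1, ζ, …, ζ^(q-2)` are linearly independent over `O` -/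
theorem k0Zeta_linearIndependent :
    LinearIndependent (k0Ring A) (fun i : Fin (q - 1) => (k0Zeta hq A hζ) ^ (i : ℕ)) := by
  classical
  rw [Fintype.linearIndependent_iff]
  intro g hg i
  set a : ℕ → AlgebraicClosure ℚ := fun n =>
    if h : n < q - 1 then ((g ⟨n, h⟩ : k0Ring A) : AlgebraicClosure ℚ) else 0 with ha
  have hafix : ∀ n, ∀ σ ∈ A.inertiaSubgroupIn ℚ, σ (a n) = a n := by
    intro n σ hσ
    simp only [ha]
    split_ifs with h
    · exact (g ⟨n, h⟩).2.2 σ hσ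
    · exact map_zero σ
  have hsum : ∑ n ∈ Finset.range (q - 1), a n * ζ ^ n = 0 := by
    have h1 := congrArg (Subtype.val : k0RingZeta A ζ → AlgebraicClosure ℚ) hg
    rw [Subring.coe_zero] at h1
    rw [← h1, Finset.sum_range, AddSubmonoidClass.coe_finsetSum]
    refine Finset.sum_congr rfl (fun j _ => ?_)
    rw [k0RingZeta_smul_coe, Subring.coe_pow]
    simp only [ha, dif_pos j.2]
    rfl
  have := k0_zeta_free hq A hA hζ a hafix hsum i (Finset.mem_range.mpr i.2)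
  simp only [ha, dif_pos i.2] at this
  exact Subtype.ext this

include hq hA hζ in
/-- the powers `1, ζ, …, ζ^(q-2)` span `O1` over `O` -/
theorem k0Zeta_span :
    ⊤ ≤ Submodule.span (k0Ring A)
      (Set.range (fun i : Fin (q - 1) => (k0Zeta hq A hζ) ^ (i : ℕ))) := by
  classical
  intro x _
  obtain ⟨R, hRdeg, hRx⟩ := k0_zeta_int hq A hA hζ x.2.1 x.2.2
  have hx : x = ∑ i : Fin (q - 1), R.coeff (i : ℕ) • (k0Zeta hq A hζ) ^ (i : ℕ) := by
    apply Subtype.ext
    rw [AddSubmonoidClass.coe_finsetSum, ← hRx, Polynomial.eval₂_eq_sum_range' _ hRdeg,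
      Finset.sum_range]
    refine Finset.sum_congr rfl (fun j _ => ?_)
    rw [k0RingZeta_smul_coe, Subring.coe_pow]
    rfl
  rw [hx]
  refine Submodule.sum_mem _ (fun i _ => ?_)
  exact Submodule.smul_mem _ _ (Submodule.subset_span ⟨i, rfl⟩)

/-- **the basis `1, ζ, …, ζ^(q-2)` of `O1 = O[ζ]` over `O`** -/
noncomputable def k0ZetaBasis (hq : q.Prime) (A : ValuationSubring (AlgebraicClosure ℚ))
    (hA : A.LiesOverPrime q) {ζ : AlgebraicClosure ℚ} (hζ : IsPrimitiveRoot ζ q) :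
    Module.Basis (Fin (q - 1)) (k0Ring A) (k0RingZeta A ζ) :=
  Module.Basis.mk (k0Zeta_linearIndependent hq A hA hζ) (k0Zeta_span hq A hA hζ)

theorem k0ZetaBasis_apply (i : Fin (q - 1)) :
    k0ZetaBasis hq A hA hζ i = (k0Zeta hq A hζ) ^ (i : ℕ) := by
  rw [k0ZetaBasis, Module.Basis.mk_apply]

include hq hA hζ in
theorem k0RingZeta_free : Module.Free (k0Ring A) (k0RingZeta A ζ) :=
  Module.Free.of_basis (k0ZetaBasis hq A hA hζ)

include hq hA hζ in
theorem k0RingZeta_finite : Module.Finite (k0Ring A) (k0RingZeta A ζ) :=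
  Module.Finite.of_basis (k0ZetaBasis hq A hA hζ)

include hq hA hζ in
theorem k0RingZeta_finrank : Module.finrank (k0Ring A) (k0RingZeta A ζ) = q - 1 := by
  haveI := k0Ring_isDiscreteValuationRing hq A hA
  rw [Module.finrank_eq_card_basis (k0ZetaBasis hq A hA hζ), Fintype.card_fin]

end Module

end Fermat.Agent.T3.helper84
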