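/-
T3 (S36), helper27, row 936 [T3-ROOT3-INST]: ROOT3 at level `N q q`.

`q` prime, `q ∤ N`, `A` a valuation subring of `ℚ̄` over `q`, `I` its inertia group,
`O = k0Ring A = A^I` (a discrete valuation ring with uniformiser `q`, helper84),
`O1 = k0RingZeta A ζ = O[ζ]` (free of rank `q - 1` over `O`).

* `ring3Z B` : the ring of the triples of expansions (`helper74.ex3`: cusps `∞`, `0`, `1/q`) of
  the inertia-fixed elements of `B` with coefficients in `O1`;
* `root3_of` : **ROOT3**: if `H ∈ B` is inertia-fixed, regular off the cusps, its three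
  expansions are `A`-integral with reduction `1`, `n ∣ div H` and `q ∤ n`, then `H = v ^ n` with
  `v` inertia-fixed.  Inputs: `helper74.Sat3Statement` (SAT_q) for `B`, and the finiteness of
  the spaces of elements of `B` of bounded level (Riemann).

Proof: DISC3 (helper23) gives the three formal roots `Z i` with reduction `1`; they have
coefficients in `O1` (uniqueness of the normalised root); `w = Z ^ q` is `≡ 1` modulo `q`
(the product of `q` elements of the maximal ideal of `O1` is divisible by `q`), and the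
`q`-adic Newton iteration `helper27.root_of_sat` shows that `w` is the triple of expansions of
an element `f` of `B`; `f ^ n = H ^ q` and `q` is prime to `n`.
-/
import Mathlib
import Fermat.Agent.T3.helper27_RootPeel
import Fermat.Agent.T3.helper74_Sat3
import Fermat.Agent.T3.helper84_K0Cyc
import Fermat.Agent.T3.helper23_Disc3Gal

set_option autoImplicit false
set_option synthInstance.maxHeartbeats 400000
set_option maxHeartbeats 1000000
set_option linter.unusedSectionVars false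
set_option linter.unusedVariables false
set_option linter.style.haveILetI false
set_option linter.style.longLine false

noncomputable section

open HahnSeries IntermediateField AlgebraicCurve ModularCurve
open Fermat.Agent.S18.helper19 Fermat.Agent.P2.helper29 Fermat.Agent.T2.helper36
open Fermat.Agent.T3.helper74 Fermat.Agent.T3.helper84

namespace Fermat.Agent.T3.helper27

/-! ### Series with coefficients in a subring -/

section Ser

variable (S : Subring Kb)

theorem coeffMap_subtype_injective : Function.Injective (coeffMap S.subtype) := by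
  intro x y h
  apply HahnSeries.ext
  funext k
  have h1 := congrArg (fun z => z.coeff k) h
  simp only [coeffMap_coeff] at h1
  exact Subtype.ext h1

/-- the series over `S` with the same coefficients -/
def liftSer (x : LaurentSeries Kb) (h : ∀ k, x.coeff k ∈ S) : LaurentSeries S where
  coeff k := ⟨x.coeff k, h k⟩
  isPWO_support' := x.isPWO_support.mono fun k hk => by
    simp only [Function.mem_support, ne_eq] at hk ⊢
    intro h0
    exact hk (Subtype.ext h0)

theorem coeffMap_liftSer (x : LaurentSeries Kb) (h : ∀ k, x.coeff k ∈ S) :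
    coeffMap S.subtype (liftSer S x h) = x := by
  apply HahnSeries.ext
  funext k
  rfl

theorem coeffMap_subtype_C (c : S) :
    coeffMap S.subtype (HahnSeries.C c) = algebraMap Kb (LaurentSeries Kb) (c : Kb) := by
  rw [HahnSeries.C_apply, coeffMap_single, algebraMap_laurentSeries_eq_single]
  rfl

theorem coeff_mem_of_coeffMap (x : LaurentSeries S) (k : ℤ) :
    (coeffMap S.subtype x).coeff k ∈ S := by
  rw [coeffMap_coeff]
  exact (x.coeff k).2

end Ser

/-! ### The ring of triples of expansions over `O1` -/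

section Ring

variable (N q : ℕ) [NeZero N] [NeZero q] (hq : q.Prime) (hqN : ¬ q ∣ N)
variable (A : ValuationSubring Kb)

/-- the ring of the triples of expansions, with coefficients in `O1 = k0RingZeta A ζ`, of the
inertia-fixed elements of `B` -/
def ring3Z {ζ : Kb} (hζ : IsPrimitiveRoot ζ q) (B : Subalgebra Kb (FF (N * q * q))) :
    Subring (Fin 3 → LaurentSeries (k0RingZeta A ζ)) where
  carrier := {Φ | ∃ f : FF (N * q * q), f ∈ B ∧ IsFixI A (N * q * q) f ∧
    ∀ i, coeffMap (k0RingZeta A ζ).subtype (Φ i) = ex3 N q hq hqN hζ i f}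
  mul_mem' := by
    rintro Φ Ψ ⟨f, hf, hfI, hfΦ⟩ ⟨g, hg, hgI, hgΨ⟩
    refine ⟨f * g, B.mul_mem hf hg, fun σ hσ => by rw [map_mul, hfI σ hσ, hgI σ hσ],
      fun i => ?_⟩
    rw [Pi.mul_apply, map_mul, map_mul, hfΦ, hgΨ]
  one_mem' := ⟨1, B.one_mem, fun σ _ => map_one _, fun i => by
    rw [Pi.one_apply, map_one, map_one]⟩
  add_mem' := by
    rintro Φ Ψ ⟨f, hf, hfI, hfΦ⟩ ⟨g, hg, hgI, hgΨ⟩
    refine ⟨f + g, B.add_mem hf hg, fun σ hσ => by rw [map_add, hfI σ hσ, hgI σ hσ],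
      fun i => ?_⟩
    rw [Pi.add_apply, map_add, map_add, hfΦ, hgΨ]
  zero_mem' := ⟨0, B.zero_mem, fun σ _ => map_zero _, fun i => by
    rw [Pi.zero_apply, map_zero, map_zero]⟩
  neg_mem' := by
    rintro Φ ⟨f, hf, hfI, hfΦ⟩
    refine ⟨-f, B.neg_mem hf, fun σ hσ => by rw [map_neg, hfI σ hσ], fun i => ?_⟩
    rw [Pi.neg_apply, map_neg, map_neg, hfΦ]

theorem mem_ring3Z {ζ : Kb} (hζ : IsPrimitiveRoot ζ q) (B : Subalgebra Kb (FF (N * q * q)))
    (Φ : Fin 3 → LaurentSeries (k0RingZeta A ζ)) :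
    Φ ∈ ring3Z N q hq hqN A hζ B ↔ ∃ f : FF (N * q * q), f ∈ B ∧ IsFixI A (N * q * q) f ∧
      ∀ i, coeffMap (k0RingZeta A ζ).subtype (Φ i) = ex3 N q hq hqN hζ i f := Iff.rfl

variable {N q hq hqN A}

/-- the coefficients of the expansions of an inertia-fixed function with `A`-integral expansions
lie in `O1` -/
theorem ex3_coeff_mem {ζ : Kb} (hζ : IsPrimitiveRoot ζ q) {f : FF (N * q * q)}
    (hfI : IsFixI A (N * q * q) f) (hfInt : IsInt3 N q hq hqN A hζ f) (i : Fin 3) (k : ℤ) :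
    (ex3 N q hq hqN hζ i f).coeff k ∈ k0RingZeta A ζ := by
  choose Y hY using hfInt
  have hΦ : Y ∈ ring3 N q hq hqN A hζ ⊤ := ⟨f, Algebra.mem_top, hfI, hY⟩
  have hc : (ex3 N q hq hqN hζ i f).coeff k = (((Y i).coeff k : A) : Kb) := by
    rw [← hY i, coeffMap_coeff]
    rfl
  rw [hc]
  refine ⟨((Y i).coeff k).2, fun σ hσ hσζ => ?_⟩
  rcases fin3_cases i with rfl | rfl | rfl
  · exact coeff_fix_zero (hq := hq) (hqN := hqN) hζ ⊤ hΦ σ hσ k
  · exact coeff_fix_one (hq := hq) (hqN := hqN) hζ ⊤ hΦ σ hσ k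
  · exact coeff_fix_two (hq := hq) (hqN := hqN) hζ ⊤ hΦ σ hσ hσζ k

/-- the triple of expansions of an inertia-fixed function with integral expansions -/
def tripleOf {ζ : Kb} (hζ : IsPrimitiveRoot ζ q) (f : FF (N * q * q))
    (hfI : IsFixI A (N * q * q) f) (hfInt : IsInt3 N q hq hqN A hζ f) :
    Fin 3 → LaurentSeries (k0RingZeta A ζ) :=
  fun i => liftSer (k0RingZeta A ζ) (ex3 N q hq hqN hζ i f) (ex3_coeff_mem hζ hfI hfInt i)

theorem coeffMap_tripleOf {ζ : Kb} (hζ : IsPrimitiveRoot ζ q) (f : FF (N * q * q))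
    (hfI : IsFixI A (N * q * q) f) (hfInt : IsInt3 N q hq hqN A hζ f) (i : Fin 3) :
    coeffMap (k0RingZeta A ζ).subtype (tripleOf hζ f hfI hfInt i) = ex3 N q hq hqN hζ i f :=
  coeffMap_liftSer _ _ _

theorem tripleOf_mem {ζ : Kb} (hζ : IsPrimitiveRoot ζ q) (B : Subalgebra Kb (FF (N * q * q)))
    {f : FF (N * q * q)} (hfB : f ∈ B)
    (hfI : IsFixI A (N * q * q) f) (hfInt : IsInt3 N q hq hqN A hζ f) :
    tripleOf hζ f hfI hfInt ∈ ring3Z N q hq hqN A hζ B :=
  ⟨f, hfB, hfI, coeffMap_tripleOf hζ f hfI hfInt⟩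

/-- the expansions of an element of the ring are `A`-integral -/
theorem isInt3_of_mem {ζ : Kb} (hζ : IsPrimitiveRoot ζ q) {f : FF (N * q * q)}
    {Φ : Fin 3 → LaurentSeries (k0RingZeta A ζ)}
    (hΦ : ∀ i, coeffMap (k0RingZeta A ζ).subtype (Φ i) = ex3 N q hq hqN hζ i f) :
    IsInt3 N q hq hqN A hζ f := by
  intro i
  refine ⟨liftSer A.toSubring (ex3 N q hq hqN hζ i f) (fun k => ?_), coeffMap_liftSer _ _ _⟩
  rw [← hΦ i, coeffMap_coeff]
  exact ((Φ i).coeff k).2.1

/-- the constants of `O` lie in the ring -/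
theorem const_mem_ring3Z {ζ : Kb} (hζ : IsPrimitiveRoot ζ q)
    (B : Subalgebra Kb (FF (N * q * q))) (r : k0Ring A) :
    constHom (k0Ring A) (fun _ : Fin 3 => ↥(k0RingZeta A ζ)) r ∈ ring3Z N q hq hqN A hζ B := by
  refine ⟨algebraMap Kb (FF (N * q * q)) (r : Kb), B.algebraMap_mem _, fun σ hσ => ?_,
    fun i => ?_⟩
  · rw [arithmeticRingAut_algebraMap, r.2.2 σ hσ]
  · rw [ex3_algebraMap, constHom_apply, coeffMap_subtype_C]
    rfl

end Ring

/-! ### The discrete valuation ring `O = k0Ring A` -/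

section DVR

variable {q : ℕ} (hq : q.Prime) (A : ValuationSubring Kb) (hA : A.LiesOverPrime q)

include hq hA in
theorem k0Unif_ne_zero : k0Unif q A ≠ 0 := (k0Unif_irreducible hq A hA).ne_zero

include hq hA in
/-- `O` is `q`-adically separated -/
theorem k0Ring_sep (a : k0Ring A) (h : ∀ m : ℕ, k0Unif q A ^ m ∣ a) : a = 0 := by
  by_contra ha
  obtain ⟨m, u, hu⟩ := k0Ring_exists_pow_mul_unit hq A hA a ha
  obtain ⟨c, hc⟩ := h (m + 1)
  have hϖ0 : k0Unif q A ≠ 0 := k0Unif_ne_zero hq A hA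
  have h1 : (u : k0Ring A) = k0Unif q A * c := by
    have h2 : k0Unif q A ^ m * u = k0Unif q A ^ m * (k0Unif q A * c) := by
      rw [← hu, hc, pow_succ]
      ring
    exact mul_left_cancel₀ (pow_ne_zero m hϖ0) h2
  have h3 : IsUnit (k0Unif q A) := isUnit_of_mul_isUnit_left (by rw [← h1]; exact u.isUnit)
  exact (k0Unif_irreducible hq A hA).not_isUnit h3

include hq hA in
theorem k0Ring_maximalIdeal :
    haveI := k0Ring_isDiscreteValuationRing hq A hA
    IsLocalRing.maximalIdeal (k0Ring A) = Ideal.span {k0Unif q A} := by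
  haveI := k0Ring_isDiscreteValuationRing hq A hA
  exact (IsDiscreteValuationRing.irreducible_iff_uniformizer _).mp (k0Unif_irreducible hq A hA)

include hq hA in
theorem k0Ring_natCast_isUnit {n : ℕ} (hn : ¬ q ∣ n) : IsUnit ((n : ℕ) : k0Ring A) := by
  rw [k0Ring_isUnit_iff]
  exact k0_natCast_unit hq A hA hn

include hq hA in
theorem valSub_natCast_isUnit {n : ℕ} (hn : ¬ q ∣ n) : IsUnit ((n : ℕ) : A) := by
  rw [A.valuation_eq_one_iff]
  exact k0_natCast_unit hq A hA hn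

end DVR

/-! ### Valuations of the coefficients -/

section Val

variable (A : ValuationSubring Kb)

/-- all coefficients have valuation `≤ γ` -/
def ValLE (γ : A.ValueGroup) (x : LaurentSeries Kb) : Prop :=
  ∀ k : ℤ, A.valuation (x.coeff k) ≤ γ

variable {A}

theorem ValLE.add {γ : A.ValueGroup} {x y : LaurentSeries Kb} (hx : ValLE A γ x)
    (hy : ValLE A γ y) : ValLE A γ (x + y) := fun k => by
  rw [HahnSeries.coeff_add]
  exact A.valuation.map_add_le (hx k) (hy k)

theorem ValLE.mul {γ δ : A.ValueGroup} {x y : LaurentSeries Kb} (hx : ValLE A γ x)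
    (hy : ValLE A δ y) : ValLE A (γ * δ) (x * y) := fun k => by
  rw [HahnSeries.coeff_mul]
  refine Valuation.map_sum_le _ (fun ij _ => ?_)
  rw [map_mul]
  exact mul_le_mul' (hx _) (hy _)

theorem ValLE.mono {γ δ : A.ValueGroup} {x : LaurentSeries Kb} (hx : ValLE A γ x)
    (h : γ ≤ δ) : ValLE A δ x := fun k => (hx k).trans h

theorem valLE_one_one : ValLE A 1 (1 : LaurentSeries Kb) := fun k => by
  rw [HahnSeries.coeff_one]
  split_ifs
  · rw [map_one]
  · rw [map_zero]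
    exact zero_le

theorem ValLE.pow {γ : A.ValueGroup} {x : LaurentSeries Kb} (hx : ValLE A γ x) (m : ℕ) :
    ValLE A (γ ^ m) (x ^ m) := by
  induction m with
  | zero =>
    rw [pow_zero, pow_zero]
    exact valLE_one_one
  | succ m ih =>
    rw [pow_succ, pow_succ]
    exact ih.mul hx

theorem valLE_algebraMap (c : Kb) :
    ValLE A (A.valuation c) (algebraMap Kb (LaurentSeries Kb) c) := fun k => by
  rw [algebraMap_laurentSeries_eq_single, HahnSeries.coeff_single]
  split_ifs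
  · exact le_rfl
  · rw [map_zero]
    exact zero_le

theorem valLE_coeffMap (S : Subring Kb) (hS : ∀ x ∈ S, x ∈ A) (x : LaurentSeries S) :
    ValLE A 1 (coeffMap S.subtype x) := fun k => by
  rw [coeffMap_coeff]
  exact (A.valuation_le_one_iff _).mpr (hS _ (x.coeff k).2)

end Val

/-! ### The step (U) -/

section UStep

variable {q : ℕ} (hq : q.Prime) (A : ValuationSubring Kb) (hA : A.LiesOverPrime q)
  {ζ : Kb} (hζ : IsPrimitiveRoot ζ q)

include hq hA hζ in
/-- an element of the maximal ideal of `O1` has valuation `≤ v(1 - ζ)` -/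
theorem k0RingZeta_val_le (x : k0RingZeta A ζ) (hx : A.valuation (x : Kb) < 1) :
    A.valuation (x : Kb) ≤ A.valuation (1 - ζ) := by
  rcases eq_or_ne (x : Kb) 0 with h0 | h0
  · rw [h0, map_zero]
    exact zero_le
  obtain ⟨m, hm⟩ := k0_disc_zeta hq A hA hζ h0 x.2.2
  rw [hm, map_zpow₀] at hx ⊢
  have hγ1 : A.valuation (1 - ζ) < 1 := k0_zeta_val_lt hq A hA hζ
  have hγ0 : 0 < A.valuation (1 - ζ) := zero_lt_iff.mpr (k0_zeta_val_ne_zero hq A hζ)
  have hm1 : 1 ≤ m := by
    by_contra hcon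
    have hm0 : m ≤ 0 := by omega
    have h1 : A.valuation (1 - ζ) ^ (0 : ℤ) ≤ A.valuation (1 - ζ) ^ m :=
      (zpow_le_zpow_iff_right_of_lt_one₀ hγ0 hγ1).mpr hm0
    rw [zpow_zero] at h1
    exact absurd hx (not_lt.mpr h1)
  have h2 : A.valuation (1 - ζ) ^ m ≤ A.valuation (1 - ζ) ^ (1 : ℤ) :=
    (zpow_le_zpow_iff_right_of_lt_one₀ hγ0 hγ1).mpr hm1
  rwa [zpow_one] at h2

include hq hA hζ in
/-- **(U)**: the `q`-th power of a series over `O1` which is `≡ 1` modulo the maximal ideal is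
`≡ 1` modulo `q` -/
theorem exists_pow_q_sub_one (Z : LaurentSeries (k0RingZeta A ζ))
    (hZ : ∀ k : ℤ, A.valuation ((((Z - 1).coeff k : k0RingZeta A ζ)) : Kb) < 1) :
    ∃ z : LaurentSeries (k0RingZeta A ζ),
      Z ^ q - 1 = HahnSeries.C (algebraMap (k0Ring A) (k0RingZeta A ζ) (k0Unif q A)) * z := by
  have hγ1 : A.valuation (1 - ζ) < 1 := k0_zeta_val_lt hq A hA hζ
  have hvq : A.valuation (1 - ζ) ^ (q - 1) = A.valuation ((q : ℕ) : Kb) := k0_zeta_val hq A hζ
  have hSA : ∀ x ∈ k0RingZeta A ζ, x ∈ A := fun x hx => hx.1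
  have hU : ValLE A (A.valuation (1 - ζ)) (coeffMap (k0RingZeta A ζ).subtype (Z - 1)) :=
    fun k => by
      rw [coeffMap_coeff]
      exact k0RingZeta_val_le hq A hA hζ _ (hZ k)
  obtain ⟨r, hr⟩ := exists_add_pow_prime_eq hq (1 : LaurentSeries (k0RingZeta A ζ)) (Z - 1)
  have h1 : Z ^ q - 1 = (Z - 1) ^ q + (q : LaurentSeries (k0RingZeta A ζ)) * ((Z - 1) * r) := by
    have hZu : Z = 1 + (Z - 1) := by ring
    conv_lhs => rw [hZu, hr]
    ring
  have h2 : coeffMap (k0RingZeta A ζ).subtype (Z ^ q - 1)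
      = (coeffMap (k0RingZeta A ζ).subtype (Z - 1)) ^ q
        + algebraMap Kb (LaurentSeries Kb) ((q : ℕ) : Kb)
          * coeffMap (k0RingZeta A ζ).subtype ((Z - 1) * r) := by
    rw [h1, map_add, map_pow, map_mul (coeffMap (k0RingZeta A ζ).subtype) (q : LaurentSeries _),
      map_natCast, map_natCast]
  have h3 : ValLE A (A.valuation ((q : ℕ) : Kb))
      (coeffMap (k0RingZeta A ζ).subtype (Z ^ q - 1)) := by
    rw [h2]
    refine ValLE.add ?_ ?_
    · refine (hU.pow q).mono ?_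
      rw [← hvq]
      have hq1 : q = (q - 1) + 1 := by
        have := hq.one_lt
        omega
      conv_lhs => rw [hq1, pow_succ]
      calc A.valuation (1 - ζ) ^ (q - 1) * A.valuation (1 - ζ)
          ≤ A.valuation (1 - ζ) ^ (q - 1) * 1 := by gcongr
        _ = A.valuation (1 - ζ) ^ (q - 1) := mul_one _
    · have h4 := (valLE_algebraMap (A := A) ((q : ℕ) : Kb)).mul
        (valLE_coeffMap (A := A) (k0RingZeta A ζ) hSA ((Z - 1) * r))
      rwa [mul_one] at h4
  have hq0 : ((q : ℕ) : Kb) ≠ 0 := Nat.cast_ne_zero.mpr hq.ne_zero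
  have hvq0 : 0 < A.valuation ((q : ℕ) : Kb) := zero_lt_iff.mpr ((Valuation.ne_zero_iff _).mpr hq0)
  have hmem : ∀ k, (algebraMap Kb (LaurentSeries Kb) (((q : ℕ) : Kb)⁻¹)
      * coeffMap (k0RingZeta A ζ).subtype (Z ^ q - 1)).coeff k ∈ k0RingZeta A ζ := by
    intro k
    rw [algebraMap_laurentSeries_eq_single, HahnSeries.coeff_single_zero_mul, coeffMap_coeff]
    refine ⟨?_, fun σ hσ hσζ => ?_⟩
    · rw [← A.valuation_le_one_iff, map_mul, map_inv₀, inv_mul_le_iff₀ hvq0, mul_one]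
      have h5 := h3 k
      rw [coeffMap_coeff] at h5
      exact h5
    · rw [map_mul, map_inv₀, map_natCast]
      congr 1
      exact ((Z ^ q - 1).coeff k).2.2 σ hσ hσζ
  refine ⟨liftSer (k0RingZeta A ζ) _ hmem, ?_⟩
  apply coeffMap_subtype_injective (k0RingZeta A ζ)
  rw [map_mul, coeffMap_liftSer, coeffMap_subtype_C, ← mul_assoc, ← map_mul]
  have h6 : ((algebraMap (k0Ring A) (k0RingZeta A ζ) (k0Unif q A) : k0RingZeta A ζ) : Kb)
      = ((q : ℕ) : Kb) := rfl
  rw [h6, mul_inv_cancel₀ hq0, map_one, one_mul]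

end UStep

/-! ### Finite generation of the elements of bounded level -/

section FG

variable (N q : ℕ) [NeZero N] [NeZero q] (hq : q.Prime) (hqN : ¬ q ∣ N)
variable (A : ValuationSubring Kb) (hA : A.LiesOverPrime q)

/-- the coefficients of the three expansions -/
def exCoeff {ζ : Kb} (hζ : IsPrimitiveRoot ζ q) : FF (N * q * q) →ₗ[Kb] (Fin 3 × ℤ → Kb) where
  toFun f j := (ex3 N q hq hqN hζ j.1 f).coeff j.2
  map_add' f g := by
    funext j
    show (ex3 N q hq hqN hζ j.1 (f + g)).coeff j.2 = _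
    rw [map_add, HahnSeries.coeff_add]
    rfl
  map_smul' c f := by
    funext j
    show (ex3 N q hq hqN hζ j.1 (c • f)).coeff j.2 = _
    rw [Algebra.smul_def, map_mul, ex3_algebraMap, algebraMap_laurentSeries_eq_single,
      HahnSeries.coeff_single_zero_mul]
    rfl

theorem exCoeff_apply {ζ : Kb} (hζ : IsPrimitiveRoot ζ q) (f : FF (N * q * q)) (i : Fin 3)
    (k : ℤ) : exCoeff N q hq hqN hζ f (i, k) = (ex3 N q hq hqN hζ i f).coeff k := rfl

theorem exCoeff_injective {ζ : Kb} (hζ : IsPrimitiveRoot ζ q) :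
    Function.Injective (exCoeff N q hq hqN hζ) := by
  rw [← LinearMap.ker_eq_bot, LinearMap.ker_eq_bot']
  intro f hf
  apply Subtype.ext
  rw [← ex3_zero N q hq hqN hζ f]
  apply HahnSeries.ext
  funext k
  exact congrFun hf (0, k)

include hA in
/-- the elements of bounded level of the ring of triples form a finitely generated `O`-module,
if the corresponding functions lie in a finite-dimensional space -/
theorem ring3Z_fg {ζ : Kb} (hζ : IsPrimitiveRoot ζ q) (B : Subalgebra Kb (FF (N * q * q)))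
    (L : ℤ)
    (hBfin : ∃ V : Submodule Kb (FF (N * q * q)), FiniteDimensional Kb V ∧
      ∀ f ∈ B, IsFixI A (N * q * q) f → IsInt3 N q hq hqN A hζ f →
        (∀ (i : Fin 3) (k : ℤ), L < -k * (wt3 q i : ℤ) →
          (ex3 N q hq hqN hζ i f).coeff k = 0) → f ∈ V) :
    ∃ S : Finset (Fin 3 → LaurentSeries (k0RingZeta A ζ)),
      (∀ s ∈ S, s ∈ ring3Z N q hq hqN A hζ B ∧ LevelLE (wt3 q) L s) ∧
      ∀ x ∈ ring3Z N q hq hqN A hζ B, LevelLE (wt3 q) L x →
        ∃ a : (Fin 3 → LaurentSeries (k0RingZeta A ζ)) → k0Ring A,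
          x = ∑ s ∈ S, constHom (k0Ring A) (fun _ : Fin 3 => ↥(k0RingZeta A ζ)) (a s) * s := by
  classical
  haveI := k0Ring_isDiscreteValuationRing hq A hA
  obtain ⟨V, hVfd, hV⟩ := hBfin
  let b : ∀ _ : Fin 3, Module.Basis (Fin (q - 1)) (k0Ring A) (k0RingZeta A ζ) :=
    fun _ => k0ZetaBasis hq A hA hζ
  -- the lattice
  let Λ : Submodule (k0Ring A) (PFam (k0Ring A) (fun _ : Fin 3 => ↥(k0RingZeta A ζ))) :=
    { carrier := {x | ofPFam x ∈ ring3Z N q hq hqN A hζ B ∧ LevelLE (wt3 q) L (ofPFam x)}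
      add_mem' := fun {x y} hx hy => ⟨Subring.add_mem _ hx.1 hy.1, LevelLE.add hx.2 hy.2⟩
      zero_mem' := ⟨Subring.zero_mem _, LevelLE.zero⟩
      smul_mem' := fun r x hx => by
        refine ⟨?_, ?_⟩
        · show ofPFam (r • x) ∈ _
          rw [pfam_smul_def]
          exact Subring.mul_mem _ (const_mem_ring3Z hζ B r) hx.1
        · show LevelLE (wt3 q) L (ofPFam (r • x))
          rw [pfam_smul_def]
          exact levelLE_const_mul (wt3 q) r hx.2 }
  have hΛ : ∀ x : PFam (k0Ring A) (fun _ : Fin 3 => ↥(k0RingZeta A ζ)),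
      x ∈ Λ ↔ ofPFam x ∈ ring3Z N q hq hqN A hζ B ∧ LevelLE (wt3 q) L (ofPFam x) :=
    fun x => Iff.rfl
  -- separating coordinates
  haveI : FiniteDimensional Kb (V.map (exCoeff N q hq hqN hζ)) := inferInstance
  obtain ⟨j, hj⟩ := exists_coords (Module.finrank Kb (V.map (exCoeff N q hq hqN hζ)))
    (V.map (exCoeff N q hq hqN hζ)) inferInstance rfl
  let T : PFam (k0Ring A) (fun _ : Fin 3 => ↥(k0RingZeta A ζ)) →ₗ[k0Ring A]
      (Fin (Module.finrank Kb (V.map (exCoeff N q hq hqN hζ))) × Fin (q - 1) → k0Ring A) :=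
    (LinearMap.funLeft (k0Ring A) (k0Ring A)
      (fun ts : Fin (Module.finrank Kb (V.map (exCoeff N q hq hqN hζ))) × Fin (q - 1) =>
        (⟨(j ts.1).1, (j ts.1).2, ts.2⟩ : Σ _ : Fin 3, ℤ × Fin (q - 1)))).comp (coordMap b)
  have hT : ∀ x ts, T x ts
      = (k0ZetaBasis hq A hA hζ).repr ((ofPFam x (j ts.1).1).coeff (j ts.1).2) ts.2 :=
    fun x ts => rfl
  have hinj : Function.Injective (T.domRestrict Λ) := by
    rw [← LinearMap.ker_eq_bot, LinearMap.ker_eq_bot']
    rintro ⟨x, hx⟩ hTx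
    apply Subtype.ext
    show x = 0
    obtain ⟨⟨f, hfB, hfI, hf⟩, hxL⟩ := (hΛ x).mp hx
    have hcoef : ∀ (i : Fin 3) (k : ℤ),
        (ex3 N q hq hqN hζ i f).coeff k = (((ofPFam x i).coeff k : k0RingZeta A ζ) : Kb) := by
      intro i k
      rw [← hf i, coeffMap_coeff]
      rfl
    have hfV : f ∈ V := by
      refine hV f hfB hfI (isInt3_of_mem hζ hf) (fun i k hk => ?_)
      rw [hcoef, hxL i k hk]
      rfl
    have h0 : exCoeff N q hq hqN hζ f = 0 := by
      refine hj _ (Submodule.mem_map_of_mem hfV) (fun t => ?_)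
      rw [exCoeff_apply, hcoef]
      have h1 : (k0ZetaBasis hq A hA hζ).repr ((ofPFam x (j t).1).coeff (j t).2) = 0 := by
        apply Finsupp.ext
        intro s
        have h2 := congrFun hTx (t, s)
        rw [Finsupp.zero_apply]
        exact h2
      rw [(k0ZetaBasis hq A hA hζ).repr.map_eq_zero_iff.mp h1]
      rfl
    have hf0 : f = 0 := exCoeff_injective N q hq hqN hζ (by rw [h0, map_zero])
    have hx0 : ofPFam x = 0 := by
      funext i
      apply coeffMap_subtype_injective (k0RingZeta A ζ)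
      have h3 := hf i
      rw [hf0, map_zero] at h3
      rw [h3]
      exact (map_zero _).symm
    exact hx0
  haveI : Module.Finite (k0Ring A) Λ := Module.Finite.of_injective (T.domRestrict Λ) hinj
  have hfgΛ : Λ.FG := Module.Finite.iff_fg.mp inferInstance
  obtain ⟨S, hS⟩ := hfgΛ
  refine ⟨S, fun s hs => ?_, fun x hxR hxL => ?_⟩
  · have h1 : s ∈ Λ := by
      rw [← hS]
      exact Submodule.subset_span (Finset.mem_coe.mpr hs)
    exact (hΛ s).mp h1
  · have h1 : toPFam (𝒪 := k0Ring A) x ∈ Submodule.span (k0Ring A) (S : Set _) := by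
      rw [hS]
      exact (hΛ _).mpr ⟨hxR, hxL⟩
    obtain ⟨a, -, ha⟩ := Submodule.mem_span_finset.mp h1
    refine ⟨a, ?_⟩
    have e1 : ∀ T' : Finset (Fin 3 → LaurentSeries (k0RingZeta A ζ)),
        ofPFam (∑ s ∈ T', a s • toPFam (𝒪 := k0Ring A) s)
          = ∑ s ∈ T', constHom (k0Ring A) (fun _ : Fin 3 => ↥(k0RingZeta A ζ)) (a s) * s := by
      intro T'
      induction T' using Finset.induction_on with
      | empty => rfl
      | insert s T' hsT ih =>
        rw [Finset.sum_insert hsT, Finset.sum_insert hsT, ← ih]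
        rfl
    rw [← e1 S]
    exact (congrArg ofPFam ha).symm

end FG

/-! ### Saturation -/

section Sat

variable (N q : ℕ) [NeZero N] [NeZero q] (hq : q.Prime) (hqN : ¬ q ∣ N)
variable (A : ValuationSubring Kb) (hA : A.LiesOverPrime q)

/-- the ring of triples is saturated with respect to `q` -/
theorem ring3Z_sat {ζ : Kb} (hζ : IsPrimitiveRoot ζ q) (B : Subalgebra Kb (FF (N * q * q)))
    (x : Fin 3 → LaurentSeries (k0RingZeta A ζ))
    (hx : constHom (k0Ring A) (fun _ : Fin 3 => ↥(k0RingZeta A ζ)) (k0Unif q A) * x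
      ∈ ring3Z N q hq hqN A hζ B) : x ∈ ring3Z N q hq hqN A hζ B := by
  obtain ⟨f, hfB, hfI, hf⟩ := hx
  have hq0 : ((q : ℕ) : Kb) ≠ 0 := Nat.cast_ne_zero.mpr hq.ne_zero
  refine ⟨algebraMap Kb (FF (N * q * q)) (((q : ℕ) : Kb)⁻¹) * f,
    B.mul_mem (B.algebraMap_mem _) hfB, fun σ hσ => ?_, fun i => ?_⟩
  · rw [map_mul, arithmeticRingAut_algebraMap, hfI σ hσ, map_inv₀, map_natCast]
  · have h1 : coeffMap (k0RingZeta A ζ).subtype
        ((constHom (k0Ring A) (fun _ : Fin 3 => ↥(k0RingZeta A ζ)) (k0Unif q A) * x) i)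
        = algebraMap Kb (LaurentSeries Kb) ((q : ℕ) : Kb)
          * coeffMap (k0RingZeta A ζ).subtype (x i) := by
      rw [Pi.mul_apply, map_mul, constHom_apply, coeffMap_subtype_C]
      rfl
    rw [map_mul, ex3_algebraMap, ← hf i, h1, ← mul_assoc, ← map_mul, inv_mul_cancel₀ hq0,
      map_one, one_mul]

/-- (SAT) for the ring of triples, from `helper74.Sat3Statement` -/
theorem ring3Z_SAT {ζ : Kb} (hζ : IsPrimitiveRoot ζ q) (B : Subalgebra Kb (FF (N * q * q)))
    (L₀ L : ℤ) (hL : L₀ ≤ L) (hSat : Sat3Statement N q hq hqN A hζ B L₀)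
    (Φ : Fin 3 → LaurentSeries (k0RingZeta A ζ)) (hΦ : Φ ∈ ring3Z N q hq hqN A hζ B)
    (hdec : ∃ y, LevelLE (wt3 q) L y ∧ ∃ z,
      Φ = y + constHom (k0Ring A) (fun _ : Fin 3 => ↥(k0RingZeta A ζ)) (k0Unif q A) * z) :
    ∃ l ∈ ring3Z N q hq hqN A hζ B, LevelLE (wt3 q) L l ∧ ∃ r ∈ ring3Z N q hq hqN A hζ B,
      Φ = l + constHom (k0Ring A) (fun _ : Fin 3 => ↥(k0RingZeta A ζ)) (k0Unif q A) * r := by
  obtain ⟨f, hfB, hfI, hf⟩ := hΦ
  obtain ⟨y, hy, z, hz⟩ := hdec
  have hfInt : IsInt3 N q hq hqN A hζ f := isInt3_of_mem hζ hf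
  have hcoef : ∀ (i : Fin 3) (k : ℤ),
      (ex3 N q hq hqN hζ i f).coeff k = (((Φ i).coeff k : k0RingZeta A ζ) : Kb) := by
    intro i k
    rw [← hf i, coeffMap_coeff]
    rfl
  obtain ⟨g, hgB, hgI, hgInt, hg⟩ := hSat L hL f hfB hfI hfInt (fun i k hk => by
    refine ⟨(((z i).coeff k : k0RingZeta A ζ) : Kb), ((z i).coeff k).2.1, ?_⟩
    rw [hcoef, hz]
    have h2 : ((y + constHom (k0Ring A) (fun _ : Fin 3 => ↥(k0RingZeta A ζ)) (k0Unif q A) * z)
        i).coeff k = (y i).coeff k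
          + ((constHom (k0Ring A) (fun _ : Fin 3 => ↥(k0RingZeta A ζ)) (k0Unif q A) * z)
            i).coeff k := rfl
    rw [h2, constHom_mul_coeff, hy i k hk, zero_add, k0RingZeta_smul_coe]
    rfl)
  have hr : tripleOf hζ g hgI hgInt ∈ ring3Z N q hq hqN A hζ B := tripleOf_mem hζ B hgB hgI hgInt
  refine ⟨Φ - constHom (k0Ring A) (fun _ : Fin 3 => ↥(k0RingZeta A ζ)) (k0Unif q A)
      * tripleOf hζ g hgI hgInt,
    Subring.sub_mem _ ⟨f, hfB, hfI, hf⟩ (Subring.mul_mem _ (const_mem_ring3Z hζ B _) hr), ?_,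
    tripleOf hζ g hgI hgInt, hr, by ring⟩
  intro i k hk
  apply Subtype.ext
  have h1 : coeffMap (k0RingZeta A ζ).subtype
      ((Φ - constHom (k0Ring A) (fun _ : Fin 3 => ↥(k0RingZeta A ζ)) (k0Unif q A)
        * tripleOf hζ g hgI hgInt) i)
      = ex3 N q hq hqN hζ i (f - algebraMap Kb (FF (N * q * q)) ((q : ℕ) : Kb) * g) := by
    rw [Pi.sub_apply, Pi.mul_apply, map_sub, map_mul, hf i, constHom_apply, coeffMap_subtype_C,
      coeffMap_tripleOf, map_sub, map_mul, ex3_algebraMap]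
    rfl
  have h2 := congrArg (fun s => s.coeff k) h1
  simp only [coeffMap_coeff] at h2
  rw [hg i k hk] at h2
  exact h2

end Sat

/-! ### ROOT3 -/

section Main

variable (N q : ℕ) [NeZero N] [NeZero q] (hq : q.Prime) (hqN : ¬ q ∣ N)
variable (A : ValuationSubring Kb) (hA : A.LiesOverPrime q)

include hA in
/-- the three normalised formal `n`-th roots, with coefficients in `O1` -/
theorem exists_roots3 {ζ : Kb} (hζ : IsPrimitiveRoot ζ q) (n : ℕ) (hn : ¬ q ∣ n)
    (H : FF (N * q * q)) (hHI : IsFixI A (N * q * q) H)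
    (hdiv : ∀ P : Place Kb (FF (N * q * q)), (n : ℤ) ∣ P.ord H)
    (hreg : ∀ P : Place Kb (FF (N * q * q)), 0 ≤ P.ord (jElt (N * q * q)) → 0 ≤ P.ord H)
    (hred : ∀ i : Fin 3, ∃ Y : LaurentSeries A,
      incl A Y = ex3 N q hq hqN hζ i H ∧ red A Y = 1) :
    ∃ Z : Fin 3 → LaurentSeries (k0RingZeta A ζ),
      (∀ i, (coeffMap (k0RingZeta A ζ).subtype (Z i)) ^ n = ex3 N q hq hqN hζ i H) ∧
      ∀ (i : Fin 3) (k : ℤ), A.valuation ((((Z i - 1).coeff k : k0RingZeta A ζ)) : Kb) < 1 := by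
  have hm : IsUnit ((n : ℕ) : A) := valSub_natCast_isUnit hq A hA hn
  have hdec : ∀ σ ∈ A.inertiaSubgroupIn ℚ, σ ∈ A.decompositionSubgroup ℚ := fun σ hσ =>
    ((Fermat.Agent.S14.helper91.mem_inertiaSubgroupIn_iff_valuation A σ).mp hσ).1
  have hroot : ∀ i : Fin 3, ∃ Z : LaurentSeries A,
      (incl A Z) ^ n = ex3 N q hq hqN hζ i H ∧ red A Z = 1 ∧
      ∀ σ ∈ A.inertiaSubgroupIn ℚ, σ ζ = ζ →
        coeffMap (σ : Kb →+* Kb) (incl A Z) = incl A Z := by
    intro i
    obtain ⟨Y, hY, hYr⟩ := hred i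
    rcases fin3_cases i with rfl | rfl | rfl
    · rw [ex3_zero] at hY ⊢
      obtain ⟨Z, hZ, hZr⟩ := Fermat.Agent.T3.helper23.disc_root_infty (N * q * q) A n hm H hdiv
        hreg Y hY hYr
      exact ⟨Z, hZ, hZr, fun σ hσ _ => Fermat.Agent.T3.helper23.root_fixed_infty (N * q * q) n
        hm σ (hdec σ hσ) H (hHI σ hσ) Z hZ hZr⟩
    · rw [ex3_one] at hY ⊢
      obtain ⟨Z, hZ, hZr⟩ := Fermat.Agent.T3.helper23.disc_root_zero N q hq hqN A n hm H hdiv
        hreg Y hY hYr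
      exact ⟨Z, hZ, hZr, fun σ hσ _ => Fermat.Agent.T3.helper23.root_fixed_zero N q hq hqN n
        hm σ (hdec σ hσ) H (hHI σ hσ) Z hZ hZr⟩
    · rw [ex3_two] at hY ⊢
      obtain ⟨Z, hZ, hZr⟩ := Fermat.Agent.T3.helper23.disc_root_mid N q hq hqN hζ (midOne q hq)
        (midOne_ne q hq) A n hm H hdiv hreg Y hY hYr
      exact ⟨Z, hZ, hZr, fun σ hσ hσζ => Fermat.Agent.T3.helper23.root_fixed_mid N q hq hqN hζ
        (midOne q hq) (midOne_ne q hq) n hm σ (hdec σ hσ) hσζ H (hHI σ hσ) Z hZ hZr⟩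
  choose Z hZn hZr hZfix using hroot
  have hZmem : ∀ (i : Fin 3) (k : ℤ), (incl A (Z i)).coeff k ∈ k0RingZeta A ζ := by
    intro i k
    refine ⟨?_, fun σ hσ hσζ => ?_⟩
    · rw [coeffMap_coeff]
      exact ((Z i).coeff k).2
    · have h1 := congrArg (fun s => s.coeff k) (hZfix i σ hσ hσζ)
      simp only [coeffMap_coeff] at h1
      exact h1
  refine ⟨fun i => liftSer (k0RingZeta A ζ) (incl A (Z i)) (hZmem i), fun i => ?_,
    fun i k => ?_⟩
  · rw [coeffMap_liftSer]
    exact hZn i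
  · have h1 : ((((liftSer (k0RingZeta A ζ) (incl A (Z i)) (hZmem i) - 1).coeff k :
        k0RingZeta A ζ)) : Kb) = (((Z i - 1).coeff k : A) : Kb) := by
      have e1 : coeffMap (k0RingZeta A ζ).subtype
          (liftSer (k0RingZeta A ζ) (incl A (Z i)) (hZmem i) - 1) = incl A (Z i - 1) := by
        rw [map_sub, map_sub, coeffMap_liftSer, map_one, map_one]
      have e2 := congrArg (fun s => s.coeff k) e1
      simp only [coeffMap_coeff] at e2
      exact e2
    rw [h1, ← A.valuation_lt_one_iff, ← IsLocalRing.residue_eq_zero_iff]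
    have e3 : red A (Z i - 1) = 0 := by rw [map_sub, hZr i, map_one, sub_self]
    have e4 := congrArg (fun s => s.coeff k) e3
    simp only [coeffMap_coeff, HahnSeries.coeff_zero] at e4
    exact e4

include hA in
/-- **ROOT3 at level `N q q`**: an inertia-fixed element `H` of `B`, regular off the cusps,
whose three expansions are `A`-integral with reduction `1` and whose divisor is divisible by
`n`, `q ∤ n`, is an `n`-th power of an inertia-fixed function.  `B` is any ring of functions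
satisfying (SAT_q) (`helper74.Sat3Statement`, e.g. `helper74.sat3_of`) whose inertia-fixed
integral elements of bounded level lie in finite-dimensional spaces (Riemann). -/
theorem root3_of {ζ : Kb} (hζ : IsPrimitiveRoot ζ q) (B : Subalgebra Kb (FF (N * q * q)))
    (hBfin : ∀ L : ℤ, ∃ V : Submodule Kb (FF (N * q * q)), FiniteDimensional Kb V ∧
      ∀ f ∈ B, IsFixI A (N * q * q) f → IsInt3 N q hq hqN A hζ f →
        (∀ (i : Fin 3) (k : ℤ), L < -k * (wt3 q i : ℤ) →
          (ex3 N q hq hqN hζ i f).coeff k = 0) → f ∈ V)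
    (L₀ : ℤ) (hSat : Sat3Statement N q hq hqN A hζ B L₀)
    (n : ℕ) (hn : ¬ q ∣ n) (H : FF (N * q * q)) (hHB : H ∈ B)
    (hHI : IsFixI A (N * q * q) H)
    (hdiv : ∀ P : Place Kb (FF (N * q * q)), (n : ℤ) ∣ P.ord H)
    (hreg : ∀ P : Place Kb (FF (N * q * q)), 0 ≤ P.ord (jElt (N * q * q)) → 0 ≤ P.ord H)
    (hred : ∀ i : Fin 3, ∃ Y : LaurentSeries A,
      incl A Y = ex3 N q hq hqN hζ i H ∧ red A Y = 1) :
    ∃ v : FF (N * q * q), IsFixI A (N * q * q) v ∧ H = v ^ n := by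
  classical
  haveI := k0Ring_isDiscreteValuationRing hq A hA
  have hn0 : n ≠ 0 := by
    rintro rfl
    exact hn (dvd_zero q)
  obtain ⟨Z, hZn, hZ1⟩ := exists_roots3 N q hq hqN A hA hζ n hn H hHI hdiv hreg hred
  have hw1 : ∃ z, Z ^ q - 1
      = constHom (k0Ring A) (fun _ : Fin 3 => ↥(k0RingZeta A ζ)) (k0Unif q A) * z := by
    choose z hz using fun i => exists_pow_q_sub_one hq A hA hζ (Z i) (hZ1 i)
    exact ⟨z, funext fun i => hz i⟩
  obtain ⟨d, hd⟩ := exists_levelLE (wt3 q) (max L₀ 0) (Z ^ q)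
  have hL0 : 0 ≤ max L₀ 0 + (d : ℤ) := add_nonneg (le_max_right _ _) (Int.natCast_nonneg d)
  have hL₀ : L₀ ≤ max L₀ 0 + (d : ℤ) :=
    le_add_of_le_of_nonneg (le_max_left _ _) (Int.natCast_nonneg d)
  have hwR : (Z ^ q) ^ n ∈ ring3Z N q hq hqN A hζ B := by
    refine ⟨H ^ q, B.pow_mem hHB q, fun σ hσ => by rw [map_pow, hHI σ hσ], fun i => ?_⟩
    rw [map_pow, ← hZn i, Pi.pow_apply, Pi.pow_apply, map_pow, map_pow, ← pow_mul, ← pow_mul,
      mul_comm q n]
  have hwmem := root_of_sat (𝒪 := k0Ring A) (C := fun _ : Fin 3 => ↥(k0RingZeta A ζ))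
    (κ := fun _ => Fin (q - 1))
    (k0Unif q A) (k0Ring_maximalIdeal hq A hA) (k0Unif_ne_zero hq A hA) (k0Ring_sep hq A hA)
    (fun _ => k0ZetaBasis hq A hA hζ) (ring3Z N q hq hqN A hζ B) (const_mem_ring3Z hζ B)
    (ring3Z_sat N q hq hqN A hζ B) (wt3 q) (max L₀ 0 + (d : ℤ)) hL0
    (ring3Z_SAT N q hq hqN A hζ B L₀ _ hL₀ hSat)
    (ring3Z_fg N q hq hqN A hA hζ B _ (hBfin _)) n (k0Ring_natCast_isUnit hq A hA hn)
    (Z ^ q) hd hwR hw1
  obtain ⟨f, hfB, hfI, hf⟩ := hwmem
  have hfn : f ^ n = H ^ q := by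
    apply (ex3 N q hq hqN hζ 0).injective
    rw [map_pow, map_pow, ← hf 0, ← hZn 0, Pi.pow_apply, map_pow, ← pow_mul, ← pow_mul,
      mul_comm q n]
  have hcop : IsCoprime (q : ℤ) (n : ℤ) :=
    Nat.isCoprime_iff_coprime.mpr ((Nat.Prime.coprime_iff_not_dvd hq).mpr hn)
  obtain ⟨a, b, hab⟩ := hcop
  rcases eq_or_ne H 0 with rfl | hH0
  · exact ⟨0, fun σ _ => map_zero _, by rw [zero_pow hn0]⟩
  have h1 : (f ^ a) ^ n = (f ^ n) ^ a := by
    rw [← zpow_natCast, ← zpow_mul, mul_comm a (n : ℤ), zpow_mul, zpow_natCast]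
  have h2 : (H ^ b) ^ n = H ^ (b * n) := by
    rw [← zpow_natCast, ← zpow_mul]
  have h3 : (H ^ q) ^ a = H ^ (a * q) := by
    rw [← zpow_natCast H q, ← zpow_mul, mul_comm (q : ℤ) a]
  refine ⟨f ^ a * H ^ b, fun σ hσ => by
    rw [map_mul, map_zpow₀, map_zpow₀, hfI σ hσ, hHI σ hσ], ?_⟩
  rw [mul_pow, h1, hfn, h3, h2, ← zpow_add₀ hH0, hab, zpow_one]

end Main

end Fermat.Agent.T3.helper27

end
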