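/-
T3 (S36), helper27, [T3-ROOT3-PACK]: ROOT3 for an arbitrary finite family of expansions
(generic form of `helper27_Root3Inst`, for [CUSP-ALL]).

Level `M`, `q` prime, `A` a valuation subring of `ℚ̄` over `q`, `I` its inertia group,
`O = k0Ring A`, `O1 = k0RingZeta A ζ = O[ζ]`, `ζ` a primitive `q`-th root of unity.
`E : ι → FF M →+* ℚ̄((t))` a finite family of expansions (ring homomorphisms which are the
identity on the constants), `ω : ι → ℕ` co-weights, `B` a ring of functions.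

* `IsIntE A E f` : the expansions of `f` are `A`-integral;
* `FixStatementE A ζ E` : the expansions of an inertia-fixed function have coefficients fixed by
  the inertia elements fixing `ζ`;
* `SatStatementE q A E ω B L₀` : (SAT_q) (`helper74.Sat3Statement` is the case `E = ex3`);
* `FinStatementE A E ω B` : the inertia-fixed integral elements of `B` of bounded level lie in
  finite-dimensional spaces (Riemann);
* `root_of_pack` : **ROOT3**: if `H ∈ B` is inertia-fixed and every expansion `E i H` has an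
  `A`-integral formal `n`-th root with reduction `1` (DISC), `q ∤ n`, then `H = v ^ n` with `v`
  inertia-fixed.
-/
import Mathlib
import Fermat.Agent.T3.helper27_Root3Inst

set_option autoImplicit false
set_option synthInstance.maxHeartbeats 400000
set_option maxHeartbeats 1000000
set_option linter.unusedSectionVars false
set_option linter.unusedVariables false
set_option linter.style.haveILetI false
set_option linter.style.longLine false

noncomputable section

open HahnSeries IntermediateField AlgebraicCurve ModularCurve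
open Fermat.Agent.S18.helper19 Fermat.Agent.P2.helper29 Fermat.Agent.T2.helper36
open Fermat.Agent.T3.helper74 Fermat.Agent.T3.helper84

namespace Fermat.Agent.T3.helper27

/-! ### Statements -/

section Defs

variable {M : ℕ} [NeZero M] (q : ℕ) (A : ValuationSubring Kb) (ζ : Kb)
  {ι : Type*} (E : ι → FF M →+* LaurentSeries Kb) (ω : ι → ℕ)

/-- the expansions of `f` are `A`-integral -/
def IsIntE (f : FF M) : Prop :=
  ∀ i : ι, ∃ Y : LaurentSeries A, incl A Y = E i f

/-- the expansions of an inertia-fixed function have coefficients fixed by the inertia elements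
fixing `ζ` -/
def FixStatementE : Prop :=
  ∀ (i : ι) (f : FF M), IsFixI A M f → ∀ σ ∈ A.inertiaSubgroupIn ℚ, σ ζ = ζ →
    coeffMap (σ : Kb →+* Kb) (E i f) = E i f

/-- **(SAT_q)** for the ring `B` and the family of expansions `E` -/
def SatStatementE (B : Subalgebra Kb (FF M)) (L₀ : ℤ) : Prop :=
  ∀ L : ℤ, L₀ ≤ L → ∀ f : FF M, f ∈ B → IsFixI A M f → IsIntE A E f →
    (∀ (i : ι) (k : ℤ), L < -k * (ω i : ℤ) →
      ∃ c : Kb, c ∈ A ∧ (E i f).coeff k = (q : Kb) * c) →
    ∃ g : FF M, g ∈ B ∧ IsFixI A M g ∧ IsIntE A E g ∧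
      ∀ (i : ι) (k : ℤ), L < -k * (ω i : ℤ) →
        (E i (f - algebraMap Kb (FF M) (q : Kb) * g)).coeff k = 0

/-- **(FIN)** the inertia-fixed integral elements of `B` of bounded level lie in
finite-dimensional spaces -/
def FinStatementE (B : Subalgebra Kb (FF M)) : Prop :=
  ∀ L : ℤ, ∃ V : Submodule Kb (FF M), FiniteDimensional Kb V ∧
    ∀ f ∈ B, IsFixI A M f → IsIntE A E f →
      (∀ (i : ι) (k : ℤ), L < -k * (ω i : ℤ) → (E i f).coeff k = 0) → f ∈ V

end Defs

/-! ### The ring of families of expansions over `O1` -/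

section Ring

variable {M : ℕ} [NeZero M] {q : ℕ} (A : ValuationSubring Kb) (ζ : Kb)
  {ι : Type*} (E : ι → FF M →+* LaurentSeries Kb)

/-- the ring of the families of expansions, with coefficients in `O1 = k0RingZeta A ζ`, of the
inertia-fixed elements of `B` -/
def ringE (B : Subalgebra Kb (FF M)) : Subring (ι → LaurentSeries (k0RingZeta A ζ)) where
  carrier := {Φ | ∃ f : FF M, f ∈ B ∧ IsFixI A M f ∧
    ∀ i, coeffMap (k0RingZeta A ζ).subtype (Φ i) = E i f}
  mul_mem' := by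
    rintro Φ Ψ ⟨f, hf, hfI, hfΦ⟩ ⟨g, hg, hgI, hgΨ⟩
    refine ⟨f * g, B.mul_mem hf hg, fun σ hσ => by rw [map_mul, hfI σ hσ, hgI σ hσ],
      fun i => ?_⟩
    rw [Pi.mul_apply, map_mul, map_mul, hfΦ, hgΨ]
  one_mem' := ⟨1, B.one_mem, fun σ _ => map_one _, fun i => by
    rw [Pi.one_apply, map_one, map_one]⟩
  add_mem' := by
    rintro Φ Ψ ⟨f, hf, hfI, hfΦ⟩ ⟨g, hg, hgI, hgΨ⟩
    refine ⟨f + g, B.add_mem hf hg, fun σ hσ => by rw [map_add, hfI σ hσ, hgI σ hσ],
      fun i => ?_⟩
    rw [Pi.add_apply, map_add, map_add, hfΦ, hgΨ]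
  zero_mem' := ⟨0, B.zero_mem, fun σ _ => map_zero _, fun i => by
    rw [Pi.zero_apply, map_zero, map_zero]⟩
  neg_mem' := by
    rintro Φ ⟨f, hf, hfI, hfΦ⟩
    refine ⟨-f, B.neg_mem hf, fun σ hσ => by rw [map_neg, hfI σ hσ], fun i => ?_⟩
    rw [Pi.neg_apply, map_neg, map_neg, hfΦ]

theorem mem_ringE (B : Subalgebra Kb (FF M)) (Φ : ι → LaurentSeries (k0RingZeta A ζ)) :
    Φ ∈ ringE A ζ E B ↔ ∃ f : FF M, f ∈ B ∧ IsFixI A M f ∧
      ∀ i, coeffMap (k0RingZeta A ζ).subtype (Φ i) = E i f := Iff.rfl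

variable {A ζ E}

/-- the coefficients of the expansions of an inertia-fixed function with `A`-integral expansions
lie in `O1` -/
theorem coeff_memE (hEfix : FixStatementE A ζ E) {f : FF M}
    (hfI : IsFixI A M f) (hfInt : IsIntE A E f) (i : ι) (k : ℤ) :
    (E i f).coeff k ∈ k0RingZeta A ζ := by
  obtain ⟨Y, hY⟩ := hfInt i
  refine ⟨?_, fun σ hσ hσζ => ?_⟩
  · rw [← hY, coeffMap_coeff]
    exact (Y.coeff k).2
  · have h1 := congrArg (fun s => s.coeff k) (hEfix i f hfI σ hσ hσζ)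
    simp only [coeffMap_coeff] at h1
    exact h1

/-- the family of expansions of an inertia-fixed function with integral expansions -/
def tripleE (hEfix : FixStatementE A ζ E) (f : FF M)
    (hfI : IsFixI A M f) (hfInt : IsIntE A E f) : ι → LaurentSeries (k0RingZeta A ζ) :=
  fun i => liftSer (k0RingZeta A ζ) (E i f) (coeff_memE hEfix hfI hfInt i)

theorem coeffMap_tripleE (hEfix : FixStatementE A ζ E) (f : FF M)
    (hfI : IsFixI A M f) (hfInt : IsIntE A E f) (i : ι) :
    coeffMap (k0RingZeta A ζ).subtype (tripleE hEfix f hfI hfInt i) = E i f :=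
  coeffMap_liftSer _ _ _

theorem tripleE_mem (hEfix : FixStatementE A ζ E) (B : Subalgebra Kb (FF M))
    {f : FF M} (hfB : f ∈ B) (hfI : IsFixI A M f) (hfInt : IsIntE A E f) :
    tripleE hEfix f hfI hfInt ∈ ringE A ζ E B :=
  ⟨f, hfB, hfI, coeffMap_tripleE hEfix f hfI hfInt⟩

/-- the expansions of an element of the ring are `A`-integral -/
theorem isIntE_of_mem {f : FF M} {Φ : ι → LaurentSeries (k0RingZeta A ζ)}
    (hΦ : ∀ i, coeffMap (k0RingZeta A ζ).subtype (Φ i) = E i f) : IsIntE A E f := by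
  intro i
  refine ⟨liftSer A.toSubring (E i f) (fun k => ?_), coeffMap_liftSer _ _ _⟩
  rw [← hΦ i, coeffMap_coeff]
  exact ((Φ i).coeff k).2.1

/-- the constants of `O` lie in the ring -/
theorem const_mem_ringE
    (hEalg : ∀ (i : ι) (c : Kb), E i (algebraMap Kb (FF M) c) = algebraMap Kb (LaurentSeries Kb) c)
    (B : Subalgebra Kb (FF M)) (r : k0Ring A) :
    constHom (k0Ring A) (fun _ : ι => ↥(k0RingZeta A ζ)) r ∈ ringE A ζ E B := by
  refine ⟨algebraMap Kb (FF M) (r : Kb), B.algebraMap_mem _, fun σ hσ => ?_, fun i => ?_⟩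
  · rw [arithmeticRingAut_algebraMap, r.2.2 σ hσ]
  · rw [hEalg, constHom_apply, coeffMap_subtype_C]
    rfl

end Ring

/-! ### Finite generation of the elements of bounded level -/

section FG

variable {M : ℕ} [NeZero M] {q : ℕ} (hq : q.Prime) (A : ValuationSubring Kb)
  (hA : A.LiesOverPrime q) {ζ : Kb} (hζ : IsPrimitiveRoot ζ q)
  {ι : Type*} (E : ι → FF M →+* LaurentSeries Kb) (ω : ι → ℕ)
  (hEalg : ∀ (i : ι) (c : Kb), E i (algebraMap Kb (FF M) c) = algebraMap Kb (LaurentSeries Kb) c)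

/-- the coefficients of the expansions -/
def exCoeffE : FF M →ₗ[Kb] (ι × ℤ → Kb) where
  toFun f j := (E j.1 f).coeff j.2
  map_add' f g := by
    funext j
    show (E j.1 (f + g)).coeff j.2 = _
    rw [map_add, HahnSeries.coeff_add]
    rfl
  map_smul' c f := by
    funext j
    show (E j.1 (c • f)).coeff j.2 = _
    rw [Algebra.smul_def, map_mul, hEalg, algebraMap_laurentSeries_eq_single,
      HahnSeries.coeff_single_zero_mul]
    rfl

theorem exCoeffE_apply (f : FF M) (i : ι) (k : ℤ) :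
    exCoeffE E hEalg f (i, k) = (E i f).coeff k := rfl

theorem exCoeffE_injective [Nonempty ι] : Function.Injective (exCoeffE E hEalg) := by
  rw [← LinearMap.ker_eq_bot, LinearMap.ker_eq_bot']
  intro f hf
  obtain ⟨i₀⟩ := ‹Nonempty ι›
  apply (E i₀).injective
  rw [map_zero]
  apply HahnSeries.ext
  funext k
  exact congrFun hf (i₀, k)

include hq hA hζ hEalg in
/-- the elements of bounded level of the ring of families form a finitely generated `O`-module,
if the corresponding functions lie in a finite-dimensional space -/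
theorem ringE_fg [Nonempty ι] (B : Subalgebra Kb (FF M)) (L : ℤ)
    (hBfin : ∃ V : Submodule Kb (FF M), FiniteDimensional Kb V ∧
      ∀ f ∈ B, IsFixI A M f → IsIntE A E f →
        (∀ (i : ι) (k : ℤ), L < -k * (ω i : ℤ) → (E i f).coeff k = 0) → f ∈ V) :
    ∃ S : Finset (ι → LaurentSeries (k0RingZeta A ζ)),
      (∀ s ∈ S, s ∈ ringE A ζ E B ∧ LevelLE ω L s) ∧
      ∀ x ∈ ringE A ζ E B, LevelLE ω L x →
        ∃ a : (ι → LaurentSeries (k0RingZeta A ζ)) → k0Ring A,
          x = ∑ s ∈ S, constHom (k0Ring A) (fun _ : ι => ↥(k0RingZeta A ζ)) (a s) * s := by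
  classical
  haveI := k0Ring_isDiscreteValuationRing hq A hA
  obtain ⟨V, hVfd, hV⟩ := hBfin
  let b : ∀ _ : ι, Module.Basis (Fin (q - 1)) (k0Ring A) (k0RingZeta A ζ) :=
    fun _ => k0ZetaBasis hq A hA hζ
  -- the lattice
  let Λ : Submodule (k0Ring A) (PFam (k0Ring A) (fun _ : ι => ↥(k0RingZeta A ζ))) :=
    { carrier := {x | ofPFam x ∈ ringE A ζ E B ∧ LevelLE ω L (ofPFam x)}
      add_mem' := fun {x y} hx hy => ⟨Subring.add_mem _ hx.1 hy.1, LevelLE.add hx.2 hy.2⟩
      zero_mem' := ⟨Subring.zero_mem _, LevelLE.zero⟩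
      smul_mem' := fun r x hx => by
        refine ⟨?_, ?_⟩
        · show ofPFam (r • x) ∈ _
          rw [pfam_smul_def]
          exact Subring.mul_mem _ (const_mem_ringE hEalg B r) hx.1
        · show LevelLE ω L (ofPFam (r • x))
          rw [pfam_smul_def]
          exact levelLE_const_mul ω r hx.2 }
  have hΛ : ∀ x : PFam (k0Ring A) (fun _ : ι => ↥(k0RingZeta A ζ)),
      x ∈ Λ ↔ ofPFam x ∈ ringE A ζ E B ∧ LevelLE ω L (ofPFam x) :=
    fun x => Iff.rfl
  -- separating coordinates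
  haveI : FiniteDimensional Kb (V.map (exCoeffE E hEalg)) := inferInstance
  obtain ⟨j, hj⟩ := exists_coords (Module.finrank Kb (V.map (exCoeffE E hEalg)))
    (V.map (exCoeffE E hEalg)) inferInstance rfl
  let T : PFam (k0Ring A) (fun _ : ι => ↥(k0RingZeta A ζ)) →ₗ[k0Ring A]
      (Fin (Module.finrank Kb (V.map (exCoeffE E hEalg))) × Fin (q - 1) → k0Ring A) :=
    (LinearMap.funLeft (k0Ring A) (k0Ring A)
      (fun ts : Fin (Module.finrank Kb (V.map (exCoeffE E hEalg))) × Fin (q - 1) =>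
        (⟨(j ts.1).1, (j ts.1).2, ts.2⟩ : Σ _ : ι, ℤ × Fin (q - 1)))).comp (coordMap b)
  have hinj : Function.Injective (T.domRestrict Λ) := by
    rw [← LinearMap.ker_eq_bot, LinearMap.ker_eq_bot']
    rintro ⟨x, hx⟩ hTx
    apply Subtype.ext
    show x = 0
    obtain ⟨⟨f, hfB, hfI, hf⟩, hxL⟩ := (hΛ x).mp hx
    have hcoef : ∀ (i : ι) (k : ℤ),
        (E i f).coeff k = (((ofPFam x i).coeff k : k0RingZeta A ζ) : Kb) := by
      intro i k
      rw [← hf i, coeffMap_coeff]
      rfl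
    have hfV : f ∈ V := by
      refine hV f hfB hfI (isIntE_of_mem hf) (fun i k hk => ?_)
      rw [hcoef, hxL i k hk]
      rfl
    have h0 : exCoeffE E hEalg f = 0 := by
      refine hj _ (Submodule.mem_map_of_mem hfV) (fun t => ?_)
      rw [exCoeffE_apply, hcoef]
      have h1 : (k0ZetaBasis hq A hA hζ).repr ((ofPFam x (j t).1).coeff (j t).2) = 0 := by
        apply Finsupp.ext
        intro s
        have h2 := congrFun hTx (t, s)
        rw [Finsupp.zero_apply]
        exact h2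
      rw [(k0ZetaBasis hq A hA hζ).repr.map_eq_zero_iff.mp h1]
      rfl
    have hf0 : f = 0 := exCoeffE_injective E hEalg (by rw [h0, map_zero])
    have hx0 : ofPFam x = 0 := by
      funext i
      apply coeffMap_subtype_injective (k0RingZeta A ζ)
      have h3 := hf i
      rw [hf0, map_zero] at h3
      rw [h3]
      exact (map_zero _).symm
    exact hx0
  haveI : Module.Finite (k0Ring A) Λ := Module.Finite.of_injective (T.domRestrict Λ) hinj
  have hfgΛ : Λ.FG := Module.Finite.iff_fg.mp inferInstance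
  obtain ⟨S, hS⟩ := hfgΛ
  refine ⟨S, fun s hs => ?_, fun x hxR hxL => ?_⟩
  · have h1 : s ∈ Λ := by
      rw [← hS]
      exact Submodule.subset_span (Finset.mem_coe.mpr hs)
    exact (hΛ s).mp h1
  · have h1 : toPFam (𝒪 := k0Ring A) x ∈ Submodule.span (k0Ring A) (S : Set _) := by
      rw [hS]
      exact (hΛ _).mpr ⟨hxR, hxL⟩
    obtain ⟨a, -, ha⟩ := Submodule.mem_span_finset.mp h1
    refine ⟨a, ?_⟩
    have e1 : ∀ T' : Finset (ι → LaurentSeries (k0RingZeta A ζ)),
        ofPFam (∑ s ∈ T', a s • toPFam (𝒪 := k0Ring A) s)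
          = ∑ s ∈ T', constHom (k0Ring A) (fun _ : ι => ↥(k0RingZeta A ζ)) (a s) * s := by
      intro T'
      induction T' using Finset.induction_on with
      | empty => rfl
      | insert s T' hsT ih =>
        rw [Finset.sum_insert hsT, Finset.sum_insert hsT, ← ih]
        rfl
    rw [← e1 S]
    exact (congrArg ofPFam ha).symm

end FG

/-! ### Saturation -/

section Sat

variable {M : ℕ} [NeZero M] {q : ℕ} (hq : q.Prime) (A : ValuationSubring Kb)
  (hA : A.LiesOverPrime q) {ζ : Kb} (hζ : IsPrimitiveRoot ζ q)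
  {ι : Type*} (E : ι → FF M →+* LaurentSeries Kb) (ω : ι → ℕ)
  (hEalg : ∀ (i : ι) (c : Kb), E i (algebraMap Kb (FF M) c) = algebraMap Kb (LaurentSeries Kb) c)

include hq hEalg in
/-- the ring of families is saturated with respect to `q` -/
theorem ringE_sat (B : Subalgebra Kb (FF M)) (x : ι → LaurentSeries (k0RingZeta A ζ))
    (hx : constHom (k0Ring A) (fun _ : ι => ↥(k0RingZeta A ζ)) (k0Unif q A) * x
      ∈ ringE A ζ E B) : x ∈ ringE A ζ E B := by
  obtain ⟨f, hfB, hfI, hf⟩ := hx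
  have hq0 : ((q : ℕ) : Kb) ≠ 0 := Nat.cast_ne_zero.mpr hq.ne_zero
  refine ⟨algebraMap Kb (FF M) (((q : ℕ) : Kb)⁻¹) * f,
    B.mul_mem (B.algebraMap_mem _) hfB, fun σ hσ => ?_, fun i => ?_⟩
  · rw [map_mul, arithmeticRingAut_algebraMap, hfI σ hσ, map_inv₀, map_natCast]
  · have h1 : coeffMap (k0RingZeta A ζ).subtype
        ((constHom (k0Ring A) (fun _ : ι => ↥(k0RingZeta A ζ)) (k0Unif q A) * x) i)
        = algebraMap Kb (LaurentSeries Kb) ((q : ℕ) : Kb)
          * coeffMap (k0RingZeta A ζ).subtype (x i) := by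
      rw [Pi.mul_apply, map_mul, constHom_apply, coeffMap_subtype_C]
      rfl
    rw [map_mul, hEalg, ← hf i, h1, ← mul_assoc, ← map_mul, inv_mul_cancel₀ hq0,
      map_one, one_mul]

include hEalg in
/-- (SAT) for the ring of families, from `SatStatementE` -/
theorem ringE_SAT (hEfix : FixStatementE A ζ E) (B : Subalgebra Kb (FF M))
    (L₀ L : ℤ) (hL : L₀ ≤ L) (hSat : SatStatementE q A E ω B L₀)
    (Φ : ι → LaurentSeries (k0RingZeta A ζ)) (hΦ : Φ ∈ ringE A ζ E B)
    (hdec : ∃ y, LevelLE ω L y ∧ ∃ z,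
      Φ = y + constHom (k0Ring A) (fun _ : ι => ↥(k0RingZeta A ζ)) (k0Unif q A) * z) :
    ∃ l ∈ ringE A ζ E B, LevelLE ω L l ∧ ∃ r ∈ ringE A ζ E B,
      Φ = l + constHom (k0Ring A) (fun _ : ι => ↥(k0RingZeta A ζ)) (k0Unif q A) * r := by
  obtain ⟨f, hfB, hfI, hf⟩ := hΦ
  obtain ⟨y, hy, z, hz⟩ := hdec
  have hfInt : IsIntE A E f := isIntE_of_mem hf
  have hcoef : ∀ (i : ι) (k : ℤ),
      (E i f).coeff k = (((Φ i).coeff k : k0RingZeta A ζ) : Kb) := by
    intro i k
    rw [← hf i, coeffMap_coeff]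
    rfl
  obtain ⟨g, hgB, hgI, hgInt, hg⟩ := hSat L hL f hfB hfI hfInt (fun i k hk => by
    refine ⟨(((z i).coeff k : k0RingZeta A ζ) : Kb), ((z i).coeff k).2.1, ?_⟩
    rw [hcoef, hz]
    have h2 : ((y + constHom (k0Ring A) (fun _ : ι => ↥(k0RingZeta A ζ)) (k0Unif q A) * z)
        i).coeff k = (y i).coeff k
          + ((constHom (k0Ring A) (fun _ : ι => ↥(k0RingZeta A ζ)) (k0Unif q A) * z)
            i).coeff k := rfl
    rw [h2, constHom_mul_coeff, hy i k hk, zero_add, k0RingZeta_smul_coe]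
    rfl)
  have hr : tripleE hEfix g hgI hgInt ∈ ringE A ζ E B := tripleE_mem hEfix B hgB hgI hgInt
  refine ⟨Φ - constHom (k0Ring A) (fun _ : ι => ↥(k0RingZeta A ζ)) (k0Unif q A)
      * tripleE hEfix g hgI hgInt,
    Subring.sub_mem _ ⟨f, hfB, hfI, hf⟩ (Subring.mul_mem _ (const_mem_ringE hEalg B _) hr), ?_,
    tripleE hEfix g hgI hgInt, hr, by ring⟩
  intro i k hk
  apply Subtype.ext
  have h1 : coeffMap (k0RingZeta A ζ).subtype
      ((Φ - constHom (k0Ring A) (fun _ : ι => ↥(k0RingZeta A ζ)) (k0Unif q A)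
        * tripleE hEfix g hgI hgInt) i)
      = E i (f - algebraMap Kb (FF M) ((q : ℕ) : Kb) * g) := by
    rw [Pi.sub_apply, Pi.mul_apply, map_sub, map_mul, hf i, constHom_apply, coeffMap_subtype_C,
      coeffMap_tripleE, map_sub, map_mul, hEalg]
    rfl
  have h2 := congrArg (fun s => s.coeff k) h1
  simp only [coeffMap_coeff] at h2
  rw [hg i k hk] at h2
  exact h2

end Sat

/-! ### ROOT3, generic form -/

section Main

variable {M : ℕ} [NeZero M] {q : ℕ} (hq : q.Prime) (A : ValuationSubring Kb)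
  (hA : A.LiesOverPrime q) {ζ : Kb} (hζ : IsPrimitiveRoot ζ q)
  {ι : Type*} (E : ι → FF M →+* LaurentSeries Kb) (ω : ι → ℕ)
  (hEalg : ∀ (i : ι) (c : Kb), E i (algebraMap Kb (FF M) c) = algebraMap Kb (LaurentSeries Kb) c)

include hq hA in
/-- the normalised formal `n`-th roots have coefficients in `O1` -/
theorem exists_rootsE (hEfix : FixStatementE A ζ E) (n : ℕ) (hn : ¬ q ∣ n)
    (H : FF M) (hHI : IsFixI A M H)
    (hroot : ∀ i : ι, ∃ Z : LaurentSeries A, (incl A Z) ^ n = E i H ∧ red A Z = 1) :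
    ∃ Z : ι → LaurentSeries (k0RingZeta A ζ),
      (∀ i, (coeffMap (k0RingZeta A ζ).subtype (Z i)) ^ n = E i H) ∧
      ∀ (i : ι) (k : ℤ), A.valuation ((((Z i - 1).coeff k : k0RingZeta A ζ)) : Kb) < 1 := by
  have hm : IsUnit ((n : ℕ) : A) := valSub_natCast_isUnit hq A hA hn
  choose Z hZn hZr using hroot
  have hZmem : ∀ (i : ι) (k : ℤ), (incl A (Z i)).coeff k ∈ k0RingZeta A ζ := by
    intro i k
    refine ⟨?_, fun σ hσ hσζ => ?_⟩
    · rw [coeffMap_coeff]
      exact ((Z i).coeff k).2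
    · exact Fermat.Agent.T3.helper23.root_coeff_fixed n hm σ hσ (Z i)
        (by rw [hZn i]; exact hEfix i H hHI σ hσ hσζ) (hZr i) k
  refine ⟨fun i => liftSer (k0RingZeta A ζ) (incl A (Z i)) (hZmem i), fun i => ?_,
    fun i k => ?_⟩
  · rw [coeffMap_liftSer]
    exact hZn i
  · have h1 : ((((liftSer (k0RingZeta A ζ) (incl A (Z i)) (hZmem i) - 1).coeff k :
        k0RingZeta A ζ)) : Kb) = (((Z i - 1).coeff k : A) : Kb) := by
      have e1 : coeffMap (k0RingZeta A ζ).subtype
          (liftSer (k0RingZeta A ζ) (incl A (Z i)) (hZmem i) - 1) = incl A (Z i - 1) := by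
        rw [map_sub, map_sub, coeffMap_liftSer, map_one, map_one]
      have e2 := congrArg (fun s => s.coeff k) e1
      simp only [coeffMap_coeff] at e2
      exact e2
    rw [h1, ← A.valuation_lt_one_iff, ← IsLocalRing.residue_eq_zero_iff]
    have e3 : red A (Z i - 1) = 0 := by rw [map_sub, hZr i, map_one, sub_self]
    have e4 := congrArg (fun s => s.coeff k) e3
    simp only [coeffMap_coeff, HahnSeries.coeff_zero] at e4
    exact e4

include hq hA hζ hEalg in
/-- **ROOT3 for a family of expansions**: an inertia-fixed element `H` of `B` all of whose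
expansions have `A`-integral formal `n`-th roots with reduction `1` (DISC), `q ∤ n`, is an
`n`-th power of an inertia-fixed function, if `B` satisfies (SAT_q) and (FIN). -/
theorem root_of_pack [Finite ι] [Nonempty ι] (hEfix : FixStatementE A ζ E)
    (B : Subalgebra Kb (FF M)) (hBfin : FinStatementE A E ω B)
    (L₀ : ℤ) (hSat : SatStatementE q A E ω B L₀)
    (n : ℕ) (hn : ¬ q ∣ n) (H : FF M) (hHB : H ∈ B) (hHI : IsFixI A M H)
    (hroot : ∀ i : ι, ∃ Z : LaurentSeries A, (incl A Z) ^ n = E i H ∧ red A Z = 1) :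
    ∃ v : FF M, IsFixI A M v ∧ H = v ^ n := by
  classical
  haveI := k0Ring_isDiscreteValuationRing hq A hA
  have hn0 : n ≠ 0 := by
    rintro rfl
    exact hn (dvd_zero q)
  obtain ⟨Z, hZn, hZ1⟩ := exists_rootsE hq A hA E hEfix n hn H hHI hroot
  have hw1 : ∃ z, Z ^ q - 1
      = constHom (k0Ring A) (fun _ : ι => ↥(k0RingZeta A ζ)) (k0Unif q A) * z := by
    choose z hz using fun i => exists_pow_q_sub_one hq A hA hζ (Z i) (hZ1 i)
    exact ⟨z, funext fun i => hz i⟩
  obtain ⟨d, hd⟩ := exists_levelLE ω (max L₀ 0) (Z ^ q)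
  have hL0 : 0 ≤ max L₀ 0 + (d : ℤ) := add_nonneg (le_max_right _ _) (Int.natCast_nonneg d)
  have hL₀ : L₀ ≤ max L₀ 0 + (d : ℤ) :=
    le_add_of_le_of_nonneg (le_max_left _ _) (Int.natCast_nonneg d)
  have hwR : (Z ^ q) ^ n ∈ ringE A ζ E B := by
    refine ⟨H ^ q, B.pow_mem hHB q, fun σ hσ => by rw [map_pow, hHI σ hσ], fun i => ?_⟩
    rw [map_pow, ← hZn i, Pi.pow_apply, Pi.pow_apply, map_pow, map_pow, ← pow_mul, ← pow_mul,
      mul_comm q n]
  have hwmem := root_of_sat (𝒪 := k0Ring A) (C := fun _ : ι => ↥(k0RingZeta A ζ))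
    (κ := fun _ => Fin (q - 1))
    (k0Unif q A) (k0Ring_maximalIdeal hq A hA) (k0Unif_ne_zero hq A hA) (k0Ring_sep hq A hA)
    (fun _ => k0ZetaBasis hq A hA hζ) (ringE A ζ E B) (const_mem_ringE hEalg B)
    (ringE_sat hq A E hEalg B) ω (max L₀ 0 + (d : ℤ)) hL0
    (ringE_SAT A E ω hEalg hEfix B L₀ _ hL₀ hSat)
    (ringE_fg hq A hA hζ E ω hEalg B _ (hBfin _)) n (k0Ring_natCast_isUnit hq A hA hn)
    (Z ^ q) hd hwR hw1
  obtain ⟨f, hfB, hfI, hf⟩ := hwmem
  obtain ⟨i₀⟩ := ‹Nonempty ι›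
  have hfn : f ^ n = H ^ q := by
    apply (E i₀).injective
    rw [map_pow, map_pow, ← hf i₀, ← hZn i₀, Pi.pow_apply, map_pow, ← pow_mul, ← pow_mul,
      mul_comm q n]
  have hcop : IsCoprime (q : ℤ) (n : ℤ) :=
    Nat.isCoprime_iff_coprime.mpr ((Nat.Prime.coprime_iff_not_dvd hq).mpr hn)
  obtain ⟨a, b, hab⟩ := hcop
  rcases eq_or_ne H 0 with rfl | hH0
  · exact ⟨0, fun σ _ => map_zero _, by rw [zero_pow hn0]⟩
  have h1 : (f ^ a) ^ n = (f ^ n) ^ a := by
    rw [← zpow_natCast, ← zpow_mul, mul_comm a (n : ℤ), zpow_mul, zpow_natCast]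
  have h2 : (H ^ b) ^ n = H ^ (b * n) := by
    rw [← zpow_natCast, ← zpow_mul]
  have h3 : (H ^ q) ^ a = H ^ (a * q) := by
    rw [← zpow_natCast H q, ← zpow_mul, mul_comm (q : ℤ) a]
  refine ⟨f ^ a * H ^ b, fun σ hσ => by
    rw [map_mul, map_zpow₀, map_zpow₀, hfI σ hσ, hHI σ hσ], ?_⟩
  rw [mul_pow, h1, hfn, h3, h2, ← zpow_add₀ hH0, hab, zpow_one]

end Main

/-! ### The package of the cusps over `∞` -/

section Inst

variable (N q : ℕ) [NeZero N] [NeZero q] (hq : q.Prime) (hqN : ¬ q ∣ N)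
variable (A : ValuationSubring Kb) (hA : A.LiesOverPrime q)

/-- the three expansions `helper74.ex3` commute with the inertia elements fixing `ζ` -/
theorem fixStatementE_ex3 {ζ : Kb} (hζ : IsPrimitiveRoot ζ q) :
    FixStatementE A ζ (ex3 N q hq hqN hζ) := by
  intro i f hfI σ hσ hσζ
  rcases fin3_cases i with rfl | rfl | rfl
  · rw [ex3_zero, ← coe_arithmeticRingAut_apply, hfI σ hσ]
  · rw [ex3_one, ← coe_arithmeticRingAut_apply,
      ← Fermat.Agent.T3.helper48.atkinLehnerSq_arithmeticRingAut, hfI σ hσ]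
  · rw [ex3_two, Fermat.Agent.T3.helper87.coeffMap_embMid, hfI σ hσ]
    exact congrArg (fun E' : FF (N * q * q) →ₐ[Kb] LaurentSeries Kb => E' f)
      (Fermat.Agent.T3.helper87.embMid_congr hζ (hζ.map_of_injective (f := σ) σ.injective)
        (midOne q hq) (midOne q hq) (midOne_ne q hq) (midOne_ne q hq) (by rw [hσζ]))

theorem sat3Statement_iff {ζ : Kb} (hζ : IsPrimitiveRoot ζ q)
    (B : Subalgebra Kb (FF (N * q * q))) (L₀ : ℤ) :
    Sat3Statement N q hq hqN A hζ B L₀
      ↔ SatStatementE q A (ex3 N q hq hqN hζ) (wt3 q) B L₀ := Iff.rfl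

include hA in
/-- `root3_of` in the generic vocabulary: ROOT3 for the cusps over `∞`, the roots being given -/
theorem root3_of_pack {ζ : Kb} (hζ : IsPrimitiveRoot ζ q) (B : Subalgebra Kb (FF (N * q * q)))
    (hBfin : FinStatementE A (ex3 N q hq hqN hζ) (wt3 q) B)
    (L₀ : ℤ) (hSat : Sat3Statement N q hq hqN A hζ B L₀)
    (n : ℕ) (hn : ¬ q ∣ n) (H : FF (N * q * q)) (hHB : H ∈ B)
    (hHI : IsFixI A (N * q * q) H)
    (hroot : ∀ i : Fin 3, ∃ Z : LaurentSeries A,
      (incl A Z) ^ n = ex3 N q hq hqN hζ i H ∧ red A Z = 1) :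
    ∃ v : FF (N * q * q), IsFixI A (N * q * q) v ∧ H = v ^ n :=
  root_of_pack hq A hA hζ (ex3 N q hq hqN hζ) (wt3 q) (fun i c => ex3_algebraMap hζ i c)
    (fixStatementE_ex3 N q hq hqN A hζ) B hBfin L₀ hSat n hn H hHB hHI hroot

end Inst

end Fermat.Agent.T3.helper27

end
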