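/-
T3 (S36), helper27, [T3-FIN-ALL] + [T3-ROOT3-ALL]: (FIN) and ROOT3 for the functions regular off
ALL cusps (`helper98.regJ M` = regular where `j` is finite), for a family of expansions `E`
covering the poles of `j` up to conjugation by the inertia group.

* `CoverStatementE A E` : **(COVER)** every pole `P` of `j` is controlled by an expansion:
  there is an index `i` with `(E i f).order ≤ P.ord f` for every inertia-fixed `f ≠ 0`
  (e.g. `P` is conjugate under the inertia group to the place of `E i`).
* `finStatementE_of_cover` : (COVER) ⟹ `FinStatementE A E ω B` for every `B ≤ regJ`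
  (the functions of level `≤ L` lie in `L(m · (j)_∞)`, `m = max L 0`).
* `root3_all` : **ROOT3 for `regJ`** from (SAT_q), (COVER), the Galois compatibility and
  `helper23.DiscPack` (DISC): an inertia-fixed `H`, regular where `j` is finite, with
  `A`-integral expansions of reduction `1` at every index and `n ∣ div H`, `q ∤ n`, is the `n`-th
  power of an inertia-fixed function regular where `j` is finite.
-/
import Mathlib
import Fermat.Agent.T3.helper27_RootPack
import Fermat.Agent.T3.helper23_DiscAll
import Fermat.Agent.T3.helper98_NormRegJ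

set_option autoImplicit false
set_option synthInstance.maxHeartbeats 400000
set_option maxHeartbeats 1000000
set_option linter.unusedSectionVars false
set_option linter.unusedVariables false
set_option linter.style.haveILetI false
set_option linter.style.longLine false

noncomputable section

open HahnSeries IntermediateField AlgebraicCurve ModularCurve
open Fermat.Agent.S18.helper19 Fermat.Agent.P2.helper29 Fermat.Agent.T2.helper36
open Fermat.Agent.T3.helper74 Fermat.Agent.T3.helper84

namespace Fermat.Agent.T3.helper27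

/-! ### The divisor of the poles of `j` -/

section PoleDiv

variable (M : ℕ) [NeZero M]

theorem jElt_ne_zero_aux : jElt M ≠ 0 := by
  intro h
  have h1 := congrArg (fun x : FF M => (x : LaurentSeries Kb).order) h
  have h2 : ((jElt M : FF M) : LaurentSeries Kb) = jqModC Kb := rfl
  simp only [h2, ZeroMemClass.coe_zero, HahnSeries.order_zero] at h1
  rw [order_jqModC] at h1
  omega

/-- the divisor `m · (j)_∞` -/
def poleDiv (m : ℤ) : Divisor Kb (FF M) :=
  Finsupp.onFinset
    (Fermat.Agent.P2.helper23.finite_ord_ne_zero M (jElt M) (jElt_ne_zero_aux M)).toFinset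
    (fun P => m * max (-(P.ord (jElt M))) 0)
    (fun P hP => by
      rw [Set.Finite.mem_toFinset]
      show P.ord (jElt M) ≠ 0
      intro h0
      apply hP
      rw [h0, neg_zero, max_self, mul_zero])

theorem poleDiv_apply (m : ℤ) (P : Place Kb (FF M)) :
    poleDiv M m P = m * max (-(P.ord (jElt M))) 0 := rfl

end PoleDiv

/-! ### (COVER) and (FIN) -/

section Cover

variable {M : ℕ} [NeZero M] (A : ValuationSubring Kb)
  {ι : Type*} (E : ι → FF M →+* LaurentSeries Kb) (ω : ι → ℕ)

/-- **(COVER)**: every pole of `j` is controlled by one of the expansions, on the inertia-fixed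
functions. -/
def CoverStatementE : Prop :=
  ∀ P : Place Kb (FF M), P.ord (jElt M) < 0 →
    ∃ i : ι, ∀ f : FF M, f ≠ 0 → IsFixI A M f → (E i f).order ≤ P.ord f

variable {A E ω}

/-- (COVER) from the conjugacy of the poles of `j` under the inertia group: every pole of `j` is
the place of an expansion `f ↦ E i (σ f)`, `σ` in the inertia group. -/
theorem coverStatementE_of_conj
    (h : ∀ P : Place Kb (FF M), P.ord (jElt M) < 0 → ∃ i : ι, ∃ σ ∈ A.inertiaSubgroupIn ℚ,
      ∀ f : FF M, f ≠ 0 →
        P.ord f = (E i (arithmeticRingAut (modularFunctionFieldFull M) σ f)).order) :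
    CoverStatementE A E := by
  intro P hP
  obtain ⟨i, σ, hσ, hi⟩ := h P hP
  refine ⟨i, fun f hf hfI => ?_⟩
  rw [hi f hf, hfI σ hσ]

/-- (COVER) if every pole of `j` is the place of one of the expansions. -/
theorem coverStatementE_of_eq
    (h : ∀ P : Place Kb (FF M), P.ord (jElt M) < 0 → ∃ i : ι,
      ∀ f : FF M, f ≠ 0 → P.ord f = (E i f).order) :
    CoverStatementE A E := by
  intro P hP
  obtain ⟨i, hi⟩ := h P hP
  exact ⟨i, fun f hf _ => (hi f hf).ge⟩

/-- **(FIN)** for the functions regular where `j` is finite, from (COVER). -/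
theorem finStatementE_of_cover (hω : ∀ i, 0 < ω i) (hcover : CoverStatementE A E)
    (B : Subalgebra Kb (FF M))
    (hB : ∀ f ∈ B, ∀ P : Place Kb (FF M), 0 ≤ P.ord (jElt M) → 0 ≤ P.ord f) :
    FinStatementE A E ω B := by
  intro L
  refine ⟨riemannRochSpace (poleDiv M (max L 0)),
    Fermat.Agent.P2.helper74.finiteDimensional_L
      (Fermat.Agent.P2.helper74.riemannSetting_FF M) _, ?_⟩
  intro f hfB hfI _ hlev
  rw [mem_riemannRochSpace_iff]
  intro v
  rcases eq_or_ne f 0 with hf0 | hf0
  · exact Or.inl hf0
  right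
  have hm : (0 : ℤ) ≤ max L 0 := le_max_right _ _
  rw [poleDiv_apply]
  by_cases hv : 0 ≤ v.ord (jElt M)
  · have h1 : max (-(v.ord (jElt M))) 0 = 0 := max_eq_right (by omega)
    rw [h1, mul_zero, neg_zero]
    exact hB f hfB v hv
  · rw [not_le] at hv
    obtain ⟨i, hi⟩ := hcover v hv
    have h1 : (1 : ℤ) ≤ max (-(v.ord (jElt M))) 0 := le_max_of_le_left (by omega)
    have hne : E i f ≠ 0 := fun h =>
      hf0 ((map_eq_zero_iff _ (RingHom.injective (E i))).mp h)
    have hord : -(max L 0) ≤ (E i f).order := by
      by_contra hcon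
      rw [not_le] at hcon
      refine (HahnSeries.coeff_order_eq_zero.not.mpr hne) (hlev i _ ?_)
      have hω' : (1 : ℤ) ≤ (ω i : ℤ) := by
        have := hω i
        exact_mod_cast this
      have h2 : L ≤ max L 0 := le_max_left _ _
      have hk0 : 0 < -(E i f).order := by linarith
      have h3 : -(E i f).order ≤ -(E i f).order * (ω i : ℤ) := by nlinarith
      linarith
    have h4 := hi f hf0 hfI
    have h5 : max L 0 ≤ max L 0 * max (-(v.ord (jElt M))) 0 := by nlinarith
    linarith

end Cover

/-! ### ROOT3 for the functions regular off all cusps -/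

section Main

variable {M : ℕ} [NeZero M] {q : ℕ} (hq : q.Prime) (A : ValuationSubring Kb)
  (hA : A.LiesOverPrime q) {ζ : Kb} (hζ : IsPrimitiveRoot ζ q)
  {ι : Type*} (E : ι → FF M →+* LaurentSeries Kb) (ω : ι → ℕ)

include hq hA hζ in
/-- **ROOT3 for the functions regular off all cusps**: `B` is any ring of functions regular
where `j` is finite which satisfies (SAT_q). -/
theorem root3_all [Finite ι] [Nonempty ι] (hω : ∀ i, 0 < ω i)
    (hD : Fermat.Agent.T3.helper23.DiscPack A E)
    (hEfix : FixStatementE A ζ E) (hcover : CoverStatementE A E)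
    (B : Subalgebra Kb (FF M))
    (hB : ∀ f ∈ B, ∀ P : Place Kb (FF M), 0 ≤ P.ord (jElt M) → 0 ≤ P.ord f)
    (L₀ : ℤ) (hSat : SatStatementE q A E ω B L₀)
    (n : ℕ) (hn : ¬ q ∣ n) (H : FF M) (hHB : H ∈ B) (hHI : IsFixI A M H)
    (hdiv : ∀ P : Place Kb (FF M), (n : ℤ) ∣ P.ord H)
    (hint : ∀ i : ι, ∃ Y : LaurentSeries A, incl A Y = E i H ∧ red A Y = 1) :
    ∃ v : FF M, IsFixI A M v ∧ Fermat.Agent.T3.helper98.IsRegJ M v ∧ H = v ^ n := by
  have hn0 : n ≠ 0 := by
    rintro rfl
    exact hn (dvd_zero q)
  obtain ⟨v, hvI, hv⟩ := root_of_pack hq A hA hζ E ω hD.alg hEfix B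
    (finStatementE_of_cover hω hcover B hB) L₀ hSat n hn H hHB hHI
    (Fermat.Agent.T3.helper23.disc_all hD n (valSub_natCast_isUnit hq A hA hn) H hdiv
      (hB H hHB) hint)
  refine ⟨v, hvI, ?_, hv⟩
  apply Fermat.Agent.T3.helper98.isRegJ_of_pow hn0
  rw [← hv]
  exact hB H hHB

end Main

end Fermat.Agent.T3.helper27

end
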