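/-
T3 (S36), helper28, [CUSP-N] (second prover): the key integrality statement at ALL cusps.

For a level `M` prime to the residue characteristic of `A`, let `f = incl A Y` be an element of
`F_M` with an `A`-integral `q`-expansion which is regular where `j` is finite.  Then at EVERY
coset `i : IX M` the expansion `sigmaK M i f` (characteristic `0`, parameter `t = q^(1/M)`) is
`A`-integral, and its reduction is the expansion `sigmaA i (red A Y)` of the reduction of `f` at
the coset `i` of the special fibre.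

Proof: Euler's formula `Y · δ = G(j, θ)` with `G` over `A` (helper81), read at the coset `i` in
both characteristics; the expansion of `δ = ∂Φ/∂Y(j, θ)` at the coset `i` has the same order in
both characteristics, hence a unit leading coefficient, hence is a unit of `A((t))`.
-/
import Mathlib
import Fermat.Agent.P2.helper28_CuspReg

set_option autoImplicit false
set_option synthInstance.maxHeartbeats 400000

noncomputable section

namespace Fermat.Agent.T3.helper28

open Polynomial ModularCurve Finset AlgebraicCurve IntermediateField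
open Fermat.Agent.S28 Fermat.Agent.S18.helper19 Fermat.Agent.P2.helper28
open scoped MatrixGroups

/-! ### Units of `A((t))` -/

section Units

variable (A : ValuationSubring Kb)

/-- an integral series whose reduction has the same order is a unit of `A((t))` -/
theorem isUnit_of_order_red_eq (Z : LaurentSeries A)
    (h0 : Fermat.Agent.P2.helper29.red A Z ≠ 0)
    (hord : (Fermat.Agent.P2.helper29.red A Z).order =
      (Fermat.Agent.P2.helper29.incl A Z).order) : IsUnit Z := by
  rw [HahnSeries.isUnit_iff, HahnSeries.leadingCoeff_eq]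
  have h1 : (Fermat.Agent.P2.helper29.incl A Z).order = Z.order :=
    order_coeffMap_of_injective A.subtype Subtype.val_injective Z
  rw [← h1, ← hord, ← IsLocalRing.residue_ne_zero_iff_isUnit]
  have h2 := HahnSeries.coeff_order_eq_zero.not.mpr h0
  rwa [coeffMap_coeff] at h2

end Units

/-! ### The integral expansions of `Q(j, Θ)` at the cosets -/

section ZA

variable (A : ValuationSubring Kb) (M : ℕ) [NeZero M]

/-- the inverse of `A → ι(A)` -/
def ofSA : SA A →+* A := ((eSA A).symm : SA A →+* A.toSubring)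

theorem toSA_comp_ofSA : (toSA A).comp (ofSA A) = RingHom.id (SA A) := by
  ext z
  exact congrArg Subtype.val ((eSA A).apply_symm_apply z)

theorem rA_eq : rA A = (IsLocalRing.residue A).comp (ofSA A) := rfl

variable {ℓ : ℕ} (hℓ : ℓ.Prime) (hA : A.LiesOverPrime ℓ) (hM : ¬ ℓ ∣ M)

/-- the `A`-integral expansion of `Q(j, Θ)` at the coset `i` -/
def ZA (i : IX M) (Q : Polynomial (Polynomial A)) : LaurentSeries A :=
  coeffMap (ofSA A) (helper93.ES (conjX M).E (SA A) i
    (polyJT (conjX M) (SA A) (zetaC_mem_SA A M) (natCast_inv_mem_SA A hℓ hA M hM)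
      (Q.map (mapRingHom (toSA A)))))

theorem coeffMap_toSA_ZA (i : IX M) (Q : Polynomial (Polynomial A)) :
    coeffMap (toSA A) (ZA A M hℓ hA hM i Q) =
      helper93.ES (conjX M).E (SA A) i
        (polyJT (conjX M) (SA A) (zetaC_mem_SA A M) (natCast_inv_mem_SA A hℓ hA M hM)
          (Q.map (mapRingHom (toSA A)))) := by
  rw [ZA, coeffMap_coeffMap, toSA_comp_ofSA]
  ext n
  rw [coeffMap_coeff]
  rfl

/-- the reduction of `ZA` is the expansion on the special fibre -/
theorem red_ZA (i : IX M) (Q : Polynomial (Polynomial A)) :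
    Fermat.Agent.P2.helper29.red A (ZA A M hℓ hA hM i Q) =
      sigmaA hℓ hA hM i (evF (kA A) M (Q.map (mapRingHom (IsLocalRing.residue A)))) := by
  rw [sigmaA, ← map_toSA_rA, sigma_evF, ← Eb_polyJT]
  show _ = coeffMap (rA A) (helper93.ES (conjX M).E (SA A) i _)
  rw [← coeffMap_toSA_ZA A M hℓ hA hM i Q, coeffMap_coeffMap, rA_comp_toSA]

/-- the image of `ZA` in characteristic `0` is the expansion at the coset `i` -/
theorem incl_ZA (i : IX M) (Q : Polynomial (Polynomial A)) :
    Fermat.Agent.P2.helper29.incl A (ZA A M hℓ hA hM i Q) =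
      sigmaK M i (evF Kb M (Q.map (mapRingHom A.subtype))) := by
  rw [sigmaK, ← map_toSK_rK, sigma_evF, ← Eb_polyJT]
  have hcoe : ((polyJT (conjX M) (SA A) (zetaC_mem_SA A M)
      (natCast_inv_mem_SA A hℓ hA M hM) (Q.map (mapRingHom (toSA A))) :
        GSr (conjX M) (SA A)) : (conjX M).G) =
      ((polyJT (conjX M) SK (zetaC_mem_SK M) (natCast_inv_mem_SK M)
        (Q.map (mapRingHom (toSK A))) : GSr (conjX M) SK) : (conjX M).G) := by
    rw [coe_polyJT, coe_polyJT, map_toSA_subtype]
  rw [Eb_eq_of (conjX M) SK rK i _ (coeffMap (toSK A) (ZA A M hℓ hA hM i Q)),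
    coeffMap_coeffMap, rK_comp_toSK]
  rw [coeffMap_coeffMap, subtype_comp_toSK, ← subtype_comp_toSA, ← coeffMap_coeffMap,
    coeffMap_toSA_ZA, helper93.coeffMap_ES, hcoe]

end ZA

/-! ### The expansions at the cosets as maps on `F_M` -/

section EN

variable (M : ℕ) [NeZero M]

/-- **the level-`M` expansion at the coset `i`** (characteristic `0`, parameter `t = q^(1/M)`) -/
def EN (i : IX M) : FF M →+* LaurentSeries Kb :=
  (sigmaK M i).comp
    ((IntermediateField.equivOfEq (FF_eq_fullC M) :
      ↥(FF M) ≃ₐ[Kb] ↥(modularFunctionFieldFullC Kb M)) : ↥(FF M) →+* _)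

theorem mem_fullC_of_mem {f : LaurentSeries Kb} (hf : f ∈ FF M) :
    f ∈ modularFunctionFieldFullC Kb M := by
  rw [← FF_eq_fullC M]
  exact hf

theorem EN_mk (i : IX M) (f : LaurentSeries Kb) (hf : f ∈ FF M) :
    EN M i ⟨f, hf⟩ = sigmaK M i ⟨f, mem_fullC_of_mem M hf⟩ := rfl

theorem EN_apply (i : IX M) (f : FF M) :
    EN M i f = sigmaK M i ⟨(f : LaurentSeries Kb), mem_fullC_of_mem M f.2⟩ := rfl

theorem EN_injective (i : IX M) : Function.Injective (EN M i) :=
  (EN M i).injective

theorem EN_algebraMap (i : IX M) (c : Kb) :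
    EN M i (algebraMap Kb (FF M) c) = HahnSeries.C c := by
  rw [EN_apply]
  exact sigma_algebraMap (conjX M) SK rK (zetaC_mem_SK M) (natCast_inv_mem_SK M)
    rK_surjective i c

/-- `j` has the same expansion `j(t^M)` at every coset -/
theorem EN_jElt (i : IX M) :
    EN M i (Fermat.Agent.P2.helper29.jElt M) = qExpand Kb M (jqModC Kb) := by
  rw [EN_apply]
  exact sigma_jBar (conjX M) SK rK (zetaC_mem_SK M) (natCast_inv_mem_SK M) rK_surjective i

/-- at the identity coset the expansion is the `q`-expansion in `q = t^M` -/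
theorem EN_i₀ (f : FF M) :
    EN M (conjX M).i₀ f = qExpand Kb M (f : LaurentSeries Kb) := by
  rw [EN_apply]
  exact sigma_i₀ (conjX M) SK rK (zetaC_mem_SK M) (natCast_inv_mem_SK M) rK_surjective _

end EN

/-! ### The key statement -/

section Key

open Fermat.Agent.P2.helper29

variable (A : ValuationSubring Kb) (M : ℕ) [NeZero M]
variable {ℓ : ℕ} (hℓ : ℓ.Prime) (hA : A.LiesOverPrime ℓ) (hM : ¬ ℓ ∣ M)

/-- a function which is regular where `j` is finite is integral over `ℚ̄[j]` -/
theorem exists_monic_of_reg (f : FF M)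
    (hreg : ∀ P : Place Kb (FF M), 0 ≤ P.ord (Fermat.Agent.S24.xJ M) → 0 ≤ P.ord f) :
    ∃ p : Polynomial (Polynomial Kb), p.Monic ∧
      Fermat.Agent.P2.helper81.ev₂ (Fermat.Agent.P2.helper81.jK)
        (f : LaurentSeries Kb) p = 0 := by
  have : FiniteDimensional Kb⟮Fermat.Agent.S24.xJ M⟯ (Fermat.Agent.S24.FN M) :=
    Fermat.Agent.S24.helper77.an_finiteDimensional M
  have h2 := Fermat.Agent.P2.helper81.isIntegral_of_forall_place (Fermat.Agent.S24.xJ M) f hreg
  obtain ⟨p, hp, hp0⟩ :=
    Fermat.Agent.P2.helper81.exists_monic_of_isIntegral_adjoin (Fermat.Agent.S24.xJ M) f h2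
  refine ⟨p, hp, ?_⟩
  have h3 := Fermat.Agent.P2.helper81.algHom_ev₂ (modularFunctionFieldBar M).val
    (Fermat.Agent.S24.xJ M) f p
  rw [hp0, map_zero] at h3
  have h4 : (modularFunctionFieldBar M).val (Fermat.Agent.S24.xJ M) =
      Fermat.Agent.P2.helper81.jK := Fermat.Agent.P2.helper81.coe_xJ_eq M
  rw [h4] at h3
  exact h3.symm

include hℓ in
/-- **[KEY]** a function with an integral `q`-expansion which is regular where `j` is finite has
integral expansions at ALL cosets, and their reductions are the expansions of its reduction. -/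
theorem key (Y : LaurentSeries A) (hY : incl A Y ∈ FF M)
    (hreg : ∀ P : Place Kb (FF M), 0 ≤ P.ord (Fermat.Agent.S24.xJ M) →
      0 ≤ P.ord (⟨incl A Y, hY⟩ : FF M)) :
    ∃ hb : red A Y ∈ FFb A M, ∀ i : IX M, ∃ Yi : LaurentSeries A,
      incl A Yi = EN M i ⟨incl A Y, hY⟩ ∧ red A Yi = sigmaA hℓ hA hM i ⟨red A Y, hb⟩ := by
  have : Fact ℓ.Prime := ⟨hℓ⟩
  have hb : red A Y ∈ FFb A M := Fermat.Agent.P2.helper81.coeffMap_residue_mem A hA M hM Y hY
  refine ⟨hb, fun i => ?_⟩
  -- Euler's formula
  have hint := exists_monic_of_reg M ⟨incl A Y, hY⟩ hreg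
  obtain ⟨G, -, hG⟩ := Fermat.Agent.P2.helper81.exists_euler_of_incl A hA M hM Y hY hint
  have hroot := Fermat.Agent.P2.helper81.PhiA_root A M hA hM
  have hmonic := Fermat.Agent.P2.helper81.PhiA_monic A M hA hM
  have hdegree := Fermat.Agent.P2.helper81.PhiA_natDegree A M hA hM
  set Φ := Fermat.Agent.P2.helper81.PhiA A M hA hM with hΦ
  have hfK : incl A Y ∈ modularFunctionFieldFullC Kb M := mem_fullC_of_mem M hY
  -- the relations in the two characteristics
  have hyK : (⟨incl A Y, hfK⟩ : FbT Kb M) *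
      evF Kb M ((derivative Φ).map (mapRingHom A.subtype)) =
      evF Kb M (G.map (mapRingHom A.subtype)) := by
    apply Subtype.ext
    show incl A Y * ((evF Kb M _ : FbT Kb M) : LaurentSeries Kb) =
      ((evF Kb M _ : FbT Kb M) : LaurentSeries Kb)
    rw [coe_evF, coe_evF, ← incl_ev₂, ← incl_ev₂, hG, map_mul]
    rfl
  have hyA : (⟨red A Y, hb⟩ : FbT (kA A) M) *
      evF (kA A) M ((derivative Φ).map (mapRingHom (IsLocalRing.residue A))) =
      evF (kA A) M (G.map (mapRingHom (IsLocalRing.residue A))) := by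
    apply Subtype.ext
    show red A Y * ((evF (kA A) M _ : FbT (kA A) M) : LaurentSeries (kA A)) =
      ((evF (kA A) M _ : FbT (kA A) M) : LaurentSeries (kA A))
    rw [coe_evF, coe_evF, ← red_ev₂', ← red_ev₂', hG, map_mul]
    rfl
  have h1K := congrArg (sigmaK M i) hyK
  rw [map_mul, ← incl_ZA A M hℓ hA hM, ← incl_ZA A M hℓ hA hM] at h1K
  have h1A := congrArg (sigmaA hℓ hA hM i) hyA
  rw [map_mul, ← red_ZA A M hℓ hA hM, ← red_ZA A M hℓ hA hM] at h1A
  -- the derivative of the modular equation at the coset `i`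
  have hQA : (Φ.map (mapRingHom (toSA A))).Monic := hmonic.map _
  have hQK : (Φ.map (mapRingHom (toSK A))).Monic := hmonic.map _
  have hdA : (Φ.map (mapRingHom (toSA A))).natDegree = Fintype.card (conjX M).I := by
    rw [hmonic.natDegree_map, hdegree, degN_eq_card]
  have hdK : (Φ.map (mapRingHom (toSK A))).natDegree = Fintype.card (conjX M).I := by
    rw [hmonic.natDegree_map, hdegree, degN_eq_card]
  have h0K : evF Kb M ((Φ.map (mapRingHom (toSK A))).map (mapRingHom rK)) = 0 := by
    apply Subtype.ext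
    rw [coe_evF, map_toSK_rK, ← incl_ev₂, hroot, map_zero]
    rfl
  have h0A : evF (kA A) M ((Φ.map (mapRingHom (toSA A))).map (mapRingHom (rA A))) = 0 := by
    apply Subtype.ext
    rw [coe_evF, map_toSA_rA, ← red_ev₂', hroot, map_zero]
    rfl
  have h0K' := (evF_eq_zero_iff (conjX M) SK rK (zetaC_mem_SK M) (natCast_inv_mem_SK M) _).mp h0K
  have h0A' := (evF_eq_zero_iff (conjX M) (SA A) (rA A) (zetaC_mem_SA A M)
    (natCast_inv_mem_SA A hℓ hA M hM) _).mp h0A
  have hneK := eval₂_derivative_of_root_ne_zero (conjX M) SK rK (zetaC_mem_SK M)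
    (natCast_inv_mem_SK M) rK_surjective _ hQK hdK h0K' i
  have hoK := order_derivative_of_root (conjX M) SK rK (zetaC_mem_SK M)
    (natCast_inv_mem_SK M) rK_surjective _ hQK hdK h0K' i
  have hneA := eval₂_derivative_of_root_ne_zero (conjX M) (SA A) (rA A) (zetaC_mem_SA A M)
    (natCast_inv_mem_SA A hℓ hA M hM) (rA_surjective A) _ hQA hdA h0A' i
  have hoA := order_derivative_of_root (conjX M) (SA A) (rA A) (zetaC_mem_SA A M)
    (natCast_inv_mem_SA A hℓ hA M hM) (rA_surjective A) _ hQA hdA h0A' i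
  have eK : incl A (ZA A M hℓ hA hM i (derivative Φ)) =
      eval₂ (phik Kb M) (Eb (conjX M) SK rK i (ThS (conjX M) SK (zetaC_mem_SK M)
        (natCast_inv_mem_SK M)))
        (derivative ((Φ.map (mapRingHom (toSK A))).map (mapRingHom rK))) := by
    rw [incl_ZA, sigmaK, sigma_evF, map_toSK_rK, derivative_map]
  have eA : red A (ZA A M hℓ hA hM i (derivative Φ)) =
      eval₂ (phik (kA A) M) (Eb (conjX M) (SA A) (rA A) i (ThS (conjX M) (SA A)
        (zetaC_mem_SA A M) (natCast_inv_mem_SA A hℓ hA M hM)))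
        (derivative ((Φ.map (mapRingHom (toSA A))).map (mapRingHom (rA A)))) := by
    rw [red_ZA, sigmaA, sigma_evF, map_toSA_rA, derivative_map]
  have hunit : IsUnit (ZA A M hℓ hA hM i (derivative Φ)) := by
    apply isUnit_of_order_red_eq
    · rw [eA]
      exact hneA
    · rw [eA, eK, hoA, hoK]
  obtain ⟨u, hu⟩ := hunit
  have hKne : incl A (ZA A M hℓ hA hM i (derivative Φ)) ≠ 0 := by
    rw [eK]
    exact hneK
  have hAne : red A (ZA A M hℓ hA hM i (derivative Φ)) ≠ 0 := by
    rw [eA]
    exact hneA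
  refine ⟨ZA A M hℓ hA hM i G * ((u⁻¹ : (LaurentSeries A)ˣ) : LaurentSeries A), ?_, ?_⟩
  · apply mul_right_cancel₀ hKne
    rw [EN_mk, h1K, ← map_mul, mul_assoc, ← hu, Units.inv_mul, mul_one]
  · apply mul_right_cancel₀ hAne
    rw [h1A, ← map_mul, mul_assoc, ← hu, Units.inv_mul, mul_one]

end Key

end Fermat.Agent.T3.helper28
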