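/-
T3 (S36), helper28, [CUSP-N] (second prover): Galois equivariance of the expansions at ALL
cusps.

For `σ ∈ Gal(ℚ̄/ℚ)` fixing the `M`-th roots of unity, the expansion `EN M i` at every coset
`i : IX M` commutes with the coefficientwise action of `σ`:
`EN M i (galF M σ f) = coeffMap σ (EN M i f)`, where `galF M σ` is the Prelude's
`arithmeticRingAut (modularFunctionFieldFull M) σ` (= `helper93.galF M σ` by definition).
In particular this holds for `σ` in the inertia group of a valuation ring `A` over a prime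
`ℓ ∤ M`, and the expansions of an inertia-fixed function have inertia-fixed coefficients.

Proof: extensionality on the generators `j(q^d)`, `d ∣ M`; the coefficients of their
expansions lie in every subring of `ℂ` containing `ζ_M` and `1/M`, in particular in the image
of the fixed field of `σ`.
-/
import Mathlib
import Fermat.Agent.T3.helper28_CuspNKey
import Fermat.Agent.S05.helper92_Inertia

set_option autoImplicit false
set_option synthInstance.maxHeartbeats 400000
set_option linter.unusedSectionVars false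

noncomputable section

namespace Fermat.Agent.T3.helper28

open Polynomial ModularCurve Finset AlgebraicCurve IntermediateField
open Fermat.Agent.S28 Fermat.Agent.S18.helper19 Fermat.Agent.P2.helper28
open scoped MatrixGroups

/-! ### The fixed ring of `σ` inside `ℂ` -/

section Fix

variable (σ : Kb ≃ₐ[ℚ] Kb)

/-- the fixed ring of `σ` -/
def fixRing : Subring Kb where
  carrier := {x | σ x = x}
  mul_mem' {a b} ha hb := by
    show σ (a * b) = a * b
    rw [map_mul, ha, hb]
  one_mem' := map_one σ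
  add_mem' {a b} ha hb := by
    show σ (a + b) = a + b
    rw [map_add, ha, hb]
  zero_mem' := map_zero σ
  neg_mem' {a} ha := by
    show σ (-a) = -a
    rw [map_neg, ha]

/-- the image in `ℂ` of the fixed ring of `σ` -/
def fixC : Subring ℂ := (fixRing σ).map iotaK

theorem fixC_le_SK : fixC σ ≤ SK := by
  rintro _ ⟨z, -, rfl⟩
  exact mem_SK z

theorem rK_fixed (z : SK) (hz : (z : ℂ) ∈ fixC σ) : σ (rK z) = rK z := by
  obtain ⟨x, hx, hxz⟩ := hz
  have e : rK z = x := by
    apply iotaK.injective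
    rw [iotaK_rK]
    exact hxz.symm
  rw [e]
  exact hx

variable (M : ℕ) [NeZero M]

theorem natCast_inv_mem_fixC : ((M : ℂ))⁻¹ ∈ fixC σ := by
  refine ⟨((M : Kb))⁻¹, ?_, ?_⟩
  · show σ ((M : Kb)⁻¹) = (M : Kb)⁻¹
    rw [map_inv₀, map_natCast]
  · rw [map_inv₀, map_natCast]

theorem zetaC_mem_fixC (hσ : ∀ ζ : Kb, ζ ^ M = 1 → σ ζ = ζ) :
    helper81.zetaC M ∈ fixC σ := by
  have h1 : (rK ⟨helper81.zetaC M, zetaC_mem_SK M⟩) ^ M = 1 := by
    apply iotaK.injective
    rw [map_pow, iotaK_rK, map_one]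
    exact helper81.zetaC_pow M
  refine ⟨rK ⟨helper81.zetaC M, zetaC_mem_SK M⟩, hσ _ h1, ?_⟩
  exact iotaK_rK _

end Fix

/-! ### Galois equivariance -/

section Gal

variable (M : ℕ) [NeZero M] (σ : Kb ≃ₐ[ℚ] Kb)

/-- the coefficients of the expansions of the generators `j(dτ)` at every coset are fixed by
every `σ` fixing the `M`-th roots of unity -/
theorem coeffMap_Eb_JdS (hσ : ∀ ζ : Kb, ζ ^ M = 1 → σ ζ = ζ) (i : (conjX M).I)
    (d : M.divisors) :
    coeffMap (σ : Kb →+* Kb) (Eb (conjX M) SK rK i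
        (JdS (conjX M) SK (zetaC_mem_SK M) (natCast_inv_mem_SK M) d)) =
      Eb (conjX M) SK rK i (JdS (conjX M) SK (zetaC_mem_SK M) (natCast_inv_mem_SK M) d) := by
  ext n
  rw [coeffMap_coeff, helper93.Ebar_coeff]
  apply rK_fixed
  rw [helper93.ES_coeff]
  exact (((conjX M).hS (fixC σ) (zetaC_mem_fixC σ M hσ) (natCast_inv_mem_fixC σ M) i n).2 d.1
    (Nat.dvd_of_mem_divisors d.2)).1

theorem coeffMap_comp_C :
    (coeffMap (σ : Kb →+* Kb)).comp (HahnSeries.C : Kb →+* LaurentSeries Kb) =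
      (HahnSeries.C : Kb →+* LaurentSeries Kb).comp (σ : Kb →+* Kb) := by
  ext c : 1
  simp only [RingHom.comp_apply]
  exact helper93.coeffMap_C' _ c

theorem coeffMap_Thb (hσ : ∀ ζ : Kb, ζ ^ M = 1 → σ ζ = ζ) (i : (conjX M).I)
    (P : MvPolynomial M.divisors Kb) :
    coeffMap (σ : Kb →+* Kb)
        (Thb (conjX M) SK rK (zetaC_mem_SK M) (natCast_inv_mem_SK M) i P) =
      Thb (conjX M) SK rK (zetaC_mem_SK M) (natCast_inv_mem_SK M) i
        (MvPolynomial.map (σ : Kb →+* Kb) P) := by
  unfold Thb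
  simp only [MvPolynomial.coe_eval₂Hom]
  rw [MvPolynomial.eval₂_map,
    MvPolynomial.eval₂_comp_left (coeffMap (σ : Kb →+* Kb)), coeffMap_comp_C]
  congr 1
  funext d
  exact coeffMap_Eb_JdS M σ hσ i d

theorem coeffMap_genK (d : M.divisors) :
    coeffMap (σ : Kb →+* Kb) (genK Kb M d) = genK Kb M d := by
  unfold genK
  rw [ModularCurve.coeffMap_qExpand, coeffMap_jqModC]

theorem coeffMap_aeval_genK (P : MvPolynomial M.divisors Kb) :
    coeffMap (σ : Kb →+* Kb) (MvPolynomial.aeval (genK Kb M) P) =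
      MvPolynomial.aeval (genK Kb M) (MvPolynomial.map (σ : Kb →+* Kb) P) := by
  rw [MvPolynomial.aeval_def, MvPolynomial.aeval_def, MvPolynomial.eval₂_map,
    MvPolynomial.eval₂_comp_left (coeffMap (σ : Kb →+* Kb))]
  congr 1
  · ext c : 1
    simp only [RingHom.comp_apply]
    rw [helper93.algebraMap_laurent_eq_C, helper93.algebraMap_laurent_eq_C]
    exact helper93.coeffMap_C' _ c
  · funext d
    exact coeffMap_genK M σ d

/-- **[GAL]** the expansions at all cosets commute with every `σ` fixing the `M`-th roots of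
unity -/
theorem EN_galF (hσ : ∀ ζ : Kb, ζ ^ M = 1 → σ ζ = ζ) (i : IX M) (f : FF M) :
    EN M i (arithmeticRingAut (modularFunctionFieldFull M) σ f) = coeffMap (σ : Kb →+* Kb) (EN M i f) := by
  have hmem : ∀ y : ↥(modularFunctionFieldFullC Kb M), (y : LaurentSeries Kb) ∈ FF M := by
    intro y
    rw [FF_eq_fullC M]
    exact y.2
  -- the two ring homomorphisms on the function field
  let e : ↥(modularFunctionFieldFullC Kb M) →+* ↥(FF M) :=
    ((IntermediateField.equivOfEq (FF_eq_fullC M).symm :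
      ↥(modularFunctionFieldFullC Kb M) ≃ₐ[Kb] ↥(FF M)) : _ →+* _)
  have he : ∀ y : ↥(modularFunctionFieldFullC Kb M), e y = ⟨(y : LaurentSeries Kb), hmem y⟩ :=
    fun y => rfl
  have h : ((EN M i).comp
      ((arithmeticRingAut (modularFunctionFieldFull M) σ : FF M ≃+* FF M) : FF M →+* FF M)).comp e =
      (coeffMap (σ : Kb →+* Kb)).comp (sigmaK M i) := by
    apply ringHom_ext_fullC
    intro P
    simp only [RingHom.comp_apply, RingHom.coe_coe]
    have e1 : arithmeticRingAut (modularFunctionFieldFull M) σ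
        (e ⟨MvPolynomial.aeval (genK Kb M) P, aeval_genK_mem Kb M P⟩) =
        ⟨MvPolynomial.aeval (genK Kb M) (MvPolynomial.map (σ : Kb →+* Kb) P),
          hmem ⟨_, aeval_genK_mem Kb M _⟩⟩ := by
      apply Subtype.ext
      rw [coe_arithmeticRingAut_apply, he]
      exact coeffMap_aeval_genK M σ P
    rw [e1, EN_mk, sigmaK, sigma_aeval, sigma_aeval, coeffMap_Thb M σ hσ]
  have h2 := congrArg (fun φ => φ ⟨(f : LaurentSeries Kb), mem_fullC_of_mem M f.2⟩) h
  simp only [RingHom.comp_apply, RingHom.coe_coe] at h2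
  rw [he] at h2
  exact h2

end Gal

/-! ### Inertia -/

section Inertia

variable (M : ℕ) [NeZero M] (A : ValuationSubring Kb)
variable {ℓ : ℕ} (hℓ : ℓ.Prime) (hA : A.LiesOverPrime ℓ) (hM : ¬ ℓ ∣ M)

include hℓ hA hM in
/-- inertia at `ℓ` fixes the roots of unity of order prime to `ℓ` -/
theorem inertia_fixes_of_pow_eq_one {σ : Kb ≃ₐ[ℚ] Kb} (hσ : σ ∈ A.inertiaSubgroupIn ℚ)
    (ζ : Kb) (hζ : ζ ^ M = 1) : σ ζ = ζ := by
  have hm0 : M ≠ 0 := NeZero.ne M
  have hζ0 : ζ ≠ 0 := by
    rintro rfl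
    rw [zero_pow hm0] at hζ
    exact zero_ne_one hζ
  have hv : A.valuation ζ = 1 := by
    have h1 : A.valuation ζ ^ M = 1 := by rw [← map_pow, hζ, map_one]
    exact (pow_eq_one_iff_of_nonneg zero_le hm0).mp h1
  have hmem : ζ ∈ A := (A.valuation_le_one_iff _).mp hv.le
  have hinv : ζ⁻¹ ∈ A := by
    rw [← A.valuation_le_one_iff, map_inv₀, hv, inv_one]
  have hmn : ((M : ℕ) : Kb) ∉ A.nonunits := fun h =>
    hM ((Fermat.Agent.S05.helper92.natCast_mem_nonunits_iff hℓ hA M).mp h)
  refine Fermat.Agent.S05.helper92.apply_eq_self_of_pow_fixed hσ hmem hinv hmn ?_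
  rw [hζ, map_one]

include hℓ hA hM in
/-- **[GAL]** for the inertia group -/
theorem EN_galF_of_inertia {σ : Kb ≃ₐ[ℚ] Kb} (hσ : σ ∈ A.inertiaSubgroupIn ℚ) (i : IX M)
    (f : FF M) :
    EN M i (arithmeticRingAut (modularFunctionFieldFull M) σ f) = coeffMap (σ : Kb →+* Kb) (EN M i f) :=
  EN_galF M σ (inertia_fixes_of_pow_eq_one M A hℓ hA hM hσ) i f

include hℓ hA hM in
/-- the expansions of an inertia-fixed function have inertia-fixed coefficients
(`FixStatementE` for the expansions at all cosets of level `M`) -/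
theorem coeffMap_EN_of_fix (f : FF M)
    (hf : ∀ σ ∈ A.inertiaSubgroupIn ℚ, arithmeticRingAut (modularFunctionFieldFull M) σ f = f)
    {σ : Kb ≃ₐ[ℚ] Kb} (hσ : σ ∈ A.inertiaSubgroupIn ℚ) (i : IX M) :
    coeffMap (σ : Kb →+* Kb) (EN M i f) = EN M i f := by
  rw [← EN_galF_of_inertia M A hℓ hA hM hσ i f, hf σ hσ]

end Inertia

end Fermat.Agent.T3.helper28
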