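import Mathlib
import Fermat.Agent.P3.helper94_Kummer
import Fermat.Agent.P3.helper85_Cont
import Fermat.Agent.S18.helper19_Wiring

/-!
# T3 / DESC (helper58): descent of a fixed torsion class to a fixed Kummer representative

Let `H` be ANY subgroup of `G_ℚ` (e.g. an inertia group) and `x ∈ J₀(M)[n]` a class fixed by `H`.
Then `x` has a Kummer representative `h` (`n D = div h`, `x = [D]`) which is FIXED by the
coefficientwise action of `H` on `q`-expansions: `exists_fixed_kummerRep`.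

Proof: normalise a representative `h₀` to leading coefficient `1`.  For `s ∈ H` there is a UNIQUE
`u_s` with `h₀ u_s ^ n = s h₀` and leading coefficient `1`; uniqueness makes `u` a `1`-cocycle
which only depends on the restriction of `s` to a number field `K₁` of definition of `h₀`.
The Poincaré series `g = ∑_e u_e e(a)` over the restrictions `e` of `H` to `K₁` is nonzero for a
suitable `a ∈ K₁` (Dedekind independence) and satisfies `s g = g / u_s`; `h = h₀ g ^ n`.
-/

set_option autoImplicit false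
set_option linter.unusedSectionVars false
set_option linter.style.haveILetI false

noncomputable section

open HahnSeries IntermediateField ModularCurve AlgebraicCurve
open Fermat.Agent.P3.helper94

namespace Fermat.Agent.T3.helper58

/-- `ℚ̄` -/
abbrev Qb : Type := AlgebraicClosure ℚ

/-- `G_ℚ` -/
abbrev GQ : Type := Qb ≃ₐ[ℚ] Qb

/-! ### Leading coefficients -/

section Lead

variable {K : Type*} [Field K]

theorem order_coeffMap_inj {R S : Type*} [CommRing R] [CommRing S] (f : R →+* S)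
    (hf : Function.Injective f) (x : LaurentSeries R) : (coeffMap f x).order = x.order := by
  by_cases hx : x = 0
  · rw [hx, map_zero]
    simp
  have hx' : coeffMap f x ≠ 0 := by
    intro h0
    apply hx
    ext k
    have := congrArg (fun z => HahnSeries.coeff z k) h0
    simp only [coeffMap_coeff, HahnSeries.coeff_zero] at this
    exact hf (this.trans (map_zero f).symm)
  apply le_antisymm
  · apply HahnSeries.order_le_of_coeff_ne_zero
    rw [coeffMap_coeff]
    intro h0
    exact hx (HahnSeries.coeff_order_eq_zero.mp (hf (h0.trans (map_zero f).symm)))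
  · have h1 : (coeffMap f x).coeff (coeffMap f x).order ≠ 0 :=
      fun h0 => hx' (HahnSeries.coeff_order_eq_zero.mp h0)
    rw [coeffMap_coeff] at h1
    have h2 : x.coeff (coeffMap f x).order ≠ 0 := fun h0 => h1 (by rw [h0, map_zero])
    exact HahnSeries.order_le_of_coeff_ne_zero h2

theorem leadingCoeff_coeffMap_inj {R S : Type*} [CommRing R] [CommRing S] (f : R →+* S)
    (hf : Function.Injective f) (x : LaurentSeries R) :
    (coeffMap f x).leadingCoeff = f x.leadingCoeff := by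
  rw [HahnSeries.leadingCoeff_eq, HahnSeries.leadingCoeff_eq, order_coeffMap_inj f hf,
    coeffMap_coeff]

theorem leadingCoeff_algebraMap (c : K) :
    (algebraMap K (LaurentSeries K) c).leadingCoeff = c := by
  rw [algebraMap_laurentSeries_eq_single]
  exact HahnSeries.leadingCoeff_of_single

theorem leadingCoeff_pow' (x : LaurentSeries K) (n : ℕ) :
    (x ^ n).leadingCoeff = x.leadingCoeff ^ n := by
  induction n with
  | zero => rw [pow_zero, pow_zero]; exact HahnSeries.leadingCoeff_one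
  | succ n ih => rw [pow_succ, pow_succ, HahnSeries.leadingCoeff_mul, ih]

/-- an `n`-th root of unity in `K((t))` with leading coefficient `1` is `1` (`K` algebraically
closed) -/
theorem eq_one_of_pow_eq_one [IsAlgClosed K] {n : ℕ} (hn : n ≠ 0) {v : LaurentSeries K}
    (hv : v ^ n = 1) (hlc : v.leadingCoeff = 1) : v = 1 := by
  have hint : IsIntegral K v := by
    refine IsIntegral.of_pow (Nat.pos_of_ne_zero hn) ?_
    rw [hv]
    exact isIntegral_one
  have hdeg : (minpoly K v).degree = 1 :=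
    IsAlgClosed.degree_eq_one_of_irreducible K (minpoly.irreducible hint)
  obtain ⟨c, hc⟩ := minpoly.mem_range_of_degree_eq_one K v hdeg
  have h1 : c = 1 := by
    have := leadingCoeff_algebraMap c
    rw [hc, hlc] at this
    exact this.symm
  rw [← hc, h1, map_one]

end Lead

/-! ### Dedekind independence, in the form used below -/

theorem exists_sum_char_ne_zero {G L ι : Type*} [Monoid G] [Field L] [Fintype ι]
    (χ : ι → (G →* L)) (hχ : Function.Injective χ) (c : ι → L) (i₀ : ι) (hi₀ : c i₀ ≠ 0) :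
    ∃ a : G, ∑ i, c i * χ i a ≠ 0 := by
  by_contra hall
  push Not at hall
  have hli : LinearIndependent L (fun i : ι => ((χ i : G →* L) : G → L)) :=
    (linearIndependent_monoidHom G L).comp χ hχ
  have hsum : ∑ i, c i • ((χ i : G →* L) : G → L) = 0 := by
    funext a
    rw [Finset.sum_apply]
    exact hall a
  exact hi₀ (Fintype.linearIndependent_iff.mp hli c hsum i₀)

/-! ### The function field `F_M`, the Galois action and leading coefficients -/

section Field

variable (M : ℕ) [NeZero M]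

/-- the coefficientwise Galois action on `F_M` -/
def act (σ : GQ) : modularFunctionFieldBar M ≃+* modularFunctionFieldBar M :=
  arithmeticRingAut (modularFunctionFieldFull M) σ

/-- the leading coefficient of the `q`-expansion -/
def lc (f : modularFunctionFieldBar M) : Qb := (f : LaurentSeries Qb).leadingCoeff

variable {M}

theorem coe_act (σ : GQ) (f : modularFunctionFieldBar M) :
    ((act M σ f : modularFunctionFieldBar M) : LaurentSeries Qb) =
      coeffMap ((σ : Qb ≃ₐ[ℚ] Qb) : Qb →+* Qb) (f : LaurentSeries Qb) := rfl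

theorem act_mul (σ τ : GQ) (f : modularFunctionFieldBar M) :
    act M (σ * τ) f = act M σ (act M τ f) := by
  apply Subtype.ext
  rw [coe_act, coe_act, coe_act, coeffMap_coeffMap]
  exact coeffMap_congr (RingHom.ext fun _ => rfl) _

theorem act_one (f : modularFunctionFieldBar M) : act M 1 f = f := by
  apply Subtype.ext
  rw [coe_act]
  rw [show (((1 : GQ) : Qb ≃ₐ[ℚ] Qb) : Qb →+* Qb) = RingHom.id Qb from RingHom.ext fun _ => rfl,
    coeffMap_id]

theorem act_algebraMap (σ : GQ) (c : Qb) :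
    act M σ (algebraMap Qb (modularFunctionFieldBar M) c) =
      algebraMap Qb (modularFunctionFieldBar M) (σ c) :=
  arithmeticRingAut_algebraMap (modularFunctionFieldFull M) σ c

theorem lc_mul (f g : modularFunctionFieldBar M) : lc M (f * g) = lc M f * lc M g :=
  HahnSeries.leadingCoeff_mul _ _

theorem lc_one : lc M (1 : modularFunctionFieldBar M) = 1 :=
  HahnSeries.leadingCoeff_one

theorem lc_pow (f : modularFunctionFieldBar M) (n : ℕ) : lc M (f ^ n) = lc M f ^ n :=
  leadingCoeff_pow' _ n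

theorem lc_algebraMap (c : Qb) : lc M (algebraMap Qb (modularFunctionFieldBar M) c) = c :=
  leadingCoeff_algebraMap c

theorem lc_act (σ : GQ) (f : modularFunctionFieldBar M) : lc M (act M σ f) = σ (lc M f) :=
  leadingCoeff_coeffMap_inj _ (σ : Qb ≃ₐ[ℚ] Qb).injective _

theorem ne_zero_of_lc_eq_one {f : modularFunctionFieldBar M} (h : lc M f = 1) : f ≠ 0 := by
  rintro rfl
  have : lc M (0 : modularFunctionFieldBar M) = 0 := HahnSeries.leadingCoeff_zero
  rw [this] at h
  exact zero_ne_one h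

theorem lc_inv {f : modularFunctionFieldBar M} (hf : f ≠ 0) : lc M f⁻¹ = (lc M f)⁻¹ := by
  have h1 : lc M f * lc M f⁻¹ = 1 := by rw [← lc_mul, mul_inv_cancel₀ hf, lc_one]
  exact eq_inv_of_mul_eq_one_right h1

/-- a root of unity of `F_M` with leading coefficient `1` is `1` -/
theorem eq_one_of_pow_eq_one_of_lc {n : ℕ} (hn : n ≠ 0) {v : modularFunctionFieldBar M}
    (hv : v ^ n = 1) (hlc : lc M v = 1) : v = 1 := by
  apply Subtype.ext
  refine eq_one_of_pow_eq_one hn ?_ hlc
  have := congrArg (Subtype.val) hv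
  exact this

/-- uniqueness of normalised `n`-th roots -/
theorem root_unique {n : ℕ} (hn : n ≠ 0) {h u u' : modularFunctionFieldBar M} (hh : h ≠ 0)
    (e : h * u ^ n = h * u' ^ n) (hu : lc M u = 1) (hu' : lc M u' = 1) : u = u' := by
  have hu'0 : u' ≠ 0 := ne_zero_of_lc_eq_one hu'
  have e1 : u ^ n = u' ^ n := mul_left_cancel₀ hh e
  have e2 : (u * u'⁻¹) ^ n = 1 := by
    rw [mul_pow, e1, ← mul_pow, mul_inv_cancel₀ hu'0, one_pow]
  have e3 : lc M (u * u'⁻¹) = 1 := by
    rw [lc_mul, lc_inv hu'0, hu, hu', inv_one, mul_one]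
  have e4 := eq_one_of_pow_eq_one_of_lc hn e2 e3
  calc u = (u * u'⁻¹) * u' := by rw [mul_assoc, inv_mul_cancel₀ hu'0, mul_one]
    _ = u' := by rw [e4, one_mul]

/-- two normalised Kummer representatives of the same class differ by the `n`-th power of a
normalised function -/
theorem exists_root_of_same_class {n : ℕ} (hn : n ≠ 0) {x : JZero M}
    {h h' : modularFunctionFieldBar M} (H : IsKummerRep n x h) (H' : IsKummerRep n x h')
    (hlc : lc M h = 1) (hlc' : lc M h' = 1) :
    ∃ u : modularFunctionFieldBar M, h * u ^ n = h' ∧ lc M u = 1 := by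
  obtain ⟨u, w, hu, hw, he⟩ := H.unique H'
  obtain ⟨c, hc⟩ := Fermat.Agent.S18.helper19.const_of_ord_eq_zero M w hw.2
  obtain ⟨d, hd⟩ := IsAlgClosed.exists_pow_nat_eq c (Nat.pos_of_ne_zero hn)
  set u₁ : modularFunctionFieldBar M := algebraMap Qb (modularFunctionFieldBar M) d * u with hu₁
  have e1 : h' = h * u₁ ^ n := by
    rw [he, hu₁, mul_pow, ← map_pow, hd]
    rw [← hc]
  have e2 : lc M u₁ ^ n = 1 := by
    have := congrArg (lc M) e1
    rw [lc_mul, lc_pow, hlc, hlc', one_mul] at this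
    exact this.symm
  have hl0 : lc M u₁ ≠ 0 := by
    intro h0
    rw [h0, zero_pow hn] at e2
    exact zero_ne_one e2
  refine ⟨algebraMap Qb (modularFunctionFieldBar M) (lc M u₁)⁻¹ * u₁, ?_, ?_⟩
  · rw [mul_pow, ← map_pow, inv_pow, e2, inv_one, map_one, one_mul, e1]
  · rw [lc_mul, lc_algebraMap, inv_mul_cancel₀ hl0]

end Field

/-! ### The descent -/

section Descent

variable {M : ℕ} [NeZero M]

/-- a normalised Kummer representative -/
theorem exists_normalised_kummerRep {n : ℕ} {x : JZero M} (hx : n • x = 0) :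
    ∃ h : modularFunctionFieldBar M, IsKummerRep n x h ∧ lc M h = 1 := by
  haveI := Fermat.Agent.S18.helper19.hasPD M
  obtain ⟨h₀, H0⟩ := exists_isKummerRep hx
  have hl : lc M h₀ ≠ 0 := by
    intro h0
    apply H0.ne_zero
    apply Subtype.ext
    exact HahnSeries.leadingCoeff_eq_zero.mp h0
  have h1 := H0.mul_pow (u := 1) one_ne_zero
    (hasTrivialDiv_algebraMap (K := Qb) (F := modularFunctionFieldBar M) (inv_ne_zero hl))
  refine ⟨_, h1, ?_⟩
  rw [lc_mul, lc_mul, one_pow, lc_one, mul_one, lc_algebraMap, mul_inv_cancel₀ hl]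

variable (H : Subgroup GQ) {n : ℕ} {h₀ : modularFunctionFieldBar M}
  (U : H → modularFunctionFieldBar M)

/-- the normalised roots form a `1`-cocycle -/
theorem cocycle_of_roots (hn : n ≠ 0) (hh : h₀ ≠ 0)
    (hU1 : ∀ σ : H, h₀ * U σ ^ n = act M (σ : GQ) h₀) (hU2 : ∀ σ : H, lc M (U σ) = 1)
    (σ τ : H) : U (σ * τ) = U σ * act M (σ : GQ) (U τ) := by
  refine root_unique hn hh ?_ (hU2 _) ?_
  · rw [hU1, Subgroup.coe_mul, act_mul, ← hU1 τ, map_mul, map_pow, ← hU1 σ, mul_pow, mul_assoc]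
  · rw [lc_mul, lc_act, hU2, hU2, map_one, mul_one]

/-- the normalised roots only depend on the restriction to a field of definition of `h₀` -/
theorem roots_eq_of_agree (hn : n ≠ 0) (hh : h₀ ≠ 0)
    (hU1 : ∀ σ : H, h₀ * U σ ^ n = act M (σ : GQ) h₀) (hU2 : ∀ σ : H, lc M (U σ) = 1)
    (K₁ : IntermediateField ℚ Qb)
    (hK₁ : ∀ g : GQ, (∀ y ∈ K₁, g y = y) → act M g h₀ = h₀)
    (σ τ : H) (hστ : ∀ y ∈ K₁, (σ : GQ) y = (τ : GQ) y) : U σ = U τ := by
  refine root_unique hn hh ?_ (hU2 _) (hU2 _)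
  rw [hU1, hU1]
  have h1 : act M ((σ : GQ)⁻¹ * (τ : GQ)) h₀ = h₀ := by
    refine hK₁ _ fun y hy => ?_
    show (σ : GQ)⁻¹ ((τ : GQ) y) = y
    rw [← hστ y hy]
    exact (σ : GQ).symm_apply_apply y
  calc act M (σ : GQ) h₀ = act M (σ : GQ) (act M ((σ : GQ)⁻¹ * (τ : GQ)) h₀) := by rw [h1]
    _ = act M ((σ : GQ) * ((σ : GQ)⁻¹ * (τ : GQ))) h₀ := (act_mul _ _ _).symm
    _ = act M (τ : GQ) h₀ := by rw [mul_inv_cancel_left]

/-- twisting an embedding by a Galois element -/
def twist (K₁ : IntermediateField ℚ Qb) (ρ : GQ) : (K₁ →ₐ[ℚ] Qb) ≃ (K₁ →ₐ[ℚ] Qb) where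
  toFun e := ((ρ : Qb ≃ₐ[ℚ] Qb) : Qb →ₐ[ℚ] Qb).comp e
  invFun e := ((ρ⁻¹ : Qb ≃ₐ[ℚ] Qb) : Qb →ₐ[ℚ] Qb).comp e
  left_inv e := by
    ext y
    show (ρ⁻¹ : GQ) (ρ (e y)) = e y
    exact ρ.symm_apply_apply _
  right_inv e := by
    ext y
    show ρ ((ρ⁻¹ : GQ) (e y)) = e y
    exact ρ.apply_symm_apply _

theorem twist_apply (K₁ : IntermediateField ℚ Qb) (ρ : GQ) (e : K₁ →ₐ[ℚ] Qb) (y : K₁) :
    twist K₁ ρ e y = ρ (e y) := rfl

/-- restriction of a Galois element to `K₁` -/
def restr (K₁ : IntermediateField ℚ Qb) (σ : GQ) : K₁ →ₐ[ℚ] Qb :=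
  ((σ : Qb ≃ₐ[ℚ] Qb) : Qb →ₐ[ℚ] Qb).comp K₁.val

theorem restr_apply (K₁ : IntermediateField ℚ Qb) (σ : GQ) (y : K₁) :
    restr K₁ σ y = σ (y : Qb) := rfl

theorem twist_restr (K₁ : IntermediateField ℚ Qb) (ρ σ : GQ) :
    twist K₁ ρ (restr K₁ σ) = restr K₁ (ρ * σ) := by
  ext y
  rfl

/-- the character of `K₁ˣ` (as a monoid) attached to an embedding -/
def chi (M : ℕ) [NeZero M] (K₁ : IntermediateField ℚ Qb) (e : K₁ →ₐ[ℚ] Qb) :
    K₁ →* modularFunctionFieldBar M :=
  (((algebraMap Qb (modularFunctionFieldBar M)).comp (e : K₁ →+* Qb) :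
    K₁ →+* modularFunctionFieldBar M) : K₁ →* modularFunctionFieldBar M)

theorem chi_apply (K₁ : IntermediateField ℚ Qb) (e : K₁ →ₐ[ℚ] Qb) (a : K₁) :
    chi M K₁ e a = algebraMap Qb (modularFunctionFieldBar M) (e a) := rfl

theorem chi_injective (K₁ : IntermediateField ℚ Qb) : Function.Injective (chi M K₁) := by
  intro e e' h
  ext a
  have h1 : chi M K₁ e a = chi M K₁ e' a := by rw [h]
  rw [chi_apply, chi_apply] at h1
  exact (algebraMap Qb (modularFunctionFieldBar M)).injective h1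

/-- **Poincaré series**: a `1`-cocycle which factors through a finite quotient is a
coboundary (multiplicative Hilbert 90 for the semilinear action on `F_M`). -/
theorem exists_poincare (K₁ : IntermediateField ℚ Qb) [FiniteDimensional ℚ K₁]
    (hcoc : ∀ σ τ : H, U (σ * τ) = U σ * act M (σ : GQ) (U τ))
    (hK : ∀ σ τ : H, (∀ y ∈ K₁, (σ : GQ) y = (τ : GQ) y) → U σ = U τ)
    (hne : ∀ σ : H, U σ ≠ 0) :
    ∃ g : modularFunctionFieldBar M, g ≠ 0 ∧ ∀ ρ : H, act M (ρ : GQ) g = (U ρ)⁻¹ * g := by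
  classical
  haveI : Fintype (K₁ →ₐ[ℚ] Qb) := Fintype.ofFinite _
  let c : (K₁ →ₐ[ℚ] Qb) → modularFunctionFieldBar M := fun e =>
    if h : ∃ σ : H, restr K₁ (σ : GQ) = e then U h.choose else 0
  have hc : ∀ σ : H, c (restr K₁ (σ : GQ)) = U σ := by
    intro σ
    have h : ∃ σ' : H, restr K₁ (σ' : GQ) = restr K₁ (σ : GQ) := ⟨σ, rfl⟩
    simp only [c, dif_pos h]
    refine hK _ _ fun y hy => ?_
    exact DFunLike.congr_fun h.choose_spec ⟨y, hy⟩
  have hc0 : ∀ e, (¬ ∃ σ : H, restr K₁ (σ : GQ) = e) → c e = 0 := fun e h => dif_neg h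
  have htw : ∀ (ρ : H) (e : K₁ →ₐ[ℚ] Qb),
      c (twist K₁ (ρ : GQ) e) = U ρ * act M (ρ : GQ) (c e) := by
    intro ρ e
    by_cases h : ∃ σ : H, restr K₁ (σ : GQ) = e
    · obtain ⟨σ, rfl⟩ := h
      rw [twist_restr, ← Subgroup.coe_mul, hc, hc, hcoc]
    · have h' : ¬ ∃ σ : H, restr K₁ (σ : GQ) = twist K₁ (ρ : GQ) e := by
        rintro ⟨σ, hσ⟩
        apply h
        refine ⟨ρ⁻¹ * σ, ?_⟩
        rw [Subgroup.coe_mul, ← twist_restr, hσ, Subgroup.coe_inv]
        exact (twist K₁ (ρ : GQ)).symm_apply_apply e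
      rw [hc0 _ h, hc0 _ h', map_zero, mul_zero]
  -- the Poincaré series
  let g : K₁ → modularFunctionFieldBar M := fun a =>
    ∑ e : K₁ →ₐ[ℚ] Qb, c e * algebraMap Qb (modularFunctionFieldBar M) (e a)
  have hg : ∃ a : K₁, g a ≠ 0 := by
    have h1 : c (restr K₁ ((1 : H) : GQ)) ≠ 0 := by
      rw [hc]
      exact hne 1
    exact exists_sum_char_ne_zero (chi M K₁) (chi_injective K₁) c _ h1
  obtain ⟨a, ha⟩ := hg
  refine ⟨g a, ha, fun ρ => ?_⟩
  have hU : U ρ ≠ 0 := hne ρ
  have h1 : act M (ρ : GQ) (g a) = ∑ e : K₁ →ₐ[ℚ] Qb,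
      (U ρ)⁻¹ * (c (twist K₁ (ρ : GQ) e) *
        algebraMap Qb (modularFunctionFieldBar M) (twist K₁ (ρ : GQ) e a)) := by
    simp only [g]
    rw [map_sum]
    refine Finset.sum_congr rfl fun e _ => ?_
    rw [map_mul, act_algebraMap, htw, twist_apply, ← mul_assoc, ← mul_assoc,
      inv_mul_cancel₀ hU, one_mul]
  rw [h1, ← Finset.mul_sum]
  congr 1
  exact Equiv.sum_comp (twist K₁ (ρ : GQ))
    (fun e => c e * algebraMap Qb (modularFunctionFieldBar M) (e a))

end Descent

/-! ### The descent theorem -/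

section Main

/-- **(DESC), normalised form.**  A torsion class of `J₀(M)` which is fixed by a subgroup `H` of
`G_ℚ` has a Kummer representative with leading coefficient `1` which is fixed by the
coefficientwise action of `H` on `q`-expansions. -/
theorem exists_fixed_kummerRep_lc (M : ℕ) [NeZero M] (H : Subgroup GQ) {n : ℕ} (hn : n ≠ 0)
    {x : JZero M} (hx : n • x = 0) (hfix : ∀ σ ∈ H, σ • x = x) :
    ∃ h : modularFunctionFieldBar M, IsKummerRep n x h ∧ lc M h = 1 ∧
      ∀ σ ∈ H, act M σ h = h := by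
  haveI := Fermat.Agent.S18.helper19.hasPD M
  obtain ⟨h₀, H0, hl⟩ := exists_normalised_kummerRep hx
  have hh : h₀ ≠ 0 := H0.ne_zero
  have key : ∀ σ : H, ∃ u : modularFunctionFieldBar M,
      h₀ * u ^ n = act M (σ : GQ) h₀ ∧ lc M u = 1 := by
    intro σ
    have H1 := H0.galois_smul_jZero (σ : GQ)
    rw [hfix _ σ.2] at H1
    exact exists_root_of_same_class hn H0 H1 hl (by rw [lc_act, hl, map_one])
  choose U hU1 hU2 using key
  obtain ⟨K₁, hfd, hK₁⟩ :=
    Fermat.Agent.P3.helper85.exists_numberField_fixing (modularFunctionFieldFull M) h₀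
  haveI := hfd
  have hUne : ∀ σ : H, U σ ≠ 0 := fun σ => ne_zero_of_lc_eq_one (hU2 σ)
  obtain ⟨g, hg, hgρ⟩ := exists_poincare H U K₁ (cocycle_of_roots H U hn hh hU1 hU2)
    (roots_eq_of_agree H U hn hh hU1 hU2 K₁ hK₁) hUne
  -- normalise `g`
  have hlg : lc M g ≠ 0 := by
    intro h0
    apply hg
    apply Subtype.ext
    exact HahnSeries.leadingCoeff_eq_zero.mp h0
  have hlgfix : ∀ ρ : H, (ρ : GQ) (lc M g) = lc M g := by
    intro ρ
    have h1 := congrArg (lc M) (hgρ ρ)
    rw [lc_act, lc_mul, lc_inv (hUne ρ), hU2, inv_one, one_mul] at h1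
    exact h1
  set g₁ : modularFunctionFieldBar M :=
    algebraMap Qb (modularFunctionFieldBar M) (lc M g)⁻¹ * g with hg₁
  have hg₁0 : g₁ ≠ 0 := by
    rw [hg₁]
    refine mul_ne_zero ?_ hg
    rw [Ne, map_eq_zero]
    exact inv_ne_zero hlg
  have hg₁lc : lc M g₁ = 1 := by
    rw [hg₁, lc_mul, lc_algebraMap, inv_mul_cancel₀ hlg]
  have hg₁ρ : ∀ ρ : H, act M (ρ : GQ) g₁ = (U ρ)⁻¹ * g₁ := by
    intro ρ
    rw [hg₁, map_mul, act_algebraMap, map_inv₀, hlgfix, hgρ]
    ring
  refine ⟨h₀ * g₁ ^ n, ?_, ?_, fun σ hσ => ?_⟩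
  · have := H0.mul_pow (u := g₁) hg₁0
      (hasTrivialDiv_one (K := Qb) (F := modularFunctionFieldBar M))
    rwa [one_mul] at this
  · rw [lc_mul, lc_pow, hl, hg₁lc, one_pow, one_mul]
  · have h1 := hg₁ρ ⟨σ, hσ⟩
    have h2 := hU1 ⟨σ, hσ⟩
    have h3 : U ⟨σ, hσ⟩ ^ n ≠ 0 := pow_ne_zero _ (hUne _)
    rw [map_mul, map_pow, h1, ← h2, mul_pow, inv_pow, mul_assoc, ← mul_assoc (U ⟨σ, hσ⟩ ^ n),
      mul_inv_cancel₀ h3, one_mul]

/-- **(DESC).**  A torsion class of `J₀(M)` which is fixed by a subgroup `H` of `G_ℚ`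
(for instance an inertia or a decomposition group) has a Kummer representative which is fixed
by the coefficientwise action of `H` on `q`-expansions. -/
theorem exists_fixed_kummerRep (M : ℕ) [NeZero M] (H : Subgroup GQ) {n : ℕ} (hn : n ≠ 0)
    {x : JZero M} (hx : n • x = 0) (hfix : ∀ σ ∈ H, σ • x = x) :
    ∃ h : modularFunctionFieldBar M, IsKummerRep n x h ∧
      ∀ σ ∈ H, arithmeticRingAut (modularFunctionFieldFull M) σ h = h := by
  obtain ⟨h, H0, -, hf⟩ := exists_fixed_kummerRep_lc M H hn hx hfix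
  exact ⟨h, H0, hf⟩

/-- the coefficients of the `q`-expansion of a fixed function are fixed -/
theorem coeff_fixed_of_act_eq {M : ℕ} [NeZero M] {σ : GQ} {h : modularFunctionFieldBar M}
    (hf : act M σ h = h) (k : ℤ) :
    σ ((h : LaurentSeries Qb).coeff k) = (h : LaurentSeries Qb).coeff k := by
  have h1 := congrArg (fun z : modularFunctionFieldBar M => (z : LaurentSeries Qb).coeff k) hf
  simp only [coe_act, coeffMap_coeff] at h1
  exact h1

/-- **(DESC), divisor form.**  A torsion class fixed by `H` is the class of a divisor which is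
fixed by `H` (and `n` times this divisor is the divisor of an `H`-fixed function). -/
theorem exists_fixed_divisor (M : ℕ) [NeZero M] (H : Subgroup GQ) {n : ℕ} (hn : n ≠ 0)
    {x : JZero M} (hx : n • x = 0) (hfix : ∀ σ ∈ H, σ • x = x) :
    ∃ (D : Divisor.degZero (K := Qb) (F := modularFunctionFieldBar M))
      (h : modularFunctionFieldBar M), Pic0.mk D = x ∧ h ≠ 0 ∧
      (∀ v : Place Qb (modularFunctionFieldBar M),
        (n : ℤ) * (D : Divisor Qb (modularFunctionFieldBar M)) v = v.ord h) ∧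
      (∀ σ ∈ H, act M σ h = h) ∧
      ∀ σ ∈ H, arithmeticGalois (modularFunctionFieldFull M) σ •
        (D : Divisor Qb (modularFunctionFieldBar M)) = D := by
  obtain ⟨h, ⟨hh, D, hD, hord⟩, -, hf⟩ := exists_fixed_kummerRep_lc M H hn hx hfix
  refine ⟨D, h, hD, hh, hord, hf, fun σ hσ => ?_⟩
  ext v
  rw [SemilinearAut.divisor_smul_apply]
  have hn' : (n : ℤ) ≠ 0 := Int.natCast_ne_zero.mpr hn
  apply mul_left_cancel₀ hn'
  rw [hord, hord]
  have h1 := SemilinearAut.ord_smul (arithmeticGalois (modularFunctionFieldFull M) σ)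
    ((arithmeticGalois (modularFunctionFieldFull M) σ)⁻¹ • v) h
  rw [smul_inv_smul] at h1
  rw [← h1]
  congr 1
  exact hf σ hσ

end Main

end Fermat.Agent.T3.helper58
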