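/-
T3 (S36), helper74: [MID-ALL] - for an inertia-fixed function of level `N q q` the expansions at
all the middle cusps are conjugate under the inertia group.

* `exists_inertia_embMid` : for `f` inertia-fixed and `k ≠ 0` there is `σ ∈ I` with
  `σ (E_1 f) = E_k f` (coefficientwise).
* `isInt_mid_all` : `IsFixI f`, `IsInt3 f` ⟹ the expansion of `f` at every middle cusp is
  `A`-integral.
* `coeff_embMid_eq_zero_iff` : the vanishing of a coefficient does not depend on the middle cusp.
-/
import Mathlib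
import Fermat.Agent.T3.helper74_Sat3
import Fermat.Agent.T3.helper84_K0Ring

set_option autoImplicit false
set_option synthInstance.maxHeartbeats 400000
set_option maxHeartbeats 1000000
set_option linter.unusedSectionVars false
set_option linter.style.haveILetI false

noncomputable section

open HahnSeries IntermediateField AlgebraicCurve ModularCurve
open scoped Pointwise
open Fermat.Agent.S18.helper19 Fermat.Agent.P2.helper29 Fermat.Agent.T2.helper36

namespace Fermat.Agent.T3.helper74

section MidAll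

variable {N q : ℕ} [NeZero N] [NeZero q] {hq : q.Prime} {hqN : ¬ q ∣ N}
variable {A : ValuationSubring Kb}

/-- the inertia group preserves `A` -/
theorem apply_mem_of_mem_inertia {σ : Kb ≃ₐ[ℚ] Kb} (hσ : σ ∈ A.inertiaSubgroupIn ℚ) {x : Kb}
    (hx : x ∈ A) : σ x ∈ A := by
  have hσD : σ ∈ A.decompositionSubgroup ℚ := by
    obtain ⟨τ, -, rfl⟩ := hσ
    exact τ.2
  have h1 : σ • A = A := hσD
  have h2 : σ • x ∈ σ • A := ValuationSubring.smul_mem_pointwise_smul σ x A hx
  rw [h1] at h2
  exact h2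

/-- the coefficientwise action of an inertia element on the integral series -/
def sigmaA {σ : Kb ≃ₐ[ℚ] Kb} (hσ : σ ∈ A.inertiaSubgroupIn ℚ) (Y : LaurentSeries A) :
    LaurentSeries A where
  coeff n := ⟨σ ((Y.coeff n : A) : Kb), apply_mem_of_mem_inertia hσ (Y.coeff n).2⟩
  isPWO_support' := Y.isPWO_support.mono fun n hn => by
    simp only [Function.mem_support, ne_eq] at hn ⊢
    intro h
    apply hn
    apply Subtype.ext
    show σ ((Y.coeff n : A) : Kb) = 0
    rw [h]
    simp

theorem incl_sigmaA {σ : Kb ≃ₐ[ℚ] Kb} (hσ : σ ∈ A.inertiaSubgroupIn ℚ) (Y : LaurentSeries A) :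
    incl A (sigmaA hσ Y) = coeffMap (σ : Kb →+* Kb) (incl A Y) := by
  ext n
  rw [coeffMap_coeff, coeffMap_coeff, coeffMap_coeff]
  rfl

/-- the expansions of an inertia-fixed function at the middle cusps are conjugate. -/
theorem exists_inertia_embMid (hA : A.LiesOverPrime q) {ζ : Kb} (hζ : IsPrimitiveRoot ζ q)
    {f : FF (N * q * q)} (hfI : IsFixI A (N * q * q) f) (k : Fin q) (hk : (k : ℕ) ≠ 0) :
    ∃ σ ∈ A.inertiaSubgroupIn ℚ, coeffMap (σ : Kb →+* Kb)
      (Fermat.Agent.T3.helper87.embMid N q hq hqN hζ (midOne q hq) (midOne_ne q hq) f)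
        = Fermat.Agent.T3.helper87.embMid N q hq hqN hζ k hk f := by
  have hkq : ¬ q ∣ (k : ℕ) := fun h =>
    absurd (Nat.le_of_dvd (Nat.pos_of_ne_zero hk) h) (not_le.mpr k.2)
  obtain ⟨σ, hσ, hσζ⟩ := Fermat.Agent.T3.helper84.k0_zeta_trans hq A hA hζ hkq
  refine ⟨σ, hσ, ?_⟩
  rw [Fermat.Agent.T3.helper87.coeffMap_embMid, hfI σ hσ]
  exact congrArg (fun E : FF (N * q * q) →ₐ[Kb] LaurentSeries Kb => E f)
    (Fermat.Agent.T3.helper87.embMid_congr hζ (hζ.map_of_injective (f := σ) σ.injective)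
      k (midOne q hq) hk (midOne_ne q hq) (by
        rw [hσζ]
        exact pow_one _))

/-- **[MID-ALL]**: an inertia-fixed function with integral expansions at `∞`, `0` and the middle
cusp `1` has an integral expansion at every middle cusp. -/
theorem isInt_mid_all (hA : A.LiesOverPrime q) {ζ : Kb} (hζ : IsPrimitiveRoot ζ q)
    {f : FF (N * q * q)} (hfI : IsFixI A (N * q * q) f) (hf : IsInt3 N q hq hqN A hζ f)
    (k : Fin q) (hk : (k : ℕ) ≠ 0) :
    ∃ Y : LaurentSeries A, incl A Y = Fermat.Agent.T3.helper87.embMid N q hq hqN hζ k hk f := by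
  obtain ⟨Y, hY⟩ := hf 2
  rw [ex3_two] at hY
  obtain ⟨σ, hσ, h⟩ := exists_inertia_embMid (hq := hq) (hqN := hqN) hA hζ hfI k hk
  exact ⟨sigmaA hσ Y, by rw [incl_sigmaA, hY, h]⟩

/-- the vanishing of a coefficient of the expansion of an inertia-fixed function at a middle
cusp does not depend on the cusp. -/
theorem coeff_embMid_eq_zero_iff (hA : A.LiesOverPrime q) {ζ : Kb} (hζ : IsPrimitiveRoot ζ q)
    {f : FF (N * q * q)} (hfI : IsFixI A (N * q * q) f) (k : Fin q) (hk : (k : ℕ) ≠ 0) (n : ℤ) :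
    (Fermat.Agent.T3.helper87.embMid N q hq hqN hζ k hk f).coeff n = 0 ↔
      (ex3 N q hq hqN hζ 2 f).coeff n = 0 := by
  obtain ⟨σ, hσ, h⟩ := exists_inertia_embMid (hq := hq) (hqN := hqN) hA hζ hfI k hk
  rw [ex3_two, ← h, coeffMap_coeff]
  constructor
  · intro h0
    have : (σ : Kb →+* Kb) ((Fermat.Agent.T3.helper87.embMid N q hq hqN hζ (midOne q hq)
        (midOne_ne q hq) f).coeff n) = (σ : Kb →+* Kb) 0 := by rw [h0, map_zero]
    exact (RingHom.injective (σ : Kb →+* Kb)) this
  · intro h0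
    rw [h0, map_zero]

/-- the order of the expansion of an inertia-fixed function at a middle cusp does not depend on
the cusp. -/
theorem order_embMid_eq (hA : A.LiesOverPrime q) {ζ : Kb} (hζ : IsPrimitiveRoot ζ q)
    {f : FF (N * q * q)} (hfI : IsFixI A (N * q * q) f) (k : Fin q) (hk : (k : ℕ) ≠ 0) :
    (Fermat.Agent.T3.helper87.embMid N q hq hqN hζ k hk f).order
      = (ex3 N q hq hqN hζ 2 f).order := by
  by_cases hf0 : f = 0
  · rw [hf0, map_zero, map_zero]
  have h2 : ex3 N q hq hqN hζ 2 f ≠ 0 := fun h =>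
    hf0 ((map_eq_zero_iff _ (RingHom.injective (ex3 N q hq hqN hζ 2))).mp h)
  apply Fermat.Agent.S28.helper81.order_eq_of_coeff
  · rw [Ne, coeff_embMid_eq_zero_iff hA hζ hfI k hk]
    exact HahnSeries.coeff_order_eq_zero.not.mpr h2
  · intro m hm
    rw [coeff_embMid_eq_zero_iff hA hζ hfI k hk]
    exact HahnSeries.coeff_eq_zero_of_lt_order hm

end MidAll

end Fermat.Agent.T3.helper74

end
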