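/-
T3 (S36), helper74, row 914 [T3-SAT3-PEEL], part 3.

* `cycloDecomp` : **[SAT3-K]** `CycloDecompStatement q A ζ` from `helper84.k0_zeta_int`.
* `peelable_of_lift` : transfer of `Peelable` along injective coefficient maps.
* `sat3_of_exactPoleFix` : (SAT_q) from [SAT3-X] alone.
-/
import Mathlib
import Fermat.Agent.T3.helper74_Sat3
import Fermat.Agent.T3.helper84_K0Cyc

set_option autoImplicit false
set_option synthInstance.maxHeartbeats 400000
set_option maxHeartbeats 1000000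
set_option linter.unusedSectionVars false
set_option linter.style.haveILetI false

noncomputable section

open HahnSeries IntermediateField AlgebraicCurve ModularCurve
open Fermat.Agent.S18.helper19 Fermat.Agent.P2.helper29 Fermat.Agent.T2.helper36

namespace Fermat.Agent.T3.helper74

/-! ### [SAT3-K] -/

section Cyclo

/-- **[SAT3-K]**: an element of `A` fixed by the inertia elements fixing `ζ` is a combination of
`ζ^e, …, ζ^(e+q-2)` with inertia-fixed coefficients in `A`. -/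
theorem cycloDecomp {q : ℕ} (hq : q.Prime) (A : ValuationSubring Kb) (hA : A.LiesOverPrime q)
    {ζ : Kb} (hζ : IsPrimitiveRoot ζ q) : CycloDecompStatement q A ζ := by
  haveI : NeZero q := ⟨hq.ne_zero⟩
  intro x hxA hfix e
  have hζ0 : ζ ≠ 0 := hζ.ne_zero hq.ne_zero
  have hζv : A.valuation ζ = 1 := valuation_zeta_eq_one q A hζ
  have hx' : x * ζ ^ (-e) ∈ A :=
    A.mul_mem _ _ hxA ((A.valuation_le_one_iff _).mp (by rw [map_zpow₀, hζv, one_zpow]))
  have hfix' : ∀ σ ∈ A.inertiaSubgroupIn ℚ, σ ζ = ζ → σ (x * ζ ^ (-e)) = x * ζ ^ (-e) :=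
    fun σ hσ h => by rw [map_mul, map_zpow₀, h, hfix σ hσ h]
  obtain ⟨R, hdeg, hR⟩ := Fermat.Agent.T3.helper84.k0_zeta_int hq A hA hζ hx' hfix'
  refine ⟨fun i => ((R.coeff (i : ℕ) : Fermat.Agent.T3.helper84.k0Ring A) : Kb),
    fun i => (R.coeff (i : ℕ)).2.1, fun i σ hσ => (R.coeff (i : ℕ)).2.2 σ hσ, ?_⟩
  have h1 : x * ζ ^ (-e) = ∑ i ∈ Finset.range (q - 1),
      ((R.coeff i : Fermat.Agent.T3.helper84.k0Ring A) : Kb) * ζ ^ i := by
    rw [← hR, Polynomial.eval₂_eq_sum_range' _ hdeg]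
    rfl
  have h2 : x = (x * ζ ^ (-e)) * ζ ^ e := by
    rw [mul_assoc, ← zpow_add₀ hζ0, neg_add_cancel, zpow_zero, mul_one]
  rw [h2, h1, Finset.sum_mul, Finset.sum_range]
  refine Finset.sum_congr rfl fun i _ => ?_
  rw [mul_assoc, ← zpow_natCast, ← zpow_add₀ hζ0, add_comm]

end Cyclo

/-! ### Transfer of peelability along coefficient maps -/

section Transfer

variable {ι : Type*} {C D : ι → Type*} [∀ i, CommRing (C i)] [∀ i, CommRing (D i)]

/-- transfer of `Peelable` along injective coefficient maps `φ i : C i →+* D i`: if `R'` maps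
into `R` and every element of `R` comes from `R'`, peelability of `R` gives peelability of
`R'`. -/
theorem peelable_of_lift (φ : ∀ i, C i →+* D i) (hφ : ∀ i, Function.Injective (φ i))
    (R' : Subring ((i : ι) → LaurentSeries (C i))) (R : Subring ((i : ι) → LaurentSeries (D i)))
    (hRR' : ∀ Φ ∈ R', (fun i => coeffMap (φ i) (Φ i)) ∈ R)
    (hlift : ∀ Φ ∈ R, ∃ Φ' ∈ R', (fun i => coeffMap (φ i) (Φ' i)) = Φ)
    (p' : ∀ i, C i) (p : ∀ i, D i) (hp : ∀ i, φ i (p' i) = p i) (ω : ι → ℕ) (L₀ : ℤ)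
    (h : Peelable R p ω L₀) : Peelable R' p' ω L₀ := by
  intro i m hm Φ hΦ hΦL c hc
  obtain ⟨E, hE, hE1, hE2, hE3⟩ := h i m hm _ (hRR' Φ hΦ)
    (fun j k hk => by
      show (coeffMap (φ j) (Φ j)).coeff k = 0
      rw [coeffMap_coeff, hΦL j k hk, map_zero])
    (φ i c) (by
      show (coeffMap (φ i) (Φ i)).coeff (-m) = _
      rw [coeffMap_coeff, hc, map_mul, hp])
  obtain ⟨E', hE', rfl⟩ := hlift E hE
  refine ⟨E', hE', hφ i ?_, fun k hk => hφ i ?_, fun j hj k hk => hφ j ?_⟩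
  · rw [← hE1]
    exact (coeffMap_coeff _ _ _).symm
  · rw [map_zero, ← hE2 k hk]
    exact (coeffMap_coeff _ _ _).symm
  · rw [map_zero, ← hE3 j hj k hk]
    exact (coeffMap_coeff _ _ _).symm

end Transfer

/-! ### (SAT_q) from [SAT3-X] -/

section Final

variable {N q : ℕ} [NeZero N] [NeZero q] {hq : q.Prime} {hqN : ¬ q ∣ N}
variable {A : ValuationSubring Kb}

/-- **(SAT_q)** at level `N q q` from the inertia-fixed exact-pole elements at level `N`. -/
theorem sat3_of_exactPoleFix (hA : A.LiesOverPrime q) {ζ : Kb} (hζ : IsPrimitiveRoot ζ q)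
    (B : Subalgebra Kb (FF (N * q * q)))
    (hB : ∀ (m : ℕ) (f : FF N), InL (FF N) m (f : LaurentSeries Kb) →
      dg0 N q f ∈ B ∧ dg1 N q f ∈ B ∧ dg2 N q f ∈ B)
    {m₀ : ℕ} (hX : ExactPoleFix N A m₀) :
    Sat3Statement N q hq hqN A hζ B (lev3 q m₀ : ℤ) :=
  sat3_of hζ B hB hX (cycloDecomp hq A hA hζ)

/-- peelability from [SAT3-X] -/
theorem peelable3_of_exactPoleFix (hA : A.LiesOverPrime q) {ζ : Kb} (hζ : IsPrimitiveRoot ζ q)
    (B : Subalgebra Kb (FF (N * q * q)))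
    (hB : ∀ (m : ℕ) (f : FF N), InL (FF N) m (f : LaurentSeries Kb) →
      dg0 N q f ∈ B ∧ dg1 N q f ∈ B ∧ dg2 N q f ∈ B)
    {m₀ : ℕ} (hX : ExactPoleFix N A m₀) :
    Peelable (C := fun _ : Fin 3 => ↥A) (ring3 N q hq hqN A hζ B) (fun _ => ((q : ℕ) : A))
      (wt3 q) (lev3 q m₀ : ℤ) :=
  peelable3 hζ B hB hX (cycloDecomp hq A hA hζ)

end Final

end Fermat.Agent.T3.helper74

end
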