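/-
T3 (S36), helper74: (SAT_q) at level `N q q` for an ARBITRARY finite family of cusps of level `N`
("cusp packages"), finding #2391.

`𝒞` : a finite type (cusps of level `N`), `E c i : F_{Nqq} →+* ℚ̄((t))` (`i : Fin 3`) the three
expansions over the cusp `c` (types `∞`, `0`, middle; co-weights `1, 1, q`).

* `ringAll E B`    : the ring of the families of integral expansions of the inertia-fixed
                     elements of `B`.
* `PeelSource E B c m₀` : for `m ≥ m₀` three inertia-fixed functions `F₀, F₁, F₂ ∈ B`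
                     (`= x(τ), x(q τ), x(q² τ)` for `x` of level `N` with a pole of exact order `m`
                     at `c`) with the dg-table of expansions over `c` and integral expansions
                     without poles over the other cusps.
* `peelable_all`   : peelability of `ringAll` from the sources at all cusps.
* `sat_all`        : (SAT_q) in coefficient form.
* `peelSource_infty` : the landed package over `∞` (`𝒞 = Unit`, `E = ex3`).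
-/
import Mathlib
import Fermat.Agent.T3.helper74_Sat3K

set_option autoImplicit false
set_option synthInstance.maxHeartbeats 400000
set_option maxHeartbeats 1000000
set_option linter.unusedSectionVars false
set_option linter.style.haveILetI false

noncomputable section

open HahnSeries IntermediateField AlgebraicCurve ModularCurve
open Fermat.Agent.S18.helper19 Fermat.Agent.P2.helper29 Fermat.Agent.T2.helper36
open Fermat.Agent.T2.helper96

namespace Fermat.Agent.T3.helper74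

section Gen

variable {N q : ℕ} [NeZero N] [NeZero q] (A : ValuationSubring Kb)
variable {𝒞 : Type*} (E : 𝒞 → Fin 3 → (FF (N * q * q) →+* LaurentSeries Kb))

/-- the ring of the families of integral expansions of the inertia-fixed elements of `B` -/
def ringAll (B : Subalgebra Kb (FF (N * q * q))) : Subring (𝒞 × Fin 3 → LaurentSeries A) where
  carrier := {Φ | ∃ f : FF (N * q * q), f ∈ B ∧ IsFixI A (N * q * q) f ∧
    ∀ c i, incl A (Φ (c, i)) = E c i f}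
  mul_mem' := by
    rintro Φ Ψ ⟨f, hf, hfI, hfΦ⟩ ⟨g, hg, hgI, hgΨ⟩
    refine ⟨f * g, B.mul_mem hf hg, fun σ hσ => by rw [map_mul, hfI σ hσ, hgI σ hσ],
      fun c i => ?_⟩
    rw [Pi.mul_apply, map_mul, map_mul, hfΦ, hgΨ]
  one_mem' := ⟨1, B.one_mem, fun σ _ => map_one _, fun c i => by
    rw [Pi.one_apply, map_one, map_one]⟩
  add_mem' := by
    rintro Φ Ψ ⟨f, hf, hfI, hfΦ⟩ ⟨g, hg, hgI, hgΨ⟩
    refine ⟨f + g, B.add_mem hf hg, fun σ hσ => by rw [map_add, hfI σ hσ, hgI σ hσ],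
      fun c i => ?_⟩
    rw [Pi.add_apply, map_add, map_add, hfΦ, hgΨ]
  zero_mem' := ⟨0, B.zero_mem, fun σ _ => map_zero _, fun c i => by
    rw [Pi.zero_apply, map_zero, map_zero]⟩
  neg_mem' := by
    rintro Φ ⟨f, hf, hfI, hfΦ⟩
    refine ⟨-f, B.neg_mem hf, fun σ hσ => by rw [map_neg, hfI σ hσ], fun c i => ?_⟩
    rw [Pi.neg_apply, map_neg, map_neg, hfΦ]

/-- the expansions are `ℚ̄`-linear -/
def ConstCompat : Prop :=
  ∀ (c : 𝒞) (i : Fin 3) (a : Kb),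
    E c i (algebraMap Kb (FF (N * q * q)) a) = algebraMap Kb (LaurentSeries Kb) a

/-- the expansions of an inertia-fixed function have coefficients fixed by the inertia group
(types `∞`, `0`), resp. by the inertia elements fixing `ζ` (middle type). -/
def GalCompat (ζ : Kb) : Prop :=
  ∀ (c : 𝒞) (i : Fin 3) (f : FF (N * q * q)), IsFixI A (N * q * q) f →
    ∀ σ ∈ A.inertiaSubgroupIn ℚ, (i = 2 → σ ζ = ζ) →
      coeffMap (σ : Kb →+* Kb) (E c i f) = E c i f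

/-- **the source of the peelers at the cusp `c`**: for `m ≥ m₀` three inertia-fixed functions
`F₀ = x(τ)`, `F₁ = x(q τ)`, `F₂ = x(q² τ)` of `B` with the dg-table over `c` for an integral
series `Y = t^(-m) + …`, and with integral expansions without poles over the other cusps. -/
def PeelSource (B : Subalgebra Kb (FF (N * q * q))) (ζ : Kb) (hζv : A.valuation ζ = 1) (c : 𝒞)
    (m₀ : ℕ) : Prop :=
  ∀ m : ℕ, m₀ ≤ m → ∃ (F : Fin 3 → FF (N * q * q)) (Y : LaurentSeries A),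
    IsMonicAt Y m ∧ (∀ j, F j ∈ B) ∧ (∀ j, IsFixI A (N * q * q) (F j)) ∧
    E c 0 (F 0) = incl A Y ∧ E c 0 (F 1) = incl A (qExpand A q Y) ∧
    E c 0 (F 2) = incl A (qExpand A q (qExpand A q Y)) ∧
    E c 1 (F 0) = incl A (qExpand A q (qExpand A q Y)) ∧ E c 1 (F 1) = incl A (qExpand A q Y) ∧
    E c 1 (F 2) = incl A Y ∧
    E c 2 (F 0) = incl A Y ∧ E c 2 (F 1) = incl A (qExpand A q Y) ∧
    E c 2 (F 2) = incl A (twistA A ζ hζv Y) ∧
    ∀ c' : 𝒞, c' ≠ c → ∀ i j : Fin 3, ∃ Z : LaurentSeries A, incl A Z = E c' i (F j) ∧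
      ∀ k : ℤ, k < 0 → Z.coeff k = 0

/-- series without poles are closed under multiplication -/
theorem coeff_mul_eq_zero_of_neg {X Y : LaurentSeries A} (hX : ∀ k : ℤ, k < 0 → X.coeff k = 0)
    (hY : ∀ k : ℤ, k < 0 → Y.coeff k = 0) : ∀ k : ℤ, k < 0 → (X * Y).coeff k = 0 := by
  intro k hk
  rw [HahnSeries.coeff_mul]
  apply Finset.sum_eq_zero
  intro ij hij
  rw [Finset.mem_antidiagonal] at hij
  obtain ⟨h1, h2, h3⟩ := hij
  by_cases hi : ij.1 < 0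
  · exact absurd (hX _ hi) h1
  · by_cases hj : ij.2 < 0
    · exact absurd (hY _ hj) h2
    · omega

variable {A E}

/-- the family of expansions of `x_a(τ) x_b(q τ) x_c(q² τ)` for three sources at the cusp `c`. -/
theorem prodAll_mem (B : Subalgebra Kb (FF (N * q * q))) {ζ : Kb} (hζ : IsPrimitiveRoot ζ q)
    (hζv : A.valuation ζ = 1) {c₀ : 𝒞} {m₀ : ℕ} (hS : PeelSource A E B ζ hζv c₀ m₀)
    {a b c : ℕ} (ha : m₀ ≤ a) (hb : m₀ ≤ b) (hc : m₀ ≤ c) :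
    ∃ Φ ∈ ringAll A E B,
      IsMonicAt (Φ (c₀, 0)) ((a : ℤ) + q * b + q * (q * c)) ∧
      IsMonicAt (Φ (c₀, 1)) ((q : ℤ) * (q * a) + q * b + c) ∧
      (((Φ (c₀, 2)).coeff (-((a : ℤ) + q * b + c)) : A) : Kb) = ζ ^ (-(c : ℤ)) ∧
      (∀ k : ℤ, k < -((a : ℤ) + q * b + c) → (Φ (c₀, 2)).coeff k = 0) ∧
      ∀ c' : 𝒞, c' ≠ c₀ → ∀ (i : Fin 3) (k : ℤ), k < 0 → (Φ (c', i)).coeff k = 0 := by
  classical
  obtain ⟨Fa, Ya, hma, hFaB, hFaI, ha00, -, -, ha10, -, -, ha20, -, -, haZ⟩ := hS a ha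
  obtain ⟨Fb, Yb, hmb, hFbB, hFbI, -, hb01, -, -, hb11, -, -, hb21, -, hbZ⟩ := hS b hb
  obtain ⟨Fc, Yc, hmc, hFcB, hFcI, -, -, hc02, -, -, hc12, -, -, hc22, hcZ⟩ := hS c hc
  have hP : IsMonicAt (Ya * qExpand A q Yb) ((a : ℤ) + q * b) := hma.mul (hmb.qExpand q)
  have hT0 : (twistA A ζ hζv Yc).coeff (-(c : ℤ)) ≠ 0 := by
    intro h0
    have h1 := twistA_coeff A ζ hζv Yc (-(c : ℤ))
    rw [h0, hmc.1] at h1
    have h2 : ζ ^ (-(c : ℤ)) ≠ 0 := zpow_ne_zero _ (hζ.ne_zero (NeZero.ne q))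
    apply h2
    have h3 : ((0 : A) : Kb) = ζ ^ (-(c : ℤ)) * ((1 : A) : Kb) := h1
    rw [ZeroMemClass.coe_zero, OneMemClass.coe_one, mul_one] at h3
    exact h3.symm
  have hT1 : ∀ k : ℤ, k < -(c : ℤ) → (twistA A ζ hζv Yc).coeff k = 0 := by
    intro k hk
    apply Subtype.ext
    rw [twistA_coeff, hmc.2 k hk]
    simp
  obtain ⟨hE2a, hE2b⟩ := coeff_mul_of_isMonicAt hP hT0 hT1
  set G : FF (N * q * q) := Fa 0 * Fb 1 * Fc 2 with hG
  -- the expansions of `G`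
  have key : ∀ (c₁ : 𝒞) (i : Fin 3), ∃ Y : LaurentSeries A, incl A Y = E c₁ i G ∧
      (c₁ = c₀ → i = 0 → Y = Ya * qExpand A q Yb * qExpand A q (qExpand A q Yc)) ∧
      (c₁ = c₀ → i = 1 → Y = qExpand A q (qExpand A q Ya) * qExpand A q Yb * Yc) ∧
      (c₁ = c₀ → i = 2 → Y = Ya * qExpand A q Yb * twistA A ζ hζv Yc) ∧
      (c₁ ≠ c₀ → ∀ k : ℤ, k < 0 → Y.coeff k = 0) := by
    intro c₁ i
    by_cases hc₁ : c₁ = c₀
    · subst hc₁
      rcases fin3_cases i with rfl | rfl | rfl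
      · refine ⟨Ya * qExpand A q Yb * qExpand A q (qExpand A q Yc), ?_, fun _ _ => rfl,
          fun _ h => absurd h (by decide), fun _ h => absurd h (by decide),
          fun h => absurd rfl h⟩
        rw [hG, map_mul, map_mul, map_mul, map_mul, ha00, hb01, hc02]
      · refine ⟨qExpand A q (qExpand A q Ya) * qExpand A q Yb * Yc, ?_,
          fun _ h => absurd h (by decide), fun _ _ => rfl, fun _ h => absurd h (by decide),
          fun h => absurd rfl h⟩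
        rw [hG, map_mul, map_mul, map_mul, map_mul, ha10, hb11, hc12]
      · refine ⟨Ya * qExpand A q Yb * twistA A ζ hζv Yc, ?_,
          fun _ h => absurd h (by decide), fun _ h => absurd h (by decide), fun _ _ => rfl,
          fun h => absurd rfl h⟩
        rw [hG, map_mul, map_mul, map_mul, map_mul, ha20, hb21, hc22]
    · obtain ⟨Za, hZa, hZa0⟩ := haZ c₁ hc₁ i 0
      obtain ⟨Zb, hZb, hZb0⟩ := hbZ c₁ hc₁ i 1
      obtain ⟨Zc, hZc, hZc0⟩ := hcZ c₁ hc₁ i 2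
      refine ⟨Za * Zb * Zc, ?_, fun h => absurd h hc₁, fun h => absurd h hc₁,
        fun h => absurd h hc₁, fun _ =>
          coeff_mul_eq_zero_of_neg A (coeff_mul_eq_zero_of_neg A hZa0 hZb0) hZc0⟩
      rw [hG, map_mul, map_mul, map_mul, map_mul, hZa, hZb, hZc]
  choose Y hY h0 h1 h2 hne using key
  refine ⟨fun p => Y p.1 p.2, ⟨G, B.mul_mem (B.mul_mem (hFaB 0) (hFbB 1)) (hFcB 2), ?_,
    fun c₁ i => hY c₁ i⟩, ?_, ?_, ?_, ?_, ?_⟩
  · intro σ hσ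
    rw [hG, map_mul, map_mul, hFaI 0 σ hσ, hFbI 1 σ hσ, hFcI 2 σ hσ]
  · show IsMonicAt (Y c₀ 0) _
    rw [h0 c₀ 0 rfl rfl]
    exact hP.mul ((hmc.qExpand q).qExpand q)
  · show IsMonicAt (Y c₀ 1) _
    rw [h1 c₀ 1 rfl rfl]
    exact (((hma.qExpand q).qExpand q).mul (hmb.qExpand q)).mul hmc
  · show ((((Y c₀ 2).coeff (-((a : ℤ) + q * b + c)) : A)) : Kb) = ζ ^ (-(c : ℤ))
    rw [h2 c₀ 2 rfl rfl, hE2a, twistA_coeff, hmc.1, OneMemClass.coe_one, mul_one]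
  · intro k hk
    show (Y c₀ 2).coeff k = 0
    rw [h2 c₀ 2 rfl rfl]
    exact hE2b k hk
  · intro c' hc' i k hk
    exact hne c' i hc' k hk

/-! ### The peelers -/

theorem peelerAll_inf (hq : q.Prime) (B : Subalgebra Kb (FF (N * q * q))) {ζ : Kb}
    (hζ : IsPrimitiveRoot ζ q) (hζv : A.valuation ζ = 1) {c₀ : 𝒞} {m₀ : ℕ}
    (hS : PeelSource A E B ζ hζv c₀ m₀) {M : ℕ} (hM : lev3 q m₀ < M) :
    ∃ Φ ∈ ringAll A E B, IsMonicAt (Φ (c₀, 0)) M ∧
      (∀ k : ℤ, (M : ℤ) ≤ -k → (Φ (c₀, 1)).coeff k = 0) ∧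
      (∀ k : ℤ, (M : ℤ) ≤ -k * q → (Φ (c₀, 2)).coeff k = 0) ∧
      ∀ c' : 𝒞, c' ≠ c₀ → ∀ (i : Fin 3) (k : ℤ), k < 0 → (Φ (c', i)).coeff k = 0 := by
  obtain ⟨a, c, ha, hc, hsum⟩ := exists_split_sq q hq.pos hM
  obtain ⟨Φ, hΦ, h0, h1, -, h2, h3⟩ := prodAll_mem B hζ hζv hS ha le_rfl
    (show m₀ ≤ c by omega)
  have e : (a : ℤ) + q * m₀ + q * (q * c) = M := by exact_mod_cast hsum
  have hq2 : (2 : ℤ) ≤ q := by exact_mod_cast hq.two_le
  have hca : (a : ℤ) + q * m₀ + 1 ≤ c := by exact_mod_cast hc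
  have ha0 : (0 : ℤ) ≤ a := Int.natCast_nonneg a
  have hm0 : (0 : ℤ) ≤ (q : ℤ) * m₀ := by positivity
  have hp1 : (0 : ℤ) < ((q : ℤ) * q - 1) * (c - a) := mul_pos (by nlinarith) (by linarith)
  have hqc : (c : ℤ) ≤ q * c := by nlinarith
  have hp2 : (0 : ℤ) < ((q : ℤ) - 1) * (q * c - a - q * m₀) :=
    mul_pos (by linarith) (by linarith)
  refine ⟨Φ, hΦ, by rw [← e]; exact h0, fun k hk => ?_, fun k hk => ?_, h3⟩
  · apply h1.2
    linarith
  · apply h2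
    by_contra hcon
    rw [not_lt] at hcon
    have h3 : -k * (q : ℤ) ≤ ((a : ℤ) + q * m₀ + c) * q :=
      mul_le_mul_of_nonneg_right (by linarith) (by linarith)
    linarith

theorem peelerAll_zero (hq : q.Prime) (B : Subalgebra Kb (FF (N * q * q))) {ζ : Kb}
    (hζ : IsPrimitiveRoot ζ q) (hζv : A.valuation ζ = 1) {c₀ : 𝒞} {m₀ : ℕ}
    (hS : PeelSource A E B ζ hζv c₀ m₀) {M : ℕ} (hM : lev3 q m₀ < M) :
    ∃ Φ ∈ ringAll A E B, IsMonicAt (Φ (c₀, 1)) M ∧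
      (∀ k : ℤ, (M : ℤ) ≤ -k → (Φ (c₀, 0)).coeff k = 0) ∧
      (∀ k : ℤ, (M : ℤ) ≤ -k * q → (Φ (c₀, 2)).coeff k = 0) ∧
      ∀ c' : 𝒞, c' ≠ c₀ → ∀ (i : Fin 3) (k : ℤ), k < 0 → (Φ (c', i)).coeff k = 0 := by
  obtain ⟨a, c, ha, hc, hsum⟩ := exists_split_sq q hq.pos hM
  obtain ⟨Φ, hΦ, h0, h1, -, h2, h3⟩ := prodAll_mem B hζ hζv hS (show m₀ ≤ c by omega) le_rfl ha
  have e : (q : ℤ) * (q * c) + q * m₀ + a = M := by
    have : (a : ℤ) + q * m₀ + q * (q * c) = M := by exact_mod_cast hsum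
    linarith
  have hq2 : (2 : ℤ) ≤ q := by exact_mod_cast hq.two_le
  have hca : (a : ℤ) + q * m₀ + 1 ≤ c := by exact_mod_cast hc
  have ha0 : (0 : ℤ) ≤ a := Int.natCast_nonneg a
  have hm0 : (0 : ℤ) ≤ (q : ℤ) * m₀ := by positivity
  have hp1 : (0 : ℤ) < ((q : ℤ) * q - 1) * (c - a) := mul_pos (by nlinarith) (by linarith)
  have hqc : (c : ℤ) ≤ q * c := by nlinarith
  have hp2 : (0 : ℤ) < ((q : ℤ) - 1) * (q * c - a - q * m₀) :=
    mul_pos (by linarith) (by linarith)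
  refine ⟨Φ, hΦ, by rw [← e]; exact h1, fun k hk => ?_, fun k hk => ?_, h3⟩
  · apply h0.2
    linarith
  · apply h2
    by_contra hcon
    rw [not_lt] at hcon
    have h3 : -k * (q : ℤ) ≤ ((c : ℤ) + q * m₀ + a) * q :=
      mul_le_mul_of_nonneg_right (by linarith) (by linarith)
    linarith

theorem peelerAll_mid (hq : q.Prime) (B : Subalgebra Kb (FF (N * q * q))) {ζ : Kb}
    (hζ : IsPrimitiveRoot ζ q) (hζv : A.valuation ζ = 1) {c₀ : 𝒞} {m₀ : ℕ}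
    (hS : PeelSource A E B ζ hζv c₀ m₀) {M : ℕ} (hM : lev3 q m₀ < M * q) {c : ℕ}
    (hc : m₀ ≤ c) (hc' : c ≤ m₀ + q) :
    ∃ Φ ∈ ringAll A E B,
      (((Φ (c₀, 2)).coeff (-(M : ℤ)) : A) : Kb) = ζ ^ (-(c : ℤ)) ∧
      (∀ k : ℤ, k < -(M : ℤ) → (Φ (c₀, 2)).coeff k = 0) ∧
      (∀ k : ℤ, (M : ℤ) * q ≤ -k → (Φ (c₀, 0)).coeff k = 0) ∧
      (∀ k : ℤ, (M : ℤ) * q ≤ -k → (Φ (c₀, 1)).coeff k = 0) ∧
      ∀ c' : 𝒞, c' ≠ c₀ → ∀ (i : Fin 3) (k : ℤ), k < 0 → (Φ (c', i)).coeff k = 0 := by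
  obtain ⟨a, b, ha, hab, hcb, hb, hsum⟩ := exists_split_mid q hq.two_le hM hc'
  obtain ⟨Φ, hΦ, h0, h1, h2, h3, h4⟩ := prodAll_mem B hζ hζv hS ha hb hc
  have e : (a : ℤ) + q * b + c = M := by exact_mod_cast hsum
  have hq2 : (2 : ℤ) ≤ q := by exact_mod_cast hq.two_le
  have hab' : (a : ℤ) + 1 ≤ b := by exact_mod_cast hab
  have hcb' : (c : ℤ) + 1 ≤ b := by exact_mod_cast hcb
  have ha0 : (0 : ℤ) ≤ a := Int.natCast_nonneg a
  have hc0 : (0 : ℤ) ≤ c := Int.natCast_nonneg c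
  have hqb1 : (q : ℤ) * (c + 1) ≤ q * b := mul_le_mul_of_nonneg_left hcb' (by linarith)
  have hqb2 : (q : ℤ) * (a + 1) ≤ q * b := mul_le_mul_of_nonneg_left hab' (by linarith)
  have hp1 : (0 : ℤ) < ((q : ℤ) - 1) * (a + q * b - q * c) :=
    mul_pos (by linarith) (by linarith)
  have hp2 : (0 : ℤ) < ((q : ℤ) - 1) * (q * b + c - q * a) :=
    mul_pos (by linarith) (by linarith)
  rw [e] at h2 h3
  refine ⟨Φ, hΦ, h2, h3, fun k hk => ?_, fun k hk => ?_, h4⟩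
  · apply h0.2
    rw [← e] at hk
    linarith
  · apply h1.2
    rw [← e] at hk
    linarith

/-! ### Peelability -/

/-- inertia-fixed integral constants -/
theorem const_mem_ringAll (hE : ConstCompat E) (B : Subalgebra Kb (FF (N * q * q)))
    (c : A) (hc : ∀ σ ∈ A.inertiaSubgroupIn ℚ, σ (c : Kb) = (c : Kb)) :
    (fun _ => HahnSeries.C c : 𝒞 × Fin 3 → LaurentSeries A) ∈ ringAll A E B := by
  refine ⟨algebraMap Kb (FF (N * q * q)) (c : Kb), B.algebraMap_mem _, fun σ hσ => ?_,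
    fun c₁ i => ?_⟩
  · rw [arithmeticRingAut_algebraMap, hc σ hσ]
  · rw [incl_C3, hE]

/-- the co-weights: `1, 1, q` over every cusp -/
def wtAll (q : ℕ) (𝒞 : Type*) : 𝒞 × Fin 3 → ℕ := fun p => wt3 q p.2

theorem coeff_fix_all {ζ : Kb} (hG : GalCompat A E ζ) (B : Subalgebra Kb (FF (N * q * q)))
    {Φ : 𝒞 × Fin 3 → LaurentSeries A} (hΦ : Φ ∈ ringAll A E B) (c : 𝒞) (i : Fin 3)
    (σ : Kb ≃ₐ[ℚ] Kb) (hσ : σ ∈ A.inertiaSubgroupIn ℚ) (hσζ : i = 2 → σ ζ = ζ) (k : ℤ) :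
    σ (((Φ (c, i)).coeff k : A) : Kb) = (((Φ (c, i)).coeff k : A) : Kb) := by
  obtain ⟨f, -, hfI, hf⟩ := hΦ
  have h1 : coeffMap (σ : Kb →+* Kb) (incl A (Φ (c, i))) = incl A (Φ (c, i)) := by
    rw [hf c i]
    exact hG c i f hfI σ hσ hσζ
  have h2 := congrArg (fun x => x.coeff k) h1
  simp only [coeffMap_coeff] at h2
  exact h2

/-- **peelability** of the ring of the families of integral expansions, from the sources at all
cusps. -/
theorem peelable_all [Fintype 𝒞] [DecidableEq 𝒞] (hq : q.Prime)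
    (B : Subalgebra Kb (FF (N * q * q))) {ζ : Kb}
    (hζ : IsPrimitiveRoot ζ q) (hζv : A.valuation ζ = 1) (hE : ConstCompat E)
    (hG : GalCompat A E ζ) {m₀ : ℕ} (hS : ∀ c : 𝒞, PeelSource A E B ζ hζv c m₀)
    (hK : CycloDecompStatement q A ζ) :
    Peelable (C := fun _ : 𝒞 × Fin 3 => ↥A) (ringAll A E B) (fun _ => ((q : ℕ) : A))
      (wtAll q 𝒞) (lev3 q m₀ : ℤ) := by
  rintro ⟨c₀, i⟩ m hm Φ hΦ _ c hc
  have hq0 : ((q : ℕ) : Kb) ≠ 0 := Nat.cast_ne_zero.mpr hq.ne_zero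
  have hfix : ∀ σ : Kb ≃ₐ[ℚ] Kb,
      σ (((Φ (c₀, i)).coeff (-m) : A) : Kb) = (((Φ (c₀, i)).coeff (-m) : A) : Kb) →
      σ ((c : A) : Kb) = ((c : A) : Kb) := by
    intro σ h
    have hc' : (((Φ (c₀, i)).coeff (-m) : A) : Kb) = ((q : ℕ) : Kb) * ((c : A) : Kb) := by
      rw [hc]
      rfl
    rw [hc', map_mul, map_natCast] at h
    exact mul_left_cancel₀ hq0 h
  have hqpos : (0 : ℤ) < (q : ℤ) := by exact_mod_cast hq.pos
  have hlev0 : (0 : ℤ) ≤ (lev3 q m₀ : ℤ) := Int.natCast_nonneg _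
  -- the other cusps
  have hother : ∀ (Ψ : 𝒞 × Fin 3 → LaurentSeries A),
      (∀ c' : 𝒞, c' ≠ c₀ → ∀ (j : Fin 3) (k : ℤ), k < 0 → (Ψ (c', j)).coeff k = 0) →
      ∀ (c' : 𝒞) (j : Fin 3), c' ≠ c₀ → ∀ k : ℤ,
        m * ((wtAll q 𝒞 (c₀, i) : ℕ) : ℤ) ≤ -k * ((wtAll q 𝒞 (c', j) : ℕ) : ℤ) →
        (Ψ (c', j)).coeff k = 0 := by
    intro Ψ hΨ c' j hc' k hk
    apply hΨ c' hc' j k
    by_contra hcon
    rw [not_lt] at hcon
    have h1 : (0 : ℤ) ≤ ((wtAll q 𝒞 (c', j) : ℕ) : ℤ) := Int.natCast_nonneg _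
    have h2 : -k * ((wtAll q 𝒞 (c', j) : ℕ) : ℤ) ≤ 0 :=
      mul_nonpos_of_nonpos_of_nonneg (by linarith) h1
    linarith
  rcases fin3_cases i with rfl | rfl | rfl
  · -- type `∞`
    have hm' : (lev3 q m₀ : ℤ) < m := by
      have : ((wtAll q 𝒞 (c₀, 0) : ℕ) : ℤ) = 1 := by rw [wtAll, wt3_zero, Nat.cast_one]
      rw [this, mul_one] at hm
      exact hm
    obtain ⟨M, rfl⟩ := Int.eq_ofNat_of_zero_le (le_of_lt (lt_of_le_of_lt hlev0 hm'))
    obtain ⟨Ψ, hΨ, h0, h1, h2, h3⟩ := peelerAll_inf hq B hζ hζv (hS c₀)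
      (show lev3 q m₀ < M by exact_mod_cast hm')
    have hcoef : ∀ p k, (((fun _ => HahnSeries.C c : 𝒞 × Fin 3 → LaurentSeries A) * Ψ) p).coeff k
        = c * (Ψ p).coeff k := fun p k => coeff_C_mul _ _ _
    refine ⟨(fun _ => HahnSeries.C c) * Ψ, Subring.mul_mem _ (const_mem_ringAll hE B c
      (fun σ hσ => hfix σ (coeff_fix_all hG B hΦ c₀ 0 σ hσ (fun h => absurd h (by decide)) _)))
      hΨ, ?_, ?_, ?_⟩
    · rw [hcoef, h0.1, mul_one]
    · intro k hk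
      rw [hcoef, h0.2 k hk, mul_zero]
    · rintro ⟨c', j⟩ hj k hk
      rw [hcoef]
      by_cases hc' : c' = c₀
      · subst hc'
        rcases fin3_cases j with rfl | rfl | rfl
        · exact absurd rfl hj
        · rw [wtAll, wtAll, wt3_zero, wt3_one, Nat.cast_one, mul_one, mul_one] at hk
          rw [h1 k hk, mul_zero]
        · rw [wtAll, wtAll, wt3_zero, wt3_two, Nat.cast_one, mul_one] at hk
          rw [h2 k hk, mul_zero]
      · rw [hother Ψ h3 c' j hc' k hk, mul_zero]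
  · -- type `0`
    have hm' : (lev3 q m₀ : ℤ) < m := by
      have : ((wtAll q 𝒞 (c₀, 1) : ℕ) : ℤ) = 1 := by rw [wtAll, wt3_one, Nat.cast_one]
      rw [this, mul_one] at hm
      exact hm
    obtain ⟨M, rfl⟩ := Int.eq_ofNat_of_zero_le (le_of_lt (lt_of_le_of_lt hlev0 hm'))
    obtain ⟨Ψ, hΨ, h1, h0, h2, h3⟩ := peelerAll_zero hq B hζ hζv (hS c₀)
      (show lev3 q m₀ < M by exact_mod_cast hm')
    have hcoef : ∀ p k, (((fun _ => HahnSeries.C c : 𝒞 × Fin 3 → LaurentSeries A) * Ψ) p).coeff k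
        = c * (Ψ p).coeff k := fun p k => coeff_C_mul _ _ _
    refine ⟨(fun _ => HahnSeries.C c) * Ψ, Subring.mul_mem _ (const_mem_ringAll hE B c
      (fun σ hσ => hfix σ (coeff_fix_all hG B hΦ c₀ 1 σ hσ (fun h => absurd h (by decide)) _)))
      hΨ, ?_, ?_, ?_⟩
    · rw [hcoef, h1.1, mul_one]
    · intro k hk
      rw [hcoef, h1.2 k hk, mul_zero]
    · rintro ⟨c', j⟩ hj k hk
      rw [hcoef]
      by_cases hc' : c' = c₀
      · subst hc'
        rcases fin3_cases j with rfl | rfl | rfl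
        · rw [wtAll, wtAll, wt3_zero, wt3_one, Nat.cast_one, mul_one, mul_one] at hk
          rw [h0 k hk, mul_zero]
        · exact absurd rfl hj
        · rw [wtAll, wtAll, wt3_one, wt3_two, Nat.cast_one, mul_one] at hk
          rw [h2 k hk, mul_zero]
      · rw [hother Ψ h3 c' j hc' k hk, mul_zero]
  · -- the middle type
    have hm' : (lev3 q m₀ : ℤ) < m * q := by
      have : ((wtAll q 𝒞 (c₀, 2) : ℕ) : ℤ) = q := by rw [wtAll, wt3_two]
      rw [this] at hm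
      exact hm
    have hm0 : 0 ≤ m := by
      by_contra hcon
      rw [not_le] at hcon
      have : m * (q : ℤ) < 0 := mul_neg_of_neg_of_pos hcon hqpos
      linarith
    obtain ⟨M, rfl⟩ := Int.eq_ofNat_of_zero_le hm0
    have hM : lev3 q m₀ < M * q := by exact_mod_cast hm'
    have hq2 := hq.two_le
    obtain ⟨d, hdA, hdI, hd⟩ := hK ((c : A) : Kb) c.2
      (fun σ hσ hσζ => hfix σ (coeff_fix_all hG B hΦ c₀ 2 σ hσ (fun _ => hσζ) _))
      (-((m₀ + (q - 2) : ℕ) : ℤ))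
    have hpe : ∀ i : Fin (q - 1), ∃ Ψ ∈ ringAll A E B,
        (((Ψ (c₀, 2)).coeff (-(M : ℤ)) : A) : Kb) = ζ ^ (-((m₀ + (q - 2 - (i : ℕ)) : ℕ) : ℤ)) ∧
        (∀ k : ℤ, k < -(M : ℤ) → (Ψ (c₀, 2)).coeff k = 0) ∧
        (∀ k : ℤ, (M : ℤ) * q ≤ -k → (Ψ (c₀, 0)).coeff k = 0) ∧
        (∀ k : ℤ, (M : ℤ) * q ≤ -k → (Ψ (c₀, 1)).coeff k = 0) ∧
        ∀ c' : 𝒞, c' ≠ c₀ → ∀ (i : Fin 3) (k : ℤ), k < 0 → (Ψ (c', i)).coeff k = 0 := fun i =>
      peelerAll_mid hq B hζ hζv (hS c₀) hM (c := m₀ + (q - 2 - (i : ℕ))) (by omega) (by omega)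
    choose Ψ hΨ h2 h3 h0 h1 h4 using hpe
    have hcoef : ∀ (p : 𝒞 × Fin 3) (k : ℤ),
        ((∑ i : Fin (q - 1), (fun _ => HahnSeries.C (⟨d i, hdA i⟩ : A)) * Ψ i :
          𝒞 × Fin 3 → LaurentSeries A) p).coeff k
          = ∑ i : Fin (q - 1), (⟨d i, hdA i⟩ : A) * (Ψ i p).coeff k := by
      intro p k
      have e1 : (∑ i : Fin (q - 1), (fun _ => HahnSeries.C (⟨d i, hdA i⟩ : A)) * Ψ i :
          𝒞 × Fin 3 → LaurentSeries A) p
          = ∑ i : Fin (q - 1), HahnSeries.C (⟨d i, hdA i⟩ : A) * Ψ i p := by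
        rw [Finset.sum_apply]
        rfl
      rw [e1, HahnSeries.coeff_sum]
      exact Finset.sum_congr rfl fun i _ => coeff_C_mul _ _ _
    refine ⟨∑ i : Fin (q - 1), (fun _ => HahnSeries.C (⟨d i, hdA i⟩ : A)) * Ψ i,
      Subring.sum_mem _ fun i _ => Subring.mul_mem _
        (const_mem_ringAll hE B ⟨d i, hdA i⟩ (hdI i)) (hΨ i), ?_, ?_, ?_⟩
    · rw [hcoef]
      apply Subtype.ext
      rw [← A.subtype_apply, map_sum, hd]
      refine Finset.sum_congr rfl fun i _ => ?_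
      rw [map_mul, A.subtype_apply, A.subtype_apply, h2 i]
      congr 2
      have := i.2
      omega
    · intro k hk
      rw [hcoef]
      exact Finset.sum_eq_zero fun i _ => by rw [h3 i k hk, mul_zero]
    · rintro ⟨c', j⟩ hj k hk
      rw [hcoef]
      by_cases hc' : c' = c₀
      · subst hc'
        rcases fin3_cases j with rfl | rfl | rfl
        · rw [wtAll, wtAll, wt3_two, wt3_zero, Nat.cast_one, mul_one] at hk
          exact Finset.sum_eq_zero fun i _ => by rw [h0 i k hk, mul_zero]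
        · rw [wtAll, wtAll, wt3_two, wt3_one, Nat.cast_one, mul_one] at hk
          exact Finset.sum_eq_zero fun i _ => by rw [h1 i k hk, mul_zero]
        · exact absurd rfl hj
      · exact Finset.sum_eq_zero fun i _ => by
          rw [hother (Ψ i) (h4 i) c' j hc' k hk, mul_zero]

theorem wtAll_pos (p : 𝒞 × Fin 3) : 0 < wtAll q 𝒞 p := wt3_pos (q := q) p.2

/-- **(SAT_q)** for a family of cusps, in coefficient form. -/
theorem sat_all [Fintype 𝒞] [DecidableEq 𝒞] (hq : q.Prime)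
    (B : Subalgebra Kb (FF (N * q * q))) {ζ : Kb}
    (hζ : IsPrimitiveRoot ζ q) (hζv : A.valuation ζ = 1) (hE : ConstCompat E)
    (hG : GalCompat A E ζ) {m₀ : ℕ} (hS : ∀ c : 𝒞, PeelSource A E B ζ hζv c m₀)
    (hK : CycloDecompStatement q A ζ) (L : ℤ) (hL : (lev3 q m₀ : ℤ) ≤ L)
    (f : FF (N * q * q)) (hfB : f ∈ B) (hfI : IsFixI A (N * q * q) f)
    (hfInt : ∀ (c : 𝒞) (i : Fin 3), ∃ Y : LaurentSeries A, incl A Y = E c i f)
    (hdiv : ∀ (c : 𝒞) (i : Fin 3) (k : ℤ), L < -k * (wt3 q i : ℤ) →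
      ∃ a : Kb, a ∈ A ∧ (E c i f).coeff k = (q : Kb) * a) :
    ∃ g : FF (N * q * q), g ∈ B ∧ IsFixI A (N * q * q) g ∧
      (∀ (c : 𝒞) (i : Fin 3), ∃ Y : LaurentSeries A, incl A Y = E c i g) ∧
      ∀ (c : 𝒞) (i : Fin 3) (k : ℤ), L < -k * (wt3 q i : ℤ) →
        (E c i (f - algebraMap Kb (FF (N * q * q)) (q : Kb) * g)).coeff k = 0 := by
  choose Y hY using hfInt
  have hΦ : (fun p : 𝒞 × Fin 3 => Y p.1 p.2) ∈ ringAll A E B := ⟨f, hfB, hfI, fun c i => hY c i⟩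
  have hqc : incl A (HahnSeries.C ((q : ℕ) : A))
      = algebraMap Kb (LaurentSeries Kb) ((q : ℕ) : Kb) := by
    rw [incl_C3]
    rfl
  have hdec : ∃ y, LevelLE (wtAll q 𝒞) L y ∧ ∃ z, (fun p : 𝒞 × Fin 3 => Y p.1 p.2)
      = y + constFam (C := fun _ : 𝒞 × Fin 3 => ↥A) (fun _ => ((q : ℕ) : A)) * z := by
    refine exists_decomp_of_dvd (C := fun _ : 𝒞 × Fin 3 => ↥A) (fun _ => ((q : ℕ) : A))
      (wtAll q 𝒞) L _ (fun p k hk => ?_)
    obtain ⟨a, haA, ha⟩ := hdiv p.1 p.2 k hk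
    refine ⟨⟨a, haA⟩, Subtype.ext ?_⟩
    have h1 : (((Y p.1 p.2).coeff k : A) : Kb) = (E p.1 p.2 f).coeff k := by
      rw [← hY p.1 p.2, coeffMap_coeff]
      rfl
    rw [h1, ha]
    rfl
  have hpR : constFam (C := fun _ : 𝒞 × Fin 3 => ↥A) (fun _ => ((q : ℕ) : A))
      ∈ ringAll A E B :=
    const_mem_ringAll hE B ((q : ℕ) : A) (fun σ _ => by
      show σ (((q : ℕ) : A) : Kb) = _
      have : ((((q : ℕ) : A)) : Kb) = ((q : ℕ) : Kb) := rfl
      rw [this, map_natCast])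
  obtain ⟨l, -, hlL, r, hr, hlr⟩ := sat_of_peelable (C := fun _ : 𝒞 × Fin 3 => ↥A)
    (ringAll A E B) (fun _ => ((q : ℕ) : A)) hpR (wtAll q 𝒞) (wtAll_pos (q := q))
    (lev3 q m₀ : ℤ) (peelable_all hq B hζ hζv hE hG hS hK) L hL _ hΦ hdec
  obtain ⟨g, hgB, hgI, hg⟩ := hr
  refine ⟨g, hgB, hgI, fun c i => ⟨r (c, i), hg c i⟩, fun c i k hk => ?_⟩
  have h1 : E c i (f - algebraMap Kb (FF (N * q * q)) ((q : ℕ) : Kb) * g)
      = incl A (l (c, i)) := by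
    have h2 : l (c, i) = Y c i - HahnSeries.C ((q : ℕ) : A) * r (c, i) := by
      have h3 := congrFun hlr (c, i)
      have h4 : (l + constFam (C := fun _ : 𝒞 × Fin 3 => ↥A) (fun _ => ((q : ℕ) : A)) * r)
          (c, i) = l (c, i) + HahnSeries.C ((q : ℕ) : A) * r (c, i) := rfl
      rw [h4] at h3
      have h5 : Y c i = l (c, i) + HahnSeries.C ((q : ℕ) : A) * r (c, i) := h3
      rw [h5]
      ring
    rw [map_sub, map_mul, hE, h2, map_sub, map_mul, hqc, hY c i, hg c i]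
  rw [h1, coeffMap_coeff, hlL (c, i) k hk]
  rfl

end Gen

/-! ### The landed package over `∞` -/

section Infty

variable {N q : ℕ} [NeZero N] [NeZero q] {hq : q.Prime} {hqN : ¬ q ∣ N}
variable {A : ValuationSubring Kb}

/-- the source of peelers over `∞` from the exact-pole elements at level `N`. -/
theorem peelSource_infty {ζ : Kb} (hζ : IsPrimitiveRoot ζ q) (B : Subalgebra Kb (FF (N * q * q)))
    (hB : ∀ (m : ℕ) (f : FF N), InL (FF N) m (f : LaurentSeries Kb) →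
      dg0 N q f ∈ B ∧ dg1 N q f ∈ B ∧ dg2 N q f ∈ B)
    {m₀ : ℕ} (hX : ExactPoleFix N A m₀) :
    PeelSource A (fun _ : Unit => ex3 N q hq hqN hζ) B ζ (valuation_zeta_eq_one q A hζ) ()
      m₀ := by
  intro m hm
  obtain ⟨X, hX1, hX2, hX3⟩ := hX m hm
  set x : FF N := ⟨incl A X, hX1.1⟩ with hx
  have hxI : IsFixI A N x := isFixI_of_coeffFix A N hX1.1 hX3
  have hxB := hB m x hX1
  refine ⟨![dg0 N q x, dg1 N q x, dg2 N q x], X, isMonicAt_of_inL hX1 hX2, ?_, ?_,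
    ?_, ?_, ?_, ?_, ?_, ?_, ?_, ?_, ?_, ?_⟩
  · intro j
    rcases fin3_cases j with rfl | rfl | rfl
    · exact hxB.1
    · exact hxB.2.1
    · exact hxB.2.2
  · intro j σ hσ
    rcases fin3_cases j with rfl | rfl | rfl
    · show arithmeticRingAut _ σ (dg0 N q x) = dg0 N q x
      rw [galF_dg0, hxI σ hσ]
    · show arithmeticRingAut _ σ (dg1 N q x) = dg1 N q x
      rw [galF_dg1, hxI σ hσ]
    · show arithmeticRingAut _ σ (dg2 N q x) = dg2 N q x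
      rw [galF_dg2, hxI σ hσ]
  · show ex3 N q hq hqN hζ 0 (dg0 N q x) = _
    rw [ex3_zero, coe_dg0]
  · show ex3 N q hq hqN hζ 0 (dg1 N q x) = _
    rw [ex3_zero, coe_dg1, incl_qExpand]
  · show ex3 N q hq hqN hζ 0 (dg2 N q x) = _
    rw [ex3_zero, coe_dg2, incl_qExpand, incl_qExpand]
  · show ex3 N q hq hqN hζ 1 (dg0 N q x) = _
    rw [ex3_one, atkinLehnerSq_dg0, coe_dg2, incl_qExpand, incl_qExpand]
  · show ex3 N q hq hqN hζ 1 (dg1 N q x) = _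
    rw [ex3_one, atkinLehnerSq_dg1, coe_dg1, incl_qExpand]
  · show ex3 N q hq hqN hζ 1 (dg2 N q x) = _
    rw [ex3_one, atkinLehnerSq_dg2, coe_dg0]
  · show ex3 N q hq hqN hζ 2 (dg0 N q x) = _
    rw [ex3_two, embMid_dg0]
  · show ex3 N q hq hqN hζ 2 (dg1 N q x) = _
    rw [ex3_two, embMid_dg1, incl_qExpand]
  · show ex3 N q hq hqN hζ 2 (dg2 N q x) = _
    rw [ex3_two, embMid_dg2, incl_twistA]
    have : ζ ^ ((midOne q hq : Fin q) : ℕ) = ζ := pow_one ζ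
    rw [this]
  · intro c' hc'
    exact absurd rfl hc'

end Infty


end Fermat.Agent.T3.helper74

end
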