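/-
T3 (S36), helper74: the generic (SAT_q) of `helper74_Sat3Gen` in the vocabulary of
`helper27_RootPack` (`SatStatementE`, `FixStatementE`), and ROOT3 for a family of cusp packages.

* `satStatementE_all` : `helper27.SatStatementE` for `ι = 𝒞 × Fin 3` from the cusp packages.
* `fixStatementE_all` : `helper27.FixStatementE` from `GalCompat`.
* `root_all`          : ROOT3 for the family (inputs: packages, (FIN), formal roots).
-/
import Mathlib
import Fermat.Agent.T3.helper74_Sat3Gen
import Fermat.Agent.T3.helper27_RootPack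

set_option autoImplicit false
set_option synthInstance.maxHeartbeats 400000
set_option maxHeartbeats 1000000
set_option linter.unusedSectionVars false
set_option linter.style.haveILetI false

noncomputable section

open HahnSeries IntermediateField AlgebraicCurve ModularCurve
open Fermat.Agent.S18.helper19 Fermat.Agent.P2.helper29 Fermat.Agent.T2.helper36

namespace Fermat.Agent.T3.helper74

section Pack

variable {N q : ℕ} [NeZero N] [NeZero q] {A : ValuationSubring Kb}
variable {𝒞 : Type*} {E : 𝒞 → Fin 3 → (FF (N * q * q) →+* LaurentSeries Kb)}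

/-- the family of expansions indexed by `𝒞 × Fin 3` -/
def famAll (E : 𝒞 → Fin 3 → (FF (N * q * q) →+* LaurentSeries Kb)) :
    𝒞 × Fin 3 → (FF (N * q * q) →+* LaurentSeries Kb) := fun p => E p.1 p.2

/-- **(SAT_q)** for the family of cusps, in the vocabulary of `helper27_RootPack`. -/
theorem satStatementE_all [Fintype 𝒞] [DecidableEq 𝒞] (hq : q.Prime)
    (B : Subalgebra Kb (FF (N * q * q))) {ζ : Kb}
    (hζ : IsPrimitiveRoot ζ q) (hζv : A.valuation ζ = 1) (hE : ConstCompat E)
    (hG : GalCompat A E ζ) {m₀ : ℕ} (hS : ∀ c : 𝒞, PeelSource A E B ζ hζv c m₀)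
    (hK : CycloDecompStatement q A ζ) :
    Fermat.Agent.T3.helper27.SatStatementE q A (famAll E) (wtAll q 𝒞) B (lev3 q m₀ : ℤ) := by
  intro L hL f hfB hfI hfInt hdiv
  obtain ⟨g, hgB, hgI, hgInt, hg⟩ := sat_all hq B hζ hζv hE hG hS hK L hL f hfB hfI
    (fun c i => hfInt (c, i)) (fun c i k hk => hdiv (c, i) k hk)
  exact ⟨g, hgB, hgI, fun p => hgInt p.1 p.2, fun p k hk => hg p.1 p.2 k hk⟩

theorem fixStatementE_all {ζ : Kb} (hG : GalCompat A E ζ) :
    Fermat.Agent.T3.helper27.FixStatementE A ζ (famAll E) :=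
  fun p f hfI σ hσ hσζ => hG p.1 p.2 f hfI σ hσ (fun _ => hσζ)

/-- **ROOT3 for a family of cusp packages**: an inertia-fixed `H ∈ B` all of whose expansions
have `A`-integral formal `n`-th roots with reduction `1`, `q ∤ n`, is an `n`-th power of an
inertia-fixed function. -/
theorem root_all [Fintype 𝒞] [DecidableEq 𝒞] [Nonempty 𝒞] (hq : q.Prime)
    (hA : A.LiesOverPrime q) (B : Subalgebra Kb (FF (N * q * q))) {ζ : Kb}
    (hζ : IsPrimitiveRoot ζ q) (hE : ConstCompat E)
    (hG : GalCompat A E ζ) {m₀ : ℕ}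
    (hS : ∀ c : 𝒞, PeelSource A E B ζ (valuation_zeta_eq_one q A hζ) c m₀)
    (hBfin : Fermat.Agent.T3.helper27.FinStatementE A (famAll E) (wtAll q 𝒞) B)
    (n : ℕ) (hn : ¬ q ∣ n) (H : FF (N * q * q)) (hHB : H ∈ B)
    (hHI : IsFixI A (N * q * q) H)
    (hroot : ∀ (c : 𝒞) (i : Fin 3), ∃ Z : LaurentSeries A,
      (incl A Z) ^ n = E c i H ∧ red A Z = 1) :
    ∃ v : FF (N * q * q), IsFixI A (N * q * q) v ∧ H = v ^ n :=
  Fermat.Agent.T3.helper27.root_of_pack hq A hA hζ (famAll E) (wtAll q 𝒞)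
    (fun p a => hE p.1 p.2 a) (fixStatementE_all hG) B hBfin (lev3 q m₀ : ℤ)
    (satStatementE_all hq B hζ (valuation_zeta_eq_one q A hζ) hE hG hS
      (cycloDecomp hq A hA hζ)) n hn H hHB hHI (fun p => hroot p.1 p.2)

end Pack

end Fermat.Agent.T3.helper74

end
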