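/-
T3 (S36), helper74: (SAT_q) for an arbitrary finite family of cusps, in the TWISTED form
required off `∞_N` (helper81 #2474: over a cusp `c ≠ ∞` the three pull-backs
`x(τ), x(q τ), x(q² τ)` see the expansions of `x` at three DIFFERENT cusps of level `N`).

`ι` : the indices (cusp classes of level `N q q`), `τ : ι → Fin 3` the type (`∞`, `0`, middle),
`E J : F →+* ℚ̄((t))` the expansion at `J`, co-weight `wt3 q (τ J)` (`1, 1, q`).

* `sc3 q t e` : the scaling of the pole order of `x` under the `e`-th pull-back at a cusp of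
  type `t` : `(1, q, q²)`, `(q², q, 1)`, `(1, q, 1)`.
* `FactorSource … J e m₀` : for `m ≥ m₀` an inertia-fixed `G ∈ B` (`G = dg_e x`, `x` of level `N`
  with a pole of exact order `m` at the image of `J`) with integral expansions, leading term
  `t^(-sc m)` at `J` (`ζ^(-m) t^(-m)` for the middle type and `e = 2`), no pole at the other
  indices of the same type, pole order `≤ sc m` at the indices of the other types.
* `peelable_tw`, `satStatementE_tw` : peelability and `helper27.SatStatementE` from the factor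
  sources; `root_tw` : ROOT3 for the family.
-/
import Mathlib
import Fermat.Agent.T3.helper74_Sat3Pack

set_option autoImplicit false
set_option synthInstance.maxHeartbeats 400000
set_option maxHeartbeats 1000000
set_option linter.unusedSectionVars false
set_option linter.style.haveILetI false

noncomputable section

open HahnSeries IntermediateField AlgebraicCurve ModularCurve
open Fermat.Agent.S18.helper19 Fermat.Agent.P2.helper29 Fermat.Agent.T2.helper36
open Fermat.Agent.T2.helper96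

namespace Fermat.Agent.T3.helper74

/-! ### Leading terms of products -/

section Lead

variable {R : Type*} [CommRing R]

/-- the lowest term of a product -/
theorem coeff_mul_lead {X Y : LaurentSeries R} {m n : ℤ} (hX : ∀ k : ℤ, k < m → X.coeff k = 0)
    (hY : ∀ k : ℤ, k < n → Y.coeff k = 0) :
    (X * Y).coeff (m + n) = X.coeff m * Y.coeff n ∧
      ∀ k : ℤ, k < m + n → (X * Y).coeff k = 0 := by
  constructor
  · rw [HahnSeries.coeff_mul]
    by_cases h1 : X.coeff m = 0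
    · rw [h1, zero_mul]
      apply Finset.sum_eq_zero
      intro ij hij
      rw [Finset.mem_antidiagonal] at hij
      obtain ⟨h1', h2', h3'⟩ := hij
      by_cases hi : ij.1 < m
      · exact absurd (hX _ hi) h1'
      · by_cases hj : ij.2 < n
        · exact absurd (hY _ hj) h2'
        · have e1 : ij.1 = m := by omega
          rw [e1, h1, zero_mul]
    · by_cases h2 : Y.coeff n = 0
      · rw [h2, mul_zero]
        apply Finset.sum_eq_zero
        intro ij hij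
        rw [Finset.mem_antidiagonal] at hij
        obtain ⟨h1', h2', h3'⟩ := hij
        by_cases hi : ij.1 < m
        · exact absurd (hX _ hi) h1'
        · by_cases hj : ij.2 < n
          · exact absurd (hY _ hj) h2'
          · have e2 : ij.2 = n := by omega
            rw [e2, h2, mul_zero]
      · rw [Finset.sum_eq_single (m, n)]
        · intro ij hij hne
          rw [Finset.mem_antidiagonal] at hij
          obtain ⟨h1', h2', h3'⟩ := hij
          by_cases hi : ij.1 < m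
          · exact absurd (hX _ hi) h1'
          · by_cases hj : ij.2 < n
            · exact absurd (hY _ hj) h2'
            · exfalso
              apply hne
              have e1 : ij.1 = m := by omega
              have e2 : ij.2 = n := by omega
              exact Prod.ext e1 e2
        · intro hnot
          exfalso
          apply hnot
          rw [Finset.mem_antidiagonal]
          exact ⟨h1, h2, rfl⟩
  · intro k hk
    rw [HahnSeries.coeff_mul]
    apply Finset.sum_eq_zero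
    intro ij hij
    rw [Finset.mem_antidiagonal] at hij
    obtain ⟨h1', h2', h3'⟩ := hij
    by_cases hi : ij.1 < m
    · exact absurd (hX _ hi) h1'
    · by_cases hj : ij.2 < n
      · exact absurd (hY _ hj) h2'
      · omega

end Lead

/-! ### The twisted packages -/

section Tw

variable {Lv : ℕ} [NeZero Lv] (q : ℕ) (A : ValuationSubring Kb)
variable {ι : Type*} (τ : ι → Fin 3) (E : ι → (FF Lv →+* LaurentSeries Kb))

/-- the ring of the families of integral expansions of the inertia-fixed elements of `B` -/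
def ringTw (B : Subalgebra Kb (FF Lv)) : Subring (ι → LaurentSeries A) where
  carrier := {Φ | ∃ f : FF Lv, f ∈ B ∧ IsFixI A Lv f ∧ ∀ J, incl A (Φ J) = E J f}
  mul_mem' := by
    rintro Φ Ψ ⟨f, hf, hfI, hfΦ⟩ ⟨g, hg, hgI, hgΨ⟩
    refine ⟨f * g, B.mul_mem hf hg, fun σ hσ => by rw [map_mul, hfI σ hσ, hgI σ hσ],
      fun J => ?_⟩
    rw [Pi.mul_apply, map_mul, map_mul, hfΦ, hgΨ]
  one_mem' := ⟨1, B.one_mem, fun σ _ => map_one _, fun J => by
    rw [Pi.one_apply, map_one, map_one]⟩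
  add_mem' := by
    rintro Φ Ψ ⟨f, hf, hfI, hfΦ⟩ ⟨g, hg, hgI, hgΨ⟩
    refine ⟨f + g, B.add_mem hf hg, fun σ hσ => by rw [map_add, hfI σ hσ, hgI σ hσ],
      fun J => ?_⟩
    rw [Pi.add_apply, map_add, map_add, hfΦ, hgΨ]
  zero_mem' := ⟨0, B.zero_mem, fun σ _ => map_zero _, fun J => by
    rw [Pi.zero_apply, map_zero, map_zero]⟩
  neg_mem' := by
    rintro Φ ⟨f, hf, hfI, hfΦ⟩
    refine ⟨-f, B.neg_mem hf, fun σ hσ => by rw [map_neg, hfI σ hσ], fun J => ?_⟩
    rw [Pi.neg_apply, map_neg, map_neg, hfΦ]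

theorem mem_ringTw (B : Subalgebra Kb (FF Lv)) (Φ : ι → LaurentSeries A) :
    Φ ∈ ringTw A E B ↔ ∃ f : FF Lv, f ∈ B ∧ IsFixI A Lv f ∧ ∀ J, incl A (Φ J) = E J f :=
  Iff.rfl

/-- the expansions are `ℚ̄`-linear -/
def ConstCompatTw : Prop :=
  ∀ (J : ι) (a : Kb), E J (algebraMap Kb (FF Lv) a) = algebraMap Kb (LaurentSeries Kb) a

/-- the expansions of an inertia-fixed function have coefficients fixed by the inertia group
(types `∞`, `0`), resp. by the inertia elements fixing `ζ` (middle type). -/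
def GalCompatTw (ζ : Kb) : Prop :=
  ∀ (J : ι) (f : FF Lv), IsFixI A Lv f →
    ∀ σ ∈ A.inertiaSubgroupIn ℚ, (τ J = 2 → σ ζ = ζ) →
      coeffMap (σ : Kb →+* Kb) (E J f) = E J f

/-- the scaling table: the pole order of `x(q^e τ)` at a cusp of type `t`, in units of the pole
order of `x` : `(1, q, q²)` at `∞`, `(q², q, 1)` at `0`, `(1, q, 1)` at the middle cusps. -/
def sc3 (q : ℕ) (t e : Fin 3) : ℕ :=
  if t = 0 then (if e = 0 then 1 else if e = 1 then q else q * q)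
  else if t = 1 then (if e = 0 then q * q else if e = 1 then q else 1)
  else (if e = 1 then q else 1)

theorem sc3_00 : sc3 q 0 0 = 1 := rfl
theorem sc3_01 : sc3 q 0 1 = q := rfl
theorem sc3_02 : sc3 q 0 2 = q * q := rfl
theorem sc3_10 : sc3 q 1 0 = q * q := rfl
theorem sc3_11 : sc3 q 1 1 = q := rfl
theorem sc3_12 : sc3 q 1 2 = 1 := rfl
theorem sc3_20 : sc3 q 2 0 = 1 := rfl
theorem sc3_21 : sc3 q 2 1 = q := rfl
theorem sc3_22 : sc3 q 2 2 = 1 := rfl

/-- the expected leading coefficient of the `e`-th factor at an index of type `t` : `ζ^(-m)` for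
the middle type and `e = 2` (the twist), `1` otherwise. -/
def leadTw (ζ : Kb) (t e : Fin 3) (m : ℕ) : Kb :=
  if t = 2 ∧ e = 2 then ζ ^ (-(m : ℤ)) else 1

theorem leadTw_22 (ζ : Kb) (m : ℕ) : leadTw ζ 2 2 m = ζ ^ (-(m : ℤ)) := rfl

theorem leadTw_of_ne (ζ : Kb) {t e : Fin 3} (h : ¬ (t = 2 ∧ e = 2)) (m : ℕ) :
    leadTw ζ t e m = 1 := if_neg h

/-- **the source of the `e`-th factor of the peelers at the index `J`**: for `m ≥ m₀` an
inertia-fixed function `G ∈ B` (`= x(q^e τ)` for `x` of level `N` with a pole of exact order `m`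
at the image of `J` under the `e`-th degeneracy map and no other pole) with integral expansions
`Y J'` at all indices such that
* at `J` the lowest term is `t^(-sc m)` (`ζ^(-m) t^(-m)` for the middle type and `e = 2`),
* at the other indices of the type of `J` there is no pole,
* at the indices `J'` of the other types the pole order is at most `sc3 q (τ J') e * m`. -/
def FactorSource (B : Subalgebra Kb (FF Lv)) (ζ : Kb) (J : ι) (e : Fin 3) (m₀ : ℕ) : Prop :=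
  ∀ m : ℕ, m₀ ≤ m → ∃ (G : FF Lv) (Y : ι → LaurentSeries A),
    G ∈ B ∧ IsFixI A Lv G ∧ (∀ J', incl A (Y J') = E J' G) ∧
    (((Y J).coeff (-((sc3 q (τ J) e * m : ℕ) : ℤ)) : A) : Kb) = leadTw ζ (τ J) e m ∧
    (∀ k : ℤ, k < -((sc3 q (τ J) e * m : ℕ) : ℤ) → (Y J).coeff k = 0) ∧
    (∀ J', J' ≠ J → τ J' = τ J → ∀ k : ℤ, k < 0 → (Y J').coeff k = 0) ∧
    (∀ J', τ J' ≠ τ J → ∀ k : ℤ, k < -((sc3 q (τ J') e * m : ℕ) : ℤ) → (Y J').coeff k = 0)

variable {q A τ E}

/-- the family of expansions of a product `G₀ G₁ G₂` of three factors for the index `J`. -/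
theorem prodTw_mem (B : Subalgebra Kb (FF Lv)) {ζ : Kb} {J : ι} {m₀ : ℕ}
    (hS : ∀ e, FactorSource q A τ E B ζ J e m₀) {a b c : ℕ} (ha : m₀ ≤ a) (hb : m₀ ≤ b)
    (hc : m₀ ≤ c) :
    ∃ Φ ∈ ringTw A E B,
      (((Φ J).coeff (-((sc3 q (τ J) 0 * a + sc3 q (τ J) 1 * b + sc3 q (τ J) 2 * c : ℕ) : ℤ))
        : A) : Kb) = leadTw ζ (τ J) 0 a * leadTw ζ (τ J) 1 b * leadTw ζ (τ J) 2 c ∧
      (∀ k : ℤ, k < -((sc3 q (τ J) 0 * a + sc3 q (τ J) 1 * b + sc3 q (τ J) 2 * c : ℕ) : ℤ) →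
        (Φ J).coeff k = 0) ∧
      (∀ J', J' ≠ J → τ J' = τ J → ∀ k : ℤ, k < 0 → (Φ J').coeff k = 0) ∧
      (∀ J', τ J' ≠ τ J → ∀ k : ℤ,
        k < -((sc3 q (τ J') 0 * a + sc3 q (τ J') 1 * b + sc3 q (τ J') 2 * c : ℕ) : ℤ) →
        (Φ J').coeff k = 0) := by
  obtain ⟨Ga, Ya, hGaB, hGaI, hYa, hla, hza, hsa, hoa⟩ := hS 0 a ha
  obtain ⟨Gb, Yb, hGbB, hGbI, hYb, hlb, hzb, hsb, hob⟩ := hS 1 b hb
  obtain ⟨Gc, Yc, hGcB, hGcI, hYc, hlc, hzc, hsc, hoc⟩ := hS 2 c hc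
  have hcast : ∀ t : Fin 3,
      -((sc3 q t 0 * a + sc3 q t 1 * b + sc3 q t 2 * c : ℕ) : ℤ)
        = -((sc3 q t 0 * a : ℕ) : ℤ) + -((sc3 q t 1 * b : ℕ) : ℤ) + -((sc3 q t 2 * c : ℕ) : ℤ) := by
    intro t
    push_cast
    ring
  refine ⟨fun J' => Ya J' * Yb J' * Yc J', ⟨Ga * Gb * Gc,
    B.mul_mem (B.mul_mem hGaB hGbB) hGcB, fun σ hσ => by
      rw [map_mul, map_mul, hGaI σ hσ, hGbI σ hσ, hGcI σ hσ], fun J' => ?_⟩, ?_, ?_, ?_, ?_⟩
  · rw [map_mul, map_mul, map_mul, map_mul, hYa, hYb, hYc]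
  · obtain ⟨h1, h2⟩ := coeff_mul_lead hza hzb
    obtain ⟨h3, -⟩ := coeff_mul_lead h2 hzc
    show ((((Ya J * Yb J * Yc J).coeff _ : A)) : Kb) = _
    rw [hcast, h3, h1, ← hla, ← hlb, ← hlc]
    rfl
  · intro k hk
    obtain ⟨-, h2⟩ := coeff_mul_lead hza hzb
    obtain ⟨-, h4⟩ := coeff_mul_lead h2 hzc
    rw [hcast] at hk
    exact h4 k hk
  · intro J' hJ' ht k hk
    have h2 := (coeff_mul_lead (m := 0) (n := 0) (hsa J' hJ' ht) (hsb J' hJ' ht)).2
    have h4 := (coeff_mul_lead (m := 0 + 0) (n := 0) h2 (hsc J' hJ' ht)).2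
    apply h4
    simpa using hk
  · intro J' ht k hk
    obtain ⟨-, h2⟩ := coeff_mul_lead (hoa J' ht) (hob J' ht)
    obtain ⟨-, h4⟩ := coeff_mul_lead h2 (hoc J' ht)
    rw [hcast] at hk
    exact h4 k hk

/-! ### The peelers -/

theorem peelerTw_inf (hq : q.Prime) (B : Subalgebra Kb (FF Lv)) {ζ : Kb} {J : ι}
    (hJ : τ J = 0) {m₀ : ℕ} (hS : ∀ e, FactorSource q A τ E B ζ J e m₀) {M : ℕ}
    (hM : lev3 q m₀ < M) :
    ∃ Φ ∈ ringTw A E B, (Φ J).coeff (-(M : ℤ)) = 1 ∧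
      (∀ k : ℤ, k < -(M : ℤ) → (Φ J).coeff k = 0) ∧
      ∀ J', J' ≠ J → ∀ k : ℤ, (M : ℤ) ≤ -k * (wt3 q (τ J') : ℤ) → (Φ J').coeff k = 0 := by
  haveI : NeZero q := ⟨hq.ne_zero⟩
  obtain ⟨a, c, ha, hc, hsum⟩ := exists_split_sq q hq.pos hM
  obtain ⟨Φ, hΦ, h0, h1, h2, h3⟩ := prodTw_mem B hS ha le_rfl (show m₀ ≤ c by omega)
  have e : ((sc3 q (τ J) 0 * a + sc3 q (τ J) 1 * m₀ + sc3 q (τ J) 2 * c : ℕ) : ℤ) = M := by
    rw [hJ, sc3_00, sc3_01, sc3_02, ← hsum, one_mul, mul_assoc]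
  have hq2 : (2 : ℤ) ≤ q := by exact_mod_cast hq.two_le
  have hca : (a : ℤ) + q * m₀ + 1 ≤ c := by exact_mod_cast hc
  have hsum' : (a : ℤ) + q * m₀ + q * (q * c) = M := by exact_mod_cast hsum
  have ha0 : (0 : ℤ) ≤ a := Int.natCast_nonneg a
  have hm0 : (0 : ℤ) ≤ (q : ℤ) * m₀ := by positivity
  have hp1 : (0 : ℤ) < ((q : ℤ) * q - 1) * (c - a) := mul_pos (by nlinarith) (by linarith)
  have hqc : (c : ℤ) ≤ q * c := by nlinarith
  have hp2 : (0 : ℤ) < ((q : ℤ) - 1) * (q * c - a - q * m₀) :=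
    mul_pos (by linarith) (by linarith)
  have hMpos : (0 : ℤ) < M := by linarith
  rw [e] at h0 h1
  refine ⟨Φ, hΦ, ?_, h1, fun J' hJ' k hk => ?_⟩
  · apply Subtype.ext
    rw [h0, hJ, leadTw_of_ne ζ (by decide), leadTw_of_ne ζ (by decide),
      leadTw_of_ne ζ (by decide), mul_one, mul_one]
    rfl
  · rcases fin3_cases (τ J') with ht | ht | ht
    · apply h2 J' hJ' (by rw [ht, hJ]) k
      rw [ht, wt3_zero, Nat.cast_one, mul_one] at hk
      linarith
    · apply h3 J' (by rw [ht, hJ]; decide) k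
      rw [ht, wt3_one, Nat.cast_one, mul_one] at hk
      rw [ht, sc3_10, sc3_11, sc3_12]
      push_cast
      nlinarith
    · apply h3 J' (by rw [ht, hJ]; decide) k
      rw [ht, wt3_two] at hk
      rw [ht, sc3_20, sc3_21, sc3_22]
      push_cast
      by_contra hcon
      rw [not_lt] at hcon
      have h5 : -k * (q : ℤ) ≤ ((a : ℤ) + q * m₀ + c) * q :=
        mul_le_mul_of_nonneg_right (by linarith) (by linarith)
      nlinarith

theorem peelerTw_zero (hq : q.Prime) (B : Subalgebra Kb (FF Lv)) {ζ : Kb} {J : ι}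
    (hJ : τ J = 1) {m₀ : ℕ} (hS : ∀ e, FactorSource q A τ E B ζ J e m₀) {M : ℕ}
    (hM : lev3 q m₀ < M) :
    ∃ Φ ∈ ringTw A E B, (Φ J).coeff (-(M : ℤ)) = 1 ∧
      (∀ k : ℤ, k < -(M : ℤ) → (Φ J).coeff k = 0) ∧
      ∀ J', J' ≠ J → ∀ k : ℤ, (M : ℤ) ≤ -k * (wt3 q (τ J') : ℤ) → (Φ J').coeff k = 0 := by
  haveI : NeZero q := ⟨hq.ne_zero⟩
  obtain ⟨a, c, ha, hc, hsum⟩ := exists_split_sq q hq.pos hM
  obtain ⟨Φ, hΦ, h0, h1, h2, h3⟩ := prodTw_mem B hS (show m₀ ≤ c by omega) le_rfl ha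
  have e : ((sc3 q (τ J) 0 * c + sc3 q (τ J) 1 * m₀ + sc3 q (τ J) 2 * a : ℕ) : ℤ) = M := by
    rw [hJ, sc3_10, sc3_11, sc3_12, ← hsum, one_mul, mul_assoc]
    push_cast
    ring
  have hq2 : (2 : ℤ) ≤ q := by exact_mod_cast hq.two_le
  have hca : (a : ℤ) + q * m₀ + 1 ≤ c := by exact_mod_cast hc
  have hsum' : (a : ℤ) + q * m₀ + q * (q * c) = M := by exact_mod_cast hsum
  have ha0 : (0 : ℤ) ≤ a := Int.natCast_nonneg a
  have hm0 : (0 : ℤ) ≤ (q : ℤ) * m₀ := by positivity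
  have hp1 : (0 : ℤ) < ((q : ℤ) * q - 1) * (c - a) := mul_pos (by nlinarith) (by linarith)
  have hqc : (c : ℤ) ≤ q * c := by nlinarith
  have hp2 : (0 : ℤ) < ((q : ℤ) - 1) * (q * c - a - q * m₀) :=
    mul_pos (by linarith) (by linarith)
  have hMpos : (0 : ℤ) < M := by linarith
  rw [e] at h0 h1
  refine ⟨Φ, hΦ, ?_, h1, fun J' hJ' k hk => ?_⟩
  · apply Subtype.ext
    rw [h0, hJ, leadTw_of_ne ζ (by decide), leadTw_of_ne ζ (by decide),
      leadTw_of_ne ζ (by decide), mul_one, mul_one]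
    rfl
  · rcases fin3_cases (τ J') with ht | ht | ht
    · apply h3 J' (by rw [ht, hJ]; decide) k
      rw [ht, wt3_zero, Nat.cast_one, mul_one] at hk
      rw [ht, sc3_00, sc3_01, sc3_02]
      push_cast
      nlinarith
    · apply h2 J' hJ' (by rw [ht, hJ]) k
      rw [ht, wt3_one, Nat.cast_one, mul_one] at hk
      linarith
    · apply h3 J' (by rw [ht, hJ]; decide) k
      rw [ht, wt3_two] at hk
      rw [ht, sc3_20, sc3_21, sc3_22]
      push_cast
      by_contra hcon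
      rw [not_lt] at hcon
      have h5 : -k * (q : ℤ) ≤ ((c : ℤ) + q * m₀ + a) * q :=
        mul_le_mul_of_nonneg_right (by linarith) (by linarith)
      nlinarith

theorem peelerTw_mid (hq : q.Prime) (B : Subalgebra Kb (FF Lv)) {ζ : Kb} {J : ι}
    (hJ : τ J = 2) {m₀ : ℕ} (hS : ∀ e, FactorSource q A τ E B ζ J e m₀) {M : ℕ}
    (hM : lev3 q m₀ < M * q) {c : ℕ} (hc : m₀ ≤ c) (hc' : c ≤ m₀ + q) :
    ∃ Φ ∈ ringTw A E B, (((Φ J).coeff (-(M : ℤ)) : A) : Kb) = ζ ^ (-(c : ℤ)) ∧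
      (∀ k : ℤ, k < -(M : ℤ) → (Φ J).coeff k = 0) ∧
      ∀ J', J' ≠ J → ∀ k : ℤ, (M : ℤ) * q ≤ -k * (wt3 q (τ J') : ℤ) →
        (Φ J').coeff k = 0 := by
  haveI : NeZero q := ⟨hq.ne_zero⟩
  obtain ⟨a, b, ha, hab, hcb, hb, hsum⟩ := exists_split_mid q hq.two_le hM hc'
  obtain ⟨Φ, hΦ, h0, h1, h2, h3⟩ := prodTw_mem B hS ha hb hc
  have e : ((sc3 q (τ J) 0 * a + sc3 q (τ J) 1 * b + sc3 q (τ J) 2 * c : ℕ) : ℤ) = M := by
    rw [hJ, sc3_20, sc3_21, sc3_22, ← hsum, one_mul, one_mul]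
  have hsum' : (a : ℤ) + q * b + c = M := by exact_mod_cast hsum
  have hq2 : (2 : ℤ) ≤ q := by exact_mod_cast hq.two_le
  have hab' : (a : ℤ) + 1 ≤ b := by exact_mod_cast hab
  have hcb' : (c : ℤ) + 1 ≤ b := by exact_mod_cast hcb
  have ha0 : (0 : ℤ) ≤ a := Int.natCast_nonneg a
  have hc0 : (0 : ℤ) ≤ c := Int.natCast_nonneg c
  have hqb1 : (q : ℤ) * (c + 1) ≤ q * b := mul_le_mul_of_nonneg_left hcb' (by linarith)
  have hqb2 : (q : ℤ) * (a + 1) ≤ q * b := mul_le_mul_of_nonneg_left hab' (by linarith)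
  have hp1 : (0 : ℤ) < ((q : ℤ) - 1) * (a + q * b - q * c) :=
    mul_pos (by linarith) (by linarith)
  have hp2 : (0 : ℤ) < ((q : ℤ) - 1) * (q * b + c - q * a) :=
    mul_pos (by linarith) (by linarith)
  have hMpos : (0 : ℤ) < M := by nlinarith
  rw [e] at h0 h1
  refine ⟨Φ, hΦ, ?_, h1, fun J' hJ' k hk => ?_⟩
  · rw [h0, hJ, leadTw_of_ne ζ (by decide), leadTw_of_ne ζ (by decide), leadTw_22, one_mul,
      one_mul]
  · rcases fin3_cases (τ J') with ht | ht | ht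
    · apply h3 J' (by rw [ht, hJ]; decide) k
      rw [ht, wt3_zero, Nat.cast_one, mul_one] at hk
      rw [ht, sc3_00, sc3_01, sc3_02]
      push_cast
      nlinarith
    · apply h3 J' (by rw [ht, hJ]; decide) k
      rw [ht, wt3_one, Nat.cast_one, mul_one] at hk
      rw [ht, sc3_10, sc3_11, sc3_12]
      push_cast
      nlinarith
    · apply h2 J' hJ' (by rw [ht, hJ]) k
      rw [ht, wt3_two] at hk
      by_contra hcon
      rw [not_lt] at hcon
      have h5 : -k * (q : ℤ) ≤ 0 := mul_nonpos_of_nonpos_of_nonneg (by linarith) (by linarith)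
      nlinarith

/-! ### Peelability -/

/-- inertia-fixed integral constants -/
theorem const_mem_ringTw (hE : ConstCompatTw E) (B : Subalgebra Kb (FF Lv))
    (c : A) (hc : ∀ σ ∈ A.inertiaSubgroupIn ℚ, σ (c : Kb) = (c : Kb)) :
    (fun _ => HahnSeries.C c : ι → LaurentSeries A) ∈ ringTw A E B := by
  refine ⟨algebraMap Kb (FF Lv) (c : Kb), B.algebraMap_mem _, fun σ hσ => ?_, fun J => ?_⟩
  · rw [arithmeticRingAut_algebraMap, hc σ hσ]
  · rw [incl_C3, hE]

theorem coeff_fix_tw {ζ : Kb} (hG : GalCompatTw A τ E ζ) (B : Subalgebra Kb (FF Lv))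
    {Φ : ι → LaurentSeries A} (hΦ : Φ ∈ ringTw A E B) (J : ι)
    (σ : Kb ≃ₐ[ℚ] Kb) (hσ : σ ∈ A.inertiaSubgroupIn ℚ) (hσζ : τ J = 2 → σ ζ = ζ) (k : ℤ) :
    σ (((Φ J).coeff k : A) : Kb) = (((Φ J).coeff k : A) : Kb) := by
  obtain ⟨f, -, hfI, hf⟩ := hΦ
  have h1 : coeffMap (σ : Kb →+* Kb) (incl A (Φ J)) = incl A (Φ J) := by
    rw [hf J]
    exact hG J f hfI σ hσ hσζ
  have h2 := congrArg (fun x => x.coeff k) h1
  simp only [coeffMap_coeff] at h2
  exact h2

/-- **peelability** of the ring of the families of integral expansions, from the factor sources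
at all indices. -/
theorem peelable_tw [Fintype ι] [DecidableEq ι] (hq : q.Prime)
    (B : Subalgebra Kb (FF Lv)) {ζ : Kb} (hE : ConstCompatTw E)
    (hG : GalCompatTw A τ E ζ) {m₀ : ℕ} (hS : ∀ J e, FactorSource q A τ E B ζ J e m₀)
    (hK : CycloDecompStatement q A ζ) :
    Peelable (C := fun _ : ι => ↥A) (ringTw A E B) (fun _ => ((q : ℕ) : A))
      (fun J => wt3 q (τ J)) (lev3 q m₀ : ℤ) := by
  haveI : NeZero q := ⟨hq.ne_zero⟩
  intro J m hm Φ hΦ _ c hc
  have hq0 : ((q : ℕ) : Kb) ≠ 0 := Nat.cast_ne_zero.mpr hq.ne_zero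
  have hfix : ∀ σ : Kb ≃ₐ[ℚ] Kb,
      σ (((Φ J).coeff (-m) : A) : Kb) = (((Φ J).coeff (-m) : A) : Kb) →
      σ ((c : A) : Kb) = ((c : A) : Kb) := by
    intro σ h
    have hc' : (((Φ J).coeff (-m) : A) : Kb) = ((q : ℕ) : Kb) * ((c : A) : Kb) := by
      rw [hc]
      rfl
    rw [hc', map_mul, map_natCast] at h
    exact mul_left_cancel₀ hq0 h
  have hqpos : (0 : ℤ) < (q : ℤ) := by exact_mod_cast hq.pos
  have hlev0 : (0 : ℤ) ≤ (lev3 q m₀ : ℤ) := Int.natCast_nonneg _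
  have hcoefC : ∀ (Ψ : ι → LaurentSeries A) (d : A) (J' : ι) (k : ℤ),
      (((fun _ => HahnSeries.C d : ι → LaurentSeries A) * Ψ) J').coeff k
        = d * (Ψ J').coeff k := fun Ψ d J' k => coeff_C_mul _ _ _
  rcases fin3_cases (τ J) with hJ | hJ | hJ
  · -- type `∞`
    have hm' : (lev3 q m₀ : ℤ) < m := by
      have h1 : ((wt3 q (τ J) : ℕ) : ℤ) = 1 := by rw [hJ, wt3_zero, Nat.cast_one]
      have h2 : (lev3 q m₀ : ℤ) < m * ((wt3 q (τ J) : ℕ) : ℤ) := hm
      rw [h1, mul_one] at h2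
      exact h2
    obtain ⟨M, rfl⟩ := Int.eq_ofNat_of_zero_le (le_of_lt (lt_of_le_of_lt hlev0 hm'))
    obtain ⟨Ψ, hΨ, h0, h1, h2⟩ := peelerTw_inf hq B hJ (hS J)
      (show lev3 q m₀ < M by exact_mod_cast hm')
    refine ⟨(fun _ => HahnSeries.C c) * Ψ, Subring.mul_mem _ (const_mem_ringTw hE B c
      (fun σ hσ => hfix σ (coeff_fix_tw hG B hΦ J σ hσ
        (fun h => absurd (hJ.symm.trans h) (by decide)) _))) hΨ, ?_, ?_, ?_⟩
    · rw [hcoefC, h0, mul_one]
    · intro k hk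
      rw [hcoefC, h1 k hk, mul_zero]
    · intro J' hJ' k hk
      rw [hcoefC, h2 J' hJ' k ?_, mul_zero]
      have h3 : (M : ℤ) * ((wt3 q (τ J) : ℕ) : ℤ) ≤ -k * ((wt3 q (τ J') : ℕ) : ℤ) := hk
      rw [hJ, wt3_zero, Nat.cast_one, mul_one] at h3
      exact h3
  · -- type `0`
    have hm' : (lev3 q m₀ : ℤ) < m := by
      have h1 : ((wt3 q (τ J) : ℕ) : ℤ) = 1 := by rw [hJ, wt3_one, Nat.cast_one]
      have h2 : (lev3 q m₀ : ℤ) < m * ((wt3 q (τ J) : ℕ) : ℤ) := hm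
      rw [h1, mul_one] at h2
      exact h2
    obtain ⟨M, rfl⟩ := Int.eq_ofNat_of_zero_le (le_of_lt (lt_of_le_of_lt hlev0 hm'))
    obtain ⟨Ψ, hΨ, h0, h1, h2⟩ := peelerTw_zero hq B hJ (hS J)
      (show lev3 q m₀ < M by exact_mod_cast hm')
    refine ⟨(fun _ => HahnSeries.C c) * Ψ, Subring.mul_mem _ (const_mem_ringTw hE B c
      (fun σ hσ => hfix σ (coeff_fix_tw hG B hΦ J σ hσ
        (fun h => absurd (hJ.symm.trans h) (by decide)) _))) hΨ, ?_, ?_, ?_⟩
    · rw [hcoefC, h0, mul_one]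
    · intro k hk
      rw [hcoefC, h1 k hk, mul_zero]
    · intro J' hJ' k hk
      rw [hcoefC, h2 J' hJ' k ?_, mul_zero]
      have h3 : (M : ℤ) * ((wt3 q (τ J) : ℕ) : ℤ) ≤ -k * ((wt3 q (τ J') : ℕ) : ℤ) := hk
      rw [hJ, wt3_one, Nat.cast_one, mul_one] at h3
      exact h3
  · -- the middle type
    have hm' : (lev3 q m₀ : ℤ) < m * q := by
      have h1 : ((wt3 q (τ J) : ℕ) : ℤ) = q := by rw [hJ, wt3_two]
      have h2 : (lev3 q m₀ : ℤ) < m * ((wt3 q (τ J) : ℕ) : ℤ) := hm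
      rw [h1] at h2
      exact h2
    have hm0 : 0 ≤ m := by
      by_contra hcon
      rw [not_le] at hcon
      have : m * (q : ℤ) < 0 := mul_neg_of_neg_of_pos hcon hqpos
      linarith
    obtain ⟨M, rfl⟩ := Int.eq_ofNat_of_zero_le hm0
    have hM : lev3 q m₀ < M * q := by exact_mod_cast hm'
    have hq2 := hq.two_le
    obtain ⟨d, hdA, hdI, hd⟩ := hK ((c : A) : Kb) c.2
      (fun σ hσ hσζ => hfix σ (coeff_fix_tw hG B hΦ J σ hσ (fun _ => hσζ) _))
      (-((m₀ + (q - 2) : ℕ) : ℤ))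
    have hpe : ∀ i : Fin (q - 1), ∃ Ψ ∈ ringTw A E B,
        (((Ψ J).coeff (-(M : ℤ)) : A) : Kb) = ζ ^ (-((m₀ + (q - 2 - (i : ℕ)) : ℕ) : ℤ)) ∧
        (∀ k : ℤ, k < -(M : ℤ) → (Ψ J).coeff k = 0) ∧
        ∀ J', J' ≠ J → ∀ k : ℤ, (M : ℤ) * q ≤ -k * (wt3 q (τ J') : ℤ) →
          (Ψ J').coeff k = 0 := fun i =>
      peelerTw_mid hq B hJ (hS J) hM (c := m₀ + (q - 2 - (i : ℕ))) (by omega) (by omega)
    choose Ψ hΨ h2 h3 h4 using hpe
    have hcoef : ∀ (J' : ι) (k : ℤ),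
        ((∑ i : Fin (q - 1), (fun _ => HahnSeries.C (⟨d i, hdA i⟩ : A)) * Ψ i :
          ι → LaurentSeries A) J').coeff k
          = ∑ i : Fin (q - 1), (⟨d i, hdA i⟩ : A) * (Ψ i J').coeff k := by
      intro J' k
      have e1 : (∑ i : Fin (q - 1), (fun _ => HahnSeries.C (⟨d i, hdA i⟩ : A)) * Ψ i :
          ι → LaurentSeries A) J'
          = ∑ i : Fin (q - 1), HahnSeries.C (⟨d i, hdA i⟩ : A) * Ψ i J' := by
        rw [Finset.sum_apply]
        rfl
      rw [e1, HahnSeries.coeff_sum]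
      exact Finset.sum_congr rfl fun i _ => coeff_C_mul _ _ _
    refine ⟨∑ i : Fin (q - 1), (fun _ => HahnSeries.C (⟨d i, hdA i⟩ : A)) * Ψ i,
      Subring.sum_mem _ fun i _ => Subring.mul_mem _
        (const_mem_ringTw hE B ⟨d i, hdA i⟩ (hdI i)) (hΨ i), ?_, ?_, ?_⟩
    · rw [hcoef]
      apply Subtype.ext
      rw [← A.subtype_apply, map_sum, hd]
      refine Finset.sum_congr rfl fun i _ => ?_
      rw [map_mul, A.subtype_apply, A.subtype_apply, h2 i]
      congr 2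
      have := i.2
      omega
    · intro k hk
      rw [hcoef]
      exact Finset.sum_eq_zero fun i _ => by rw [h3 i k hk, mul_zero]
    · intro J' hJ' k hk
      rw [hcoef]
      have h5 : (M : ℤ) * ((wt3 q (τ J) : ℕ) : ℤ) ≤ -k * ((wt3 q (τ J') : ℕ) : ℤ) := hk
      rw [hJ, wt3_two] at h5
      exact Finset.sum_eq_zero fun i _ => by rw [h4 i J' hJ' k h5, mul_zero]

/-- **(SAT_q)** for a twisted family of cusp packages, in the vocabulary of
`helper27_RootPack`. -/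
theorem satStatementE_tw [Fintype ι] [DecidableEq ι] (hq : q.Prime)
    (B : Subalgebra Kb (FF Lv)) {ζ : Kb} (hE : ConstCompatTw E)
    (hG : GalCompatTw A τ E ζ) {m₀ : ℕ} (hS : ∀ J e, FactorSource q A τ E B ζ J e m₀)
    (hK : CycloDecompStatement q A ζ) :
    Fermat.Agent.T3.helper27.SatStatementE q A E (fun J => wt3 q (τ J)) B
      (lev3 q m₀ : ℤ) := by
  haveI : NeZero q := ⟨hq.ne_zero⟩
  intro L hL f hfB hfI hfInt hdiv
  choose Y hY using hfInt
  have hΦ : Y ∈ ringTw A E B := ⟨f, hfB, hfI, hY⟩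
  have hqc : incl A (HahnSeries.C ((q : ℕ) : A))
      = algebraMap Kb (LaurentSeries Kb) ((q : ℕ) : Kb) := by
    rw [incl_C3]
    rfl
  have hdec : ∃ y, LevelLE (fun J => wt3 q (τ J)) L y ∧ ∃ z, Y
      = y + constFam (C := fun _ : ι => ↥A) (fun _ => ((q : ℕ) : A)) * z := by
    refine exists_decomp_of_dvd (C := fun _ : ι => ↥A) (fun _ => ((q : ℕ) : A))
      (fun J => wt3 q (τ J)) L _ (fun J k hk => ?_)
    obtain ⟨a, haA, ha⟩ := hdiv J k hk
    refine ⟨⟨a, haA⟩, Subtype.ext ?_⟩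
    have h1 : (((Y J).coeff k : A) : Kb) = (E J f).coeff k := by
      rw [← hY J, coeffMap_coeff]
      rfl
    rw [h1, ha]
    rfl
  have hpR : constFam (C := fun _ : ι => ↥A) (fun _ => ((q : ℕ) : A)) ∈ ringTw A E B :=
    const_mem_ringTw hE B ((q : ℕ) : A) (fun σ _ => by
      show σ (((q : ℕ) : A) : Kb) = _
      have : ((((q : ℕ) : A)) : Kb) = ((q : ℕ) : Kb) := rfl
      rw [this, map_natCast])
  obtain ⟨l, -, hlL, r, hr, hlr⟩ := sat_of_peelable (C := fun _ : ι => ↥A)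
    (ringTw A E B) (fun _ => ((q : ℕ) : A)) hpR (fun J => wt3 q (τ J))
    (fun J => wt3_pos (q := q) (τ J))
    (lev3 q m₀ : ℤ) (peelable_tw hq B hE hG hS hK) L hL _ hΦ hdec
  obtain ⟨g, hgB, hgI, hg⟩ := hr
  refine ⟨g, hgB, hgI, fun J => ⟨r J, hg J⟩, fun J k hk => ?_⟩
  have h1 : E J (f - algebraMap Kb (FF Lv) ((q : ℕ) : Kb) * g) = incl A (l J) := by
    have h2 : l J = Y J - HahnSeries.C ((q : ℕ) : A) * r J := by
      have h3 := congrFun hlr J
      have h4 : (l + constFam (C := fun _ : ι => ↥A) (fun _ => ((q : ℕ) : A)) * r) J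
          = l J + HahnSeries.C ((q : ℕ) : A) * r J := rfl
      rw [h4] at h3
      rw [h3]
      ring
    rw [map_sub, map_mul, hE, h2, map_sub, map_mul, hqc, hY J, hg J]
  rw [h1, coeffMap_coeff, hlL J k hk]
  rfl

theorem fixStatementE_tw {ζ : Kb} (hG : GalCompatTw A τ E ζ) :
    Fermat.Agent.T3.helper27.FixStatementE A ζ E :=
  fun J f hfI σ hσ hσζ => hG J f hfI σ hσ (fun _ => hσζ)

/-- **ROOT3 for a twisted family of cusp packages**: an inertia-fixed `H ∈ B` all of whose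
expansions have `A`-integral formal `n`-th roots with reduction `1`, `q ∤ n`, is an `n`-th power
of an inertia-fixed function. -/
theorem root_tw [Fintype ι] [DecidableEq ι] [Nonempty ι] (hq : q.Prime)
    (hA : A.LiesOverPrime q) (B : Subalgebra Kb (FF Lv)) {ζ : Kb}
    (hζ : IsPrimitiveRoot ζ q) (hE : ConstCompatTw E)
    (hG : GalCompatTw A τ E ζ) {m₀ : ℕ}
    (hS : ∀ J e, FactorSource q A τ E B ζ J e m₀)
    (hBfin : Fermat.Agent.T3.helper27.FinStatementE A E (fun J => wt3 q (τ J)) B)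
    (n : ℕ) (hn : ¬ q ∣ n) (H : FF Lv) (hHB : H ∈ B) (hHI : IsFixI A Lv H)
    (hroot : ∀ J : ι, ∃ Z : LaurentSeries A, (incl A Z) ^ n = E J H ∧ red A Z = 1) :
    ∃ v : FF Lv, IsFixI A Lv v ∧ H = v ^ n := by
  haveI : NeZero q := ⟨hq.ne_zero⟩
  exact Fermat.Agent.T3.helper27.root_of_pack hq A hA hζ E (fun J => wt3 q (τ J))
    hE (fixStatementE_tw hG) B hBfin (lev3 q m₀ : ℤ)
    (satStatementE_tw hq B hE hG hS (cycloDecomp hq A hA hζ)) n hn H hHB hHI hroot

end Tw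

end Fermat.Agent.T3.helper74

end
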