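/-
T3 (S36), helper48: [CUSP-Q] (Q-ABS) + (Q-GAL) (helper87 #2577, architect #2566).

Level `N q q` (`q` prime).  `dg0, dg1, dg2 : F_N → F_{Nqq}` are the three degeneracy maps
(`helper74`), `dgF N q e` is the same family indexed by `e : Fin 3`.

* `ringHom_ext_dg` / `ringHom_ext_dgF` / `algHom_ext_dgF` : **(Q-ABS)** a ring homomorphism out of
  `F_{Nqq}` is determined by its three restrictions `E ∘ dg_e` (`F_{Nqq}` is the compositum of the
  `dg_e F_N`).
* `coeffMap_eq_of_table` : **(Q-GAL)**, abstract form: if `E₁ ∘ dg_e = T₁ e`, `E₂ ∘ dg_e = T₂ e` and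
  `σ (T₁ e y) = T₂ e (σ y)` then `σ (E₁ f) = E₂ (σ f)` for all `f`.
* `coeffMap_eq_of_substTable` : the same for tables of the shape `S e (EN e y)` (`S e` a
  substitution `t ↦ ε t^m` commuting with `σ` up to `ε ↦ σ ε`, `EN e` level-`N` expansions which
  are `σ`-equivariant).
* `coeffMap_fix_of_substTable`, `galCompatTw_of_tables` : `helper74.GalCompatTw` from the tables.
* `coeffMap_qExpand_rot`, `coeffMap_qExpand_rot_fix`, `coeffMap_rot_fix`, `coeffMap_qExpand_twistL`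
  : the commutation hypotheses for the shapes `qExpand m ∘ rot ε`, `rot ε`, `qExpand m ∘ twistL c`.
* `order_eq_of_conj`, `order_eq_of_conj'` : conjugate expansions have the same orders (the input
  of `helper27.coverStatementE_of_conj`).
* `exists_inertia_order_eq`, `exists_inertia_order_eq_mid` : the **I-conjugacy of the middle
  cosets** in the shape of the hypothesis of `helper27.coverStatementE_of_conj`.
* `table_atkinLehnerSq` : **W₂-transport** of a table: `(E ∘ W_{q²}) ∘ dg_e = E ∘ dg_{2-e}`.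
* `substTable_unique` : two expansions with the same table are equal.
-/
import Mathlib
import Fermat.Agent.T3.helper74_Sat3Tw
import Fermat.Agent.P2.helper28_RedEmb
import Fermat.Agent.T3.helper58_Desc
import Fermat.Agent.T3.helper74_MidAll

set_option autoImplicit false
set_option synthInstance.maxHeartbeats 400000
set_option linter.unusedSectionVars false
set_option linter.style.haveILetI false
set_option linter.unusedVariables false
set_option linter.style.longLine false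

noncomputable section

open HahnSeries IntermediateField AlgebraicCurve ModularCurve
open Fermat.Agent.S18.helper19 Fermat.Agent.P2.helper29 Fermat.Agent.T2.helper36
open Fermat.Agent.T3.helper74

namespace Fermat.Agent.T3.helper48

section Uniq

variable (N q : ℕ) [NeZero N] [NeZero q]

/-- the three degeneracy maps `f(τ), f(q τ), f(q² τ)` as a family -/
def dgF (e : Fin 3) : FF N →ₐ[Kb] FF (N * q * q) :=
  if e = 0 then dg0 N q else if e = 1 then dg1 N q else dg2 N q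

theorem dgF_zero : dgF N q 0 = dg0 N q := rfl

theorem dgF_one : dgF N q 1 = dg1 N q := rfl

theorem dgF_two : dgF N q 2 = dg2 N q := rfl

theorem forall_fin3 {P : Fin 3 → Prop} (h0 : P 0) (h1 : P 1) (h2 : P 2) : ∀ e, P e := by
  intro e
  fin_cases e
  · exact h0
  · exact h1
  · exact h2

theorem coe_dgF_zero (y : FF N) : ((dgF N q 0 y : FF (N * q * q)) : LaurentSeries Kb) = y :=
  coe_dg0 N q y

theorem coe_dgF_one (y : FF N) :
    ((dgF N q 1 y : FF (N * q * q)) : LaurentSeries Kb) = qExpand Kb q (y : LaurentSeries Kb) :=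
  coe_dg1 N q y

theorem coe_dgF_two (y : FF N) :
    ((dgF N q 2 y : FF (N * q * q)) : LaurentSeries Kb)
      = qExpand Kb q (qExpand Kb q (y : LaurentSeries Kb)) :=
  coe_dg2 N q y

/-- the Galois action commutes with the degeneracy maps -/
theorem galF_dgF (σ : Kb ≃ₐ[ℚ] Kb) (e : Fin 3) (y : FF N) :
    arithmeticRingAut (modularFunctionFieldFull (N * q * q)) σ (dgF N q e y)
      = dgF N q e (arithmeticRingAut (modularFunctionFieldFull N) σ y) := by
  revert e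
  apply forall_fin3
  · exact galF_dg0 N q σ y
  · exact galF_dg1 N q σ y
  · exact galF_dg2 N q σ y

/-- **(Q-ABS)**: two ring homomorphisms out of `F_{Nqq}` which agree on the images of the three
degeneracy maps are equal. -/
theorem ringHom_ext_dg (hq : q.Prime) {L : Type*} [CommSemiring L]
    (ψ₁ ψ₂ : FF (N * q * q) →+* L)
    (h0 : ∀ y : FF N, ψ₁ (dg0 N q y) = ψ₂ (dg0 N q y))
    (h1 : ∀ y : FF N, ψ₁ (dg1 N q y) = ψ₂ (dg1 N q y))
    (h2 : ∀ y : FF N, ψ₁ (dg2 N q y) = ψ₂ (dg2 N q y)) : ψ₁ = ψ₂ := by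
  apply Fermat.Agent.T3.helper87.ringHom_ext_alpha_beta q (N * q) hq
  · intro g
    have key := Fermat.Agent.T3.helper87.ringHom_ext_alpha_beta q N hq
      (ψ₁.comp ((heckeAlphaBar Kb (N * q) q : FF (N * q) →ₐ[Kb] FF (N * q * q)) :
        FF (N * q) →+* FF (N * q * q)))
      (ψ₂.comp ((heckeAlphaBar Kb (N * q) q : FF (N * q) →ₐ[Kb] FF (N * q * q)) :
        FF (N * q) →+* FF (N * q * q)))
      (fun y => h0 y) (fun y => h1 y)
    exact RingHom.congr_fun key g
  · intro g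
    have key := Fermat.Agent.T3.helper87.ringHom_ext_alpha_beta q N hq
      (ψ₁.comp ((heckeBetaBar Kb (N * q) q : FF (N * q) →ₐ[Kb] FF (N * q * q)) :
        FF (N * q) →+* FF (N * q * q)))
      (ψ₂.comp ((heckeBetaBar Kb (N * q) q : FF (N * q) →ₐ[Kb] FF (N * q * q)) :
        FF (N * q) →+* FF (N * q * q)))
      (fun y => by
        show ψ₁ (heckeBetaBar Kb (N * q) q (heckeAlphaBar Kb N q y))
          = ψ₂ (heckeBetaBar Kb (N * q) q (heckeAlphaBar Kb N q y))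
        rw [Fermat.Agent.T3.helper87.beta_alpha_eq_alpha_beta]
        exact h1 y)
      (fun y => h2 y)
    exact RingHom.congr_fun key g

/-- **(Q-ABS)**, family form. -/
theorem ringHom_ext_dgF (hq : q.Prime) {L : Type*} [CommSemiring L]
    (ψ₁ ψ₂ : FF (N * q * q) →+* L)
    (h : ∀ (e : Fin 3) (y : FF N), ψ₁ (dgF N q e y) = ψ₂ (dgF N q e y)) : ψ₁ = ψ₂ :=
  ringHom_ext_dg N q hq ψ₁ ψ₂ (h 0) (h 1) (h 2)

/-- **(Q-ABS)** for algebra homomorphisms. -/
theorem algHom_ext_dgF (hq : q.Prime) {L : Type*} [CommSemiring L] [Algebra Kb L]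
    (φ₁ φ₂ : FF (N * q * q) →ₐ[Kb] L)
    (h : ∀ (e : Fin 3) (y : FF N), φ₁ (dgF N q e y) = φ₂ (dgF N q e y)) : φ₁ = φ₂ := by
  have key := ringHom_ext_dgF N q hq (φ₁ : FF (N * q * q) →+* L) (φ₂ : FF (N * q * q) →+* L) h
  ext f
  exact RingHom.congr_fun key f

/-- **(Q-ABS)**, table form: two ring homomorphisms with the same table are equal. -/
theorem table_unique (hq : q.Prime) {L : Type*} [CommSemiring L]
    (ψ₁ ψ₂ : FF (N * q * q) →+* L) (T : Fin 3 → FF N → L)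
    (h₁ : ∀ e y, ψ₁ (dgF N q e y) = T e y) (h₂ : ∀ e y, ψ₂ (dgF N q e y) = T e y) : ψ₁ = ψ₂ :=
  ringHom_ext_dgF N q hq ψ₁ ψ₂ fun e y => by rw [h₁, h₂]

end Uniq

/-! ### Galois equivariance from the tables -/

section Gal

variable (N q : ℕ) [NeZero N] [NeZero q]

/-- **(Q-GAL)**, abstract form. -/
theorem coeffMap_eq_of_table (hq : q.Prime) (σ : Kb ≃ₐ[ℚ] Kb)
    (E₁ E₂ : FF (N * q * q) →+* LaurentSeries Kb) (T₁ T₂ : Fin 3 → FF N → LaurentSeries Kb)
    (hT₁ : ∀ e y, E₁ (dgF N q e y) = T₁ e y) (hT₂ : ∀ e y, E₂ (dgF N q e y) = T₂ e y)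
    (hσ : ∀ e y, coeffMap (σ : Kb →+* Kb) (T₁ e y)
      = T₂ e (arithmeticRingAut (modularFunctionFieldFull N) σ y))
    (f : FF (N * q * q)) :
    coeffMap (σ : Kb →+* Kb) (E₁ f)
      = E₂ (arithmeticRingAut (modularFunctionFieldFull (N * q * q)) σ f) := by
  have key := ringHom_ext_dgF N q hq
    ((coeffMap (σ : Kb →+* Kb)).comp E₁)
    (E₂.comp ((arithmeticRingAut (modularFunctionFieldFull (N * q * q)) σ :
      FF (N * q * q) ≃+* FF (N * q * q)) : FF (N * q * q) →+* FF (N * q * q)))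
    (fun e y => by
      show coeffMap (σ : Kb →+* Kb) (E₁ (dgF N q e y))
        = E₂ (arithmeticRingAut (modularFunctionFieldFull (N * q * q)) σ (dgF N q e y))
      rw [galF_dgF, hT₁, hT₂, hσ])
  exact RingHom.congr_fun key f

/-- **(Q-GAL)** for tables of the shape `S e (EN e y)`. -/
theorem coeffMap_eq_of_substTable (hq : q.Prime) (σ : Kb ≃ₐ[ℚ] Kb)
    (E₁ E₂ : FF (N * q * q) →+* LaurentSeries Kb)
    (EN₁ EN₂ : Fin 3 → FF N → LaurentSeries Kb)
    (S₁ S₂ : Fin 3 → LaurentSeries Kb → LaurentSeries Kb)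
    (hT₁ : ∀ e y, E₁ (dgF N q e y) = S₁ e (EN₁ e y))
    (hT₂ : ∀ e y, E₂ (dgF N q e y) = S₂ e (EN₂ e y))
    (hS : ∀ e x, coeffMap (σ : Kb →+* Kb) (S₁ e x) = S₂ e (coeffMap (σ : Kb →+* Kb) x))
    (hEN : ∀ e y, coeffMap (σ : Kb →+* Kb) (EN₁ e y)
      = EN₂ e (arithmeticRingAut (modularFunctionFieldFull N) σ y))
    (f : FF (N * q * q)) :
    coeffMap (σ : Kb →+* Kb) (E₁ f)
      = E₂ (arithmeticRingAut (modularFunctionFieldFull (N * q * q)) σ f) :=
  coeffMap_eq_of_table N q hq σ E₁ E₂ (fun e y => S₁ e (EN₁ e y)) (fun e y => S₂ e (EN₂ e y))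
    hT₁ hT₂ (fun e y => by rw [hS, hEN]) f

/-- an expansion whose table is `σ`-stable is `σ`-equivariant. -/
theorem coeffMap_comm_of_substTable (hq : q.Prime) (σ : Kb ≃ₐ[ℚ] Kb)
    (E : FF (N * q * q) →+* LaurentSeries Kb)
    (EN : Fin 3 → FF N → LaurentSeries Kb)
    (S : Fin 3 → LaurentSeries Kb → LaurentSeries Kb)
    (hT : ∀ e y, E (dgF N q e y) = S e (EN e y))
    (hS : ∀ e x, coeffMap (σ : Kb →+* Kb) (S e x) = S e (coeffMap (σ : Kb →+* Kb) x))
    (hEN : ∀ e y, coeffMap (σ : Kb →+* Kb) (EN e y)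
      = EN e (arithmeticRingAut (modularFunctionFieldFull N) σ y))
    (f : FF (N * q * q)) :
    coeffMap (σ : Kb →+* Kb) (E f)
      = E (arithmeticRingAut (modularFunctionFieldFull (N * q * q)) σ f) :=
  coeffMap_eq_of_substTable N q hq σ E E EN EN S S hT hT hS hEN f

/-- the expansion of a `σ`-fixed function has `σ`-fixed coefficients. -/
theorem coeffMap_fix_of_substTable (hq : q.Prime) (σ : Kb ≃ₐ[ℚ] Kb)
    (E : FF (N * q * q) →+* LaurentSeries Kb)
    (EN : Fin 3 → FF N → LaurentSeries Kb)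
    (S : Fin 3 → LaurentSeries Kb → LaurentSeries Kb)
    (hT : ∀ e y, E (dgF N q e y) = S e (EN e y))
    (hS : ∀ e x, coeffMap (σ : Kb →+* Kb) (S e x) = S e (coeffMap (σ : Kb →+* Kb) x))
    (hEN : ∀ e y, coeffMap (σ : Kb →+* Kb) (EN e y)
      = EN e (arithmeticRingAut (modularFunctionFieldFull N) σ y))
    {f : FF (N * q * q)}
    (hf : arithmeticRingAut (modularFunctionFieldFull (N * q * q)) σ f = f) :
    coeffMap (σ : Kb →+* Kb) (E f) = E f := by
  rw [coeffMap_comm_of_substTable N q hq σ E EN S hT hS hEN f, hf]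

/-- **`helper74.GalCompatTw` from the tables**: the level-`N` expansions are equivariant under
the inertia group, the substitutions of the indices of type `∞`, `0` commute with the inertia
group and those of the middle type with the inertia elements fixing `ζ`. -/
theorem galCompatTw_of_tables (hq : q.Prime) (A : ValuationSubring Kb) {ι : Type*}
    (τ : ι → Fin 3) (E : ι → (FF (N * q * q) →+* LaurentSeries Kb)) (ζ : Kb)
    (EN : ι → Fin 3 → FF N → LaurentSeries Kb)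
    (S : ι → Fin 3 → LaurentSeries Kb → LaurentSeries Kb)
    (hT : ∀ J e y, E J (dgF N q e y) = S J e (EN J e y))
    (hS : ∀ J, ∀ σ ∈ A.inertiaSubgroupIn ℚ, (τ J = 2 → σ ζ = ζ) →
      ∀ e x, coeffMap (σ : Kb →+* Kb) (S J e x) = S J e (coeffMap (σ : Kb →+* Kb) x))
    (hEN : ∀ J, ∀ σ ∈ A.inertiaSubgroupIn ℚ, ∀ e y, coeffMap (σ : Kb →+* Kb) (EN J e y)
      = EN J e (arithmeticRingAut (modularFunctionFieldFull N) σ y)) :
    GalCompatTw A τ E ζ := by
  intro J f hf σ hσ hζ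
  exact coeffMap_fix_of_substTable N q hq σ (E J) (EN J) (S J) (hT J) (hS J σ hσ hζ)
    (hEN J σ hσ) (hf σ hσ)

end Gal

/-! ### The shapes of the substitutions -/

section Shapes

theorem coeffMap_qExpand_gen (σ : Kb →+* Kb) (m : ℕ) [NeZero m] (x : LaurentSeries Kb) :
    coeffMap σ (qExpand Kb m x) = qExpand Kb m (coeffMap σ x) := by
  ext n
  rw [coeffMap_coeff]
  by_cases hn : (m : ℤ) ∣ n
  · obtain ⟨k, rfl⟩ := hn
    rw [qExpand_coeff_mul, qExpand_coeff_mul, coeffMap_coeff]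
  · rw [qExpand_coeff_of_not_dvd m _ hn, qExpand_coeff_of_not_dvd m _ hn, map_zero]

/-- `σ ∘ rot ε = rot (σ ε) ∘ σ` -/
theorem coeffMap_rot_gen (σ : Kb ≃ₐ[ℚ] Kb) (u v : Kbˣ) (huv : σ (u : Kb) = (v : Kb))
    (x : LaurentSeries Kb) :
    coeffMap (σ : Kb →+* Kb) (Fermat.Agent.P2.helper94.rot u x)
      = Fermat.Agent.P2.helper94.rot v (coeffMap (σ : Kb →+* Kb) x) := by
  ext n
  rw [coeffMap_coeff, Fermat.Agent.P2.helper94.rot_coeff, Fermat.Agent.P2.helper94.rot_coeff,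
    coeffMap_coeff, map_mul, Units.val_zpow_eq_zpow_val, Units.val_zpow_eq_zpow_val, ← huv]
  congr 1
  exact map_zpow₀ (σ : Kb →+* Kb) (u : Kb) n

/-- `σ ∘ rot ε = rot ε ∘ σ` when `σ ε = ε` -/
theorem coeffMap_rot_fix (σ : Kb ≃ₐ[ℚ] Kb) (u : Kbˣ) (hu : σ (u : Kb) = (u : Kb))
    (x : LaurentSeries Kb) :
    coeffMap (σ : Kb →+* Kb) (Fermat.Agent.P2.helper94.rot u x)
      = Fermat.Agent.P2.helper94.rot u (coeffMap (σ : Kb →+* Kb) x) :=
  coeffMap_rot_gen σ u u hu x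

/-- `σ ∘ (qExpand m ∘ rot ε) = (qExpand m ∘ rot (σ ε)) ∘ σ` -/
theorem coeffMap_qExpand_rot (σ : Kb ≃ₐ[ℚ] Kb) (m : ℕ) [NeZero m] (u v : Kbˣ)
    (huv : σ (u : Kb) = (v : Kb)) (x : LaurentSeries Kb) :
    coeffMap (σ : Kb →+* Kb) (qExpand Kb m (Fermat.Agent.P2.helper94.rot u x))
      = qExpand Kb m (Fermat.Agent.P2.helper94.rot v (coeffMap (σ : Kb →+* Kb) x)) := by
  rw [coeffMap_qExpand_gen, coeffMap_rot_gen σ u v huv]

/-- `σ ∘ (qExpand m ∘ rot ε) = (qExpand m ∘ rot ε) ∘ σ` when `σ ε = ε` -/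
theorem coeffMap_qExpand_rot_fix (σ : Kb ≃ₐ[ℚ] Kb) (m : ℕ) [NeZero m] (u : Kbˣ)
    (hu : σ (u : Kb) = (u : Kb)) (x : LaurentSeries Kb) :
    coeffMap (σ : Kb →+* Kb) (qExpand Kb m (Fermat.Agent.P2.helper94.rot u x))
      = qExpand Kb m (Fermat.Agent.P2.helper94.rot u (coeffMap (σ : Kb →+* Kb) x)) :=
  coeffMap_qExpand_rot σ m u u hu x

/-- `σ ∘ (qExpand m ∘ twistL c) = (qExpand m ∘ twistL (σ c)) ∘ σ` -/
theorem coeffMap_qExpand_twistL (σ : Kb ≃ₐ[ℚ] Kb) (m : ℕ) [NeZero m] (c : Kb)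
    (x : LaurentSeries Kb) :
    coeffMap (σ : Kb →+* Kb) (qExpand Kb m (Fermat.Agent.P2.helper93.twistL c x))
      = qExpand Kb m (Fermat.Agent.P2.helper93.twistL (σ c) (coeffMap (σ : Kb →+* Kb) x)) := by
  rw [coeffMap_qExpand_gen, Fermat.Agent.T3.helper87.coeffMap_twistL]
  rfl

/-- the hypothesis `σ ε = ε` for `ε = ζ ^ k` follows from `σ ζ = ζ`. -/
theorem map_pow_of_fix (σ : Kb ≃ₐ[ℚ] Kb) {ζ : Kb} (hζ : σ ζ = ζ) (k : ℕ) : σ (ζ ^ k) = ζ ^ k := by
  rw [map_pow, hζ]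

end Shapes

/-! ### Conjugate expansions -/

section Conj

variable {M : ℕ} [NeZero M]

theorem order_coeffMap_equiv (σ : Kb ≃ₐ[ℚ] Kb) (x : LaurentSeries Kb) :
    (coeffMap (σ : Kb →+* Kb) x).order = x.order :=
  Fermat.Agent.T3.helper58.order_coeffMap_inj (σ : Kb →+* Kb) σ.injective x

/-- conjugate expansions have the same orders. -/
theorem order_eq_of_conj (σ : Kb ≃ₐ[ℚ] Kb) (E₁ E₂ : FF M →+* LaurentSeries Kb)
    (h : ∀ f, coeffMap (σ : Kb →+* Kb) (E₁ f)
      = E₂ (arithmeticRingAut (modularFunctionFieldFull M) σ f)) (f : FF M) :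
    (E₂ (arithmeticRingAut (modularFunctionFieldFull M) σ f)).order = (E₁ f).order := by
  rw [← h, order_coeffMap_equiv]

/-- conjugate expansions have the same orders (form with `σ⁻¹` on the other side). -/
theorem order_eq_of_conj' (σ : Kb ≃ₐ[ℚ] Kb) (E₁ E₂ : FF M →+* LaurentSeries Kb)
    (h : ∀ f, coeffMap (σ : Kb →+* Kb) (E₁ f)
      = E₂ (arithmeticRingAut (modularFunctionFieldFull M) σ f)) (f : FF M) :
    (E₂ f).order = (E₁ ((arithmeticRingAut (modularFunctionFieldFull M) σ).symm f)).order := by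
  have := order_eq_of_conj σ E₁ E₂ h ((arithmeticRingAut (modularFunctionFieldFull M) σ).symm f)
  rw [RingEquiv.apply_symm_apply] at this
  exact this

/-- conjugate expansions, in the shape of the hypothesis of
`helper27.coverStatementE_of_conj`. -/
theorem exists_inertia_order_eq (A : ValuationSubring Kb) (E₁ E₂ : FF M →+* LaurentSeries Kb)
    {σ : Kb ≃ₐ[ℚ] Kb} (hσ : σ ∈ A.inertiaSubgroupIn ℚ)
    (h : ∀ f, coeffMap (σ : Kb →+* Kb) (E₁ f)
      = E₂ (arithmeticRingAut (modularFunctionFieldFull M) σ f)) :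
    ∃ τ ∈ A.inertiaSubgroupIn ℚ, ∀ f : FF M,
      (E₂ f).order = (E₁ (arithmeticRingAut (modularFunctionFieldFull M) τ f)).order := by
  refine ⟨σ⁻¹, Subgroup.inv_mem _ hσ, fun f => ?_⟩
  have e : arithmeticRingAut (modularFunctionFieldFull M) σ⁻¹ f
      = (arithmeticRingAut (modularFunctionFieldFull M) σ).symm f := Subtype.ext rfl
  rw [e]
  exact order_eq_of_conj' σ E₁ E₂ h f

end Conj

/-! ### The I-conjugacy of the middle cosets -/

section Mid

variable (N q : ℕ) [NeZero N] [NeZero q]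

/-- **(Q-GAL) for a family indexed by the primitive `q`-th roots of unity**: if the table of
`E ξ` is `S ξ e (EN e y)`, the substitutions satisfy `σ ∘ S ξ e = S (σ ξ) e ∘ σ` and the
level-`N` expansions are `σ`-equivariant, then `σ (E ξ f) = E (σ ξ) (σ f)`. -/
theorem coeffMap_eq_of_rootTable (hq : q.Prime) (σ : Kb ≃ₐ[ℚ] Kb)
    (E : Kb → (FF (N * q * q) →+* LaurentSeries Kb))
    (EN : Fin 3 → FF N → LaurentSeries Kb)
    (S : Kb → Fin 3 → LaurentSeries Kb → LaurentSeries Kb)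
    (hT : ∀ ξ, IsPrimitiveRoot ξ q → ∀ e y, E ξ (dgF N q e y) = S ξ e (EN e y))
    (hS : ∀ ξ, IsPrimitiveRoot ξ q → ∀ e x,
      coeffMap (σ : Kb →+* Kb) (S ξ e x) = S (σ ξ) e (coeffMap (σ : Kb →+* Kb) x))
    (hEN : ∀ e y, coeffMap (σ : Kb →+* Kb) (EN e y)
      = EN e (arithmeticRingAut (modularFunctionFieldFull N) σ y))
    {ξ : Kb} (hξ : IsPrimitiveRoot ξ q) (f : FF (N * q * q)) :
    coeffMap (σ : Kb →+* Kb) (E ξ f)
      = E (σ ξ) (arithmeticRingAut (modularFunctionFieldFull (N * q * q)) σ f) :=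
  coeffMap_eq_of_substTable N q hq σ (E ξ) (E (σ ξ)) EN EN (S ξ) (S (σ ξ))
    (hT ξ hξ) (hT (σ ξ) (hξ.map_of_injective (f := σ) σ.injective)) (hS ξ hξ) hEN f

/-- **the I-conjugacy of the middle cosets**: all the expansions `E ξ` (`ξ` a primitive `q`-th
root of unity) are conjugate to `E ζ` under the inertia group. -/
theorem exists_inertia_order_eq_mid (hq : q.Prime) (A : ValuationSubring Kb)
    (hA : A.LiesOverPrime q) {ζ : Kb} (hζ : IsPrimitiveRoot ζ q)
    (E : Kb → (FF (N * q * q) →+* LaurentSeries Kb))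
    (EN : Fin 3 → FF N → LaurentSeries Kb)
    (S : Kb → Fin 3 → LaurentSeries Kb → LaurentSeries Kb)
    (hT : ∀ ξ, IsPrimitiveRoot ξ q → ∀ e y, E ξ (dgF N q e y) = S ξ e (EN e y))
    (hS : ∀ σ ∈ A.inertiaSubgroupIn ℚ, ∀ ξ, IsPrimitiveRoot ξ q → ∀ e x,
      coeffMap ((σ : Kb ≃ₐ[ℚ] Kb) : Kb →+* Kb) (S ξ e x)
        = S (σ ξ) e (coeffMap ((σ : Kb ≃ₐ[ℚ] Kb) : Kb →+* Kb) x))
    (hEN : ∀ σ ∈ A.inertiaSubgroupIn ℚ, ∀ e y,
      coeffMap ((σ : Kb ≃ₐ[ℚ] Kb) : Kb →+* Kb) (EN e y)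
        = EN e (arithmeticRingAut (modularFunctionFieldFull N) σ y))
    {ξ : Kb} (hξ : IsPrimitiveRoot ξ q) :
    ∃ τ ∈ A.inertiaSubgroupIn ℚ, ∀ f : FF (N * q * q),
      (E ξ f).order
        = (E ζ (arithmeticRingAut (modularFunctionFieldFull (N * q * q)) τ f)).order := by
  obtain ⟨k, hk, hkξ⟩ := hζ.eq_pow_of_pow_eq_one hξ.pow_eq_one
  have hkq : ¬ q ∣ k := by
    intro hdvd
    obtain ⟨m, rfl⟩ := hdvd
    have h1 : ξ = 1 := by rw [← hkξ, pow_mul, hζ.pow_eq_one, one_pow]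
    exact hq.one_lt.ne' ((hξ.eq_orderOf).trans (by rw [h1, orderOf_one]))
  obtain ⟨σ, hσ, hσζ⟩ := Fermat.Agent.T3.helper84.k0_zeta_trans hq A hA hζ hkq
  have key : ∀ f, coeffMap (σ : Kb →+* Kb) (E ζ f)
      = E ξ (arithmeticRingAut (modularFunctionFieldFull (N * q * q)) σ f) := by
    intro f
    have := coeffMap_eq_of_rootTable N q hq σ E EN S hT (hS σ hσ) (hEN σ hσ) hζ f
    rw [hσζ, hkξ] at this
    exact this
  exact exists_inertia_order_eq A (E ζ) (E ξ) hσ key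

end Mid

/-! ### W₂-transport -/

section W2

variable (N q : ℕ) [NeZero N] [NeZero q] (hq : q.Prime) (hqN : ¬ q ∣ N)

/-- `W_{q²} ∘ dg_e = dg_{2-e}` -/
theorem atkinLehnerSq_dgF (e : Fin 3) (y : FF N) :
    atkinLehnerSq N q hq hqN (dgF N q e y) = dgF N q (Fin.rev e) y := by
  revert e
  apply forall_fin3
  · exact atkinLehnerSq_dg0 N q hq hqN y
  · exact atkinLehnerSq_dg1 N q hq hqN y
  · exact atkinLehnerSq_dg2 N q hq hqN y

/-- **W₂-transport of a table**: if `E ∘ dg_e = T e` then `(E ∘ W_{q²}) ∘ dg_e = T (2 - e)`. -/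
theorem table_atkinLehnerSq {L : Type*} [CommSemiring L] (E : FF (N * q * q) →+* L)
    (T : Fin 3 → FF N → L) (hT : ∀ e y, E (dgF N q e y) = T e y) (e : Fin 3) (y : FF N) :
    E (atkinLehnerSq N q hq hqN (dgF N q e y)) = T (Fin.rev e) y := by
  rw [atkinLehnerSq_dgF, hT]

/-- an expansion with the `W₂`-transported table is `E ∘ W_{q²}`. -/
theorem eq_comp_atkinLehnerSq_of_table {L : Type*} [CommSemiring L]
    (E E' : FF (N * q * q) →+* L) (T : Fin 3 → FF N → L)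
    (hT : ∀ e y, E (dgF N q e y) = T e y) (hT' : ∀ e y, E' (dgF N q e y) = T (Fin.rev e) y)
    (f : FF (N * q * q)) : E' f = E (atkinLehnerSq N q hq hqN f) := by
  have key := ringHom_ext_dgF N q hq E'
    (E.comp ((atkinLehnerSq N q hq hqN : FF (N * q * q) →ₐ[Kb] FF (N * q * q)) :
      FF (N * q * q) →+* FF (N * q * q)))
    (fun e y => by
      show E' (dgF N q e y) = E (atkinLehnerSq N q hq hqN (dgF N q e y))
      rw [hT', table_atkinLehnerSq N q hq hqN E T hT])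
  exact RingHom.congr_fun key f

end W2

end Fermat.Agent.T3.helper48

end
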