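/-
T3 (S36), [CUSP-Q] (helper87), part 1: the matrices.

`q` a prime not dividing `N`.  A matrix `γ ∈ SL(2,ℤ)` has

* type `∞`   if `q² ∣ γ₁₀`,
* type `0`   if `q² ∣ γ₁₁`,
* type `mid` (with index `k`, `q ∤ k`) if `q² ∣ γ₁₀ N k - γ₁₁ q`.

* `exists_sel`   : every right coset `Γ₀(N) g` contains matrices of every type;
* `hPart`        : the Hermite partner `δ` of `γ` for `[[r,0],[0,1]] γ = δ [[a,b],[0,D]]`;
* `exists_partner_infty / _zero / _mid` : the Hermite data of the three types for `r = 1, q, q²`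
  with `b = 0` except for (mid, `r = q²`), where `b = N k`.
-/
import Mathlib
import Fermat.Agent.S24.helper37_IndexGamma0

set_option autoImplicit false
set_option linter.unusedSectionVars false
set_option linter.unusedVariables false
set_option linter.style.longLine false

open scoped MatrixGroups
open CongruenceSubgroup Matrix

namespace Fermat.Agent.T3.helper87

open Fermat.Agent.S24.helper37 (mk2 det_eq_one' mem_Gamma0_iff_dvd mk2_zero_zero mk2_one_zero)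

theorem mk2_zero_one (a b c d : ℤ) (h : a * d - b * c = 1) : mk2 a b c d h 0 1 = b := rfl

theorem mk2_one_one (a b c d : ℤ) (h : a * d - b * c = 1) : mk2 a b c d h 1 1 = d := rfl

theorem sl_mul_one_zero (h g : SL(2, ℤ)) : (h * g) 1 0 = h 1 0 * g 0 0 + h 1 1 * g 1 0 := by
  have h1 := (Matrix.two_mul_expl h.1 g.1).2.2.1
  exact h1

theorem sl_mul_one_one (h g : SL(2, ℤ)) : (h * g) 1 1 = h 1 0 * g 0 1 + h 1 1 * g 1 1 := by
  have h1 := (Matrix.two_mul_expl h.1 g.1).2.2.2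
  exact h1

theorem sl_inv_zero_zero (g : SL(2, ℤ)) : (g⁻¹) 0 0 = g 1 1 := by
  rw [SpecialLinearGroup.SL2_inv_expl]
  rfl

theorem sl_inv_one_zero (g : SL(2, ℤ)) : (g⁻¹) 1 0 = - g 1 0 := by
  rw [SpecialLinearGroup.SL2_inv_expl]
  rfl

/-- the lower left entry of `γ₂ γ₁⁻¹` -/
theorem sl_mul_inv_one_zero (γ₁ γ₂ : SL(2, ℤ)) :
    (γ₂ * γ₁⁻¹) 1 0 = γ₂ 1 0 * γ₁ 1 1 - γ₂ 1 1 * γ₁ 1 0 := by
  rw [sl_mul_one_zero, sl_inv_zero_zero, sl_inv_one_zero]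
  ring

section Sel

variable (N q : ℕ)

/-- **selection**: every right coset `Γ₀(N) g` contains a matrix whose bottom row is
proportional to `(x₀, y₀)` modulo `q²`. -/
theorem exists_sel (hq : q.Prime) (hqN : ¬ q ∣ N) (g : SL(2, ℤ)) (x₀ y₀ : ℤ)
    (h0 : ¬ (q : ℤ) ∣ x₀ ∨ ¬ (q : ℤ) ∣ y₀) :
    ∃ h : SL(2, ℤ), h ∈ Gamma0 N ∧
      ((q : ℤ) * q) ∣ (h * g) 1 0 * y₀ - (h * g) 1 1 * x₀ := by
  have hdet := det_eq_one' g
  have hqp : Prime (q : ℤ) := Nat.prime_iff_prime_int.mp hq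
  have hprim : ¬ ((q : ℤ) ∣ g 0 0 * y₀ - g 0 1 * x₀ ∧ (q : ℤ) ∣ g 1 0 * y₀ - g 1 1 * x₀) := by
    rintro ⟨hP, hQ⟩
    have hy : (q : ℤ) ∣ y₀ := by
      have e : y₀ = g 1 1 * (g 0 0 * y₀ - g 0 1 * x₀) - g 0 1 * (g 1 0 * y₀ - g 1 1 * x₀) := by
        linear_combination (-y₀) * hdet
      rw [e]
      exact dvd_sub (dvd_mul_of_dvd_right hP _) (dvd_mul_of_dvd_right hQ _)
    have hx : (q : ℤ) ∣ x₀ := by
      have e : x₀ = g 1 0 * (g 0 0 * y₀ - g 0 1 * x₀) - g 0 0 * (g 1 0 * y₀ - g 1 1 * x₀) := by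
        linear_combination (-x₀) * hdet
      rw [e]
      exact dvd_sub (dvd_mul_of_dvd_right hP _) (dvd_mul_of_dvd_right hQ _)
    rcases h0 with h | h
    · exact h hx
    · exact h hy
  obtain ⟨s, hs⟩ : ∃ s : ℤ,
      ¬ (q : ℤ) ∣ (g 0 0 * y₀ - g 0 1 * x₀) + s * (g 1 0 * y₀ - g 1 1 * x₀) := by
    by_cases hP : (q : ℤ) ∣ g 0 0 * y₀ - g 0 1 * x₀
    · refine ⟨1, fun h => hprim ⟨hP, ?_⟩⟩
      have := dvd_sub h hP
      simpa using this
    · exact ⟨0, by simpa using hP⟩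
  have hc1 : IsCoprime (q : ℤ) (N : ℤ) :=
    Nat.isCoprime_iff_coprime.mpr ((Nat.Prime.coprime_iff_not_dvd hq).mpr hqN)
  have hc2 : IsCoprime (q : ℤ)
      ((g 0 0 * y₀ - g 0 1 * x₀) + s * (g 1 0 * y₀ - g 1 1 * x₀)) :=
    (Prime.coprime_iff_not_dvd hqp).mpr hs
  have hc3 : IsCoprime ((q : ℤ) * q)
      ((N : ℤ) * ((g 0 0 * y₀ - g 0 1 * x₀) + s * (g 1 0 * y₀ - g 1 1 * x₀))) :=
    IsCoprime.mul_left (hc1.mul_right hc2) (hc1.mul_right hc2)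
  obtain ⟨v, u, huv⟩ := hc3
  refine ⟨mk2 1 s ((N : ℤ) * (-(g 1 0 * y₀ - g 1 1 * x₀) * u))
    (1 + (N : ℤ) * (-(g 1 0 * y₀ - g 1 1 * x₀) * u) * s) (by ring), ?_, ?_⟩
  · rw [mem_Gamma0_iff_dvd, mk2_one_zero]
    exact dvd_mul_right _ _
  · rw [sl_mul_one_zero, sl_mul_one_one, mk2_one_zero, mk2_one_one]
    refine ⟨(g 1 0 * y₀ - g 1 1 * x₀) * v, ?_⟩
    linear_combination (-(g 1 0 * y₀ - g 1 1 * x₀)) * huv

end Sel

/-! ### Hermite partners -/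

/-- the Hermite partner `δ` of `γ`: `[[a D,0],[0,1]] γ = δ [[a,b],[0,D]]`, given the bottom row
`(c', d')` of `δ`. -/
def hPart (γ : SL(2, ℤ)) (a D b c' d' : ℤ) (hc : γ 1 0 = c' * a) (hd : γ 1 1 = c' * b + d' * D) :
    SL(2, ℤ) :=
  mk2 (γ 0 0 * D) (γ 0 1 * a - γ 0 0 * b) c' d' (by
    have hdet := det_eq_one' γ
    rw [hc, hd] at hdet
    linear_combination hdet)

section Part

variable (γ : SL(2, ℤ)) (a D b c' d' : ℤ) (hc : γ 1 0 = c' * a) (hd : γ 1 1 = c' * b + d' * D)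

theorem hPart_one_zero : hPart γ a D b c' d' hc hd 1 0 = c' := rfl

theorem hPart_one_one : hPart γ a D b c' d' hc hd 1 1 = d' := rfl

theorem hPart_e1 : (a * D) * γ 0 0 = hPart γ a D b c' d' hc hd 0 0 * a := by
  show _ = (γ 0 0 * D) * a
  ring

theorem hPart_e2 : (a * D) * γ 0 1 =
    hPart γ a D b c' d' hc hd 0 0 * b + hPart γ a D b c' d' hc hd 0 1 * D := by
  show _ = (γ 0 0 * D) * b + (γ 0 1 * a - γ 0 0 * b) * D
  ring

theorem hPart_e3 : γ 1 0 = hPart γ a D b c' d' hc hd 1 0 * a := hc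

theorem hPart_e4 : γ 1 1 =
    hPart γ a D b c' d' hc hd 1 0 * b + hPart γ a D b c' d' hc hd 1 1 * D := hd

end Part

end Fermat.Agent.T3.helper87
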