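/-
T3 (S36), helper90, [CUSP-Q]: the generic un-substitution `R((T^d)) → R((t))`.

* `qContract d X`          : the series with `coeff n = X.coeff (d n)`;
* `qExpand_qContract`      : `qExpand d (qContract d X) = X` when the exponents of `X` are
                             divisible by `d`; `qContract_qExpand`;
* `unsub d E h`            : for a ring homomorphism `E : F → R((T))` with values in `R((T^d))`
                             the ring homomorphism `E' : F → R((t))` with
                             `qExpand d (E' y) = E y` (`qExpand_unsub`);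
* `coeff_eq_zero_of_rot_eq`: a series fixed by the rotation by a root of unity `u` with
                             `u ^ n = 1 → d ∣ n` has its exponents divisible by `d`.
Mathlib + `qExpand` + `helper94.rot` only.
-/
import Mathlib
import Fermat.Agent.P2.helper94_ESFormal

set_option autoImplicit false
set_option linter.unusedSectionVars false

noncomputable section

namespace Fermat.Agent.T3.helper90

open ModularCurve

section Contract

variable {R : Type*} [CommRing R] (d : ℕ) [NeZero d]

theorem bddBelow_support_contract (X : LaurentSeries R) :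
    BddBelow (Function.support fun n : ℤ => X.coeff ((d : ℤ) * n)) := by
  have hd : (1 : ℤ) ≤ (d : ℤ) := by exact_mod_cast Nat.pos_of_ne_zero (NeZero.ne d)
  by_cases hX : X = 0
  · refine ⟨0, fun n hn => ?_⟩
    simp only [Function.mem_support, ne_eq] at hn
    rw [hX, HahnSeries.coeff_zero] at hn
    exact absurd rfl hn
  · refine ⟨min X.order 0, fun n hn => ?_⟩
    simp only [Function.mem_support, ne_eq] at hn
    by_contra hlt
    rw [not_le] at hlt
    have h0 : n < 0 := lt_of_lt_of_le hlt (min_le_right _ _)
    have h1 : n < X.order := lt_of_lt_of_le hlt (min_le_left _ _)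
    have h2 : (d : ℤ) * n ≤ n := by nlinarith
    exact hn (HahnSeries.coeff_eq_zero_of_lt_order (lt_of_le_of_lt h2 h1))

/-- the contraction `T^d ↦ t`: the coefficient of `t^n` is the coefficient of `T^(d n)`. -/
def qContract (X : LaurentSeries R) : LaurentSeries R :=
  HahnSeries.ofSuppBddBelow (fun n : ℤ => X.coeff ((d : ℤ) * n)) (bddBelow_support_contract d X)

@[simp] theorem qContract_coeff (X : LaurentSeries R) (n : ℤ) :
    (qContract d X).coeff n = X.coeff ((d : ℤ) * n) := rfl

theorem qExpand_qContract {X : LaurentSeries R}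
    (h : ∀ n : ℤ, ¬ (d : ℤ) ∣ n → X.coeff n = 0) : qExpand R d (qContract d X) = X := by
  ext n
  by_cases hn : (d : ℤ) ∣ n
  · obtain ⟨k, rfl⟩ := hn
    rw [qExpand_coeff_mul, qContract_coeff]
  · rw [qExpand_coeff_of_not_dvd d _ hn, h n hn]

theorem qContract_qExpand (X : LaurentSeries R) : qContract d (qExpand R d X) = X := by
  ext n
  rw [qContract_coeff, qExpand_coeff_mul]

theorem coeff_qExpand_of_not_dvd (X : LaurentSeries R) (n : ℤ) (hn : ¬ (d : ℤ) ∣ n) :
    (qExpand R d X).coeff n = 0 := qExpand_coeff_of_not_dvd d X hn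

theorem mem_range_qExpand_iff (X : LaurentSeries R) :
    X ∈ (qExpand R d).range ↔ ∀ n : ℤ, ¬ (d : ℤ) ∣ n → X.coeff n = 0 := by
  constructor
  · rintro ⟨Y, rfl⟩ n hn
    exact qExpand_coeff_of_not_dvd d Y hn
  · intro h
    exact ⟨qContract d X, qExpand_qContract d h⟩

/-- **un-substitution**: a ring homomorphism with values in `R((T^d))` read in the parameter
`t = T^d`. -/
def unsub {F : Type*} [Semiring F] (E : F →+* LaurentSeries R)
    (h : ∀ (y : F) (n : ℤ), ¬ (d : ℤ) ∣ n → (E y).coeff n = 0) : F →+* LaurentSeries R where
  toFun y := qContract d (E y)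
  map_one' := by
    apply Fermat.Agent.P2.helper94.qExpand_injective d
    rw [qExpand_qContract d (h 1), map_one, map_one]
  map_mul' x y := by
    apply Fermat.Agent.P2.helper94.qExpand_injective d
    rw [qExpand_qContract d (h (x * y)), map_mul, map_mul, qExpand_qContract d (h x),
      qExpand_qContract d (h y)]
  map_zero' := by
    apply Fermat.Agent.P2.helper94.qExpand_injective d
    rw [qExpand_qContract d (h 0), map_zero, map_zero]
  map_add' x y := by
    apply Fermat.Agent.P2.helper94.qExpand_injective d
    rw [qExpand_qContract d (h (x + y)), map_add, map_add, qExpand_qContract d (h x),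
      qExpand_qContract d (h y)]

theorem qExpand_unsub {F : Type*} [Semiring F] (E : F →+* LaurentSeries R)
    (h : ∀ (y : F) (n : ℤ), ¬ (d : ℤ) ∣ n → (E y).coeff n = 0) (y : F) :
    qExpand R d (unsub d E h y) = E y :=
  qExpand_qContract d (h y)

theorem unsub_coeff {F : Type*} [Semiring F] (E : F →+* LaurentSeries R)
    (h : ∀ (y : F) (n : ℤ), ¬ (d : ℤ) ∣ n → (E y).coeff n = 0) (y : F) (n : ℤ) :
    (unsub d E h y).coeff n = (E y).coeff ((d : ℤ) * n) := rfl

theorem unsub_injective {F : Type*} [Semiring F] (E : F →+* LaurentSeries R)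
    (h : ∀ (y : F) (n : ℤ), ¬ (d : ℤ) ∣ n → (E y).coeff n = 0) (hE : Function.Injective E) :
    Function.Injective (unsub d E h) := by
  intro x y hxy
  apply hE
  rw [← qExpand_unsub d E h x, ← qExpand_unsub d E h y, hxy]

/-- un-substitution commutes with the change of coefficients -/
theorem coeffMap_qContract {S : Type*} [CommRing S] (f : R →+* S) (X : LaurentSeries R) :
    coeffMap f (qContract d X) = qContract d (coeffMap f X) := by
  ext n
  rw [coeffMap_coeff, qContract_coeff, qContract_coeff, coeffMap_coeff]

/-- contraction and substitution: `(X (t^(d e)))` contracted by `d` is `X (t^e)` -/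
theorem qContract_qExpand_mul (e : ℕ) [NeZero e] [NeZero (d * e)] (X : LaurentSeries R) :
    qContract d (qExpand R (d * e) X) = qExpand R e X := by
  rw [← qExpand_qExpand (N := e) (M := d), qContract_qExpand]

end Contract

section Rot

variable {K : Type*} [Field K]

/-- a series fixed by the rotation by `u`, where `u ^ n = 1` only for `d ∣ n`, has its exponents
divisible by `d`. -/
theorem coeff_eq_zero_of_rot_eq (u : Kˣ) (d : ℕ) (hu : ∀ n : ℤ, u ^ n = 1 → (d : ℤ) ∣ n)
    (X : LaurentSeries K) (hX : Fermat.Agent.P2.helper94.rot u X = X) (n : ℤ)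
    (hn : ¬ (d : ℤ) ∣ n) : X.coeff n = 0 := by
  have h1 := congrArg (fun Z : LaurentSeries K => Z.coeff n) hX
  simp only [Fermat.Agent.P2.helper94.rot_coeff] at h1
  by_contra h0
  have h2 : ((u ^ n : Kˣ) : K) = 1 := by
    have h3 : ((u ^ n : Kˣ) : K) * X.coeff n = 1 * X.coeff n := by rw [h1, one_mul]
    exact mul_right_cancel₀ h0 h3
  exact hn (hu n (Units.ext h2))

/-- rotation and contraction: `rot u` on `K((T^d))` is `rot (u^d)` on `K((t))` -/
theorem qContract_rot (d : ℕ) [NeZero d] (u : Kˣ) (X : LaurentSeries K) :
    qContract d (Fermat.Agent.P2.helper94.rot u X)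
      = Fermat.Agent.P2.helper94.rot (u ^ d) (qContract d X) := by
  ext n
  rw [qContract_coeff, Fermat.Agent.P2.helper94.rot_coeff, Fermat.Agent.P2.helper94.rot_coeff,
    qContract_coeff]
  congr 2
  rw [← zpow_natCast u d, ← zpow_mul]

end Rot

end Fermat.Agent.T3.helper90

end
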