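/-
T3 (S36), [CUSP-Q] (helper87), part 2: widths and the expansions in the LOCAL parameter, at every
coset of every level `M`.

* `wd M I`    : the width of the cusp of the coset `I` (the period of `I` under `T`);
* `dloc M I`  : `M / wd M I`;
* `exLoc M I : F_M → ℚ̄((t))` : the expansion at the coset `I` in the local parameter
  `t = T^(dloc M I)`, `T = q^(1/M)`:  `qExpand (dloc M I) (exLoc M I y) = sigmaFF M I y`.
-/
import Mathlib
import Fermat.Agent.T3.helper87_CuspQMat
import Fermat.Agent.T3.helper90_CuspQTabD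
import Fermat.Agent.T3.helper90_Unsub

set_option autoImplicit false
set_option synthInstance.maxHeartbeats 400000
set_option linter.unusedSectionVars false
set_option linter.unusedVariables false
set_option linter.style.haveILetI false
set_option linter.style.longLine false

noncomputable section

open HahnSeries ModularCurve
open Fermat.Agent.S18.helper19
open Fermat.Agent.S28 (IX rep)
open Fermat.Agent.P2.helper28
open Fermat.Agent.T3.helper23 (sigmaFF sigmaFF_apply toFullC coe_toFullC)
open Fermat.Agent.T3.helper90 (cosetOf unsub qExpand_unsub unsub_coeff)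
open scoped MatrixGroups

namespace Fermat.Agent.T3.helper87

section Width

variable (M : ℕ) [NeZero M]

/-- the root of unity `ζ_M` of `ℚ̄` (the image of `exp(2πi/M)`), as a unit -/
def zK : Kbˣ := zetaBarU SK rK (zetaC_mem_SK M)

theorem orderOf_zK : orderOf (zK M) = M :=
  orderOf_zetaBarU SK rK (zetaC_mem_SK M) (natCast_inv_mem_SK M)

theorem zK_pow : zK M ^ M = 1 := zetaBarU_pow SK rK (zetaC_mem_SK M)

/-- the expansions at the cosets of one `T`-orbit differ by rotations -/
theorem sigmaFF_permT_pow (m : ℕ) (I : IX M) (y : FF M) :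
    sigmaFF M ((permT M ^ m) I) y =
      Fermat.Agent.P2.helper94.rot (zK M ^ m) (sigmaFF M I y) :=
  sigma_pow_rot (conjX M) SK rK (zetaC_mem_SK M) (natCast_inv_mem_SK M) rK_surjective
    (permT M) (zetaU M) rfl (conjX_rot M) m I (toFullC M y)

theorem permT_pow_level : permT M ^ M = 1 :=
  pi_pow_N (conjX M) SK rK (zetaC_mem_SK M) (natCast_inv_mem_SK M) rK_surjective
    (permT M) (zetaU M) rfl (conjX_rot M)

/-- the width of the cusp of the coset `I` -/
def wd (I : IX M) : ℕ := Function.minimalPeriod (permT M) I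

theorem isPeriodicPt_level (I : IX M) : Function.IsPeriodicPt (permT M) M I := by
  show (permT M)^[M] I = I
  rw [Equiv.Perm.iterate_eq_pow, permT_pow_level]
  rfl

theorem wd_dvd (I : IX M) : wd M I ∣ M :=
  (isPeriodicPt_level M I).minimalPeriod_dvd

theorem wd_pos (I : IX M) : 0 < wd M I :=
  Nat.pos_of_dvd_of_pos (wd_dvd M I) (Nat.pos_of_ne_zero (NeZero.ne M))

theorem permT_pow_wd (I : IX M) : (permT M ^ wd M I) I = I := by
  have h := Function.isPeriodicPt_minimalPeriod (permT M) I
  rw [← Equiv.Perm.iterate_eq_pow]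
  exact h

/-- `permT ^ n` fixes `I` iff the width divides `n` -/
theorem permT_pow_eq_iff (I : IX M) (n : ℕ) : (permT M ^ n) I = I ↔ wd M I ∣ n := by
  rw [← Equiv.Perm.iterate_eq_pow]
  exact Function.isPeriodicPt_iff_minimalPeriod_dvd

/-- the exponent of the local parameter: `t = T^(dloc M I)` -/
def dloc (I : IX M) : ℕ := M / wd M I

theorem dloc_mul_wd (I : IX M) : dloc M I * wd M I = M :=
  Nat.div_mul_cancel (wd_dvd M I)

theorem dloc_pos (I : IX M) : 0 < dloc M I :=
  Nat.div_pos (Nat.le_of_dvd (Nat.pos_of_ne_zero (NeZero.ne M)) (wd_dvd M I)) (wd_pos M I)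

instance instNeZeroDloc (I : IX M) : NeZero (dloc M I) := ⟨(dloc_pos M I).ne'⟩

/-- the exponents of the expansion at `I` in `T = q^(1/M)` are divisible by `dloc M I` -/
theorem coeff_sigmaFF_of_not_dvd (I : IX M) (y : FF M) (n : ℤ) (hn : ¬ (dloc M I : ℤ) ∣ n) :
    (sigmaFF M I y).coeff n = 0 := by
  refine Fermat.Agent.T3.helper90.coeff_eq_zero_of_rot_eq (zK M ^ wd M I) (dloc M I) ?_ _ ?_ n hn
  · intro k hk
    rw [← zpow_natCast, ← zpow_mul] at hk
    have h1 := orderOf_dvd_iff_zpow_eq_one.mpr hk
    rw [orderOf_zK] at h1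
    have hM : ((M : ℕ) : ℤ) = (dloc M I : ℤ) * (wd M I : ℤ) := by
      exact_mod_cast (dloc_mul_wd M I).symm
    rw [hM, mul_comm (dloc M I : ℤ)] at h1
    have hw : ((wd M I : ℕ) : ℤ) ≠ 0 := by exact_mod_cast (wd_pos M I).ne'
    exact (mul_dvd_mul_iff_left hw).mp h1
  · rw [← sigmaFF_permT_pow, permT_pow_wd]

/-- **the expansion at the coset `I` in the local parameter** -/
def exLoc (I : IX M) : FF M →+* LaurentSeries Kb :=
  unsub (dloc M I) (sigmaFF M I) (coeff_sigmaFF_of_not_dvd M I)

theorem qExpand_exLoc (I : IX M) (y : FF M) :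
    qExpand Kb (dloc M I) (exLoc M I y) = sigmaFF M I y :=
  qExpand_unsub (dloc M I) (sigmaFF M I) (coeff_sigmaFF_of_not_dvd M I) y

theorem exLoc_coeff (I : IX M) (y : FF M) (n : ℤ) :
    (exLoc M I y).coeff n = (sigmaFF M I y).coeff ((dloc M I : ℤ) * n) := rfl

theorem exLoc_algebraMap (I : IX M) (c : Kb) :
    exLoc M I (algebraMap Kb (FF M) c) = algebraMap Kb (LaurentSeries Kb) c := by
  apply Fermat.Agent.P2.helper94.qExpand_injective (dloc M I)
  rw [qExpand_exLoc, Fermat.Agent.T3.helper23.sigmaFF_algebraMap,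
    Fermat.Agent.S28.helper93.algebraMap_laurent_eq_C, qExpand_C]

/-- the width is the cardinality of the `T`-orbit -/
theorem wd_eq_card (I : IX M) :
    wd M I = Nat.card (MulAction.orbit (Subgroup.zpowers (permT M)) I) := by
  haveI : Fintype ↑(MulAction.orbit (↥(Subgroup.zpowers (permT M))) I) := Fintype.ofFinite _
  have h := MulAction.minimalPeriod_eq_card (a := permT M) (b := I)
  rw [Nat.card_eq_fintype_card]
  exact h

end Width

end Fermat.Agent.T3.helper87

end
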