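/-
T3 (S36), [CUSP-Q] (helper87), part 3: cosets, `T`-orbits and widths in terms of matrices.

* `cosetOf_eq_iff`      : `cosetOf M γ₁ = cosetOf M γ₂ ↔ M ∣ γ₂₁₀ γ₁₁₁ - γ₂₁₁ γ₁₁₀`;
* `permT_zpow_cosetOf`  : `permT ^ z` moves the coset of `γ` to the coset of `γ T^z`;
* `mem_orbT_iff`        : the `T`-orbit criterion
                          `∃ z, M ∣ γ₂₁₀ γ₁₁₁ - γ₂₁₁ γ₁₁₀ + z γ₁₁₀ γ₂₁₀`;
* `wd_dvd_iff`          : `wd M (cosetOf M γ) ∣ n ↔ M ∣ n γ₁₀²`;
* `Cusp M`, `cuspOf`, `crep` : the cusps of level `M` (the `T`-orbits of cosets) and their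
                          chosen representatives.
-/
import Mathlib
import Fermat.Agent.T3.helper87_CuspQLoc

set_option autoImplicit false
set_option synthInstance.maxHeartbeats 400000
set_option linter.unusedSectionVars false
set_option linter.unusedVariables false
set_option linter.style.haveILetI false
set_option linter.style.longLine false

noncomputable section

open HahnSeries ModularCurve
open Fermat.Agent.S18.helper19
open Fermat.Agent.S28 (IX rep)
open Fermat.Agent.P2.helper28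
open Fermat.Agent.T3.helper23 (sigmaFF sigmaFF_apply)
open Fermat.Agent.T3.helper90 (cosetOf cosetOf_rep)
open Fermat.Agent.S24.helper37 (mem_Gamma0_iff_dvd)
open scoped MatrixGroups
open CongruenceSubgroup

namespace Fermat.Agent.T3.helper87

section Cos

variable (M : ℕ)

theorem cosetOf_eq_iff_mem (γ₁ γ₂ : SL(2, ℤ)) :
    cosetOf M γ₁ = cosetOf M γ₂ ↔ γ₂ * γ₁⁻¹ ∈ Gamma0 M := by
  unfold cosetOf
  rw [QuotientGroup.eq, inv_inv]
  constructor
  · intro h
    have := inv_mem h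
    rwa [mul_inv_rev, inv_inv] at this
  · intro h
    have := inv_mem h
    rwa [mul_inv_rev, inv_inv] at this

/-- equality of cosets in terms of the bottom rows -/
theorem cosetOf_eq_iff (γ₁ γ₂ : SL(2, ℤ)) :
    cosetOf M γ₁ = cosetOf M γ₂ ↔ (M : ℤ) ∣ γ₂ 1 0 * γ₁ 1 1 - γ₂ 1 1 * γ₁ 1 0 := by
  rw [cosetOf_eq_iff_mem, mem_Gamma0_iff_dvd, sl_mul_inv_one_zero]

theorem cosetOf_mul_of_mem (h γ : SL(2, ℤ)) (hh : h ∈ Gamma0 M) :
    cosetOf M (h * γ) = cosetOf M γ := by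
  rw [eq_comm, cosetOf_eq_iff_mem, mul_assoc, mul_inv_cancel, mul_one]
  exact hh

theorem T_zpow_one_zero (z : ℤ) : (ModularGroup.T ^ z) 1 0 = 0 := by
  have h := ModularGroup.coe_T_zpow z
  have := congrFun (congrFun h 1) 0
  simpa using this

theorem T_zpow_one_one (z : ℤ) : (ModularGroup.T ^ z) 1 1 = 1 := by
  have h := ModularGroup.coe_T_zpow z
  have := congrFun (congrFun h 1) 1
  simpa using this

theorem T_zpow_zero_zero (z : ℤ) : (ModularGroup.T ^ z) 0 0 = 1 := by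
  have h := ModularGroup.coe_T_zpow z
  have := congrFun (congrFun h 0) 0
  simpa using this

theorem T_zpow_zero_one (z : ℤ) : (ModularGroup.T ^ z) 0 1 = z := by
  have h := ModularGroup.coe_T_zpow z
  have := congrFun (congrFun h 0) 1
  simpa using this

theorem mul_T_zpow_one_zero (γ : SL(2, ℤ)) (z : ℤ) : (γ * ModularGroup.T ^ z) 1 0 = γ 1 0 := by
  rw [sl_mul_one_zero, T_zpow_zero_zero, T_zpow_one_zero]
  ring

theorem mul_T_zpow_one_one (γ : SL(2, ℤ)) (z : ℤ) :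
    (γ * ModularGroup.T ^ z) 1 1 = γ 1 1 + z * γ 1 0 := by
  rw [sl_mul_one_one, T_zpow_zero_one, T_zpow_one_one]
  ring

/-- `permT ^ z` moves the coset of `γ` to the coset of `γ T^z` -/
theorem permT_zpow_cosetOf (γ : SL(2, ℤ)) (z : ℤ) :
    (permT M ^ z) (cosetOf M γ) = cosetOf M (γ * ModularGroup.T ^ z) := by
  have h1 : permT M ^ z = MulAction.toPermHom SL(2, ℤ) (IX M) ((ModularGroup.T)⁻¹ ^ z) := by
    rw [map_zpow]
    rfl
  rw [h1]
  show ((ModularGroup.T)⁻¹ ^ z) • cosetOf M γ = _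
  unfold cosetOf
  rw [mul_inv_rev, ← inv_zpow]
  rfl

theorem permT_pow_cosetOf (γ : SL(2, ℤ)) (n : ℕ) :
    (permT M ^ n) (cosetOf M γ) = cosetOf M (γ * ModularGroup.T ^ (n : ℤ)) := by
  rw [← permT_zpow_cosetOf, zpow_natCast]

/-- the `T`-orbit criterion on matrices -/
theorem permT_zpow_cosetOf_eq_iff (γ₁ γ₂ : SL(2, ℤ)) (z : ℤ) :
    (permT M ^ z) (cosetOf M γ₁) = cosetOf M γ₂ ↔
      (M : ℤ) ∣ γ₂ 1 0 * γ₁ 1 1 - γ₂ 1 1 * γ₁ 1 0 + z * (γ₁ 1 0 * γ₂ 1 0) := by
  rw [permT_zpow_cosetOf, cosetOf_eq_iff, mul_T_zpow_one_zero, mul_T_zpow_one_one]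
  constructor <;> intro h <;> convert h using 1 <;> ring

/-- membership in the `T`-orbit -/
theorem mem_orbit_iff_zpow (I I' : IX M) :
    I' ∈ MulAction.orbit (Subgroup.zpowers (permT M)) I ↔ ∃ z : ℤ, (permT M ^ z) I = I' := by
  rw [MulAction.mem_orbit_iff]
  constructor
  · rintro ⟨⟨x, hx⟩, h⟩
    obtain ⟨z, rfl⟩ := Subgroup.mem_zpowers_iff.mp hx
    exact ⟨z, h⟩
  · rintro ⟨z, h⟩
    exact ⟨⟨permT M ^ z, Subgroup.zpow_mem_zpowers _ z⟩, h⟩

theorem mem_orbT_iff (γ₁ γ₂ : SL(2, ℤ)) :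
    cosetOf M γ₂ ∈ MulAction.orbit (Subgroup.zpowers (permT M)) (cosetOf M γ₁) ↔
      ∃ z : ℤ, (M : ℤ) ∣ γ₂ 1 0 * γ₁ 1 1 - γ₂ 1 1 * γ₁ 1 0 + z * (γ₁ 1 0 * γ₂ 1 0) := by
  rw [mem_orbit_iff_zpow]
  exact exists_congr fun z => permT_zpow_cosetOf_eq_iff M γ₁ γ₂ z

variable [NeZero M]

/-- the width in terms of the lower left entry -/
theorem wd_dvd_iff (γ : SL(2, ℤ)) (n : ℕ) :
    wd M (cosetOf M γ) ∣ n ↔ (M : ℤ) ∣ (n : ℤ) * (γ 1 0) ^ 2 := by
  rw [← permT_pow_eq_iff, ← zpow_natCast, permT_zpow_cosetOf_eq_iff]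
  constructor <;> intro h <;> convert h using 1 <;> ring

end Cos

/-! ### Cusps -/

section Cusp

variable (M : ℕ)

/-- the cusps of level `M`: the `T`-orbits of cosets -/
abbrev Cusp : Type := MulAction.orbitRel.Quotient (Subgroup.zpowers (permT M)) (IX M)

/-- the cusp of a coset -/
def cuspOf (I : IX M) : Cusp M := Quotient.mk'' I

/-- the chosen coset of a cusp -/
def crep (c : Cusp M) : IX M := Quotient.out c

theorem cuspOf_crep (c : Cusp M) : cuspOf M (crep M c) = c := Quotient.out_eq' c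

theorem cuspOf_eq_iff (I I' : IX M) :
    cuspOf M I = cuspOf M I' ↔ I ∈ MulAction.orbit (Subgroup.zpowers (permT M)) I' := by
  unfold cuspOf
  rw [Quotient.eq'']
  exact MulAction.orbitRel_apply

theorem cuspOf_eq_iff_zpow (I I' : IX M) :
    cuspOf M I = cuspOf M I' ↔ ∃ z : ℤ, (permT M ^ z) I' = I := by
  rw [cuspOf_eq_iff, mem_orbit_iff_zpow]

theorem crep_cuspOf_mem (I : IX M) :
    crep M (cuspOf M I) ∈ MulAction.orbit (Subgroup.zpowers (permT M)) I := by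
  rw [← cuspOf_eq_iff, cuspOf_crep]

/-- distinct cusps have representatives in distinct orbits -/
theorem crep_inj_of_mem (c c' : Cusp M)
    (h : crep M c' ∈ MulAction.orbit (Subgroup.zpowers (permT M)) (crep M c)) : c' = c := by
  rw [← cuspOf_eq_iff, cuspOf_crep, cuspOf_crep] at h
  exact h

/-- the cusp of a matrix -/
theorem cuspOf_cosetOf_eq_iff (γ₁ γ₂ : SL(2, ℤ)) :
    cuspOf M (cosetOf M γ₂) = cuspOf M (cosetOf M γ₁) ↔
      ∃ z : ℤ, (M : ℤ) ∣ γ₂ 1 0 * γ₁ 1 1 - γ₂ 1 1 * γ₁ 1 0 + z * (γ₁ 1 0 * γ₂ 1 0) := by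
  rw [cuspOf_eq_iff, mem_orbT_iff]

instance instFiniteCusp [NeZero M] : Finite (Cusp M) := by
  haveI : Finite (IX M) := Fermat.Agent.P2.helper28.instFiniteIX M
  exact Quotient.finite _

instance instFintypeCusp [NeZero M] : Fintype (Cusp M) := Fintype.ofFinite _

instance instDecEqCusp : DecidableEq (Cusp M) := Classical.decEq _

instance instNonemptyCusp : Nonempty (Cusp M) := ⟨cuspOf M (Fermat.Agent.S28.i0 M)⟩

variable [NeZero M]

/-- the width is constant on the `T`-orbits -/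
theorem wd_permT_zpow (I : IX M) (z : ℤ) : wd M ((permT M ^ z) I) = wd M I := by
  apply Nat.dvd_antisymm
  · rw [← permT_pow_eq_iff]
    have h : (permT M ^ wd M I) ((permT M ^ z) I) = (permT M ^ z) ((permT M ^ wd M I) I) := by
      rw [← Equiv.Perm.mul_apply, ← Equiv.Perm.mul_apply, ← zpow_natCast, ← zpow_add,
        ← zpow_add, add_comm]
    rw [h, permT_pow_wd]
  · rw [← permT_pow_eq_iff]
    have h : (permT M ^ z) ((permT M ^ wd M ((permT M ^ z) I)) I) = (permT M ^ z) I := by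
      have h2 := permT_pow_wd M ((permT M ^ z) I)
      rw [← Equiv.Perm.mul_apply, ← zpow_natCast, ← zpow_add, add_comm, zpow_add,
        Equiv.Perm.mul_apply, zpow_natCast] at h2
      exact h2
    exact (permT M ^ z).injective h

theorem wd_eq_of_cuspOf_eq {I I' : IX M} (h : cuspOf M I = cuspOf M I') : wd M I = wd M I' := by
  obtain ⟨z, rfl⟩ := (cuspOf_eq_iff_zpow M I I').mp h
  exact wd_permT_zpow M I' z

theorem dloc_eq_of_cuspOf_eq {I I' : IX M} (h : cuspOf M I = cuspOf M I') :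
    dloc M I = dloc M I' := by
  unfold dloc
  rw [wd_eq_of_cuspOf_eq M h]

end Cusp

end Fermat.Agent.T3.helper87

end
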