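/-
T3 (S36), [CUSP-Q] (helper87), part 4: THE FAMILY of expansions of `F_{N q q}` at all cusps.

`q` a prime not dividing `N`, `ζ` a primitive `q`-th root of unity.

* index set          : `Cusp N × Fin 3`  (cusp of level `N`, type `∞ / 0 / mid`);
* `gQ c i k`         : a matrix of type `i` (middle index `k`) in the right coset `Γ₀(N) g_c`;
* `partner γ i e k`  : its Hermite partner for `dgF e`; `pA, pD, pB, pM` the Hermite data;
* `raw_table_of_isTy`: the raw table at a matrix of type `i`;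
* `kmid c ζ`         : the middle index with twist exactly `ζ` in the local parameter;
* `IQ ζ J`, `ex3c ζ J = exLoc (N q q) (IQ ζ J)` : the expansions at level `N q q`
                       (LOCAL parameter);
* `ENc c = exLoc N (crep N c)` : the expansions at level `N` (LOCAL parameter);
* `kap ζ i e c`      : the cusp of level `N` under the index `(c, i)` along `dgF e`.
-/
import Mathlib
import Fermat.Agent.T3.helper87_CuspQCos

set_option autoImplicit false
set_option synthInstance.maxHeartbeats 400000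
set_option linter.unusedSectionVars false
set_option linter.unusedVariables false
set_option linter.style.haveILetI false
set_option linter.style.longLine false

noncomputable section

open HahnSeries ModularCurve
open Fermat.Agent.S18.helper19
open Fermat.Agent.S28 (IX rep)
open Fermat.Agent.P2.helper28
open Fermat.Agent.T3.helper23 (sigmaFF sigmaFF_apply)
open Fermat.Agent.T3.helper90 (cosetOf cosetOf_rep uK iotaK_uK)
open Fermat.Agent.T3.helper74 (dgF sc3)
open Fermat.Agent.S24.helper37 (mem_Gamma0_iff_dvd det_eq_one')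
open scoped MatrixGroups
open CongruenceSubgroup

namespace Fermat.Agent.T3.helper87

/-! ### Types of matrices -/

section Types

variable (N q : ℕ)

/-- the target bottom row `(x, y)` of the type `i` : `(0,1)`, `(1,0)`, `(q, N k)` -/
def tgtX (i : Fin 3) : ℤ := if i = 0 then 0 else if i = 1 then 1 else (q : ℤ)

/-- the target bottom row `(x, y)` of the type `i` : `(0,1)`, `(1,0)`, `(q, N k)` -/
def tgtY (i : Fin 3) (k : ℤ) : ℤ := if i = 0 then 1 else if i = 1 then 0 else (N : ℤ) * k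

/-- `γ` has type `i` (with middle index `k`) -/
def IsTy (i : Fin 3) (k : ℤ) (γ : SL(2, ℤ)) : Prop :=
  ((q : ℤ) * q) ∣ γ 1 0 * tgtY N i k - γ 1 1 * tgtX q i

theorem isTy_zero_iff (k : ℤ) (γ : SL(2, ℤ)) : IsTy N q 0 k γ ↔ ((q : ℤ) * q) ∣ γ 1 0 := by
  unfold IsTy tgtX tgtY
  simp

theorem isTy_one_iff (k : ℤ) (γ : SL(2, ℤ)) : IsTy N q 1 k γ ↔ ((q : ℤ) * q) ∣ γ 1 1 := by
  unfold IsTy tgtX tgtY
  simp

theorem isTy_two_iff (k : ℤ) (γ : SL(2, ℤ)) :
    IsTy N q 2 k γ ↔ ((q : ℤ) * q) ∣ γ 1 0 * ((N : ℤ) * k) - γ 1 1 * q := by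
  unfold IsTy tgtX tgtY
  simp

variable {N q}

theorem not_dvd_tgt (hq : q.Prime) (hqN : ¬ q ∣ N) (i : Fin 3) {k : ℤ} (hk : ¬ (q : ℤ) ∣ k) :
    ¬ (q : ℤ) ∣ tgtX q i ∨ ¬ (q : ℤ) ∣ tgtY N i k := by
  have hqp : Prime (q : ℤ) := Nat.prime_iff_prime_int.mp hq
  have h1 : ¬ (q : ℤ) ∣ 1 := fun h => hqp.not_isUnit (isUnit_of_dvd_one h)
  unfold tgtX tgtY
  by_cases h0 : i = 0
  · right
    rw [if_pos h0]
    exact h1
  · by_cases h1' : i = 1
    · left
      rw [if_neg h0, if_pos h1']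
      exact h1
    · right
      rw [if_neg h0, if_neg h1']
      intro h
      rcases hqp.dvd_or_dvd h with h2 | h2
      · exact hqN (Int.natCast_dvd_natCast.mp h2)
      · exact hk h2

/-- every right coset of `Γ₀(N)` contains matrices of every type -/
theorem exists_isTy (hq : q.Prime) (hqN : ¬ q ∣ N) (g : SL(2, ℤ)) (i : Fin 3) {k : ℤ}
    (hk : ¬ (q : ℤ) ∣ k) : ∃ h : SL(2, ℤ), h ∈ Gamma0 N ∧ IsTy N q i k (h * g) :=
  exists_sel N q hq hqN g (tgtX q i) (tgtY N i k) (not_dvd_tgt hq hqN i hk)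

end Types

/-! ### Hermite data -/

section Data

variable (N q : ℕ)

/-- the upper left entry `a` of the Hermite form -/
def pA (i e : Fin 3) : ℕ :=
  if i = 0 then q ^ (e : ℕ) else if i = 1 then 1 else (if e = 0 then 1 else q)

/-- the lower right entry `D` of the Hermite form -/
def pD (i e : Fin 3) : ℕ :=
  if i = 0 then 1 else if i = 1 then q ^ (e : ℕ) else (if e = 2 then q else 1)

/-- the upper right entry `b` of the Hermite form -/
def pB (i e : Fin 3) (k : ℤ) : ℤ := if i = 2 ∧ e = 2 then (N : ℤ) * k else 0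

/-- the exponent of the local parameters: `q²`, `1`, `q²` -/
def tq (i : Fin 3) : ℕ := if i = 1 then 1 else q * q

/-- the exponent `m = q² a / D` of the raw table -/
def pM (i e : Fin 3) : ℕ := tq q i * sc3 q i e

variable {q}

theorem pA_mul_pD (i e : Fin 3) : pA q i e * pD q i e = q ^ (e : ℕ) := by
  rcases Fermat.Agent.T3.helper74.fin3_cases i with rfl | rfl | rfl <;>
    rcases Fermat.Agent.T3.helper74.fin3_cases e with rfl | rfl | rfl
  · show q ^ 0 * 1 = q ^ 0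
    ring
  · show q ^ 1 * 1 = q ^ 1
    ring
  · show q ^ 2 * 1 = q ^ 2
    ring
  · show 1 * q ^ 0 = q ^ 0
    ring
  · show 1 * q ^ 1 = q ^ 1
    ring
  · show 1 * q ^ 2 = q ^ 2
    ring
  · show 1 * 1 = q ^ 0
    ring
  · show q * 1 = q ^ 1
    ring
  · show q * q = q ^ 2
    ring

theorem pM_mul_pD (i e : Fin 3) : pM q i e * pD q i e = q * q * pA q i e := by
  rcases Fermat.Agent.T3.helper74.fin3_cases i with rfl | rfl | rfl <;>
    rcases Fermat.Agent.T3.helper74.fin3_cases e with rfl | rfl | rfl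
  · show q * q * 1 * 1 = q * q * q ^ 0
    ring
  · show q * q * q * 1 = q * q * q ^ 1
    ring
  · show q * q * (q * q) * 1 = q * q * q ^ 2
    ring
  · show 1 * (q * q) * q ^ 0 = q * q * 1
    ring
  · show 1 * q * q ^ 1 = q * q * 1
    ring
  · show 1 * 1 * q ^ 2 = q * q * 1
    ring
  · show q * q * 1 * 1 = q * q * 1
    ring
  · show q * q * q * 1 = q * q * q
    ring
  · show q * q * 1 * q = q * q * q
    ring

theorem pA_pos [NeZero q] (i e : Fin 3) : 0 < pA q i e := by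
  have hq0 : 0 < q := Nat.pos_of_ne_zero (NeZero.ne q)
  have h := pA_mul_pD (q := q) i e
  have h2 : 0 < q ^ (e : ℕ) := pow_pos hq0 _
  rw [← h] at h2
  exact Nat.pos_of_mul_pos_right h2

theorem pD_pos [NeZero q] (i e : Fin 3) : 0 < pD q i e := by
  have hq0 : 0 < q := Nat.pos_of_ne_zero (NeZero.ne q)
  have h := pA_mul_pD (q := q) i e
  have h2 : 0 < q ^ (e : ℕ) := pow_pos hq0 _
  rw [← h] at h2
  exact Nat.pos_of_mul_pos_left h2

theorem pM_pos [NeZero q] (i e : Fin 3) : 0 < pM q i e := by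
  have hq0 : 0 < q := Nat.pos_of_ne_zero (NeZero.ne q)
  have h := pM_mul_pD (q := q) i e
  have h2 : 0 < q * q * pA q i e := Nat.mul_pos (Nat.mul_pos hq0 hq0) (pA_pos i e)
  rw [← h] at h2
  exact Nat.pos_of_mul_pos_right h2

theorem tq_pos [NeZero q] (i : Fin 3) : 0 < tq q i := by
  have hq0 : 0 < q := Nat.pos_of_ne_zero (NeZero.ne q)
  unfold tq
  split_ifs
  · exact Nat.one_pos
  · exact Nat.mul_pos hq0 hq0

instance instNeZeroPM [NeZero q] (i e : Fin 3) : NeZero (pM q i e) := ⟨(pM_pos i e).ne'⟩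

instance instNeZeroTq [NeZero q] (i : Fin 3) : NeZero (tq q i) := ⟨(tq_pos i).ne'⟩

theorem pDN_pos {N : ℕ} [NeZero q] [NeZero N] (i e : Fin 3) : 0 < pD q i e * N :=
  Nat.mul_pos (pD_pos i e) (Nat.pos_of_ne_zero (NeZero.ne N))

theorem dvd_pB (i e : Fin 3) (k : ℤ) : (N : ℤ) ∣ pB N i e k := by
  unfold pB
  split_ifs
  · exact dvd_mul_right _ _
  · exact dvd_zero _

variable (q)

/-- the lower left entry of the Hermite partner -/
def pC (γ : SL(2, ℤ)) (i e : Fin 3) : ℤ := γ 1 0 / (pA q i e : ℤ)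

/-- the lower right entry of the Hermite partner -/
def pE (γ : SL(2, ℤ)) (i e : Fin 3) (k : ℤ) : ℤ :=
  (γ 1 1 - pC q γ i e * pB N i e k) / (pD q i e : ℤ)

/-- the condition for the existence of the Hermite partner -/
def PartOK (γ : SL(2, ℤ)) (i e : Fin 3) (k : ℤ) : Prop :=
  γ 1 0 = pC q γ i e * (pA q i e : ℤ) ∧
    γ 1 1 = pC q γ i e * pB N i e k + pE N q γ i e k * (pD q i e : ℤ)

open Classical in
/-- **the Hermite partner** of a matrix of type `i` for the degeneracy map `dgF e` -/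
def partner (γ : SL(2, ℤ)) (i e : Fin 3) (k : ℤ) : SL(2, ℤ) :=
  if h : PartOK N q γ i e k then
    hPart γ (pA q i e : ℤ) (pD q i e : ℤ) (pB N i e k) (pC q γ i e) (pE N q γ i e k) h.1 h.2
  else 1

variable {N q}

theorem partner_eq {γ : SL(2, ℤ)} {i e : Fin 3} {k : ℤ} (h : PartOK N q γ i e k) :
    partner N q γ i e k =
      hPart γ (pA q i e : ℤ) (pD q i e : ℤ) (pB N i e k) (pC q γ i e) (pE N q γ i e k)
        h.1 h.2 := by
  unfold partner
  rw [dif_pos h]

theorem partner_one_zero {γ : SL(2, ℤ)} {i e : Fin 3} {k : ℤ} (h : PartOK N q γ i e k) :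
    partner N q γ i e k 1 0 = pC q γ i e := by
  rw [partner_eq h]
  rfl

theorem partner_one_one {γ : SL(2, ℤ)} {i e : Fin 3} {k : ℤ} (h : PartOK N q γ i e k) :
    partner N q γ i e k 1 1 = pE N q γ i e k := by
  rw [partner_eq h]
  rfl

/-- a prime dividing the lower left entry of a matrix of middle type -/
theorem dvd_of_isTy_two (hq : q.Prime) (hqN : ¬ q ∣ N) {k : ℤ} (hk : ¬ (q : ℤ) ∣ k)
    {γ : SL(2, ℤ)} (h : IsTy N q 2 k γ) : (q : ℤ) ∣ γ 1 0 := by
  have hqp : Prime (q : ℤ) := Nat.prime_iff_prime_int.mp hq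
  rw [isTy_two_iff] at h
  have h1 : (q : ℤ) ∣ γ 1 0 * ((N : ℤ) * k) - γ 1 1 * q := (dvd_mul_right _ _).trans h
  have h2 : (q : ℤ) ∣ γ 1 0 * ((N : ℤ) * k) := by
    have := dvd_add h1 (dvd_mul_left (q : ℤ) (γ 1 1))
    simpa using this
  rcases hqp.dvd_or_dvd h2 with h3 | h3
  · exact h3
  · rcases hqp.dvd_or_dvd h3 with h4 | h4
    · exact absurd (Int.natCast_dvd_natCast.mp h4) hqN
    · exact absurd h4 hk

/-- a matrix of type `i` has Hermite partners for the three degeneracy maps -/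
theorem partOK_of_isTy (hq : q.Prime) (hqN : ¬ q ∣ N) {k : ℤ} (hk : ¬ (q : ℤ) ∣ k)
    {γ : SL(2, ℤ)} {i : Fin 3} (h : IsTy N q i k γ) (e : Fin 3) : PartOK N q γ i e k := by
  have hq0 : (q : ℤ) ≠ 0 := by exact_mod_cast hq.ne_zero
  have hdiv : ∀ {a b : ℤ}, a ∣ b → b = b / a * a := fun h => (Int.ediv_mul_cancel h).symm
  unfold PartOK pE pC
  rcases Fermat.Agent.T3.helper74.fin3_cases i with rfl | rfl | rfl
  · -- type `∞`
    have h' : ((q : ℤ) * q) ∣ γ 1 0 := (isTy_zero_iff N q k γ).mp h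
    have hA : ((pA q 0 e : ℕ) : ℤ) ∣ γ 1 0 := by
      rcases Fermat.Agent.T3.helper74.fin3_cases e with rfl | rfl | rfl
      · show (((q ^ 0 : ℕ) : ℕ) : ℤ) ∣ γ 1 0
        simp
      · show (((q ^ 1 : ℕ) : ℕ) : ℤ) ∣ γ 1 0
        rw [pow_one]
        exact (dvd_mul_right (q : ℤ) q).trans h'
      · show (((q ^ 2 : ℕ) : ℕ) : ℤ) ∣ γ 1 0
        rw [sq]
        push_cast
        exact h'
    have hB : pB N 0 e k = 0 := by simp [pB]
    have hD : ((pD q 0 e : ℕ) : ℤ) = 1 := by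
      show (((1 : ℕ) : ℕ) : ℤ) = 1
      simp
    refine ⟨hdiv hA, ?_⟩
    show γ 1 1 = _
    rw [show pB N (0 : Fin 3) e k = 0 from hB, show ((pD q (0 : Fin 3) e : ℕ) : ℤ) = 1 from hD]
    simp
  · -- type `0`
    have h' : ((q : ℤ) * q) ∣ γ 1 1 := (isTy_one_iff N q k γ).mp h
    have hA : ((pA q 1 e : ℕ) : ℤ) = 1 := by
      show (((1 : ℕ) : ℕ) : ℤ) = 1
      simp
    have hB : pB N 1 e k = 0 := by simp [pB]
    have hD : ((pD q 1 e : ℕ) : ℤ) ∣ γ 1 1 := by
      rcases Fermat.Agent.T3.helper74.fin3_cases e with rfl | rfl | rfl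
      · show (((q ^ 0 : ℕ) : ℕ) : ℤ) ∣ γ 1 1
        simp
      · show (((q ^ 1 : ℕ) : ℕ) : ℤ) ∣ γ 1 1
        rw [pow_one]
        exact (dvd_mul_right (q : ℤ) q).trans h'
      · show (((q ^ 2 : ℕ) : ℕ) : ℤ) ∣ γ 1 1
        rw [sq]
        push_cast
        exact h'
    refine ⟨?_, ?_⟩
    · show γ 1 0 = _
      rw [show ((pA q (1 : Fin 3) e : ℕ) : ℤ) = 1 from hA]
      simp
    · show γ 1 1 = _
      rw [show pB N (1 : Fin 3) e k = 0 from hB]
      simp only [mul_zero, sub_zero, zero_add]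
      exact hdiv hD
  · -- middle type
    have hqc : (q : ℤ) ∣ γ 1 0 := dvd_of_isTy_two hq hqN hk h
    have h' := (isTy_two_iff N q k γ).mp h
    rcases Fermat.Agent.T3.helper74.fin3_cases e with rfl | rfl | rfl
    · refine ⟨?_, ?_⟩
      · show γ 1 0 = γ 1 0 / ((pA q 2 0 : ℕ) : ℤ) * ((pA q 2 0 : ℕ) : ℤ)
        simp [pA]
      · show γ 1 1 = γ 1 0 / ((pA q 2 0 : ℕ) : ℤ) * pB N 2 0 k +
          (γ 1 1 - γ 1 0 / ((pA q 2 0 : ℕ) : ℤ) * pB N 2 0 k) / ((pD q 2 0 : ℕ) : ℤ) *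
            ((pD q 2 0 : ℕ) : ℤ)
        simp [pA, pB, pD]
    · refine ⟨?_, ?_⟩
      · show γ 1 0 = γ 1 0 / ((pA q 2 1 : ℕ) : ℤ) * ((pA q 2 1 : ℕ) : ℤ)
        have : ((pA q 2 1 : ℕ) : ℤ) = q := by simp [pA]
        rw [this]
        exact hdiv hqc
      · show γ 1 1 = γ 1 0 / ((pA q 2 1 : ℕ) : ℤ) * pB N 2 1 k +
          (γ 1 1 - γ 1 0 / ((pA q 2 1 : ℕ) : ℤ) * pB N 2 1 k) / ((pD q 2 1 : ℕ) : ℤ) *
            ((pD q 2 1 : ℕ) : ℤ)
        simp [pB, pD]
    · have hA : ((pA q 2 2 : ℕ) : ℤ) = q := by simp [pA]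
      have hD : ((pD q 2 2 : ℕ) : ℤ) = q := by simp [pD]
      have hB : pB N 2 2 k = (N : ℤ) * k := by simp [pB]
      obtain ⟨c', hc'⟩ := hqc
      have hc'' : γ 1 0 / (q : ℤ) = c' := by
        rw [hc', Int.mul_ediv_cancel_left _ hq0]
      have hd : (q : ℤ) ∣ γ 1 1 - c' * ((N : ℤ) * k) := by
        rw [hc'] at h'
        have e1 : (q : ℤ) * c' * ((N : ℤ) * k) - γ 1 1 * q
            = (q : ℤ) * (-(γ 1 1 - c' * ((N : ℤ) * k))) := by ring
        rw [e1] at h'
        have := (mul_dvd_mul_iff_left hq0).mp h'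
        exact (dvd_neg.mp this)
      refine ⟨?_, ?_⟩
      · show γ 1 0 = γ 1 0 / ((pA q 2 2 : ℕ) : ℤ) * ((pA q 2 2 : ℕ) : ℤ)
        rw [hA, hc'', hc']
        ring
      · show γ 1 1 = γ 1 0 / ((pA q 2 2 : ℕ) : ℤ) * pB N 2 2 k +
          (γ 1 1 - γ 1 0 / ((pA q 2 2 : ℕ) : ℤ) * pB N 2 2 k) / ((pD q 2 2 : ℕ) : ℤ) *
            ((pD q 2 2 : ℕ) : ℤ)
        rw [hA, hD, hB, hc'', Int.ediv_mul_cancel hd]
        ring

end Data

/-! ### The raw table at a matrix of type `i` -/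

section Raw

variable {N q : ℕ} [NeZero N] [NeZero q]

/-- **the raw table at a matrix of type `i`**: the expansion of `y(q^e τ)` at `γ`. -/
theorem raw_table_of_partOK {γ : SL(2, ℤ)} {i e : Fin 3} {k : ℤ} (h : PartOK N q γ i e k)
    (y : FF N) :
    sigmaFF (N * q * q) (cosetOf (N * q * q) γ) (dgF N q e y) =
      qExpand Kb (pM q i e) (Fermat.Agent.P2.helper94.rot
        (uK (pD q i e * N) (pDN_pos i e) (pB N i e k))
        (sigmaFF N (cosetOf N (partner N q γ i e k)) y)) := by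
  have hAD : (((q ^ (e : ℕ) : ℕ) : ℕ) : ℤ) = (pA q i e : ℤ) * (pD q i e : ℤ) := by
    rw [← pA_mul_pD i e]
    push_cast
    ring
  refine Fermat.Agent.T3.helper90.sigmaFF_dgF e γ (partner N q γ i e k) (pA q i e) (pD q i e)
    (pM q i e) (pB N i e k) (pA_pos i e) (pD_pos i e) ?_ ?_ ?_ ?_ (pM_mul_pD i e)
    (uK (pD q i e * N) (pDN_pos i e) (pB N i e k)) (iotaK_uK _ _ _) y
  · rw [hAD, partner_eq h]
    exact hPart_e1 γ _ _ _ _ _ h.1 h.2
  · rw [hAD, partner_eq h]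
    exact hPart_e2 γ _ _ _ _ _ h.1 h.2
  · rw [partner_eq h]
    exact hPart_e3 γ _ _ _ _ _ h.1 h.2
  · rw [partner_eq h]
    exact hPart_e4 γ _ _ _ _ _ h.1 h.2

theorem raw_table_of_isTy (hq : q.Prime) (hqN : ¬ q ∣ N) {k : ℤ} (hk : ¬ (q : ℤ) ∣ k)
    {γ : SL(2, ℤ)} {i : Fin 3} (h : IsTy N q i k γ) (e : Fin 3) (y : FF N) :
    sigmaFF (N * q * q) (cosetOf (N * q * q) γ) (dgF N q e y) =
      qExpand Kb (pM q i e) (Fermat.Agent.P2.helper94.rot
        (uK (pD q i e * N) (pDN_pos i e) (pB N i e k))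
        (sigmaFF N (cosetOf N (partner N q γ i e k)) y)) :=
  raw_table_of_partOK (partOK_of_isTy hq hqN hk h e) y

end Raw

/-! ### The chosen matrices -/

section Choice

variable (N q : ℕ) [NeZero N] [NeZero q]

open Classical in
/-- an element of `Γ₀(N)` moving `g` to a matrix of type `i` (junk `1` if `q` is not a prime,
or `q ∣ N`, or `q ∣ k`) -/
def selH (g : SL(2, ℤ)) (i : Fin 3) (k : ℤ) : SL(2, ℤ) :=
  if h : q.Prime ∧ ¬ q ∣ N ∧ ¬ (q : ℤ) ∣ k then (exists_isTy h.1 h.2.1 g i h.2.2).choose else 1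

theorem selH_mem (g : SL(2, ℤ)) (i : Fin 3) (k : ℤ) : selH N q g i k ∈ Gamma0 N := by
  unfold selH
  split_ifs with h
  · exact (exists_isTy h.1 h.2.1 g i h.2.2).choose_spec.1
  · exact one_mem _

theorem isTy_selH (hq : q.Prime) (hqN : ¬ q ∣ N) (g : SL(2, ℤ)) (i : Fin 3) {k : ℤ}
    (hk : ¬ (q : ℤ) ∣ k) : IsTy N q i k (selH N q g i k * g) := by
  unfold selH
  rw [dif_pos ⟨hq, hqN, hk⟩]
  exact (exists_isTy hq hqN g i hk).choose_spec.2

/-- **the matrix of type `i`** (middle index `k`) over the cusp `c` of level `N` -/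
def gQ (c : Cusp N) (i : Fin 3) (k : ℤ) : SL(2, ℤ) :=
  selH N q (rep N (crep N c)) i k * rep N (crep N c)

theorem cosetOf_gQ (c : Cusp N) (i : Fin 3) (k : ℤ) : cosetOf N (gQ N q c i k) = crep N c := by
  unfold gQ
  rw [cosetOf_mul_of_mem N _ _ (selH_mem N q _ i k), cosetOf_rep]

theorem isTy_gQ (hq : q.Prime) (hqN : ¬ q ∣ N) (c : Cusp N) (i : Fin 3) {k : ℤ}
    (hk : ¬ (q : ℤ) ∣ k) : IsTy N q i k (gQ N q c i k) :=
  isTy_selH N q hq hqN _ i hk

theorem qN_pos : 0 < q * N :=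
  Nat.mul_pos (Nat.pos_of_ne_zero (NeZero.ne q)) (Nat.pos_of_ne_zero (NeZero.ne N))

/-- the twist of the middle index `k` : the `q`-th root of unity `exp(2πi k / q)` -/
def uMid (k : ℤ) : Kbˣ := uK (q * N) (qN_pos N q) ((N : ℤ) * k)

theorem iotaK_uMid (k : ℤ) :
    iotaK ((uMid N q k : Kbˣ) : Kb) = Complex.exp (2 * Real.pi * Complex.I * k / q) := by
  unfold uMid
  rw [iotaK_uK]
  unfold Fermat.Agent.S23.helper74.xi
  congr 1
  have hN0 : (N : ℂ) ≠ 0 := by exact_mod_cast NeZero.ne N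
  have hq0 : (q : ℂ) ≠ 0 := by exact_mod_cast NeZero.ne q
  push_cast
  field_simp

variable {N q}

/-- every primitive `q`-th root of unity is the `d`-th power of a middle twist -/
theorem exists_kmid (hq : q.Prime) (hqN : ¬ q ∣ N) {d : ℕ} (hd : d ∣ N) {ζ : Kb}
    (hζ : IsPrimitiveRoot ζ q) :
    ∃ k : ℤ, ¬ (q : ℤ) ∣ k ∧ ((uMid N q k : Kbˣ) : Kb) ^ d = ζ := by
  have hqp : Prime (q : ℤ) := Nat.prime_iff_prime_int.mp hq
  have hζC : IsPrimitiveRoot (iotaK ζ) q := hζ.map_of_injective iotaK.injective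
  obtain ⟨i, -, hi, hiζ⟩ := (Complex.isPrimitiveRoot_iff _ q hq.ne_zero).mp hζC
  have hqd : ¬ q ∣ d := fun h => hqN (h.trans hd)
  have hcop : IsCoprime (d : ℤ) (q : ℤ) :=
    (Nat.isCoprime_iff_coprime.mpr ((Nat.Prime.coprime_iff_not_dvd hq).mpr hqd)).symm
  obtain ⟨a, b, hab⟩ := hcop
  have hqi : ¬ (q : ℤ) ∣ (i : ℤ) := by
    intro h
    have h1 : q ∣ i := Int.natCast_dvd_natCast.mp h
    have h2 : q ∣ Nat.gcd i q := Nat.dvd_gcd h1 dvd_rfl
    rw [hi] at h2
    exact hq.one_lt.ne' (Nat.dvd_one.mp h2)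
  have hqa : ¬ (q : ℤ) ∣ a := by
    intro h
    have h1 : (q : ℤ) ∣ a * d + b * q := dvd_add (dvd_mul_of_dvd_left h _) (dvd_mul_left _ _)
    rw [hab] at h1
    exact hqp.not_isUnit (isUnit_of_dvd_one h1)
  refine ⟨i * a, fun h => ?_, ?_⟩
  · rcases hqp.dvd_or_dvd h with h1 | h1
    · exact hqi h1
    · exact hqa h1
  · apply iotaK.injective
    rw [map_pow, iotaK_uMid, ← hiζ, ← Complex.exp_nat_mul, Complex.exp_eq_exp_iff_exists_int]
    refine ⟨-(i * b), ?_⟩
    have hq0 : (q : ℂ) ≠ 0 := by exact_mod_cast hq.ne_zero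
    have hab' : (a : ℂ) * d + b * q = 1 := by exact_mod_cast hab
    push_cast
    field_simp
    linear_combination (i : ℂ) * hab'

variable (N q)

open Classical in
/-- **the middle index over the cusp `c`** with twist exactly `ζ` in the local parameter
(junk `1` if there is none) -/
def kmid (c : Cusp N) (ζ : Kb) : ℤ :=
  if h : ∃ k : ℤ, ¬ (q : ℤ) ∣ k ∧ ((uMid N q k : Kbˣ) : Kb) ^ (dloc N (crep N c)) = ζ
  then h.choose else 1

variable {N q}

theorem kmid_spec (hq : q.Prime) (hqN : ¬ q ∣ N) (c : Cusp N) {ζ : Kb}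
    (hζ : IsPrimitiveRoot ζ q) :
    ¬ (q : ℤ) ∣ kmid N q c ζ ∧
      ((uMid N q (kmid N q c ζ) : Kbˣ) : Kb) ^ (dloc N (crep N c)) = ζ := by
  have hd : dloc N (crep N c) ∣ N := ⟨wd N (crep N c), (dloc_mul_wd N (crep N c)).symm⟩
  have h := exists_kmid hq hqN hd hζ
  unfold kmid
  rw [dif_pos h]
  exact h.choose_spec

variable (N q)

/-- **the coset of level `N q q`** of the index `(c, i)` -/
def IQ (ζ : Kb) (J : Cusp N × Fin 3) : IX (N * q * q) :=
  cosetOf (N * q * q) (gQ N q J.1 J.2 (kmid N q J.1 ζ))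

/-- **THE FAMILY of expansions of `F_{N q q}`**, in the local parameters, indexed by
`Cusp N × Fin 3`. -/
def ex3c (ζ : Kb) (J : Cusp N × Fin 3) : FF (N * q * q) →+* LaurentSeries Kb :=
  exLoc (N * q * q) (IQ N q ζ J)

/-- the exponent of the local parameter at the index `J` -/
def DQ (ζ : Kb) (J : Cusp N × Fin 3) : ℕ := dloc (N * q * q) (IQ N q ζ J)

instance instNeZeroDQ (ζ : Kb) (J : Cusp N × Fin 3) : NeZero (DQ N q ζ J) :=
  instNeZeroDloc (N * q * q) (IQ N q ζ J)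

/-- **the expansions of `F_N`** at the cusps of level `N`, in the local parameters -/
def ENc (c : Cusp N) : FF N →+* LaurentSeries Kb := exLoc N (crep N c)

/-- **the cusp of level `N`** under the index `(c, i)` along the degeneracy map `dgF e` -/
def kap (ζ : Kb) (i e : Fin 3) (c : Cusp N) : Cusp N :=
  cuspOf N (cosetOf N (partner N q (gQ N q c i (kmid N q c ζ)) i e (kmid N q c ζ)))

variable {N q}

/-- the defining identity of the family (input of DISC, GAUSS) -/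
theorem qExpand_ex3c (ζ : Kb) (J : Cusp N × Fin 3) (y : FF (N * q * q)) :
    qExpand Kb (DQ N q ζ J) (ex3c N q ζ J y) = sigmaFF (N * q * q) (IQ N q ζ J) y :=
  qExpand_exLoc (N * q * q) (IQ N q ζ J) y

theorem ex3c_coeff (ζ : Kb) (J : Cusp N × Fin 3) (y : FF (N * q * q)) (n : ℤ) :
    (ex3c N q ζ J y).coeff n
      = (sigmaFF (N * q * q) (IQ N q ζ J) y).coeff ((DQ N q ζ J : ℤ) * n) := rfl

theorem ex3c_algebraMap (ζ : Kb) (J : Cusp N × Fin 3) (c : Kb) :
    ex3c N q ζ J (algebraMap Kb (FF (N * q * q)) c) = algebraMap Kb (LaurentSeries Kb) c :=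
  exLoc_algebraMap (N * q * q) (IQ N q ζ J) c

/-- the expansions are `ℚ̄`-linear -/
theorem constCompatTw_ex3c (ζ : Kb) :
    Fermat.Agent.T3.helper74.ConstCompatTw (ex3c N q ζ) :=
  fun J a => ex3c_algebraMap ζ J a

theorem qExpand_ENc (c : Cusp N) (y : FF N) :
    qExpand Kb (dloc N (crep N c)) (ENc N c y) = sigmaFF N (crep N c) y :=
  qExpand_exLoc N (crep N c) y

/-- the hypothesis `hrep` of `helper96.xPoleAll_of_key` -/
theorem hrep_crep (c c' : Cusp N)
    (h : crep N c' ∈ MulAction.orbit (Subgroup.zpowers (permT N)) (crep N c)) : c' = c :=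
  crep_inj_of_mem N c c' h

end Choice

end Fermat.Agent.T3.helper87

end
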