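/-
T3 (S36), helper27, [CUSP-Q] **(COVER)** for the family `helper87.ex3c`: every pole of `j` on
`F_{N q q}` is controlled, on the inertia-fixed functions, by one of the expansions
`ex3c N q ζ (c, i)` (`c` a cusp of level `N`, `i` the type `∞ / 0 / mid`).

* `exists_dict_exLoc`        : the cusp dictionary of any level `M` in the local parameters:
                               `ord_{W I} f = order (exLoc M I f)`;
* `cosetOf_eq_of_isTy`       : two matrices of type `∞` (resp. `0`) in the same right coset of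
                               `Γ₀(N)` give the same coset of level `N q q`;
* `wd_eq_of_isTy_two`, `cosetOf_partner_eq`, `tableUnit_eq`, `isPrimitiveRoot_uMid`;
* `coeffMap_sigmaFF_of_isTy` : the expansions at two matrices of the same type in the same right
                               coset of `Γ₀(N)` are conjugate under the inertia group at `q`;
* `exists_typed_matrix`      : the matrix statement (4a): every coset of level `N q q` is in the
                               `T`-orbit of a typed matrix over the representative of a cusp;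
* `coverStatementE_ex3c`     : (COVER) from the matrix statement;
* `cover_ex3c`               : **(COVER) for `ex3c`, unconditional**.
-/
import Mathlib
import Fermat.Agent.T3.helper87_CuspQFam
import Fermat.Agent.T3.helper48_CuspQUniq
import Fermat.Agent.T3.helper28_CuspNGal
import Fermat.Agent.T3.helper84_K0Cyc
import Fermat.Agent.T3.helper27_FinAll

set_option autoImplicit false
set_option synthInstance.maxHeartbeats 400000
set_option maxHeartbeats 1000000
set_option linter.unusedSectionVars false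
set_option linter.unusedVariables false
set_option linter.style.haveILetI false
set_option linter.style.longLine false

noncomputable section

open HahnSeries IntermediateField AlgebraicCurve ModularCurve
open Fermat.Agent.S18.helper19 Fermat.Agent.P2.helper29
open Fermat.Agent.S28 (IX rep)
open Fermat.Agent.P2.helper28
open Fermat.Agent.T3.helper23 (sigmaFF sigmaFF_apply toFullC coe_toFullC)
open Fermat.Agent.T3.helper90 (cosetOf cosetOf_rep uK iotaK_uK)
open Fermat.Agent.T3.helper87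
open Fermat.Agent.T3.helper74 (dgF IsFixI)
open Fermat.Agent.S24.helper37 (det_eq_one')
open scoped MatrixGroups
open CongruenceSubgroup

namespace Fermat.Agent.T3.helper27

/-! ### The cusp dictionary in the local parameters -/

section Dict

variable (M : ℕ) [NeZero M]

open WithZero in
theorem exists_dict_sigmaK_aux (E : IntermediateField Kb (LaurentSeries Kb))
    (h : E = modularFunctionFieldFullC Kb M) (jE : E) (hjE : (jE : LaurentSeries Kb) = jqModC Kb) :
    ∃ (W : IX M → Place Kb E) (d : IX M → ℕ),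
      (∀ w : Place Kb E, w.ord jE < 0 → ∃ i, W i = w) ∧
      (∀ i j, W i = W j ↔ j ∈ MulAction.orbit (Subgroup.zpowers (permT M)) i) ∧
      (∀ i, d i * Nat.card (MulAction.orbit (Subgroup.zpowers (permT M)) i) = M) ∧
      (∀ i (f : E), f ≠ 0 →
        (sigmaK M i (IntermediateField.inclusion (le_of_eq h) f)).order =
          (d i : ℤ) * (W i).ord f) := by
  subst h
  obtain ⟨W, d, h1, h2, h3, h4, h5, h6, h7, h8⟩ :=
    cusp_dictionary (conjX M) SK rK (zetaC_mem_SK M) (natCast_inv_mem_SK M) rK_surjective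
      (permT M) (zetaU M) rfl (conjX_rot M)
  have hj : jE = jb Kb M := Subtype.ext hjE
  have htb : ∀ w : Place Kb (FbT Kb M), w.ord (tb Kb M) = -w.ord jE := by
    intro w
    rw [tb, Place.ord_inv, hj]
  have hincl : ∀ f : FbT Kb M,
      IntermediateField.inclusion (le_of_eq (rfl : modularFunctionFieldFullC Kb M = _)) f = f :=
    fun f => Subtype.ext (IntermediateField.coe_inclusion _ f)
  refine ⟨W, d, fun w hw => ?_, h3, h5, fun i f hf => ?_⟩
  · apply h2 w
    rw [htb]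
    omega
  · rw [hincl]
    have hne : sigmaK M i f ≠ 0 := by
      intro h0
      exact hf ((RingHom.injective (sigmaK M i)) (h0.trans (map_zero _).symm))
    have h9 : (Valued.v (sigmaK M i f) : ℤᵐ⁰) = exp (-((d i : ℤ) * (W i).ord f)) := h6 i f hf
    rw [Fermat.Agent.S24.helper80.laurent_valuation_eq_exp_neg_order hne] at h9
    have h10 := WithZero.exp_injective h9
    omega

/-- **the cusp dictionary of level `M` in the local parameters**: the poles of `j` are the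
places `W I` of the cosets, `W I = W I'` iff `I`, `I'` are in the same `T`-orbit, and
`ord_{W I} f = order (exLoc M I f)`. -/
theorem exists_dict_exLoc :
    ∃ W : IX M → Place Kb (FF M),
      (∀ w : Place Kb (FF M), w.ord (jElt M) < 0 → ∃ i, W i = w) ∧
      (∀ i j, W i = W j ↔ j ∈ MulAction.orbit (Subgroup.zpowers (permT M)) i) ∧
      (∀ i (f : FF M), f ≠ 0 → (exLoc M i f).order = (W i).ord f) := by
  obtain ⟨W, d, h1, h2, h3, h4⟩ :=
    exists_dict_sigmaK_aux M (FF M) (FF_eq_fullC M) (jElt M) rfl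
  refine ⟨W, h1, h2, fun i f hf => ?_⟩
  have hd : d i = dloc M i := by
    have e1 := h3 i
    have e2 := dloc_mul_wd M i
    rw [wd_eq_card] at e2
    have hpos : 0 < Nat.card (MulAction.orbit (Subgroup.zpowers (permT M)) i) := by
      rw [← wd_eq_card]
      exact wd_pos M i
    exact Nat.eq_of_mul_eq_mul_right hpos (e1.trans e2.symm)
  have e3 := h4 i f hf
  have e4 : sigmaK M i (IntermediateField.inclusion (le_of_eq (FF_eq_fullC M)) f)
      = sigmaFF M i f := by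
    rw [sigmaFF_apply]
    congr 1
  rw [e4, ← qExpand_exLoc, Fermat.Agent.P2.helper28.order_qExpand_mul, hd] at e3
  have hpos : (0 : ℤ) < (dloc M i : ℤ) := by exact_mod_cast dloc_pos M i
  exact mul_left_cancel₀ hpos.ne' e3

end Dict

/-! ### Matrices of the same type in the same right coset of `Γ₀(N)` -/

section Mat

variable {N q : ℕ}

theorem isCoprime_N_qq (hq : q.Prime) (hqN : ¬ q ∣ N) : IsCoprime (N : ℤ) ((q : ℤ) * q) := by
  have hc1 : IsCoprime (q : ℤ) (N : ℤ) :=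
    Nat.isCoprime_iff_coprime.mpr ((Nat.Prime.coprime_iff_not_dvd hq).mpr hqN)
  exact (IsCoprime.mul_left hc1 hc1).symm

theorem level_dvd_iff (hq : q.Prime) (hqN : ¬ q ∣ N) (x : ℤ) :
    ((N * q * q : ℕ) : ℤ) ∣ x ↔ (N : ℤ) ∣ x ∧ ((q : ℤ) * q) ∣ x := by
  have e : ((N * q * q : ℕ) : ℤ) = (N : ℤ) * ((q : ℤ) * q) := by
    push_cast
    ring
  rw [e]
  constructor
  · intro h
    exact ⟨(dvd_mul_right _ _).trans h, (dvd_mul_left _ _).trans h⟩
  · rintro ⟨h1, h2⟩
    exact (isCoprime_N_qq hq hqN).mul_dvd h1 h2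

/-- two matrices of type `∞` (resp. `0`) in the same right coset of `Γ₀(N)` are in the same
right coset of `Γ₀(N q q)` -/
theorem cosetOf_eq_of_isTy (hq : q.Prime) (hqN : ¬ q ∣ N) {i : Fin 3} (hi : i = 0 ∨ i = 1)
    {k₁ k₂ : ℤ} {γ₁ γ₂ : SL(2, ℤ)} (h₁ : IsTy N q i k₁ γ₁) (h₂ : IsTy N q i k₂ γ₂)
    (hc : cosetOf N γ₁ = cosetOf N γ₂) :
    cosetOf (N * q * q) γ₁ = cosetOf (N * q * q) γ₂ := by
  rw [cosetOf_eq_iff] at hc ⊢
  rw [level_dvd_iff hq hqN]
  refine ⟨hc, ?_⟩
  rcases hi with rfl | rfl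
  · rw [isTy_zero_iff] at h₁ h₂
    exact dvd_sub (dvd_mul_of_dvd_left h₂ _) (dvd_mul_of_dvd_right h₁ _)
  · rw [isTy_one_iff] at h₁ h₂
    exact dvd_sub (dvd_mul_of_dvd_right h₁ _) (dvd_mul_of_dvd_left h₂ _)

/-- the lower left entries of two matrices in the same right coset of `Γ₀(N)` are proportional
modulo `N` -/
theorem exists_lowerLeft_eq {γ₁ γ₂ : SL(2, ℤ)} (hc : cosetOf N γ₁ = cosetOf N γ₂) :
    ∃ w t : ℤ, γ₂ 1 0 = γ₁ 1 0 * w + (N : ℤ) * t := by
  rw [cosetOf_eq_iff] at hc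
  obtain ⟨t, ht⟩ := hc
  have hdet := det_eq_one' γ₁
  refine ⟨γ₁ 0 0 * γ₂ 1 1 - γ₁ 0 1 * γ₂ 1 0, γ₁ 0 0 * t, ?_⟩
  linear_combination (-(γ₂ 1 0)) * hdet + (γ₁ 0 0) * ht

theorem dvd_mul_sq_of_cosetOf_eq {γ₁ γ₂ : SL(2, ℤ)} (hc : cosetOf N γ₁ = cosetOf N γ₂)
    (n : ℤ) (h : (N : ℤ) ∣ n * (γ₁ 1 0) ^ 2) : (N : ℤ) ∣ n * (γ₂ 1 0) ^ 2 := by
  obtain ⟨w, t, hw⟩ := exists_lowerLeft_eq hc
  obtain ⟨s, hs⟩ := h
  refine ⟨s * w ^ 2 + n * (2 * γ₁ 1 0 * w * t + (N : ℤ) * t ^ 2), ?_⟩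
  rw [hw]
  linear_combination (w ^ 2) * hs

variable [NeZero N] [NeZero q]

/-- two matrices of middle type in the same right coset of `Γ₀(N)` have cusps of the same
width at level `N q q` -/
theorem wd_eq_of_isTy_two (hq : q.Prime) (hqN : ¬ q ∣ N) {k₁ k₂ : ℤ} (hk₁ : ¬ (q : ℤ) ∣ k₁)
    (hk₂ : ¬ (q : ℤ) ∣ k₂) {γ₁ γ₂ : SL(2, ℤ)} (h₁ : IsTy N q 2 k₁ γ₁) (h₂ : IsTy N q 2 k₂ γ₂)
    (hc : cosetOf N γ₁ = cosetOf N γ₂) :
    wd (N * q * q) (cosetOf (N * q * q) γ₁) = wd (N * q * q) (cosetOf (N * q * q) γ₂) := by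
  have key : ∀ {k k' : ℤ} {γ γ' : SL(2, ℤ)}, ¬ (q : ℤ) ∣ k → ¬ (q : ℤ) ∣ k' → IsTy N q 2 k γ →
      IsTy N q 2 k' γ' → cosetOf N γ = cosetOf N γ' →
      wd (N * q * q) (cosetOf (N * q * q) γ') ∣ wd (N * q * q) (cosetOf (N * q * q) γ) := by
    intro k k' γ γ' hk hk' h h' hcc
    rw [wd_dvd_iff, level_dvd_iff hq hqN]
    have h0 := (wd_dvd_iff (N * q * q) γ (wd (N * q * q) (cosetOf (N * q * q) γ))).mp dvd_rfl
    rw [level_dvd_iff hq hqN] at h0
    refine ⟨dvd_mul_sq_of_cosetOf_eq hcc _ h0.1, ?_⟩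
    have hq' : (q : ℤ) ∣ γ' 1 0 := dvd_of_isTy_two hq hqN hk' h'
    rw [sq]
    exact dvd_mul_of_dvd_right (mul_dvd_mul hq' hq') _
  exact Nat.dvd_antisymm (key hk₂ hk₁ h₂ h₁ hc.symm) (key hk₁ hk₂ h₁ h₂ hc)

theorem dloc_eq_of_isTy_two (hq : q.Prime) (hqN : ¬ q ∣ N) {k₁ k₂ : ℤ} (hk₁ : ¬ (q : ℤ) ∣ k₁)
    (hk₂ : ¬ (q : ℤ) ∣ k₂) {γ₁ γ₂ : SL(2, ℤ)} (h₁ : IsTy N q 2 k₁ γ₁) (h₂ : IsTy N q 2 k₂ γ₂)
    (hc : cosetOf N γ₁ = cosetOf N γ₂) :
    dloc (N * q * q) (cosetOf (N * q * q) γ₁) = dloc (N * q * q) (cosetOf (N * q * q) γ₂) := by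
  unfold dloc
  rw [wd_eq_of_isTy_two hq hqN hk₁ hk₂ h₁ h₂ hc]

/-- the Hermite partners of two matrices in the same right coset of `Γ₀(N)` are in the same
right coset of `Γ₀(N)` -/
theorem cosetOf_partner_eq (hq : q.Prime) (hqN : ¬ q ∣ N) {i e : Fin 3} {k₁ k₂ : ℤ}
    {γ₁ γ₂ : SL(2, ℤ)} (h₁ : PartOK N q γ₁ i e k₁) (h₂ : PartOK N q γ₂ i e k₂)
    (hc : cosetOf N γ₁ = cosetOf N γ₂) :
    cosetOf N (partner N q γ₁ i e k₁) = cosetOf N (partner N q γ₂ i e k₂) := by
  rw [cosetOf_eq_iff] at hc ⊢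
  rw [partner_one_zero h₁, partner_one_zero h₂, partner_one_one h₁, partner_one_one h₂]
  obtain ⟨b₁, hb₁⟩ := dvd_pB (N := N) i e k₁
  obtain ⟨b₂, hb₂⟩ := dvd_pB (N := N) i e k₂
  obtain ⟨t, ht⟩ := hc
  have hAD : ((pA q i e : ℕ) : ℤ) * ((pD q i e : ℕ) : ℤ) = ((q : ℤ)) ^ (e : ℕ) := by
    have := pA_mul_pD (q := q) i e
    exact_mod_cast this
  have hcop : IsCoprime ((N : ℤ)) (((pA q i e : ℕ) : ℤ) * ((pD q i e : ℕ) : ℤ)) := by
    rw [hAD]
    have hc1 : IsCoprime (q : ℤ) (N : ℤ) :=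
      Nat.isCoprime_iff_coprime.mpr ((Nat.Prime.coprime_iff_not_dvd hq).mpr hqN)
    exact (IsCoprime.pow_left hc1).symm
  apply hcop.dvd_of_dvd_mul_left
  have e1 := h₁.1
  have e2 := h₁.2
  have e3 := h₂.1
  have e4 := h₂.2
  rw [hb₁] at e2
  rw [hb₂] at e4
  refine ⟨t - γ₂ 1 0 * pC q γ₁ i e * b₁ + pC q γ₂ i e * b₂ * γ₁ 1 0, ?_⟩
  have e5 : ((pA q i e : ℕ) : ℤ) * ((pD q i e : ℕ) : ℤ) *
      (pC q γ₂ i e * pE N q γ₁ i e k₁ - pE N q γ₂ i e k₂ * pC q γ₁ i e)
      = (pC q γ₂ i e * ((pA q i e : ℕ) : ℤ)) * (pE N q γ₁ i e k₁ * ((pD q i e : ℕ) : ℤ))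
        - (pE N q γ₂ i e k₂ * ((pD q i e : ℕ) : ℤ)) * (pC q γ₁ i e * ((pA q i e : ℕ) : ℤ)) := by
    ring
  rw [e5, ← e1, ← e3]
  have e6 : pE N q γ₁ i e k₁ * ((pD q i e : ℕ) : ℤ) = γ₁ 1 1 - pC q γ₁ i e * ((N : ℤ) * b₁) := by
    linear_combination -e2
  have e7 : pE N q γ₂ i e k₂ * ((pD q i e : ℕ) : ℤ) = γ₂ 1 1 - pC q γ₂ i e * ((N : ℤ) * b₂) := by
    linear_combination -e4
  rw [e6, e7]
  linear_combination ht

end Mat

/-! ### The twists -/

section Twist

variable (N q : ℕ) [NeZero N] [NeZero q]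

theorem uK_zero (D : ℕ) (hD : 0 < D) : uK D hD 0 = 1 := by
  apply Units.ext
  apply iotaK.injective
  rw [iotaK_uK, Units.val_one, map_one]
  unfold Fermat.Agent.S23.helper74.xi
  simp

/-- the twist of the raw table at a matrix of type `i` -/
theorem tableUnit_eq (i e : Fin 3) (k : ℤ) :
    uK (pD q i e * N) (pDN_pos i e) (pB N i e k)
      = if i = 2 ∧ e = 2 then uMid N q k else 1 := by
  by_cases h : i = 2 ∧ e = 2
  · rw [if_pos h]
    obtain ⟨rfl, rfl⟩ := h
    apply Units.ext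
    apply iotaK.injective
    unfold uMid
    rw [iotaK_uK, iotaK_uK]
    have e1 : pD q 2 2 = q := by simp [pD]
    have e2 : pB N 2 2 k = (N : ℤ) * k := by simp [pB]
    rw [e1, e2]
  · rw [if_neg h]
    have e2 : pB N i e k = 0 := by
      unfold pB
      rw [if_neg h]
    have := uK_zero (pD q i e * N) (pDN_pos i e)
    rw [← this]
    congr 1

theorem isPrimitiveRoot_uMid (hq : q.Prime) {k : ℤ} (hk : ¬ (q : ℤ) ∣ k) :
    IsPrimitiveRoot ((uMid N q k : Kbˣ) : Kb) q := by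
  have hq0 : q ≠ 0 := hq.ne_zero
  have h1 : IsPrimitiveRoot (Complex.exp (2 * Real.pi * Complex.I / q)) q :=
    Complex.isPrimitiveRoot_exp q hq0
  have hgcd : k.gcd (q : ℤ) = 1 := by
    have hqp : Prime (q : ℤ) := Nat.prime_iff_prime_int.mp hq
    have hcop : IsCoprime k (q : ℤ) := ((Prime.coprime_iff_not_dvd hqp).mpr hk).symm
    exact Int.isCoprime_iff_gcd_eq_one.mp hcop
  have h2 : IsPrimitiveRoot (Complex.exp (2 * Real.pi * Complex.I / q) ^ k) q :=
    h1.zpow_of_gcd_eq_one k hgcd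
  have h3 : iotaK ((uMid N q k : Kbˣ) : Kb) = Complex.exp (2 * Real.pi * Complex.I / q) ^ k := by
    rw [iotaK_uMid, ← Complex.exp_int_mul]
    congr 1
    ring
  rw [← h3] at h2
  exact IsPrimitiveRoot.of_map_of_injective (f := iotaK) h2 iotaK.injective

end Twist

/-! ### The matrix statement: every coset is in the `T`-orbit of a typed matrix over a cusp -/

section FourA

variable {N q : ℕ}

/-- every matrix has a `T`-translate of one of the three types -/
theorem exists_isTy_mul_T (hq : q.Prime) (hqN : ¬ q ∣ N) (g : SL(2, ℤ)) :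
    ∃ (i : Fin 3) (k z : ℤ), ¬ (q : ℤ) ∣ k ∧ IsTy N q i k (g * ModularGroup.T ^ z) := by
  have hqp : Prime (q : ℤ) := Nat.prime_iff_prime_int.mp hq
  have hq1 : ¬ (q : ℤ) ∣ 1 := fun h => hqp.not_isUnit (isUnit_of_dvd_one h)
  have hdet := det_eq_one' g
  by_cases hx : (q : ℤ) ∣ g 1 0
  · by_cases hxx : ((q : ℤ) * q) ∣ g 1 0
    · -- type `∞`
      refine ⟨0, 1, 0, hq1, ?_⟩
      rw [isTy_zero_iff, zpow_zero, mul_one]
      exact hxx
    · -- middle type
      obtain ⟨x', hx'⟩ := hx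
      have hqx' : ¬ (q : ℤ) ∣ x' := by
        intro h
        apply hxx
        rw [hx']
        exact mul_dvd_mul_left _ h
      have hqy : ¬ (q : ℤ) ∣ g 1 1 := by
        intro h
        apply hq1
        rw [← hdet]
        exact dvd_sub (dvd_mul_of_dvd_right h _) (dvd_mul_of_dvd_right ⟨x', hx'⟩ _)
      have hqNz : ¬ (q : ℤ) ∣ (N : ℤ) := fun h => hqN (Int.natCast_dvd_natCast.mp h)
      have hcop : IsCoprime (x' * (N : ℤ)) (q : ℤ) := by
        apply IsCoprime.symm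
        rw [Prime.coprime_iff_not_dvd hqp]
        intro h
        rcases hqp.dvd_or_dvd h with h1 | h1
        · exact hqx' h1
        · exact hqNz h1
      obtain ⟨a, b, hab⟩ := hcop
      have hqa : ¬ (q : ℤ) ∣ a := by
        intro h
        apply hq1
        rw [← hab]
        exact dvd_add (dvd_mul_of_dvd_left h _) (dvd_mul_left _ _)
      refine ⟨2, g 1 1 * a, 0, ?_, ?_⟩
      · intro h
        rcases hqp.dvd_or_dvd h with h1 | h1
        · exact hqy h1
        · exact hqa h1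
      · rw [isTy_two_iff, zpow_zero, mul_one, hx']
        refine ⟨-(g 1 1 * b), ?_⟩
        linear_combination (g 1 1 * (q : ℤ)) * hab
  · -- type `0`
    have hcop : IsCoprime (g 1 0) ((q : ℤ) * q) := by
      have h1 : IsCoprime (g 1 0) (q : ℤ) := ((Prime.coprime_iff_not_dvd hqp).mpr hx).symm
      exact IsCoprime.mul_right h1 h1
    obtain ⟨a, b, hab⟩ := hcop
    refine ⟨1, 1, -(g 1 1 * a), hq1, ?_⟩
    rw [isTy_one_iff, mul_T_zpow_one_one]
    refine ⟨g 1 1 * b, ?_⟩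
    linear_combination (-(g 1 1)) * hab

/-- the type is invariant under `T ^ z`, `q² ∣ z` -/
theorem isTy_mul_T_zpow {i : Fin 3} {k : ℤ} {g : SL(2, ℤ)} (h : IsTy N q i k g) {z : ℤ}
    (hz : ((q : ℤ) * q) ∣ z) : IsTy N q i k (g * ModularGroup.T ^ z) := by
  unfold IsTy at h ⊢
  rw [mul_T_zpow_one_zero, mul_T_zpow_one_one]
  have e : g 1 0 * tgtY N i k - (g 1 1 + z * g 1 0) * tgtX q i
      = (g 1 0 * tgtY N i k - g 1 1 * tgtX q i) - z * (g 1 0 * tgtX q i) := by ring
  rw [e]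
  exact dvd_sub h (dvd_mul_of_dvd_left hz _)

variable [NeZero N] [NeZero q]

theorem permT_zpow_add_level (z t : ℤ) (I : IX N) :
    (permT N ^ (z + (N : ℤ) * t)) I = (permT N ^ z) I := by
  have h1 : (permT N) ^ ((N : ℤ) * t) = 1 := by
    rw [zpow_mul, zpow_natCast, permT_pow_level, one_zpow]
  rw [zpow_add, h1, mul_one]

/-- **the matrix statement (4a)**: every coset of level `N q q` is in the `T`-orbit of the coset
of a matrix of one of the three types lying in the right coset `Γ₀(N) g_c` of the chosen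
representative of a cusp `c` of level `N`. -/
theorem exists_typed_matrix (hq : q.Prime) (hqN : ¬ q ∣ N) (I : IX (N * q * q)) :
    ∃ (c : Cusp N) (i : Fin 3) (k w : ℤ) (γ : SL(2, ℤ)),
      ¬ (q : ℤ) ∣ k ∧ cosetOf N γ = crep N c ∧ IsTy N q i k γ ∧
        (permT (N * q * q) ^ w) (cosetOf (N * q * q) γ) = I := by
  obtain ⟨i, k, z₁, hk, hty⟩ := exists_isTy_mul_T (N := N) hq hqN (rep (N * q * q) I)
  set γ₁ : SL(2, ℤ) := rep (N * q * q) I * ModularGroup.T ^ z₁ with hγ₁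
  obtain ⟨z₂, hz₂⟩ := (mem_orbit_iff_zpow N (cosetOf N γ₁) _).mp
    (crep_cuspOf_mem N (cosetOf N γ₁))
  -- a shift by a multiple of `q²` with the same effect at level `N`
  have hc1 : IsCoprime (q : ℤ) (N : ℤ) :=
    Nat.isCoprime_iff_coprime.mpr ((Nat.Prime.coprime_iff_not_dvd hq).mpr hqN)
  have hcop : IsCoprime (N : ℤ) ((q : ℤ) * q) := (IsCoprime.mul_left hc1 hc1).symm
  obtain ⟨a, b, hab⟩ := hcop
  set z₃ : ℤ := z₂ * (b * ((q : ℤ) * q)) with hz₃
  have hz₃N : z₃ = z₂ + (N : ℤ) * (-(z₂ * a)) := by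
    rw [hz₃]
    linear_combination z₂ * hab
  have hz₃q : ((q : ℤ) * q) ∣ z₃ := ⟨z₂ * b, by rw [hz₃]; ring⟩
  refine ⟨cuspOf N (cosetOf N γ₁), i, k, -(z₁ + z₃), γ₁ * ModularGroup.T ^ z₃, hk, ?_,
    isTy_mul_T_zpow hty hz₃q, ?_⟩
  · rw [← permT_zpow_cosetOf, hz₃N, permT_zpow_add_level, hz₂]
  · have e : γ₁ * ModularGroup.T ^ z₃ = rep (N * q * q) I * ModularGroup.T ^ (z₁ + z₃) := by
      rw [hγ₁, mul_assoc (rep (N * q * q) I), ← zpow_add]
    rw [e, ← permT_zpow_cosetOf, cosetOf_rep, ← Equiv.Perm.mul_apply, ← zpow_add,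
      neg_add_cancel, zpow_zero]
    rfl

end FourA

/-! ### Conjugacy of the expansions at matrices of the same type -/

section Conj

variable {N q : ℕ} [NeZero N] [NeZero q]

/-- **conjugacy**: the expansions at two matrices of the same type `i` in the same right coset
of `Γ₀(N)` are conjugate under every `σ` of the inertia group at `q` which (for the middle type)
maps the twist of the first to the twist of the second. -/
theorem coeffMap_sigmaFF_of_isTy (hq : q.Prime) (hqN : ¬ q ∣ N) (A : ValuationSubring Kb)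
    (hA : A.LiesOverPrime q) {σ : Kb ≃ₐ[ℚ] Kb} (hσ : σ ∈ A.inertiaSubgroupIn ℚ)
    {i : Fin 3} {k₁ k₂ : ℤ} (hk₁ : ¬ (q : ℤ) ∣ k₁) (hk₂ : ¬ (q : ℤ) ∣ k₂)
    {γ₁ γ₂ : SL(2, ℤ)} (h₁ : IsTy N q i k₁ γ₁) (h₂ : IsTy N q i k₂ γ₂)
    (hc : cosetOf N γ₁ = cosetOf N γ₂)
    (hu : i = 2 → σ ((uMid N q k₁ : Kbˣ) : Kb) = ((uMid N q k₂ : Kbˣ) : Kb))
    (f : FF (N * q * q)) :
    coeffMap (σ : Kb →+* Kb) (sigmaFF (N * q * q) (cosetOf (N * q * q) γ₁) f)
      = sigmaFF (N * q * q) (cosetOf (N * q * q) γ₂)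
          (arithmeticRingAut (modularFunctionFieldFull (N * q * q)) σ f) := by
  have key := Fermat.Agent.T3.helper48.ringHom_ext_dgF N q hq
    ((coeffMap (σ : Kb →+* Kb)).comp (sigmaFF (N * q * q) (cosetOf (N * q * q) γ₁)))
    ((sigmaFF (N * q * q) (cosetOf (N * q * q) γ₂)).comp
      ((arithmeticRingAut (modularFunctionFieldFull (N * q * q)) σ :
        FF (N * q * q) ≃+* FF (N * q * q)) : FF (N * q * q) →+* FF (N * q * q)))
    (fun e y => by
      show coeffMap (σ : Kb →+* Kb)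
          (sigmaFF (N * q * q) (cosetOf (N * q * q) γ₁) (dgF N q e y))
        = sigmaFF (N * q * q) (cosetOf (N * q * q) γ₂)
            (arithmeticRingAut (modularFunctionFieldFull (N * q * q)) σ (dgF N q e y))
      rw [Fermat.Agent.T3.helper74.galF_dgF, raw_table_of_isTy hq hqN hk₁ h₁ e y,
        raw_table_of_isTy hq hqN hk₂ h₂ e,
        ← cosetOf_partner_eq hq hqN (partOK_of_isTy hq hqN hk₁ h₁ e)
          (partOK_of_isTy hq hqN hk₂ h₂ e) hc]
      have huv : σ ((uK (pD q i e * N) (pDN_pos i e) (pB N i e k₁) : Kbˣ) : Kb)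
          = ((uK (pD q i e * N) (pDN_pos i e) (pB N i e k₂) : Kbˣ) : Kb) := by
        rw [tableUnit_eq, tableUnit_eq]
        by_cases h : i = 2 ∧ e = 2
        · rw [if_pos h, if_pos h]
          exact hu h.1
        · rw [if_neg h, if_neg h, Units.val_one, map_one]
      rw [Fermat.Agent.T3.helper48.coeffMap_qExpand_rot σ (pM q i e) _ _ huv]
      congr 2
      exact (Fermat.Agent.T3.helper28.EN_galF_of_inertia N A hq hA hqN hσ
        (cosetOf N (partner N q γ₁ i e k₁)) y).symm)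
  exact RingHom.congr_fun key f

end Conj

/-! ### (COVER) for the family `ex3c` -/

section Cover

variable {N q : ℕ} [NeZero N] [NeZero q]

/-- **(COVER) for the family `helper87.ex3c`**, from the matrix statement: every coset of level
`N q q` is in the `T`-orbit of the coset of a matrix of one of the three types lying in the right
coset `Γ₀(N) g_c` of a cusp `c` of level `N`. -/
theorem coverStatementE_ex3c (hq : q.Prime) (hqN : ¬ q ∣ N) (A : ValuationSubring Kb)
    (hA : A.LiesOverPrime q) {ζ : Kb} (hζ : IsPrimitiveRoot ζ q)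
    (h4a : ∀ I : IX (N * q * q), ∃ (c : Cusp N) (i : Fin 3) (k w : ℤ) (γ : SL(2, ℤ)),
      ¬ (q : ℤ) ∣ k ∧ cosetOf N γ = crep N c ∧ IsTy N q i k γ ∧
        (permT (N * q * q) ^ w) (cosetOf (N * q * q) γ) = I) :
    CoverStatementE A (ex3c N q ζ) := by
  intro P hP
  obtain ⟨W, hW1, hW2, hW3⟩ := exists_dict_exLoc (N * q * q)
  obtain ⟨I, rfl⟩ := hW1 P hP
  obtain ⟨c, i, k, w, γ, hk, hγc, hγ, hI⟩ := h4a I
  have hk₀ : ¬ (q : ℤ) ∣ kmid N q c ζ := (kmid_spec hq hqN c hζ).1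
  have h₀ : IsTy N q i (kmid N q c ζ) (gQ N q c i (kmid N q c ζ)) :=
    isTy_gQ N q hq hqN c i hk₀
  have hc : cosetOf N (gQ N q c i (kmid N q c ζ)) = cosetOf N γ :=
    (cosetOf_gQ N q c i _).trans hγc.symm
  have hWI : W I = W (cosetOf (N * q * q) γ) := by
    rw [eq_comm, hW2, mem_orbit_iff_zpow]
    exact ⟨w, hI⟩
  refine ⟨(c, i), fun f hf hfI => le_of_eq ?_⟩
  rw [hWI, ← hW3 _ f hf]
  show (exLoc (N * q * q) (cosetOf (N * q * q) (gQ N q c i (kmid N q c ζ))) f).order = _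
  by_cases hi : i = 0 ∨ i = 1
  · rw [cosetOf_eq_of_isTy hq hqN hi h₀ hγ hc]
  · have hi2 : i = 2 := by
      rcases Fermat.Agent.T3.helper74.fin3_cases i with h | h | h
      · exact absurd (Or.inl h) hi
      · exact absurd (Or.inr h) hi
      · exact h
    subst hi2
    obtain ⟨σ, hσ, hσu⟩ := Fermat.Agent.T3.helper84.k0_zeta_trans' hq A hA
      (isPrimitiveRoot_uMid N q hq hk₀) (isPrimitiveRoot_uMid N q hq hk)
    have hconj := coeffMap_sigmaFF_of_isTy hq hqN A hA hσ hk₀ hk h₀ hγ hc (fun _ => hσu) f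
    rw [hfI σ hσ] at hconj
    have hord := congrArg HahnSeries.order hconj
    rw [Fermat.Agent.T3.helper48.order_coeffMap_equiv, ← qExpand_exLoc, ← qExpand_exLoc,
      Fermat.Agent.P2.helper28.order_qExpand_mul, Fermat.Agent.P2.helper28.order_qExpand_mul,
      dloc_eq_of_isTy_two hq hqN hk₀ hk h₀ hγ hc] at hord
    have hpos : (0 : ℤ) < (dloc (N * q * q) (cosetOf (N * q * q) γ) : ℤ) := by
      exact_mod_cast dloc_pos (N * q * q) _
    exact mul_left_cancel₀ hpos.ne' hord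

end Cover

/-! ### (COVER), unconditional -/

section Final

variable {N q : ℕ} [NeZero N] [NeZero q]

/-- **(COVER) for the family `helper87.ex3c`**: the hypothesis `hcover` of
`helper27.torRoot_all` / `helper74.torRoot_of_tableD` for `E = ex3c N q ζ`. -/
theorem cover_ex3c (hq : q.Prime) (hqN : ¬ q ∣ N) (A : ValuationSubring Kb)
    (hA : A.LiesOverPrime q) {ζ : Kb} (hζ : IsPrimitiveRoot ζ q) :
    CoverStatementE A (ex3c N q ζ) :=
  coverStatementE_ex3c hq hqN A hA hζ (exists_typed_matrix hq hqN)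

end Final

end Fermat.Agent.T3.helper27

end
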