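/-
T3 [GAUSS3], part A (helper36): the Gauss valuation at the cusp `∞` of `F_{Mq}` for a prime
`q ∣ M`, and `ScaleStatement (N * q * q) A` VERBATIM.

MAIN RESULTS
* `scale_step` : `ScaleStatement M A → ScaleStatement (M * q) A` for a prime `q ∣ M`
  (no hypothesis on the residue characteristic of `A`).
* `scaleStatement_sq` : `helper29.ScaleStatement (N * q * q) A` for `q ∤ N`, `A ∣ q`.
* `frobBas_linearIndependent`, `exists_repr_frobBas` : `1, j, …, j^(q-1)` is a basis of `F_{Mq}`
  over `β F_M`.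
* `normalise_frob` : for `f = ∑ β(a_i) j^i` the scaled reduction is `∑ ā_i(t^q) j̄^i ≠ 0`.

PROOF.  `[F_{Mq} : β F_M] = q` (helper48), `1, j̄, …, j̄^(q-1)` are linearly independent over
`k((t^q))` (`frob_indep`, over `ℚ̄` and over the residue field), and a finite family at level `M`
can be scaled simultaneously (`exists_scale_family`).
-/
import Mathlib
import Fermat.Agent.T2.helper36_ValBad
import Fermat.Agent.T2.helper48_UOpDeg

set_option autoImplicit false
set_option linter.unusedSectionVars false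
set_option linter.unusedVariables false
set_option linter.style.haveILetI false

noncomputable section

open HahnSeries ModularCurve AlgebraicCurve
open Fermat.Agent.S18.helper19 Fermat.Agent.P2.helper29 Fermat.Agent.S24 Fermat.Agent.P2
open Fermat.Agent.T2.helper36

namespace Fermat.Agent.T3.helper36

section Step

variable {M q : ℕ} [NeZero M] [NeZero q] (A : ValuationSubring Kb)

/-- the expansion of `∑ β(a_i) j^i` -/
theorem coe_sum_frob (a : Fin q → FN M) :
    ((∑ i, heckeBetaBar Kb M q (a i) * elJ M q ^ (i : ℕ) : FN (M * q)) : LaurentSeries Kb) =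
      ∑ i, qExpand Kb q ((a i : FN M) : LaurentSeries Kb) * jqModC Kb ^ (i : ℕ) := by
  rw [IntermediateField.coe_sum]
  refine Finset.sum_congr rfl fun i _ => ?_
  rw [IntermediateField.coe_mul, coe_heckeBetaBar, IntermediateField.coe_pow, coe_elJ]

/-- `1, j, …, j^(q-1)` are linearly independent over `β F_M`. -/
theorem frobBas_linearIndependent :
    letI := algebraAlong (heckeBetaBar Kb M q)
    LinearIndependent (FN M) (fun i : Fin q => elJ M q ^ (i : ℕ)) := by
  letI := algebraAlong (heckeBetaBar Kb M q)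
  rw [Fintype.linearIndependent_iff]
  intro g hg i
  have hg' : (∑ i, heckeBetaBar Kb M q (g i) * elJ M q ^ (i : ℕ) : FN (M * q)) = 0 := hg
  have h : ((∑ i, heckeBetaBar Kb M q (g i) * elJ M q ^ (i : ℕ) : FN (M * q)) :
      LaurentSeries Kb) = 0 := by
    rw [hg']
    rfl
  rw [coe_sum_frob] at h
  have := frob_indep q (fun i => ((g i : FN M) : LaurentSeries Kb)) h i
  exact Subtype.ext this

/-- every element of `F_{Mq}` is `∑ β(a_i) j^i` (`q` prime, `q ∣ M`). -/
theorem exists_repr_frobBas (hq : q.Prime) (hqM : q ∣ M) (f : FN (M * q)) :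
    ∃ a : Fin q → FN M, f = ∑ i, heckeBetaBar Kb M q (a i) * elJ M q ^ (i : ℕ) := by
  letI := algebraAlong (heckeBetaBar Kb M q)
  have hli := frobBas_linearIndependent (M := M) (q := q)
  have hcard : Fintype.card (Fin q) = Module.finrank (FN M) (FN (M * q)) := by
    rw [Fintype.card_fin]
    exact (Fermat.Agent.T2.helper48.finrank_beta_of_dvd M q hq hqM).symm
  let B := basisOfLinearIndependentOfCardEqFinrank hli hcard
  refine ⟨fun i => B.repr f i, ?_⟩
  have h := (B.sum_repr f).symm
  rw [coe_basisOfLinearIndependentOfCardEqFinrank] at h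
  exact h

/-- **Normalisation along Frobenius.**  For `a₀, …, a_{q-1} ∈ F_M`, not all zero, there is a
constant `c ≠ 0` such that `(∑ β(a_i) j^i) / c` is `w₁`-integral with NONZERO reduction
`∑ ā_i(t^q) j̄^i`. -/
theorem normalise_frob (hS : ScaleStatement M A) (a : Fin q → FN M) (ha : ∃ i, a i ≠ 0) :
    ∃ (c : Kb) (s : Fin q → LaurentSeries (kA A)), c ≠ 0 ∧ (∃ i, s i ≠ 0) ∧
      (∀ i, RhoIs A M (algebraMap Kb (LaurentSeries Kb) c⁻¹ * ((a i : FN M) : LaurentSeries Kb))
        (s i)) ∧
      (∑ i, qExpand (kA A) q (s i) * jqModC (kA A) ^ (i : ℕ)) ≠ 0 ∧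
      RhoIs A (M * q) (algebraMap Kb (LaurentSeries Kb) c⁻¹ *
        ((∑ i, heckeBetaBar Kb M q (a i) * elJ M q ^ (i : ℕ) : FN (M * q)) : LaurentSeries Kb))
        (∑ i, qExpand (kA A) q (s i) * jqModC (kA A) ^ (i : ℕ)) := by
  obtain ⟨c, s, hc, hs, i₁, hi₁⟩ := exists_scale_family hS
    (fun i => ((a i : FN M) : LaurentSeries Kb)) (fun i => (a i).2)
    (by
      obtain ⟨i, hi⟩ := ha
      exact ⟨i, fun h => hi (Subtype.ext h)⟩)
  refine ⟨c, s, hc, ⟨i₁, hi₁⟩, hs, ?_, ?_⟩
  · intro hsum
    exact hi₁ (frob_indep q s hsum i₁)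
  · rw [coe_sum_frob, Finset.mul_sum]
    have e : ∀ i : Fin q, algebraMap Kb (LaurentSeries Kb) c⁻¹ *
        (qExpand Kb q ((a i : FN M) : LaurentSeries Kb) * jqModC Kb ^ (i : ℕ)) =
        qExpand Kb q (algebraMap Kb (LaurentSeries Kb) c⁻¹ * ((a i : FN M) : LaurentSeries Kb)) *
          jqModC Kb ^ (i : ℕ) := by
      intro i
      rw [map_mul, ← mul_assoc]
      congr 2
      rw [algebraMap_laurentSeries_eq_single, qExpand_single, mul_zero]
    rw [Finset.sum_congr rfl fun i _ => e i]
    exact RhoIs.sum (A := A) (M := M * q) Finset.univ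
      (f := fun i => qExpand Kb q (algebraMap Kb (LaurentSeries Kb) c⁻¹ *
        ((a i : FN M) : LaurentSeries Kb)) * jqModC Kb ^ (i : ℕ))
      (r := fun i : Fin q => qExpand (kA A) q (s i) * jqModC (kA A) ^ (i : ℕ))
      (fun i _ => ((hs i).qExpand_level q).mul ((rhoIs_j (A := A) (ℓ := q) M).pow (i : ℕ)))

/-- **Scale at level `M q`, element form** (`q` prime, `q ∣ M`). -/
theorem exists_rhoIs_step (hS : ScaleStatement M A) (hq : q.Prime) (hqM : q ∣ M)
    (f : FN (M * q)) (hf : f ≠ 0) :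
    ∃ (c : Kb) (r : LaurentSeries (kA A)), c ≠ 0 ∧ r ≠ 0 ∧
      RhoIs A (M * q) (algebraMap Kb (LaurentSeries Kb) c⁻¹ * (f : LaurentSeries Kb)) r := by
  obtain ⟨a, rfl⟩ := exists_repr_frobBas hq hqM f
  have ha : ∃ i, a i ≠ 0 := by
    by_contra hcon
    rw [not_exists] at hcon
    apply hf
    apply Finset.sum_eq_zero
    intro i _
    rw [not_not.1 (hcon i), map_zero, zero_mul]
  obtain ⟨c, s, hc, -, -, hne, h⟩ := normalise_frob A hS a ha
  exact ⟨c, _, hc, hne, h⟩

/-- **[GAUSS3-A], generic step**: the Gauss valuation at `∞` extends from level `M` to level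
`M q` for a prime `q ∣ M` (value group `v(ℚ̄ˣ)`, residue field `F̃_{Mq}`). -/
theorem scale_step (hS : ScaleStatement M A) (hq : q.Prime) (hqM : q ∣ M) :
    ScaleStatement (M * q) A := by
  apply scale_of_exists_rhoIs
  intro f hf hf0
  exact exists_rhoIs_step A hS hq hqM ⟨f, hf⟩ (fun h => hf0 (congrArg Subtype.val h))

end Step

section Sq

variable {N q : ℕ} [NeZero N] [NeZero q] (hq : q.Prime) (hqN : ¬ q ∣ N)
  (A : ValuationSubring Kb) (hA : A.LiesOverPrime q)

include hq hqN hA

/-- **[GAUSS3-A]** `helper29.ScaleStatement` at the level `N q q`, VERBATIM: the Gauss valuation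
`w₁` (cusp `∞`) of `F_{Nqq}` has the value group of `ℚ̄` and residue field `F̃_{Nqq}`. -/
theorem scaleStatement_sq : ScaleStatement (N * q * q) A :=
  scale_step A (scaleStatement_bad hq hqN A hA) hq (Dvd.intro_left N rfl)

/-- element form of `scaleStatement_sq` -/
theorem exists_rhoIs_sq (f : FN (N * q * q)) (hf : f ≠ 0) :
    ∃ (c : Kb) (r : LaurentSeries (kA A)), c ≠ 0 ∧ r ≠ 0 ∧
      RhoIs A (N * q * q) (algebraMap Kb (LaurentSeries Kb) c⁻¹ * (f : LaurentSeries Kb)) r :=
  exists_rhoIs_step A (scaleStatement_bad hq hqN A hA) hq (Dvd.intro_left N rfl) f hf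

end Sq

end Fermat.Agent.T3.helper36

end
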