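/-
T3 [GAUSS3], shared vocabulary (helper36): the Gauss valuation of a Laurent series in QUOTIENT
form, at ANY cusp (no membership clauses).

* `RhoQ A g r`   : the series `g ∈ ℚ̄((t))` is `Y₁ / Y₂` with `A`-integral series, `red Y₂ ≠ 0`,
                   and `red Y₁ = r * red Y₂` ("`g` is Gauss-integral with reduction `r`").
                   This is the T2 predicate `RhoIs` without the clauses `Y ∈ F`, `red Y ∈ F̃`;
                   use it as `RhoQ A (ex3 .. i f) r`.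
* `GaussIs A g c`: `c ≠ 0` and `g / c` is a Gauss unit ("`w(g) = v(c)`").
* calculus: `RhoQ.add/mul/neg/sub/pow/sum/prod/inv/unique`, constants, `RhoIs.rhoQ`,
  `GaussIs.mul/inv/pow/zpow/div`, `GaussIs.valuation_eq` (the value is well defined),
  `GaussIs.congr_val`, `gaussIs_const`, `GaussIs.ne_zero`, `GaussIs.rhoQ_of_valuation_eq_one`.
-/
import Mathlib
import Fermat.Agent.T2.helper36_ValCore

set_option autoImplicit false
set_option linter.unusedSectionVars false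
set_option linter.unusedVariables false

noncomputable section

open HahnSeries ModularCurve
open Fermat.Agent.S18.helper19 Fermat.Agent.P2.helper29 Fermat.Agent.T2.helper36

namespace Fermat.Agent.T3.helper36

variable {A : ValuationSubring Kb}

/-! ### `RhoQ` -/

/-- `g` is Gauss-integral with reduction `r`, quotient form. -/
def RhoQ (A : ValuationSubring Kb) (g : LaurentSeries Kb) (r : LaurentSeries (kA A)) : Prop :=
  ∃ Y₁ Y₂ : LaurentSeries A, red A Y₂ ≠ 0 ∧ incl A Y₁ = g * incl A Y₂ ∧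
    red A Y₁ = r * red A Y₂

theorem rhoQ_incl (Y : LaurentSeries A) : RhoQ A (incl A Y) (red A Y) :=
  ⟨Y, 1, by rw [map_one]; exact one_ne_zero, by rw [map_one, mul_one], by rw [map_one, mul_one]⟩

theorem rhoQ_zero : RhoQ A 0 0 := by
  have := rhoQ_incl (A := A) 0
  rwa [map_zero, map_zero] at this

theorem rhoQ_one : RhoQ A 1 1 := by
  have := rhoQ_incl (A := A) 1
  rwa [map_one, map_one] at this

theorem rhoQ_quot (Y₁ Y₂ : LaurentSeries A) (h : red A Y₂ ≠ 0) :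
    RhoQ A (incl A Y₁ / incl A Y₂) (red A Y₁ / red A Y₂) :=
  ⟨Y₁, Y₂, h, by rw [div_mul_cancel₀ _ (incl_ne_zero_of_red_ne_zero h)],
    by rw [div_mul_cancel₀ _ h]⟩

/-- the T2 predicate implies the quotient form -/
theorem _root_.Fermat.Agent.T2.helper36.RhoIs.rhoQ {M : ℕ} {f : LaurentSeries Kb}
    {r : LaurentSeries (kA A)} (h : RhoIs A M f r) : RhoQ A f r := by
  obtain ⟨Y₁, Y₂, -, h2, h3, h4⟩ := h
  exact ⟨Y₁, Y₂, h2.2.2, h3, h4⟩

theorem RhoQ.add {f g : LaurentSeries Kb} {r s : LaurentSeries (kA A)}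
    (hf : RhoQ A f r) (hg : RhoQ A g s) : RhoQ A (f + g) (r + s) := by
  obtain ⟨Y₁, Y₂, h2, h3, h4⟩ := hf
  obtain ⟨Z₁, Z₂, k2, k3, k4⟩ := hg
  refine ⟨Y₁ * Z₂ + Z₁ * Y₂, Y₂ * Z₂, ?_, ?_, ?_⟩
  · rw [map_mul]; exact mul_ne_zero h2 k2
  · rw [map_add, map_mul, map_mul, map_mul, h3, k3]; ring
  · rw [map_add, map_mul, map_mul, map_mul, h4, k4]; ring

theorem RhoQ.mul {f g : LaurentSeries Kb} {r s : LaurentSeries (kA A)}
    (hf : RhoQ A f r) (hg : RhoQ A g s) : RhoQ A (f * g) (r * s) := by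
  obtain ⟨Y₁, Y₂, h2, h3, h4⟩ := hf
  obtain ⟨Z₁, Z₂, k2, k3, k4⟩ := hg
  refine ⟨Y₁ * Z₁, Y₂ * Z₂, ?_, ?_, ?_⟩
  · rw [map_mul]; exact mul_ne_zero h2 k2
  · rw [map_mul, map_mul, h3, k3]; ring
  · rw [map_mul, map_mul, h4, k4]; ring

theorem RhoQ.neg {f : LaurentSeries Kb} {r : LaurentSeries (kA A)}
    (hf : RhoQ A f r) : RhoQ A (-f) (-r) := by
  obtain ⟨Y₁, Y₂, h2, h3, h4⟩ := hf
  refine ⟨-Y₁, Y₂, h2, ?_, ?_⟩
  · rw [map_neg, h3]; ring
  · rw [map_neg, h4]; ring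

theorem RhoQ.sub {f g : LaurentSeries Kb} {r s : LaurentSeries (kA A)}
    (hf : RhoQ A f r) (hg : RhoQ A g s) : RhoQ A (f - g) (r - s) := by
  rw [sub_eq_add_neg, sub_eq_add_neg]; exact hf.add hg.neg

theorem RhoQ.pow {f : LaurentSeries Kb} {r : LaurentSeries (kA A)}
    (hf : RhoQ A f r) (n : ℕ) : RhoQ A (f ^ n) (r ^ n) := by
  induction n with
  | zero => rw [pow_zero, pow_zero]; exact rhoQ_one
  | succ n ih => rw [pow_succ, pow_succ]; exact ih.mul hf

theorem RhoQ.sum {ι : Type*} (s : Finset ι) {f : ι → LaurentSeries Kb}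
    {r : ι → LaurentSeries (kA A)} (h : ∀ i ∈ s, RhoQ A (f i) (r i)) :
    RhoQ A (∑ i ∈ s, f i) (∑ i ∈ s, r i) := by
  classical
  induction s using Finset.induction_on with
  | empty => rw [Finset.sum_empty, Finset.sum_empty]; exact rhoQ_zero
  | insert a s ha ih =>
    rw [Finset.sum_insert ha, Finset.sum_insert ha]
    exact (h a (Finset.mem_insert_self a s)).add
      (ih fun i hi => h i (Finset.mem_insert_of_mem hi))

theorem RhoQ.prod {ι : Type*} (s : Finset ι) {f : ι → LaurentSeries Kb}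
    {r : ι → LaurentSeries (kA A)} (h : ∀ i ∈ s, RhoQ A (f i) (r i)) :
    RhoQ A (∏ i ∈ s, f i) (∏ i ∈ s, r i) := by
  classical
  induction s using Finset.induction_on with
  | empty => rw [Finset.prod_empty, Finset.prod_empty]; exact rhoQ_one
  | insert a s ha ih =>
    rw [Finset.prod_insert ha, Finset.prod_insert ha]
    exact (h a (Finset.mem_insert_self a s)).mul
      (ih fun i hi => h i (Finset.mem_insert_of_mem hi))

/-- the reduction is unique -/
theorem RhoQ.unique {f : LaurentSeries Kb} {r s : LaurentSeries (kA A)}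
    (hr : RhoQ A f r) (hs : RhoQ A f s) : r = s := by
  obtain ⟨Y₁, Y₂, h2, h3, h4⟩ := hr
  obtain ⟨Z₁, Z₂, k2, k3, k4⟩ := hs
  have e : Y₁ * Z₂ = Z₁ * Y₂ := by
    apply incl_injective_val A
    rw [map_mul, map_mul, h3, k3]; ring
  have e' := congrArg (red A) e
  rw [map_mul, map_mul, h4, k4] at e'
  have hne : red A Y₂ * red A Z₂ ≠ 0 := mul_ne_zero h2 k2
  apply mul_right_cancel₀ hne
  rw [← mul_assoc, e']; ring

theorem RhoQ.eq_zero {r : LaurentSeries (kA A)} (h : RhoQ A 0 r) : r = 0 :=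
  h.unique rhoQ_zero

theorem RhoQ.eq_one {r : LaurentSeries (kA A)} (h : RhoQ A 1 r) : r = 1 :=
  h.unique rhoQ_one

/-- inverse of a Gauss unit -/
theorem RhoQ.inv {f : LaurentSeries Kb} {r : LaurentSeries (kA A)}
    (hf : RhoQ A f r) (hr : r ≠ 0) : RhoQ A f⁻¹ r⁻¹ := by
  obtain ⟨Y₁, Y₂, h2, h3, h4⟩ := hf
  have hY₁ : red A Y₁ ≠ 0 := by rw [h4]; exact mul_ne_zero hr h2
  have h0 : incl A Y₁ ≠ 0 := incl_ne_zero_of_red_ne_zero hY₁
  have hf0 : f ≠ 0 := by
    rintro rfl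
    rw [zero_mul] at h3
    exact h0 h3
  refine ⟨Y₂, Y₁, hY₁, ?_, ?_⟩
  · rw [h3, ← mul_assoc, inv_mul_cancel₀ hf0, one_mul]
  · rw [h4, ← mul_assoc, inv_mul_cancel₀ hr, one_mul]

theorem RhoQ.ne_zero {f : LaurentSeries Kb} {r : LaurentSeries (kA A)}
    (hf : RhoQ A f r) (hr : r ≠ 0) : f ≠ 0 := by
  rintro rfl
  exact hr hf.eq_zero

theorem RhoQ.div {f g : LaurentSeries Kb} {r s : LaurentSeries (kA A)}
    (hf : RhoQ A f r) (hg : RhoQ A g s) (hs : s ≠ 0) : RhoQ A (f / g) (r / s) := by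
  rw [div_eq_mul_inv, div_eq_mul_inv]; exact hf.mul (hg.inv hs)

theorem RhoQ.zpow {f : LaurentSeries Kb} {r : LaurentSeries (kA A)}
    (hf : RhoQ A f r) (hr : r ≠ 0) (n : ℤ) : RhoQ A (f ^ n) (r ^ n) := by
  cases n with
  | ofNat n => simpa using hf.pow n
  | negSucc n =>
    rw [zpow_negSucc, zpow_negSucc]
    exact (hf.pow (n + 1)).inv (pow_ne_zero _ hr)

/-- constants of `A` -/
theorem rhoQ_algebraMap (a : A) :
    RhoQ A (algebraMap Kb (LaurentSeries Kb) (a : Kb))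
      (algebraMap (kA A) (LaurentSeries (kA A)) (IsLocalRing.residue A a)) :=
  (rhoIs_algebraMap (M := 1) a).rhoQ

/-- a unit constant -/
theorem rhoQ_algebraMap_of_valuation_eq_one {c : Kb} (hc : A.valuation c = 1) :
    ∃ r : LaurentSeries (kA A), r ≠ 0 ∧ RhoQ A (algebraMap Kb (LaurentSeries Kb) c) r := by
  have hcA : c ∈ A := (A.valuation_le_one_iff c).1 hc.le
  refine ⟨_, ?_, rhoQ_algebraMap (⟨c, hcA⟩ : A)⟩
  intro h0
  have h1 : IsLocalRing.residue A (⟨c, hcA⟩ : A) = 0 := by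
    have h2 := congrArg (fun z : LaurentSeries (kA A) => z.coeff 0) h0
    simpa [algebraMap_laurentSeries_eq_single] using h2
  rw [IsLocalRing.residue_eq_zero_iff] at h1
  have h3 : A.valuation ((⟨c, hcA⟩ : A) : Kb) < 1 :=
    (A.valuation_lt_one_iff (⟨c, hcA⟩ : A)).1 h1
  exact (ne_of_lt h3) hc

/-- a constant which is Gauss-integral lies in `A` -/
theorem RhoQ.algebraMap_mem {c : Kb} {r : LaurentSeries (kA A)}
    (h : RhoQ A (algebraMap Kb (LaurentSeries Kb) c) r) : c ∈ A := by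
  by_contra hc
  have hc0 : c ≠ 0 := fun h0 => hc (h0 ▸ A.zero_mem)
  have hinv : c⁻¹ ∈ A := (A.mem_or_inv_mem c).resolve_left hc
  have hlt : A.valuation c⁻¹ < 1 := by
    rw [map_inv₀]
    have h1 : 1 < A.valuation c := by
      rw [← not_le, A.valuation_le_one_iff]
      exact hc
    exact inv_lt_one_of_one_lt₀ h1
  have hres : IsLocalRing.residue A ⟨c⁻¹, hinv⟩ = 0 := by
    rw [IsLocalRing.residue_eq_zero_iff]
    exact (A.valuation_lt_one_iff (⟨c⁻¹, hinv⟩ : A)).2 hlt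
  have h' := (rhoQ_algebraMap (⟨c⁻¹, hinv⟩ : A)).mul h
  rw [hres, map_zero, zero_mul] at h'
  have e : algebraMap Kb (LaurentSeries Kb) ((⟨c⁻¹, hinv⟩ : A) : Kb) *
      algebraMap Kb (LaurentSeries Kb) c = 1 := by
    rw [← map_mul]
    show algebraMap Kb (LaurentSeries Kb) (c⁻¹ * c) = 1
    rw [inv_mul_cancel₀ hc0, map_one]
  rw [e] at h'
  exact one_ne_zero h'.eq_one.symm

/-! ### `GaussIs` -/

/-- "`w(g) = v(c)`": `c ≠ 0` and `g / c` is a Gauss unit. -/
def GaussIs (A : ValuationSubring Kb) (g : LaurentSeries Kb) (c : Kb) : Prop :=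
  c ≠ 0 ∧ ∃ r : LaurentSeries (kA A), r ≠ 0 ∧
    RhoQ A (algebraMap Kb (LaurentSeries Kb) c⁻¹ * g) r

theorem GaussIs.ne_zero {g : LaurentSeries Kb} {c : Kb} (h : GaussIs A g c) : g ≠ 0 := by
  obtain ⟨-, r, hr, h⟩ := h
  rintro rfl
  rw [mul_zero] at h
  exact hr h.eq_zero

theorem gaussIs_of_rhoQ {g : LaurentSeries Kb} {r : LaurentSeries (kA A)} (h : RhoQ A g r)
    (hr : r ≠ 0) : GaussIs A g 1 :=
  ⟨one_ne_zero, r, hr, by rwa [inv_one, map_one, one_mul]⟩

theorem GaussIs.rhoQ_one {g : LaurentSeries Kb} (h : GaussIs A g 1) :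
    ∃ r : LaurentSeries (kA A), r ≠ 0 ∧ RhoQ A g r := by
  obtain ⟨-, r, hr, h⟩ := h
  rw [inv_one, map_one, one_mul] at h
  exact ⟨r, hr, h⟩

theorem gaussIs_one : GaussIs A (1 : LaurentSeries Kb) 1 :=
  gaussIs_of_rhoQ rhoQ_one one_ne_zero

theorem gaussIs_const {c : Kb} (hc : c ≠ 0) :
    GaussIs A (algebraMap Kb (LaurentSeries Kb) c) c := by
  refine ⟨hc, 1, one_ne_zero, ?_⟩
  rw [← map_mul, inv_mul_cancel₀ hc, map_one]
  exact rhoQ_one

theorem GaussIs.mul {f g : LaurentSeries Kb} {c d : Kb} (hf : GaussIs A f c)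
    (hg : GaussIs A g d) : GaussIs A (f * g) (c * d) := by
  obtain ⟨hc, r, hr, h⟩ := hf
  obtain ⟨hd, s, hs, k⟩ := hg
  refine ⟨mul_ne_zero hc hd, r * s, mul_ne_zero hr hs, ?_⟩
  have := h.mul k
  have e : algebraMap Kb (LaurentSeries Kb) (c * d)⁻¹ * (f * g) =
      algebraMap Kb (LaurentSeries Kb) c⁻¹ * f * (algebraMap Kb (LaurentSeries Kb) d⁻¹ * g) := by
    rw [mul_inv, map_mul]; ring
  rwa [e]

theorem GaussIs.inv {f : LaurentSeries Kb} {c : Kb} (hf : GaussIs A f c) :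
    GaussIs A f⁻¹ c⁻¹ := by
  obtain ⟨hc, r, hr, h⟩ := hf
  refine ⟨inv_ne_zero hc, r⁻¹, inv_ne_zero hr, ?_⟩
  have := h.inv hr
  have e : algebraMap Kb (LaurentSeries Kb) c⁻¹⁻¹ * f⁻¹ =
      (algebraMap Kb (LaurentSeries Kb) c⁻¹ * f)⁻¹ := by
    rw [mul_inv, ← map_inv₀]
  rwa [e]

theorem GaussIs.div {f g : LaurentSeries Kb} {c d : Kb} (hf : GaussIs A f c)
    (hg : GaussIs A g d) : GaussIs A (f / g) (c / d) := by
  rw [div_eq_mul_inv, div_eq_mul_inv]; exact hf.mul hg.inv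

theorem GaussIs.pow {f : LaurentSeries Kb} {c : Kb} (hf : GaussIs A f c) (n : ℕ) :
    GaussIs A (f ^ n) (c ^ n) := by
  induction n with
  | zero => rw [pow_zero, pow_zero]; exact gaussIs_one
  | succ n ih => rw [pow_succ, pow_succ]; exact ih.mul hf

theorem GaussIs.zpow {f : LaurentSeries Kb} {c : Kb} (hf : GaussIs A f c) (n : ℤ) :
    GaussIs A (f ^ n) (c ^ n) := by
  cases n with
  | ofNat n => simpa using hf.pow n
  | negSucc n =>
    rw [zpow_negSucc, zpow_negSucc]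
    exact (hf.pow (n + 1)).inv

theorem GaussIs.prod {ι : Type*} (s : Finset ι) {f : ι → LaurentSeries Kb} {c : ι → Kb}
    (h : ∀ i ∈ s, GaussIs A (f i) (c i)) : GaussIs A (∏ i ∈ s, f i) (∏ i ∈ s, c i) := by
  classical
  induction s using Finset.induction_on with
  | empty => rw [Finset.prod_empty, Finset.prod_empty]; exact gaussIs_one
  | insert a s ha ih =>
    rw [Finset.prod_insert ha, Finset.prod_insert ha]
    exact (h a (Finset.mem_insert_self a s)).mul
      (ih fun i hi => h i (Finset.mem_insert_of_mem hi))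

/-- a Gauss unit which is a constant multiple of a Gauss unit: the constant is a unit -/
theorem valuation_eq_one_of_rhoQ {g : LaurentSeries Kb} {c : Kb} {r s : LaurentSeries (kA A)}
    (hr : r ≠ 0) (hs : s ≠ 0) (h1 : RhoQ A g r)
    (h2 : RhoQ A (algebraMap Kb (LaurentSeries Kb) c * g) s) : A.valuation c = 1 := by
  have hg : g ≠ 0 := h1.ne_zero hr
  have hc0 : c ≠ 0 := by
    rintro rfl
    rw [map_zero, zero_mul] at h2
    exact hs h2.eq_zero
  have k1 : RhoQ A (algebraMap Kb (LaurentSeries Kb) c) (s * r⁻¹) := by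
    have := h2.mul (h1.inv hr)
    rwa [mul_assoc, mul_inv_cancel₀ hg, mul_one] at this
  have k2 : RhoQ A (algebraMap Kb (LaurentSeries Kb) c⁻¹) (r * s⁻¹) := by
    have := h1.mul (h2.inv hs)
    have e : g * (algebraMap Kb (LaurentSeries Kb) c * g)⁻¹ =
        algebraMap Kb (LaurentSeries Kb) c⁻¹ := by
      rw [mul_inv, map_inv₀]
      field_simp
    rwa [e] at this
  have m1 : A.valuation c ≤ 1 := (A.valuation_le_one_iff c).2 k1.algebraMap_mem
  have m2 : A.valuation c⁻¹ ≤ 1 := (A.valuation_le_one_iff c⁻¹).2 k2.algebraMap_mem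
  rw [map_inv₀] at m2
  have hv : A.valuation c ≠ 0 := (Valuation.ne_zero_iff _).2 hc0
  have m3 : 1 ≤ A.valuation c := by
    by_contra hlt
    rw [not_le] at hlt
    have : 1 < (A.valuation c)⁻¹ := (one_lt_inv₀ (zero_lt_iff.2 hv)).2 hlt
    exact absurd m2 (not_le.2 this)
  exact le_antisymm m1 m3

/-- **the Gauss valuation is well defined.** -/
theorem GaussIs.valuation_eq {g : LaurentSeries Kb} {c d : Kb} (hc : GaussIs A g c)
    (hd : GaussIs A g d) : A.valuation c = A.valuation d := by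
  obtain ⟨hc0, r, hr, h⟩ := hc
  obtain ⟨hd0, s, hs, k⟩ := hd
  have e : algebraMap Kb (LaurentSeries Kb) (c * d⁻¹) *
      (algebraMap Kb (LaurentSeries Kb) c⁻¹ * g) = algebraMap Kb (LaurentSeries Kb) d⁻¹ * g := by
    rw [← mul_assoc, ← map_mul]
    congr 2
    field_simp
  have := valuation_eq_one_of_rhoQ hr hs h (by rw [e]; exact k)
  rw [map_mul, map_inv₀] at this
  have hv : A.valuation d ≠ 0 := (Valuation.ne_zero_iff _).2 hd0
  field_simp at this
  exact this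

/-- the constant may be changed by a unit of `A` -/
theorem GaussIs.congr_val {g : LaurentSeries Kb} {c d : Kb} (hc : GaussIs A g c)
    (hd0 : d ≠ 0) (h : A.valuation c = A.valuation d) : GaussIs A g d := by
  obtain ⟨hc0, r, hr, hg⟩ := hc
  have hu : A.valuation (c * d⁻¹) = 1 := by
    rw [map_mul, map_inv₀, h, mul_inv_cancel₀]
    exact (Valuation.ne_zero_iff _).2 hd0
  obtain ⟨s, hs, k⟩ := rhoQ_algebraMap_of_valuation_eq_one hu
  refine ⟨hd0, s * r, mul_ne_zero hs hr, ?_⟩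
  have := k.mul hg
  have e : algebraMap Kb (LaurentSeries Kb) (c * d⁻¹) *
      (algebraMap Kb (LaurentSeries Kb) c⁻¹ * g) = algebraMap Kb (LaurentSeries Kb) d⁻¹ * g := by
    rw [← mul_assoc, ← map_mul]
    congr 2
    field_simp
  rwa [e] at this

/-- if `w(g) = v(c)` and `v(c) = 1` then `g` is a Gauss unit -/
theorem GaussIs.rhoQ_of_valuation_eq_one {g : LaurentSeries Kb} {c : Kb} (hc : GaussIs A g c)
    (h : A.valuation c = 1) : ∃ r : LaurentSeries (kA A), r ≠ 0 ∧ RhoQ A g r :=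
  (hc.congr_val one_ne_zero (by rw [h, map_one])).rhoQ_one

/-- scaling by a constant -/
theorem GaussIs.const_mul {g : LaurentSeries Kb} {c : Kb} (hc : GaussIs A g c) {d : Kb}
    (hd : d ≠ 0) : GaussIs A (algebraMap Kb (LaurentSeries Kb) d * g) (d * c) :=
  (gaussIs_const hd).mul hc

/-- the T2 scale statement in `GaussIs` form -/
theorem gaussIs_of_scale {M : ℕ} [NeZero M] (hS : ScaleStatement M A) {f : LaurentSeries Kb}
    (hf : f ∈ FF M) (hf0 : f ≠ 0) : ∃ c : Kb, GaussIs A f c := by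
  obtain ⟨c, Y₁, Y₂, hc, h1, h2, h3⟩ := hS f hf hf0
  refine ⟨c, hc, red A Y₁ / red A Y₂, div_ne_zero h1.2.2 h2.2.2, Y₁, Y₂, h2.2.2, ?_,
    by rw [div_mul_cancel₀ _ h2.2.2]⟩
  rw [mul_assoc, ← h3, ← mul_assoc, ← map_mul, inv_mul_cancel₀ hc, map_one, one_mul]

end Fermat.Agent.T3.helper36

end
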