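import Mathlib
import Fermat.Agent.P2.helper93_CoreWire
import Fermat.Agent.P2.helper29_Interface
import Fermat.Agent.P3.helper85_Cont
import Fermat.Agent.T3.helper84_K0Disc

/-!
# T3 [GAUSS3], part [G3-C] (helper5): the value groups of the Gauss valuations on fixed functions

`A` a valuation subring of `ℚ̄`, `H` a subgroup of its inertia group (in nature `H = I_A` or
`H = I_A ∩ G_{ℚ(ζ_q)}`), `Good` a class of integral series closed under products, unit constants
and the action of `H`, whose members have nonzero reduction and are defined over a number field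
(`GoodClass`; instance `goodClass_isGood` for `IsGood A M`).

* `finite_orbit` : the `H`-orbit of a series defined over a number field is finite;
* `exists_fixed_multiple` : every good series `Y` divides (by a good series) a good series
  with `H`-fixed coefficients (the norm over the orbit);
* `scale_fix` : if `f` has `H`-fixed coefficients and `c · Y₁ = f · Y₂` with `Y₁, Y₂` good, and
  the `H`-fixed elements of `ℚ̄ˣ` are of the form `π ^ m · unit`, then
  `π ^ m · Y₁' = f · Y₂'` with good `Y₁', Y₂'` having `H`-fixed coefficients: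
  the Gauss valuation of `f` lies in `ℤ · v(π)`;
* `scale_fixI` : the instance `H = I_A`, `π = q`, `Good = IsGood A M` - the value group of the
  Gauss valuation at `∞` on the `I`-fixed functions of level `M` is `ℤ · v(q)`.
-/

set_option autoImplicit false
set_option linter.unusedSectionVars false

noncomputable section

open HahnSeries IntermediateField AlgebraicCurve ModularCurve
open Fermat.Agent.S18.helper19 Fermat.Agent.P2.helper29 Fermat.Agent.P2.helper93
  Fermat.Agent.P3.helper85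

namespace Fermat.Agent.T3.helper5

/-! ### The coefficientwise action of `G_ℚ` -/

section Act

theorem coeffMap_gal_mul (g h : Kb ≃ₐ[ℚ] Kb) (x : LaurentSeries Kb) :
    coeffMap (((g * h : Kb ≃ₐ[ℚ] Kb)) : Kb →+* Kb) x
      = coeffMap ((g : Kb ≃ₐ[ℚ] Kb) : Kb →+* Kb) (coeffMap ((h : Kb ≃ₐ[ℚ] Kb) : Kb →+* Kb) x) := by
  rw [coeffMap_coeffMap]
  exact coeffMap_congr (RingHom.ext fun a => rfl) x

theorem coeffMap_gal_one (x : LaurentSeries Kb) :
    coeffMap (((1 : Kb ≃ₐ[ℚ] Kb)) : Kb →+* Kb) x = x := by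
  ext k
  rfl

theorem coeff_const_mul (c : Kb) (f : LaurentSeries Kb) (j : ℤ) :
    (algebraMap Kb (LaurentSeries Kb) c * f).coeff j = c * f.coeff j := by
  rw [algebraMap_laurentSeries_eq_single, HahnSeries.coeff_single_zero_mul]

theorem coeffMap_gal_injective (g : Kb ≃ₐ[ℚ] Kb) :
    Function.Injective (coeffMap ((g : Kb ≃ₐ[ℚ] Kb) : Kb →+* Kb)) :=
  cw_coeffMap_injective _ g.injective

/-- The orbit of a series defined over a number field under a subgroup of `G_ℚ` is finite. -/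
theorem finite_orbit (H : Subgroup (Kb ≃ₐ[ℚ] Kb)) {x : LaurentSeries Kb} (hx : FixedByOpen x) :
    (Set.range fun σ : H => coeffMap (((σ : Kb ≃ₐ[ℚ] Kb)) : Kb →+* Kb) x).Finite := by
  classical
  obtain ⟨K, hK, hfix⟩ := hx
  have _ := hK
  let Φ : H → (K →ₐ[ℚ] Kb) := fun σ => ((σ : Kb ≃ₐ[ℚ] Kb) : Kb →ₐ[ℚ] Kb).comp K.val
  let ψ : (K →ₐ[ℚ] Kb) → LaurentSeries Kb := fun e =>
    if h : ∃ τ : H, Φ τ = e then coeffMap (((h.choose : Kb ≃ₐ[ℚ] Kb)) : Kb →+* Kb) x else 0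
  refine (Set.finite_range ψ).subset ?_
  rintro _ ⟨σ, rfl⟩
  refine ⟨Φ σ, ?_⟩
  have hex : ∃ τ : H, Φ τ = Φ σ := ⟨σ, rfl⟩
  have hτ := hex.choose_spec
  show (if h : ∃ τ : H, Φ τ = Φ σ then
    coeffMap (((h.choose : Kb ≃ₐ[ℚ] Kb)) : Kb →+* Kb) x else 0) = _
  rw [dif_pos hex]
  set τ := hex.choose with hτdef
  have hagree : ∀ y ∈ K, (τ : Kb ≃ₐ[ℚ] Kb) y = (σ : Kb ≃ₐ[ℚ] Kb) y := by
    intro y hy
    exact congrArg (fun e : K →ₐ[ℚ] Kb => e ⟨y, hy⟩) hτ
  have h1 := hfix ((τ : Kb ≃ₐ[ℚ] Kb)⁻¹ * (σ : Kb ≃ₐ[ℚ] Kb)) (fun y hy => by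
    show (τ : Kb ≃ₐ[ℚ] Kb)⁻¹ ((σ : Kb ≃ₐ[ℚ] Kb) y) = y
    rw [← hagree y hy]
    exact (τ : Kb ≃ₐ[ℚ] Kb).symm_apply_apply y)
  have h2 := congrArg (coeffMap (((τ : Kb ≃ₐ[ℚ] Kb)) : Kb →+* Kb)) h1
  rw [← coeffMap_gal_mul, mul_inv_cancel_left] at h2
  exact h2.symm

end Act

/-! ### Classes of good series -/

section Good

variable {A : ValuationSubring Kb}

/-- the closure properties of a class of "good" integral series relative to a group `H` of
automorphisms -/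
structure GoodClass (A : ValuationSubring Kb) (H : Subgroup (Kb ≃ₐ[ℚ] Kb))
    (Good : LaurentSeries A → Prop) : Prop where
  le_inertia : H ≤ A.inertiaSubgroupIn ℚ
  one : Good 1
  mul : ∀ {Y Y' : LaurentSeries A}, Good Y → Good Y' → Good (Y * Y')
  const : ∀ {a : A}, IsLocalRing.residue A a ≠ 0 → Good (constA a)
  act : ∀ {σ : Kb ≃ₐ[ℚ] Kb} (_ : σ ∈ H) (hσ' : σ ∈ A.decompositionSubgroup ℚ)
    {Y : LaurentSeries A}, Good Y → Good (actA σ hσ' Y)
  red_ne_zero : ∀ {Y : LaurentSeries A}, Good Y → red A Y ≠ 0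
  fixedByOpen : ∀ {Y : LaurentSeries A}, Good Y → FixedByOpen (incl A Y)

variable {H : Subgroup (Kb ≃ₐ[ℚ] Kb)} {Good : LaurentSeries A → Prop}

theorem GoodClass.prod (G : GoodClass A H Good) {ι : Type*} (s : Finset ι)
    (Y : ι → LaurentSeries A) (h : ∀ i ∈ s, Good (Y i)) : Good (∏ i ∈ s, Y i) := by
  classical
  induction s using Finset.induction_on with
  | empty => rw [Finset.prod_empty]; exact G.one
  | insert a s ha ih =>
    rw [Finset.prod_insert ha]
    exact G.mul (h a (Finset.mem_insert_self a s))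
      (ih fun i hi => h i (Finset.mem_insert_of_mem hi))

theorem GoodClass.mem_dec (G : GoodClass A H Good) {σ : Kb ≃ₐ[ℚ] Kb} (hσ : σ ∈ H) :
    σ ∈ A.decompositionSubgroup ℚ :=
  (decK_eq_id_of_mem_inertia (G.le_inertia hσ)).choose

/-- **The norm over the orbit**: every good series divides, by a good series, a good series
whose coefficients are fixed by `H`. -/
theorem exists_fixed_multiple (G : GoodClass A H Good) {Y : LaurentSeries A} (hY : Good Y) :
    ∃ Z : LaurentSeries A, Good Z ∧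
      ∀ σ ∈ H, coeffMap ((σ : Kb ≃ₐ[ℚ] Kb) : Kb →+* Kb) (incl A (Y * Z)) = incl A (Y * Z) := by
  classical
  set x : LaurentSeries Kb := incl A Y with hx
  have hfin := finite_orbit H (G.fixedByOpen hY)
  set T : Finset (LaurentSeries Kb) := hfin.toFinset with hT
  have hmemT : ∀ s, s ∈ T ↔ ∃ σ : H, coeffMap (((σ : Kb ≃ₐ[ℚ] Kb)) : Kb →+* Kb) x = s := by
    intro s
    rw [hT, Set.Finite.mem_toFinset]
    rfl
  have hxT : x ∈ T := (hmemT x).mpr ⟨1, coeffMap_gal_one x⟩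
  -- a choice of representatives
  let τ : LaurentSeries Kb → H := fun s =>
    if h : ∃ σ : H, coeffMap (((σ : Kb ≃ₐ[ℚ] Kb)) : Kb →+* Kb) x = s then h.choose else 1
  have hτ : ∀ s ∈ T, coeffMap ((((τ s : H) : Kb ≃ₐ[ℚ] Kb)) : Kb →+* Kb) x = s := by
    intro s hs
    have hex := (hmemT s).mp hs
    show coeffMap ((((if h : ∃ σ : H, coeffMap (((σ : Kb ≃ₐ[ℚ] Kb)) : Kb →+* Kb) x = s
      then h.choose else 1 : H) : Kb ≃ₐ[ℚ] Kb)) : Kb →+* Kb) x = s
    rw [dif_pos hex]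
    exact hex.choose_spec
  let Yτ : LaurentSeries Kb → LaurentSeries A := fun s =>
    actA ((τ s : H) : Kb ≃ₐ[ℚ] Kb) (G.mem_dec (τ s).2) Y
  have hYτ : ∀ s ∈ T, incl A (Yτ s) = s := by
    intro s hs
    show coeffMap A.subtype (actA _ _ Y) = s
    rw [coeffMap_subtype_actA]
    exact hτ s hs
  refine ⟨∏ s ∈ T.erase x, Yτ s, G.prod _ _ fun s _ => G.act (τ s).2 _ hY, ?_⟩
  have hprod : incl A (Y * ∏ s ∈ T.erase x, Yτ s) = ∏ s ∈ T, s := by
    rw [map_mul, map_prod, ← Finset.mul_prod_erase T (fun s => s) hxT]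
    congr 1
    exact Finset.prod_congr rfl fun s hs => hYτ s (Finset.mem_of_mem_erase hs)
  rw [hprod]
  intro σ hσ
  rw [map_prod]
  have himg : T.image (coeffMap ((σ : Kb ≃ₐ[ℚ] Kb) : Kb →+* Kb)) = T := by
    apply Finset.eq_of_subset_of_card_le
    · intro s hs
      obtain ⟨s', hs', rfl⟩ := Finset.mem_image.mp hs
      obtain ⟨ρ, rfl⟩ := (hmemT s').mp hs'
      refine (hmemT _).mpr ⟨⟨σ, hσ⟩ * ρ, ?_⟩
      exact coeffMap_gal_mul σ ρ x
    · rw [Finset.card_image_of_injective _ (coeffMap_gal_injective σ)]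
  conv_rhs => rw [← himg]
  rw [Finset.prod_image fun a _ b _ hab => coeffMap_gal_injective σ hab]

/-- **[G3-C], abstract form.**  If `f` has `H`-fixed coefficients, `c · Y₁ = f · Y₂` with good
series `Y₁`, `Y₂`, and every nonzero `H`-fixed element of `ℚ̄` is `π ^ m` times a unit of `A`
(`π` fixed by `H`), then `π ^ m · Y₁' = f · Y₂'` for some `m` and good series `Y₁'`, `Y₂'` with
`H`-fixed coefficients. -/
theorem scale_fix (G : GoodClass A H Good) {π : Kb} (hπ : ∀ σ ∈ H, σ π = π)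
    (hval : ∀ x : Kb, x ≠ 0 → (∀ σ ∈ H, σ x = x) →
      ∃ (m : ℤ) (u : Kb), A.valuation u = 1 ∧ x = π ^ m * u)
    {f : LaurentSeries Kb}
    (hfix : ∀ σ ∈ H, coeffMap ((σ : Kb ≃ₐ[ℚ] Kb) : Kb →+* Kb) f = f)
    {c : Kb} (hc : c ≠ 0) {Y₁ Y₂ : LaurentSeries A} (g₁ : Good Y₁) (g₂ : Good Y₂)
    (e : algebraMap Kb (LaurentSeries Kb) c * incl A Y₁ = f * incl A Y₂) :
    ∃ (m : ℤ) (Z₁ Z₂ : LaurentSeries A), Good Z₁ ∧ Good Z₂ ∧
      algebraMap Kb (LaurentSeries Kb) (π ^ m) * incl A Z₁ = f * incl A Z₂ ∧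
      (∀ σ ∈ H, coeffMap ((σ : Kb ≃ₐ[ℚ] Kb) : Kb →+* Kb) (incl A Z₁) = incl A Z₁) ∧
      (∀ σ ∈ H, coeffMap ((σ : Kb ≃ₐ[ℚ] Kb) : Kb →+* Kb) (incl A Z₂) = incl A Z₂) := by
  obtain ⟨Z, gZ, hZfix⟩ := exists_fixed_multiple G g₂
  -- the new equation `c · (Y₁ Z) = f · (Y₂ Z)`
  have e' : algebraMap Kb (LaurentSeries Kb) c * incl A (Y₁ * Z) = f * incl A (Y₂ * Z) := by
    rw [map_mul, map_mul, ← mul_assoc, e, mul_assoc]
  have gN : Good (Y₁ * Z) := G.mul g₁ gZ
  have gD : Good (Y₂ * Z) := G.mul g₂ gZ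
  -- the left side is fixed
  have hSfix : ∀ σ ∈ H, coeffMap ((σ : Kb ≃ₐ[ℚ] Kb) : Kb →+* Kb)
      (algebraMap Kb (LaurentSeries Kb) c * incl A (Y₁ * Z))
        = algebraMap Kb (LaurentSeries Kb) c * incl A (Y₁ * Z) := by
    intro σ hσ
    rw [e', map_mul, hfix σ hσ, hZfix σ hσ]
  -- a unit coefficient
  obtain ⟨k, hk⟩ : ∃ k : ℤ, (red A (Y₁ * Z)).coeff k ≠ 0 := by
    by_contra hall
    refine G.red_ne_zero gN (HahnSeries.ext (funext fun k => ?_))
    by_contra hk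
    exact hall ⟨k, hk⟩
  rw [coeffMap_coeff] at hk
  set a : A := (Y₁ * Z).coeff k with ha
  have hau : IsUnit a := by
    by_contra hnu
    exact hk ((IsLocalRing.residue_eq_zero_iff a).mpr ((IsLocalRing.mem_maximalIdeal a).mpr hnu))
  have hav : A.valuation (a : Kb) = 1 := (A.valuation_eq_one_iff a).mp hau
  have ha0 : (a : Kb) ≠ 0 := by
    intro h0
    rw [h0, map_zero] at hav
    exact zero_ne_one hav
  have hcoeff : ∀ σ ∈ H, σ (c * (a : Kb)) = c * (a : Kb) := by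
    intro σ hσ
    have h1 := congrArg (fun s : LaurentSeries Kb => s.coeff k) (hSfix σ hσ)
    simp only [coeffMap_coeff] at h1
    rw [coeff_const_mul] at h1
    exact h1
  obtain ⟨m, u, hu, hx⟩ := hval (c * (a : Kb)) (mul_ne_zero hc ha0) hcoeff
  -- the unit `u / a`
  have hev : A.valuation (u / (a : Kb)) = 1 := by
    rw [map_div₀, hu, hav, div_one]
  have heA : u / (a : Kb) ∈ A := (A.valuation_le_one_iff _).mp hev.le
  set b : A := ⟨u / (a : Kb), heA⟩ with hb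
  have hbu : IsUnit b := (A.valuation_eq_one_iff b).mpr hev
  have hbres : IsLocalRing.residue A b ≠ 0 := by
    intro h0
    exact ((IsLocalRing.mem_maximalIdeal b).mp ((IsLocalRing.residue_eq_zero_iff b).mp h0)) hbu
  have hcb : c = π ^ m * (b : Kb) := by
    show c = π ^ m * (u / (a : Kb))
    field_simp
    linear_combination hx
  have e'' : algebraMap Kb (LaurentSeries Kb) (π ^ m) * incl A (constA b * (Y₁ * Z))
      = f * incl A (Y₂ * Z) := by
    rw [← e', map_mul (incl A), coeffMap_subtype_constA, ← mul_assoc, ← map_mul, ← hcb]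
  refine ⟨m, constA b * (Y₁ * Z), Y₂ * Z, G.mul (G.const hbres) gN, gD, e'', ?_, hZfix⟩
  intro σ hσ
  have hπm : π ^ m ≠ 0 := by
    intro h0
    rw [hcb, h0, zero_mul] at hc
    exact hc rfl
  have hC : algebraMap Kb (LaurentSeries Kb) (π ^ m) ≠ 0 := (map_ne_zero _).mpr hπm
  have h2 : (σ : Kb →+* Kb) (π ^ m) = π ^ m := by
    show σ (π ^ m) = π ^ m
    rw [map_zpow₀, hπ σ hσ]
  have h1 : algebraMap Kb (LaurentSeries Kb) (π ^ m) *
      coeffMap ((σ : Kb ≃ₐ[ℚ] Kb) : Kb →+* Kb) (incl A (constA b * (Y₁ * Z)))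
        = algebraMap Kb (LaurentSeries Kb) (π ^ m) * incl A (constA b * (Y₁ * Z)) := by
    have h3 := congrArg (coeffMap ((σ : Kb ≃ₐ[ℚ] Kb) : Kb →+* Kb)) e''
    rw [map_mul (coeffMap ((σ : Kb ≃ₐ[ℚ] Kb) : Kb →+* Kb)) f, hfix σ hσ, hZfix σ hσ,
      map_mul (coeffMap ((σ : Kb ≃ₐ[ℚ] Kb) : Kb →+* Kb))
        (algebraMap Kb (LaurentSeries Kb) (π ^ m)), coeffMap_algebraMap, h2, ← e''] at h3
    exact h3
  exact mul_left_cancel₀ hC h1

end Good

/-! ### The instance `IsGood A M`, `H = I_A`, `π = q` -/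

section Inst

variable {A : ValuationSubring Kb} {M : ℕ} [NeZero M]

/-- `IsGood A M` is a good class for the inertia group. -/
theorem goodClass_isGood : GoodClass A (A.inertiaSubgroupIn ℚ) (IsGood A M) where
  le_inertia := le_rfl
  one := isGood_one
  mul := fun h h' => h.mul h'
  const := fun ha => isGood_constA ha
  act := fun {σ} _ hσ' {Y} hY => by
    refine ⟨?_, ?_, ?_⟩
    · rw [coeffMap_subtype_actA]
      exact (galF M σ ⟨_, hY.1⟩).2
    · rw [coeffMap_residue_actA]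
      exact coeffMap_mem_fullC _ M hY.2.1
    · rw [coeffMap_residue_actA]
      intro h0
      exact hY.2.2 (cw_coeffMap_injective _ (decK σ hσ').injective (h0.trans (map_zero _).symm))
  red_ne_zero := fun hY => hY.2.2
  fixedByOpen := fun hY => exists_numberField_fixing_series (modularFunctionFieldFull M) hY.1

/-- **[G3-C] at the cusp `∞`**: for a nonzero function `f` of level `M` with coefficients fixed
by the inertia group of `A ∣ q`, the Gauss valuation of `f` lies in `ℤ · v(q)`: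
`q ^ m · Y₁ = f · Y₂` with good series `Y₁, Y₂` with inertia-fixed coefficients. -/
theorem scale_fixI {q : ℕ} (hq : q.Prime) (hA : A.LiesOverPrime q)
    (hSc : ScaleStatement M A) {f : LaurentSeries Kb} (hf : f ∈ FF M) (hf0 : f ≠ 0)
    (hfix : ∀ σ ∈ A.inertiaSubgroupIn ℚ,
      coeffMap ((σ : Kb ≃ₐ[ℚ] Kb) : Kb →+* Kb) f = f) :
    ∃ (m : ℤ) (Z₁ Z₂ : LaurentSeries A), IsGood A M Z₁ ∧ IsGood A M Z₂ ∧
      algebraMap Kb (LaurentSeries Kb) ((q : Kb) ^ m) * incl A Z₁ = f * incl A Z₂ ∧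
      (∀ σ ∈ A.inertiaSubgroupIn ℚ,
        coeffMap ((σ : Kb ≃ₐ[ℚ] Kb) : Kb →+* Kb) (incl A Z₁) = incl A Z₁) ∧
      (∀ σ ∈ A.inertiaSubgroupIn ℚ,
        coeffMap ((σ : Kb ≃ₐ[ℚ] Kb) : Kb →+* Kb) (incl A Z₂) = incl A Z₂) := by
  obtain ⟨c, Y₁, Y₂, hc, g₁, g₂, e⟩ := hSc f hf hf0
  refine scale_fix (goodClass_isGood (M := M)) (π := (q : Kb)) (fun σ _ => map_natCast σ q)
    (fun x hx hxfix => ?_) hfix hc g₁ g₂ e
  obtain ⟨m, u, hu, -, hxe⟩ := Fermat.Agent.T3.helper84.k0_disc_unit hq A hA hx hxfix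
  exact ⟨m, u, hu, hxe⟩

end Inst

end Fermat.Agent.T3.helper5

end
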