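import Mathlib
import Fermat.Agent.T3.helper5_Gauss3C
import Fermat.Agent.T3.helper84_K0Ring
import Fermat.Agent.T3.helper87_EmbAll
import Fermat.Agent.S05.helper92_Inertia

/-!
# T3 [GAUSS3], part [G3-C] (helper5): value groups at an arbitrary expansion, middle cusps

`E : F_M → ℚ̄((t))` an expansion (a ring homomorphism), `IsGoodAt A E Y` : the integral series
`Y` is the expansion of a function and its reduction is not zero.

* `goodClass_isGoodAt` : `IsGoodAt A E` is a good class for a group `H` of inertia elements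
  commuting with `E`;
* `scale_fix_at` : the abstract value-group lemma for the expansion `E`;
* `inertiaFix A ζ` : the inertia elements fixing `ζ`;
* `embMid_equivariant`, `fixedByOpen_embMid` : the middle expansions commute with
  `inertiaFix A ζ`, and are defined over number fields;
* `scale_fix_mid` : **value group at the middle cusps**: for an `I`-fixed function `f` of level
  `N q²` with a scaling `c · Y₁ = E_k f · Y₂`, one has `(1 - ζ) ^ m · Z₁ = E_k f · Z₂` with good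
  series `Z₁, Z₂` whose coefficients are fixed by `inertiaFix A ζ`
  (so `w₃(f) ∈ ℤ · v(1 - ζ) = ℤ · v(q) / (q - 1)`);
* `scale_mid_indep` : **independence of `k`**: a scaling of `E_k f` (`f` fixed by `I`) gives a
  scaling of `E_{k'} f` with a constant of the same valuation.
-/

set_option autoImplicit false
set_option linter.unusedSectionVars false

noncomputable section

open HahnSeries IntermediateField AlgebraicCurve ModularCurve
open Fermat.Agent.S18.helper19 Fermat.Agent.P2.helper29 Fermat.Agent.P2.helper93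
  Fermat.Agent.P3.helper85

namespace Fermat.Agent.T3.helper5

/-! ### Good series at an expansion -/

section At

variable {A : ValuationSubring Kb} {M : ℕ} [NeZero M]

/-- `Y` is an integral series with nonzero reduction which is the expansion `E h` of a
function `h`. -/
def IsGoodAt (A : ValuationSubring Kb) {M : ℕ} (E : FF M →+* LaurentSeries Kb)
    (Y : LaurentSeries A) : Prop :=
  (∃ h : FF M, E h = incl A Y) ∧ red A Y ≠ 0

theorem red_actA_eq {σ : Kb ≃ₐ[ℚ] Kb} (hσ : σ ∈ A.inertiaSubgroupIn ℚ)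
    (hσ' : σ ∈ A.decompositionSubgroup ℚ) (Y : LaurentSeries A) :
    red A (actA σ hσ' Y) = red A Y := by
  obtain ⟨hσ'', hid⟩ := decK_eq_id_of_mem_inertia hσ
  have h1 : red A (actA σ hσ' Y) = coeffMap (decK σ hσ') (red A Y) :=
    coeffMap_residue_actA σ hσ' Y
  rw [h1, hid, coeffMap_id]

/-- `IsGoodAt A E` is a good class for every group `H` of inertia elements commuting with the
expansion `E`. -/
theorem goodClass_isGoodAt {H : Subgroup (Kb ≃ₐ[ℚ] Kb)} (hH : H ≤ A.inertiaSubgroupIn ℚ)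
    (E : FF M →+* LaurentSeries Kb)
    (hconst : ∀ c : Kb, E (algebraMap Kb (FF M) c) = algebraMap Kb (LaurentSeries Kb) c)
    (hequiv : ∀ σ ∈ H, ∀ h : FF M,
      coeffMap ((σ : Kb ≃ₐ[ℚ] Kb) : Kb →+* Kb) (E h) = E (galF M σ h))
    (hopen : ∀ h : FF M, FixedByOpen (E h)) :
    GoodClass A H (IsGoodAt A E) where
  le_inertia := hH
  one := ⟨⟨1, by rw [map_one, map_one]⟩, by rw [map_one]; exact one_ne_zero⟩
  mul := by
    rintro Y Y' ⟨⟨h, e⟩, r⟩ ⟨⟨h', e'⟩, r'⟩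
    exact ⟨⟨h * h', by rw [map_mul, map_mul, e, e']⟩, by rw [map_mul]; exact mul_ne_zero r r'⟩
  const := by
    intro a ha
    refine ⟨⟨algebraMap Kb (FF M) (a : Kb), ?_⟩, ?_⟩
    · rw [hconst]
      exact (coeffMap_subtype_constA a).symm
    · rw [coeffMap_residue_constA]
      exact fun h0 => ha ((algebraMap (kA A) (LaurentSeries (kA A))).injective
        (h0.trans (map_zero _).symm))
  act := by
    rintro σ hσ hσ' Y ⟨⟨h, e⟩, r⟩
    refine ⟨⟨galF M σ h, ?_⟩, ?_⟩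
    · rw [← hequiv σ hσ h, e]
      exact (coeffMap_subtype_actA σ hσ' Y).symm
    · rw [red_actA_eq (hH hσ) hσ']
      exact r
  red_ne_zero := fun hY => hY.2
  fixedByOpen := by
    rintro Y ⟨⟨h, e⟩, -⟩
    rw [← e]
    exact hopen h

/-- **[G3-C] at an expansion `E`**, abstract form. -/
theorem scale_fix_at {H : Subgroup (Kb ≃ₐ[ℚ] Kb)} (hH : H ≤ A.inertiaSubgroupIn ℚ)
    (E : FF M →+* LaurentSeries Kb)
    (hconst : ∀ c : Kb, E (algebraMap Kb (FF M) c) = algebraMap Kb (LaurentSeries Kb) c)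
    (hequiv : ∀ σ ∈ H, ∀ h : FF M,
      coeffMap ((σ : Kb ≃ₐ[ℚ] Kb) : Kb →+* Kb) (E h) = E (galF M σ h))
    (hopen : ∀ h : FF M, FixedByOpen (E h))
    {π : Kb} (hπ : ∀ σ ∈ H, σ π = π)
    (hval : ∀ x : Kb, x ≠ 0 → (∀ σ ∈ H, σ x = x) →
      ∃ (m : ℤ) (u : Kb), A.valuation u = 1 ∧ x = π ^ m * u)
    {f : FF M} (hfix : ∀ σ ∈ H, galF M σ f = f)
    {c : Kb} (hc : c ≠ 0) {Y₁ Y₂ : LaurentSeries A} (g₁ : IsGoodAt A E Y₁)
    (g₂ : IsGoodAt A E Y₂)
    (e : algebraMap Kb (LaurentSeries Kb) c * incl A Y₁ = E f * incl A Y₂) :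
    ∃ (m : ℤ) (Z₁ Z₂ : LaurentSeries A), IsGoodAt A E Z₁ ∧ IsGoodAt A E Z₂ ∧
      algebraMap Kb (LaurentSeries Kb) (π ^ m) * incl A Z₁ = E f * incl A Z₂ ∧
      (∀ σ ∈ H, coeffMap ((σ : Kb ≃ₐ[ℚ] Kb) : Kb →+* Kb) (incl A Z₁) = incl A Z₁) ∧
      (∀ σ ∈ H, coeffMap ((σ : Kb ≃ₐ[ℚ] Kb) : Kb →+* Kb) (incl A Z₂) = incl A Z₂) :=
  scale_fix (goodClass_isGoodAt hH E hconst hequiv hopen) hπ hval
    (fun σ hσ => by rw [hequiv σ hσ f, hfix σ hσ]) hc g₁ g₂ e

end At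

/-! ### The middle cusps -/

section Mid

variable {N q : ℕ} [NeZero N] [NeZero q] {hq : q.Prime} {hqN : ¬ q ∣ N}
  {A : ValuationSubring Kb}

/-- the inertia elements fixing `ζ` -/
def inertiaFix (A : ValuationSubring Kb) (ζ : Kb) : Subgroup (Kb ≃ₐ[ℚ] Kb) where
  carrier := {σ | σ ∈ A.inertiaSubgroupIn ℚ ∧ σ ζ = ζ}
  mul_mem' := by
    rintro σ τ ⟨hσ, hσζ⟩ ⟨hτ, hτζ⟩
    refine ⟨mul_mem hσ hτ, ?_⟩
    show σ (τ ζ) = ζ
    rw [hτζ, hσζ]
  one_mem' := ⟨one_mem _, rfl⟩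
  inv_mem' := by
    rintro σ ⟨hσ, hσζ⟩
    refine ⟨inv_mem hσ, ?_⟩
    show σ.symm ζ = ζ
    rw [AlgEquiv.symm_apply_eq, hσζ]

theorem mem_inertiaFix {ζ : Kb} {σ : Kb ≃ₐ[ℚ] Kb} :
    σ ∈ inertiaFix A ζ ↔ σ ∈ A.inertiaSubgroupIn ℚ ∧ σ ζ = ζ := Iff.rfl

theorem inertiaFix_le (ζ : Kb) : inertiaFix A ζ ≤ A.inertiaSubgroupIn ℚ := fun _ h => h.1

/-- Galois equivariance of the middle expansions, general form:
`σ (E_{ζ,k} f) = E_{ζ,k'} (σ f)` if `σ ζ ^ k = ζ ^ k'`. -/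
theorem coeffMap_embMid_of_pow_eq {ζ : Kb} (hζ : IsPrimitiveRoot ζ q) (k k' : Fin q)
    (hk : (k : ℕ) ≠ 0) (hk' : (k' : ℕ) ≠ 0) (σ : Kb ≃ₐ[ℚ] Kb)
    (hσ : σ ζ ^ (k : ℕ) = ζ ^ (k' : ℕ)) (f : FF (N * q * q)) :
    coeffMap ((σ : Kb ≃ₐ[ℚ] Kb) : Kb →+* Kb) (helper87.embMid N q hq hqN hζ k hk f)
      = helper87.embMid N q hq hqN hζ k' hk' (galF (N * q * q) σ f) := by
  rw [helper87.coeffMap_embMid hζ k hk σ f,
    helper87.embMid_congr hζ (hζ.map_of_injective (f := σ) σ.injective) k' k hk' hk hσ]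
  rfl

/-- the middle expansions commute with the inertia elements fixing `ζ` -/
theorem embMid_equivariant {ζ : Kb} (hζ : IsPrimitiveRoot ζ q) (k : Fin q) (hk : (k : ℕ) ≠ 0)
    (σ : Kb ≃ₐ[ℚ] Kb) (hσ : σ ζ = ζ) (f : FF (N * q * q)) :
    coeffMap ((σ : Kb ≃ₐ[ℚ] Kb) : Kb →+* Kb) (helper87.embMid N q hq hqN hζ k hk f)
      = helper87.embMid N q hq hqN hζ k hk (galF (N * q * q) σ f) :=
  coeffMap_embMid_of_pow_eq hζ k k hk hk σ (by rw [hσ]) f

/-- the middle expansions of a function are defined over a number field -/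
theorem fixedByOpen_embMid {ζ : Kb} (hζ : IsPrimitiveRoot ζ q) (k : Fin q) (hk : (k : ℕ) ≠ 0)
    (f : FF (N * q * q)) : FixedByOpen (helper87.embMid N q hq hqN hζ k hk f) := by
  obtain ⟨K, hK, hKfix⟩ := exists_numberField_fixing (modularFunctionFieldFull (N * q * q)) f
  have hζint : IsIntegral ℚ ζ := (AlgebraicClosure.isAlgebraic ℚ).isIntegral.isIntegral ζ
  have _ := hK
  have _ : FiniteDimensional ℚ ℚ⟮ζ⟯ := IntermediateField.adjoin.finiteDimensional hζint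
  refine ⟨K ⊔ ℚ⟮ζ⟯, IntermediateField.finiteDimensional_sup K ℚ⟮ζ⟯, fun g hg => ?_⟩
  have h1 : g ζ = ζ :=
    hg ζ ((le_sup_right : ℚ⟮ζ⟯ ≤ K ⊔ ℚ⟮ζ⟯) (IntermediateField.mem_adjoin_simple_self ℚ ζ))
  have h2 : galF (N * q * q) g f = f :=
    hKfix g fun y hy => hg y ((le_sup_left : K ≤ K ⊔ ℚ⟮ζ⟯) hy)
  rw [embMid_equivariant hζ k hk g h1 f, h2]

/-- **[G3-C] at the middle cusps**: the Gauss valuation of an inertia-fixed function at a middle
cusp lies in `ℤ · v(1 - ζ)`. -/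
theorem scale_fix_mid (hA : A.LiesOverPrime q) {ζ : Kb} (hζ : IsPrimitiveRoot ζ q) (k : Fin q)
    (hk : (k : ℕ) ≠ 0) {f : FF (N * q * q)}
    (hfix : ∀ σ ∈ A.inertiaSubgroupIn ℚ, galF (N * q * q) σ f = f)
    {c : Kb} (hc : c ≠ 0) {Y₁ Y₂ : LaurentSeries A}
    (g₁ : IsGoodAt A (helper87.embMid N q hq hqN hζ k hk : FF (N * q * q) →+* _) Y₁)
    (g₂ : IsGoodAt A (helper87.embMid N q hq hqN hζ k hk : FF (N * q * q) →+* _) Y₂)
    (e : algebraMap Kb (LaurentSeries Kb) c * incl A Y₁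
      = helper87.embMid N q hq hqN hζ k hk f * incl A Y₂) :
    ∃ (m : ℤ) (Z₁ Z₂ : LaurentSeries A),
      IsGoodAt A (helper87.embMid N q hq hqN hζ k hk : FF (N * q * q) →+* _) Z₁ ∧
      IsGoodAt A (helper87.embMid N q hq hqN hζ k hk : FF (N * q * q) →+* _) Z₂ ∧
      algebraMap Kb (LaurentSeries Kb) ((1 - ζ) ^ m) * incl A Z₁
        = helper87.embMid N q hq hqN hζ k hk f * incl A Z₂ ∧
      (∀ σ ∈ inertiaFix A ζ,
        coeffMap ((σ : Kb ≃ₐ[ℚ] Kb) : Kb →+* Kb) (incl A Z₁) = incl A Z₁) ∧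
      (∀ σ ∈ inertiaFix A ζ,
        coeffMap ((σ : Kb ≃ₐ[ℚ] Kb) : Kb →+* Kb) (incl A Z₂) = incl A Z₂) := by
  refine scale_fix_at (inertiaFix_le ζ)
    (helper87.embMid N q hq hqN hζ k hk : FF (N * q * q) →+* _)
    (fun c => (helper87.embMid N q hq hqN hζ k hk).commutes c)
    (fun σ hσ h => embMid_equivariant hζ k hk σ hσ.2 h)
    (fun h => fixedByOpen_embMid hζ k hk h)
    (π := 1 - ζ) (fun σ hσ => by rw [map_sub, map_one, hσ.2])
    (fun x hx hxfix => ?_) (fun σ hσ => hfix σ hσ.1) hc g₁ g₂ e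
  obtain ⟨m, hm⟩ := helper84.k0_disc_zeta hq A hA hζ hx (fun σ hσ hσζ => hxfix σ ⟨hσ, hσζ⟩)
  have hπ0 : (1 - ζ) ^ m ≠ 0 := by
    intro h0
    rw [h0, map_zero] at hm
    exact hx ((map_eq_zero _).mp hm)
  refine ⟨m, x / (1 - ζ) ^ m, ?_, by field_simp⟩
  rw [map_div₀, hm, div_self]
  exact (map_ne_zero _).mpr hπ0

/-- **Independence of `k`**: for an inertia-fixed function `f`, a scaling of the middle
expansion `E_k f` gives a scaling of `E_{k'} f` with a constant of the same valuation. -/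
theorem scale_mid_indep (hA : A.LiesOverPrime q) {ζ : Kb} (hζ : IsPrimitiveRoot ζ q)
    (k k' : Fin q) (hk : (k : ℕ) ≠ 0) (hk' : (k' : ℕ) ≠ 0) {f : FF (N * q * q)}
    (hfix : ∀ σ ∈ A.inertiaSubgroupIn ℚ, galF (N * q * q) σ f = f)
    {c : Kb} {Y₁ Y₂ : LaurentSeries A}
    (g₁ : IsGoodAt A (helper87.embMid N q hq hqN hζ k hk : FF (N * q * q) →+* _) Y₁)
    (g₂ : IsGoodAt A (helper87.embMid N q hq hqN hζ k hk : FF (N * q * q) →+* _) Y₂)
    (e : algebraMap Kb (LaurentSeries Kb) c * incl A Y₁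
      = helper87.embMid N q hq hqN hζ k hk f * incl A Y₂) :
    ∃ (c' : Kb) (Z₁ Z₂ : LaurentSeries A), A.valuation c' = A.valuation c ∧
      IsGoodAt A (helper87.embMid N q hq hqN hζ k' hk' : FF (N * q * q) →+* _) Z₁ ∧
      IsGoodAt A (helper87.embMid N q hq hqN hζ k' hk' : FF (N * q * q) →+* _) Z₂ ∧
      red A Z₁ = red A Y₁ ∧ red A Z₂ = red A Y₂ ∧
      algebraMap Kb (LaurentSeries Kb) c' * incl A Z₁
        = helper87.embMid N q hq hqN hζ k' hk' f * incl A Z₂ := by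
  have _ : Fact q.Prime := ⟨hq⟩
  have _ : Algebra.IsAlgebraic ℚ Kb := AlgebraicClosure.isAlgebraic ℚ
  -- an exponent `j` with `j k ≡ k'` modulo `q`
  have hkq : ((k : ℕ) : ZMod q) ≠ 0 := by
    intro h0
    rw [ZMod.natCast_eq_zero_iff] at h0
    exact hk (Nat.eq_zero_of_dvd_of_lt h0 k.2)
  have hk'q : ((k' : ℕ) : ZMod q) ≠ 0 := by
    intro h0
    rw [ZMod.natCast_eq_zero_iff] at h0
    exact hk' (Nat.eq_zero_of_dvd_of_lt h0 k'.2)
  set j : ℕ := (((k' : ℕ) : ZMod q) * (((k : ℕ) : ZMod q))⁻¹).val with hj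
  have hjcast : ((j : ℕ) : ZMod q) = ((k' : ℕ) : ZMod q) * (((k : ℕ) : ZMod q))⁻¹ := by
    rw [hj, ZMod.natCast_val, ZMod.cast_id', id]
  have hjk : ((j * (k : ℕ) : ℕ) : ZMod q) = ((k' : ℕ) : ZMod q) := by
    rw [Nat.cast_mul, hjcast, mul_assoc, inv_mul_cancel₀ hkq, mul_one]
  have hjq : ¬ q ∣ j := by
    intro h0
    have h1 : ((j : ℕ) : ZMod q) = 0 := (ZMod.natCast_eq_zero_iff j q).mpr h0
    rw [hjcast] at h1
    exact (mul_ne_zero hk'q (inv_ne_zero hkq)) h1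
  obtain ⟨σ, hσ, hσζ⟩ := helper84.k0_zeta_trans hq A hA hζ hjq
  have hpow : σ ζ ^ (k : ℕ) = ζ ^ (k' : ℕ) := by
    rw [hσζ, ← pow_mul]
    have h1 : j * (k : ℕ) ≡ (k' : ℕ) [MOD q] := (ZMod.natCast_eq_natCast_iff _ _ _).mp hjk
    rw [pow_eq_pow_mod (j * (k : ℕ)) hζ.pow_eq_one, pow_eq_pow_mod (k' : ℕ) hζ.pow_eq_one]
    exact congrArg (fun n => ζ ^ n) h1
  obtain ⟨hσ', -⟩ := decK_eq_id_of_mem_inertia hσ
  have hEq : ∀ h : FF (N * q * q),
      coeffMap ((σ : Kb ≃ₐ[ℚ] Kb) : Kb →+* Kb) (helper87.embMid N q hq hqN hζ k hk h)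
        = helper87.embMid N q hq hqN hζ k' hk' (galF (N * q * q) σ h) :=
    fun h => coeffMap_embMid_of_pow_eq hζ k k' hk hk' σ hpow h
  have hgood : ∀ Y : LaurentSeries A,
      IsGoodAt A (helper87.embMid N q hq hqN hζ k hk : FF (N * q * q) →+* _) Y →
      IsGoodAt A (helper87.embMid N q hq hqN hζ k' hk' : FF (N * q * q) →+* _)
        (actA σ hσ' Y) := by
    rintro Y ⟨⟨h, eh⟩, r⟩
    refine ⟨⟨galF (N * q * q) σ h, ?_⟩, ?_⟩
    · show helper87.embMid N q hq hqN hζ k' hk' (galF (N * q * q) σ h) = _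
      rw [← hEq h]
      have eh' : helper87.embMid N q hq hqN hζ k hk h = incl A Y := eh
      rw [eh']
      exact (coeffMap_subtype_actA σ hσ' Y).symm
    · rw [red_actA_eq hσ hσ']
      exact r
  refine ⟨σ c, actA σ hσ' Y₁, actA σ hσ' Y₂,
    Fermat.Agent.S05.helper92.valuation_apply_of_mem_decompositionSubgroup hσ' c,
    hgood Y₁ g₁, hgood Y₂ g₂, red_actA_eq hσ hσ' Y₁, red_actA_eq hσ hσ' Y₂, ?_⟩
  have h1 := congrArg (coeffMap ((σ : Kb ≃ₐ[ℚ] Kb) : Kb →+* Kb)) e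
  rw [map_mul, map_mul, coeffMap_algebraMap, hEq f, hfix σ hσ] at h1
  show algebraMap Kb (LaurentSeries Kb) (σ c) * coeffMap A.subtype (actA σ hσ' Y₁)
    = helper87.embMid N q hq hqN hζ k' hk' f * coeffMap A.subtype (actA σ hσ' Y₂)
  rw [coeffMap_subtype_actA, coeffMap_subtype_actA]
  exact h1

end Mid

end Fermat.Agent.T3.helper5

end
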