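import Fermat.Agent.T3.helper48_AtkinLehnerQ
import Fermat.Agent.T3.helper87_EmbMid

/-!
# Tier 3, [T3-W] (helper48), part 3: `W_{q²}` and the expansions at the cusps of `X₀(N q²)`

Level `N * q * q`, `q` prime, `q ∤ N`; `W₂ = atkinLehnerSq N q hq hqN`,
`W₁ = helper36.atkinLehner N q hq hqN`, `α₂, β₂ : F_{Nq} → F_{Nq²}` the degeneracy maps.

* `embZero` : the expansion at the cusp `0`, i.e. `f ↦ (W₂ f)(t)`;
  `embZero (α₂ f) = (W₁ f)(t^q)`, `embZero (β₂ f) = (W₁ f)(t)`;
  `embZero ∘ W₂ = inclusion`; Galois equivariance;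
* `embMid_atkinLehnerSq` : **`W₂` permutes the middle cusps `k ↦ -k`**:
  `embMid k (W₂ x) = twistL (ζ^k) (embMid k' x)` whenever `ζ^k ζ^k' = 1`
  (`embMid` = the expansions at the middle cusps of helper87, [T3-VAL3]).
  Hence the Gauss valuations at the middle cusps are permuted by `W₂`, and the Gauss valuation
  at `0` is `w₁ ∘ W₂`.
-/

set_option autoImplicit false
set_option linter.unusedSectionVars false
set_option linter.unusedVariables false
set_option linter.style.haveILetI false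

open HahnSeries IntermediateField AlgebraicCurve ModularCurve
open Fermat.Agent.S18.helper19 Fermat.Agent.P2.helper29 Fermat.Agent.T2.helper36

noncomputable section

namespace Fermat.Agent.T3.helper48

open Fermat.Agent.P2.helper93 (twistL twistL_coeff)
open Fermat.Agent.T2.helper87 (twistHom twistHom_apply)
open Fermat.Agent.T3.helper87 (embMid embMid_alpha embMid_beta embMid_unique)

theorem twistL_twistL {K : Type*} [Field K] (c c' : K) (f : LaurentSeries K) :
    twistL c (twistL c' f) = twistL (c * c') f := by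
  ext k
  rw [twistL_coeff, twistL_coeff, twistL_coeff, mul_zpow, mul_assoc]

theorem twistL_one_left {K : Type*} [Field K] (f : LaurentSeries K) : twistL (1 : K) f = f := by
  ext k
  rw [twistL_coeff, one_zpow, one_mul]

variable (N q : ℕ) [NeZero N] [NeZero q] (hq : q.Prime) (hqN : ¬ q ∣ N)

/-- **The expansion of `F_{N q²}` at the cusp `0`**: `f ↦ (W₂ f)(t)`. -/
def embZero : FF (N * q * q) →ₐ[Kb] LaurentSeries Kb :=
  (IntermediateField.val (FF (N * q * q))).comp
    (atkinLehnerSq N q hq hqN : FF (N * q * q) →ₐ[Kb] FF (N * q * q))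

variable {N q hq hqN}

theorem embZero_apply (x : FF (N * q * q)) :
    embZero N q hq hqN x = ((atkinLehnerSq N q hq hqN x : FF (N * q * q)) : LaurentSeries Kb) :=
  rfl

theorem embZero_atkinLehnerSq (x : FF (N * q * q)) :
    embZero N q hq hqN (atkinLehnerSq N q hq hqN x) = (x : LaurentSeries Kb) := by
  rw [embZero_apply, atkinLehnerSq_atkinLehnerSq]

theorem embZero_alpha (f : FF (N * q)) :
    embZero N q hq hqN (heckeAlphaBar Kb (N * q) q f)
      = qExpand Kb q ((atkinLehner N q hq hqN f : FF (N * q)) : LaurentSeries Kb) := by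
  rw [embZero_apply, atkinLehnerSq_heckeAlphaBar, coe_heckeBetaBar]

theorem embZero_beta (f : FF (N * q)) :
    embZero N q hq hqN (heckeBetaBar Kb (N * q) q f)
      = ((atkinLehner N q hq hqN f : FF (N * q)) : LaurentSeries Kb) := by
  rw [embZero_apply, atkinLehnerSq_heckeBetaBar, coe_heckeAlphaBar]

/-- The expansion at `0` commutes with the arithmetic Galois action (on coefficients). -/
theorem coeffMap_embZero (σ : Kb ≃ₐ[ℚ] Kb) (x : FF (N * q * q)) :
    coeffMap (σ : Kb →+* Kb) (embZero N q hq hqN x)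
      = embZero N q hq hqN (arithmeticRingAut (modularFunctionFieldFull (N * q * q)) σ x) := by
  rw [embZero_apply, embZero_apply, atkinLehnerSq_arithmeticRingAut,
    coe_arithmeticRingAut_apply]

/-- **`W₂` permutes the middle cusps, `k ↦ -k`.** -/
theorem embMid_atkinLehnerSq {ζ : Kb} (hζ : IsPrimitiveRoot ζ q) (k : Fin q) (hk : (k : ℕ) ≠ 0)
    (k' : Fin q) (hk' : (k' : ℕ) ≠ 0) (hkk' : ζ ^ (k : ℕ) * ζ ^ (k' : ℕ) = 1)
    (x : FF (N * q * q)) :
    embMid N q hq hqN hζ k hk (atkinLehnerSq N q hq hqN x)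
      = twistL (ζ ^ (k : ℕ)) (embMid N q hq hqN hζ k' hk' x) := by
  have hζ0 : ζ ≠ 0 := hζ.ne_zero (NeZero.ne q)
  have hc' : ζ ^ (k' : ℕ) ≠ 0 := pow_ne_zero _ hζ0
  have hkk'' : ζ ^ (k' : ℕ) * ζ ^ (k : ℕ) = 1 := by rw [mul_comm]; exact hkk'
  -- the twisted conjugate embedding
  let E : FF (N * q * q) →+* LaurentSeries Kb :=
    (twistHom (ζ ^ (k' : ℕ)) hc').comp
      (((embMid N q hq hqN hζ k hk : FF (N * q * q) →ₐ[Kb] LaurentSeries Kb) :
          FF (N * q * q) →+* LaurentSeries Kb).comp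
        ((atkinLehnerSq N q hq hqN : FF (N * q * q) ≃ₐ[Kb] FF (N * q * q)) :
          FF (N * q * q) →+* FF (N * q * q)))
  have hE : ∀ y, E y = twistL (ζ ^ (k' : ℕ))
      (embMid N q hq hqN hζ k hk (atkinLehnerSq N q hq hqN y)) := fun y => rfl
  have hα : ∀ f : FF (N * q), E (heckeAlphaBar Kb (N * q) q f) = (f : LaurentSeries Kb) := by
    intro f
    rw [hE, atkinLehnerSq_heckeAlphaBar, embMid_beta, atkinLehner_atkinLehner, twistL_twistL,
      hkk'', twistL_one_left]
  have hβ : ∀ f : FF (N * q), E (heckeBetaBar Kb (N * q) q f)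
      = twistL (ζ ^ (k' : ℕ)) ((atkinLehner N q hq hqN f : FF (N * q)) : LaurentSeries Kb) := by
    intro f
    rw [hE, atkinLehnerSq_heckeBetaBar, embMid_alpha]
  have huniq := embMid_unique hζ k' hk' E hα hβ
  have h1 : E x = embMid N q hq hqN hζ k' hk' x := by
    rw [huniq]
    rfl
  rw [← h1, hE, twistL_twistL, hkk', twistL_one_left]

/-- The same with the roles exchanged: `embMid k' x = twistL (ζ^k') (embMid k (W₂ x))`. -/
theorem embMid_eq_twistL_atkinLehnerSq {ζ : Kb} (hζ : IsPrimitiveRoot ζ q) (k : Fin q)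
    (hk : (k : ℕ) ≠ 0) (k' : Fin q) (hk' : (k' : ℕ) ≠ 0)
    (hkk' : ζ ^ (k : ℕ) * ζ ^ (k' : ℕ) = 1) (x : FF (N * q * q)) :
    embMid N q hq hqN hζ k' hk' x
      = twistL (ζ ^ (k' : ℕ)) (embMid N q hq hqN hζ k hk (atkinLehnerSq N q hq hqN x)) := by
  have hkk'' : ζ ^ (k' : ℕ) * ζ ^ (k : ℕ) = 1 := by rw [mul_comm]; exact hkk'
  rw [embMid_atkinLehnerSq hζ k hk k' hk' hkk', twistL_twistL, hkk'', twistL_one_left]

/-- For every middle cusp `k` there is the opposite middle cusp `k'` (`ζ^k ζ^k' = 1`). -/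
theorem exists_opposite {ζ : Kb} (hζ : IsPrimitiveRoot ζ q) (k : Fin q) (hk : (k : ℕ) ≠ 0) :
    ∃ (k' : Fin q) (_ : (k' : ℕ) ≠ 0), ζ ^ (k : ℕ) * ζ ^ (k' : ℕ) = 1 := by
  have hkq : (k : ℕ) < q := k.2
  have hpos : 0 < (k : ℕ) := Nat.pos_of_ne_zero hk
  refine ⟨⟨q - (k : ℕ), Nat.sub_lt (lt_of_le_of_lt (Nat.zero_le _) hkq) hpos⟩, ?_, ?_⟩
  · show q - (k : ℕ) ≠ 0
    omega
  · show ζ ^ (k : ℕ) * ζ ^ (q - (k : ℕ)) = 1
    rw [← _root_.pow_add, Nat.add_sub_cancel' hkq.le, hζ.pow_eq_one]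

end Fermat.Agent.T3.helper48

end
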