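import Mathlib
import Fermat.Agent.T3.helper5_Gauss3C
import Fermat.Agent.T3.helper48_WMid

/-!
# T3 [GAUSS3], part [G3-C] (helper5): the value group at the cusps `∞` and `0` of `X₀(N q²)`

For a nonzero function `f` of level `N q²` fixed by the inertia group of `A ∣ q`:

* `scale_fixI_infty` : `q ^ m · Z₁ = f · Z₂` (expansion at `∞`);
* `scale_fixI_zero` : `q ^ m · Z₁ = E₀ f · Z₂` (`E₀ = helper48.embZero`, the expansion at `0`);

with `Z₁, Z₂` good integral series of level `N q²` with inertia-fixed coefficients.  Input: the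
scaling statement at level `N q²` ([G3-A]).
-/

set_option autoImplicit false
set_option linter.unusedSectionVars false

noncomputable section

open HahnSeries IntermediateField AlgebraicCurve ModularCurve
open Fermat.Agent.S18.helper19 Fermat.Agent.P2.helper29 Fermat.Agent.P2.helper93

namespace Fermat.Agent.T3.helper5

variable {N q : ℕ} [NeZero N] [NeZero q] {hq : q.Prime} {hqN : ¬ q ∣ N}
  {A : ValuationSubring Kb}

/-- **[G3-C] at `∞`**, level `N q²`, function form. -/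
theorem scale_fixI_infty {M : ℕ} [NeZero M] {p : ℕ} (hp : p.Prime) (hA : A.LiesOverPrime p)
    (hSc : ScaleStatement M A) {f : FF M} (hf0 : f ≠ 0)
    (hfix : ∀ σ ∈ A.inertiaSubgroupIn ℚ, galF M σ f = f) :
    ∃ (m : ℤ) (Z₁ Z₂ : LaurentSeries A), IsGood A M Z₁ ∧ IsGood A M Z₂ ∧
      algebraMap Kb (LaurentSeries Kb) ((p : Kb) ^ m) * incl A Z₁
        = (f : LaurentSeries Kb) * incl A Z₂ ∧
      (∀ σ ∈ A.inertiaSubgroupIn ℚ,
        coeffMap ((σ : Kb ≃ₐ[ℚ] Kb) : Kb →+* Kb) (incl A Z₁) = incl A Z₁) ∧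
      (∀ σ ∈ A.inertiaSubgroupIn ℚ,
        coeffMap ((σ : Kb ≃ₐ[ℚ] Kb) : Kb →+* Kb) (incl A Z₂) = incl A Z₂) :=
  scale_fixI hp hA hSc f.2 (fun h => hf0 (Subtype.ext h))
    (fun σ hσ => congrArg (fun z : FF M => (z : LaurentSeries Kb)) (hfix σ hσ))

/-- **[G3-C] at the cusp `0`**: the Gauss valuation `w₂ = w₁ ∘ W_{q²}` of an inertia-fixed
function lies in `ℤ · v(q)`. -/
theorem scale_fixI_zero (hA : A.LiesOverPrime q) (hSc : ScaleStatement (N * q * q) A)
    {f : FF (N * q * q)} (hf0 : f ≠ 0)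
    (hfix : ∀ σ ∈ A.inertiaSubgroupIn ℚ, galF (N * q * q) σ f = f) :
    ∃ (m : ℤ) (Z₁ Z₂ : LaurentSeries A), IsGood A (N * q * q) Z₁ ∧ IsGood A (N * q * q) Z₂ ∧
      algebraMap Kb (LaurentSeries Kb) ((q : Kb) ^ m) * incl A Z₁
        = helper48.embZero N q hq hqN f * incl A Z₂ ∧
      (∀ σ ∈ A.inertiaSubgroupIn ℚ,
        coeffMap ((σ : Kb ≃ₐ[ℚ] Kb) : Kb →+* Kb) (incl A Z₁) = incl A Z₁) ∧
      (∀ σ ∈ A.inertiaSubgroupIn ℚ,
        coeffMap ((σ : Kb ≃ₐ[ℚ] Kb) : Kb →+* Kb) (incl A Z₂) = incl A Z₂) := by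
  have hW0 : helper48.atkinLehnerSq N q hq hqN f ≠ 0 := (map_ne_zero _).mpr hf0
  have hWfix : ∀ σ ∈ A.inertiaSubgroupIn ℚ,
      galF (N * q * q) σ (helper48.atkinLehnerSq N q hq hqN f)
        = helper48.atkinLehnerSq N q hq hqN f := by
    intro σ hσ
    show arithmeticRingAut (modularFunctionFieldFull (N * q * q)) σ _ = _
    rw [← helper48.atkinLehnerSq_arithmeticRingAut]
    exact congrArg _ (hfix σ hσ)
  exact scale_fixI_infty hq hA hSc hW0 hWfix

end Fermat.Agent.T3.helper5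

end
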