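/-
T3 [G3-C] in the shared vocabulary `RhoQ` / `GaussIs` of helper36 (row 992, wrapper).

Setting: `q` prime, `q ∤ N`, level `N q q`, `A` a valuation subring of `ℚ̄` over `q`,
`I = A.inertiaSubgroupIn ℚ`, `ζ` a primitive `q`-th root of unity.

* `gaussIs_of_scaling`     : `c · incl Z₁ = g · incl Z₂` with `red Z₁, red Z₂ ≠ 0` gives
                             `GaussIs A g c`.
* `gaussIs_fixI`           : **(C1)** at `∞`, any level `M` with a scale statement:
                             `IsFixI f`, `f ≠ 0` give `∃ m : ℤ, GaussIs A f (q ^ m)`.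
* `gaussIs_fixI_sq`        : **(C1)** at `∞` for the level `N q q` (no hypothesis left).
* `gaussIs_fixI_zero`      : **(C1)** at the cusp `0` (`embZero`), level `N q q`.
* `gaussIs_ex3_zero / one` : the same for `ex3 hζ 0` and `ex3 hζ 1`.
* `gaussIs_fixI_mid`       : **(C3)** at a middle cusp, from one scaling with function witnesses:
                             `∃ m : ℤ, GaussIs A (embMid k f) ((1 - ζ) ^ m)`.
* `gaussIs_mid_indep`      : **(Ck)** a Gauss value at the middle cusp `k` (with function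
                             witnesses) is a Gauss value at every middle cusp `k'`.
* `gaussIs_fixI_mid_all`   : `∃ m : ℤ, ∀ k' ≠ 0, GaussIs A (embMid k' f) ((1 - ζ) ^ m)`.
-/
import Mathlib
import Fermat.Agent.T3.helper36_RhoQ
import Fermat.Agent.T3.helper36_Gauss3A
import Fermat.Agent.T3.helper5_Gauss3CMid
import Fermat.Agent.T3.helper5_Gauss3CZero
import Fermat.Agent.T3.helper74_Sat3Defs

set_option autoImplicit false
set_option synthInstance.maxHeartbeats 400000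
set_option linter.unusedSectionVars false
set_option linter.unusedVariables false
set_option linter.style.haveILetI false

noncomputable section

open HahnSeries IntermediateField AlgebraicCurve ModularCurve
open Fermat.Agent.S18.helper19 Fermat.Agent.P2.helper29 Fermat.Agent.P2.helper93
open Fermat.Agent.T3.helper36 (RhoQ GaussIs)
open Fermat.Agent.T3.helper74 (ex3 IsFixI)

namespace Fermat.Agent.T3.helper5

variable {A : ValuationSubring Kb}

/-- a scaling identity gives the Gauss value -/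
theorem gaussIs_of_scaling {g : LaurentSeries Kb} {c : Kb} (hc : c ≠ 0)
    {Z₁ Z₂ : LaurentSeries A} (h1 : red A Z₁ ≠ 0) (h2 : red A Z₂ ≠ 0)
    (e : algebraMap Kb (LaurentSeries Kb) c * incl A Z₁ = g * incl A Z₂) : GaussIs A g c := by
  refine ⟨hc, red A Z₁ / red A Z₂, div_ne_zero h1 h2, Z₁, Z₂, h2, ?_,
    by rw [div_mul_cancel₀ _ h2]⟩
  rw [mul_assoc, ← e, ← mul_assoc, ← map_mul, inv_mul_cancel₀ hc, map_one, one_mul]

section Infty

variable {M : ℕ} [NeZero M]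

/-- **(C1) at `∞`**: the Gauss value of an inertia-fixed function is a power of `q`. -/
theorem gaussIs_fixI {p : ℕ} (hp : p.Prime) (hA : A.LiesOverPrime p)
    (hSc : ScaleStatement M A) {f : FF M} (hf0 : f ≠ 0) (hfix : IsFixI A M f) :
    ∃ m : ℤ, GaussIs A (f : LaurentSeries Kb) ((p : Kb) ^ m) := by
  obtain ⟨m, Z₁, Z₂, g₁, g₂, e, -, -⟩ := scale_fixI_infty hp hA hSc hf0 hfix
  have hp0 : ((p : Kb)) ^ m ≠ 0 := zpow_ne_zero _ (Nat.cast_ne_zero.mpr hp.ne_zero)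
  exact ⟨m, gaussIs_of_scaling hp0 g₁.2.2 g₂.2.2 e⟩

end Infty

section Sq

variable {N q : ℕ} [NeZero N] [NeZero q] {hq : q.Prime} {hqN : ¬ q ∣ N}

/-- **(C1) at `∞`**, level `N q q`. -/
theorem gaussIs_fixI_sq (hq : q.Prime) (hqN : ¬ q ∣ N) (hA : A.LiesOverPrime q)
    {f : FF (N * q * q)} (hf0 : f ≠ 0) (hfix : IsFixI A (N * q * q) f) :
    ∃ m : ℤ, GaussIs A (f : LaurentSeries Kb) ((q : Kb) ^ m) :=
  gaussIs_fixI hq hA (helper36.scaleStatement_sq hq hqN A hA) hf0 hfix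

/-- **(C1) at the cusp `0`**, level `N q q`. -/
theorem gaussIs_fixI_zero (hq : q.Prime) (hqN : ¬ q ∣ N) (hA : A.LiesOverPrime q)
    {f : FF (N * q * q)} (hf0 : f ≠ 0) (hfix : IsFixI A (N * q * q) f) :
    ∃ m : ℤ, GaussIs A (helper48.embZero N q hq hqN f) ((q : Kb) ^ m) := by
  obtain ⟨m, Z₁, Z₂, g₁, g₂, e, -, -⟩ :=
    scale_fixI_zero (hq := hq) (hqN := hqN) hA (helper36.scaleStatement_sq hq hqN A hA) hf0 hfix
  have hq0 : ((q : Kb)) ^ m ≠ 0 := zpow_ne_zero _ (Nat.cast_ne_zero.mpr hq.ne_zero)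
  exact ⟨m, gaussIs_of_scaling hq0 g₁.2.2 g₂.2.2 e⟩

theorem ex3_zero_apply {ζ : Kb} (hζ : IsPrimitiveRoot ζ q) (f : FF (N * q * q)) :
    ex3 N q hq hqN hζ 0 f = (f : LaurentSeries Kb) := by
  simp [ex3]

theorem ex3_one_apply {ζ : Kb} (hζ : IsPrimitiveRoot ζ q) (f : FF (N * q * q)) :
    ex3 N q hq hqN hζ 1 f = helper48.embZero N q hq hqN f := by
  simp [ex3, helper48.embZero]

theorem ex3_two_apply {ζ : Kb} (hζ : IsPrimitiveRoot ζ q) (f : FF (N * q * q)) :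
    ex3 N q hq hqN hζ 2 f
      = helper87.embMid N q hq hqN hζ (helper74.midOne q hq) (helper74.midOne_ne q hq) f := by
  simp [ex3]

/-- **(C1)** for `ex3 hζ 0`. -/
theorem gaussIs_ex3_zero (hA : A.LiesOverPrime q) {ζ : Kb} (hζ : IsPrimitiveRoot ζ q)
    {f : FF (N * q * q)} (hf0 : f ≠ 0) (hfix : IsFixI A (N * q * q) f) :
    ∃ m : ℤ, GaussIs A (ex3 N q hq hqN hζ 0 f) ((q : Kb) ^ m) := by
  rw [ex3_zero_apply]
  exact gaussIs_fixI_sq hq hqN hA hf0 hfix

/-- **(C1)** for `ex3 hζ 1`. -/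
theorem gaussIs_ex3_one (hA : A.LiesOverPrime q) {ζ : Kb} (hζ : IsPrimitiveRoot ζ q)
    {f : FF (N * q * q)} (hf0 : f ≠ 0) (hfix : IsFixI A (N * q * q) f) :
    ∃ m : ℤ, GaussIs A (ex3 N q hq hqN hζ 1 f) ((q : Kb) ^ m) := by
  rw [ex3_one_apply]
  exact gaussIs_fixI_zero hq hqN hA hf0 hfix

/-- **(C3) at a middle cusp**: from ONE scaling of `E_k f` with function witnesses, the Gauss
value of `E_k f` is a power of `1 - ζ`. -/
theorem gaussIs_fixI_mid (hA : A.LiesOverPrime q) {ζ : Kb} (hζ : IsPrimitiveRoot ζ q)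
    (k : Fin q) (hk : (k : ℕ) ≠ 0) {f : FF (N * q * q)} (hfix : IsFixI A (N * q * q) f)
    {c : Kb} (hc : c ≠ 0) {Y₁ Y₂ : LaurentSeries A}
    (g₁ : IsGoodAt A (helper87.embMid N q hq hqN hζ k hk : FF (N * q * q) →+* _) Y₁)
    (g₂ : IsGoodAt A (helper87.embMid N q hq hqN hζ k hk : FF (N * q * q) →+* _) Y₂)
    (e : algebraMap Kb (LaurentSeries Kb) c * incl A Y₁
      = helper87.embMid N q hq hqN hζ k hk f * incl A Y₂) :
    ∃ m : ℤ, GaussIs A (helper87.embMid N q hq hqN hζ k hk f) ((1 - ζ) ^ m) ∧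
      A.valuation c = A.valuation ((1 - ζ) ^ m) := by
  obtain ⟨m, Z₁, Z₂, z₁, z₂, e', -, -⟩ := scale_fix_mid hA hζ k hk hfix hc g₁ g₂ e
  have hq1 : q ≠ 1 := hq.one_lt.ne'
  have hζ1 : (1 : Kb) - ζ ≠ 0 := sub_ne_zero.mpr (fun h => hζ.ne_one hq.one_lt h.symm)
  have h0 : ((1 : Kb) - ζ) ^ m ≠ 0 := zpow_ne_zero _ hζ1
  have G := gaussIs_of_scaling h0 z₁.2 z₂.2 e'
  exact ⟨m, G, helper36.GaussIs.valuation_eq (gaussIs_of_scaling hc g₁.2 g₂.2 e) G⟩

/-- **(Ck)**: a Gauss value at the middle cusp `k` (with function witnesses) is a Gauss value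
at every middle cusp `k'`. -/
theorem gaussIs_mid_indep (hA : A.LiesOverPrime q) {ζ : Kb} (hζ : IsPrimitiveRoot ζ q)
    (k k' : Fin q) (hk : (k : ℕ) ≠ 0) (hk' : (k' : ℕ) ≠ 0) {f : FF (N * q * q)}
    (hfix : IsFixI A (N * q * q) f)
    {c : Kb} (hc : c ≠ 0) {Y₁ Y₂ : LaurentSeries A}
    (g₁ : IsGoodAt A (helper87.embMid N q hq hqN hζ k hk : FF (N * q * q) →+* _) Y₁)
    (g₂ : IsGoodAt A (helper87.embMid N q hq hqN hζ k hk : FF (N * q * q) →+* _) Y₂)
    (e : algebraMap Kb (LaurentSeries Kb) c * incl A Y₁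
      = helper87.embMid N q hq hqN hζ k hk f * incl A Y₂) :
    GaussIs A (helper87.embMid N q hq hqN hζ k' hk' f) c := by
  obtain ⟨c', Z₁, Z₂, hv, z₁, z₂, -, -, e'⟩ :=
    scale_mid_indep hA hζ k k' hk hk' hfix g₁ g₂ e
  have hc' : c' ≠ 0 := by
    rintro rfl
    rw [map_zero] at hv
    exact hc ((map_eq_zero _).mp hv.symm)
  exact (gaussIs_of_scaling hc' z₁.2 z₂.2 e').congr_val hc hv

/-- **(C3) + (Ck)**: from ONE scaling at ONE middle cusp with function witnesses, all the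
middle expansions of an inertia-fixed function have the same Gauss value `(1 - ζ) ^ m`. -/
theorem gaussIs_fixI_mid_all (hA : A.LiesOverPrime q) {ζ : Kb} (hζ : IsPrimitiveRoot ζ q)
    (k : Fin q) (hk : (k : ℕ) ≠ 0) {f : FF (N * q * q)} (hfix : IsFixI A (N * q * q) f)
    {c : Kb} (hc : c ≠ 0) {Y₁ Y₂ : LaurentSeries A}
    (g₁ : IsGoodAt A (helper87.embMid N q hq hqN hζ k hk : FF (N * q * q) →+* _) Y₁)
    (g₂ : IsGoodAt A (helper87.embMid N q hq hqN hζ k hk : FF (N * q * q) →+* _) Y₂)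
    (e : algebraMap Kb (LaurentSeries Kb) c * incl A Y₁
      = helper87.embMid N q hq hqN hζ k hk f * incl A Y₂) :
    ∃ m : ℤ, ∀ (k' : Fin q) (hk' : (k' : ℕ) ≠ 0),
      GaussIs A (helper87.embMid N q hq hqN hζ k' hk' f) ((1 - ζ) ^ m) := by
  obtain ⟨m, -, hv⟩ := gaussIs_fixI_mid hA hζ k hk hfix hc g₁ g₂ e
  have hζ1 : (1 : Kb) - ζ ≠ 0 := sub_ne_zero.mpr (fun h => hζ.ne_one hq.one_lt h.symm)
  have h0 : ((1 : Kb) - ζ) ^ m ≠ 0 := zpow_ne_zero _ hζ1
  exact ⟨m, fun k' hk' =>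
    (gaussIs_mid_indep hA hζ k k' hk hk' hfix hc g₁ g₂ e).congr_val h0 hv⟩

end Sq

end Fermat.Agent.T3.helper5

end
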