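/-
TIER 3, [T3-TORIC] (helper49, task 924), part 1: the ABSTRACT toric calculus (Mathlib only).

Setting (level `N q²`, `q = r + 1` a prime not dividing `N`, `n` prime to `q`):
`F` = the function field, `B` = `k((t))`, every integral function `f` has a TRIPLE of reductions
`X = (X 0, X 1, X 2)` (at the cusp `∞`, at the cusp `0` = `∞` for `W f`, at the middle cusps),
`NA f = α (N_α f)`, `NB f = β (N_β f)` are the two "norm and pull back" operators, with

  red (NA f) = (X 0 * X 2 ^ r, X 1 ^ q, X 0 * X 2 ^ r),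
  red (NB f) = (X 0 ^ q, X 1 * X 2 ^ r, X 1 * X 2 ^ r)        ([NORM-RED3]).

`Θ f = NA f * NB f`.  For `h ≡ 1` at the three valuations with `n ∣ div h` put

  `V h = h ^ (q² - 1) * (Θ h)⁻¹ ^ (2 q) * Θ (Θ h)`,   `U h = (V h) ^ q`.

`TorCalc.main` : `U h = c * v ^ n`, from ONE semilocal generator of the ideal of `h` at the
supersingular points, a partition of unity of the ideal of `U h` ([IDEAL3]), the realisation of
`(z^q, z^q, z^q)` (pull back by `τ ↦ q τ` from level `N`) and of the triples `(e_c ^ q * z_c)`,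
`e_c` vanishing at the supersingular points ([REAL3], from the weight-one unit), and [ROOT3].
`TorCalc.new` : if `NA h` and `NB h` are constants times `n`-th powers, then so is
`h ^ (q (q² - 1))` - the injectivity of `(α_*, β_*)` on the toric part, item (d) of the T3 plan.

No upper bound for the ring of reductions (gluing condition) and no toric invariants are used.
-/
import Mathlib

set_option autoImplicit false
set_option linter.unusedSectionVars false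
set_option linter.unusedVariables false
set_option linter.style.longLine false
set_option linter.unusedSimpArgs false
set_option linter.unnecessarySimpa false

namespace Fermat.Agent.T3.helper49

/-! ### Formal reductions -/

section Formal

variable {B : Type*} [CommRing B]

/-- the reduction triple of `α (N_α f)` -/
def naF (r : ℕ) (X : Fin 3 → B) : Fin 3 → B :=
  ![X 0 * X 2 ^ r, X 1 ^ (r + 1), X 0 * X 2 ^ r]

/-- the reduction triple of `β (N_β f)` -/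
def nbF (r : ℕ) (X : Fin 3 → B) : Fin 3 → B :=
  ![X 0 ^ (r + 1), X 1 * X 2 ^ r, X 1 * X 2 ^ r]

/-- the reduction triple of `Θ f = α (N_α f) * β (N_β f)` -/
def thF (r : ℕ) (X : Fin 3 → B) : Fin 3 → B := naF r X * nbF r X

/-- the reduction triple of `G = g ^ (q² - 1) * (Θ b) ^ (2 q) * Θ (Θ g)` -/
def gF (r : ℕ) (X Y : Fin 3 → B) : Fin 3 → B :=
  X ^ (r * (r + 2)) * thF r Y ^ (2 * (r + 1)) * thF r (thF r X)

/-- the inverse of `Z` modulo the supersingular ideal -/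
def zF (r : ℕ) (Y : Fin 3 → B) : B := (Y 0 * Y 1 * Y 2 ^ r) ^ r

/-- the exponents of `x_c y_c` in `red G * Z'` -/
def eF (r : ℕ) (X Y : Fin 3 → B) : Fin 3 → B :=
  ![(X 0 * Y 0) ^ (2 * (r + 1) * (r + 1) + 3 * (r + 1) - 1) * (X 1 * Y 1) ^ r *
      (X 2 * Y 2) ^ (3 * r * r + 2 * r),
    (X 1 * Y 1) ^ (2 * (r + 1) * (r + 1) + 3 * (r + 1) - 1) * (X 0 * Y 0) ^ r *
      (X 2 * Y 2) ^ (3 * r * r + 2 * r),
    (X 0 * Y 0) ^ (3 * r + 2) * (X 1 * Y 1) ^ (3 * r + 2) * (X 2 * Y 2) ^ (5 * r * r + 4 * r)]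

theorem gF_mul_zF (r : ℕ) (X Y : Fin 3 → B) (c : Fin 3) :
    gF r X Y c * zF r Y = eF r X Y c := by
  have e : 2 * (r + 1) * (r + 1) + 3 * (r + 1) - 1 = 2 * r * r + 7 * r + 4 := by
    have : 2 * (r + 1) * (r + 1) + 3 * (r + 1) = 2 * r * r + 7 * r + 4 + 1 := by ring
    omega
  fin_cases c
  · simp only [gF, thF, naF, nbF, zF, eF, e, Pi.mul_apply, Pi.pow_apply, Fin.zero_eta,
      Matrix.cons_val_zero, Matrix.cons_val_one, Matrix.cons_val_two, Matrix.head_cons,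
      Matrix.tail_cons]
    ring
  · simp only [gF, thF, naF, nbF, zF, eF, e, Pi.mul_apply, Pi.pow_apply, Fin.mk_one,
      Matrix.cons_val_zero, Matrix.cons_val_one, Matrix.cons_val_two, Matrix.head_cons,
      Matrix.tail_cons]
    ring
  · simp only [gF, thF, naF, nbF, zF, eF, e, Pi.mul_apply, Pi.pow_apply, Fin.reduceFinMk,
      Matrix.cons_val_zero, Matrix.cons_val_one, Matrix.cons_val_two, Matrix.head_cons,
      Matrix.tail_cons]
    ring

theorem naF_one (r : ℕ) : naF r (1 : Fin 3 → B) = 1 := by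
  funext c
  fin_cases c <;> simp [naF]

theorem nbF_one (r : ℕ) : nbF r (1 : Fin 3 → B) = 1 := by
  funext c
  fin_cases c <;> simp [nbF]

theorem thF_one (r : ℕ) : thF r (1 : Fin 3 → B) = 1 := by
  rw [thF, naF_one, nbF_one, one_mul]

end Formal

/-! ### The calculus -/

/-- The abstract toric calculus at level `N q²` (`q = r + 1`). -/
structure TorCalc (F : Type*) (B : Type*) [Field F] [CommRing B] (n r : ℕ) where
  /-- the functions regular off the cusps -/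
  Reg : Subring F
  reg_of_pow : ∀ f : F, f ^ n ∈ Reg → f ∈ Reg
  /-- the constants -/
  Cst : F → Prop
  cst_one : Cst 1
  cst_mul : ∀ c d : F, Cst c → Cst d → Cst (c * d)
  cst_inv : ∀ c : F, Cst c → Cst c⁻¹
  /-- `n ∣ div f` -/
  Dv : F → Prop
  dv_mul : ∀ f g : F, Dv f → Dv g → Dv (f * g)
  dv_inv : ∀ f : F, Dv f → Dv f⁻¹
  dv_pow : ∀ f : F, Dv (f ^ n)
  /-- the functions of the special fibre regular off the cusps -/
  Bt : Subring B
  /-- the ideal of the supersingular points -/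
  J : AddSubgroup B
  J_le : ∀ e ∈ J, e ∈ Bt
  J_mul : ∀ z ∈ Bt, ∀ e ∈ J, z * e ∈ J
  /-- `Rho f X` : `f` is integral at the three valuations with reduction triple `X` -/
  Rho : F → (Fin 3 → B) → Prop
  rho_one : Rho 1 1
  rho_add : ∀ f g X Y, Rho f X → Rho g Y → Rho (f + g) (X + Y)
  rho_neg : ∀ f X, Rho f X → Rho (-f) (-X)
  rho_mul : ∀ f g X Y, Rho f X → Rho g Y → Rho (f * g) (X * Y)
  rho_inv_one : ∀ f, Rho f 1 → Rho f⁻¹ 1
  ne_zero_of_rho_one : ∀ f, Rho f 1 → f ≠ 0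
  /-- `α ∘ N_α` -/
  NA : F →*₀ F
  /-- `β ∘ N_β` -/
  NB : F →*₀ F
  NA_reg : ∀ f ∈ Reg, NA f ∈ Reg
  NB_reg : ∀ f ∈ Reg, NB f ∈ Reg
  NA_dv : ∀ f, Dv f → Dv (NA f)
  NB_dv : ∀ f, Dv f → Dv (NB f)
  NA_cst : ∀ c, Cst c → Cst (NA c)
  NB_cst : ∀ c, Cst c → Cst (NB c)
  NA_rho : ∀ f X, Rho f X → Rho (NA f) (naF r X)
  NB_rho : ∀ f X, Rho f X → Rho (NB f) (nbF r X)
  /-- pull back from level `N` by `τ ↦ q τ` -/
  pb : ∀ z ∈ Bt, ∃ R ∈ Reg, Rho R (fun _ => z ^ (r + 1))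
  /-- realisation of the conductor -/
  real : ∀ e z : Fin 3 → B, (∀ c, e c ∈ J) → (∀ c, z c ∈ Bt) →
    ∃ R ∈ Reg, Rho R (fun c => e c ^ (r + 1) * z c)
  /-- [ROOT3] -/
  root : ∀ H : F, H ∈ Reg → Rho H 1 → Dv H → ∃ c v : F, Cst c ∧ H = c * v ^ n

namespace TorCalc

variable {F : Type*} {B : Type*} [Field F] [CommRing B] {n r : ℕ} (T : TorCalc F B n r)

/-- `g` lies in the "ideal" of `u`: `g ^ n / u` is regular off the cusps. -/
def InId (u g : F) : Prop := g ^ n * u⁻¹ ∈ T.Reg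

/-- `Θ = α N_α · β N_β` -/
def Th : F →*₀ F where
  toFun f := T.NA f * T.NB f
  map_zero' := by simp
  map_one' := by simp
  map_mul' f g := by rw [map_mul, map_mul]; ring

theorem Th_apply (f : F) : T.Th f = T.NA f * T.NB f := rfl

/-- `V h = h ^ (q² - 1) * (Θ h)⁻¹ ^ (2 q) * Θ (Θ h)` -/
def V (h : F) : F := h ^ (r * (r + 2)) * (T.Th h)⁻¹ ^ (2 * (r + 1)) * T.Th (T.Th h)

/-- `U h = (V h) ^ q` -/
def U (h : F) : F := T.V h ^ (r + 1)

/-- a partition of unity of the ideal of `u` -/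
def HasPartition (u : F) : Prop :=
  ∃ (m : ℕ) (g b : Fin m → F) (X Y : Fin m → Fin 3 → B),
    (∀ i, T.InId u (g i)) ∧ (∀ i, T.InId u⁻¹ (b i)) ∧ (∀ i, T.Rho (g i) (X i)) ∧
    (∀ i, T.Rho (b i) (Y i)) ∧ (∀ i c, Y i c ∈ T.Bt) ∧ ∀ c, ∑ i, X i c * Y i c = 1

/-- a semilocal generator (at the supersingular points) of the ideal of `h` -/
def HasGenerator (h : F) : Prop :=
  ∃ (g b : F) (X Y : Fin 3 → B), T.InId h g ∧ T.InId h⁻¹ b ∧ T.Rho g X ∧ T.Rho b Y ∧
    (∀ c, Y c ∈ T.Bt) ∧ ∀ c, X c * Y c - 1 ∈ T.J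

variable {T}

/-! ### The ideal calculus -/

theorem InId.mul {u u' g g' : F} (h : T.InId u g) (h' : T.InId u' g') :
    T.InId (u * u') (g * g') := by
  unfold InId at *
  have e : (g * g') ^ n * (u * u')⁻¹ = g ^ n * u⁻¹ * (g' ^ n * u'⁻¹) := by
    rw [mul_pow, mul_inv]; ring
  rw [e]
  exact T.Reg.mul_mem h h'

theorem inId_one : T.InId 1 1 := by
  unfold InId
  simp

theorem InId.pow {u g : F} (h : T.InId u g) (m : ℕ) : T.InId (u ^ m) (g ^ m) := by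
  induction m with
  | zero => simpa using inId_one (T := T)
  | succ k ih => rw [pow_succ, pow_succ]; exact ih.mul h

theorem InId.mul_reg {u g R : F} (h : T.InId u g) (hR : R ∈ T.Reg) : T.InId u (g * R) := by
  unfold InId at *
  have e : (g * R) ^ n * u⁻¹ = g ^ n * u⁻¹ * R ^ n := by rw [mul_pow]; ring
  rw [e]
  exact T.Reg.mul_mem h (T.Reg.pow_mem hR n)

theorem InId.map_NA {u g : F} (h : T.InId u g) : T.InId (T.NA u) (T.NA g) := by
  unfold InId at *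
  have := T.NA_reg _ h
  rwa [map_mul, map_pow, map_inv₀] at this

theorem InId.map_NB {u g : F} (h : T.InId u g) : T.InId (T.NB u) (T.NB g) := by
  unfold InId at *
  have := T.NB_reg _ h
  rwa [map_mul, map_pow, map_inv₀] at this

theorem InId.map_Th {u g : F} (h : T.InId u g) : T.InId (T.Th u) (T.Th g) :=
  h.map_NA.mul h.map_NB

/-- the products `g ^ i * g' ^ j / u`, `i + j = n`, are regular -/
theorem InId.mixed {u g g' : F} (h : T.InId u g) (h' : T.InId u g') (hn : n ≠ 0) (i j : ℕ)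
    (hij : i + j = n) : g ^ i * g' ^ j * u⁻¹ ∈ T.Reg := by
  apply T.reg_of_pow
  have e : (g ^ i * g' ^ j * u⁻¹) ^ n = (g ^ n * u⁻¹) ^ i * (g' ^ n * u⁻¹) ^ j := by
    have h1 : u⁻¹ ^ n = u⁻¹ ^ i * u⁻¹ ^ j := by rw [← pow_add, hij]
    rw [mul_pow, mul_pow, mul_pow, mul_pow, h1, ← pow_mul, ← pow_mul, ← pow_mul, ← pow_mul,
      mul_comm n i, mul_comm n j]
    ring
  rw [e]
  exact T.Reg.mul_mem (T.Reg.pow_mem h i) (T.Reg.pow_mem h' j)

theorem InId.add {u g g' : F} (h : T.InId u g) (h' : T.InId u g') (hn : n ≠ 0) :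
    T.InId u (g + g') := by
  unfold InId
  rw [add_pow, Finset.sum_mul]
  refine T.Reg.sum_mem fun m hm => ?_
  have hm' : m ≤ n := by
    have := Finset.mem_range.mp hm
    omega
  have e : g ^ m * g' ^ (n - m) * (n.choose m : F) * u⁻¹ =
      g ^ m * g' ^ (n - m) * u⁻¹ * (n.choose m : F) := by ring
  rw [e]
  exact T.Reg.mul_mem (h.mixed h' hn m (n - m) (by omega)) (natCast_mem T.Reg _)

theorem InId.sum {u : F} (hn : n ≠ 0) {ι : Type*} (s : Finset ι) (g : ι → F)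
    (h : ∀ i ∈ s, T.InId u (g i)) : T.InId u (∑ i ∈ s, g i) := by
  classical
  induction s using Finset.induction_on with
  | empty =>
    unfold InId
    simp [zero_pow hn]
  | insert a s ha ih =>
    rw [Finset.sum_insert ha]
    exact (h a (Finset.mem_insert_self a s)).add
      (ih fun i hi => h i (Finset.mem_insert_of_mem hi)) hn

/-- `g ∈ I_u`, `b ∈ I_(1/u)` : `g b` is regular -/
theorem InId.mul_inv_reg {u g b : F} (hu : u ≠ 0) (h : T.InId u g) (h' : T.InId u⁻¹ b) :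
    g * b ∈ T.Reg := by
  apply T.reg_of_pow
  unfold InId at *
  have e : (g * b) ^ n = g ^ n * u⁻¹ * (b ^ n * u⁻¹⁻¹) := by
    rw [mul_pow, inv_inv]
    field_simp
  rw [e]
  exact T.Reg.mul_mem h h'

/-! ### The reduction calculus -/

theorem rho_zero : T.Rho 0 0 := by
  have := T.rho_add _ _ _ _ T.rho_one (T.rho_neg _ _ T.rho_one)
  simpa using this

theorem rho_pow {f : F} {X : Fin 3 → B} (h : T.Rho f X) (m : ℕ) : T.Rho (f ^ m) (X ^ m) := by
  induction m with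
  | zero => simpa using T.rho_one
  | succ k ih => rw [pow_succ, pow_succ]; exact T.rho_mul _ _ _ _ ih h

theorem rho_sub {f g : F} {X Y : Fin 3 → B} (h : T.Rho f X) (h' : T.Rho g Y) :
    T.Rho (f - g) (X - Y) := by
  rw [sub_eq_add_neg, sub_eq_add_neg]
  exact T.rho_add _ _ _ _ h (T.rho_neg _ _ h')

theorem rho_sum {ι : Type*} (s : Finset ι) (f : ι → F) (X : ι → Fin 3 → B)
    (h : ∀ i ∈ s, T.Rho (f i) (X i)) : T.Rho (∑ i ∈ s, f i) (∑ i ∈ s, X i) := by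
  classical
  induction s using Finset.induction_on with
  | empty => simpa using rho_zero (T := T)
  | insert a s ha ih =>
    rw [Finset.sum_insert ha, Finset.sum_insert ha]
    exact T.rho_add _ _ _ _ (h a (Finset.mem_insert_self a s))
      (ih fun i hi => h i (Finset.mem_insert_of_mem hi))

theorem rho_Th {f : F} {X : Fin 3 → B} (h : T.Rho f X) : T.Rho (T.Th f) (thF r X) :=
  T.rho_mul _ _ _ _ (T.NA_rho _ _ h) (T.NB_rho _ _ h)

theorem rho_Th_one {f : F} (h : T.Rho f 1) : T.Rho (T.Th f) 1 := by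
  have := rho_Th h
  rwa [thF_one] at this

theorem rho_V_one {h : F} (hh : T.Rho h 1) : T.Rho (T.V h) 1 := by
  have h1 := rho_pow hh (r * (r + 2))
  have h2 := rho_pow (T.rho_inv_one _ (rho_Th_one hh)) (2 * (r + 1))
  have h3 := rho_Th_one (rho_Th_one hh)
  have := T.rho_mul _ _ _ _ (T.rho_mul _ _ _ _ h1 h2) h3
  simpa [V] using this

theorem rho_U_one {h : F} (hh : T.Rho h 1) : T.Rho (T.U h) 1 := by
  have := rho_pow (rho_V_one hh) (r + 1)
  simpa [U] using this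

/-! ### Divisibility of divisors -/

theorem dv_one : T.Dv 1 := by
  have := T.dv_pow 1
  rwa [one_pow] at this

theorem dv_npow {f : F} (h : T.Dv f) (m : ℕ) : T.Dv (f ^ m) := by
  induction m with
  | zero => simpa using dv_one (T := T)
  | succ k ih => rw [pow_succ]; exact T.dv_mul _ _ ih h

theorem dv_Th {f : F} (h : T.Dv f) : T.Dv (T.Th f) :=
  T.dv_mul _ _ (T.NA_dv _ h) (T.NB_dv _ h)

theorem dv_U {h : F} (hh : T.Dv h) : T.Dv (T.U h) := by
  unfold U V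
  exact dv_npow (T.dv_mul _ _ (T.dv_mul _ _ (dv_npow hh _) (dv_npow (T.dv_inv _ (dv_Th hh)) _))
    (dv_Th (dv_Th hh))) _

/-! ### Elements `≡ 1` modulo the supersingular ideal -/

theorem one_sub_mem : (1 : B) - 1 ∈ T.J := by
  rw [sub_self]
  exact T.J.zero_mem

theorem mem_Bt_of_sub_one {a : B} (h : a - 1 ∈ T.J) : a ∈ T.Bt := by
  have : a = (a - 1) + 1 := by ring
  rw [this]
  exact T.Bt.add_mem (T.J_le _ h) T.Bt.one_mem

theorem mul_sub_one_mem {a b : B} (ha : a - 1 ∈ T.J) (hb : b - 1 ∈ T.J) : a * b - 1 ∈ T.J := by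
  have e : a * b - 1 = a * (b - 1) + (a - 1) := by ring
  rw [e]
  exact T.J.add_mem (T.J_mul _ (mem_Bt_of_sub_one ha) _ hb) ha

theorem pow_sub_one_mem {a : B} (ha : a - 1 ∈ T.J) (m : ℕ) : a ^ m - 1 ∈ T.J := by
  induction m with
  | zero => simpa using one_sub_mem (T := T)
  | succ k ih => rw [pow_succ]; exact mul_sub_one_mem ih ha

theorem eF_sub_one_mem {X Y : Fin 3 → B} (h : ∀ c, X c * Y c - 1 ∈ T.J) (c : Fin 3) :
    eF r X Y c - 1 ∈ T.J := by
  fin_cases c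
  · simp only [eF, Fin.zero_eta, Matrix.cons_val_zero]
    exact mul_sub_one_mem (mul_sub_one_mem (pow_sub_one_mem (h 0) _) (pow_sub_one_mem (h 1) _))
      (pow_sub_one_mem (h 2) _)
  · simp only [eF, Fin.mk_one, Matrix.cons_val_one, Matrix.cons_val_zero, Matrix.head_cons]
    exact mul_sub_one_mem (mul_sub_one_mem (pow_sub_one_mem (h 1) _) (pow_sub_one_mem (h 0) _))
      (pow_sub_one_mem (h 2) _)
  · simp only [eF, Fin.reduceFinMk, Matrix.cons_val_two, Matrix.cons_val_one,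
      Matrix.cons_val_zero, Matrix.head_cons, Matrix.tail_cons]
    exact mul_sub_one_mem (mul_sub_one_mem (pow_sub_one_mem (h 0) _) (pow_sub_one_mem (h 1) _))
      (pow_sub_one_mem (h 2) _)

theorem zF_mem {Y : Fin 3 → B} (h : ∀ c, Y c ∈ T.Bt) : zF r Y ∈ T.Bt :=
  T.Bt.pow_mem (T.Bt.mul_mem (T.Bt.mul_mem (h 0) (h 1)) (T.Bt.pow_mem (h 2) _)) _

/-! ### The main theorem -/

theorem U_ne_zero {h : F} (hh : h ≠ 0) : T.U h ≠ 0 := by
  unfold U V
  have h1 : T.Th h ≠ 0 := (map_ne_zero _).mpr hh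
  have h2 : T.Th (T.Th h) ≠ 0 := (map_ne_zero _).mpr h1
  exact pow_ne_zero _ (mul_ne_zero (mul_ne_zero (pow_ne_zero _ hh)
    (pow_ne_zero _ (inv_ne_zero h1))) h2)

/-- the multiplier `G₁ ∈ I_(U h)` with reduction `1 + e ^ q`, `e` in the supersingular ideal -/
theorem exists_G1 [Fact (r + 1).Prime] [CharP B (r + 1)] {h : F} (hgen : T.HasGenerator h) :
    ∃ (G₁ : F) (e : Fin 3 → B), T.InId (T.U h) G₁ ∧ (∀ c, e c ∈ T.J) ∧
      T.Rho G₁ (fun c => 1 + e c ^ (r + 1)) := by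
  obtain ⟨g, b, X, Y, ig, ib, ρg, ρb, hY, hXY⟩ := hgen
  -- the element `G`
  have i1 := ig.pow (r * (r + 2))
  have i2 : T.InId ((T.Th h)⁻¹ ^ (2 * (r + 1))) (T.Th b ^ (2 * (r + 1))) := by
    have := ib.map_Th
    rw [map_inv₀] at this
    exact this.pow _
  have i3 := ig.map_Th.map_Th
  have iG : T.InId (T.V h) (g ^ (r * (r + 2)) * T.Th b ^ (2 * (r + 1)) * T.Th (T.Th g)) :=
    (i1.mul i2).mul i3
  have ρG : T.Rho (g ^ (r * (r + 2)) * T.Th b ^ (2 * (r + 1)) * T.Th (T.Th g)) (gF r X Y) :=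
    T.rho_mul _ _ _ _ (T.rho_mul _ _ _ _ (rho_pow ρg _) (rho_pow (rho_Th ρb) _))
      (rho_Th (rho_Th ρg))
  -- the pull back
  obtain ⟨R, hR, ρR⟩ := T.pb _ (zF_mem (T := T) hY)
  refine ⟨(g ^ (r * (r + 2)) * T.Th b ^ (2 * (r + 1)) * T.Th (T.Th g)) ^ (r + 1) * R,
    fun c => eF r X Y c - 1, (iG.pow (r + 1)).mul_reg hR, eF_sub_one_mem hXY, ?_⟩
  have := T.rho_mul _ _ _ _ (rho_pow ρG (r + 1)) ρR
  have e : (gF r X Y ^ (r + 1) * fun _ => zF r Y ^ (r + 1)) =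
      fun c => 1 + (eF r X Y c - 1) ^ (r + 1) := by
    funext c
    rw [Pi.mul_apply, Pi.pow_apply, ← mul_pow, gF_mul_zF, sub_pow_char, one_pow]
    ring
  rwa [e] at this

/-- **[T3-TORIC], operator form.**  For `h ≡ 1` at the three valuations with `n ∣ div h`:
`U h = (h ^ (q² - 1) * (Θ h)⁻¹ ^ (2 q) * Θ (Θ h)) ^ q` is a constant times an `n`-th power. -/
theorem main [Fact (r + 1).Prime] [CharP B (r + 1)] (hn : n ≠ 0) {h : F} (hh : T.Rho h 1)
    (hdv : T.Dv h) (hgen : T.HasGenerator h) (hpart : T.HasPartition (T.U h)) :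
    ∃ c v : F, T.Cst c ∧ T.U h = c * v ^ n := by
  have h0 : h ≠ 0 := T.ne_zero_of_rho_one _ hh
  have hU0 : T.U h ≠ 0 := U_ne_zero h0
  obtain ⟨G₁, e, iG₁, he, ρG₁⟩ := exists_G1 hgen
  obtain ⟨m, gs, bs, Xs, Ys, igs, ibs, ρgs, ρbs, hYs, hsum⟩ := hpart
  -- the multipliers `R i` with reduction `Ys i`
  have hRi : ∀ i : Fin m, ∃ R ∈ T.Reg, T.Rho R (Ys i) := by
    intro i
    have h1 : G₁ * bs i ∈ T.Reg := InId.mul_inv_reg hU0 iG₁ (ibs i)
    have ρ1 := T.rho_mul _ _ _ _ ρG₁ (ρbs i)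
    obtain ⟨S, hS, ρS⟩ := T.real e (Ys i) he (hYs i)
    refine ⟨G₁ * bs i - S, T.Reg.sub_mem h1 hS, ?_⟩
    have := rho_sub ρ1 ρS
    have e' : ((fun c => 1 + e c ^ (r + 1)) * Ys i - fun c => e c ^ (r + 1) * Ys i c) = Ys i := by
      funext c
      simp only [Pi.sub_apply, Pi.mul_apply]
      ring
    rwa [e'] at this
  choose R hR ρR using hRi
  -- the generator
  have iG : T.InId (T.U h) (∑ i, gs i * R i) :=
    InId.sum hn _ _ fun i _ => (igs i).mul_reg (hR i)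
  have ρG : T.Rho (∑ i, gs i * R i) 1 := by
    have := rho_sum (T := T) Finset.univ (fun i => gs i * R i) (fun i => Xs i * Ys i)
      fun i _ => T.rho_mul _ _ _ _ (ρgs i) (ρR i)
    have e' : (∑ i, Xs i * Ys i) = (1 : Fin 3 → B) := by
      funext c
      rw [Finset.sum_apply]
      simpa using hsum c
    rwa [e'] at this
  -- the root
  have ρH : T.Rho ((∑ i, gs i * R i) ^ n * (T.U h)⁻¹) 1 := by
    have := T.rho_mul _ _ _ _ (rho_pow ρG n) (T.rho_inv_one _ (rho_U_one hh))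
    simpa using this
  have dH : T.Dv ((∑ i, gs i * R i) ^ n * (T.U h)⁻¹) :=
    T.dv_mul _ _ (T.dv_pow _) (T.dv_inv _ (dv_U hdv))
  obtain ⟨c, v, hc, hcv⟩ := T.root _ iG ρH dH
  have hH0 := T.ne_zero_of_rho_one _ ρH
  have hc0 : c ≠ 0 := by
    rintro rfl
    rw [zero_mul] at hcv
    exact hH0 hcv
  have hv0 : v ≠ 0 := by
    rintro rfl
    rw [zero_pow hn, mul_zero] at hcv
    exact hH0 hcv
  refine ⟨c⁻¹, (∑ i, gs i * R i) * v⁻¹, T.cst_inv _ hc, ?_⟩
  rw [mul_pow, inv_pow]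
  have hvn : v ^ n ≠ 0 := pow_ne_zero n hv0
  generalize (∑ i, gs i * R i) ^ n = Gn at hcv
  generalize v ^ n = Vn at hcv hvn
  generalize T.U h = Uh at hcv hU0
  field_simp at hcv ⊢
  linear_combination -hcv

theorem cst_pow {c : F} (h : T.Cst c) (m : ℕ) : T.Cst (c ^ m) := by
  induction m with
  | zero => simpa using T.cst_one
  | succ k ih => rw [pow_succ]; exact T.cst_mul _ _ ih h

theorem cst_Th {c : F} (h : T.Cst c) : T.Cst (T.Th c) :=
  T.cst_mul _ _ (T.NA_cst _ h) (T.NB_cst _ h)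

/-- **[T3-TORIC]**, item (d) of the T3 plan: a class of the toric part (`h ≡ 1` at the three
valuations, `n ∣ div h`) killed by both push-forwards `α_*`, `β_*` is killed by
`q (q² - 1)`. -/
theorem new [Fact (r + 1).Prime] [CharP B (r + 1)] (hn : n ≠ 0) {h : F} (hh : T.Rho h 1)
    (hdv : T.Dv h) (hgen : T.HasGenerator h) (hpart : T.HasPartition (T.U h))
    (hA : ∃ c w : F, T.Cst c ∧ T.NA h = c * w ^ n)
    (hB : ∃ c w : F, T.Cst c ∧ T.NB h = c * w ^ n) :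
    ∃ c v : F, T.Cst c ∧ h ^ ((r + 1) * (r * (r + 2))) = c * v ^ n := by
  have h0 : h ≠ 0 := T.ne_zero_of_rho_one _ hh
  obtain ⟨c, v, hc, hcv⟩ := main hn hh hdv hgen hpart
  obtain ⟨c₁, w₁, hc₁, e₁⟩ := hA
  obtain ⟨c₂, w₂, hc₂, e₂⟩ := hB
  have hTh : T.Th h = (c₁ * c₂) * (w₁ * w₂) ^ n := by
    rw [Th_apply, e₁, e₂]; ring
  have hTh0 : T.Th h ≠ 0 := (map_ne_zero _).mpr h0
  have hC0 : c₁ * c₂ ≠ 0 := by
    intro h1
    rw [h1, zero_mul] at hTh
    exact hTh0 hTh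
  have hw0 : w₁ * w₂ ≠ 0 := by
    intro h1
    rw [h1, zero_pow hn, mul_zero] at hTh
    exact hTh0 hTh
  have hC : T.Cst (c₁ * c₂) := T.cst_mul _ _ hc₁ hc₂
  have hD : T.Cst (T.Th (c₁ * c₂)) := cst_Th hC
  have hD0 : T.Th (c₁ * c₂) ≠ 0 := (map_ne_zero _).mpr hC0
  have hTw0 : T.Th (w₁ * w₂) ≠ 0 := (map_ne_zero _).mpr hw0
  have hTh2 : T.Th (T.Th h) = T.Th (c₁ * c₂) * T.Th (w₁ * w₂) ^ n := by
    rw [hTh, map_mul, map_pow]
  have hK : T.Cst (((c₁ * c₂)⁻¹ ^ (2 * (r + 1)) * T.Th (c₁ * c₂)) ^ (r + 1))⁻¹ :=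
    T.cst_inv _ (cst_pow (T.cst_mul _ _ (cst_pow (T.cst_inv _ hC) _) hD) _)
  refine ⟨c * (((c₁ * c₂)⁻¹ ^ (2 * (r + 1)) * T.Th (c₁ * c₂)) ^ (r + 1))⁻¹,
    v * (((w₁ * w₂)⁻¹ ^ (2 * (r + 1)) * T.Th (w₁ * w₂)) ^ (r + 1))⁻¹, T.cst_mul _ _ hc hK, ?_⟩
  have hU : T.U h = h ^ ((r + 1) * (r * (r + 2))) *
      ((c₁ * c₂)⁻¹ ^ (2 * (r + 1)) * T.Th (c₁ * c₂)) ^ (r + 1) *
      (((w₁ * w₂)⁻¹ ^ (2 * (r + 1)) * T.Th (w₁ * w₂)) ^ (r + 1)) ^ n := by
    unfold U V
    rw [hTh2, hTh, mul_inv, ← inv_pow (w₁ * w₂) n]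
    ring
  have hK0 : ((c₁ * c₂)⁻¹ ^ (2 * (r + 1)) * T.Th (c₁ * c₂)) ^ (r + 1) ≠ 0 :=
    pow_ne_zero _ (mul_ne_zero (pow_ne_zero _ (inv_ne_zero hC0)) hD0)
  have hs0 : ((w₁ * w₂)⁻¹ ^ (2 * (r + 1)) * T.Th (w₁ * w₂)) ^ (r + 1) ≠ 0 :=
    pow_ne_zero _ (mul_ne_zero (pow_ne_zero _ (inv_ne_zero hw0)) hTw0)
  have key : ∀ K s X Uh : F, K ≠ 0 → s ≠ 0 → Uh = X * K * s ^ n → Uh = c * v ^ n →
      X = c * K⁻¹ * (v * s⁻¹) ^ n := by
    intro K s X Uh hK0 hs0 e1 e2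
    rw [mul_pow, inv_pow]
    have hsn : s ^ n ≠ 0 := pow_ne_zero n hs0
    rw [e1] at e2
    generalize s ^ n = Sn at e2 hsn ⊢
    generalize v ^ n = Vn at e2 ⊢
    field_simp
    linear_combination e2
  exact key _ _ _ _ hK0 hs0 hU hcv

end TorCalc

end Fermat.Agent.T3.helper49
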