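/-
TIER 3 (S36), [T3-KUM3] (helper72): (NEW-INV) and (KER-STABLE) for the cut
`f = (U_q, U_q ∘ W_{q²})` at the level `N * q * q` from a function-field core.

Setting: `q` a prime, `q ∤ N`, `M = N * q * q`, `A` a valuation subring of `ℚ̄` over `q`,
`I` its inertia group, `W = helper48.atkinLehnerSq N q` the Atkin-Lehner involution `W_{q²}` of
`F_M`, `U = helper48.uKummer M q` the operator `U_q` on functions
(`(U h)(t^q) = ∏_{k<q} h(ζ^k t)`), `n = p ^ k`.

* `cutSq N q hq hqN`              : the cut map `x ↦ (U_q x, U_q (W • x))` on `J₀(M)`.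
* `NewCoreStatement N q hq hqN A n C` : **the function-field core of (NEW-INV)**: if `u ≠ 0` is
  fixed by the inertia group of `A`, `n ∣ div u`, and `U u`, `U (W u)` are constants times
  `n`-th powers, then `u ^ C` is a constant times an `n`-th power.
* `newInvAt_of_core`              : the core (for all powers of `p`) gives
  `helper34.NewInvAt M p A (cutSq ..) C`.
* `kerStable_cutSq`               : `helper34.KerStable M p (cutSq ..)` (unconditional).
-/
import Fermat.Agent.T3.helper34_WireS36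
import Fermat.Agent.T3.helper58_Desc
import Fermat.Agent.T3.helper48_AtkinLehnerQ
import Fermat.Agent.T2.helper48_UOp
import Fermat.Agent.P2.helper93_CoreWire

set_option autoImplicit false
set_option linter.unusedSectionVars false
set_option linter.style.haveILetI false

noncomputable section

open HahnSeries IntermediateField AlgebraicCurve ModularCurve
open Fermat.Agent.S18.helper19 Fermat.Agent.P2.helper93 Fermat.Agent.P3 Fermat.Agent.P3.helper94

namespace Fermat.Agent.T3.helper72

variable (N q : ℕ) [NeZero N] [NeZero q]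

/-- the Atkin-Lehner involution `W_{q²}` as an additive endomorphism of `J₀(N q²)` -/
def wSqJ (hq : q.Prime) (hqN : ¬ q ∣ N) : JZero (N * q * q) →+ JZero (N * q * q) :=
  DistribSMul.toAddMonoidHom (JZero (N * q * q)) (helper48.atkinLehnerSq N q hq hqN)

theorem wSqJ_apply (hq : q.Prime) (hqN : ¬ q ∣ N) (x : JZero (N * q * q)) :
    wSqJ N q hq hqN x = helper48.atkinLehnerSq N q hq hqN • x := rfl

/-- **the cut map of S36**: `x ↦ (U_q x, U_q (W_{q²} • x))`. -/
def cutSq (hq : q.Prime) (hqN : ¬ q ∣ N) :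
    JZero (N * q * q) →+ JZero (N * q * q) × JZero (N * q * q) :=
  (T2.helper48.uJ (N * q * q) q).prod ((T2.helper48.uJ (N * q * q) q).comp (wSqJ N q hq hqN))

theorem cutSq_apply (hq : q.Prime) (hqN : ¬ q ∣ N) (x : JZero (N * q * q)) :
    cutSq N q hq hqN x = (T2.helper48.uJ (N * q * q) q x,
      T2.helper48.uJ (N * q * q) q (helper48.atkinLehnerSq N q hq hqN • x)) := rfl

/-- **The function-field core of (NEW-INV)** at the place `A`, for the exponent `n` and the
constant `C`. -/
def NewCoreStatement (hq : q.Prime) (hqN : ¬ q ∣ N) (A : ValuationSubring Kb) (n C : ℕ) :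
    Prop :=
  ∀ u : FF (N * q * q), u ≠ 0 → (∀ P : Place Kb (FF (N * q * q)), (n : ℤ) ∣ P.ord u) →
    (∀ σ ∈ A.inertiaSubgroupIn ℚ, galF (N * q * q) σ u = u) →
    (∃ (c : Kb) (φ : FF (N * q * q)),
      T2.helper48.uKummer (N * q * q) q u = algebraMap Kb (FF (N * q * q)) c * φ ^ n) →
    (∃ (c : Kb) (φ : FF (N * q * q)),
      T2.helper48.uKummer (N * q * q) q (helper48.atkinLehnerSq N q hq hqN u)
        = algebraMap Kb (FF (N * q * q)) c * φ ^ n) →
    ∃ (c : Kb) (v : FF (N * q * q)), u ^ C = algebraMap Kb (FF (N * q * q)) c * v ^ n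

variable {N q}

/-- a Kummer representative of the trivial class of `J₀(M)` is a constant times an `n`-th
power -/
theorem exists_const_mul_pow_of_rep_zero {M : ℕ} [NeZero M] {n : ℕ} {h : FF M}
    (H : IsKummerRep n (0 : JZero M) h) :
    ∃ (c : Kb) (φ : FF M), h = algebraMap Kb (FF M) c * φ ^ n := by
  obtain ⟨u, w, -, hw, he⟩ := H.exists_eq_mul_pow
  obtain ⟨c, hc⟩ := const_of_ord_eq_zero M w hw.2
  exact ⟨c, u, by rw [he, hc]⟩

/-- two classes with the same Kummer representative are equal -/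
theorem eq_of_isKummerRep_same {M : ℕ} [NeZero M] {n : ℕ} (hn : n ≠ 0) {x y : JZero M}
    {h : FF M} (Hx : IsKummerRep n x h) (Hy : IsKummerRep n y h) : x = y := by
  have H0 : IsKummerRep n (x - y) (h * h⁻¹) := Hx.sub Hy
  have e : h * h⁻¹ = (1 : FF M) ^ n := by
    rw [one_pow, mul_inv_cancel₀ Hx.ne_zero]
  exact sub_eq_zero.mp (H0.eq_zero_of_eq_pow hn e)

/-- `W_{q²}` commutes with the Galois action on torsion classes. -/
theorem wSq_galois_smul (hq : q.Prime) (hqN : ¬ q ∣ N) {n : ℕ} (hn : n ≠ 0)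
    (σ : Kb ≃ₐ[ℚ] Kb) {x : JZero (N * q * q)} (hx : n • x = 0) :
    helper48.atkinLehnerSq N q hq hqN • (σ • x) = σ • (helper48.atkinLehnerSq N q hq hqN • x) := by
  obtain ⟨h, H⟩ := exists_isKummerRep hx
  have H1 : IsKummerRep n (helper48.atkinLehnerSq N q hq hqN • (σ • x))
      (helper48.atkinLehnerSq N q hq hqN
        (arithmeticRingAut (modularFunctionFieldFull (N * q * q)) σ h)) :=
    (H.galois_smul_jZero σ).algEquiv_smul _
  have H2 : IsKummerRep n (σ • (helper48.atkinLehnerSq N q hq hqN • x))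
      (arithmeticRingAut (modularFunctionFieldFull (N * q * q)) σ
        (helper48.atkinLehnerSq N q hq hqN h)) :=
    (H.algEquiv_smul _).galois_smul_jZero σ
  rw [helper48.atkinLehnerSq_arithmeticRingAut] at H1
  exact eq_of_isKummerRep_same hn H1 H2

/-- **(KER-STABLE)** for the cut `(U_q, U_q ∘ W_{q²})`. -/
theorem kerStable_cutSq (hq : q.Prime) (hqN : ¬ q ∣ N) (p : ℕ) (hp : p ≠ 0) :
    helper34.KerStable (N * q * q) p (cutSq N q hq hqN) := by
  rintro σ x ⟨k, hx⟩ hfx
  rw [cutSq_apply, Prod.mk_eq_zero] at hfx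
  rw [cutSq_apply, Prod.mk_eq_zero, wSq_galois_smul hq hqN (pow_ne_zero k hp) σ hx,
    T2.helper48.uJ_galois_smul, T2.helper48.uJ_galois_smul, hfx.1, hfx.2, smul_zero]
  exact ⟨rfl, rfl⟩

/-- **[T3-KUM3]** (NEW-INV) at the place `A` from the function-field core. -/
theorem newInvAt_of_core (hq : q.Prime) (hqN : ¬ q ∣ N) (p : ℕ) (hp : p ≠ 0)
    (A : ValuationSubring Kb) (C : ℕ)
    (hcore : ∀ k : ℕ, NewCoreStatement N q hq hqN A (p ^ k) C) :
    helper34.NewInvAt (N * q * q) p A (cutSq N q hq hqN) C := by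
  rintro x ⟨k, hx⟩ hfix hfx
  rw [cutSq_apply, Prod.mk_eq_zero] at hfx
  have hn : p ^ k ≠ 0 := pow_ne_zero k hp
  obtain ⟨h, H, hh⟩ := helper58.exists_fixed_kummerRep (N * q * q) (A.inertiaSubgroupIn ℚ) hn hx
    hfix
  have HU : IsKummerRep (p ^ k) (0 : JZero (N * q * q))
      (T2.helper48.uKummer (N * q * q) q h) := by
    have := T2.helper48.IsKummerRep.uJ (N * q * q) q H
    rwa [hfx.1] at this
  have HW : IsKummerRep (p ^ k) (0 : JZero (N * q * q))
      (T2.helper48.uKummer (N * q * q) q (helper48.atkinLehnerSq N q hq hqN h)) := by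
    have := T2.helper48.IsKummerRep.uJ (N * q * q) q
      (H.algEquiv_smul (helper48.atkinLehnerSq N q hq hqN))
    rwa [hfx.2] at this
  obtain ⟨c, v, hcv⟩ := hcore k h H.ne_zero (fun P => H.dvd_ord P) (fun σ hσ => hh σ hσ)
    (exists_const_mul_pow_of_rep_zero HU) (exists_const_mul_pow_of_rep_zero HW)
  exact (H.nsmul C).eq_zero_of_eq_const_mul_pow hn hcv

end Fermat.Agent.T3.helper72

end
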