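import Mathlib
import Fermat.Agent.T3.helper87_EmbAll
import Fermat.Agent.T2.helper2_FrobNorm

/-!
# Tier 3, [T3-NORM-RED3] (helper98, task 932), part 1: the two norms at level `N q q` in
expansion form, and their reductions

Setting of `helper87_EmbMid`: `q` a prime not dividing `N`, `α, β : F_{Nq} → F_{Nqq}` the two
degeneracy maps of the Prelude (`f(τ)`, `f(q τ)`), `ζ` a primitive `q`-th root of unity,
`E_k = embMid k` (`k ≠ 0`) the expansions at the middle cusps, `A` a valuation subring of `ℚ̄`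
over `q`.

* `normAlpha_expand` : `(N_α g)(t) = g(t) · ∏_{k ≠ 0} (E_k g)(t)`   (the cusp `∞` of `X₀(Nq)` is
  unramified along `α`: above it lie `∞` and the `q - 1` middle cusps);
* `normBeta_expand` : `(N_β g)(t^q) = ∏_{k < q} g(ζ^k t)`   (the cusp `∞` is totally ramified
  along `β`); stated for any level `M` with `q ∣ M`;
* `normAlpha_red` : if `g` and all `E_k g` have coefficients in `A`, so has `N_α g`, and
  `red (N_α g) = red g · ∏_k red (E_k g)`;
* `normBeta_red` : if `g` has coefficients in `A`, so has `N_β g`, and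
  `(red (N_β g))(t^q) = (red g)(t)^q`  (`N_β` reduces to the coefficientwise Frobenius).

Here `N_α = normAlong (heckeAlphaBar ..)`, `N_β = normAlong (heckeBetaBar ..)` are the norms used
by the Prelude's push-forward of divisor classes (`helper94.normAlong`).
-/

set_option autoImplicit false
set_option synthInstance.maxHeartbeats 400000
set_option linter.style.haveILetI false
set_option linter.unusedSectionVars false
set_option linter.unusedVariables false
set_option linter.style.longLine false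

noncomputable section

open HahnSeries IntermediateField AlgebraicCurve ModularCurve
open Fermat.Agent.S18.helper19 Fermat.Agent.P2.helper29 Fermat.Agent.T2.helper36

namespace Fermat.Agent.T3.helper98

open Fermat.Agent.P2.helper93 (twistL twistL_coeff norm_eq_prod_of_embeddings liftA
  coeffMap_subtype_liftA rootUnit coeffMap_subtype_rot coeffMap_subtype_injective
  rootUnit_sub_one_mem)
open Fermat.Agent.T2.helper87 (coeHom coeHom_apply twistHom twistHom_apply twistL_qExpand jN)
open Fermat.Agent.T3.helper87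
open Fermat.Agent.P3.helper94 (normAlong)

/-! ### (i) the norm along `α` -/

section Alpha

variable {N q : ℕ} [NeZero N] [NeZero q] {hq : q.Prime} {hqN : ¬ q ∣ N}

/-- **the norm along `α` at the cusp `∞`**: `(N_α g)(t) = g(t) · ∏_{k ≠ 0} (E_k g)(t)`. -/
theorem normAlpha_expand {ζ : Kb} (hζ : IsPrimitiveRoot ζ q) (g : FF (N * q * q)) :
    ((normAlong (heckeAlphaBar Kb (N * q) q) g : FF (N * q)) : LaurentSeries Kb)
      = (g : LaurentSeries Kb) * ∏ k : MidIdx q, embMid N q hq hqN hζ k.1 k.2 g := by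
  letI := algebraAlong (heckeAlphaBar Kb (N * q) q)
  have hfr : Module.finrank (FF (N * q)) (FF (N * q * q)) = q :=
    Fermat.Agent.T2.helper48.finrank_alpha_of_dvd (N * q) q hq (Dvd.intro_left N rfl)
  haveI fd : FiniteDimensional (FF (N * q)) (FF (N * q * q)) :=
    Module.finite_of_finrank_pos (by rw [hfr]; exact hq.pos)
  haveI : Algebra.IsSeparable (FF (N * q)) (FF (N * q * q)) := inferInstance
  have key := norm_eq_prod_of_embeddings (F := FF (N * q)) (E := FF (N * q * q))
    (coeHom (N * q)) (embAll N q hq hqN hζ) (embAll_injective hζ)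
    (fun i => RingHom.ext fun c => embAll_alpha hζ i c)
    (by rw [card_midIdx q hq, hfr]) g
  rw [Fintype.prod_option] at key
  exact key

end Alpha

/-! ### (ii) the norm along `β` -/

section Beta

variable (M q : ℕ) [NeZero M] [NeZero q]

/-- the `q` embeddings `f ↦ f(ζ^k t)` of `F_{Mq}` over `β F_M`. -/
def rotFamB (ζ : Kb) (hζ : ζ ≠ 0) (k : Fin q) : FF (M * q) →+* LaurentSeries Kb :=
  (twistHom (ζ ^ (k : ℕ)) (pow_ne_zero _ hζ)).comp (coeHom (M * q))

theorem rotFamB_apply (ζ : Kb) (hζ : ζ ≠ 0) (k : Fin q) (f : FF (M * q)) :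
    rotFamB M q ζ hζ k f = twistL (ζ ^ (k : ℕ)) (f : LaurentSeries Kb) := rfl

theorem rotFamB_beta {ζ : Kb} (hζ : IsPrimitiveRoot ζ q) (k : Fin q) (f : FF M) :
    rotFamB M q ζ (hζ.ne_zero (NeZero.ne q)) k (heckeBetaBar Kb M q f)
      = qExpand Kb q (f : LaurentSeries Kb) := by
  rw [rotFamB_apply, coe_heckeBetaBar]
  apply twistL_qExpand
  rw [← pow_mul, mul_comm, pow_mul, hζ.pow_eq_one, one_pow]

theorem coeff_rotFamB_j (ζ : Kb) (hζ : ζ ≠ 0) (k : Fin q) :
    (rotFamB M q ζ hζ k (jN (M * q))).coeff (-1) = (ζ ^ (k : ℕ))⁻¹ := by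
  rw [rotFamB_apply, twistL_coeff]
  show (ζ ^ (k : ℕ)) ^ (-1 : ℤ) * (jqModC Kb).coeff (-1) = _
  rw [coeff_jqModC_neg_one, mul_one, zpow_neg_one]

theorem rotFamB_injective {ζ : Kb} (hζ : IsPrimitiveRoot ζ q) :
    Function.Injective (rotFamB M q ζ (hζ.ne_zero (NeZero.ne q))) := by
  intro a b hab
  have hab' := congrArg (fun φ : FF (M * q) →+* LaurentSeries Kb =>
    (φ (jN (M * q))).coeff (-1)) hab
  beta_reduce at hab'
  rw [coeff_rotFamB_j, coeff_rotFamB_j, inv_inj] at hab'
  exact Fin.ext (hζ.pow_inj a.2 b.2 hab')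

/-- **the norm along `β` at the cusp `∞`**: `(N_β g)(t^q) = ∏_{k<q} g(ζ^k t)` (`q ∣ M`). -/
theorem normBeta_expand (hq : q.Prime) (hqM : q ∣ M) {ζ : Kb} (hζ : IsPrimitiveRoot ζ q)
    (g : FF (M * q)) :
    qExpand Kb q ((normAlong (heckeBetaBar Kb M q) g : FF M) : LaurentSeries Kb)
      = ∏ k ∈ Finset.range q, twistL (ζ ^ k) (g : LaurentSeries Kb) := by
  letI := algebraAlong (heckeBetaBar Kb M q)
  have hfr : Module.finrank (FF M) (FF (M * q)) = q :=
    Fermat.Agent.T2.helper48.finrank_beta_of_dvd M q hq hqM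
  haveI fd : FiniteDimensional (FF M) (FF (M * q)) :=
    Module.finite_of_finrank_pos (by rw [hfr]; exact hq.pos)
  haveI : Algebra.IsSeparable (FF M) (FF (M * q)) := inferInstance
  have key := norm_eq_prod_of_embeddings (F := FF M) (E := FF (M * q))
    ((qExpand Kb q).comp (coeHom M)) (rotFamB M q ζ (hζ.ne_zero (NeZero.ne q)))
    (rotFamB_injective M q hζ)
    (fun i => RingHom.ext fun f => rotFamB_beta M q hζ i f)
    (by rw [Fintype.card_fin, hfr]) g
  simp_rw [rotFamB_apply] at key
  rw [Fin.prod_univ_eq_prod_range (fun k => twistL (ζ ^ k) (g : LaurentSeries Kb)) q] at key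
  rw [← key]
  rfl

end Beta

/-! ### (iii) reductions -/

section Red

variable {N q : ℕ} [NeZero N] [NeZero q] {hq : q.Prime} {hqN : ¬ q ∣ N}
variable (A : ValuationSubring Kb)

/-- **reduction of the norm along `α`**: if `g` and all `E_k g` have coefficients in `A`, then
`N_α g` has coefficients in `A` and `red (N_α g) = red g · ∏_k red (E_k g)`. -/
theorem normAlpha_red {ζ : Kb} (hζ : IsPrimitiveRoot ζ q) (g : FF (N * q * q))
    (Y : LaurentSeries A) (hY : incl A Y = (g : LaurentSeries Kb))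
    (Z : MidIdx q → LaurentSeries A)
    (hZ : ∀ k : MidIdx q, incl A (Z k) = embMid N q hq hqN hζ k.1 k.2 g) :
    incl A (Y * ∏ k : MidIdx q, Z k)
        = ((normAlong (heckeAlphaBar Kb (N * q) q) g : FF (N * q)) : LaurentSeries Kb) ∧
      red A (Y * ∏ k : MidIdx q, Z k) = red A Y * ∏ k : MidIdx q, red A (Z k) := by
  refine ⟨?_, by rw [map_mul, map_prod]⟩
  rw [normAlpha_expand (hq := hq) (hqN := hqN) hζ g, map_mul, map_prod, hY]
  congr 1
  exact Finset.prod_congr rfl fun k _ => hZ k

/-- **reduction of the norm along `β`** (`q ∣ M`, `A` over `q`): if `g` has coefficients in `A`,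
then `N_β g` has coefficients in `A` and `(red (N_β g))(t^q) = (red g)(t)^q`. -/
theorem normBeta_red (M : ℕ) [NeZero M] (hq : q.Prime) (hqM : q ∣ M) (hA : A.LiesOverPrime q)
    (g : FF (M * q)) (Y : LaurentSeries A) (hY : incl A Y = (g : LaurentSeries Kb)) :
    ∃ Y' : LaurentSeries A,
      incl A Y' = ((normAlong (heckeBetaBar Kb M q) g : FF M) : LaurentSeries Kb) ∧
      qExpand (kA A) q (red A Y') = red A Y ^ q := by
  obtain ⟨ζ, hζ⟩ := HasEnoughRootsOfUnity.exists_primitiveRoot Kb q
  have hζ1 : ζ ^ q = 1 := hζ.pow_eq_one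
  set u : (↥A)ˣ := rootUnit A hq.ne_zero hζ1 with hu
  set NK : LaurentSeries Kb :=
    ((normAlong (heckeBetaBar Kb M q) g : FF M) : LaurentSeries Kb) with hNK
  have key := normBeta_expand M q hq hqM hζ g
  set P : LaurentSeries ↥A := ∏ i ∈ Finset.range q, Fermat.Agent.P2.helper94.rot (u ^ i) Y
    with hP
  have hPK : coeffMap (A.subtype : ↥A →+* Kb) P = qExpand Kb q NK := by
    rw [hNK, key, hP, map_prod]
    refine Finset.prod_congr rfl fun i _ => ?_
    rw [coeffMap_subtype_rot]
    have hY' : coeffMap (A.subtype : ↥A →+* Kb) Y = (g : LaurentSeries Kb) := hY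
    rw [hY']
    rfl
  have hmem : ∀ k, NK.coeff k ∈ A := by
    intro k
    have h1 : NK.coeff k = (qExpand Kb q NK).coeff ((q : ℤ) * k) :=
      (qExpand_coeff_mul q NK k).symm
    rw [h1, ← hPK, coeffMap_coeff]
    exact (P.coeff _).2
  refine ⟨liftA NK hmem, coeffMap_subtype_liftA NK hmem, ?_⟩
  have hN' : qExpand ↥A q (liftA NK hmem) = P := by
    apply coeffMap_subtype_injective
    rw [Fermat.Agent.P2.helper94.coeffMap_qExpand, coeffMap_subtype_liftA, ← hPK]
  exact Fermat.Agent.T2.helper2.u_formal q (IsLocalRing.maximalIdeal ↥A) u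
    (rootUnit_sub_one_mem hq hA hζ1) Y (liftA NK hmem) hN'

end Red

end Fermat.Agent.T3.helper98

end
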