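import Mathlib
import Fermat.Agent.T3.helper98_NormRed3
import Fermat.Agent.T3.helper48_WMid
import Fermat.Agent.T3.helper84_K0Ring
import Fermat.Agent.T3.helper74_Sat3Defs
import Fermat.Agent.P2.helper93_CoreWire

/-!
# Tier 3, [T3-NORM-RED3] (helper98, task 932), part 2: the norm table

Level `N q q` (`q` prime, `q ∤ N`), `α, β : F_{Nq} → F_{Nqq}`, `W₁ = W_q` on `F_{Nq}`,
`W₂ = W_{q²}` on `F_{Nqq}`, `A` a valuation subring of `ℚ̄` over `q`, `I` its inertia group,
`ex3 i` (`i = 0, 1, 2`) the expansions at `∞`, `0`, `1/q` (helper74_Sat3Defs).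

* `atkinLehner_normAlpha : W₁ (N_α g) = N_β (W₂ g)`, `atkinLehner_normBeta : W₁ (N_β g) = N_α (W₂ g)`;
* `galois_normAlpha`, `galois_normBeta` : the norms commute with the arithmetic Galois action;
  `isFixI_alpha_normAlpha`, `isFixI_beta_normBeta` : `α N_α g`, `β N_β g` are `I`-fixed if `g` is;
* `exists_model_twist`, `exists_model_prod_twist`, `exists_model_embMid_of_fix`,
  `exists_model_prod_embMid` : integral models and their reductions;
* `ex3_alpha_normAlpha`, `ex3_beta_normBeta` : the six expansions of `α N_α g`, `β N_β g`;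
* **`normRed3_alpha`** : `X(α N_α g) = (x₁ x₃^(q-1), x₂^q, x₁ x₃^(q-1))`,
  **`normRed3_beta`** : `X(β N_β g) = (x₁^q, x₂ x₃^(q-1), x₂ x₃^(q-1))`
  for an `I`-fixed `g` with integral expansions of reductions `(x₁, x₂, x₃)`.
-/

set_option autoImplicit false
set_option synthInstance.maxHeartbeats 400000
set_option linter.style.haveILetI false
set_option linter.unusedSectionVars false
set_option linter.unusedVariables false
set_option linter.style.longLine false

noncomputable section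

open HahnSeries IntermediateField AlgebraicCurve ModularCurve
open Fermat.Agent.S18.helper19 Fermat.Agent.P2.helper29 Fermat.Agent.T2.helper36

namespace Fermat.Agent.T3.helper98

open Fermat.Agent.P2.helper93 (twistL twistL_coeff rootUnit coeffMap_subtype_rot
  rootUnit_sub_one_mem actA coeffMap_subtype_actA coeffMap_residue_actA
  decK_eq_id_of_mem_inertia)
open Fermat.Agent.T3.helper87
open Fermat.Agent.T3.helper48 (atkinLehnerSq atkinLehnerSq_heckeAlphaBar
  atkinLehnerSq_heckeBetaBar atkinLehnerSq_atkinLehnerSq embMid_atkinLehnerSq exists_opposite)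
open Fermat.Agent.T3.helper74 (ex3 IsFixI midOne midOne_ne)
open Fermat.Agent.P3.helper94 (normAlong)

/-! ### (iv-a) the norms and the Atkin–Lehner involutions -/

section AL

variable {N q : ℕ} [NeZero N] [NeZero q] {hq : q.Prime} {hqN : ¬ q ∣ N}

/-- `W₁ (N_α g) = N_β (W₂ g)`. -/
theorem atkinLehner_normAlpha (g : FF (N * q * q)) :
    atkinLehner N q hq hqN (normAlong (heckeAlphaBar Kb (N * q) q) g)
      = normAlong (heckeBetaBar Kb (N * q) q) (atkinLehnerSq N q hq hqN g) := by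
  have h := @Algebra.norm_eq_of_equiv_equiv (FF (N * q)) (FF (N * q * q)) (FF (N * q))
    (FF (N * q * q)) _ _ _ _
    (algebraAlong (heckeAlphaBar Kb (N * q) q)) (algebraAlong (heckeBetaBar Kb (N * q) q))
    (atkinLehner N q hq hqN).toRingEquiv (atkinLehnerSq N q hq hqN).toRingEquiv
    (RingHom.ext fun f => (atkinLehnerSq_heckeAlphaBar N q hq hqN f).symm) g
  have h2 := congrArg (atkinLehner N q hq hqN) h
  rw [show ∀ y, (atkinLehner N q hq hqN) ((atkinLehner N q hq hqN).toRingEquiv.symm y) = y from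
    fun y => (atkinLehner N q hq hqN).apply_symm_apply y] at h2
  exact h2

/-- `W₁ (N_β g) = N_α (W₂ g)`. -/
theorem atkinLehner_normBeta (g : FF (N * q * q)) :
    atkinLehner N q hq hqN (normAlong (heckeBetaBar Kb (N * q) q) g)
      = normAlong (heckeAlphaBar Kb (N * q) q) (atkinLehnerSq N q hq hqN g) := by
  have h := atkinLehner_normAlpha (hq := hq) (hqN := hqN) (atkinLehnerSq N q hq hqN g)
  rw [atkinLehnerSq_atkinLehnerSq] at h
  rw [← h, atkinLehner_atkinLehner]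

end AL

/-! ### the norms and the arithmetic Galois action -/

section Gal

variable {q : ℕ} [NeZero q]

/-- `σ (N_α g) = N_α (σ g)`. -/
theorem galois_normAlpha (M : ℕ) [NeZero M] (σ : Kb ≃ₐ[ℚ] Kb) (g : FF (M * q)) :
    arithmeticRingAut (modularFunctionFieldFull M) σ (normAlong (heckeAlphaBar Kb M q) g)
      = normAlong (heckeAlphaBar Kb M q)
          (arithmeticRingAut (modularFunctionFieldFull (M * q)) σ g) := by
  have h := @Algebra.norm_eq_of_equiv_equiv (FF M) (FF (M * q)) (FF M) (FF (M * q)) _ _ _ _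
    (algebraAlong (heckeAlphaBar Kb M q)) (algebraAlong (heckeAlphaBar Kb M q))
    (arithmeticRingAut (modularFunctionFieldFull M) σ)
    (arithmeticRingAut (modularFunctionFieldFull (M * q)) σ)
    (RingHom.ext fun f => (arithmeticRingAut_heckeAlphaBar M σ f).symm) g
  have h2 := congrArg (arithmeticRingAut (modularFunctionFieldFull M) σ) h
  rw [RingEquiv.apply_symm_apply] at h2
  exact h2

/-- `σ (N_β g) = N_β (σ g)`. -/
theorem galois_normBeta (M : ℕ) [NeZero M] (σ : Kb ≃ₐ[ℚ] Kb) (g : FF (M * q)) :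
    arithmeticRingAut (modularFunctionFieldFull M) σ (normAlong (heckeBetaBar Kb M q) g)
      = normAlong (heckeBetaBar Kb M q)
          (arithmeticRingAut (modularFunctionFieldFull (M * q)) σ g) := by
  have h := @Algebra.norm_eq_of_equiv_equiv (FF M) (FF (M * q)) (FF M) (FF (M * q)) _ _ _ _
    (algebraAlong (heckeBetaBar Kb M q)) (algebraAlong (heckeBetaBar Kb M q))
    (arithmeticRingAut (modularFunctionFieldFull M) σ)
    (arithmeticRingAut (modularFunctionFieldFull (M * q)) σ)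
    (RingHom.ext fun f => (arithmeticRingAut_heckeBetaBar M σ f).symm) g
  have h2 := congrArg (arithmeticRingAut (modularFunctionFieldFull M) σ) h
  rw [RingEquiv.apply_symm_apply] at h2
  exact h2

variable (A : ValuationSubring Kb)

theorem isFixI_normAlpha (M : ℕ) [NeZero M] {g : FF (M * q)} (hg : IsFixI A (M * q) g) :
    IsFixI A M (normAlong (heckeAlphaBar Kb M q) g) := by
  intro σ hσ
  rw [galois_normAlpha, hg σ hσ]

theorem isFixI_normBeta (M : ℕ) [NeZero M] {g : FF (M * q)} (hg : IsFixI A (M * q) g) :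
    IsFixI A M (normAlong (heckeBetaBar Kb M q) g) := by
  intro σ hσ
  rw [galois_normBeta, hg σ hσ]

theorem isFixI_alpha (M : ℕ) [NeZero M] {f : FF M} (hf : IsFixI A M f) :
    IsFixI A (M * q) (heckeAlphaBar Kb M q f) := by
  intro σ hσ
  rw [arithmeticRingAut_heckeAlphaBar, hf σ hσ]

theorem isFixI_beta (M : ℕ) [NeZero M] {f : FF M} (hf : IsFixI A M f) :
    IsFixI A (M * q) (heckeBetaBar Kb M q f) := by
  intro σ hσ
  rw [arithmeticRingAut_heckeBetaBar, hf σ hσ]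

/-- `α N_α g` is `I`-fixed if `g` is. -/
theorem isFixI_alpha_normAlpha (M : ℕ) [NeZero M] {g : FF (M * q)} (hg : IsFixI A (M * q) g) :
    IsFixI A (M * q) (heckeAlphaBar Kb M q (normAlong (heckeAlphaBar Kb M q) g)) :=
  isFixI_alpha A M (isFixI_normAlpha A M hg)

/-- `β N_β g` is `I`-fixed if `g` is. -/
theorem isFixI_beta_normBeta (M : ℕ) [NeZero M] {g : FF (M * q)} (hg : IsFixI A (M * q) g) :
    IsFixI A (M * q) (heckeBetaBar Kb M q (normAlong (heckeBetaBar Kb M q) g)) :=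
  isFixI_beta A M (isFixI_normBeta A M hg)

end Gal

/-! ### integral models and their reductions -/

section Models

variable {q : ℕ} [NeZero q] (A : ValuationSubring Kb)

theorem rootUnit_pow_sub_one_mem (hq : q.Prime) (hA : A.LiesOverPrime q) {ζ : Kb}
    (hζ1 : ζ ^ q = 1) (k : ℕ) :
    (((rootUnit A hq.ne_zero hζ1 ^ k : (↥A)ˣ) : ↥A)) - 1 ∈ IsLocalRing.maximalIdeal ↥A := by
  have h1 : Ideal.Quotient.mk (IsLocalRing.maximalIdeal ↥A)
      ((rootUnit A hq.ne_zero hζ1 : (↥A)ˣ) : ↥A) = 1 := by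
    rw [← sub_eq_zero, ← map_one (Ideal.Quotient.mk (IsLocalRing.maximalIdeal ↥A)), ← map_sub]
    exact Ideal.Quotient.eq_zero_iff_mem.mpr (rootUnit_sub_one_mem hq hA hζ1)
  rw [← Ideal.Quotient.eq_zero_iff_mem, map_sub, map_one, Units.val_pow_eq_pow_val, map_pow, h1,
    one_pow, sub_self]

/-- a twist by a `q`-th root of unity does not change the reduction. -/
theorem exists_model_twist (hq : q.Prime) (hA : A.LiesOverPrime q) {ζ : Kb} (hζ1 : ζ ^ q = 1)
    (k : ℕ) (X : LaurentSeries Kb) (Z : LaurentSeries A) (hZ : incl A Z = X) :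
    ∃ Z' : LaurentSeries A, incl A Z' = twistL (ζ ^ k) X ∧ red A Z' = red A Z := by
  refine ⟨Fermat.Agent.P2.helper94.rot (rootUnit A hq.ne_zero hζ1 ^ k) Z, ?_, ?_⟩
  · show coeffMap (A.subtype : ↥A →+* Kb) _ = _
    rw [coeffMap_subtype_rot]
    have hZ' : coeffMap (A.subtype : ↥A →+* Kb) Z = X := hZ
    rw [hZ']
    rfl
  · exact Fermat.Agent.P2.helper94.coeffMap_rot_of_sub_one_mem (IsLocalRing.maximalIdeal ↥A)
      (rootUnit A hq.ne_zero hζ1 ^ k) (rootUnit_pow_sub_one_mem A hq hA hζ1 k) Z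

/-- the product of the `q` twists reduces to the `q`-th power. -/
theorem exists_model_prod_twist (hq : q.Prime) (hA : A.LiesOverPrime q) {ζ : Kb}
    (hζ1 : ζ ^ q = 1) (X : LaurentSeries Kb) (Z : LaurentSeries A) (hZ : incl A Z = X) :
    ∃ Z' : LaurentSeries A, incl A Z' = ∏ k ∈ Finset.range q, twistL (ζ ^ k) X ∧
      red A Z' = red A Z ^ q := by
  choose Zk hZk1 hZk2 using fun k : ℕ => exists_model_twist A hq hA hζ1 k X Z hZ
  refine ⟨∏ k ∈ Finset.range q, Zk k, ?_, ?_⟩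
  · rw [map_prod]
    exact Finset.prod_congr rfl fun k _ => hZk1 k
  · rw [map_prod, Finset.prod_congr rfl fun k _ => hZk2 k, Finset.prod_const, Finset.card_range]

variable {N : ℕ} [NeZero N] {hq : q.Prime} {hqN : ¬ q ∣ N}

/-- **independence of the middle cusp**: for an `I`-fixed `g`, if one middle expansion is
integral, all are, with the same reduction. -/
theorem exists_model_embMid_of_fix (hA : A.LiesOverPrime q) {ζ : Kb} (hζ : IsPrimitiveRoot ζ q)
    (g : FF (N * q * q)) (hg : IsFixI A (N * q * q) g) (k₀ : Fin q) (hk₀ : (k₀ : ℕ) ≠ 0)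
    (Z : LaurentSeries A) (hZ : incl A Z = embMid N q hq hqN hζ k₀ hk₀ g)
    (k : Fin q) (hk : (k : ℕ) ≠ 0) :
    ∃ Z' : LaurentSeries A, incl A Z' = embMid N q hq hqN hζ k hk g ∧ red A Z' = red A Z := by
  have hcop₀ : Nat.Coprime (k₀ : ℕ) q := by
    rw [Nat.coprime_comm, Nat.Prime.coprime_iff_not_dvd hq]
    intro hd
    exact hk₀ (Nat.eq_zero_of_dvd_of_lt hd k₀.2)
  have hζ₀ : IsPrimitiveRoot (ζ ^ (k₀ : ℕ)) q := hζ.pow_of_coprime _ hcop₀
  have hζk1 : (ζ ^ (k : ℕ)) ^ q = 1 := by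
    rw [← pow_mul, mul_comm, pow_mul, hζ.pow_eq_one, one_pow]
  obtain ⟨i, -, hik⟩ := hζ₀.eq_pow_of_pow_eq_one hζk1
  have hqi : ¬ q ∣ i := by
    intro hd
    obtain ⟨c, rfl⟩ := hd
    rw [pow_mul, hζ₀.pow_eq_one, one_pow] at hik
    have h0 : (k : ℕ) = 0 := hζ.pow_inj k.2 hq.pos (hik.symm.trans (pow_zero ζ).symm)
    exact hk h0
  obtain ⟨σ, hσI, hσ⟩ := Fermat.Agent.T3.helper84.k0_zeta_trans hq A hA hζ₀ hqi
  obtain ⟨hσD, hid⟩ := decK_eq_id_of_mem_inertia hσI
  refine ⟨actA σ hσD Z, ?_, ?_⟩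
  · show coeffMap (A.subtype : ↥A →+* Kb) _ = _
    rw [coeffMap_subtype_actA]
    have hZ' : coeffMap (A.subtype : ↥A →+* Kb) Z = embMid N q hq hqN hζ k₀ hk₀ g := hZ
    rw [hZ', coeffMap_embMid, hg σ hσI]
    have hc := embMid_congr (N := N) (hq := hq) (hqN := hqN) hζ
      (hζ.map_of_injective (f := σ) σ.injective) k k₀ hk hk₀
      (by rw [← map_pow, hσ, hik])
    rw [hc]
  · show coeffMap (IsLocalRing.residue ↥A) _ = _
    rw [coeffMap_residue_actA, hid, coeffMap_id]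

theorem card_midIdx' (hq : q.Prime) : Fintype.card (MidIdx q) = q - 1 := by
  have h := card_midIdx q hq
  rw [Fintype.card_option] at h
  omega

/-- the product of the middle expansions of an `I`-fixed `g`. -/
theorem exists_model_prod_embMid (hA : A.LiesOverPrime q) {ζ : Kb} (hζ : IsPrimitiveRoot ζ q)
    (g : FF (N * q * q)) (hg : IsFixI A (N * q * q) g) (k₀ : Fin q) (hk₀ : (k₀ : ℕ) ≠ 0)
    (Z : LaurentSeries A) (hZ : incl A Z = embMid N q hq hqN hζ k₀ hk₀ g) :
    ∃ Z' : LaurentSeries A, incl A Z' = ∏ k : MidIdx q, embMid N q hq hqN hζ k.1 k.2 g ∧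
      red A Z' = red A Z ^ (q - 1) := by
  choose Zk hZk1 hZk2 using fun k : MidIdx q =>
    exists_model_embMid_of_fix A hA hζ g hg k₀ hk₀ Z hZ k.1 k.2
  refine ⟨∏ k : MidIdx q, Zk k, ?_, ?_⟩
  · rw [map_prod]
    exact Finset.prod_congr rfl fun k _ => hZk1 k
  · rw [map_prod, Finset.prod_congr rfl fun k _ => hZk2 k, Finset.prod_const, Finset.card_univ,
      card_midIdx' hq]

/-- the middle expansions of `W₂ g` for an `I`-fixed `g`. -/
theorem exists_model_embMid_W (hA : A.LiesOverPrime q) {ζ : Kb} (hζ : IsPrimitiveRoot ζ q)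
    (g : FF (N * q * q)) (hg : IsFixI A (N * q * q) g) (k₀ : Fin q) (hk₀ : (k₀ : ℕ) ≠ 0)
    (Z : LaurentSeries A) (hZ : incl A Z = embMid N q hq hqN hζ k₀ hk₀ g)
    (k : Fin q) (hk : (k : ℕ) ≠ 0) :
    ∃ Z' : LaurentSeries A,
      incl A Z' = embMid N q hq hqN hζ k hk (atkinLehnerSq N q hq hqN g) ∧
      red A Z' = red A Z := by
  obtain ⟨k', hk', hkk'⟩ := exists_opposite hζ k hk
  obtain ⟨Z1, hZ1, hZ1r⟩ := exists_model_embMid_of_fix A hA hζ g hg k₀ hk₀ Z hZ k' hk'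
  obtain ⟨Z2, hZ2, hZ2r⟩ := exists_model_twist A hq hA hζ.pow_eq_one (k : ℕ) _ Z1 hZ1
  refine ⟨Z2, ?_, hZ2r.trans hZ1r⟩
  rw [hZ2, embMid_atkinLehnerSq hζ k hk k' hk' hkk']

/-- the product of the middle expansions of `W₂ g` for an `I`-fixed `g`. -/
theorem exists_model_prod_embMid_W (hA : A.LiesOverPrime q) {ζ : Kb} (hζ : IsPrimitiveRoot ζ q)
    (g : FF (N * q * q)) (hg : IsFixI A (N * q * q) g) (k₀ : Fin q) (hk₀ : (k₀ : ℕ) ≠ 0)
    (Z : LaurentSeries A) (hZ : incl A Z = embMid N q hq hqN hζ k₀ hk₀ g) :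
    ∃ Z' : LaurentSeries A,
      incl A Z' = ∏ k : MidIdx q, embMid N q hq hqN hζ k.1 k.2 (atkinLehnerSq N q hq hqN g) ∧
      red A Z' = red A Z ^ (q - 1) := by
  choose Zk hZk1 hZk2 using fun k : MidIdx q =>
    exists_model_embMid_W A hA hζ g hg k₀ hk₀ Z hZ k.1 k.2
  refine ⟨∏ k : MidIdx q, Zk k, ?_, ?_⟩
  · rw [map_prod]
    exact Finset.prod_congr rfl fun k _ => hZk1 k
  · rw [map_prod, Finset.prod_congr rfl fun k _ => hZk2 k, Finset.prod_const, Finset.card_univ,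
      card_midIdx' hq]

end Models

/-! ### the six expansions of `α N_α g` and `β N_β g` -/

section Expand

variable {N q : ℕ} [NeZero N] [NeZero q] {hq : q.Prime} {hqN : ¬ q ∣ N}

theorem ex3_zero {ζ : Kb} (hζ : IsPrimitiveRoot ζ q) (f : FF (N * q * q)) :
    ex3 N q hq hqN hζ 0 f = (f : LaurentSeries Kb) := by
  unfold ex3
  rw [if_pos rfl]
  rfl

theorem ex3_one {ζ : Kb} (hζ : IsPrimitiveRoot ζ q) (f : FF (N * q * q)) :
    ex3 N q hq hqN hζ 1 f = ((atkinLehnerSq N q hq hqN f : FF (N * q * q)) : LaurentSeries Kb) := by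
  unfold ex3
  rw [if_neg (by decide), if_pos rfl]
  rfl

theorem ex3_two {ζ : Kb} (hζ : IsPrimitiveRoot ζ q) (f : FF (N * q * q)) :
    ex3 N q hq hqN hζ 2 f = embMid N q hq hqN hζ (midOne q hq) (midOne_ne q hq) f := by
  unfold ex3
  rw [if_neg (by decide), if_neg (by decide)]
  rfl

/-- `(α N_α g)` at `∞`. -/
theorem ex3_zero_alpha_normAlpha {ζ : Kb} (hζ : IsPrimitiveRoot ζ q) (g : FF (N * q * q)) :
    ex3 N q hq hqN hζ 0 (heckeAlphaBar Kb (N * q) q (normAlong (heckeAlphaBar Kb (N * q) q) g))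
      = ex3 N q hq hqN hζ 0 g * ∏ k : MidIdx q, embMid N q hq hqN hζ k.1 k.2 g := by
  rw [ex3_zero, ex3_zero, coe_heckeAlphaBar, normAlpha_expand (hq := hq) (hqN := hqN) hζ g]

/-- `(α N_α g)` at `0`. -/
theorem ex3_one_alpha_normAlpha {ζ : Kb} (hζ : IsPrimitiveRoot ζ q) (g : FF (N * q * q)) :
    ex3 N q hq hqN hζ 1 (heckeAlphaBar Kb (N * q) q (normAlong (heckeAlphaBar Kb (N * q) q) g))
      = ∏ k ∈ Finset.range q, twistL (ζ ^ k) (ex3 N q hq hqN hζ 1 g) := by
  rw [ex3_one, ex3_one, atkinLehnerSq_heckeAlphaBar, coe_heckeBetaBar, atkinLehner_normAlpha,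
    normBeta_expand (N * q) q hq (Dvd.intro_left N rfl) hζ]

/-- `(α N_α g)` at the middle cusp. -/
theorem ex3_two_alpha_normAlpha {ζ : Kb} (hζ : IsPrimitiveRoot ζ q) (g : FF (N * q * q)) :
    ex3 N q hq hqN hζ 2 (heckeAlphaBar Kb (N * q) q (normAlong (heckeAlphaBar Kb (N * q) q) g))
      = ex3 N q hq hqN hζ 0 g * ∏ k : MidIdx q, embMid N q hq hqN hζ k.1 k.2 g := by
  rw [ex3_two, ex3_zero, embMid_alpha, normAlpha_expand (hq := hq) (hqN := hqN) hζ g]

/-- `(β N_β g)` at `∞`. -/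
theorem ex3_zero_beta_normBeta {ζ : Kb} (hζ : IsPrimitiveRoot ζ q) (g : FF (N * q * q)) :
    ex3 N q hq hqN hζ 0 (heckeBetaBar Kb (N * q) q (normAlong (heckeBetaBar Kb (N * q) q) g))
      = ∏ k ∈ Finset.range q, twistL (ζ ^ k) (ex3 N q hq hqN hζ 0 g) := by
  rw [ex3_zero, ex3_zero, coe_heckeBetaBar,
    normBeta_expand (N * q) q hq (Dvd.intro_left N rfl) hζ]

/-- `(β N_β g)` at `0`. -/
theorem ex3_one_beta_normBeta {ζ : Kb} (hζ : IsPrimitiveRoot ζ q) (g : FF (N * q * q)) :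
    ex3 N q hq hqN hζ 1 (heckeBetaBar Kb (N * q) q (normAlong (heckeBetaBar Kb (N * q) q) g))
      = ex3 N q hq hqN hζ 1 g
        * ∏ k : MidIdx q, embMid N q hq hqN hζ k.1 k.2 (atkinLehnerSq N q hq hqN g) := by
  rw [ex3_one, ex3_one, atkinLehnerSq_heckeBetaBar, coe_heckeAlphaBar, atkinLehner_normBeta,
    normAlpha_expand (hq := hq) (hqN := hqN) hζ]

/-- `(β N_β g)` at the middle cusp. -/
theorem ex3_two_beta_normBeta {ζ : Kb} (hζ : IsPrimitiveRoot ζ q) (g : FF (N * q * q)) :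
    ex3 N q hq hqN hζ 2 (heckeBetaBar Kb (N * q) q (normAlong (heckeBetaBar Kb (N * q) q) g))
      = twistL (ζ ^ 1) (ex3 N q hq hqN hζ 1 g
        * ∏ k : MidIdx q, embMid N q hq hqN hζ k.1 k.2 (atkinLehnerSq N q hq hqN g)) := by
  rw [ex3_two, ex3_one, embMid_beta, atkinLehner_normBeta,
    normAlpha_expand (hq := hq) (hqN := hqN) hζ]
  rfl

end Expand

/-! ### the norm table -/

section Table

variable {N q : ℕ} [NeZero N] [NeZero q] {hq : q.Prime} {hqN : ¬ q ∣ N}
variable (A : ValuationSubring Kb)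

/-- **[NORM-RED3], `α`**: for an `I`-fixed `g` whose three expansions are `A`-integral with
reductions `(x₁, x₂, x₃)`, the three expansions of `α N_α g` are `A`-integral with reductions
`(x₁ x₃^(q-1), x₂^q, x₁ x₃^(q-1))`. -/
theorem normRed3_alpha (hA : A.LiesOverPrime q) {ζ : Kb} (hζ : IsPrimitiveRoot ζ q)
    (g : FF (N * q * q)) (hg : IsFixI A (N * q * q) g) (Y : Fin 3 → LaurentSeries A)
    (hY : ∀ i, incl A (Y i) = ex3 N q hq hqN hζ i g) :
    ∃ Y' : Fin 3 → LaurentSeries A,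
      (∀ i, incl A (Y' i) = ex3 N q hq hqN hζ i
        (heckeAlphaBar Kb (N * q) q (normAlong (heckeAlphaBar Kb (N * q) q) g))) ∧
      red A (Y' 0) = red A (Y 0) * red A (Y 2) ^ (q - 1) ∧
      red A (Y' 1) = red A (Y 1) ^ q ∧
      red A (Y' 2) = red A (Y 0) * red A (Y 2) ^ (q - 1) := by
  obtain ⟨P, hP, hPr⟩ := exists_model_prod_embMid A hA hζ g hg (midOne q hq) (midOne_ne q hq)
    (Y 2) ((hY 2).trans (ex3_two hζ g))
  obtain ⟨T, hT, hTr⟩ := exists_model_prod_twist A hq hA hζ.pow_eq_one _ (Y 1) (hY 1)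
  refine ⟨![Y 0 * P, T, Y 0 * P], ?_, ?_, ?_, ?_⟩
  · intro i
    fin_cases i
    · show incl A (Y 0 * P) = ex3 N q hq hqN hζ 0 _
      rw [ex3_zero_alpha_normAlpha, map_mul, hY 0, hP]
    · show incl A T = ex3 N q hq hqN hζ 1 _
      rw [ex3_one_alpha_normAlpha, hT]
    · show incl A (Y 0 * P) = ex3 N q hq hqN hζ 2 _
      rw [ex3_two_alpha_normAlpha, map_mul, hY 0, hP]
  · show red A (Y 0 * P) = _
    rw [map_mul, hPr]
  · exact hTr
  · show red A (Y 0 * P) = _
    rw [map_mul, hPr]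

/-- **[NORM-RED3], `β`**: for an `I`-fixed `g` whose three expansions are `A`-integral with
reductions `(x₁, x₂, x₃)`, the three expansions of `β N_β g` are `A`-integral with reductions
`(x₁^q, x₂ x₃^(q-1), x₂ x₃^(q-1))`. -/
theorem normRed3_beta (hA : A.LiesOverPrime q) {ζ : Kb} (hζ : IsPrimitiveRoot ζ q)
    (g : FF (N * q * q)) (hg : IsFixI A (N * q * q) g) (Y : Fin 3 → LaurentSeries A)
    (hY : ∀ i, incl A (Y i) = ex3 N q hq hqN hζ i g) :
    ∃ Y' : Fin 3 → LaurentSeries A,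
      (∀ i, incl A (Y' i) = ex3 N q hq hqN hζ i
        (heckeBetaBar Kb (N * q) q (normAlong (heckeBetaBar Kb (N * q) q) g))) ∧
      red A (Y' 0) = red A (Y 0) ^ q ∧
      red A (Y' 1) = red A (Y 1) * red A (Y 2) ^ (q - 1) ∧
      red A (Y' 2) = red A (Y 1) * red A (Y 2) ^ (q - 1) := by
  obtain ⟨P, hP, hPr⟩ := exists_model_prod_embMid_W A hA hζ g hg (midOne q hq) (midOne_ne q hq)
    (Y 2) ((hY 2).trans (ex3_two hζ g))
  obtain ⟨T, hT, hTr⟩ := exists_model_prod_twist A hq hA hζ.pow_eq_one _ (Y 0) (hY 0)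
  obtain ⟨R, hR, hRr⟩ := exists_model_twist A hq hA hζ.pow_eq_one 1
    (ex3 N q hq hqN hζ 1 g
      * ∏ k : MidIdx q, embMid N q hq hqN hζ k.1 k.2 (atkinLehnerSq N q hq hqN g))
    (Y 1 * P) (by rw [map_mul, hY 1, hP])
  refine ⟨![T, Y 1 * P, R], ?_, ?_, ?_, ?_⟩
  · intro i
    fin_cases i
    · show incl A T = ex3 N q hq hqN hζ 0 _
      rw [ex3_zero_beta_normBeta, hT]
    · show incl A (Y 1 * P) = ex3 N q hq hqN hζ 1 _
      rw [ex3_one_beta_normBeta, map_mul, hY 1, hP]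
    · show incl A R = ex3 N q hq hqN hζ 2 _
      rw [ex3_two_beta_normBeta, hR]
  · exact hTr
  · show red A (Y 1 * P) = _
    rw [map_mul, hPr]
  · show red A R = _
    rw [hRr, map_mul, hPr]

end Table

end Fermat.Agent.T3.helper98

end
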