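/-
TIER 3 (S36), helper72: INTERFACE of the function-field side (BLUEPRINT T3 v1, Lean shapes).

Setting: `q` a prime, `q ∤ N`, level `N * q * q`, `A` a valuation subring of `ℚ̄` over `q`,
`I` its inertia group, `ζ` a primitive `q`-th root of unity, `n = p ^ k`, `p ≠ q`.
Vocabulary on main: `FF`, `Kb`, `kA`, `FFb`, `incl A`, `red A` (P2), `helper74.ex3 hζ i`
(expansions at `∞`, `0`, `1/q`), `helper74.IsFixI`, `normAlong` (norms), `heckeAlphaBar`,
`heckeBetaBar` (`α, β : F_{Nq} → F_{Nqq}`).

DEFINITIONS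
* `nA g = N_α g`, `nB g = N_β g : F_{Nq}`           : the two norms `F_{Nqq} → F_{Nq}`.
* `Red3 i f x`   : the Gauss reduction of the `i`-th expansion of `f` is `x`
                   (`E_i f = Y₁ / Y₂`, `Y₁, Y₂` integral series, `red Y₂ ≠ 0`, `red Y₁ = x red Y₂`);
                   valuation-theoretic, no regularity of `f` is asked.
* `IsRedOne3 f`  : `f ≡ 1` at the three valuations `w₁, w₂, w₃`.
* `NormPow n g`  : `N_α g` and `N_β g` are constants times `n`-th powers (in `F_{Nq}`).

STATEMENTS (the boxes)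
* `Scale3Statement n Cs`    : **[SCALE3]** (helper36).
* `NormPow3Statement n`     : **[NORMPOW3]** reductions become `n`-th powers after the power
                              `q (q - 1)`.
* `Approx3Statement`        : **[APPROX3]** every triple of nonzero elements of `FFb A N` is the
                              reduction triple of an `I`-fixed function.
* `T03Statement n C₁`       : reduction to the toric part (`= SCALE3 + NORMPOW3 + APPROX3`).
* `ToricStatement n C₂`     : **[TORIC]** (helper49): the toric part is killed by `C₂`.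
-/
import Fermat.Agent.T3.helper72_Kum3
import Fermat.Agent.T3.helper74_Sat3Defs
import Fermat.Agent.T3.helper98_NormRed3W

set_option autoImplicit false
set_option linter.unusedSectionVars false
set_option linter.unusedVariables false
set_option linter.style.haveILetI false

noncomputable section

open HahnSeries IntermediateField AlgebraicCurve ModularCurve
open Fermat.Agent.S18.helper19 Fermat.Agent.P2.helper29 Fermat.Agent.P2.helper93
  Fermat.Agent.P3 Fermat.Agent.P3.helper94

namespace Fermat.Agent.T3.helper72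

open Fermat.Agent.T3.helper74 (ex3 IsFixI)

section Defs

variable (N q : ℕ) [NeZero N] [NeZero q]

/-- the norm `N_α : F_{Nqq} → F_{Nq}` along `α` (`f(τ)`) -/
def nA : FF (N * q * q) →* FF (N * q) := normAlong (heckeAlphaBar Kb (N * q) q)

/-- the norm `N_β : F_{Nqq} → F_{Nq}` along `β` (`f(q τ)`) -/
def nB : FF (N * q * q) →* FF (N * q) := normAlong (heckeBetaBar Kb (N * q) q)

/-- `N_α g` and `N_β g` are constants times `n`-th powers. -/
def NormPow (n : ℕ) (g : FF (N * q * q)) : Prop :=
  (∃ (c : Kb) (w : FF (N * q)), nA N q g = algebraMap Kb (FF (N * q)) c * w ^ n) ∧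
    ∃ (c : Kb) (w : FF (N * q)), nB N q g = algebraMap Kb (FF (N * q)) c * w ^ n

variable (hq : q.Prime) (hqN : ¬ q ∣ N) (A : ValuationSubring Kb) {ζ : Kb}
  (hζ : IsPrimitiveRoot ζ q)

/-- **the Gauss reduction of the `i`-th expansion of `f` is `x`**: `E_i f · Y₂ = Y₁` with
integral series `Y₁, Y₂`, `red Y₂ ≠ 0` and `red Y₁ = x · red Y₂`. -/
def Red3 (i : Fin 3) (f : FF (N * q * q)) (x : LaurentSeries (kA A)) : Prop :=
  ∃ Y₁ Y₂ : LaurentSeries A, red A Y₂ ≠ 0 ∧
    incl A Y₁ = ex3 N q hq hqN hζ i f * incl A Y₂ ∧ red A Y₁ = x * red A Y₂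

/-- `f ≡ 1` at the three valuations. -/
def IsRedOne3 (f : FF (N * q * q)) : Prop :=
  ∀ i : Fin 3, Red3 N q hq hqN A hζ i f 1

/-- **[SCALE3]** (vertical orders, component group): an `I`-fixed `h` with `n ∣ div h` whose two
norms are constants times `n`-th powers becomes, after the power `Cs` and up to an `I`-fixed
`n`-th power and a constant, a unit at the three valuations. -/
def Scale3Statement (n Cs : ℕ) : Prop :=
  ∀ h : FF (N * q * q), h ≠ 0 → IsFixI A (N * q * q) h →
    (∀ P : Place Kb (FF (N * q * q)), (n : ℤ) ∣ P.ord h) → NormPow N q n h →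
    ∃ (g : FF (N * q * q)) (c : Kb) (X : Fin 3 → LaurentSeries (kA A)), g ≠ 0 ∧ c ≠ 0 ∧
      IsFixI A (N * q * q) g ∧ (∀ σ ∈ A.inertiaSubgroupIn ℚ, σ c = c) ∧ (∀ i, X i ≠ 0) ∧
      ∀ i, Red3 N q hq hqN A hζ i (algebraMap Kb (FF (N * q * q)) c * g ^ n * h ^ Cs) (X i)

/-- **[NORMPOW3]** for an `I`-fixed unit `h` (reductions `X`) whose two norms are constants times
`n`-th powers, the triple `X ^ (q (q - 1))` consists of `n`-th powers of nonzero elements of the
function field `FFb A N` of the special fibre. -/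
def NormPow3Statement (n : ℕ) : Prop :=
  ∀ (h : FF (N * q * q)) (X : Fin 3 → LaurentSeries (kA A)), h ≠ 0 → IsFixI A (N * q * q) h →
    (∀ i, X i ≠ 0) → (∀ i, Red3 N q hq hqN A hζ i h (X i)) → NormPow N q n h →
    ∃ Y : Fin 3 → LaurentSeries (kA A), (∀ i, Y i ∈ FFb A N) ∧ (∀ i, Y i ≠ 0) ∧
      ∀ i, X i ^ (q * (q - 1)) = Y i ^ n

/-- **[APPROX3]** (weak approximation + lifting): every triple of nonzero elements of `FFb A N`
is the reduction triple of an `I`-fixed function. -/
def Approx3Statement : Prop :=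
  ∀ Y : Fin 3 → LaurentSeries (kA A), (∀ i, Y i ∈ FFb A N) → (∀ i, Y i ≠ 0) →
    ∃ G : FF (N * q * q), G ≠ 0 ∧ IsFixI A (N * q * q) G ∧ ∀ i, Red3 N q hq hqN A hζ i G (Y i)

/-- **reduction to the toric part**: an `I`-fixed `h` with `n ∣ div h` whose two norms are
constants times `n`-th powers is, after the power `C₁` and up to an `n`-th power and a constant,
`≡ 1` at the three valuations. -/
def T03Statement (n C₁ : ℕ) : Prop :=
  ∀ h : FF (N * q * q), h ≠ 0 → IsFixI A (N * q * q) h →
    (∀ P : Place Kb (FF (N * q * q)), (n : ℤ) ∣ P.ord h) → NormPow N q n h →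
    ∃ (g : FF (N * q * q)) (c : Kb), g ≠ 0 ∧ c ≠ 0 ∧
      IsFixI A (N * q * q) (algebraMap Kb (FF (N * q * q)) c * g ^ n * h ^ C₁) ∧
      IsRedOne3 N q hq hqN A hζ (algebraMap Kb (FF (N * q * q)) c * g ^ n * h ^ C₁)

/-- **[TORIC]** (injectivity of `(α_*, β_*)` on the toric part): an `I`-fixed `h ≡ 1` at the
three valuations with `n ∣ div h` whose two norms are constants times `n`-th powers satisfies
`h ^ C₂ = c · v ^ n`. -/
def ToricStatement (n C₂ : ℕ) : Prop :=
  ∀ h : FF (N * q * q), h ≠ 0 → IsFixI A (N * q * q) h →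
    (∀ P : Place Kb (FF (N * q * q)), (n : ℤ) ∣ P.ord h) →
    IsRedOne3 N q hq hqN A hζ h → NormPow N q n h →
    ∃ (c : Kb) (v : FF (N * q * q)), h ^ C₂ = algebraMap Kb (FF (N * q * q)) c * v ^ n

end Defs

end Fermat.Agent.T3.helper72

end
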