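import Mathlib
import Fermat.Agent.T3.helper87_EmbAll
import Fermat.Agent.T3.helper48_AtkinLehnerQ
import Fermat.Agent.T2.helper96_SatPlaces

/-!
# Tier 3, [T3-PLACES3] (helper87): the cusps of `X₀(N q²)` over the cusp `∞` of `X₀(N)`

Setting: `q` prime, `q ∤ N`, `W' = helper36.atkinLehner N q` (level `N q`),
`W₂ = helper48.atkinLehnerSq N q` (level `N q q`), `E_k = embMid k` the middle expansions.

* `embPlace` : the place of a field defined by an embedding into Laurent series;
* `IsMid`, `midPlace`, `isMid_midPlace` : the places at the middle cusps;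
* `embMid_atkinLehnerSq` : `E_k ∘ W₂ = (t ↦ ζ^k t) ∘ E_{-k}`; `W₂` permutes the middle cusps;
* distinctness of the `q + 1` cusps `∞`, `0 = W₂⁻¹ ∞`, `c_k`;
* `ord_alpha_nonneg3` : **the fibre of `α` over `{∞, ∞₂}` is `{∞, c_k, 0}`**: if `x ∈ F_{Nq}` is
  regular off the two cusps, then `α x` (and `β x`) is regular off the `q + 1` cusps;
* `IsReg3` and its closure properties.
-/

set_option autoImplicit false
set_option synthInstance.maxHeartbeats 400000
set_option maxHeartbeats 1000000
set_option linter.style.haveILetI false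
set_option linter.unusedSectionVars false
set_option linter.unusedVariables false
set_option linter.style.longLine false

noncomputable section

open HahnSeries IntermediateField AlgebraicCurve ModularCurve
open Fermat.Agent.S18.helper19 Fermat.Agent.P2.helper29 Fermat.Agent.T2.helper36
open Fermat.Agent.T2.helper22 Fermat.Agent.S24

namespace Fermat.Agent.T3.helper87

open Fermat.Agent.P2.helper93 (twistL twistL_coeff)
open Fermat.Agent.T2.helper87 (embW embW_none embW_some embW_alpha embW_injective coeHom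
  coeHom_apply twistHom)
open Fermat.Agent.T3.helper48 (atkinLehnerSq atkinLehnerSq_heckeAlphaBar
  atkinLehnerSq_heckeBetaBar atkinLehnerSq_atkinLehnerSq)

/-! ### The place defined by an embedding into Laurent series -/

section EmbPlace

variable {K F : Type*} [Field K] [Field F] [Algebra K F]

/-- the corestriction of an embedding to its range -/
def toRange (E : F →ₐ[K] LaurentSeries K) : F →ₐ[K] E.fieldRange where
  toFun f := ⟨E f, AlgHom.mem_fieldRange.mpr ⟨f, rfl⟩⟩
  map_one' := Subtype.ext (map_one E)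
  map_mul' x y := Subtype.ext (map_mul E x y)
  map_zero' := Subtype.ext (map_zero E)
  map_add' x y := Subtype.ext (map_add E x y)
  commutes' c := Subtype.ext (E.commutes c)

theorem coe_toRange (E : F →ₐ[K] LaurentSeries K) (f : F) :
    ((toRange E f : E.fieldRange) : LaurentSeries K) = E f := rfl

theorem toRange_surjective (E : F →ₐ[K] LaurentSeries K) : Function.Surjective (toRange E) := by
  rintro ⟨y, hy⟩
  obtain ⟨f, rfl⟩ := AlgHom.mem_fieldRange.mp hy
  exact ⟨f, rfl⟩

theorem toRange_isIntegral (E : F →ₐ[K] LaurentSeries K) : (toRange E).toRingHom.IsIntegral :=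
  RingHom.isIntegral_of_surjective _ (toRange_surjective E)

/-- **the place of `F` defined by an embedding `E : F → K((t))`** with an element of order
one. -/
def embPlace (E : F →ₐ[K] LaurentSeries K) (ϖ : F) (hϖ : (E ϖ).order = 1) : Place K F :=
  (qPlace E.fieldRange (toRange E ϖ) hϖ).restrictAlong (toRange E) (toRange_isIntegral E)

theorem embPlace_ord (E : F →ₐ[K] LaurentSeries K) (ϖ : F) (hϖ : (E ϖ).order = 1) {f : F}
    (hf : f ≠ 0) : (embPlace E ϖ hϖ).ord f = (E f).order := by
  have hne : ∀ g : F, g ≠ 0 → toRange E g ≠ 0 := fun g hg =>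
    (map_ne_zero (toRange E)).mpr hg
  have hϖ0 : ϖ ≠ 0 := by
    rintro rfl
    rw [map_zero] at hϖ
    simp at hϖ
  have h1 := Place.ord_restrictAlong (toRange E) (toRange_isIntegral E)
    (qPlace E.fieldRange (toRange E ϖ) hϖ)
  have e1 : ∀ g : F, g ≠ 0 →
      (qPlace E.fieldRange (toRange E ϖ) hϖ).ord (toRange E g) = (E g).order := fun g hg => by
    rw [qPlace_ord _ _ _ (hne g hg), coe_toRange]
  have h2 := h1 ϖ
  rw [e1 ϖ hϖ0, hϖ] at h2
  have he : (Place.ramificationIndexAlong (toRange E)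
      (qPlace E.fieldRange (toRange E ϖ) hϖ) : ℤ) = 1 := by
    have hpos : (0 : ℤ) ≤ (Place.ramificationIndexAlong (toRange E)
      (qPlace E.fieldRange (toRange E ϖ) hϖ) : ℤ) := Nat.cast_nonneg _
    exact Int.eq_one_of_mul_eq_one_right hpos h2.symm
  have h3 := h1 f
  rw [e1 f hf, he, one_mul] at h3
  exact h3.symm

end EmbPlace

/-! ### Orders of Laurent series -/

section Order

variable {K : Type*} [Field K]

theorem coeff_order_ne_zero' {x : LaurentSeries K} (hx : x ≠ 0) : x.coeff x.order ≠ 0 :=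
  fun h => hx (HahnSeries.coeff_order_eq_zero.mp h)

theorem order_twistL {c : K} (hc : c ≠ 0) (g : LaurentSeries K) :
    (twistL c g).order = g.order := by
  rcases eq_or_ne g 0 with rfl | hg
  · rw [Fermat.Agent.T2.helper87.twistL_zero]
  have hne : twistL c g ≠ 0 := by
    intro h
    apply hg
    ext n
    have := congrArg (fun x : LaurentSeries K => x.coeff n) h
    simp only [twistL_coeff, HahnSeries.coeff_zero, mul_eq_zero] at this
    rcases this with h1 | h1
    · exact absurd h1 (zpow_ne_zero _ hc)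
    · simpa using h1
  apply le_antisymm
  · apply HahnSeries.order_le_of_coeff_ne_zero
    rw [twistL_coeff]
    exact mul_ne_zero (zpow_ne_zero _ hc) (coeff_order_ne_zero' hg)
  · apply HahnSeries.order_le_of_coeff_ne_zero
    have := coeff_order_ne_zero' hne
    rw [twistL_coeff] at this
    exact right_ne_zero_of_mul this

theorem twistL_twistL (c d : K) (g : LaurentSeries K) :
    twistL c (twistL d g) = twistL (c * d) g := by
  ext n
  rw [twistL_coeff, twistL_coeff, twistL_coeff, mul_zpow, mul_assoc]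

/-- a nonzero series whose coefficients of negative index vanish has order `≥ 0`. -/
theorem order_nonneg_of_coeff {x : LaurentSeries K} (h : ∀ n : ℤ, n < 0 → x.coeff n = 0) :
    0 ≤ x.order := by
  rcases eq_or_ne x 0 with rfl | hx
  · simp
  by_contra hcon
  push Not at hcon
  exact coeff_order_ne_zero' hx (h _ hcon)

end Order

/-! ### The middle places -/

section Mid

variable (N q : ℕ) [NeZero N] [NeZero q] (hq : q.Prime) (hqN : ¬ q ∣ N)

/-- **the middle cusp `k`**: the order function is the order of the middle expansion. -/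
def IsMid {ζ : Kb} (hζ : IsPrimitiveRoot ζ q) (k : Fin q) (hk : (k : ℕ) ≠ 0)
    (P : Place Kb (FF (N * q * q))) : Prop :=
  ∀ f : FF (N * q * q), f ≠ 0 → P.ord f = (embMid N q hq hqN hζ k hk f).order

variable {N q hq hqN}

theorem order_embMid_jInv {ζ : Kb} (hζ : IsPrimitiveRoot ζ q) (k : Fin q) (hk : (k : ℕ) ≠ 0) :
    (embMid N q hq hqN hζ k hk (heckeAlphaBar Kb (N * q) q (jInv (N * q)))).order = 1 := by
  rw [embMid_alpha]
  exact order_jInv (N * q)

variable (N q hq hqN) in
/-- the place at the middle cusp `k` -/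
def midPlace {ζ : Kb} (hζ : IsPrimitiveRoot ζ q) (k : Fin q) (hk : (k : ℕ) ≠ 0) :
    Place Kb (FF (N * q * q)) :=
  embPlace (embMid N q hq hqN hζ k hk) (heckeAlphaBar Kb (N * q) q (jInv (N * q)))
    (order_embMid_jInv hζ k hk)

theorem isMid_midPlace {ζ : Kb} (hζ : IsPrimitiveRoot ζ q) (k : Fin q) (hk : (k : ℕ) ≠ 0) :
    IsMid N q hq hqN hζ k hk (midPlace N q hq hqN hζ k hk) :=
  fun _ hf => embPlace_ord _ _ _ hf

theorem IsMid.unique {ζ : Kb} {hζ : IsPrimitiveRoot ζ q} {k : Fin q} {hk : (k : ℕ) ≠ 0}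
    {P Q : Place Kb (FF (N * q * q))} (hP : IsMid N q hq hqN hζ k hk P)
    (hQ : IsMid N q hq hqN hζ k hk Q) : P = Q := by
  apply Place.ext
  apply SetLike.ext
  intro f
  rw [helper82.mem_iff_ord_nonneg, helper82.mem_iff_ord_nonneg]
  rcases eq_or_ne f 0 with rfl | hf
  · simp
  · rw [hP f hf, hQ f hf]

theorem IsMid.eq_midPlace {ζ : Kb} {hζ : IsPrimitiveRoot ζ q} {k : Fin q} {hk : (k : ℕ) ≠ 0}
    {P : Place Kb (FF (N * q * q))} (hP : IsMid N q hq hqN hζ k hk P) :
    P = midPlace N q hq hqN hζ k hk :=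
  hP.unique (isMid_midPlace hζ k hk)

/-! ### `W₂` and the middle expansions -/

/-- the index `-k` -/
def negIdx (k : Fin q) (hk : (k : ℕ) ≠ 0) : Fin q :=
  ⟨q - (k : ℕ), Nat.sub_lt (Nat.pos_of_ne_zero (NeZero.ne q)) (Nat.pos_of_ne_zero hk)⟩

theorem negIdx_ne_zero (k : Fin q) (hk : (k : ℕ) ≠ 0) : ((negIdx k hk : Fin q) : ℕ) ≠ 0 := by
  show q - (k : ℕ) ≠ 0
  have := k.2
  omega

theorem pow_mul_pow_negIdx {ζ : Kb} (hζ : IsPrimitiveRoot ζ q) (k : Fin q) (hk : (k : ℕ) ≠ 0) :
    ζ ^ (k : ℕ) * ζ ^ ((negIdx k hk : Fin q) : ℕ) = 1 := by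
  show ζ ^ (k : ℕ) * ζ ^ (q - (k : ℕ)) = 1
  rw [← _root_.pow_add, Nat.add_sub_cancel' k.2.le, hζ.pow_eq_one]

/-- **`E_k ∘ W₂ = (t ↦ ζ^k t) ∘ E_{-k}`.** -/
theorem embMid_atkinLehnerSq {ζ : Kb} (hζ : IsPrimitiveRoot ζ q) (k : Fin q)
    (hk : (k : ℕ) ≠ 0) (f : FF (N * q * q)) :
    embMid N q hq hqN hζ k hk (atkinLehnerSq N q hq hqN f)
      = twistL (ζ ^ (k : ℕ))
          (embMid N q hq hqN hζ (negIdx k hk) (negIdx_ne_zero k hk) f) := by
  have hζ0 : ζ ≠ 0 := hζ.ne_zero hq.ne_zero
  let ψ₁ : FF (N * q * q) →+* LaurentSeries Kb :=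
    (embMid N q hq hqN hζ k hk : FF (N * q * q) →+* LaurentSeries Kb).comp
      ((atkinLehnerSq N q hq hqN : FF (N * q * q) ≃ₐ[Kb] FF (N * q * q)) :
        FF (N * q * q) →+* FF (N * q * q))
  let ψ₂ : FF (N * q * q) →+* LaurentSeries Kb :=
    (twistHom (ζ ^ (k : ℕ)) (pow_ne_zero _ hζ0)).comp
      (embMid N q hq hqN hζ (negIdx k hk) (negIdx_ne_zero k hk) :
        FF (N * q * q) →+* LaurentSeries Kb)
  have h1 : ∀ y, ψ₁ y = embMid N q hq hqN hζ k hk (atkinLehnerSq N q hq hqN y) := fun y => rfl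
  have h2 : ∀ y, ψ₂ y = twistL (ζ ^ (k : ℕ))
      (embMid N q hq hqN hζ (negIdx k hk) (negIdx_ne_zero k hk) y) := fun y => rfl
  have key : ψ₁ = ψ₂ := by
    apply ringHom_ext_alpha_beta q (N * q) hq
    · intro c
      rw [h1, h2, atkinLehnerSq_heckeAlphaBar, embMid_beta, embMid_alpha,
        atkinLehner_atkinLehner]
    · intro c
      rw [h1, h2, atkinLehnerSq_heckeBetaBar, embMid_alpha, embMid_beta, twistL_twistL,
        pow_mul_pow_negIdx hζ k hk, twistL_one']
  rw [← h1, ← h2, key]

theorem order_embMid_atkinLehnerSq {ζ : Kb} (hζ : IsPrimitiveRoot ζ q) (k : Fin q)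
    (hk : (k : ℕ) ≠ 0) (f : FF (N * q * q)) :
    (embMid N q hq hqN hζ k hk (atkinLehnerSq N q hq hqN f)).order
      = (embMid N q hq hqN hζ (negIdx k hk) (negIdx_ne_zero k hk) f).order := by
  rw [embMid_atkinLehnerSq, order_twistL (pow_ne_zero _ (hζ.ne_zero hq.ne_zero))]

/-- `W₂` permutes the middle cusps: `W₂⁻¹ c_k = c_{-k}`. -/
theorem IsMid.symm_smul {ζ : Kb} {hζ : IsPrimitiveRoot ζ q} {k : Fin q} {hk : (k : ℕ) ≠ 0}
    {P : Place Kb (FF (N * q * q))} (hP : IsMid N q hq hqN hζ k hk P) :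
    IsMid N q hq hqN hζ (negIdx k hk) (negIdx_ne_zero k hk)
      ((atkinLehnerSq N q hq hqN).symm • P) := by
  intro f hf
  rw [← ord_map, hP _ (by simpa using hf), order_embMid_atkinLehnerSq]

end Mid

/-! ### Distinctness of the cusps -/

section Distinct

open Fermat.Agent.T2.helper87 (jN)

variable (N q : ℕ) [NeZero N] [NeZero q] (hq : q.Prime) (hqN : ¬ q ∣ N)

/-- `j(τ)` at the level `N q q` -/
def jAA : FF (N * q * q) := heckeAlphaBar Kb (N * q) q (heckeAlphaBar Kb N q (jN N))

/-- `j(q² τ)` at the level `N q q` -/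
def jBB : FF (N * q * q) := heckeBetaBar Kb (N * q) q (heckeBetaBar Kb N q (jN N))

theorem coe_jAA : ((jAA N q : FF (N * q * q)) : LaurentSeries Kb) = jqModC Kb := by
  rw [jAA, coe_heckeAlphaBar, coe_heckeAlphaBar]
  rfl

theorem coe_jBB : ((jBB N q : FF (N * q * q)) : LaurentSeries Kb)
    = qExpand Kb q (qExpand Kb q (jqModC Kb)) := by
  rw [jBB, coe_heckeBetaBar, coe_heckeBetaBar]
  rfl

theorem jqModC_ne_zero' : (jqModC Kb) ≠ 0 := by
  intro h
  have := coeff_jqModC_neg_one Kb
  rw [h] at this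
  simp at this

theorem order_coe_jAA : ((jAA N q : FF (N * q * q)) : LaurentSeries Kb).order = -1 := by
  rw [coe_jAA]
  exact order_jqModC (K := Kb)

theorem order_coe_jBB :
    ((jBB N q : FF (N * q * q)) : LaurentSeries Kb).order = -((q : ℤ) * q) := by
  rw [coe_jBB, Fermat.Agent.T2.helper96.order_qExpand q, Fermat.Agent.T2.helper96.order_qExpand q
    jqModC_ne_zero', order_jqModC (K := Kb)]
  · ring
  · intro h
    have h1 := Fermat.Agent.T2.helper96.order_qExpand q (jqModC_ne_zero')
    rw [h, order_jqModC (K := Kb)] at h1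
    simp only [HahnSeries.order_zero] at h1
    have : (0 : ℤ) < q := by exact_mod_cast Nat.pos_of_ne_zero (NeZero.ne q)
    omega

theorem jAA_ne_zero : jAA N q ≠ 0 := by
  intro h
  have := order_coe_jAA N q
  rw [h] at this
  simp at this

theorem jBB_ne_zero : jBB N q ≠ 0 := by
  intro h
  have h1 := coe_jBB N q
  rw [h] at h1
  have h2 := congrArg (fun x : LaurentSeries Kb => x.coeff ((q : ℤ) * ((q : ℤ) * (-1)))) h1
  simp only [ZeroMemClass.coe_zero, HahnSeries.coeff_zero, qExpand_coeff_mul] at h2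
  rw [coeff_jqModC_neg_one Kb] at h2
  exact zero_ne_one h2

variable {N q hq hqN}

theorem atkinLehnerSq_jAA : atkinLehnerSq N q hq hqN (jAA N q) = jBB N q :=
  Fermat.Agent.T3.helper48.atkinLehnerSq_alpha_alpha N q hq hqN _

theorem embMid_jAA {ζ : Kb} (hζ : IsPrimitiveRoot ζ q) (k : Fin q) (hk : (k : ℕ) ≠ 0) :
    embMid N q hq hqN hζ k hk (jAA N q) = jqModC Kb := by
  rw [jAA, embMid_alpha, coe_heckeAlphaBar]
  rfl

theorem embMid_jBB {ζ : Kb} (hζ : IsPrimitiveRoot ζ q) (k : Fin q) (hk : (k : ℕ) ≠ 0) :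
    embMid N q hq hqN hζ k hk (jBB N q) = twistL (ζ ^ (k : ℕ)) (jqModC Kb) := by
  rw [jBB, embMid_beta, atkinLehner_heckeBetaBar, coe_heckeAlphaBar]
  rfl

include hq in
theorem one_lt_sq_int : (1 : ℤ) < (q : ℤ) * q := by
  have h1 : (2 : ℤ) ≤ q := by exact_mod_cast hq.two_le
  nlinarith

theorem IsMid.not_isInfty {ζ : Kb} {hζ : IsPrimitiveRoot ζ q} {k : Fin q} {hk : (k : ℕ) ≠ 0}
    {P : Place Kb (FF (N * q * q))} (hP : IsMid N q hq hqN hζ k hk P) : ¬ IsInfty P := by
  intro h
  have h1 := hP _ (jBB_ne_zero N q)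
  rw [h _ (jBB_ne_zero N q), order_coe_jBB, embMid_jBB,
    order_twistL (pow_ne_zero _ (hζ.ne_zero hq.ne_zero)), order_jqModC (K := Kb)] at h1
  have := one_lt_sq_int (hq := hq)
  omega

theorem IsMid.not_isInfty2 {ζ : Kb} {hζ : IsPrimitiveRoot ζ q} {k : Fin q} {hk : (k : ℕ) ≠ 0}
    {P : Place Kb (FF (N * q * q))} (hP : IsMid N q hq hqN hζ k hk P) :
    ¬ IsInfty2 (atkinLehnerSq N q hq hqN) P := by
  intro h
  have h1 := hP _ (jAA_ne_zero N q)
  rw [h _ (jAA_ne_zero N q), atkinLehnerSq_jAA, order_coe_jBB, embMid_jAA,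
    order_jqModC (K := Kb)] at h1
  have := one_lt_sq_int (hq := hq)
  omega

include hq hqN in
theorem not_isInfty2_of_isInfty {P : Place Kb (FF (N * q * q))} (hP : IsInfty P) :
    ¬ IsInfty2 (atkinLehnerSq N q hq hqN) P := by
  intro h
  have h1 := hP _ (jAA_ne_zero N q)
  rw [h _ (jAA_ne_zero N q), atkinLehnerSq_jAA, order_coe_jBB, order_coe_jAA] at h1
  have := one_lt_sq_int (hq := hq)
  omega

/-- the middle cusps are pairwise distinct. -/
theorem IsMid.index_eq {ζ : Kb} {hζ : IsPrimitiveRoot ζ q} {k k' : Fin q} {hk : (k : ℕ) ≠ 0}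
    {hk' : (k' : ℕ) ≠ 0} {P : Place Kb (FF (N * q * q))}
    (hP : IsMid N q hq hqN hζ k hk P) (hP' : IsMid N q hq hqN hζ k' hk' P) : k = k' := by
  by_contra hne
  have hζ0 : ζ ≠ 0 := hζ.ne_zero hq.ne_zero
  set c : Kb := (ζ ^ (k : ℕ))⁻¹ with hc
  set g : FF (N * q * q) := jBB N q - algebraMap Kb (FF (N * q * q)) c * jAA N q with hg
  have hE : ∀ (i : Fin q) (hi : (i : ℕ) ≠ 0), embMid N q hq hqN hζ i hi g
      = twistL (ζ ^ (i : ℕ)) (jqModC Kb) - algebraMap Kb (LaurentSeries Kb) c * jqModC Kb := by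
    intro i hi
    rw [hg, map_sub, map_mul, embMid_jBB, embMid_jAA, AlgHom.commutes]
  have hcoeff : ∀ (i : Fin q) (hi : (i : ℕ) ≠ 0) (n : ℤ),
      (embMid N q hq hqN hζ i hi g).coeff n
        = ((ζ ^ (i : ℕ)) ^ n - c) * (jqModC Kb).coeff n := by
    intro i hi n
    rw [hE, HahnSeries.coeff_sub, twistL_coeff, algebraMap_laurentSeries_eq_single,
      HahnSeries.coeff_single_zero_mul]
    ring
  -- at `k` the expansion is regular
  have h1 : 0 ≤ (embMid N q hq hqN hζ k hk g).order := by
    apply order_nonneg_of_coeff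
    intro n hn
    rw [hcoeff]
    rcases lt_or_eq_of_le (show n ≤ -1 by omega) with h | h
    · rw [HahnSeries.coeff_eq_zero_of_lt_order (by rw [order_jqModC (K := Kb)]; exact h),
        mul_zero]
    · rw [h, hc, zpow_neg_one, sub_self, zero_mul]
  -- at `k'` it has a pole
  have h2c : (embMid N q hq hqN hζ k' hk' g).coeff (-1) ≠ 0 := by
    rw [hcoeff, coeff_jqModC_neg_one Kb, mul_one, hc, zpow_neg_one]
    intro h
    have h3 : (ζ ^ (k' : ℕ))⁻¹ = (ζ ^ (k : ℕ))⁻¹ := sub_eq_zero.mp h
    have h4 : ζ ^ (k' : ℕ) = ζ ^ (k : ℕ) := inv_injective h3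
    exact hne (Fin.ext (hζ.pow_inj k'.2 k.2 h4).symm)
  have h2 : (embMid N q hq hqN hζ k' hk' g).order ≤ -1 :=
    HahnSeries.order_le_of_coeff_ne_zero h2c
  have hg0 : g ≠ 0 := by
    intro h
    rw [h, map_zero] at h2c
    simp at h2c
  have := hP g hg0
  have := hP' g hg0
  omega

end Distinct

/-! ### The fundamental identity: counting the places of a fibre -/

section Count

variable {K F F' : Type*} [Field K] [Field F] [Field F'] [Algebra K F] [Algebra K F']
  [Algebra F F'] [IsScalarTower K F F'] [Algebra.IsIntegral F F']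

/-- the sum of the ramification indices over a set of places of one fibre is at most the
degree. -/
theorem sum_ramificationIndex_le_finrank [HasPrincipalDivisors K F']
    [FundamentalIdentity K F F'] (v : Place K F) (S : Finset (Place K F'))
    (hS : ∀ w ∈ S, w.restrict F = v) (hdeg : ∀ u : Place K F', u.deg = 1)
    (hdeg' : v.deg = 1) :
    ∑ w ∈ S, (w.ramificationIndex F : ℤ) ≤ (Module.finrank F F' : ℤ) := by
  classical
  have hsum := FundamentalIdentity.sum_ramificationIndex_mul_deg (K := K) (F := F)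
    (F' := F') v
  rw [hdeg', Nat.cast_one, mul_one] at hsum
  have hsub : S ⊆ v.fiber F' := by
    intro u hu
    rw [Place.mem_fiber]
    exact hS u hu
  have hle := Finset.sum_le_sum_of_subset_of_nonneg hsub
    (f := fun u : Place K F' => (u.ramificationIndex F : ℤ) * (u.deg : ℤ))
    (fun u _ _ => mul_nonneg (Nat.cast_nonneg _) (Nat.cast_nonneg _))
  rw [hsum] at hle
  refine le_trans (le_of_eq ?_) hle
  refine Finset.sum_congr rfl fun u _ => ?_
  rw [hdeg u, Nat.cast_one, mul_one]

/-- a fibre has at most `[F' : F]` places. -/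
theorem card_le_finrank_of_fiber [HasPrincipalDivisors K F']
    [FundamentalIdentity K F F'] (v : Place K F) (S : Finset (Place K F'))
    (hS : ∀ w ∈ S, w.restrict F = v) (hdeg : ∀ u : Place K F', u.deg = 1)
    (hdeg' : v.deg = 1) : (S.card : ℤ) ≤ (Module.finrank F F' : ℤ) := by
  classical
  refine le_trans ?_ (sum_ramificationIndex_le_finrank v S hS hdeg hdeg')
  have h1 : ∀ w ∈ S, (1 : ℤ) ≤ (w.ramificationIndex F : ℤ) := fun w _ => by
    exact_mod_cast w.ramificationIndex_pos (F := F)
  have h2 := Finset.sum_le_sum h1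
  simpa using h2

end Count

/-! ### The fibre of `α` over the two cusps of level `N q` -/

section Fibre

variable {N q : ℕ} [NeZero N] [NeZero q] {hq : q.Prime} {hqN : ¬ q ∣ N}

/-- **the fibre of `α : X₀(N q²) → X₀(N q)` over `{∞, ∞₂}` is `{∞, c_k, 0}`**: if `x ∈ F_{Nq}`
is regular off the two cusps of level `N q`, then `α x` is regular off the `q + 1` cusps
`∞`, `0 = W₂⁻¹ ∞`, `c_k` of level `N q q`. -/
theorem ord_alpha_nonneg3 {ζ : Kb} (hζ : IsPrimitiveRoot ζ q) (x : FF (N * q))
    (hx : IsReg2 (atkinLehner N q hq hqN) x) (P : Place Kb (FF (N * q * q)))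
    (hP : ¬ IsInfty P) (hP2 : ¬ IsInfty2 (atkinLehnerSq N q hq hqN) P)
    (hmid : ∀ (k : Fin q) (hk : (k : ℕ) ≠ 0), ¬ IsMid N q hq hqN hζ k hk P) :
    0 ≤ P.ord (heckeAlphaBar Kb (N * q) q x) := by
  classical
  letI := algebraAlong (heckeAlphaBar Kb (N * q) q)
  haveI := isScalarTower_along (heckeAlphaBar Kb (N * q) q)
  haveI := helper77.an_finiteDimensional (N * q)
  haveI := helper77.an_finiteDimensional (N * q * q)
  obtain ⟨hαint, _, hpd, hfin, hFI, _⟩ := Fermat.Agent.P3.helper58.heckeInputs_of_ff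
    (heckeAlphaBar Kb (N * q) q) (heckeAlphaBar Kb (N * q) q) (xJ (N * q))
    (helper77.an_transcendental (N * q)) (xJ (N * q * q))
    (helper77.an_transcendental (N * q * q))
  haveI : Algebra.IsIntegral (FF (N * q)) (FF (N * q * q)) := isIntegral_along _ hαint
  haveI := hpd
  haveI : FundamentalIdentity Kb (FF (N * q)) (FF (N * q * q)) := hFI
  have hord : P.ord (heckeAlphaBar Kb (N * q) q x) =
      (P.ramificationIndex (FF (N * q)) : ℤ) * (P.restrict (FF (N * q))).ord x :=
    P.ord_restrict x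
  have hfr : Module.finrank (FF (N * q)) (FF (N * q * q)) = q :=
    Fermat.Agent.T2.helper48.finrank_alpha_of_dvd (N * q) q hq (Dvd.intro_left N rfl)
  have hdeg : ∀ w : Place Kb (FF (N * q * q)), w.deg = 1 := fun w =>
    helper82.ff_deg_eq_one (xJ (N * q * q)) (helper77.an_transcendental (N * q * q)) w
  have hdeg' : (P.restrict (FF (N * q))).deg = 1 :=
    helper82.ff_deg_eq_one (xJ (N * q)) (helper77.an_transcendental (N * q)) _
  have hq0 : (0 : ℤ) < q := by exact_mod_cast hq.pos
  have hj : (jInv (N * q) : FF (N * q)) ≠ 0 := by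
    intro h0
    have := order_jInv (N * q)
    rw [h0] at this
    simp at this
  have hαne : ∀ f : FF (N * q), f ≠ 0 → heckeAlphaBar Kb (N * q) q f ≠ 0 := fun f hf =>
    (map_ne_zero (heckeAlphaBar Kb (N * q) q)).mpr hf
  by_cases h1 : IsInfty (P.restrict (FF (N * q)))
  · exfalso
    -- the `q` known places of the fibre
    let pl : Option (MidIdx q) → Place Kb (FF (N * q * q)) := fun i =>
      match i with
      | none => inftyBar (N * q * q)
      | some k => midPlace N q hq hqN hζ k.1 k.2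
    have hplord : ∀ (i : Option (MidIdx q)) (f : FF (N * q)), f ≠ 0 →
        (pl i).ord (algebraMap (FF (N * q)) (FF (N * q * q)) f)
          = 1 * (f : LaurentSeries Kb).order := by
      intro i f hf
      rw [one_mul]
      have h2 : algebraMap (FF (N * q)) (FF (N * q * q)) f = heckeAlphaBar Kb (N * q) q f :=
        rfl
      rw [h2]
      cases i with
      | none =>
        show (inftyBar (N * q * q)).ord _ = _
        rw [isInfty_inftyBar _ _ (hαne f hf), coe_heckeAlphaBar]
      | some k =>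
        show (midPlace N q hq hqN hζ k.1 k.2).ord _ = _
        rw [isMid_midPlace hζ k.1 k.2 _ (hαne f hf), embMid_alpha]
    have hres : ∀ i, (pl i).restrict (FF (N * q)) = P.restrict (FF (N * q)) := by
      intro i
      have hr := Fermat.Agent.T2.helper96.restrict_ord_of_mul (K := Kb) (F := FF (N * q))
        (F' := FF (N * q * q)) (pl i) 1 one_pos
        (fun f : FF (N * q) => (f : LaurentSeries Kb).order) (hplord i)
        ⟨jInv (N * q), hj, order_jInv (N * q)⟩
      exact IsInfty.unique (FF (N * q)) (fun f hf => hr.2 f hf) h1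
    have hinj : Function.Injective pl := by
      intro i i' h
      cases i with
      | none =>
        cases i' with
        | none => rfl
        | some k' =>
          exfalso
          have hm : IsMid N q hq hqN hζ k'.1 k'.2 (inftyBar (N * q * q)) := by
            have : inftyBar (N * q * q) = midPlace N q hq hqN hζ k'.1 k'.2 := h
            rw [this]
            exact isMid_midPlace hζ k'.1 k'.2
          exact hm.not_isInfty (isInfty_inftyBar _)
      | some k =>
        cases i' with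
        | none =>
          exfalso
          have hm : IsMid N q hq hqN hζ k.1 k.2 (inftyBar (N * q * q)) := by
            have : midPlace N q hq hqN hζ k.1 k.2 = inftyBar (N * q * q) := h
            rw [← this]
            exact isMid_midPlace hζ k.1 k.2
          exact hm.not_isInfty (isInfty_inftyBar _)
        | some k' =>
          have h' : midPlace N q hq hqN hζ k.1 k.2 = midPlace N q hq hqN hζ k'.1 k'.2 := h
          have hm : IsMid N q hq hqN hζ k'.1 k'.2 (midPlace N q hq hqN hζ k.1 k.2) := by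
            rw [h']
            exact isMid_midPlace hζ k'.1 k'.2
          have := (isMid_midPlace hζ k.1 k.2).index_eq hm
          exact congrArg some (Subtype.ext this)
    have hPne : P ∉ Finset.image pl Finset.univ := by
      intro h
      obtain ⟨i, -, hi⟩ := Finset.mem_image.mp h
      cases i with
      | none =>
        apply hP
        rw [← hi]
        exact isInfty_inftyBar _
      | some k =>
        apply hmid k.1 k.2
        rw [← hi]
        exact isMid_midPlace hζ k.1 k.2
    have hcard := card_le_finrank_of_fiber (K := Kb) (F := FF (N * q)) (F' := FF (N * q * q))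
      (P.restrict (FF (N * q))) (insert P (Finset.image pl Finset.univ))
      (by
        intro w hw
        rcases Finset.mem_insert.mp hw with rfl | hw
        · rfl
        · obtain ⟨i, -, rfl⟩ := Finset.mem_image.mp hw
          exact hres i) hdeg hdeg'
    rw [Finset.card_insert_of_notMem hPne, Finset.card_image_of_injective _ hinj,
      Finset.card_univ, card_midIdx q hq, hfr] at hcard
    push_cast at hcard
    omega
  by_cases h2 : IsInfty2 (atkinLehner N q hq hqN) (P.restrict (FF (N * q)))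
  · exfalso
    set P0 : Place Kb (FF (N * q * q)) :=
      (atkinLehnerSq N q hq hqN).symm • inftyBar (N * q * q) with hP0def
    have hP0 : IsInfty2 (atkinLehnerSq N q hq hqN) P0 :=
      isInfty2_symm_smul _ (isInfty_inftyBar _)
    have ho : ∀ f : FF (N * q), f ≠ 0 →
        P0.ord (algebraMap (FF (N * q)) (FF (N * q * q)) f)
          = (q : ℤ) * ((atkinLehner N q hq hqN f : FF (N * q)) : LaurentSeries Kb).order := by
      intro f hf
      have h2 : algebraMap (FF (N * q)) (FF (N * q * q)) f = heckeAlphaBar Kb (N * q) q f :=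
        rfl
      rw [h2, hP0 _ (hαne f hf), atkinLehnerSq_heckeAlphaBar, coe_heckeBetaBar]
      exact Fermat.Agent.T2.helper96.order_qExpand q
        (coe_ne_zero' ((map_ne_zero (atkinLehner N q hq hqN)).mpr hf))
    have hr := Fermat.Agent.T2.helper96.restrict_ord_of_mul (K := Kb) (F := FF (N * q))
      (F' := FF (N * q * q)) P0 q hq0
      (fun f : FF (N * q) => ((atkinLehner N q hq hqN f : FF (N * q)) : LaurentSeries Kb).order)
      ho ⟨atkinLehner N q hq hqN (jInv (N * q)),
        (map_ne_zero (atkinLehner N q hq hqN)).mpr hj, by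
          show ((atkinLehner N q hq hqN (atkinLehner N q hq hqN (jInv (N * q))) : FF (N * q)) :
            LaurentSeries Kb).order = 1
          rw [atkinLehner_atkinLehner]
          exact order_jInv (N * q)⟩
    have e : P0.restrict (FF (N * q)) = P.restrict (FF (N * q)) :=
      (isInfty2_iff_eq (atkinLehner N q hq hqN) h2 _).mp (fun f hf => hr.2 f hf)
    have hne : P ≠ P0 := fun h => hP2 (h ▸ hP0)
    have hsum := sum_ramificationIndex_le_finrank (K := Kb) (F := FF (N * q))
      (F' := FF (N * q * q)) (P.restrict (FF (N * q))) {P, P0}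
      (by
        intro w hw
        simp only [Finset.mem_insert, Finset.mem_singleton] at hw
        rcases hw with rfl | rfl
        · rfl
        · exact e) hdeg hdeg'
    rw [Finset.sum_insert (by simpa using hne), Finset.sum_singleton, hr.1, hfr] at hsum
    have heP : (0 : ℤ) < (P.ramificationIndex (FF (N * q)) : ℤ) := by
      exact_mod_cast P.ramificationIndex_pos (F := FF (N * q))
    omega
  · rw [hord]
    exact mul_nonneg (Nat.cast_nonneg _) (hx _ h1 h2)

/-- `W₂` as its own inverse -/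
theorem atkinLehnerSq_symm_apply (f : FF (N * q * q)) :
    (atkinLehnerSq N q hq hqN).symm f = atkinLehnerSq N q hq hqN f := by
  apply (atkinLehnerSq N q hq hqN).injective
  rw [AlgEquiv.apply_symm_apply, atkinLehnerSq_atkinLehnerSq]

theorem atkinLehnerSq_symm_smul_smul (P : Place Kb (FF (N * q * q))) :
    (atkinLehnerSq N q hq hqN).symm • ((atkinLehnerSq N q hq hqN).symm • P) = P := by
  rw [smul_smul]
  have : (atkinLehnerSq N q hq hqN).symm * (atkinLehnerSq N q hq hqN).symm = 1 := by
    apply AlgEquiv.ext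
    intro f
    show (atkinLehnerSq N q hq hqN).symm ((atkinLehnerSq N q hq hqN).symm f) = f
    rw [atkinLehnerSq_symm_apply, atkinLehnerSq_symm_apply, atkinLehnerSq_atkinLehnerSq]
  rw [this, one_smul]

/-- the same for `β`. -/
theorem ord_beta_nonneg3 {ζ : Kb} (hζ : IsPrimitiveRoot ζ q) (x : FF (N * q))
    (hx : IsReg2 (atkinLehner N q hq hqN) x) (P : Place Kb (FF (N * q * q)))
    (hP : ¬ IsInfty P) (hP2 : ¬ IsInfty2 (atkinLehnerSq N q hq hqN) P)
    (hmid : ∀ (k : Fin q) (hk : (k : ℕ) ≠ 0), ¬ IsMid N q hq hqN hζ k hk P) :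
    0 ≤ P.ord (heckeBetaBar Kb (N * q) q x) := by
  have hWW : ∀ f, atkinLehnerSq N q hq hqN (atkinLehnerSq N q hq hqN f) = f :=
    atkinLehnerSq_atkinLehnerSq N q hq hqN
  have e : heckeBetaBar Kb (N * q) q x
      = atkinLehnerSq N q hq hqN (heckeAlphaBar Kb (N * q) q (atkinLehner N q hq hqN x)) := by
    rw [atkinLehnerSq_heckeAlphaBar, atkinLehner_atkinLehner]
  rw [e, ord_map]
  refine ord_alpha_nonneg3 hζ _ (hx.map (atkinLehner_atkinLehner N q hq hqN)) _
    (fun h => hP2 (isInfty2_of_isInfty_smul hWW h))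
    (fun h => hP (isInfty_of_isInfty2_smul hWW h)) (fun k hk h => ?_)
  have h1 := h.symm_smul
  rw [atkinLehnerSq_symm_smul_smul] at h1
  exact hmid _ _ h1

end Fibre

/-! ### Regularity off the `q + 1` cusps -/

section Reg3

variable (N q : ℕ) [NeZero N] [NeZero q] (hq : q.Prime) (hqN : ¬ q ∣ N)

/-- **`f` is regular at every place different from the `q + 1` cusps `∞`, `0`, `c_k`** (the
cusps of `X₀(N q²)` over the cusp `∞` of `X₀(N)`). -/
def IsReg3 {ζ : Kb} (hζ : IsPrimitiveRoot ζ q) (f : FF (N * q * q)) : Prop :=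
  ∀ P : Place Kb (FF (N * q * q)), ¬ IsInfty P → ¬ IsInfty2 (atkinLehnerSq N q hq hqN) P →
    (∀ (k : Fin q) (hk : (k : ℕ) ≠ 0), ¬ IsMid N q hq hqN hζ k hk P) → 0 ≤ P.ord f

variable {N q hq hqN} {ζ : Kb} {hζ : IsPrimitiveRoot ζ q}

theorem isReg3_zero : IsReg3 N q hq hqN hζ 0 := fun P _ _ _ => (Place.ord_zero P).ge

theorem isReg3_one : IsReg3 N q hq hqN hζ 1 := fun P _ _ _ => (Place.ord_one P).ge

theorem isReg3_algebraMap (c : Kb) : IsReg3 N q hq hqN hζ (algebraMap Kb (FF (N * q * q)) c) :=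
  fun P _ _ _ => (helper82.ord_algebraMap P c).ge

theorem IsReg3.add {f g : FF (N * q * q)} (hf : IsReg3 N q hq hqN hζ f)
    (hg : IsReg3 N q hq hqN hζ g) : IsReg3 N q hq hqN hζ (f + g) := by
  intro P hP hP2 hm
  have h1 := hf P hP hP2 hm
  have h2 := hg P hP hP2 hm
  rw [← helper82.mem_iff_ord_nonneg] at h1 h2 ⊢
  exact P.toValuationSubring.add_mem _ _ h1 h2

theorem IsReg3.mul {f g : FF (N * q * q)} (hf : IsReg3 N q hq hqN hζ f)
    (hg : IsReg3 N q hq hqN hζ g) : IsReg3 N q hq hqN hζ (f * g) := by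
  intro P hP hP2 hm
  have h1 := hf P hP hP2 hm
  have h2 := hg P hP hP2 hm
  rw [← helper82.mem_iff_ord_nonneg] at h1 h2 ⊢
  exact P.toValuationSubring.mul_mem _ _ h1 h2

theorem IsReg3.neg {f : FF (N * q * q)} (hf : IsReg3 N q hq hqN hζ f) :
    IsReg3 N q hq hqN hζ (-f) := by
  intro P hP hP2 hm
  have h1 := hf P hP hP2 hm
  rw [← helper82.mem_iff_ord_nonneg] at h1 ⊢
  exact P.toValuationSubring.neg_mem _ h1

theorem IsReg3.sub {f g : FF (N * q * q)} (hf : IsReg3 N q hq hqN hζ f)
    (hg : IsReg3 N q hq hqN hζ g) : IsReg3 N q hq hqN hζ (f - g) := by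
  rw [sub_eq_add_neg]
  exact hf.add hg.neg

theorem IsReg3.smul {f : FF (N * q * q)} (hf : IsReg3 N q hq hqN hζ f) (c : Kb) :
    IsReg3 N q hq hqN hζ (c • f) := by
  rw [Algebra.smul_def]
  exact (isReg3_algebraMap c).mul hf

theorem IsReg3.pow {f : FF (N * q * q)} (hf : IsReg3 N q hq hqN hζ f) (m : ℕ) :
    IsReg3 N q hq hqN hζ (f ^ m) := by
  induction m with
  | zero => rw [pow_zero]; exact isReg3_one
  | succ k ih => rw [pow_succ]; exact ih.mul hf

/-- `W₂` preserves the regularity off the cusps. -/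
theorem IsReg3.map {f : FF (N * q * q)} (hf : IsReg3 N q hq hqN hζ f) :
    IsReg3 N q hq hqN hζ (atkinLehnerSq N q hq hqN f) := by
  have hWW : ∀ f, atkinLehnerSq N q hq hqN (atkinLehnerSq N q hq hqN f) = f :=
    atkinLehnerSq_atkinLehnerSq N q hq hqN
  intro P hP hP2 hm
  rw [ord_map]
  refine hf _ (fun h => hP2 (isInfty2_of_isInfty_smul hWW h))
    (fun h => hP (isInfty_of_isInfty2_smul hWW h)) (fun k hk h => ?_)
  have h1 := h.symm_smul
  rw [atkinLehnerSq_symm_smul_smul] at h1
  exact hm _ _ h1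

/-- `α x` is regular off the cusps if `x` is regular off the two cusps of level `N q`. -/
theorem isReg3_alpha {x : FF (N * q)} (hx : IsReg2 (atkinLehner N q hq hqN) x) :
    IsReg3 N q hq hqN hζ (heckeAlphaBar Kb (N * q) q x) :=
  fun P hP hP2 hm => ord_alpha_nonneg3 hζ x hx P hP hP2 hm

/-- `β x` is regular off the cusps if `x` is regular off the two cusps of level `N q`. -/
theorem isReg3_beta {x : FF (N * q)} (hx : IsReg2 (atkinLehner N q hq hqN) x) :
    IsReg3 N q hq hqN hζ (heckeBetaBar Kb (N * q) q x) :=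
  fun P hP hP2 hm => ord_beta_nonneg3 hζ x hx P hP hP2 hm

/-- the three pull-backs `f(τ)`, `f(q τ)`, `f(q² τ)` of a function of level `N` regular off `∞`
are regular off the cusps. -/
theorem isReg3_alpha_alpha {x : LaurentSeries Kb} {m : ℤ} (hx : InL (FF N) m x) :
    IsReg3 N q hq hqN hζ
      (heckeAlphaBar Kb (N * q) q (heckeAlphaBar Kb N q ⟨x, hx.1⟩)) := by
  apply isReg3_alpha
  have := Fermat.Agent.T2.helper96.isReg2_alpha N q hq hqN hx
  exact this

theorem isReg3_alpha_beta {x : LaurentSeries Kb} {m : ℤ} (hx : InL (FF N) m x) :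
    IsReg3 N q hq hqN hζ
      (heckeAlphaBar Kb (N * q) q (heckeBetaBar Kb N q ⟨x, hx.1⟩)) := by
  apply isReg3_alpha
  have := Fermat.Agent.T2.helper96.isReg2_beta N q hq hqN hx
  exact this

theorem isReg3_beta_beta {x : LaurentSeries Kb} {m : ℤ} (hx : InL (FF N) m x) :
    IsReg3 N q hq hqN hζ
      (heckeBetaBar Kb (N * q) q (heckeBetaBar Kb N q ⟨x, hx.1⟩)) := by
  apply isReg3_beta
  have := Fermat.Agent.T2.helper96.isReg2_beta N q hq hqN hx
  exact this

end Reg3

end Fermat.Agent.T3.helper87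

end
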