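import Mathlib
import Fermat.Agent.T3.helper87_Places3
import Fermat.Agent.T3.helper98_NormRed3W

/-!
# Tier 3, [T3-NORM-REG3] (helper98, task 993): the operators `α N_α`, `β N_β` preserve
regularity off the cusps, `n ∣ div`, and constants

Level `N q q` (`q` prime, `q ∤ N`), `α, β : F_{Nq} → F_{Nqq}`, `N_α, N_β` the norms.

* `ord_norm_nonneg_of_fiber`, `dvd_ord_norm` : abstract consequences of the norm formula
  `ord_v (N f) = ∑_{w ∣ v} f(w ∣ v) ord_w f`;
* `isReg2_normAlpha`, `isReg2_normBeta` : if `f ∈ F_{Nqq}` is regular off the `q + 1` cusps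
  `∞, 0, c_k` (helper87.IsReg3), then `N_α f`, `N_β f` are regular off the two cusps `∞, ∞₂`
  of level `N q` (T2.helper22.IsReg2);
* `dvd_ord_normAlpha`, `dvd_ord_normBeta`, `dvd_ord_alpha`, `dvd_ord_beta` : `n ∣ div` is
  preserved by `N_α`, `N_β`, `α`, `β`;
* `normA`, `normB : F_{Nqq} →*₀ F_{Nqq}` (`f ↦ α (N_α f)`, `β (N_β f)`), with
  `isReg3_normA/B`, `dvd_ord_normA/B`, `normA/B_algebraMap`, `isFixI_normA/B`
  (= the fields `NA_reg`, `NB_reg`, `NA_dv`, `NB_dv`, `NA_cst`, `NB_cst` of helper49.TorCalc).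
-/

set_option autoImplicit false
set_option synthInstance.maxHeartbeats 400000
set_option maxHeartbeats 1000000
set_option linter.style.haveILetI false
set_option linter.unusedSectionVars false
set_option linter.unusedVariables false
set_option linter.style.longLine false

noncomputable section

open HahnSeries IntermediateField AlgebraicCurve ModularCurve
open Fermat.Agent.S18.helper19 Fermat.Agent.P2.helper29 Fermat.Agent.T2.helper36
open Fermat.Agent.T2.helper22 Fermat.Agent.S24

namespace Fermat.Agent.T3.helper98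

open Fermat.Agent.T3.helper87
open Fermat.Agent.T3.helper48 (atkinLehnerSq atkinLehnerSq_heckeAlphaBar
  atkinLehnerSq_heckeBetaBar atkinLehnerSq_atkinLehnerSq)
open Fermat.Agent.T3.helper74 (IsFixI)
open Fermat.Agent.P3.helper94 (normAlong)

/-! ### Abstract consequences of the norm formula -/

section Abstract

variable {K F F' : Type*} [Field K] [Field F] [Field F'] [Algebra K F] [Algebra K F']
  [Algebra F F'] [IsScalarTower K F F'] [Algebra.IsIntegral F F'] [HasPrincipalDivisors K F']
  [Module.Finite F F']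

/-- if `f` is regular at all places over `v`, then `N f` is regular at `v`. -/
theorem ord_norm_nonneg_of_fiber (H : Divisor.PushforwardNormFormula K F F') (f : F')
    (v : Place K F) (hf : ∀ w : Place K F', w.restrict F = v → 0 ≤ w.ord f) :
    0 ≤ v.ord (Algebra.norm F f) := by
  classical
  rcases eq_or_ne f 0 with rfl | hf0
  · rw [Algebra.norm_zero]
    exact (Place.ord_zero v).ge
  obtain ⟨D, hD, -⟩ := HasPrincipalDivisors.exists_divisor (K := K) f hf0
  rw [← H f hf0 D hD v, Divisor.pushforward_apply]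
  refine Finset.sum_nonneg fun w _ => ?_
  split_ifs with h
  · rw [hD w]
    exact mul_nonneg (hf w h) (Nat.cast_nonneg _)
  · exact le_rfl

/-- if `n` divides the divisor of `f`, then `n` divides the divisor of `N f`. -/
theorem dvd_ord_norm (H : Divisor.PushforwardNormFormula K F F') (n : ℤ) (f : F')
    (hf : ∀ w : Place K F', n ∣ w.ord f) (v : Place K F) :
    n ∣ v.ord (Algebra.norm F f) := by
  classical
  rcases eq_or_ne f 0 with rfl | hf0
  · rw [Algebra.norm_zero, Place.ord_zero]
    exact dvd_zero n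
  obtain ⟨D, hD, -⟩ := HasPrincipalDivisors.exists_divisor (K := K) f hf0
  rw [← H f hf0 D hD v, Divisor.pushforward_apply]
  refine Finset.dvd_sum fun w _ => ?_
  split_ifs with h
  · rw [hD w]
    exact Dvd.dvd.mul_right (hf w) _
  · exact dvd_zero n

/-- `n ∣ div` is preserved by pull-back. -/
theorem dvd_ord_algebraMap (n : ℤ) (x : F) (hx : ∀ v : Place K F, n ∣ v.ord x)
    (w : Place K F') : n ∣ w.ord (algebraMap F F' x) := by
  rw [w.ord_restrict x]
  exact Dvd.dvd.mul_left (hx _) _

end Abstract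

/-! ### The modular instances -/

section Modular

variable {N q : ℕ} [NeZero N] [NeZero q] {hq : q.Prime} {hqN : ¬ q ∣ N}

theorem jInv_ne_zero' (M : ℕ) [NeZero M] : (jInv M : FF M) ≠ 0 := by
  intro h0
  have := order_jInv M
  rw [h0] at this
  simp at this

/-- **`N_α` preserves regularity off the cusps.** -/
theorem isReg2_normAlpha {ζ : Kb} (hζ : IsPrimitiveRoot ζ q) {f : FF (N * q * q)}
    (hf : IsReg3 N q hq hqN hζ f) :
    IsReg2 (atkinLehner N q hq hqN) (normAlong (heckeAlphaBar Kb (N * q) q) f) := by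
  classical
  intro v hv hv2
  letI := algebraAlong (heckeAlphaBar Kb (N * q) q)
  haveI := isScalarTower_along (heckeAlphaBar Kb (N * q) q)
  haveI := helper77.an_finiteDimensional (N * q)
  haveI := helper77.an_finiteDimensional (N * q * q)
  obtain ⟨hαint, _, hpd, hfin, hFI, hNF⟩ := Fermat.Agent.P3.helper58.heckeInputs_of_ff
    (heckeAlphaBar Kb (N * q) q) (heckeAlphaBar Kb (N * q) q) (xJ (N * q))
    (helper77.an_transcendental (N * q)) (xJ (N * q * q))
    (helper77.an_transcendental (N * q * q))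
  haveI : Algebra.IsIntegral (FF (N * q)) (FF (N * q * q)) := isIntegral_along _ hαint
  haveI := hpd
  haveI : Module.Finite (FF (N * q)) (FF (N * q * q)) := hfin
  have hq0 : (0 : ℤ) < q := by exact_mod_cast hq.pos
  have hj : (jInv (N * q) : FF (N * q)) ≠ 0 := jInv_ne_zero' (N * q)
  have hαne : ∀ x : FF (N * q), x ≠ 0 → heckeAlphaBar Kb (N * q) q x ≠ 0 := fun x hx =>
    (map_ne_zero (heckeAlphaBar Kb (N * q) q)).mpr hx
  show 0 ≤ v.ord (Algebra.norm (FF (N * q)) f)
  refine ord_norm_nonneg_of_fiber hNF f v fun w hw => ?_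
  refine hf w ?_ ?_ ?_
  · intro hw1
    apply hv
    rw [← hw]
    have hr := Fermat.Agent.T2.helper96.restrict_ord_of_mul (K := Kb) (F := FF (N * q))
      (F' := FF (N * q * q)) w 1 one_pos
      (fun x : FF (N * q) => (x : LaurentSeries Kb).order)
      (fun x hx => by
        rw [one_mul]
        show w.ord (heckeAlphaBar Kb (N * q) q x) = _
        rw [hw1 _ (hαne x hx), coe_heckeAlphaBar])
      ⟨jInv (N * q), hj, order_jInv (N * q)⟩
    exact fun x hx => hr.2 x hx
  · intro hw2
    apply hv2
    rw [← hw]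
    have hr := Fermat.Agent.T2.helper96.restrict_ord_of_mul (K := Kb) (F := FF (N * q))
      (F' := FF (N * q * q)) w q hq0
      (fun x : FF (N * q) => ((atkinLehner N q hq hqN x : FF (N * q)) : LaurentSeries Kb).order)
      (fun x hx => by
        show w.ord (heckeAlphaBar Kb (N * q) q x) = _
        rw [hw2 _ (hαne x hx), atkinLehnerSq_heckeAlphaBar, coe_heckeBetaBar]
        exact Fermat.Agent.T2.helper96.order_qExpand q
          (coe_ne_zero' ((map_ne_zero (atkinLehner N q hq hqN)).mpr hx)))
      ⟨atkinLehner N q hq hqN (jInv (N * q)),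
        (map_ne_zero (atkinLehner N q hq hqN)).mpr hj, by
          show ((atkinLehner N q hq hqN (atkinLehner N q hq hqN (jInv (N * q))) : FF (N * q)) :
            LaurentSeries Kb).order = 1
          rw [atkinLehner_atkinLehner]
          exact order_jInv (N * q)⟩
    exact fun x hx => hr.2 x hx
  · intro k hk hwm
    apply hv
    rw [← hw]
    have hr := Fermat.Agent.T2.helper96.restrict_ord_of_mul (K := Kb) (F := FF (N * q))
      (F' := FF (N * q * q)) w 1 one_pos
      (fun x : FF (N * q) => (x : LaurentSeries Kb).order)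
      (fun x hx => by
        rw [one_mul]
        show w.ord (heckeAlphaBar Kb (N * q) q x) = _
        rw [hwm _ (hαne x hx), embMid_alpha])
      ⟨jInv (N * q), hj, order_jInv (N * q)⟩
    exact fun x hx => hr.2 x hx

/-- **`N_β` preserves regularity off the cusps.** -/
theorem isReg2_normBeta {ζ : Kb} (hζ : IsPrimitiveRoot ζ q) {f : FF (N * q * q)}
    (hf : IsReg3 N q hq hqN hζ f) :
    IsReg2 (atkinLehner N q hq hqN) (normAlong (heckeBetaBar Kb (N * q) q) f) := by
  have h1 := atkinLehner_normAlpha (hq := hq) (hqN := hqN) (atkinLehnerSq N q hq hqN f)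
  rw [atkinLehnerSq_atkinLehnerSq] at h1
  rw [← h1]
  exact (isReg2_normAlpha hζ hf.map).map (atkinLehner_atkinLehner N q hq hqN)

/-- `n ∣ div f ⟹ n ∣ div (N_α f)` (any level). -/
theorem dvd_ord_normAlpha (M : ℕ) [NeZero M] (n : ℤ) (f : FF (M * q))
    (hf : ∀ w : Place Kb (FF (M * q)), n ∣ w.ord f) (v : Place Kb (FF M)) :
    n ∣ v.ord (normAlong (heckeAlphaBar Kb M q) f) := by
  classical
  letI := algebraAlong (heckeAlphaBar Kb M q)
  haveI := isScalarTower_along (heckeAlphaBar Kb M q)
  haveI := helper77.an_finiteDimensional M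
  haveI := helper77.an_finiteDimensional (M * q)
  obtain ⟨hαint, _, hpd, hfin, hFI, hNF⟩ := Fermat.Agent.P3.helper58.heckeInputs_of_ff
    (heckeAlphaBar Kb M q) (heckeAlphaBar Kb M q) (xJ M)
    (helper77.an_transcendental M) (xJ (M * q))
    (helper77.an_transcendental (M * q))
  haveI : Algebra.IsIntegral (FF M) (FF (M * q)) := isIntegral_along _ hαint
  haveI := hpd
  haveI : Module.Finite (FF M) (FF (M * q)) := hfin
  exact dvd_ord_norm hNF n f hf v

/-- `n ∣ div f ⟹ n ∣ div (N_β f)` (any level). -/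
theorem dvd_ord_normBeta (M : ℕ) [NeZero M] (n : ℤ) (f : FF (M * q))
    (hf : ∀ w : Place Kb (FF (M * q)), n ∣ w.ord f) (v : Place Kb (FF M)) :
    n ∣ v.ord (normAlong (heckeBetaBar Kb M q) f) := by
  classical
  letI := algebraAlong (heckeBetaBar Kb M q)
  haveI := isScalarTower_along (heckeBetaBar Kb M q)
  haveI := helper77.an_finiteDimensional M
  haveI := helper77.an_finiteDimensional (M * q)
  obtain ⟨hβint, _, hpd, hfin, hFI, hNF⟩ := Fermat.Agent.P3.helper58.heckeInputs_of_ff
    (heckeBetaBar Kb M q) (heckeBetaBar Kb M q) (xJ M)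
    (helper77.an_transcendental M) (xJ (M * q))
    (helper77.an_transcendental (M * q))
  haveI : Algebra.IsIntegral (FF M) (FF (M * q)) := isIntegral_along _ hβint
  haveI := hpd
  haveI : Module.Finite (FF M) (FF (M * q)) := hfin
  exact dvd_ord_norm hNF n f hf v

/-- `n ∣ div x ⟹ n ∣ div (α x)` (any level). -/
theorem dvd_ord_alpha (M : ℕ) [NeZero M] (n : ℤ) (x : FF M)
    (hx : ∀ v : Place Kb (FF M), n ∣ v.ord x) (w : Place Kb (FF (M * q))) :
    n ∣ w.ord (heckeAlphaBar Kb M q x) := by
  classical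
  letI := algebraAlong (heckeAlphaBar Kb M q)
  haveI := isScalarTower_along (heckeAlphaBar Kb M q)
  haveI := helper77.an_finiteDimensional M
  haveI := helper77.an_finiteDimensional (M * q)
  obtain ⟨hαint, _, hpd, hfin, hFI, hNF⟩ := Fermat.Agent.P3.helper58.heckeInputs_of_ff
    (heckeAlphaBar Kb M q) (heckeAlphaBar Kb M q) (xJ M)
    (helper77.an_transcendental M) (xJ (M * q))
    (helper77.an_transcendental (M * q))
  haveI : Algebra.IsIntegral (FF M) (FF (M * q)) := isIntegral_along _ hαint
  haveI := hpd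
  haveI : Module.Finite (FF M) (FF (M * q)) := hfin
  exact dvd_ord_algebraMap n x hx w

/-- `n ∣ div x ⟹ n ∣ div (β x)` (any level). -/
theorem dvd_ord_beta (M : ℕ) [NeZero M] (n : ℤ) (x : FF M)
    (hx : ∀ v : Place Kb (FF M), n ∣ v.ord x) (w : Place Kb (FF (M * q))) :
    n ∣ w.ord (heckeBetaBar Kb M q x) := by
  classical
  letI := algebraAlong (heckeBetaBar Kb M q)
  haveI := isScalarTower_along (heckeBetaBar Kb M q)
  haveI := helper77.an_finiteDimensional M
  haveI := helper77.an_finiteDimensional (M * q)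
  obtain ⟨hβint, _, hpd, hfin, hFI, hNF⟩ := Fermat.Agent.P3.helper58.heckeInputs_of_ff
    (heckeBetaBar Kb M q) (heckeBetaBar Kb M q) (xJ M)
    (helper77.an_transcendental M) (xJ (M * q))
    (helper77.an_transcendental (M * q))
  haveI : Algebra.IsIntegral (FF M) (FF (M * q)) := isIntegral_along _ hβint
  haveI := hpd
  haveI : Module.Finite (FF M) (FF (M * q)) := hfin
  exact dvd_ord_algebraMap n x hx w

/-! ### The operators `α N_α`, `β N_β` -/

theorem normAlong_zero_alpha (M : ℕ) [NeZero M] :
    normAlong (heckeAlphaBar Kb M q) (0 : FF (M * q)) = 0 := by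
  letI := algebraAlong (heckeAlphaBar Kb M q)
  haveI := helper77.an_finiteDimensional M
  haveI := helper77.an_finiteDimensional (M * q)
  obtain ⟨hαint, _, hpd, hfin, hFI, hNF⟩ := Fermat.Agent.P3.helper58.heckeInputs_of_ff
    (heckeAlphaBar Kb M q) (heckeAlphaBar Kb M q) (xJ M)
    (helper77.an_transcendental M) (xJ (M * q))
    (helper77.an_transcendental (M * q))
  haveI : Module.Finite (FF M) (FF (M * q)) := hfin
  show Algebra.norm (FF M) (0 : FF (M * q)) = 0
  exact Algebra.norm_zero

theorem normAlong_zero_beta (M : ℕ) [NeZero M] :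
    normAlong (heckeBetaBar Kb M q) (0 : FF (M * q)) = 0 := by
  letI := algebraAlong (heckeBetaBar Kb M q)
  haveI := helper77.an_finiteDimensional M
  haveI := helper77.an_finiteDimensional (M * q)
  obtain ⟨hβint, _, hpd, hfin, hFI, hNF⟩ := Fermat.Agent.P3.helper58.heckeInputs_of_ff
    (heckeBetaBar Kb M q) (heckeBetaBar Kb M q) (xJ M)
    (helper77.an_transcendental M) (xJ (M * q))
    (helper77.an_transcendental (M * q))
  haveI : Module.Finite (FF M) (FF (M * q)) := hfin
  show Algebra.norm (FF M) (0 : FF (M * q)) = 0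
  exact Algebra.norm_zero

variable (N q) in
/-- **`NA = α ∘ N_α`** on `F_{Nqq}`. -/
def normA : FF (N * q * q) →*₀ FF (N * q * q) where
  toFun f := heckeAlphaBar Kb (N * q) q (normAlong (heckeAlphaBar Kb (N * q) q) f)
  map_zero' := by rw [normAlong_zero_alpha, map_zero]
  map_one' := by rw [map_one, map_one]
  map_mul' f g := by rw [map_mul, map_mul]

variable (N q) in
/-- **`NB = β ∘ N_β`** on `F_{Nqq}`. -/
def normB : FF (N * q * q) →*₀ FF (N * q * q) where
  toFun f := heckeBetaBar Kb (N * q) q (normAlong (heckeBetaBar Kb (N * q) q) f)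
  map_zero' := by rw [normAlong_zero_beta, map_zero]
  map_one' := by rw [map_one, map_one]
  map_mul' f g := by rw [map_mul, map_mul]

theorem normA_apply (f : FF (N * q * q)) :
    normA N q f = heckeAlphaBar Kb (N * q) q (normAlong (heckeAlphaBar Kb (N * q) q) f) := rfl

theorem normB_apply (f : FF (N * q * q)) :
    normB N q f = heckeBetaBar Kb (N * q) q (normAlong (heckeBetaBar Kb (N * q) q) f) := rfl

/-- **`NA_reg`** -/
theorem isReg3_normA {ζ : Kb} {hζ : IsPrimitiveRoot ζ q} {f : FF (N * q * q)}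
    (hf : IsReg3 N q hq hqN hζ f) : IsReg3 N q hq hqN hζ (normA N q f) :=
  isReg3_alpha (isReg2_normAlpha hζ hf)

/-- **`NB_reg`** -/
theorem isReg3_normB {ζ : Kb} {hζ : IsPrimitiveRoot ζ q} {f : FF (N * q * q)}
    (hf : IsReg3 N q hq hqN hζ f) : IsReg3 N q hq hqN hζ (normB N q f) :=
  isReg3_beta (isReg2_normBeta hζ hf)

/-- **`NA_dv`** -/
theorem dvd_ord_normA (n : ℤ) (f : FF (N * q * q))
    (hf : ∀ w : Place Kb (FF (N * q * q)), n ∣ w.ord f) (w : Place Kb (FF (N * q * q))) :
    n ∣ w.ord (normA N q f) :=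
  dvd_ord_alpha (N * q) n _ (dvd_ord_normAlpha (N * q) n f hf) w

/-- **`NB_dv`** -/
theorem dvd_ord_normB (n : ℤ) (f : FF (N * q * q))
    (hf : ∀ w : Place Kb (FF (N * q * q)), n ∣ w.ord f) (w : Place Kb (FF (N * q * q))) :
    n ∣ w.ord (normB N q f) :=
  dvd_ord_beta (N * q) n _ (dvd_ord_normBeta (N * q) n f hf) w

/-- **`NA_cst`**: `NA c = c ^ q` on constants. -/
theorem normA_algebraMap (hq : q.Prime) (c : Kb) :
    normA N q (algebraMap Kb (FF (N * q * q)) c) = algebraMap Kb (FF (N * q * q)) (c ^ q) := by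
  letI := algebraAlong (heckeAlphaBar Kb (N * q) q)
  have hfr : Module.finrank (FF (N * q)) (FF (N * q * q)) = q :=
    Fermat.Agent.T2.helper48.finrank_alpha_of_dvd (N * q) q hq (Dvd.intro_left N rfl)
  have e : algebraMap Kb (FF (N * q * q)) c
      = algebraMap (FF (N * q)) (FF (N * q * q)) (algebraMap Kb (FF (N * q)) c) :=
    ((heckeAlphaBar Kb (N * q) q).commutes c).symm
  rw [normA_apply]
  have h1 : normAlong (heckeAlphaBar Kb (N * q) q) (algebraMap Kb (FF (N * q * q)) c)
      = algebraMap Kb (FF (N * q)) (c ^ q) := by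
    show Algebra.norm (FF (N * q)) (algebraMap Kb (FF (N * q * q)) c) = _
    rw [e, Algebra.norm_algebraMap, hfr, map_pow]
  rw [h1, AlgHom.commutes]

/-- **`NB_cst`**: `NB c = c ^ q` on constants. -/
theorem normB_algebraMap (hq : q.Prime) (c : Kb) :
    normB N q (algebraMap Kb (FF (N * q * q)) c) = algebraMap Kb (FF (N * q * q)) (c ^ q) := by
  letI := algebraAlong (heckeBetaBar Kb (N * q) q)
  have hfr : Module.finrank (FF (N * q)) (FF (N * q * q)) = q :=
    Fermat.Agent.T2.helper48.finrank_beta_of_dvd (N * q) q hq (Dvd.intro_left N rfl)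
  have e : algebraMap Kb (FF (N * q * q)) c
      = algebraMap (FF (N * q)) (FF (N * q * q)) (algebraMap Kb (FF (N * q)) c) :=
    ((heckeBetaBar Kb (N * q) q).commutes c).symm
  rw [normB_apply]
  have h1 : normAlong (heckeBetaBar Kb (N * q) q) (algebraMap Kb (FF (N * q * q)) c)
      = algebraMap Kb (FF (N * q)) (c ^ q) := by
    show Algebra.norm (FF (N * q)) (algebraMap Kb (FF (N * q * q)) c) = _
    rw [e, Algebra.norm_algebraMap, hfr, map_pow]
  rw [h1, AlgHom.commutes]

theorem isFixI_normA (A : ValuationSubring Kb) {f : FF (N * q * q)}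
    (hf : IsFixI A (N * q * q) f) : IsFixI A (N * q * q) (normA N q f) :=
  isFixI_alpha_normAlpha A (N * q) hf

theorem isFixI_normB (A : ValuationSubring Kb) {f : FF (N * q * q)}
    (hf : IsFixI A (N * q * q) f) : IsFixI A (N * q * q) (normB N q f) :=
  isFixI_beta_normBeta A (N * q) hf

end Modular

end Fermat.Agent.T3.helper98

end
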