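import Mathlib
import Fermat.Agent.T3.helper98_NormReg3
import Fermat.Agent.T3.helper36_RhoQ
import Fermat.Agent.T3.helper72_Interface3
import Fermat.Agent.T3.helper49_TorAlg

/-!
# Tier 3, [T3-NORM-RED3] (helper98), part 4: the norm table in QUOTIENT form

Vocabulary: `helper36.RhoQ A g r` (`g = Y₁ / Y₂`, `Y₁, Y₂` integral series, `red Y₂ ≠ 0`,
`red Y₁ = r · red Y₂`) and `helper72.Red3 i f x = RhoQ A (ex3 i f) x`.

* `rhoQ_twist`   : `RhoQ A g r → RhoQ A (g(ζ^k t)) r`   (`ζ^q = 1`, `A` over `q`);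
* `rhoQ_gal`     : `RhoQ A g r → RhoQ A (σ g) r`         (`σ` in the inertia group of `A`);
* `rhoQ_qExpand` : `RhoQ A g r → RhoQ A (g(t^q)) (r(t^q))`;
* `exists_inertia_embMid` : the middle expansions of an `I`-fixed function are `I`-conjugate;
  `rhoQ_embMid_of_fix`, `rhoQ_embMid_W` : independence of the middle cusp;
* the norm table at level `N q`, for `g` `I`-fixed with `Red3 i g (x i)`:
    `rhoQ_normAlpha`          : `RhoQ A (N_α g) (x₀ x₂^(q-1))`                  (cusp `∞`)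
    `rhoQ_qExpand_normBeta`   : `RhoQ A ((N_β g)(t^q)) (x₀^q)`                  (cusp `∞`)
    `rhoQ_qExpand_W_normAlpha`: `RhoQ A ((W₁ N_α g)(t^q)) (x₁^q)`               (cusp `0`)
    `rhoQ_W_normBeta`         : `RhoQ A (W₁ N_β g) (x₁ x₂^(q-1))`               (cusp `0`)
* the norm table at level `N q q`:
    **`red3_normA`** : `Red3 i (α N_α g) (naF r X i)`,
    **`red3_normB`** : `Red3 i (β N_β g) (nbF r X i)`   (`q = r + 1`),
  i.e. `NA_rho`, `NB_rho` of `helper49.TorCalc` for `Rho f X := IsFixI f ∧ ∀ i, Red3 i f (X i)`.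
-/

set_option autoImplicit false
set_option synthInstance.maxHeartbeats 400000
set_option maxHeartbeats 1000000
set_option linter.style.haveILetI false
set_option linter.unusedSectionVars false
set_option linter.unusedVariables false
set_option linter.style.longLine false

noncomputable section

open HahnSeries IntermediateField AlgebraicCurve ModularCurve
open Fermat.Agent.S18.helper19 Fermat.Agent.P2.helper29 Fermat.Agent.T2.helper36

namespace Fermat.Agent.T3.helper98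

open Fermat.Agent.P2.helper93 (twistL twistL_coeff rootUnit coeffMap_subtype_rot
  rootUnit_sub_one_mem actA coeffMap_subtype_actA coeffMap_residue_actA
  decK_eq_id_of_mem_inertia)
open Fermat.Agent.T2.helper87 (twistHom twistHom_apply)
open Fermat.Agent.T3.helper87
open Fermat.Agent.T3.helper48 (atkinLehnerSq atkinLehnerSq_heckeAlphaBar
  atkinLehnerSq_heckeBetaBar atkinLehnerSq_atkinLehnerSq embMid_atkinLehnerSq exists_opposite)
open Fermat.Agent.T3.helper74 (ex3 IsFixI midOne midOne_ne)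
open Fermat.Agent.T3.helper36 (RhoQ)
open Fermat.Agent.T3.helper72 (Red3)
open Fermat.Agent.T3.helper49 (naF nbF)
open Fermat.Agent.P3.helper94 (normAlong)

/-! ### Stability of `RhoQ` -/

section Series

variable {q : ℕ} [NeZero q] {A : ValuationSubring Kb}

theorem ne_zero_of_pow_eq_one' {ζ : Kb} (hζ1 : ζ ^ q = 1) : ζ ≠ 0 := by
  rintro rfl
  rw [zero_pow (NeZero.ne q)] at hζ1
  exact zero_ne_one hζ1

/-- `RhoQ` is stable under `t ↦ ζ^k t`. -/
theorem rhoQ_twist (hq : q.Prime) (hA : A.LiesOverPrime q) {ζ : Kb} (hζ1 : ζ ^ q = 1) (k : ℕ)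
    {X : LaurentSeries Kb} {x : LaurentSeries (kA A)} (h : RhoQ A X x) :
    RhoQ A (twistL (ζ ^ k) X) x := by
  obtain ⟨Y₁, Y₂, h0, h1, h2⟩ := h
  obtain ⟨Z₁, hZ₁, hZ₁r⟩ := exists_model_twist A hq hA hζ1 k _ Y₁ rfl
  obtain ⟨Z₂, hZ₂, hZ₂r⟩ := exists_model_twist A hq hA hζ1 k _ Y₂ rfl
  refine ⟨Z₁, Z₂, by rw [hZ₂r]; exact h0, ?_, by rw [hZ₁r, hZ₂r, h2]⟩
  have hc : ζ ^ k ≠ 0 := pow_ne_zero _ (ne_zero_of_pow_eq_one' hζ1)
  rw [hZ₁, hZ₂, h1, ← twistHom_apply (ζ ^ k) hc, ← twistHom_apply (ζ ^ k) hc,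
    ← twistHom_apply (ζ ^ k) hc, map_mul]

/-- `RhoQ` is stable under the inertia group. -/
theorem rhoQ_gal {σ : Kb ≃ₐ[ℚ] Kb} (hσ : σ ∈ A.inertiaSubgroupIn ℚ)
    {X : LaurentSeries Kb} {x : LaurentSeries (kA A)} (h : RhoQ A X x) :
    RhoQ A (coeffMap (σ : Kb →+* Kb) X) x := by
  obtain ⟨hσD, hid⟩ := decK_eq_id_of_mem_inertia hσ
  obtain ⟨Y₁, Y₂, h0, h1, h2⟩ := h
  have h1' : coeffMap (A.subtype : ↥A →+* Kb) Y₁ = X * coeffMap (A.subtype : ↥A →+* Kb) Y₂ := h1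
  have h2' : coeffMap (IsLocalRing.residue ↥A) Y₁ = x * coeffMap (IsLocalRing.residue ↥A) Y₂ :=
    h2
  have h0' : coeffMap (IsLocalRing.residue ↥A) Y₂ ≠ 0 := h0
  refine ⟨actA σ hσD Y₁, actA σ hσD Y₂, ?_, ?_, ?_⟩
  · show coeffMap (IsLocalRing.residue ↥A) _ ≠ 0
    rw [coeffMap_residue_actA, hid, coeffMap_id]
    exact h0'
  · show coeffMap (A.subtype : ↥A →+* Kb) _ = _ * coeffMap (A.subtype : ↥A →+* Kb) _
    rw [coeffMap_subtype_actA, coeffMap_subtype_actA, h1', map_mul]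
  · show coeffMap (IsLocalRing.residue ↥A) _ = x * coeffMap (IsLocalRing.residue ↥A) _
    rw [coeffMap_residue_actA, coeffMap_residue_actA, hid, coeffMap_id, coeffMap_id]
    exact h2'

/-- `RhoQ` is stable under `t ↦ t^m`. -/
theorem rhoQ_qExpand (m : ℕ) [NeZero m] {X : LaurentSeries Kb} {x : LaurentSeries (kA A)}
    (h : RhoQ A X x) : RhoQ A (qExpand Kb m X) (qExpand (kA A) m x) := by
  obtain ⟨Y₁, Y₂, h0, h1, h2⟩ := h
  have h1' : coeffMap (A.subtype : ↥A →+* Kb) Y₁ = X * coeffMap (A.subtype : ↥A →+* Kb) Y₂ := h1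
  have h2' : coeffMap (IsLocalRing.residue ↥A) Y₁ = x * coeffMap (IsLocalRing.residue ↥A) Y₂ :=
    h2
  have h0' : coeffMap (IsLocalRing.residue ↥A) Y₂ ≠ 0 := h0
  refine ⟨qExpand ↥A m Y₁, qExpand ↥A m Y₂, ?_, ?_, ?_⟩
  · show coeffMap (IsLocalRing.residue ↥A) _ ≠ 0
    rw [Fermat.Agent.P2.helper94.coeffMap_qExpand]
    exact (map_ne_zero (qExpand (kA A) m)).mpr h0'
  · show coeffMap (A.subtype : ↥A →+* Kb) _ = _ * coeffMap (A.subtype : ↥A →+* Kb) _
    rw [Fermat.Agent.P2.helper94.coeffMap_qExpand, Fermat.Agent.P2.helper94.coeffMap_qExpand,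
      h1', map_mul]
  · show coeffMap (IsLocalRing.residue ↥A) _ = _ * coeffMap (IsLocalRing.residue ↥A) _
    rw [Fermat.Agent.P2.helper94.coeffMap_qExpand, Fermat.Agent.P2.helper94.coeffMap_qExpand,
      h2', map_mul]

/-- the product of the `q` twists -/
theorem rhoQ_prod_twist (hq : q.Prime) (hA : A.LiesOverPrime q) {ζ : Kb} (hζ1 : ζ ^ q = 1)
    {X : LaurentSeries Kb} {x : LaurentSeries (kA A)} (h : RhoQ A X x) :
    RhoQ A (∏ k ∈ Finset.range q, twistL (ζ ^ k) X) (x ^ q) := by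
  have := Fermat.Agent.T3.helper36.RhoQ.prod (A := A) (Finset.range q)
    (f := fun k => twistL (ζ ^ k) X) (r := fun _ => x)
    (fun k _ => rhoQ_twist hq hA hζ1 k h)
  rwa [Finset.prod_const, Finset.card_range] at this

end Series

/-! ### The middle cusps -/

section Mid

variable {N q : ℕ} [NeZero N] [NeZero q] {hq : q.Prime} {hqN : ¬ q ∣ N}
variable {A : ValuationSubring Kb}

/-- the middle expansions of an `I`-fixed function are conjugate under the inertia group. -/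
theorem exists_inertia_embMid (hA : A.LiesOverPrime q) {ζ : Kb} (hζ : IsPrimitiveRoot ζ q)
    (k₀ : Fin q) (hk₀ : (k₀ : ℕ) ≠ 0) (k : Fin q) (hk : (k : ℕ) ≠ 0) :
    ∃ σ ∈ A.inertiaSubgroupIn ℚ, ∀ g : FF (N * q * q), IsFixI A (N * q * q) g →
      coeffMap (σ : Kb →+* Kb) (embMid N q hq hqN hζ k₀ hk₀ g) = embMid N q hq hqN hζ k hk g := by
  have hcop₀ : Nat.Coprime (k₀ : ℕ) q := by
    rw [Nat.coprime_comm, Nat.Prime.coprime_iff_not_dvd hq]
    intro hd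
    exact hk₀ (Nat.eq_zero_of_dvd_of_lt hd k₀.2)
  have hζ₀ : IsPrimitiveRoot (ζ ^ (k₀ : ℕ)) q := hζ.pow_of_coprime _ hcop₀
  have hζk1 : (ζ ^ (k : ℕ)) ^ q = 1 := by
    rw [← pow_mul, mul_comm, pow_mul, hζ.pow_eq_one, one_pow]
  obtain ⟨i, -, hik⟩ := hζ₀.eq_pow_of_pow_eq_one hζk1
  have hqi : ¬ q ∣ i := by
    intro hd
    obtain ⟨c, rfl⟩ := hd
    rw [pow_mul, hζ₀.pow_eq_one, one_pow] at hik
    have h0 : (k : ℕ) = 0 := hζ.pow_inj k.2 hq.pos (hik.symm.trans (pow_zero ζ).symm)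
    exact hk h0
  obtain ⟨σ, hσI, hσ⟩ := Fermat.Agent.T3.helper84.k0_zeta_trans hq A hA hζ₀ hqi
  refine ⟨σ, hσI, fun g hg => ?_⟩
  rw [coeffMap_embMid, hg σ hσI]
  have hc := embMid_congr (N := N) (hq := hq) (hqN := hqN) hζ
    (hζ.map_of_injective (f := σ) σ.injective) k k₀ hk hk₀
    (by rw [← map_pow, hσ, hik])
  rw [hc]

/-- **independence of the middle cusp** (quotient form). -/
theorem rhoQ_embMid_of_fix (hA : A.LiesOverPrime q) {ζ : Kb} (hζ : IsPrimitiveRoot ζ q)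
    {g : FF (N * q * q)} (hg : IsFixI A (N * q * q) g) (k₀ : Fin q) (hk₀ : (k₀ : ℕ) ≠ 0)
    {x : LaurentSeries (kA A)} (h : RhoQ A (embMid N q hq hqN hζ k₀ hk₀ g) x)
    (k : Fin q) (hk : (k : ℕ) ≠ 0) : RhoQ A (embMid N q hq hqN hζ k hk g) x := by
  obtain ⟨σ, hσ, hσg⟩ := exists_inertia_embMid (N := N) (hq := hq) (hqN := hqN) hA hζ k₀ hk₀ k hk
  rw [← hσg g hg]
  exact rhoQ_gal hσ h

/-- the middle expansions of `W₂ g` (quotient form). -/
theorem rhoQ_embMid_W (hA : A.LiesOverPrime q) {ζ : Kb} (hζ : IsPrimitiveRoot ζ q)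
    {g : FF (N * q * q)} (hg : IsFixI A (N * q * q) g) (k₀ : Fin q) (hk₀ : (k₀ : ℕ) ≠ 0)
    {x : LaurentSeries (kA A)} (h : RhoQ A (embMid N q hq hqN hζ k₀ hk₀ g) x)
    (k : Fin q) (hk : (k : ℕ) ≠ 0) :
    RhoQ A (embMid N q hq hqN hζ k hk (atkinLehnerSq N q hq hqN g)) x := by
  obtain ⟨k', hk', hkk'⟩ := exists_opposite hζ k hk
  rw [embMid_atkinLehnerSq hζ k hk k' hk' hkk']
  exact rhoQ_twist hq hA hζ.pow_eq_one (k : ℕ) (rhoQ_embMid_of_fix hA hζ hg k₀ hk₀ h k' hk')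

theorem rhoQ_prod_embMid (hA : A.LiesOverPrime q) {ζ : Kb} (hζ : IsPrimitiveRoot ζ q)
    {g : FF (N * q * q)} (hg : IsFixI A (N * q * q) g) (k₀ : Fin q) (hk₀ : (k₀ : ℕ) ≠ 0)
    {x : LaurentSeries (kA A)} (h : RhoQ A (embMid N q hq hqN hζ k₀ hk₀ g) x) :
    RhoQ A (∏ k : MidIdx q, embMid N q hq hqN hζ k.1 k.2 g) (x ^ (q - 1)) := by
  have := Fermat.Agent.T3.helper36.RhoQ.prod (A := A) (Finset.univ : Finset (MidIdx q))
    (f := fun k => embMid N q hq hqN hζ k.1 k.2 g) (r := fun _ => x)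
    (fun k _ => rhoQ_embMid_of_fix hA hζ hg k₀ hk₀ h k.1 k.2)
  rwa [Finset.prod_const, Finset.card_univ, card_midIdx' hq] at this

theorem rhoQ_prod_embMid_W (hA : A.LiesOverPrime q) {ζ : Kb} (hζ : IsPrimitiveRoot ζ q)
    {g : FF (N * q * q)} (hg : IsFixI A (N * q * q) g) (k₀ : Fin q) (hk₀ : (k₀ : ℕ) ≠ 0)
    {x : LaurentSeries (kA A)} (h : RhoQ A (embMid N q hq hqN hζ k₀ hk₀ g) x) :
    RhoQ A (∏ k : MidIdx q, embMid N q hq hqN hζ k.1 k.2 (atkinLehnerSq N q hq hqN g))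
      (x ^ (q - 1)) := by
  have := Fermat.Agent.T3.helper36.RhoQ.prod (A := A) (Finset.univ : Finset (MidIdx q))
    (f := fun k => embMid N q hq hqN hζ k.1 k.2 (atkinLehnerSq N q hq hqN g)) (r := fun _ => x)
    (fun k _ => rhoQ_embMid_W hA hζ hg k₀ hk₀ h k.1 k.2)
  rwa [Finset.prod_const, Finset.card_univ, card_midIdx' hq] at this

end Mid

/-! ### The norm table -/

section Table

variable {N q : ℕ} [NeZero N] [NeZero q] {hq : q.Prime} {hqN : ¬ q ∣ N}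
variable {A : ValuationSubring Kb}

theorem red3_iff_rhoQ {ζ : Kb} (hζ : IsPrimitiveRoot ζ q) (i : Fin 3) (f : FF (N * q * q))
    (x : LaurentSeries (kA A)) :
    Red3 N q hq hqN A hζ i f x ↔ RhoQ A (ex3 N q hq hqN hζ i f) x := Iff.rfl

/-- the six entries of the table, as `RhoQ` of explicit series -/
theorem rhoQ_ex3_normA (hA : A.LiesOverPrime q) {ζ : Kb} (hζ : IsPrimitiveRoot ζ q)
    {g : FF (N * q * q)} (hg : IsFixI A (N * q * q) g) {x : Fin 3 → LaurentSeries (kA A)}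
    (h : ∀ i, RhoQ A (ex3 N q hq hqN hζ i g) (x i)) :
    RhoQ A (ex3 N q hq hqN hζ 0 (normA N q g)) (x 0 * x 2 ^ (q - 1)) ∧
    RhoQ A (ex3 N q hq hqN hζ 1 (normA N q g)) (x 1 ^ q) ∧
    RhoQ A (ex3 N q hq hqN hζ 2 (normA N q g)) (x 0 * x 2 ^ (q - 1)) := by
  have h2 : RhoQ A (embMid N q hq hqN hζ (midOne q hq) (midOne_ne q hq) g) (x 2) := by
    have := h 2
    rwa [ex3_two] at this
  have hP := rhoQ_prod_embMid hA hζ hg (midOne q hq) (midOne_ne q hq) h2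
  refine ⟨?_, ?_, ?_⟩
  · rw [normA_apply, ex3_zero_alpha_normAlpha]
    exact (h 0).mul hP
  · rw [normA_apply, ex3_one_alpha_normAlpha]
    exact rhoQ_prod_twist hq hA hζ.pow_eq_one (h 1)
  · rw [normA_apply, ex3_two_alpha_normAlpha]
    exact (h 0).mul hP

theorem rhoQ_ex3_normB (hA : A.LiesOverPrime q) {ζ : Kb} (hζ : IsPrimitiveRoot ζ q)
    {g : FF (N * q * q)} (hg : IsFixI A (N * q * q) g) {x : Fin 3 → LaurentSeries (kA A)}
    (h : ∀ i, RhoQ A (ex3 N q hq hqN hζ i g) (x i)) :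
    RhoQ A (ex3 N q hq hqN hζ 0 (normB N q g)) (x 0 ^ q) ∧
    RhoQ A (ex3 N q hq hqN hζ 1 (normB N q g)) (x 1 * x 2 ^ (q - 1)) ∧
    RhoQ A (ex3 N q hq hqN hζ 2 (normB N q g)) (x 1 * x 2 ^ (q - 1)) := by
  have h2 : RhoQ A (embMid N q hq hqN hζ (midOne q hq) (midOne_ne q hq) g) (x 2) := by
    have := h 2
    rwa [ex3_two] at this
  have hP := rhoQ_prod_embMid_W hA hζ hg (midOne q hq) (midOne_ne q hq) h2
  refine ⟨?_, ?_, ?_⟩
  · rw [normB_apply, ex3_zero_beta_normBeta]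
    exact rhoQ_prod_twist hq hA hζ.pow_eq_one (h 0)
  · rw [normB_apply, ex3_one_beta_normBeta]
    exact (h 1).mul hP
  · rw [normB_apply, ex3_two_beta_normBeta]
    exact rhoQ_twist hq hA hζ.pow_eq_one 1 ((h 1).mul hP)

/-- **`NA_rho`** in `Red3` form. -/
theorem red3_normA (hA : A.LiesOverPrime q) {ζ : Kb} (hζ : IsPrimitiveRoot ζ q) {r : ℕ}
    (hr : q = r + 1) {g : FF (N * q * q)} (hg : IsFixI A (N * q * q) g)
    {X : Fin 3 → LaurentSeries (kA A)} (h : ∀ i, Red3 N q hq hqN A hζ i g (X i)) (i : Fin 3) :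
    Red3 N q hq hqN A hζ i (normA N q g) (naF r X i) := by
  obtain ⟨a0, a1, a2⟩ := rhoQ_ex3_normA (hq := hq) (hqN := hqN) hA hζ hg h
  have hq1 : q - 1 = r := by omega
  rw [hq1] at a0 a2
  have e : X 1 ^ q = X 1 ^ (r + 1) := congrArg (fun m => X 1 ^ m) hr
  rw [e] at a1
  fin_cases i
  · exact a0
  · exact a1
  · exact a2

/-- **`NB_rho`** in `Red3` form. -/
theorem red3_normB (hA : A.LiesOverPrime q) {ζ : Kb} (hζ : IsPrimitiveRoot ζ q) {r : ℕ}
    (hr : q = r + 1) {g : FF (N * q * q)} (hg : IsFixI A (N * q * q) g)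
    {X : Fin 3 → LaurentSeries (kA A)} (h : ∀ i, Red3 N q hq hqN A hζ i g (X i)) (i : Fin 3) :
    Red3 N q hq hqN A hζ i (normB N q g) (nbF r X i) := by
  obtain ⟨a0, a1, a2⟩ := rhoQ_ex3_normB (hq := hq) (hqN := hqN) hA hζ hg h
  have hq1 : q - 1 = r := by omega
  rw [hq1] at a1 a2
  have e : X 0 ^ q = X 0 ^ (r + 1) := congrArg (fun m => X 0 ^ m) hr
  rw [e] at a0
  fin_cases i
  · exact a0
  · exact a1
  · exact a2

/-! ### The table at level `N q` (for [NORMPOW3]) -/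

/-- cusp `∞` of level `N q`: `N_α g` has reduction `x₀ x₂^(q-1)`. -/
theorem rhoQ_normAlpha (hA : A.LiesOverPrime q) {ζ : Kb} (hζ : IsPrimitiveRoot ζ q)
    {g : FF (N * q * q)} (hg : IsFixI A (N * q * q) g) {x0 x2 : LaurentSeries (kA A)}
    (h0 : Red3 N q hq hqN A hζ 0 g x0) (h2 : Red3 N q hq hqN A hζ 2 g x2) :
    RhoQ A ((normAlong (heckeAlphaBar Kb (N * q) q) g : FF (N * q)) : LaurentSeries Kb)
      (x0 * x2 ^ (q - 1)) := by
  have h0' : RhoQ A (g : LaurentSeries Kb) x0 := by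
    have : RhoQ A (ex3 N q hq hqN hζ 0 g) x0 := h0
    rwa [ex3_zero] at this
  have h2' : RhoQ A (embMid N q hq hqN hζ (midOne q hq) (midOne_ne q hq) g) x2 := by
    have : RhoQ A (ex3 N q hq hqN hζ 2 g) x2 := h2
    rwa [ex3_two] at this
  rw [normAlpha_expand (hq := hq) (hqN := hqN) hζ g]
  exact h0'.mul (rhoQ_prod_embMid hA hζ hg (midOne q hq) (midOne_ne q hq) h2')

/-- cusp `∞` of level `N q`: `(N_β g)(t^q)` has reduction `x₀^q` (no hypothesis on `g`). -/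
theorem rhoQ_qExpand_normBeta (hA : A.LiesOverPrime q) {ζ : Kb} (hζ : IsPrimitiveRoot ζ q)
    {g : FF (N * q * q)} {x0 : LaurentSeries (kA A)} (h0 : Red3 N q hq hqN A hζ 0 g x0) :
    RhoQ A (qExpand Kb q
      ((normAlong (heckeBetaBar Kb (N * q) q) g : FF (N * q)) : LaurentSeries Kb)) (x0 ^ q) := by
  have h0' : RhoQ A (g : LaurentSeries Kb) x0 := by
    have : RhoQ A (ex3 N q hq hqN hζ 0 g) x0 := h0
    rwa [ex3_zero] at this
  rw [normBeta_expand (N * q) q hq (Dvd.intro_left N rfl) hζ g]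
  exact rhoQ_prod_twist hq hA hζ.pow_eq_one h0'

/-- cusp `0` of level `N q`: `(W₁ N_α g)(t^q)` has reduction `x₁^q` (no hypothesis on `g`). -/
theorem rhoQ_qExpand_W_normAlpha (hA : A.LiesOverPrime q) {ζ : Kb} (hζ : IsPrimitiveRoot ζ q)
    {g : FF (N * q * q)} {x1 : LaurentSeries (kA A)} (h1 : Red3 N q hq hqN A hζ 1 g x1) :
    RhoQ A (qExpand Kb q
      ((atkinLehner N q hq hqN (normAlong (heckeAlphaBar Kb (N * q) q) g) : FF (N * q)) :
        LaurentSeries Kb)) (x1 ^ q) := by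
  have h1' : RhoQ A ((atkinLehnerSq N q hq hqN g : FF (N * q * q)) : LaurentSeries Kb) x1 := by
    have : RhoQ A (ex3 N q hq hqN hζ 1 g) x1 := h1
    rwa [ex3_one] at this
  rw [atkinLehner_normAlpha, normBeta_expand (N * q) q hq (Dvd.intro_left N rfl) hζ]
  exact rhoQ_prod_twist hq hA hζ.pow_eq_one h1'

/-- cusp `0` of level `N q`: `W₁ N_β g` has reduction `x₁ x₂^(q-1)`. -/
theorem rhoQ_W_normBeta (hA : A.LiesOverPrime q) {ζ : Kb} (hζ : IsPrimitiveRoot ζ q)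
    {g : FF (N * q * q)} (hg : IsFixI A (N * q * q) g) {x1 x2 : LaurentSeries (kA A)}
    (h1 : Red3 N q hq hqN A hζ 1 g x1) (h2 : Red3 N q hq hqN A hζ 2 g x2) :
    RhoQ A ((atkinLehner N q hq hqN (normAlong (heckeBetaBar Kb (N * q) q) g) : FF (N * q)) :
        LaurentSeries Kb) (x1 * x2 ^ (q - 1)) := by
  have h1' : RhoQ A ((atkinLehnerSq N q hq hqN g : FF (N * q * q)) : LaurentSeries Kb) x1 := by
    have : RhoQ A (ex3 N q hq hqN hζ 1 g) x1 := h1
    rwa [ex3_one] at this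
  have h2' : RhoQ A (embMid N q hq hqN hζ (midOne q hq) (midOne_ne q hq) g) x2 := by
    have : RhoQ A (ex3 N q hq hqN hζ 2 g) x2 := h2
    rwa [ex3_two] at this
  rw [atkinLehner_normBeta, normAlpha_expand (hq := hq) (hqN := hqN) hζ]
  exact h1'.mul (rhoQ_prod_embMid_W hA hζ hg (midOne q hq) (midOne_ne q hq) h2')

end Table

end Fermat.Agent.T3.helper98

end
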