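import Mathlib
import Fermat.Agent.T3.helper5_Gauss3CGauss
import Fermat.Agent.T3.helper98_NormQ

set_option autoImplicit false
set_option synthInstance.maxHeartbeats 400000
set_option linter.unusedSectionVars false
set_option linter.unusedVariables false
set_option linter.style.haveILetI false

noncomputable section

open HahnSeries IntermediateField AlgebraicCurve ModularCurve
open Fermat.Agent.S18.helper19 Fermat.Agent.P2.helper29 Fermat.Agent.P2.helper93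
open Fermat.Agent.T3.helper36 (RhoQ GaussIs)
open Fermat.Agent.T3.helper74 (ex3 IsFixI)

namespace Fermat.Agent.T3.helper5

variable {A : ValuationSubring Kb} {ζ : Kb}

/-! ### Series with coefficients fixed by `I ∩ G_{ℚ(ζ)}` -/

/-- the coefficients of `X` are fixed by the inertia elements of `A` fixing `ζ` -/
def FixZ (A : ValuationSubring Kb) (ζ : Kb) (X : LaurentSeries Kb) : Prop :=
  ∀ σ ∈ A.inertiaSubgroupIn ℚ, σ ζ = ζ →
    coeffMap ((σ : Kb ≃ₐ[ℚ] Kb) : Kb →+* Kb) X = X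

theorem fixZ_zero : FixZ A ζ 0 := fun σ _ _ => map_zero _

theorem fixZ_one : FixZ A ζ 1 := fun σ _ _ => map_one _

theorem FixZ.add {X Y : LaurentSeries Kb} (hX : FixZ A ζ X) (hY : FixZ A ζ Y) :
    FixZ A ζ (X + Y) := fun σ hσ hζ => by rw [map_add, hX σ hσ hζ, hY σ hσ hζ]

theorem FixZ.mul {X Y : LaurentSeries Kb} (hX : FixZ A ζ X) (hY : FixZ A ζ Y) :
    FixZ A ζ (X * Y) := fun σ hσ hζ => by rw [map_mul, hX σ hσ hζ, hY σ hσ hζ]

theorem FixZ.pow {X : LaurentSeries Kb} (hX : FixZ A ζ X) (n : ℕ) :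
    FixZ A ζ (X ^ n) := fun σ hσ hζ => by rw [map_pow, hX σ hσ hζ]

theorem fixZ_natCast (n : ℕ) : FixZ A ζ (n : LaurentSeries Kb) := fun σ _ _ => map_natCast _ n

theorem fixZ_of_fixI {X : LaurentSeries Kb}
    (h : ∀ σ ∈ A.inertiaSubgroupIn ℚ, coeffMap ((σ : Kb ≃ₐ[ℚ] Kb) : Kb →+* Kb) X = X) :
    FixZ A ζ X := fun σ hσ _ => h σ hσ

theorem fixZ_const {c : Kb} (hc : ∀ σ ∈ A.inertiaSubgroupIn ℚ, σ ζ = ζ → σ c = c) :
    FixZ A ζ (algebraMap Kb (LaurentSeries Kb) c) := fun σ hσ hζ => by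
  rw [coeffMap_algebraMap]
  exact congrArg _ (hc σ hσ hζ)

theorem FixZ.const_mul {X : LaurentSeries Kb} (hX : FixZ A ζ X) {c : Kb}
    (hc : ∀ σ ∈ A.inertiaSubgroupIn ℚ, σ ζ = ζ → σ c = c) :
    FixZ A ζ (algebraMap Kb (LaurentSeries Kb) c * X) := (fixZ_const hc).mul hX

theorem FixZ.twist {X : LaurentSeries Kb} (hX : FixZ A ζ X) (k : ℕ) :
    FixZ A ζ (twistL (ζ ^ k) X) := fun σ hσ hζ => by
  rw [helper87.coeffMap_twistL, hX σ hσ hζ]
  congr 1
  show σ (ζ ^ k) = ζ ^ k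
  rw [map_pow, hζ]

theorem FixZ.coeff {X : LaurentSeries Kb} (hX : FixZ A ζ X) (n : ℤ) :
    ∀ σ ∈ A.inertiaSubgroupIn ℚ, σ ζ = ζ → σ (X.coeff n) = X.coeff n := fun σ hσ hζ => by
  have h := congrArg (fun Z : LaurentSeries Kb => Z.coeff n) (hX σ hσ hζ)
  exact h

theorem fixZ_one_sub (ζ : Kb) : ∀ σ ∈ A.inertiaSubgroupIn ℚ, σ ζ = ζ → σ (1 - ζ) = 1 - ζ :=
  fun σ _ h => by rw [map_sub, map_one, h]

/-! ### Quotients of integral fixed series -/

/-- `g` is a quotient of integral series with coefficients fixed by `I ∩ G_{ℚ(ζ)}`, the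
denominator having nonzero reduction -/
def HQ (A : ValuationSubring Kb) (ζ : Kb) (g : LaurentSeries Kb) : Prop :=
  ∃ Y₁ Y₂ : LaurentSeries A, red A Y₂ ≠ 0 ∧ FixZ A ζ (incl A Y₁) ∧ FixZ A ζ (incl A Y₂) ∧
    incl A Y₁ = g * incl A Y₂

theorem hq_incl {Y : LaurentSeries A} (h : FixZ A ζ (incl A Y)) : HQ A ζ (incl A Y) :=
  ⟨Y, 1, by rw [map_one]; exact one_ne_zero, h, by rw [map_one]; exact fixZ_one,
    by rw [map_one, mul_one]⟩

theorem hq_zero : HQ A ζ 0 := by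
  have := hq_incl (A := A) (ζ := ζ) (Y := 0) (by rw [map_zero]; exact fixZ_zero)
  rwa [map_zero] at this

theorem hq_one : HQ A ζ 1 := by
  have := hq_incl (A := A) (ζ := ζ) (Y := 1) (by rw [map_one]; exact fixZ_one)
  rwa [map_one] at this

theorem HQ.add {f g : LaurentSeries Kb} (hf : HQ A ζ f) (hg : HQ A ζ g) : HQ A ζ (f + g) := by
  obtain ⟨Y₁, Y₂, h2, f1, f2, h3⟩ := hf
  obtain ⟨Z₁, Z₂, k2, g1, g2, k3⟩ := hg
  refine ⟨Y₁ * Z₂ + Z₁ * Y₂, Y₂ * Z₂, ?_, ?_, ?_, ?_⟩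
  · rw [map_mul]; exact mul_ne_zero h2 k2
  · rw [map_add, map_mul, map_mul]; exact (f1.mul g2).add (g1.mul f2)
  · rw [map_mul]; exact f2.mul g2
  · rw [map_add, map_mul, map_mul, map_mul, h3, k3]; ring

theorem HQ.mul {f g : LaurentSeries Kb} (hf : HQ A ζ f) (hg : HQ A ζ g) : HQ A ζ (f * g) := by
  obtain ⟨Y₁, Y₂, h2, f1, f2, h3⟩ := hf
  obtain ⟨Z₁, Z₂, k2, g1, g2, k3⟩ := hg
  refine ⟨Y₁ * Z₁, Y₂ * Z₂, ?_, ?_, ?_, ?_⟩
  · rw [map_mul]; exact mul_ne_zero h2 k2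
  · rw [map_mul]; exact f1.mul g1
  · rw [map_mul]; exact f2.mul g2
  · rw [map_mul, map_mul, h3, k3]; ring

theorem HQ.pow {f : LaurentSeries Kb} (hf : HQ A ζ f) (n : ℕ) : HQ A ζ (f ^ n) := by
  induction n with
  | zero => rw [pow_zero]; exact hq_one
  | succ n ih => rw [pow_succ]; exact ih.mul hf

theorem HQ.sum {ι : Type*} (s : Finset ι) {f : ι → LaurentSeries Kb}
    (h : ∀ i ∈ s, HQ A ζ (f i)) : HQ A ζ (∑ i ∈ s, f i) := by
  classical
  induction s using Finset.induction_on with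
  | empty => rw [Finset.sum_empty]; exact hq_zero
  | insert a s ha ih =>
    rw [Finset.sum_insert ha]
    exact (h a (Finset.mem_insert_self a s)).add
      (ih fun i hi => h i (Finset.mem_insert_of_mem hi))

theorem hq_natCast (n : ℕ) : HQ A ζ (n : LaurentSeries Kb) := by
  have := hq_incl (A := A) (ζ := ζ) (Y := (n : LaurentSeries A))
    (by rw [map_natCast]; exact fixZ_natCast n)
  rwa [map_natCast] at this

/-! ### Discreteness -/

section Disc

variable {q : ℕ} (hq : q.Prime) (hA : A.LiesOverPrime q) (hζ : IsPrimitiveRoot ζ q)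

include hq hA hζ in
/-- a nonzero element of `A` fixed by `I ∩ G_{ℚ(ζ)}` has the valuation of a natural power of
`1 - ζ` -/
theorem exists_nat_pow_of_fix {x : Kb} (hx : x ≠ 0) (hxA : x ∈ A)
    (hfix : ∀ σ ∈ A.inertiaSubgroupIn ℚ, σ ζ = ζ → σ x = x) :
    ∃ e : ℕ, A.valuation x = A.valuation (1 - ζ) ^ e := by
  obtain ⟨m, hm⟩ := helper84.k0_disc_zeta hq A hA hζ hx hfix
  have hπ1 : A.valuation (1 - ζ) < 1 := helper84.k0_zeta_val_lt hq A hA hζ
  have hπ0 : A.valuation (1 - ζ) ≠ 0 := helper84.k0_zeta_val_ne_zero hq A hζ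
  have hle : A.valuation x ≤ 1 := (A.valuation_le_one_iff x).2 hxA
  rw [map_zpow₀] at hm
  obtain ⟨e, rfl | rfl⟩ := m.eq_nat_or_neg
  · exact ⟨e, by rw [hm, zpow_natCast]⟩
  · rcases Nat.eq_zero_or_pos e with rfl | he
    · exact ⟨0, by rw [hm]; simp⟩
    · exfalso
      rw [zpow_neg, zpow_natCast] at hm
      have h1 : A.valuation (1 - ζ) ^ e < 1 := pow_lt_one₀ zero_le hπ1 he.ne'
      have h2 : 1 < (A.valuation (1 - ζ) ^ e)⁻¹ :=
        (one_lt_inv₀ (zero_lt_iff.2 (pow_ne_zero _ hπ0))).2 h1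
      rw [← hm] at h2
      exact absurd hle (not_le.2 h2)

include hq hA hζ in
/-- **Discreteness**: a nonzero integral series with coefficients fixed by `I ∩ G_{ℚ(ζ)}` is a
power of `1 - ζ` times such a series with nonzero reduction. -/
theorem exists_unit_scaling {Y : LaurentSeries A} (hY0 : Y ≠ 0) (hfix : FixZ A ζ (incl A Y)) :
    ∃ (e : ℕ) (Y' : LaurentSeries A), red A Y' ≠ 0 ∧ FixZ A ζ (incl A Y') ∧
      incl A Y = algebraMap Kb (LaurentSeries Kb) ((1 - ζ) ^ e) * incl A Y' := by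
  classical
  have hπ1 : A.valuation (1 - ζ) < 1 := helper84.k0_zeta_val_lt hq A hA hζ
  have hπ0 : A.valuation (1 - ζ) ≠ 0 := helper84.k0_zeta_val_ne_zero hq A hζ
  have hπne : (1 - ζ : Kb) ≠ 0 := (Valuation.ne_zero_iff _).1 hπ0
  have hcoe : ∀ n, (incl A Y).coeff n = ((Y.coeff n : A) : Kb) := fun n => rfl
  have key : ∀ n, Y.coeff n ≠ 0 →
      ∃ e : ℕ, A.valuation ((Y.coeff n : A) : Kb) = A.valuation (1 - ζ) ^ e := by
    intro n hn
    have hx : ((Y.coeff n : A) : Kb) ≠ 0 := fun h => hn (Subtype.ext h)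
    exact exists_nat_pow_of_fix hq hA hζ hx (Y.coeff n).2 (fun σ hσ hσζ => by
      have := hfix.coeff n σ hσ hσζ
      rwa [hcoe] at this)
  obtain ⟨n₁, hn₁⟩ : ∃ n, Y.coeff n ≠ 0 := by
    by_contra hcon
    apply hY0
    refine HahnSeries.ext (funext fun n => ?_)
    by_contra hn
    exact hcon ⟨n, hn⟩
  have hP : ∃ e : ℕ, ∃ n, Y.coeff n ≠ 0 ∧
      A.valuation ((Y.coeff n : A) : Kb) = A.valuation (1 - ζ) ^ e := by
    obtain ⟨e, he⟩ := key n₁ hn₁
    exact ⟨e, n₁, hn₁, he⟩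
  obtain ⟨n₀, hn₀, hv₀⟩ := Nat.find_spec hP
  set e₀ := Nat.find hP with he₀
  have hmin : ∀ n, Y.coeff n ≠ 0 → ∀ e : ℕ,
      A.valuation ((Y.coeff n : A) : Kb) = A.valuation (1 - ζ) ^ e → e₀ ≤ e :=
    fun n hn e he => Nat.find_min' hP ⟨n, hn, he⟩
  set c : Kb := ((1 - ζ) ^ e₀)⁻¹ with hc
  have hcv : A.valuation c = (A.valuation (1 - ζ) ^ e₀)⁻¹ := by rw [hc, map_inv₀, map_pow]
  have hX : ∀ n, (algebraMap Kb (LaurentSeries Kb) c * incl A Y).coeff n ∈ A := by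
    intro n
    rw [coeff_const_mul, hcoe]
    by_cases hn : Y.coeff n = 0
    · rw [hn]
      simp
    · obtain ⟨e, he⟩ := key n hn
      have hle := hmin n hn e he
      rw [← A.valuation_le_one_iff, map_mul, hcv, he]
      have h1 : A.valuation (1 - ζ) ^ e ≤ A.valuation (1 - ζ) ^ e₀ :=
        pow_le_pow_right_of_le_one' hπ1.le hle
      calc (A.valuation (1 - ζ) ^ e₀)⁻¹ * A.valuation (1 - ζ) ^ e
          ≤ (A.valuation (1 - ζ) ^ e₀)⁻¹ * A.valuation (1 - ζ) ^ e₀ :=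
            mul_le_mul' le_rfl h1
        _ = 1 := inv_mul_cancel₀ (pow_ne_zero _ hπ0)
  have hincl : incl A (liftA _ hX) = algebraMap Kb (LaurentSeries Kb) c * incl A Y :=
    coeffMap_subtype_liftA _ hX
  refine ⟨e₀, liftA _ hX, ?_, ?_, ?_⟩
  · intro h0
    have h1 := congrArg (fun Z : LaurentSeries (kA A) => Z.coeff n₀) h0
    have h2 : IsLocalRing.residue A ((liftA _ hX).coeff n₀) = 0 := h1
    rw [IsLocalRing.residue_eq_zero_iff] at h2
    have h3 : A.valuation (((liftA _ hX).coeff n₀ : A) : Kb) < 1 :=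
      (A.valuation_lt_one_iff _).1 h2
    have h4 : (((liftA _ hX).coeff n₀ : A) : Kb) = c * ((Y.coeff n₀ : A) : Kb) := by
      show (algebraMap Kb (LaurentSeries Kb) c * incl A Y).coeff n₀ = _
      rw [coeff_const_mul, hcoe]
    rw [h4, map_mul, hcv, hv₀, inv_mul_cancel₀ (pow_ne_zero _ hπ0)] at h3
    exact lt_irrefl _ h3
  · rw [hincl]
    exact hfix.const_mul (fun σ hσ hσζ => by
      rw [hc, map_inv₀, map_pow, fixZ_one_sub ζ σ hσ hσζ])
  · rw [hincl, ← mul_assoc, ← map_mul, hc, mul_inv_cancel₀ (pow_ne_zero _ hπne), map_one,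
      one_mul]

include hq hA hζ in
/-- **the Gauss value of a nonzero quotient of fixed integral series is a natural power of
`1 - ζ`** -/
theorem HQ.gaussIs {g : LaurentSeries Kb} (hg : HQ A ζ g) (hg0 : g ≠ 0) :
    ∃ e : ℕ, GaussIs A g ((1 - ζ) ^ e) := by
  obtain ⟨Y₁, Y₂, h2, f1, f2, h3⟩ := hg
  have hπ0 : A.valuation (1 - ζ) ≠ 0 := helper84.k0_zeta_val_ne_zero hq A hζ
  have hπne : (1 - ζ : Kb) ≠ 0 := (Valuation.ne_zero_iff _).1 hπ0
  have hY₂ : incl A Y₂ ≠ 0 := Fermat.Agent.T2.helper36.incl_ne_zero_of_red_ne_zero h2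
  have hY₁ : Y₁ ≠ 0 := by
    rintro rfl
    rw [map_zero] at h3
    exact (mul_ne_zero hg0 hY₂) h3.symm
  obtain ⟨e, Y', r, -, e'⟩ := exists_unit_scaling hq hA hζ hY₁ f1
  refine ⟨e, gaussIs_of_scaling (pow_ne_zero _ hπne) r h2 ?_⟩
  rw [← e', h3]

end Disc

/-! ### The middle cusps -/

section Mid

variable {N q : ℕ} [NeZero N] [NeZero q] {hq : q.Prime} {hqN : ¬ q ∣ N}

open Fermat.Agent.T2.helper36 (elJ coe_elJ atkinLehner atkinLehner_arithmeticRingAut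
  incl_jqModC_val)
open Fermat.Agent.T2.helper87 (twistL_mul twistL_zero twistL_single)

/-- `j` is fixed by the arithmetic Galois action -/
theorem galF_elJ (M : ℕ) [NeZero M] (σ : Kb ≃ₐ[ℚ] Kb) :
    galF (M * q) σ (elJ M q) = elJ M q := by
  apply Subtype.ext
  rw [coe_galF, coe_elJ]
  exact coeffMap_jqModC _

/-- **`I`-fixed Frobenius coordinates**: an `I`-fixed function of level `M q` (`q ∣ M`) is
`∑ β(a_i) j^i` with `I`-fixed `a_i` of level `M`. -/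
theorem exists_repr_fix (hq : q.Prime) {M : ℕ} [NeZero M] (hqM : q ∣ M) {f : FF (M * q)}
    (hfix : IsFixI A (M * q) f) :
    ∃ a : Fin q → FF M, (∀ i, IsFixI A M (a i)) ∧
      f = ∑ i, heckeBetaBar Kb M q (a i) * elJ M q ^ (i : ℕ) := by
  obtain ⟨a, ha⟩ := helper36.exists_repr_frobBas hq hqM f
  refine ⟨a, fun i σ hσ => ?_, ha⟩
  letI := algebraAlong (heckeBetaBar Kb M q)
  have hli := helper36.frobBas_linearIndependent (M := M) (q := q)
  rw [Fintype.linearIndependent_iff] at hli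
  have e1 : galF (M * q) σ f = f := hfix σ hσ
  have e2 : galF (M * q) σ f
      = ∑ i, heckeBetaBar Kb M q (galF M σ (a i)) * elJ M q ^ (i : ℕ) := by
    conv_lhs => rw [ha]
    rw [map_sum]
    refine Finset.sum_congr rfl fun i _ => ?_
    rw [map_mul, map_pow, galF_elJ]
    congr 1
    exact helper87.arithmeticRingAut_heckeBetaBar M σ (a i)
  have h0 : ∑ i, (galF M σ (a i) - a i) • (elJ M q ^ (i : ℕ)) = 0 := by
    have hterm : ∀ i : Fin q, (galF M σ (a i) - a i) • (elJ M q ^ (i : ℕ))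
        = heckeBetaBar Kb M q (galF M σ (a i)) * elJ M q ^ (i : ℕ)
          - heckeBetaBar Kb M q (a i) * elJ M q ^ (i : ℕ) := by
      intro i
      show heckeBetaBar Kb M q (galF M σ (a i) - a i) * _ = _
      rw [map_sub, sub_mul]
    rw [Finset.sum_congr rfl fun i _ => hterm i, Finset.sum_sub_distrib, ← e2, ← ha, e1,
      sub_self]
  exact sub_eq_zero.mp (hli _ h0 i)

theorem embMid_elJ {ζ : Kb} (hζ : IsPrimitiveRoot ζ q) (k : Fin q) (hk : (k : ℕ) ≠ 0) :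
    helper87.embMid N q hq hqN hζ k hk (elJ (N * q) q) = jqModC Kb := by
  have h := helper87.embMid_alpha (N := N) (hq := hq) (hqN := hqN) hζ k hk
    (Fermat.Agent.S24.xJ (N * q))
  rw [Fermat.Agent.P2.helper81.coe_xJ_eq] at h
  exact h

theorem twistL_algebraMap (c a : Kb) :
    twistL c (algebraMap Kb (LaurentSeries Kb) a) = algebraMap Kb (LaurentSeries Kb) a := by
  rw [algebraMap_laurentSeries_eq_single, twistL_single, zpow_zero, one_mul]

/-- the expansion at `∞` of an `I`-fixed function of level `N q`, twisted by `ζ ^ k` and divided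
by a suitable power of `q`, is a quotient of fixed integral series. -/
theorem exists_hq_twist (hq : q.Prime) (hqN : ¬ q ∣ N) (hA : A.LiesOverPrime q)
    (hζ : IsPrimitiveRoot ζ q) (k : ℕ) (b : FF (N * q)) (hb : IsFixI A (N * q) b) :
    ∃ m : ℤ, HQ A ζ (algebraMap Kb (LaurentSeries Kb) (((q : Kb)) ^ m)⁻¹
      * twistL (ζ ^ k) (b : LaurentSeries Kb)) := by
  by_cases hb0 : b = 0
  · refine ⟨0, ?_⟩
    rw [hb0]
    have : ((0 : FF (N * q)) : LaurentSeries Kb) = 0 := rfl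
    rw [this, twistL_zero, mul_zero]
    exact hq_zero
  obtain ⟨m, Z₁, Z₂, g₁, g₂, e, f₁, f₂⟩ :=
    scale_fixI_infty hq hA (Fermat.Agent.T2.helper36.scaleStatement_bad hq hqN A hA) hb0 hb
  obtain ⟨Z₁', i₁, r₁⟩ := helper98.exists_model_twist A hq hA hζ.pow_eq_one k _ Z₁ rfl
  obtain ⟨Z₂', i₂, r₂⟩ := helper98.exists_model_twist A hq hA hζ.pow_eq_one k _ Z₂ rfl
  have hζk : ζ ^ k ≠ 0 := pow_ne_zero _ (hζ.ne_zero hq.ne_zero)
  have hq0 : ((q : Kb)) ^ m ≠ 0 := zpow_ne_zero _ (Nat.cast_ne_zero.mpr hq.ne_zero)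
  have e' := congrArg (twistL (ζ ^ k)) e
  rw [twistL_mul hζk, twistL_mul hζk, twistL_algebraMap, ← i₁, ← i₂] at e'
  refine ⟨m, Z₁', Z₂', by rw [r₂]; exact g₂.2.2, ?_, ?_, ?_⟩
  · rw [i₁]
    exact (fixZ_of_fixI f₁).twist k
  · rw [i₂]
    exact (fixZ_of_fixI f₂).twist k
  · rw [mul_assoc, ← e', ← mul_assoc, ← map_mul, inv_mul_cancel₀ hq0, map_one, one_mul]

/-- **[G3-B] at one middle cusp**: the Gauss value of the expansion of a nonzero `I`-fixed
function at a middle cusp exists and is an integral power of `1 - ζ`. -/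
theorem gaussIs_mid (hq : q.Prime) (hqN : ¬ q ∣ N) (hA : A.LiesOverPrime q)
    (hζ : IsPrimitiveRoot ζ q) (k : Fin q) (hk : (k : ℕ) ≠ 0) {f : FF (N * q * q)}
    (hf0 : f ≠ 0) (hfix : IsFixI A (N * q * q) f) :
    ∃ m : ℤ, GaussIs A (helper87.embMid N q hq hqN hζ k hk f) ((1 - ζ) ^ m) := by
  classical
  obtain ⟨a, ha_fix, ha⟩ := exists_repr_fix (A := A) hq (Dvd.intro_left N rfl) hfix
  have hE : helper87.embMid N q hq hqN hζ k hk f
      = ∑ i : Fin q, twistL (ζ ^ (k : ℕ))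
          ((atkinLehner N q hq hqN (a i) : FF (N * q)) : LaurentSeries Kb)
          * jqModC Kb ^ (i : ℕ) := by
    conv_lhs => rw [ha]
    rw [map_sum]
    refine Finset.sum_congr rfl fun i _ => ?_
    rw [map_mul, map_pow, helper87.embMid_beta, embMid_elJ]
  have hW : ∀ i, IsFixI A (N * q) (atkinLehner N q hq hqN (a i)) := fun i σ hσ => by
    rw [← atkinLehner_arithmeticRingAut, ha_fix i σ hσ]
  choose m hm using fun i => exists_hq_twist hq hqN hA hζ (k : ℕ) _ (hW i)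
  obtain ⟨m₀, hm₀⟩ : ∃ m₀ : ℤ, ∀ i, m₀ ≤ m i := by
    obtain ⟨M, hM⟩ := Finset.exists_le (Finset.univ.image fun i => -m i)
    refine ⟨-M, fun i => ?_⟩
    have := hM _ (Finset.mem_image_of_mem (fun i => -m i) (Finset.mem_univ i))
    linarith
  have hq0 : (q : Kb) ≠ 0 := Nat.cast_ne_zero.mpr hq.ne_zero
  have hπ0 : A.valuation (1 - ζ) ≠ 0 := helper84.k0_zeta_val_ne_zero hq A hζ
  have hπne : (1 - ζ : Kb) ≠ 0 := (Valuation.ne_zero_iff _).1 hπ0
  have hJ : HQ A ζ (jqModC Kb) := by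
    have := hq_incl (A := A) (ζ := ζ) (Y := jqModC A)
      (by rw [incl_jqModC_val]; exact fixZ_of_fixI fun σ _ => coeffMap_jqModC _)
    rwa [incl_jqModC_val] at this
  have hsum : HQ A ζ (algebraMap Kb (LaurentSeries Kb) ((q : Kb) ^ m₀)⁻¹
      * helper87.embMid N q hq hqN hζ k hk f) := by
    rw [hE, Finset.mul_sum]
    refine HQ.sum _ fun i _ => ?_
    have e2 : ((q : Kb) ^ m₀)⁻¹ = (q : Kb) ^ ((m i - m₀).toNat) * ((q : Kb) ^ (m i))⁻¹ := by
      have h3 : ((m i - m₀).toNat : ℤ) = m i - m₀ :=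
        Int.toNat_of_nonneg (sub_nonneg.mpr (hm₀ i))
      rw [← zpow_natCast, h3, zpow_sub₀ hq0]
      field_simp
    have e1 : algebraMap Kb (LaurentSeries Kb) ((q : Kb) ^ m₀)⁻¹
          * (twistL (ζ ^ (k : ℕ))
              ((atkinLehner N q hq hqN (a i) : FF (N * q)) : LaurentSeries Kb)
            * jqModC Kb ^ (i : ℕ))
        = ((q : ℕ) : LaurentSeries Kb) ^ (m i - m₀).toNat
          * (algebraMap Kb (LaurentSeries Kb) ((q : Kb) ^ (m i))⁻¹
            * twistL (ζ ^ (k : ℕ))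
              ((atkinLehner N q hq hqN (a i) : FF (N * q)) : LaurentSeries Kb))
          * jqModC Kb ^ (i : ℕ) := by
      rw [e2, map_mul, map_pow, map_natCast]
      ring
    rw [e1]
    exact (((hq_natCast q).pow _).mul (hm i)).mul (hJ.pow _)
  have hne : algebraMap Kb (LaurentSeries Kb) ((q : Kb) ^ m₀)⁻¹
      * helper87.embMid N q hq hqN hζ k hk f ≠ 0 :=
    mul_ne_zero ((map_ne_zero _).mpr (inv_ne_zero (zpow_ne_zero _ hq0)))
      ((map_ne_zero _).mpr hf0)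
  obtain ⟨e, he⟩ := hsum.gaussIs hq hA hζ hne
  have h1 : GaussIs A (helper87.embMid N q hq hqN hζ k hk f) ((q : Kb) ^ m₀ * (1 - ζ) ^ e) := by
    have := he.const_mul (d := (q : Kb) ^ m₀) (zpow_ne_zero _ hq0)
    rwa [← mul_assoc, ← map_mul, mul_inv_cancel₀ (zpow_ne_zero _ hq0), map_one, one_mul] at this
  refine ⟨((q - 1 : ℕ) : ℤ) * m₀ + (e : ℤ), h1.congr_val (zpow_ne_zero _ hπne) ?_⟩
  rw [map_mul, map_zpow₀, map_pow, map_zpow₀, ← helper84.k0_zeta_val hq A hζ, zpow_add₀ hπ0,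
    zpow_mul, zpow_natCast, zpow_natCast]

/-- **[G3-B] + [G3-C] at the middle cusps**: all the middle expansions of a nonzero `I`-fixed
function have the same Gauss value `(1 - ζ) ^ m`, `m : ℤ`. -/
theorem gaussIs_mid_all (hq : q.Prime) (hqN : ¬ q ∣ N) (hA : A.LiesOverPrime q)
    (hζ : IsPrimitiveRoot ζ q) {f : FF (N * q * q)} (hf0 : f ≠ 0)
    (hfix : IsFixI A (N * q * q) f) :
    ∃ m : ℤ, ∀ (k : Fin q) (hk : (k : ℕ) ≠ 0),
      GaussIs A (helper87.embMid N q hq hqN hζ k hk f) ((1 - ζ) ^ m) := by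
  have _ : Algebra.IsAlgebraic ℚ Kb := AlgebraicClosure.isAlgebraic ℚ
  obtain ⟨m, hm⟩ := gaussIs_mid hq hqN hA hζ (helper74.midOne q hq) (helper74.midOne_ne q hq)
    hf0 hfix
  refine ⟨m, fun k hk => ?_⟩
  obtain ⟨σ, hσ, hσg⟩ := helper98.exists_inertia_embMid (N := N) (hq := hq) (hqN := hqN) hA hζ
    (helper74.midOne q hq) (helper74.midOne_ne q hq) k hk
  obtain ⟨hc, r, hr, hR⟩ := hm
  have hR' := helper98.rhoQ_gal hσ hR
  rw [map_mul, coeffMap_algebraMap, hσg f hfix] at hR'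
  have hσD : σ ∈ A.decompositionSubgroup ℚ := (decK_eq_id_of_mem_inertia hσ).choose
  have G : GaussIs A (helper87.embMid N q hq hqN hζ k hk f) (σ ((1 - ζ) ^ m)) :=
    ⟨(map_ne_zero _).mpr hc, r, hr, by rwa [map_inv₀] at hR'⟩
  exact G.congr_val hc
    (Fermat.Agent.S05.helper92.valuation_apply_of_mem_decompositionSubgroup hσD _)

/-- **[G3-B]** for `ex3 hζ 2`. -/
theorem gaussIs_ex3_two (hA : A.LiesOverPrime q) (hζ : IsPrimitiveRoot ζ q)
    {f : FF (N * q * q)} (hf0 : f ≠ 0) (hfix : IsFixI A (N * q * q) f) :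
    ∃ m : ℤ, GaussIs A (ex3 N q hq hqN hζ 2 f) ((1 - ζ) ^ m) := by
  rw [ex3_two_apply]
  exact gaussIs_mid hq hqN hA hζ _ _ hf0 hfix

/-- **the three Gauss values of an `I`-fixed function** exist, in `ℤ v(q)`, `ℤ v(q)` and
`ℤ v(1 - ζ)`. -/
theorem gaussIs_ex3_all (hA : A.LiesOverPrime q) (hζ : IsPrimitiveRoot ζ q)
    {f : FF (N * q * q)} (hf0 : f ≠ 0) (hfix : IsFixI A (N * q * q) f) :
    ∃ m₀ m₁ m₂ : ℤ, GaussIs A (ex3 N q hq hqN hζ 0 f) ((q : Kb) ^ m₀) ∧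
      GaussIs A (ex3 N q hq hqN hζ 1 f) ((q : Kb) ^ m₁) ∧
      GaussIs A (ex3 N q hq hqN hζ 2 f) ((1 - ζ) ^ m₂) := by
  obtain ⟨m₀, h₀⟩ := gaussIs_ex3_zero (hq := hq) (hqN := hqN) hA hζ hf0 hfix
  obtain ⟨m₁, h₁⟩ := gaussIs_ex3_one (hq := hq) (hqN := hqN) hA hζ hf0 hfix
  obtain ⟨m₂, h₂⟩ := gaussIs_ex3_two (hq := hq) (hqN := hqN) hA hζ hf0 hfix
  exact ⟨m₀, m₁, m₂, h₀, h₁, h₂⟩

end Mid

end Fermat.Agent.T3.helper5

end
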