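import Mathlib
import Fermat.Agent.S24.helper77_SymmFun
import Fermat.Agent.S24.helper17_QExp
import Fermat.Agent.P2.helper66_HauptJ
import Fermat.Agent.T2.helper36_AtkinLehner
import Fermat.Agent.S18.helper19_Wiring

/-!
# T3 / [T3-UNIT] (helper16): INTERFACE of the keystone weight-one modular unit

`lam4 τ = η(2τ)¹⁰ / (η(τ)⁴ η(4τ)⁴)` (level `4`, character `χ₋₄`) and
`lam9 τ = η(τ)³ / η(3τ)` (level `9`, character `χ₋₃`) are nowhere vanishing holomorphic
weight-one forms; `b₀(τ) = lam(τ) / lam(q τ)` is a modular unit of level `N q`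
(`4 ∣ N` or `9 ∣ N`, `q ∤ N` prime) with
* `q`-expansion in `1 + t ℤ[[t]]`,
* `W_q b₀ = ± q / b₀`,
* `b₀` and `b₀⁻¹` integral over `ℚ̄[j]` (divisor supported on the cusps).

This file contains only definitions and `Prop`s:
* `WtOneLaw N0 χ lam` : the weight-one transformation law with character on `Γ₀(N0)`;
* `Law4Statement`, `Law9Statement` : the two laws (packages [UNIT-LAW4], [UNIT-LAW9]);
* `IsWtOneUnit N0 lam` : the abstract input of the generic part;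
* `UnitStatement N q hq hqN` : the consumer statement.
-/

set_option autoImplicit false

noncomputable section

open UpperHalfPlane ModularForm CongruenceSubgroup ModularCurve AlgebraicCurve
open scoped MatrixGroups Manifold

namespace Fermat.Agent.T3.helper16

open Fermat.Agent.S24 Fermat.Agent.S24.helper17 Fermat.Agent.S24.helper77
open Fermat.Agent.S18.helper19

/-- The weight-one transformation law with character `χ` (a function of the lower right entry)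
on `Γ₀(N0)`: `lam (γ τ) = χ(d) (c τ + d) lam τ`. -/
def WtOneLaw (N0 : ℕ) (χ : ℤ → ℂ) (lam : ℍ → ℂ) : Prop :=
  ∀ γ ∈ Gamma0 N0, ∀ τ : ℍ,
    lam (γ • τ) = χ (γ 1 1) * (((γ 1 0 : ℤ) : ℂ) * (τ : ℂ) + ((γ 1 1 : ℤ) : ℂ)) * lam τ

/-- `χ₋₄` as a function on `ℤ`. -/
def chi4 (d : ℤ) : ℂ := if d % 4 = 1 then 1 else if d % 4 = 3 then -1 else 0

/-- `χ₋₃` as a function on `ℤ`. -/
def chi3 (d : ℤ) : ℂ := if d % 3 = 1 then 1 else if d % 3 = 2 then -1 else 0

/-- `η(2τ)¹⁰ / (η(τ)⁴ η(4τ)⁴)` (`= θ(2τ)²`; the identity is never used). -/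
def lam4 (τ : ℍ) : ℂ :=
  ModularForm.eta (2 * (τ : ℂ)) ^ 10 /
    (ModularForm.eta (τ : ℂ) ^ 4 * ModularForm.eta (4 * (τ : ℂ)) ^ 4)

/-- `η(τ)³ / η(3τ)`. -/
def lam9 (τ : ℍ) : ℂ := ModularForm.eta (τ : ℂ) ^ 3 / ModularForm.eta (3 * (τ : ℂ))

/-- **[UNIT-LAW4]** `lam4` has weight one and character `χ₋₄` on `Γ₀(4)`. -/
def Law4Statement : Prop := WtOneLaw 4 chi4 lam4

/-- **[UNIT-LAW9]** `lam9` has weight one and character `χ₋₃` on `Γ₀(9)`. -/
def Law9Statement : Prop := WtOneLaw 9 chi3 lam9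

/-- The abstract input of the generic part: a nowhere vanishing holomorphic weight-one form with
a character with values in `{0, 1, -1}` on `Γ₀(N0)`, of at most exponential growth at all cusps
(together with its inverse), with `q`-expansion in `1 + t ℤ[[t]]`. -/
structure IsWtOneUnit (N0 : ℕ) (lam : ℍ → ℂ) : Prop where
  mdiff : MDiff lam
  ne_zero : ∀ τ, lam τ ≠ 0
  law : ∃ χ : ℤ → ℂ, (∀ d, χ d = 0 ∨ χ d = 1 ∨ χ d = -1) ∧ WtOneLaw N0 χ lam
  growth : ∀ g : SL(2, ℤ), (lam ∣[(1 : ℤ)] g) ∈ holoExp ∧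
    ((fun τ => (lam τ)⁻¹) ∣[(-1 : ℤ)] g) ∈ holoExp
  qexp : ∃ L : PowerSeries ℤ, PowerSeries.constantCoeff L = 1 ∧
    IsQExp (Fermat.Agent.P2.helper66.iota ℂ L) lam

/-- **[T3-UNIT]**, consumer statement at level `N q` (`q ∤ N` prime): there is a function
`b₀ ∈ F_{Nq}` with `q`-expansion `B ∈ 1 + t ℤ[[t]]`, with `W_q b₀ · b₀ = ± q`, such that `b₀` and
`b₀⁻¹` are integral over `ℚ̄[j]`. -/
def UnitStatement (N q : ℕ) [NeZero N] [NeZero q] (hq : q.Prime) (hqN : ¬ q ∣ N) : Prop :=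
  ∃ (B : PowerSeries ℤ) (hB : Fermat.Agent.P2.helper66.iota Kb B ∈ FF (N * q)),
    PowerSeries.constantCoeff B = 1 ∧
    (∃ ε : Kb, (ε = 1 ∨ ε = -1) ∧
      Fermat.Agent.T2.helper36.atkinLehner N q hq hqN ⟨_, hB⟩ * ⟨_, hB⟩ =
        algebraMap Kb (FF (N * q)) (ε * (q : Kb))) ∧
    IsIntegral (Algebra.adjoin Kb {xJ (N * q)}) (⟨_, hB⟩ : FF (N * q)) ∧
    IsIntegral (Algebra.adjoin Kb {xJ (N * q)}) (⟨_, hB⟩ : FF (N * q))⁻¹

end Fermat.Agent.T3.helper16
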