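import Mathlib
import Fermat.Agent.T3.helper16_UnitDefs
import Fermat.Agent.S23.helper35_Slash
import Fermat.Agent.P3.helper48_AN1Ratio

/-!
# T3 / [T3-UNIT] (helper16), generic part 1: the analytic unit `b₀ = lam / lam ∘ (q ·)`

From `IsWtOneUnit N0 lam`, `N0 ∣ N`:
* `unitFun_smul`     : `b₀` is `Γ₀(N q)`-invariant;
* `precomp_unitFun_mem`, `precomp_unitFun_inv_mem` : growth of `b₀`, `b₀⁻¹` at all cusps;
* `exists_qexp_unitFun` : the `q`-expansion of `b₀` is `iota ℂ B`, `B ∈ 1 + t ℤ[[t]]`, and lies in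
  `F_ℂ(N q)`.
-/

set_option autoImplicit false

noncomputable section

open UpperHalfPlane ModularForm CongruenceSubgroup ModularCurve Filter Asymptotics
open scoped MatrixGroups Manifold Topology

namespace Fermat.Agent.T3.helper16

open Fermat.Agent.S24 Fermat.Agent.S24.helper17 Fermat.Agent.S24.helper77
open Fermat.Agent.S23.helper35 (ut hermite_GL slash_ut_apply coe_ut_smul im_ut_smul det_ut_pos
  ut_apply_one_zero)

/-- `b₀ = lam / lam ∘ (q ·)`. -/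
def unitFun (lam : ℍ → ℂ) (q : ℕ) [NeZero q] (τ : ℍ) : ℂ := lam τ / lam (scaleH q τ)

/-! ### Invariance -/

theorem unitFun_smul {N0 : ℕ} {χ : ℤ → ℂ} {lam : ℍ → ℂ} (hlaw : WtOneLaw N0 χ lam)
    (hne : ∀ τ, lam τ ≠ 0) {N q : ℕ} [NeZero q] (hN0 : N0 ∣ N) {γ : SL(2, ℤ)}
    (hγ : γ ∈ Gamma0 (N * q)) (τ : ℍ) : unitFun lam q (γ • τ) = unitFun lam q τ := by
  have hγ' := hγ
  rw [CongruenceSubgroup.Gamma0_mem, ZMod.intCast_zmod_eq_zero_iff_dvd] at hγ'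
  obtain ⟨c', hc'⟩ := hγ'
  have hdet : γ 0 0 * γ 1 1 - γ 0 1 * γ 1 0 = 1 := by
    have := γ.det_coe
    rwa [Matrix.det_fin_two] at this
  let γ' : SL(2, ℤ) := ⟨!![γ 0 0, q * γ 0 1; N * c', γ 1 1], by
    rw [Matrix.det_fin_two_of]; rw [hc'] at hdet; push_cast at hdet; linear_combination hdet⟩
  have e00 : (γ' 0 0 : ℤ) = γ 0 0 := rfl
  have e01 : (γ' 0 1 : ℤ) = q * γ 0 1 := rfl
  have e10 : (γ' 1 0 : ℤ) = N * c' := rfl
  have e11 : (γ' 1 1 : ℤ) = γ 1 1 := rfl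
  have hc'' : ((γ 1 0 : ℤ) : ℂ) = q * (N * c') := by rw [hc']; push_cast; ring
  have key : scaleH q (γ • τ) = γ' • scaleH q τ := by
    apply UpperHalfPlane.ext
    rw [helper77.coe_scaleH, coe_SL_smul, coe_SL_smul, helper77.coe_scaleH]
    have h1 := SL_denom_ne_zero γ τ
    have h2 := SL_denom_ne_zero γ' (scaleH q τ)
    rw [helper77.coe_scaleH] at h2
    rw [e10, e11] at h2
    rw [e00, e01, e10, e11]
    rw [hc''] at h1 ⊢
    have h3 : (((N : ℤ) * c' : ℤ) : ℂ) * (q * (τ : ℂ)) + (γ 1 1 : ℤ) =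
        q * (N * c') * τ + (γ 1 1 : ℤ) := by push_cast; ring
    rw [h3] at h2 ⊢
    push_cast
    field_simp
  have hmem : γ ∈ Gamma0 N0 := by
    rw [CongruenceSubgroup.Gamma0_mem, ZMod.intCast_zmod_eq_zero_iff_dvd, hc']
    exact Dvd.dvd.mul_right (by exact_mod_cast hN0.mul_right q) c'
  have hmem' : γ' ∈ Gamma0 N0 := by
    rw [CongruenceSubgroup.Gamma0_mem, ZMod.intCast_zmod_eq_zero_iff_dvd, e10]
    exact Dvd.dvd.mul_right (by exact_mod_cast hN0) c'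
  have l1 := hlaw γ hmem τ
  have l2 := hlaw γ' hmem' (scaleH q τ)
  rw [e10, e11, helper77.coe_scaleH] at l2
  have hfac : (((N : ℤ) * c' : ℤ) : ℂ) * (q * (τ : ℂ)) + (γ 1 1 : ℤ) =
      ((γ 1 0 : ℤ) : ℂ) * τ + (γ 1 1 : ℤ) := by
    rw [hc'']; push_cast; ring
  rw [hfac] at l2
  have hne1 := hne (γ • τ)
  rw [l1] at hne1
  have hχ : χ (γ 1 1) * (((γ 1 0 : ℤ) : ℂ) * τ + (γ 1 1 : ℤ)) ≠ 0 := left_ne_zero_of_mul hne1
  unfold unitFun
  rw [key, l1, l2, mul_div_mul_left _ _ hχ]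

theorem precomp_unitFun {N0 : ℕ} {χ : ℤ → ℂ} {lam : ℍ → ℂ} (hlaw : WtOneLaw N0 χ lam)
    (hne : ∀ τ, lam τ ≠ 0) {N q : ℕ} [NeZero q] (hN0 : N0 ∣ N) {γ : SL(2, ℤ)}
    (hγ : γ ∈ Gamma0 (N * q)) : precomp γ (unitFun lam q) = unitFun lam q := by
  funext τ
  rw [precomp_apply]
  exact unitFun_smul hlaw hne hN0 (inv_mem hγ) τ

theorem precomp_unitFun_inv {N0 : ℕ} {χ : ℤ → ℂ} {lam : ℍ → ℂ} (hlaw : WtOneLaw N0 χ lam)
    (hne : ∀ τ, lam τ ≠ 0) {N q : ℕ} [NeZero q] (hN0 : N0 ∣ N) {γ : SL(2, ℤ)}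
    (hγ : γ ∈ Gamma0 (N * q)) :
    precomp γ (fun τ => (unitFun lam q τ)⁻¹) = fun τ => (unitFun lam q τ)⁻¹ := by
  funext τ
  rw [precomp_apply]
  rw [unitFun_smul hlaw hne hN0 (inv_mem hγ) τ]

/-! ### Growth -/

/-- Composition with an upper triangular matrix preserves `holoExp`. -/
theorem holoExp_comp_ut {s : ℍ → ℂ} (hs : s ∈ holoExp) {A D : ℕ} {B : ℤ} (hA : 0 < A)
    (hD : 0 < D) : (fun τ => s (ut A D B hA hD • τ)) ∈ holoExp := by
  obtain ⟨h1, M, hM⟩ := hs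
  refine ⟨h1.comp (UpperHalfPlane.mdifferentiable_smul (det_ut_pos hA hD)), M * A, ?_⟩
  have h2 := hM.comp_tendsto (tendsto_smul_atImInfty (ut_apply_one_zero (B := B) hA hD))
  refine h2.trans ?_
  refine IsBigO.of_bound 1 (Eventually.of_forall fun τ => ?_)
  simp only [Function.comp_apply]
  rw [one_mul, Real.norm_of_nonneg (Real.exp_pos _).le, Real.norm_of_nonneg (Real.exp_pos _).le,
    im_ut_smul]
  apply Real.exp_le_exp.mpr
  have hτ := τ.im_pos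
  have hDR : (1 : ℝ) ≤ D := by exact_mod_cast hD
  have hA0 : (0 : ℝ) ≤ A := by positivity
  have h3 : (A : ℝ) / D ≤ A := div_le_self hA0 hDR
  have h4 : (A : ℝ) / D * τ.im ≤ A * τ.im := mul_le_mul_of_nonneg_right h3 hτ.le
  have hM0 : (0 : ℝ) ≤ 2 * Real.pi * M := by positivity
  push_cast
  nlinarith [mul_le_mul_of_nonneg_left h4 hM0]

theorem scaleH_eq_ut (q : ℕ) [NeZero q] (τ : ℍ) :
    scaleH q τ = ut q 1 0 (Nat.pos_of_ne_zero (NeZero.ne q)) one_pos • τ := by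
  apply UpperHalfPlane.ext
  rw [coe_ut_smul, helper77.coe_scaleH]
  simp

/-- `f ∘ (q ·) = q ^ (1 - k) • f ∣[k] diag(q, 1)`. -/
theorem comp_scaleH_eq_slash (k : ℤ) (f : ℍ → ℂ) (q : ℕ) [NeZero q] :
    (fun τ => f (scaleH q τ)) =
      ((q : ℂ) ^ (1 - k)) • (f ∣[k] ut q 1 0 (Nat.pos_of_ne_zero (NeZero.ne q)) one_pos) := by
  funext τ
  have hq : (q : ℂ) ≠ 0 := by exact_mod_cast NeZero.ne q
  rw [Pi.smul_apply, slash_ut_apply, ← scaleH_eq_ut, smul_eq_mul]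
  simp only [Nat.cast_one, mul_one, one_zpow]
  rw [mul_comm (f (scaleH q τ)), ← mul_assoc, ← zpow_add₀ hq]
  simp

/-- If all slashes of `f` lie in `holoExp`, so do all slashes of `f ∘ (q ·)`. -/
theorem comp_scaleH_slash_mem (k : ℤ) {f : ℍ → ℂ} (hf : ∀ δ : SL(2, ℤ), f ∣[k] δ ∈ holoExp)
    (q : ℕ) [NeZero q] (h : SL(2, ℤ)) : (fun τ => f (scaleH q τ)) ∣[k] h ∈ holoExp := by
  have hq0 : 0 < q := Nat.pos_of_ne_zero (NeZero.ne q)
  obtain ⟨δ, A, D, B, hA, hD, hAD, -, hmat⟩ := hermite_GL q hq0 h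
  rw [comp_scaleH_eq_slash k f q, SL_smul_slash]
  refine Subalgebra.smul_mem _ ?_ _
  rw [SL_slash, ← SlashAction.slash_mul]
  have e : ut q 1 0 hq0 one_pos * (h : GL (Fin 2) ℝ) =
      (δ : GL (Fin 2) ℝ) * ut A D B hA hD := hmat
  rw [e, SlashAction.slash_mul, ← SL_slash]
  have e2 : (f ∣[k] δ) ∣[k] ut A D B hA hD =
      (((A : ℂ) * D) ^ (k - 1) * (D : ℂ) ^ (-k)) • fun τ => (f ∣[k] δ) (ut A D B hA hD • τ) := by
    funext τ
    rw [slash_ut_apply, Pi.smul_apply, smul_eq_mul]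
    ring
  rw [e2]
  exact Subalgebra.smul_mem _ (holoExp_comp_ut (hf δ) hA hD) _

theorem precomp_eq_slash_zero (g : SL(2, ℤ)) (s : ℍ → ℂ) : precomp g s = s ∣[(0 : ℤ)] g⁻¹ := by
  funext τ
  rw [precomp_apply, SL_slash_apply]
  simp

/-- Growth of `b₀` at all cusps. -/
theorem precomp_unitFun_mem {N0 : ℕ} {lam : ℍ → ℂ} (h : IsWtOneUnit N0 lam) (q : ℕ) [NeZero q]
    (g : SL(2, ℤ)) : precomp g (unitFun lam q) ∈ holoExp := by
  have e : unitFun lam q = lam * (fun τ => (fun τ => (lam τ)⁻¹) (scaleH q τ)) := by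
    funext τ
    simp [unitFun, div_eq_mul_inv]
  have e0 : (0 : ℤ) = 1 + (-1) := by norm_num
  rw [precomp_eq_slash_zero, e, e0, mul_slash_SL2]
  exact mul_mem (h.growth g⁻¹).1
    (comp_scaleH_slash_mem (-1) (fun δ => (h.growth δ).2) q g⁻¹)

/-- Growth of `b₀⁻¹` at all cusps. -/
theorem precomp_unitFun_inv_mem {N0 : ℕ} {lam : ℍ → ℂ} (h : IsWtOneUnit N0 lam) (q : ℕ)
    [NeZero q] (g : SL(2, ℤ)) : precomp g (fun τ => (unitFun lam q τ)⁻¹) ∈ holoExp := by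
  have e : (fun τ => (unitFun lam q τ)⁻¹) =
      (fun τ => (lam τ)⁻¹) * (fun τ => lam (scaleH q τ)) := by
    funext τ
    simp [unitFun, div_eq_mul_inv, mul_comm]
  have e0 : (0 : ℤ) = (-1) + 1 := by norm_num
  rw [precomp_eq_slash_zero, e, e0, mul_slash_SL2]
  exact mul_mem (h.growth g⁻¹).2
    (comp_scaleH_slash_mem 1 (fun δ => (h.growth δ).1) q g⁻¹)

theorem unitFun_ne_zero {lam : ℍ → ℂ} (hne : ∀ τ, lam τ ≠ 0) (q : ℕ) [NeZero q] (τ : ℍ) :
    unitFun lam q τ ≠ 0 :=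
  div_ne_zero (hne _) (hne _)

theorem mdiff_unitFun {N0 : ℕ} {lam : ℍ → ℂ} (h : IsWtOneUnit N0 lam) (q : ℕ) [NeZero q] :
    MDiff (unitFun lam q) := by
  have := precomp_unitFun_mem h q 1
  rw [precomp_one] at this
  exact this.1

/-! ### The `q`-expansion -/

open Fermat.Agent.P2.helper66 (iota iota_ex ex coeff_ex inv1 mul_inv1 coeff_zero_inv1)

/-- The integral power series of `b₀`. -/
def unitSeries (L : PowerSeries ℤ) (q : ℕ) : PowerSeries ℤ := L * inv1 (ex q L)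

theorem coeff_zero_ex {L : PowerSeries ℤ} (hL : PowerSeries.coeff 0 L = 1) (q : ℕ) :
    PowerSeries.coeff 0 (ex q L) = 1 := by
  rw [coeff_ex, if_pos (dvd_zero q), Nat.zero_div, hL]

theorem constantCoeff_unitSeries {L : PowerSeries ℤ} (hL : PowerSeries.constantCoeff L = 1)
    (q : ℕ) : PowerSeries.constantCoeff (unitSeries L q) = 1 := by
  have hL' : PowerSeries.coeff 0 L = 1 := by
    rw [PowerSeries.coeff_zero_eq_constantCoeff_apply, hL]
  have h2 := coeff_zero_inv1 (coeff_zero_ex hL' q)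
  rw [PowerSeries.coeff_zero_eq_constantCoeff_apply] at h2
  rw [unitSeries, map_mul, hL, h2, one_mul]

theorem unitSeries_mul {L : PowerSeries ℤ} (hL : PowerSeries.constantCoeff L = 1) (q : ℕ) :
    unitSeries L q * ex q L = L := by
  have hL' : PowerSeries.coeff 0 L = 1 := by
    rw [PowerSeries.coeff_zero_eq_constantCoeff_apply, hL]
  rw [unitSeries, mul_assoc, mul_comm (inv1 _), mul_inv1 (coeff_zero_ex hL' q), mul_one]

theorem iota_ne_zero_of_coeff {R : Type*} [CommRing R] [Nontrivial R] {P : PowerSeries ℤ}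
    (hP : PowerSeries.constantCoeff P = 1) : iota R P ≠ 0 := by
  intro h0
  have := congrArg (fun x : LaurentSeries R => x.coeff ((0 : ℕ) : ℤ)) h0
  simp only [Fermat.Agent.P2.helper66.coeff_iota_natCast, HahnSeries.coeff_zero] at this
  rw [PowerSeries.coeff_zero_eq_constantCoeff_apply, hP] at this
  simp at this

/-- **The `q`-expansion of `b₀`**: it is `iota ℂ B` with `B = L / L(t^q) ∈ 1 + t ℤ[[t]]`, and it
lies in `F_ℂ(N q)`. -/
theorem isQExp_unitFun {N0 : ℕ} {lam : ℍ → ℂ} (h : IsWtOneUnit N0 lam) {L : PowerSeries ℤ}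
    (hL1 : PowerSeries.constantCoeff L = 1) (hL : IsQExp (iota ℂ L) lam)
    {N q : ℕ} [NeZero N] [NeZero q] (hN0 : N0 ∣ N) :
    IsQExp (iota ℂ (unitSeries L q)) (unitFun lam q) ∧
      iota ℂ (unitSeries L q) ∈ Fermat.Agent.P3.helper48.FC (N * q) := by
  obtain ⟨χ, -, hlaw⟩ := h.law
  haveI : NeZero (N * q) := ⟨Nat.mul_ne_zero (NeZero.ne N) (NeZero.ne q)⟩
  obtain ⟨S, hSmem, hS⟩ := Fermat.Agent.P3.helper48.exists_mem_FC_isQExp (N * q)
    (s := unitFun lam q) (fun γ hγ => precomp_unitFun hlaw h.ne_zero hN0 hγ)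
    (fun g => precomp_unitFun_mem h q g)
  have h1 : IsQExp (qExpand ℂ q (iota ℂ L)) (fun τ => lam (scaleH q τ)) := hL.comp_scale q
  have h2 : IsQExp (S * qExpand ℂ q (iota ℂ L)) lam :=
    (hS.mul h1).congr_right fun τ => by
      simp only [Pi.mul_apply, unitFun]
      exact div_mul_cancel₀ _ (h.ne_zero _)
  have h3 : S * qExpand ℂ q (iota ℂ L) = iota ℂ L := h2.left_unique hL
  rw [← iota_ex] at h3
  have hex : PowerSeries.constantCoeff (ex q L) = 1 := by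
    rw [← PowerSeries.coeff_zero_eq_constantCoeff_apply]
    exact coeff_zero_ex (by rw [PowerSeries.coeff_zero_eq_constantCoeff_apply, hL1]) q
  have h4 : iota ℂ (unitSeries L q) * iota ℂ (ex q L) = iota ℂ L := by
    rw [← map_mul, unitSeries_mul hL1]
  have h5 : S = iota ℂ (unitSeries L q) :=
    mul_right_cancel₀ (iota_ne_zero_of_coeff hex) (h3.trans h4.symm)
  rw [← h5]
  exact ⟨hS, hSmem⟩

end Fermat.Agent.T3.helper16
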