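import Mathlib
import Fermat.Agent.P3.helper48_AN1Ratio
import Fermat.Agent.T2.helper36_AtkinLehner

/-!
# T3 / [T3-UNIT] (helper16), generic part 2: descent from `ℂ` to `ℚ̄`

* `mem_FF_of_toC_mem_FC` : a series `y ∈ ℚ̄((q))` whose image in `ℂ((q))` lies in `F_ℂ(N)` lies in
  `F_ℚ̄(N)`.
* `isIntegral_of_isQExp` : if `y ∈ F_ℚ̄(N)` is the `q`-expansion of a holomorphic
  `Γ₀(N)`-invariant function of exponential growth at all cusps, then `y` is integral over
  `ℚ̄[j]`.
-/

set_option autoImplicit false

noncomputable section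

open UpperHalfPlane ModularCurve IntermediateField MvPolynomial
open scoped MatrixGroups

namespace Fermat.Agent.T3.helper16

open Fermat.Agent.S24 Fermat.Agent.S24.helper17 Fermat.Agent.S24.helper24
  Fermat.Agent.S24.helper77 Fermat.Agent.P3.helper80 Fermat.Agent.T2.helper36

section Descent

variable (N : ℕ) [NeZero N]

/-- The monomial series `∏ J_d ^ m_d`. -/
def monoJ (m : N.divisors →₀ ℕ) : LaurentSeries Kbar :=
  aeval (genJ N) (monomial m (1 : Kbar))

theorem monoJ_mem (m : N.divisors →₀ ℕ) : monoJ N m ∈ modularFunctionFieldBar N := by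
  rw [modularFunctionFieldBar_eq_adjoin]
  have h : Algebra.adjoin Kbar (Set.range (genJ N)) ≤
      (IntermediateField.adjoin Kbar (Set.range (genJ N))).toSubalgebra :=
    IntermediateField.algebra_adjoin_le_adjoin Kbar _
  apply h
  rw [Algebra.adjoin_range_eq_range_aeval]
  exact ⟨_, rfl⟩

omit [NeZero N] in
theorem toC_monoJ (m : N.divisors →₀ ℕ) :
    helper17.toC (monoJ N m) = aeval (genJC N) (monomial m (1 : ℂ)) := by
  rw [monoJ, toC_aeval_genJ, MvPolynomial.map_monomial, map_one]

theorem aeval_genJC_eq_sum (R : MvPolynomial N.divisors ℂ) :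
    aeval (genJC N) R =
      ∑ m ∈ R.support, HahnSeries.C (R.coeff m) * helper17.toC (monoJ N m) := by
  conv_lhs => rw [← MvPolynomial.support_sum_monomial_coeff R]
  rw [map_sum]
  refine Finset.sum_congr rfl fun m _ => ?_
  rw [toC_monoJ, MvPolynomial.aeval_monomial, MvPolynomial.aeval_monomial, map_one, one_mul,
    helper77.algebraMap_eq_C]

/-- **Descent of membership.** -/
theorem mem_FF_of_toC_mem_FC {y : LaurentSeries Kbar}
    (h : helper17.toC y ∈ Fermat.Agent.P3.helper48.FC N) : y ∈ modularFunctionFieldBar N := by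
  rw [Fermat.Agent.P3.helper48.FC_eq_adjoin] at h
  obtain ⟨P, Q, hPQ⟩ := (IntermediateField.mem_adjoin_range_iff ℂ
    (Fermat.Agent.P3.helper48.genC N) _).1 h
  have hgen : Fermat.Agent.P3.helper48.genC N = genJC N := rfl
  rw [hgen] at hPQ
  by_cases hQ : aeval (genJC N) Q = 0
  · rw [hQ, div_zero] at hPQ
    have : y = 0 := helper17.toC_injective (hPQ.trans (map_zero _).symm)
    rw [this]
    exact zero_mem _
  -- a coefficient of `Q(J)` which does not vanish
  obtain ⟨k₀, hk₀⟩ : ∃ k : ℤ, (aeval (genJC N) Q : LaurentSeries ℂ).coeff k ≠ 0 := by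
    by_contra h0
    push Not at h0
    exact hQ (HahnSeries.ext (funext fun k => by rw [h0 k]; rfl))
  obtain ⟨lam, hlam1, hlam⟩ := Fermat.Agent.P3.helper48.exists_functional_at hk₀
  have hrel : aeval (genJC N) Q * helper17.toC y - aeval (genJC N) P = 0 := by
    rw [hPQ, mul_div_cancel₀ _ hQ, sub_self]
  -- the relation as one sum
  have h1 : ∑ i ∈ Q.support.disjSum P.support,
      HahnSeries.C (Sum.elim (fun m => Q.coeff m) (fun m => -P.coeff m) i) *
        coeffMap (iotaC : Kbar →+* ℂ) (Sum.elim (fun m => monoJ N m * y) (fun m => monoJ N m) i)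
        = 0 := by
    rw [Finset.sum_disjSum, ← hrel, aeval_genJC_eq_sum N Q, aeval_genJC_eq_sum N P,
      Finset.sum_mul, sub_eq_add_neg, ← Finset.sum_neg_distrib]
    congr 1
    · refine Finset.sum_congr rfl fun m _ => ?_
      simp only [Sum.elim_inl]
      rw [map_mul, mul_assoc]
      rfl
    · refine Finset.sum_congr rfl fun m _ => ?_
      simp only [Sum.elim_inr]
      rw [map_neg, neg_mul]
      rfl
  have h2 := descent_sum (iotaC : Kbar →+* ℂ) lam hlam _ _ _ h1
  rw [Finset.sum_disjSum] at h2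
  simp only [Sum.elim_inl, Sum.elim_inr] at h2
  set Q' : LaurentSeries Kbar := ∑ m ∈ Q.support, HahnSeries.C (lam (Q.coeff m)) * monoJ N m
    with hQ'
  set P' : LaurentSeries Kbar := ∑ m ∈ P.support, HahnSeries.C (lam (P.coeff m)) * monoJ N m
    with hP'
  have hmemC : ∀ c : Kbar, (HahnSeries.C c : LaurentSeries Kbar) ∈ modularFunctionFieldBar N := by
    intro c
    rw [← helper77.algebraMap_eq_C]
    exact (modularFunctionFieldBar N).algebraMap_mem c
  have hQ'mem : Q' ∈ modularFunctionFieldBar N :=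
    sum_mem fun m _ => mul_mem (hmemC _) (monoJ_mem N m)
  have hP'mem : P' ∈ modularFunctionFieldBar N :=
    sum_mem fun m _ => mul_mem (hmemC _) (monoJ_mem N m)
  have h3 : Q' * y = P' := by
    have e1 : ∑ m ∈ Q.support, HahnSeries.C (lam (Q.coeff m)) * (monoJ N m * y) = Q' * y := by
      rw [hQ', Finset.sum_mul]
      exact Finset.sum_congr rfl fun m _ => (mul_assoc _ _ _).symm
    have e2 : ∑ m ∈ P.support, HahnSeries.C (lam (-P.coeff m)) * monoJ N m = -P' := by
      rw [hP', ← Finset.sum_neg_distrib]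
      refine Finset.sum_congr rfl fun m _ => ?_
      rw [map_neg, map_neg, neg_mul]
    rw [e1, e2] at h2
    exact eq_neg_of_add_eq_zero_left h2 |>.trans (neg_neg _)
  have hQ'0 : Q' ≠ 0 := by
    intro h0
    have hc := congrArg (fun z : LaurentSeries Kbar => z.coeff k₀) h0
    simp only [hQ', HahnSeries.coeff_sum, HahnSeries.C_mul_eq_smul, HahnSeries.coeff_smul,
      smul_eq_mul, HahnSeries.coeff_zero] at hc
    have hc2 : lam ((aeval (genJC N) Q : LaurentSeries ℂ).coeff k₀) =
        ∑ m ∈ Q.support, lam (Q.coeff m) * (monoJ N m).coeff k₀ := by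
      rw [aeval_genJC_eq_sum N Q]
      simp only [HahnSeries.coeff_sum, HahnSeries.C_mul_eq_smul, HahnSeries.coeff_smul,
        smul_eq_mul, map_sum]
      refine Finset.sum_congr rfl fun m _ => ?_
      rw [helper17.toC_coeff]
      exact hlam _ _
    rw [hlam1, hc] at hc2
    exact one_ne_zero hc2
  have h4 : y = P' / Q' := by
    rw [← h3, mul_div_cancel_left₀ _ hQ'0]
  rw [h4]
  exact div_mem hP'mem hQ'mem

/-- **Integrality over `ℚ̄[j]`**: the `q`-expansion of a holomorphic `Γ₀(N)`-invariant function of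
exponential growth at all cusps is integral over `ℚ̄[j]`. -/
theorem isIntegral_of_isQExp {s : ℍ → ℂ} {y : LaurentSeries Kbar}
    (hy : y ∈ modularFunctionFieldBar N) (hS : IsQExp (helper17.toC y) s)
    (hinv : ∀ γ ∈ CongruenceSubgroup.Gamma0 N, precomp γ s = s)
    (hmem : ∀ g : SL(2, ℤ), precomp g s ∈ holoExp) :
    IsIntegral (Algebra.adjoin Kbar {xJ N}) (⟨y, hy⟩ : modularFunctionFieldBar N) := by
  -- the formal relation over `ℂ`
  let fam : Bool → (ℍ → ℂ) := fun b => if b then s else jfun
  let ser : Bool → LaurentSeries ℂ := fun b => if b then helper17.toC y else jqModC ℂ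
  have hq : ∀ i, IsQExp (ser i) (fam i) := by
    intro i
    cases i
    · exact isQExp_jfun
    · exact hS
  have hinv' : ∀ i, ∀ γ ∈ CongruenceSubgroup.Gamma0 N, precomp γ (fam i) = fam i := by
    intro i γ hγ
    cases i
    · funext τ
      show jfun (γ⁻¹ • τ) = jfun τ
      exact helper24.jfun_smul _ _
    · exact hinv γ hγ
  have hmem' : ∀ i (g : SL(2, ℤ)), precomp g (fam i) ∈ holoExp := by
    intro i g
    cases i
    · have e : precomp g (fam false) = jfun := by
        funext τ
        show jfun (g⁻¹ • τ) = jfun τ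
        exact helper24.jfun_smul _ _
      rw [e]
      have h1 := precomp_jfam_mem_holoExp (fun _ : Unit => 1) (fun _ => one_ne_zero) 1 ()
      rw [precomp_one] at h1
      have e2 : jfam (fun _ : Unit => 1) () = jfun := funext fun τ => jfunDT_one τ
      rwa [e2] at h1
    · exact hmem g
  obtain ⟨p, hp1, hp⟩ := Fermat.Agent.P3.helper48.formal_relation_fam (N := N) fam ser hq hinv'
    hmem' false rfl (MvPolynomial.X true)
  rw [MvPolynomial.aeval_X] at hp
  have hx : coeffMap (iotaC : Kbar →+* ℂ) (coeffEmb Kbar jq) = ser false :=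
    Fermat.Agent.P3.helper48.toC_coeffEmb_jq
  have hp' : ∑ k ∈ Finset.range (Nat.card (X0 N) + 1),
      Polynomial.aeval (coeffMap (iotaC : Kbar →+* ℂ) (coeffEmb Kbar jq)) (p k) *
        coeffMap (iotaC : Kbar →+* ℂ) y ^ k = 0 := by
    rw [hx]
    exact hp
  obtain ⟨r, hr1, hr⟩ := descent_relation (iotaC : Kbar →+* ℂ) (Nat.card (X0 N))
    (coeffEmb Kbar jq) y p hp1 hp'
  -- the monic polynomial over `ℚ̄[j]`
  set n := Nat.card (X0 N) with hn
  set A := Algebra.adjoin Kbar {xJ N} with hA
  have hxA : xJ N ∈ A := Algebra.subset_adjoin (Set.mem_singleton _)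
  let a : ℕ → A := fun k => Polynomial.aeval (⟨xJ N, hxA⟩ : A) (r k)
  have ha : ∀ k, ((a k : modularFunctionFieldBar N) : LaurentSeries Kbar) =
      Polynomial.aeval (coeffEmb Kbar jq) (r k) := by
    intro k
    have h1 : ((a k : A) : modularFunctionFieldBar N) = Polynomial.aeval (xJ N) (r k) := by
      show A.val (Polynomial.aeval (⟨xJ N, hxA⟩ : A) (r k)) = _
      rw [← Polynomial.aeval_algHom_apply]
      rfl
    rw [h1]
    have h2 : (modularFunctionFieldBar N).val (Polynomial.aeval (xJ N) (r k)) =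
        Polynomial.aeval ((modularFunctionFieldBar N).val (xJ N)) (r k) :=
      (Polynomial.aeval_algHom_apply _ _ _).symm
    have h3 : (modularFunctionFieldBar N).val (xJ N) = coeffEmb Kbar jq := coe_xJ N
    rw [h3] at h2
    exact h2
  let pol : Polynomial A :=
    Polynomial.X ^ n + ∑ k ∈ Finset.range n, Polynomial.C (a k) * Polynomial.X ^ k
  have hdeg : (∑ k ∈ Finset.range n, Polynomial.C (a k) * Polynomial.X ^ k).degree <
      (n : WithBot ℕ) := by
    rw [Polynomial.degree_lt_iff_coeff_zero]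
    intro m hm
    rw [Polynomial.finset_sum_coeff]
    refine Finset.sum_eq_zero fun k hk => ?_
    rw [Polynomial.coeff_C_mul_X_pow, if_neg]
    have := Finset.mem_range.mp hk
    omega
  refine ⟨pol, Polynomial.monic_X_pow_add hdeg, ?_⟩
  apply Subtype.ext
  show ((Polynomial.eval₂ (algebraMap A (modularFunctionFieldBar N)) ⟨y, hy⟩ pol :
    modularFunctionFieldBar N) : LaurentSeries Kbar) = 0
  rw [← hr, Finset.sum_range_succ, hr1, map_one, one_mul, add_comm]
  simp only [pol, Polynomial.eval₂_add, Polynomial.eval₂_pow, Polynomial.eval₂_X,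
    Polynomial.eval₂_finset_sum, Polynomial.eval₂_mul, Polynomial.eval₂_C]
  push_cast
  congr 1
  refine Finset.sum_congr rfl fun k _ => ?_
  rw [← ha k]
  rfl

end Descent

end Fermat.Agent.T3.helper16
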