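import Mathlib
import Fermat.Agent.T3.helper16_UnitAn
import Fermat.Agent.T2.helper17_DictWFun

/-!
# T3 / [T3-UNIT] (helper16), generic part 3: the Atkin–Lehner law `W_q b₀ = ± q / b₀`

* `unitFun_mat_smul` : analytic law `b₀ (W τ) = ε q / b₀ τ` for every Atkin–Lehner matrix `W`
  at `q` of level `N q`, `ε = χ(q w) / χ(w) ∈ {1, -1}`;
* `atkinLehner_mul_self` : the algebraic law in `F_{Nq}`.
-/

set_option autoImplicit false
set_option linter.unusedSectionVars false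

noncomputable section

open UpperHalfPlane ModularForm CongruenceSubgroup ModularCurve Filter Topology
open scoped MatrixGroups Manifold

namespace Fermat.Agent.T3.helper16

open Fermat.Agent.S24 Fermat.Agent.S24.helper17 Fermat.Agent.S24.helper77
open Fermat.Agent.T2.helper76 Fermat.Agent.T2.helper17 Fermat.Agent.P3.helper34
open Fermat.Agent.P2.helper66 (iota coeffMap_iota)

/-- An Atkin–Lehner datum at `q` of level `N q` exists. -/
theorem exists_alData (N q : ℕ) (hq : q.Prime) (hqN : ¬ q ∣ N) :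
    ∃ W : ALData (N * q) q, W.m = N := by
  have hcop : IsCoprime (q : ℤ) (N : ℤ) := by
    rw [Int.isCoprime_iff_gcd_eq_one]
    have : Nat.Coprime q N := (Nat.Prime.coprime_iff_not_dvd hq).mpr hqN
    simpa [Int.gcd_natCast_natCast] using this
  obtain ⟨u, v, huv⟩ := hcop
  exact ⟨{ m := N, x := u, y := -v, z := 1, w := 1, hq := hq.ne_zero, hM := mul_comm N q,
           det_eq := by linear_combination huv }, rfl⟩

section Law

variable {N0 : ℕ} {χ : ℤ → ℂ} {lam : ℍ → ℂ}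

/-- **Analytic Atkin–Lehner law.** -/
theorem unitFun_mat_smul (hlaw : WtOneLaw N0 χ lam) (hne : ∀ τ, lam τ ≠ 0)
    {N q : ℕ} [NeZero q] (hN0 : N0 ∣ N) (W : ALData (N * q) q) (hm : W.m = N) (τ : ℍ) :
    unitFun lam q (W.mat • τ) * unitFun lam q τ = χ ((q : ℤ) * W.w) / χ W.w * (q : ℂ) ∧
      χ ((q : ℤ) * W.w) ≠ 0 ∧ χ W.w ≠ 0 := by
  have hdet : (q : ℤ) * W.x * W.w - (N : ℤ) * W.y * W.z = 1 := by
    have := W.det_eq
    rwa [hm] at this
  have hq0 : (q : ℂ) ≠ 0 := by exact_mod_cast NeZero.ne q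
  -- the two elements of `Γ₀(N)`
  let g₀ : SL(2, ℤ) := ⟨!![W.x, W.y; (N : ℤ) * W.z, (q : ℤ) * W.w], by
    rw [Matrix.det_fin_two_of]; linear_combination hdet⟩
  let g₁ : SL(2, ℤ) := ⟨!![(q : ℤ) * W.x, W.y; (N : ℤ) * W.z, W.w], by
    rw [Matrix.det_fin_two_of]; linear_combination hdet⟩
  have a00 : (g₀ 0 0 : ℤ) = W.x := rfl
  have a01 : (g₀ 0 1 : ℤ) = W.y := rfl
  have a10 : (g₀ 1 0 : ℤ) = N * W.z := rfl
  have a11 : (g₀ 1 1 : ℤ) = q * W.w := rfl
  have b00 : (g₁ 0 0 : ℤ) = q * W.x := rfl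
  have b01 : (g₁ 0 1 : ℤ) = W.y := rfl
  have b10 : (g₁ 1 0 : ℤ) = N * W.z := rfl
  have b11 : (g₁ 1 1 : ℤ) = W.w := rfl
  have hg₀ : g₀ ∈ Gamma0 N0 := by
    rw [CongruenceSubgroup.Gamma0_mem, ZMod.intCast_zmod_eq_zero_iff_dvd, a10]
    exact Dvd.dvd.mul_right (by exact_mod_cast hN0) _
  have hg₁ : g₁ ∈ Gamma0 N0 := by
    rw [CongruenceSubgroup.Gamma0_mem, ZMod.intCast_zmod_eq_zero_iff_dvd, b10]
    exact Dvd.dvd.mul_right (by exact_mod_cast hN0) _
  have hW := mat_denom_ne_zero W τ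
  have hNq : ((N * q : ℕ) : ℂ) = (q : ℂ) * N := by push_cast; ring
  rw [hNq] at hW
  -- `W τ = g₀ (q τ)`
  have key₀ : W.mat • τ = g₀ • scaleH q τ := by
    apply UpperHalfPlane.ext
    rw [coe_mat_smul, coe_SL_smul, helper77.coe_scaleH, a00, a01, a10, a11, hNq]
    push_cast
    congr 1 <;> ring
  -- `q (W τ) = g₁ τ`
  have key₁ : scaleH q (W.mat • τ) = g₁ • τ := by
    apply UpperHalfPlane.ext
    rw [helper77.coe_scaleH, coe_mat_smul, coe_SL_smul, b00, b01, b10, b11, hNq]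
    have h2 := SL_denom_ne_zero g₁ τ
    rw [b10, b11] at h2
    push_cast at h2 ⊢
    have h3 : (q : ℂ) * N * W.z * τ + q * W.w = q * ((N : ℂ) * W.z * τ + W.w) := by ring
    rw [h3] at hW ⊢
    field_simp
  have l₀ := hlaw g₀ hg₀ (scaleH q τ)
  have l₁ := hlaw g₁ hg₁ τ
  rw [a10, a11, helper77.coe_scaleH] at l₀
  rw [b10, b11] at l₁
  have n₀ := hne (g₀ • scaleH q τ)
  have n₁ := hne (g₁ • τ)
  rw [l₀] at n₀
  rw [l₁] at n₁
  have hχ₀ : χ ((q : ℤ) * W.w) ≠ 0 := left_ne_zero_of_mul (left_ne_zero_of_mul n₀)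
  have hχ₁ : χ W.w ≠ 0 := left_ne_zero_of_mul (left_ne_zero_of_mul n₁)
  have hd₁ : (((N : ℤ) * W.z : ℤ) : ℂ) * τ + ((W.w : ℤ) : ℂ) ≠ 0 :=
    right_ne_zero_of_mul (left_ne_zero_of_mul n₁)
  refine ⟨?_, hχ₀, hχ₁⟩
  unfold unitFun
  rw [key₁, key₀, l₀, l₁]
  have hl := hne τ
  have hlq := hne (scaleH q τ)
  push_cast at hd₁ ⊢
  field_simp

end Law

theorem toC_algebraMap (c : Kbar) :
    helper17.toC (algebraMap Kbar (LaurentSeries Kbar) c) = HahnSeries.C ((iotaC : Kbar →+* ℂ) c) := by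
  rw [algebraMap_laurentSeries_eq_single, helper17.toC, coeffMap_single]
  rfl

/-- **Algebraic Atkin–Lehner law**: `W_q b₀ · b₀ = ± q` in `F_{Nq}`. -/
theorem atkinLehner_mul_self {N0 : ℕ} {lam : ℍ → ℂ} (h : IsWtOneUnit N0 lam) {N q : ℕ}
    [NeZero N] [NeZero q] (hq : q.Prime) (hqN : ¬ q ∣ N) (hN0 : N0 ∣ N) {B : PowerSeries ℤ}
    (hB : iota Kbar B ∈ modularFunctionFieldBar (N * q))
    (hBq : IsQExp (iota ℂ B) (unitFun lam q)) :
    ∃ ε : Kbar, (ε = 1 ∨ ε = -1) ∧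
      Fermat.Agent.T2.helper36.atkinLehner N q hq hqN ⟨_, hB⟩ * ⟨_, hB⟩ =
        algebraMap Kbar (modularFunctionFieldBar (N * q)) (ε * (q : Kbar)) := by
  obtain ⟨χ, hχv, hlaw⟩ := h.law
  obtain ⟨W, hm⟩ := exists_alData N q hq hqN
  have hWlaw := fun τ => unitFun_mat_smul hlaw h.ne_zero hN0 W hm τ
  obtain ⟨-, hχ₀, hχ₁⟩ := hWlaw UpperHalfPlane.I
  set εC : ℂ := χ ((q : ℤ) * W.w) / χ W.w with hεC
  have hε : εC = 1 ∨ εC = -1 := by
    rcases hχv ((q : ℤ) * W.w) with h0 | h0 | h0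
    · exact absurd h0 hχ₀
    · rcases hχv W.w with h1 | h1 | h1
      · exact absurd h1 hχ₁
      · left; rw [hεC, h0, h1]; norm_num
      · right; rw [hεC, h0, h1]; norm_num
    · rcases hχv W.w with h1 | h1 | h1
      · exact absurd h1 hχ₁
      · right; rw [hεC, h0, h1]; norm_num
      · left; rw [hεC, h0, h1]; norm_num
  obtain ⟨εK, hεK, hεKC⟩ : ∃ εK : Kbar, (εK = 1 ∨ εK = -1) ∧ (iotaC : Kbar →+* ℂ) εK = εC := by
    rcases hε with h1 | h1
    · exact ⟨1, Or.inl rfl, by rw [map_one, h1]⟩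
    · exact ⟨-1, Or.inr rfl, by rw [map_neg, map_one, h1]⟩
  refine ⟨εK, hεK, ?_⟩
  set b : modularFunctionFieldBar (N * q) := ⟨_, hB⟩ with hb
  have hbC : helper17.toC (b : LaurentSeries Kbar) = iota ℂ B := coeffMap_iota _ B
  have hf : IsEv (helper17.toC (b : LaurentSeries Kbar))
      (fun w => unitFun lam q (ofComplex w)) := by
    rw [hbC]
    exact isEv_of_isQExp hBq
  have h1 := isEv_atkinLehner N q hq hqN W b hf
  have hb0 : helper17.toC (b : LaurentSeries Kbar) ≠ 0 := by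
    rw [hbC]
    intro h0
    have := (hBq.eq_zero_iff).1 h0
    exact unitFun_ne_zero h.ne_zero q UpperHalfPlane.I (congrFun this _)
  have h2 : IsEv (HahnSeries.C (εC * (q : ℂ)) * (helper17.toC (b : LaurentSeries Kbar))⁻¹)
      (fun w => εC * (q : ℂ) * (unitFun lam q (ofComplex w))⁻¹) :=
    (isEv_const _).mul (hf.inv hb0)
  have h3 : IsEv (helper17.toC
      ((Fermat.Agent.T2.helper36.atkinLehner N q hq hqN b : modularFunctionFieldBar (N * q)) :
        LaurentSeries Kbar))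
      (fun w => εC * (q : ℂ) * (unitFun lam q (ofComplex w))⁻¹) := by
    refine h1.congr fun z hz => ?_
    have hH : ∀ᶠ w in 𝓝[≠] z, 0 < w.im :=
      mem_nhdsWithin_of_mem_nhds (UpperHalfPlane.isOpen_upperHalfPlaneSet.mem_nhds hz)
    filter_upwards [hH] with w hw
    rw [ofComplex_moebG_mat W hw]
    have := (hWlaw (ofComplex w)).1
    rw [eq_mul_inv_iff_mul_eq₀ (unitFun_ne_zero h.ne_zero q _)]
    exact this
  have h4 := h3.series_unique h2
  apply Subtype.ext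
  apply helper17.toC_injective
  show helper17.toC (((Fermat.Agent.T2.helper36.atkinLehner N q hq hqN b :
      modularFunctionFieldBar (N * q)) : LaurentSeries Kbar) * (b : LaurentSeries Kbar)) =
    helper17.toC (algebraMap Kbar (LaurentSeries Kbar) (εK * (q : Kbar)))
  rw [map_mul, h4, inv_mul_cancel_right₀ hb0, toC_algebraMap]
  congr 1
  rw [map_mul, hεKC, map_natCast]

end Fermat.Agent.T3.helper16
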