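import Mathlib
import Fermat.Agent.T3.helper16_UnitAn
import Fermat.Agent.T3.helper16_UnitDesc
import Fermat.Agent.T3.helper16_UnitW

/-!
# T3 / [T3-UNIT] (helper16): the generic assembly

`unitStatement_of_isWtOneUnit : IsWtOneUnit N0 lam → N0 ∣ N → UnitStatement N q hq hqN`.
-/

set_option autoImplicit false
set_option linter.unusedSectionVars false

noncomputable section

open UpperHalfPlane ModularForm CongruenceSubgroup ModularCurve
open scoped MatrixGroups Manifold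

namespace Fermat.Agent.T3.helper16

open Fermat.Agent.S24 Fermat.Agent.S24.helper17 Fermat.Agent.S24.helper77
open Fermat.Agent.S18.helper19
open Fermat.Agent.P2.helper66 (iota coeffMap_iota)

/-- The `q`-expansion of the inverse of a nowhere vanishing function. -/
theorem isQExp_inv {F : LaurentSeries ℂ} {f : ℍ → ℂ} (hF : IsQExp F f) (hne : ∀ τ, f τ ≠ 0)
    (hmem : (fun τ => (f τ)⁻¹) ∈ holoExp) (hper : ∀ τ : ℍ, f ((1 : ℝ) +ᵥ τ) = f τ) :
    IsQExp F⁻¹ (fun τ => (f τ)⁻¹) := by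
  obtain ⟨G, hG⟩ := Fermat.Agent.P3.helper48.exists_isQExp hmem (fun τ => by
    show (f ((1 : ℝ) +ᵥ τ))⁻¹ = (f τ)⁻¹
    rw [hper τ])
  have h1 : IsQExp (F * G) (1 : ℍ → ℂ) := (hF.mul hG).congr_right fun τ => by
    simp only [Pi.mul_apply, Pi.one_apply]
    exact mul_inv_cancel₀ (hne τ)
  have h2 : F * G = 1 := h1.left_unique IsQExp.one
  have h3 : G = F⁻¹ := eq_inv_of_mul_eq_one_right h2
  rw [← h3]
  exact hG

/-- **[T3-UNIT], generic form.** -/
theorem unitStatement_of_isWtOneUnit {N0 : ℕ} {lam : ℍ → ℂ} (h : IsWtOneUnit N0 lam)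
    {N q : ℕ} [NeZero N] [NeZero q] (hq : q.Prime) (hqN : ¬ q ∣ N) (hN0 : N0 ∣ N) :
    UnitStatement N q hq hqN := by
  obtain ⟨L, hL1, hL⟩ := h.qexp
  obtain ⟨χ, -, hlaw⟩ := h.law
  haveI : NeZero (N * q) := ⟨Nat.mul_ne_zero (NeZero.ne N) (NeZero.ne q)⟩
  obtain ⟨hBq, hBFC⟩ := isQExp_unitFun h hL1 hL (N := N) (q := q) hN0
  have hC : helper17.toC (iota Kb (unitSeries L q)) = iota ℂ (unitSeries L q) :=
    coeffMap_iota _ _
  have hB : iota Kb (unitSeries L q) ∈ FF (N * q) :=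
    mem_FF_of_toC_mem_FC (N * q) (by rw [hC]; exact hBFC)
  have hinv : ∀ γ ∈ Gamma0 (N * q), precomp γ (unitFun lam q) = unitFun lam q :=
    fun γ hγ => precomp_unitFun hlaw h.ne_zero hN0 hγ
  have hinv' : ∀ γ ∈ Gamma0 (N * q),
      precomp γ (fun τ => (unitFun lam q τ)⁻¹) = fun τ => (unitFun lam q τ)⁻¹ :=
    fun γ hγ => precomp_unitFun_inv hlaw h.ne_zero hN0 hγ
  refine ⟨unitSeries L q, hB, constantCoeff_unitSeries hL1 q,
    atkinLehner_mul_self h hq hqN hN0 hB hBq, ?_, ?_⟩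
  · exact isIntegral_of_isQExp (N * q) hB (by rw [hC]; exact hBq) hinv
      (fun g => precomp_unitFun_mem h q g)
  · have hper : ∀ τ : ℍ, unitFun lam q ((1 : ℝ) +ᵥ τ) = unitFun lam q τ :=
      Fermat.Agent.P3.helper48.vadd_of_precomp hinv
    have hmem1 : (fun τ => (unitFun lam q τ)⁻¹) ∈ holoExp := by
      have := precomp_unitFun_inv_mem h q 1
      rwa [precomp_one] at this
    have hq' : IsQExp (helper17.toC (iota Kb (unitSeries L q))⁻¹)
        (fun τ => (unitFun lam q τ)⁻¹) := by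
      rw [map_inv₀, hC]
      exact isQExp_inv hBq (unitFun_ne_zero h.ne_zero q) hmem1 hper
    have hi := isIntegral_of_isQExp (N * q) (inv_mem hB) hq' hinv'
      (fun g => precomp_unitFun_inv_mem h q g)
    have e : (⟨(iota Kb (unitSeries L q))⁻¹, inv_mem hB⟩ : FF (N * q)) =
        (⟨iota Kb (unitSeries L q), hB⟩ : FF (N * q))⁻¹ := Subtype.ext rfl
    rw [← e]
    exact hi

end Fermat.Agent.T3.helper16
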