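import Mathlib

/-!
# Tier 3, [T3-UNIT-ETA] (helper55), part 1: transformation laws of two weight-one eta quotients

`η` is Mathlib's Dedekind eta function (`ModularForm.eta : ℂ → ℂ`).  We study

* `bEta z = η(z)³ / η(3z)`           (level `9`, character `χ₋₃`),
* `lamEta z = η(2z)¹⁰ / (η(z)⁴ η(4z)⁴)` (level `4`, character `χ₋₄`; this is `θ(2z)²`, but
  the identity is not needed).

Both are holomorphic and nowhere zero on the upper half plane (for free, from `eta_ne_zero`).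
This file proves the laws under the generators:

* `eta_add_one`   : `η(z + 1) = e^{2πi/24} η(z)`;
* `eta_neg_inv`   : `η(-1/z) = (√i)⁻¹ √z η(z)`;
* `bEta_add_one`  : `b(z + 1) = b(z)`;
* `bEta_U3`       : `b(z / (3z + 1)) = e^{-2πi/3} (3z + 1) b(z)`;
* `lamEta_add_one`: `λ(z + 1) = λ(z)`;
* `lamEta_U4`     : `λ(z / (4z + 1)) = (4z + 1) λ(z)`.
-/

set_option autoImplicit false

noncomputable section

open Complex ModularForm
open UpperHalfPlane hiding I
open scoped Real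

namespace Fermat.Agent.T3.helper55

local notation "ℍₒ" => upperHalfPlaneSet
local notation "𝕢" => Function.Periodic.qParam

/-! ### Elementary facts on the upper half plane -/

theorem mem_uhp {z : ℂ} : z ∈ ℍₒ ↔ 0 < z.im := Set.mem_ofPred

theorem ne_zero_of_uhp {z : ℂ} (hz : 0 < z.im) : z ≠ 0 := by
  intro h
  rw [h] at hz
  simp at hz

theorem im_neg_inv_pos {z : ℂ} (hz : 0 < z.im) : 0 < (-1 / z).im := by
  have h0 : z ≠ 0 := ne_zero_of_uhp hz
  have hn : 0 < Complex.normSq z := Complex.normSq_pos.mpr h0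
  have : (-1 / z).im = z.im / Complex.normSq z := by
    rw [neg_div, Complex.neg_im, one_div, Complex.inv_im]
    ring
  rw [this]
  positivity

theorem im_real_mul_pos {a : ℝ} (ha : 0 < a) {z : ℂ} (hz : 0 < z.im) : 0 < ((a : ℂ) * z).im := by
  rw [Complex.im_ofReal_mul]
  positivity

theorem im_add_real {z : ℂ} (a : ℝ) : (z + (a : ℂ)).im = z.im := by
  simp

/-! ### Square roots -/

theorem sqrt_sq (z : ℂ) : Complex.sqrt z ^ 2 = z := by
  have := Complex.cpow_nat_inv_pow z (n := 2) two_ne_zero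
  simpa [Complex.sqrt] using this

theorem sqrt_real_mul {a : ℝ} (ha : 0 < a) {z : ℂ} (hz : z ≠ 0) :
    Complex.sqrt ((a : ℂ) * z) = ((Real.sqrt a : ℝ) : ℂ) * Complex.sqrt z := by
  have ha0 : (a : ℂ) ≠ 0 := by exact_mod_cast ha.ne'
  unfold Complex.sqrt
  rw [Complex.cpow_def_of_ne_zero (mul_ne_zero ha0 hz), Complex.cpow_def_of_ne_zero hz,
    Complex.log_ofReal_mul ha hz, add_mul, Complex.exp_add]
  congr 1
  rw [Real.sqrt_eq_rpow, Complex.ofReal_cpow ha.le, Complex.cpow_def_of_ne_zero ha0,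
    Complex.ofReal_log ha.le]
  congr 1
  push_cast
  ring

theorem sqrt_I_sq : Complex.sqrt I ^ 2 = I := sqrt_sq I

theorem sqrt_I_ne_zero : Complex.sqrt I ≠ 0 := by
  intro h
  have := sqrt_I_sq
  rw [h] at this
  simp at this
  exact I_ne_zero this.symm

/-! ### The laws of `η` -/

/-- the `24`-th root of unity `e^{2πi/24}` -/
def zeta24 : ℂ := cexp (2 * π * I / 24)

theorem zeta24_ne_zero : zeta24 ≠ 0 := Complex.exp_ne_zero _

theorem zeta24_pow (n : ℕ) : zeta24 ^ n = cexp (2 * π * I * n / 24) := by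
  rw [zeta24, ← Complex.exp_nat_mul]
  congr 1
  ring

theorem zeta24_pow_24 : zeta24 ^ 24 = 1 := by
  rw [zeta24_pow]
  have : (2 * π * I * (24 : ℕ) / 24 : ℂ) = 2 * π * I := by
    push_cast
    ring
  rw [this, Complex.exp_two_pi_mul_I]

theorem qParam_add_one (z : ℂ) : 𝕢 1 (z + 1) = 𝕢 1 z := by
  simp [Function.Periodic.qParam, mul_add, Complex.exp_add]

theorem qParam24_add_one (z : ℂ) : 𝕢 24 (z + 1) = zeta24 * 𝕢 24 z := by
  simp only [Function.Periodic.qParam, zeta24]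
  rw [← Complex.exp_add]
  congr 1
  push_cast
  ring

/-- `η(z + 1) = e^{2πi/24} η(z)` -/
theorem eta_add_one (z : ℂ) : η (z + 1) = zeta24 * η z := by
  unfold ModularForm.eta
  rw [qParam24_add_one, mul_assoc]
  congr 1
  congr 1
  refine tprod_congr fun n => ?_
  rw [ModularForm.eta_q, ModularForm.eta_q, qParam_add_one]

theorem eta_add_nat (z : ℂ) (n : ℕ) : η (z + n) = zeta24 ^ n * η z := by
  induction n with
  | zero => simp
  | succ k ih =>
    rw [Nat.cast_succ, ← add_assoc, eta_add_one, ih, pow_succ]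
    ring

theorem eta_sub_one (z : ℂ) : η (z - 1) = zeta24⁻¹ * η z := by
  have h := eta_add_one (z - 1)
  rw [sub_add_cancel] at h
  rw [h, ← mul_assoc, inv_mul_cancel₀ zeta24_ne_zero, one_mul]

theorem eta_sub_nat (z : ℂ) (n : ℕ) : η (z - n) = (zeta24 ^ n)⁻¹ * η z := by
  have h := eta_add_nat (z - n) n
  rw [sub_add_cancel] at h
  rw [h, ← mul_assoc, inv_mul_cancel₀ (pow_ne_zero _ zeta24_ne_zero), one_mul]

/-- `η(-1/z) = (√i)⁻¹ √z η(z)` on the upper half plane -/
theorem eta_neg_inv {z : ℂ} (hz : 0 < z.im) :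
    η (-1 / z) = (Complex.sqrt I)⁻¹ * (Complex.sqrt z * η z) := by
  have h := ModularForm.eta_comp_eq_csqrt_I_inv (mem_uhp.mpr hz)
  simpa using h

theorem eta_neg_inv_real_mul {a : ℝ} (ha : 0 < a) {z : ℂ} (hz : 0 < z.im) :
    η (-1 / ((a : ℂ) * z)) =
      (Complex.sqrt I)⁻¹ * (((Real.sqrt a : ℝ) : ℂ) * Complex.sqrt z * η ((a : ℂ) * z)) := by
  rw [eta_neg_inv (im_real_mul_pos ha hz), sqrt_real_mul ha (ne_zero_of_uhp hz)]

theorem eta_ne_zero' {z : ℂ} (hz : 0 < z.im) : η z ≠ 0 := ModularForm.eta_ne_zero (mem_uhp.mpr hz)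

theorem eta_real_mul_ne_zero {a : ℝ} (ha : 0 < a) {z : ℂ} (hz : 0 < z.im) :
    η ((a : ℂ) * z) ≠ 0 := eta_ne_zero' (im_real_mul_pos ha hz)

theorem sqrt_ne_zero_of_uhp {z : ℂ} (hz : 0 < z.im) : Complex.sqrt z ≠ 0 := by
  intro h
  have := sqrt_sq z
  rw [h] at this
  exact ne_zero_of_uhp hz (by simpa using this.symm)

/-! ### The eta quotients -/

/-- `b(z) = η(z)³ / η(3z)` -/
def bEta (z : ℂ) : ℂ := η z ^ 3 / η (3 * z)

/-- `c(z) = η(3z)³ / η(z)` (the Fricke partner of `b`) -/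
def cEta (z : ℂ) : ℂ := η (3 * z) ^ 3 / η z

/-- `λ(z) = η(2z)¹⁰ / (η(z)⁴ η(4z)⁴)` -/
def lamEta (z : ℂ) : ℂ := η (2 * z) ^ 10 / (η z ^ 4 * η (4 * z) ^ 4)

theorem three_mul_uhp {z : ℂ} (hz : 0 < z.im) : 0 < (3 * z).im := by
  have := im_real_mul_pos (a := 3) (by norm_num) hz
  simpa using this

theorem two_mul_uhp {z : ℂ} (hz : 0 < z.im) : 0 < (2 * z).im := by
  have := im_real_mul_pos (a := 2) (by norm_num) hz
  simpa using this

theorem four_mul_uhp {z : ℂ} (hz : 0 < z.im) : 0 < (4 * z).im := by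
  have := im_real_mul_pos (a := 4) (by norm_num) hz
  simpa using this

theorem bEta_ne_zero {z : ℂ} (hz : 0 < z.im) : bEta z ≠ 0 :=
  div_ne_zero (pow_ne_zero _ (eta_ne_zero' hz)) (eta_ne_zero' (three_mul_uhp hz))

theorem cEta_ne_zero {z : ℂ} (hz : 0 < z.im) : cEta z ≠ 0 :=
  div_ne_zero (pow_ne_zero _ (eta_ne_zero' (three_mul_uhp hz))) (eta_ne_zero' hz)

theorem lamEta_ne_zero {z : ℂ} (hz : 0 < z.im) : lamEta z ≠ 0 :=
  div_ne_zero (pow_ne_zero _ (eta_ne_zero' (two_mul_uhp hz)))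
    (mul_ne_zero (pow_ne_zero _ (eta_ne_zero' hz)) (pow_ne_zero _ (eta_ne_zero' (four_mul_uhp hz))))

/-- the real number `√3` as a complex number -/
def rt3 : ℂ := ((Real.sqrt 3 : ℝ) : ℂ)

theorem rt3_sq : rt3 ^ 2 = 3 := by
  unfold rt3
  rw [← Complex.ofReal_pow, Real.sq_sqrt (by norm_num)]
  norm_num

theorem rt3_ne_zero : rt3 ≠ 0 := by
  intro h
  have := rt3_sq
  rw [h] at this
  norm_num at this

/-- `e^{-2πi/3}` -/
def zeta3inv : ℂ := cexp (-(2 * π * I / 3))

theorem zeta3inv_ne_zero : zeta3inv ≠ 0 := Complex.exp_ne_zero _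

theorem zeta24_pow_eight_inv : (zeta24 ^ 8)⁻¹ = zeta3inv := by
  rw [zeta24_pow, zeta3inv, ← Complex.exp_neg]
  congr 1
  push_cast
  ring

theorem zeta3inv_pow_three : zeta3inv ^ 3 = 1 := by
  rw [zeta3inv, ← Complex.exp_nat_mul]
  have : ((3 : ℕ) : ℂ) * -(2 * π * I / 3) = -(2 * π * I) := by
    push_cast
    ring
  rw [this, Complex.exp_neg, Complex.exp_two_pi_mul_I, inv_one]

/-! ### Laws of `b` -/

theorem bEta_add_one (z : ℂ) (hz : 0 < z.im) : bEta (z + 1) = bEta z := by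
  unfold bEta
  have h3 : (3 : ℂ) * (z + 1) = 3 * z + (3 : ℕ) := by
    push_cast
    ring
  rw [h3, eta_add_nat, eta_add_one]
  have h1 := eta_ne_zero' (three_mul_uhp hz)
  have h2 := zeta24_ne_zero
  field_simp

theorem cEta_sub_one (z : ℂ) (hz : 0 < z.im) : cEta (z - 1) = zeta3inv * cEta z := by
  unfold cEta
  have h3 : (3 : ℂ) * (z - 1) = 3 * z - (3 : ℕ) := by
    push_cast
    ring
  rw [h3, eta_sub_nat, eta_sub_one, ← zeta24_pow_eight_inv]
  have h1 := eta_ne_zero' hz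
  have h2 := zeta24_ne_zero
  field_simp

theorem bEta_fricke {z : ℂ} (hz : 0 < z.im) :
    bEta (-1 / (3 * z)) = -(3 * rt3) * I * z * cEta z := by
  have hz0 := ne_zero_of_uhp hz
  have e1 : (3 : ℂ) * (-1 / (3 * z)) = -1 / z := by
    field_simp
  have h3 : η (-1 / (3 * z)) =
      (Complex.sqrt I)⁻¹ * (rt3 * Complex.sqrt z * η (3 * z)) := by
    have := eta_neg_inv_real_mul (a := 3) (by norm_num) hz
    simpa [rt3] using this
  unfold bEta cEta
  rw [e1, h3, eta_neg_inv hz]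
  have hs := sqrt_I_ne_zero
  have hv := sqrt_ne_zero_of_uhp hz
  have hE1 := eta_ne_zero' hz
  have hE3 := eta_ne_zero' (three_mul_uhp hz)
  have hs2 := sqrt_I_sq
  have hv2 := sqrt_sq z
  have hr2 := rt3_sq
  generalize Complex.sqrt I = s at *
  generalize Complex.sqrt z = v at *
  generalize η z = E1 at *
  generalize η (3 * z) = E3 at *
  generalize rt3 = r at *
  field_simp
  have hI : I * I = -1 := Complex.I_mul_I
  calc r ^ 3 * v ^ 2 = (r ^ 2) * r * (v ^ 2) := by ring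
    _ = 3 * r * z := by rw [hr2, hv2]
    _ = -(s ^ 2 * (3 * r * I * z)) := by rw [hs2]; linear_combination (3 * r * z) * hI
    _ = _ := by ring

theorem cEta_fricke {z : ℂ} (hz : 0 < z.im) :
    cEta (-1 / (3 * z)) = -(I * z / rt3) * bEta z := by
  have hz0 := ne_zero_of_uhp hz
  have e1 : (3 : ℂ) * (-1 / (3 * z)) = -1 / z := by
    field_simp
  have h3 : η (-1 / (3 * z)) =
      (Complex.sqrt I)⁻¹ * (rt3 * Complex.sqrt z * η (3 * z)) := by
    have := eta_neg_inv_real_mul (a := 3) (by norm_num) hz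
    simpa [rt3] using this
  unfold bEta cEta
  rw [e1, h3, eta_neg_inv hz]
  have hs := sqrt_I_ne_zero
  have hv := sqrt_ne_zero_of_uhp hz
  have hE1 := eta_ne_zero' hz
  have hE3 := eta_ne_zero' (three_mul_uhp hz)
  have hs2 := sqrt_I_sq
  have hv2 := sqrt_sq z
  have hr2 := rt3_sq
  have hr0 := rt3_ne_zero
  generalize Complex.sqrt I = s at *
  generalize Complex.sqrt z = v at *
  generalize η z = E1 at *
  generalize η (3 * z) = E3 at *
  generalize rt3 = r at *
  field_simp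
  have hI : I * I = -1 := Complex.I_mul_I
  calc v ^ 2 = z := hv2
    _ = -(s ^ 2 * (I * z)) := by rw [hs2]; linear_combination z * hI
    _ = _ := by ring

theorem im_sub_one (z : ℂ) : (z - 1).im = z.im := by simp

theorem im_add_one (z : ℂ) : (z + 1).im = z.im := by simp

theorem im_three_mul_add_one {z : ℂ} (hz : 0 < z.im) : 0 < (3 * z + 1).im := by
  rw [im_add_one]
  exact three_mul_uhp hz

theorem im_four_mul_add_one {z : ℂ} (hz : 0 < z.im) : 0 < (4 * z + 1).im := by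
  rw [im_add_one]
  exact four_mul_uhp hz

/-- **the law of `b` under `U₃ = (1 0; 3 1)`**: `b(z/(3z+1)) = e^{-2πi/3} (3z+1) b(z)` -/
theorem bEta_U3 {z : ℂ} (hz : 0 < z.im) :
    bEta (z / (3 * z + 1)) = zeta3inv * (3 * z + 1) * bEta z := by
  have hz0 := ne_zero_of_uhp hz
  have h31 : (3 * z + 1 : ℂ) ≠ 0 := ne_zero_of_uhp (im_three_mul_add_one hz)
  have hw : 0 < (-1 / (3 * z) - 1).im := by
    rw [im_sub_one]
    exact im_neg_inv_pos (three_mul_uhp hz)
  have hw0 := ne_zero_of_uhp hw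
  have e1 : z / (3 * z + 1) = -1 / (3 * (-1 / (3 * z) - 1)) := by
    have h3 : (3 : ℂ) * (-1 / (3 * z) - 1) = -(3 * z + 1) / z := by
      field_simp
      ring
    rw [h3]
    field_simp
  rw [e1, bEta_fricke hw, cEta_sub_one _ (im_neg_inv_pos (three_mul_uhp hz)), cEta_fricke hz]
  have hr0 := rt3_ne_zero
  have hI : I * I = -1 := Complex.I_mul_I
  have e2 : (-1 / (3 * z) - 1) * z = -(3 * z + 1) / 3 := by
    field_simp
    ring
  calc -(3 * rt3) * I * (-1 / (3 * z) - 1) * (zeta3inv * (-(I * z / rt3) * bEta z))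
      = (3 * (I * I)) * (rt3 / rt3) * ((-1 / (3 * z) - 1) * z) * zeta3inv * bEta z := by
        field_simp
    _ = zeta3inv * (3 * z + 1) * bEta z := by
        rw [hI, div_self hr0, e2]
        ring

/-! ### Laws of `λ` -/

/-- the real numbers `√2`, `√4` as complex numbers -/
def rt2 : ℂ := ((Real.sqrt 2 : ℝ) : ℂ)

/-- see `rt2` -/
def rt4 : ℂ := ((Real.sqrt 4 : ℝ) : ℂ)

theorem rt2_sq : rt2 ^ 2 = 2 := by
  unfold rt2
  rw [← Complex.ofReal_pow, Real.sq_sqrt (by norm_num)]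
  norm_num

theorem rt4_sq : rt4 ^ 2 = 4 := by
  unfold rt4
  rw [← Complex.ofReal_pow, Real.sq_sqrt (by norm_num)]
  norm_num

theorem rt4_ne_zero : rt4 ≠ 0 := by
  intro h
  have := rt4_sq
  rw [h] at this
  norm_num at this

theorem lamEta_add_one (z : ℂ) (hz : 0 < z.im) : lamEta (z + 1) = lamEta z := by
  unfold lamEta
  have h2 : (2 : ℂ) * (z + 1) = 2 * z + (2 : ℕ) := by
    push_cast
    ring
  have h4 : (4 : ℂ) * (z + 1) = 4 * z + (4 : ℕ) := by
    push_cast
    ring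
  rw [h2, h4, eta_add_nat, eta_add_nat, eta_add_one]
  have h1 := eta_ne_zero' hz
  have h1' := eta_ne_zero' (four_mul_uhp hz)
  have hζ := zeta24_ne_zero
  field_simp

theorem lamEta_sub_one (z : ℂ) (hz : 0 < z.im) : lamEta (z - 1) = lamEta z := by
  have h := lamEta_add_one (z - 1) (by rw [im_sub_one]; exact hz)
  rw [sub_add_cancel] at h
  exact h.symm

theorem lamEta_fricke {z : ℂ} (hz : 0 < z.im) :
    lamEta (-1 / (4 * z)) = -(2 * I * z) * lamEta z := by
  have hz0 := ne_zero_of_uhp hz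
  have e2 : (2 : ℂ) * (-1 / (4 * z)) = -1 / (2 * z) := by
    field_simp
    ring
  have e4 : (4 : ℂ) * (-1 / (4 * z)) = -1 / z := by
    field_simp
  have h2 : η (-1 / (2 * z)) =
      (Complex.sqrt I)⁻¹ * (rt2 * Complex.sqrt z * η (2 * z)) := by
    have := eta_neg_inv_real_mul (a := 2) (by norm_num) hz
    simpa [rt2] using this
  have h4 : η (-1 / (4 * z)) =
      (Complex.sqrt I)⁻¹ * (rt4 * Complex.sqrt z * η (4 * z)) := by
    have := eta_neg_inv_real_mul (a := 4) (by norm_num) hz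
    simpa [rt4] using this
  unfold lamEta
  rw [e2, e4, h2, h4, eta_neg_inv hz]
  have hs := sqrt_I_ne_zero
  have hv := sqrt_ne_zero_of_uhp hz
  have hE1 := eta_ne_zero' hz
  have hE2 := eta_ne_zero' (two_mul_uhp hz)
  have hE4 := eta_ne_zero' (four_mul_uhp hz)
  have hs2 := sqrt_I_sq
  have hv2 := sqrt_sq z
  have hr2 := rt2_sq
  have hr4 := rt4_sq
  have hr40 := rt4_ne_zero
  generalize Complex.sqrt I = s at *
  generalize Complex.sqrt z = v at *
  generalize η z = E1 at *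
  generalize η (2 * z) = E2 at *
  generalize η (4 * z) = E4 at *
  generalize rt2 = r at *
  generalize rt4 = r' at *
  field_simp
  have hI : I * I = -1 := Complex.I_mul_I
  have hr10 : r ^ 10 = 32 := by
    calc r ^ 10 = (r ^ 2) ^ 5 := by ring
      _ = 32 := by rw [hr2]; norm_num
  have hr'4 : r' ^ 4 = 16 := by
    calc r' ^ 4 = (r' ^ 2) ^ 2 := by ring
      _ = 16 := by rw [hr4]; norm_num
  linear_combination (v ^ 2) * hr10 + (2 * s ^ 2 * I * z) * hr'4 + 32 * hv2 +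
    (32 * I * z) * hs2 + (32 * z) * hI

/-- **the law of `λ` under `U₄ = (1 0; 4 1)`**: `λ(z/(4z+1)) = (4z+1) λ(z)` -/
theorem lamEta_U4 {z : ℂ} (hz : 0 < z.im) :
    lamEta (z / (4 * z + 1)) = (4 * z + 1) * lamEta z := by
  have hz0 := ne_zero_of_uhp hz
  have h41 : (4 * z + 1 : ℂ) ≠ 0 := ne_zero_of_uhp (im_four_mul_add_one hz)
  have hw : 0 < (-1 / (4 * z) - 1).im := by
    rw [im_sub_one]
    exact im_neg_inv_pos (four_mul_uhp hz)
  have e1 : z / (4 * z + 1) = -1 / (4 * (-1 / (4 * z) - 1)) := by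
    have h3 : (4 : ℂ) * (-1 / (4 * z) - 1) = -(4 * z + 1) / z := by
      field_simp
      ring
    rw [h3]
    field_simp
  rw [e1, lamEta_fricke hw, lamEta_sub_one _ (im_neg_inv_pos (four_mul_uhp hz)), lamEta_fricke hz]
  have hI : I * I = -1 := Complex.I_mul_I
  have e2 : (-1 / (4 * z) - 1) * z = -(4 * z + 1) / 4 := by
    field_simp
    ring
  calc -(2 * I * (-1 / (4 * z) - 1)) * (-(2 * I * z) * lamEta z)
      = (4 * (I * I)) * ((-1 / (4 * z) - 1) * z) * lamEta z := by ring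
    _ = (4 * z + 1) * lamEta z := by
        rw [hI, e2]
        ring

end Fermat.Agent.T3.helper55

end
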