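import Mathlib

/-!
# Tier 3, [T3-UNIT-ETA] (helper55), part 2: an induction principle for `Γ₀(3)` and `Γ₀(4)`

For `N ∈ {3, 4}` the group `Γ₀(N)` is generated by `-1`, `T = (1 1; 0 1)` and
`U_N = (1 0; N 1)`.  We prove this in the form of an induction principle
(`gamma0_induction`): a predicate on `SL(2, ℤ)` which holds at `1` and is stable under negation
and under right multiplication by `T^{±1}`, `U_N^{±1}` holds on `Γ₀(N)`.

The proof is the usual descent on `|c|`: replace `d` by its balanced remainder modulo `c`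
(right multiplication by a power of `T`), then `c` by its balanced remainder modulo `N d`
(right multiplication by a power of `U_N`); for `N ≤ 4` this decreases `|c|` strictly.
-/

set_option autoImplicit false

open scoped MatrixGroups

namespace Fermat.Agent.T3.helper55

/-- the matrix `(1 0; n 1)` -/
def lowerU (n : ℤ) : SL(2, ℤ) := ⟨!![1, 0; n, 1], by simp [Matrix.det_fin_two_of]⟩

@[simp] theorem coe_lowerU (n : ℤ) : ((lowerU n : SL(2, ℤ)) : Matrix (Fin 2) (Fin 2) ℤ) =
    !![1, 0; n, 1] := rfl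

theorem lowerU_add (m n : ℤ) : lowerU (m + n) = lowerU m * lowerU n := by
  apply Subtype.ext
  rw [Matrix.SpecialLinearGroup.coe_mul, coe_lowerU, coe_lowerU, coe_lowerU, Matrix.mul_fin_two]
  congrm !![?_, ?_; ?_, ?_] <;> ring

theorem lowerU_zero : lowerU 0 = 1 := by
  apply Subtype.ext
  rw [coe_lowerU, Matrix.SpecialLinearGroup.coe_one, Matrix.one_fin_two]

theorem lowerU_neg (n : ℤ) : lowerU (-n) = (lowerU n)⁻¹ := by
  rw [eq_inv_iff_mul_eq_one, ← lowerU_add, neg_add_cancel, lowerU_zero]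

theorem lowerU_mul_zpow (n k : ℤ) : lowerU (n * k) = lowerU n ^ k := by
  induction k using Int.induction_on with
  | zero => rw [mul_zero, lowerU_zero, zpow_zero]
  | succ i ih => rw [mul_add, mul_one, lowerU_add, ih, zpow_add, zpow_one]
  | pred i ih =>
    rw [mul_sub, mul_one, sub_eq_add_neg, lowerU_add, ih, lowerU_neg, sub_eq_add_neg, zpow_add,
      zpow_neg_one]

/-- balanced remainder -/
theorem exists_small_add_mul (x m : ℤ) (hm : m ≠ 0) : ∃ k : ℤ, 2 * |x + k * m| ≤ |m| := by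
  have hn : 0 < m.natAbs := Int.natAbs_pos.mpr hm
  have h1 := @Int.le_bmod x m.natAbs hn
  have h2 := @Int.bmod_lt x m.natAbs hn
  have h3 : (m.natAbs : ℤ) ∣ x - Int.bmod x m.natAbs := by
    apply Int.dvd_of_emod_eq_zero
    rw [Int.sub_emod, Int.bmod_emod, sub_self, Int.zero_emod]
  obtain ⟨q, hq⟩ := h3
  have habs : (m.natAbs : ℤ) = |m| := Int.natCast_natAbs m
  rw [habs] at h1 h2 hq
  rcases abs_choice m with h | h
  · refine ⟨-q, ?_⟩
    have e : x + -q * m = Int.bmod x m.natAbs := by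
      rw [h] at hq
      linear_combination hq
    rw [e]
    have := abs_le.mpr ⟨(by omega : -( |m| ) ≤ 2 * Int.bmod x m.natAbs),
      (by omega : 2 * Int.bmod x m.natAbs ≤ |m|)⟩
    rwa [abs_mul, abs_two] at this
  · refine ⟨q, ?_⟩
    have e : x + q * m = Int.bmod x m.natAbs := by
      rw [h] at hq
      linear_combination hq
    rw [e]
    have := abs_le.mpr ⟨(by omega : -( |m| ) ≤ 2 * Int.bmod x m.natAbs),
      (by omega : 2 * Int.bmod x m.natAbs ≤ |m|)⟩
    rwa [abs_mul, abs_two] at this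

open ModularGroup (T)

theorem coe_eq_fin_two (γ : SL(2, ℤ)) :
    (γ : Matrix (Fin 2) (Fin 2) ℤ) = !![γ 0 0, γ 0 1; γ 1 0, γ 1 1] :=
  Matrix.eta_fin_two _

theorem det_entries (γ : SL(2, ℤ)) : γ 0 0 * γ 1 1 - γ 0 1 * γ 1 0 = 1 := by
  have := γ.det_coe
  rwa [Matrix.det_fin_two] at this

theorem coe_mul_T_zpow (γ : SL(2, ℤ)) (k : ℤ) :
    ((γ * T ^ k : SL(2, ℤ)) : Matrix (Fin 2) (Fin 2) ℤ) =
      !![γ 0 0, γ 0 0 * k + γ 0 1; γ 1 0, γ 1 0 * k + γ 1 1] := by
  rw [Matrix.SpecialLinearGroup.coe_mul, ModularGroup.coe_T_zpow, coe_eq_fin_two γ,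
    Matrix.mul_fin_two]
  simp

theorem coe_mul_lowerU (γ : SL(2, ℤ)) (n : ℤ) :
    ((γ * lowerU n : SL(2, ℤ)) : Matrix (Fin 2) (Fin 2) ℤ) =
      !![γ 0 0 + γ 0 1 * n, γ 0 1; γ 1 0 + γ 1 1 * n, γ 1 1] := by
  rw [Matrix.SpecialLinearGroup.coe_mul, coe_lowerU, coe_eq_fin_two γ, Matrix.mul_fin_two]
  simp

theorem mem_Gamma0_iff_dvd {N : ℕ} {γ : SL(2, ℤ)} :
    γ ∈ CongruenceSubgroup.Gamma0 N ↔ (N : ℤ) ∣ γ 1 0 := by
  rw [CongruenceSubgroup.Gamma0_mem, ZMod.intCast_zmod_eq_zero_iff_dvd]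

theorem mul_T_zpow_mem_Gamma0 {N : ℕ} {γ : SL(2, ℤ)} (hγ : γ ∈ CongruenceSubgroup.Gamma0 N)
    (k : ℤ) : γ * T ^ k ∈ CongruenceSubgroup.Gamma0 N := by
  rw [mem_Gamma0_iff_dvd] at hγ ⊢
  have : (γ * T ^ k) 1 0 = γ 1 0 := by
    have := congrFun (congrFun (coe_mul_T_zpow γ k) 1) 0
    simpa using this
  rwa [this]

theorem mul_lowerU_mem_Gamma0 {N : ℕ} {γ : SL(2, ℤ)} (hγ : γ ∈ CongruenceSubgroup.Gamma0 N)
    (m : ℤ) : γ * lowerU (N * m) ∈ CongruenceSubgroup.Gamma0 N := by
  rw [mem_Gamma0_iff_dvd] at hγ ⊢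
  have : (γ * lowerU (N * m)) 1 0 = γ 1 0 + γ 1 1 * (N * m) := by
    have := congrFun (congrFun (coe_mul_lowerU γ (N * m)) 1) 0
    simpa using this
  rw [this]
  exact dvd_add hγ (Dvd.intro_left _ (by ring : γ 1 1 * m * (N : ℤ) = γ 1 1 * (N * m)))

/-- **Induction principle for `Γ₀(3)` and `Γ₀(4)`.** -/
theorem gamma0_induction (N : ℕ) (hN : N = 3 ∨ N = 4) (P : SL(2, ℤ) → Prop)
    (h1 : P 1) (hneg : ∀ γ, P γ → P (-γ))
    (hT : ∀ γ, P γ → P (γ * T)) (hT' : ∀ γ, P γ → P (γ * T⁻¹))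
    (hU : ∀ γ, P γ → P (γ * lowerU N)) (hU' : ∀ γ, P γ → P (γ * (lowerU N)⁻¹)) :
    ∀ γ ∈ CongruenceSubgroup.Gamma0 N, P γ := by
  have hTk : ∀ (k : ℤ) (γ : SL(2, ℤ)), P γ → P (γ * T ^ k) := by
    intro k
    induction k using Int.induction_on with
    | zero => intro γ h; simpa using h
    | succ i ih =>
      intro γ h
      rw [zpow_add, zpow_one, ← mul_assoc]
      exact hT _ (ih γ h)
    | pred i ih =>
      intro γ h
      rw [sub_eq_add_neg, zpow_add, zpow_neg_one, ← mul_assoc]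
      exact hT' _ (ih γ h)
  have hUk : ∀ (k : ℤ) (γ : SL(2, ℤ)), P γ → P (γ * lowerU (N * k)) := by
    intro k
    rw [lowerU_mul_zpow]
    induction k using Int.induction_on with
    | zero => intro γ h; simpa using h
    | succ i ih =>
      intro γ h
      rw [zpow_add, zpow_one, ← mul_assoc]
      exact hU _ (ih γ h)
    | pred i ih =>
      intro γ h
      rw [sub_eq_add_neg, zpow_add, zpow_neg_one, ← mul_assoc]
      exact hU' _ (ih γ h)
  have hN3 : 3 ≤ N := by rcases hN with h | h <;> omega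
  have hN4 : N ≤ 4 := by rcases hN with h | h <;> omega
  intro γ hγ
  induction hn : (γ 1 0).natAbs using Nat.strong_induction_on generalizing γ with
  | _ n ih =>
  have hdet := det_entries γ
  by_cases hc : γ 1 0 = 0
  · -- `c = 0`
    rw [hc, mul_zero, sub_zero] at hdet
    rcases Int.eq_one_or_neg_one_of_mul_eq_one' hdet with ⟨ha, hd⟩ | ⟨ha, hd⟩
    · have e : γ = 1 * T ^ (γ 0 1) := by
        apply Subtype.ext
        rw [coe_mul_T_zpow, coe_eq_fin_two γ]
        simp [ha, hd, hc]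
      rw [e]
      exact hTk _ 1 h1
    · have e : γ = -(1 * T ^ (-(γ 0 1))) := by
        apply Subtype.ext
        rw [Matrix.SpecialLinearGroup.coe_neg, coe_mul_T_zpow, coe_eq_fin_two γ]
        simp [ha, hd, hc]
      rw [e]
      exact hneg _ (hTk _ 1 h1)
  · -- `c ≠ 0`
    obtain ⟨c', hc'⟩ := mem_Gamma0_iff_dvd.mp hγ
    have hc'0 : c' ≠ 0 := by
      rintro rfl
      exact hc (by rw [hc', mul_zero])
    have hcabs : (N : ℤ) ≤ |γ 1 0| := by
      rw [hc', abs_mul, Nat.abs_cast]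
      have : 1 ≤ |c'| := Int.one_le_abs hc'0
      nlinarith
    obtain ⟨k, hk⟩ := exists_small_add_mul (γ 1 1) (γ 1 0) hc
    -- first step
    have e10 : (γ * T ^ k) 1 0 = γ 1 0 := by
      have := congrFun (congrFun (coe_mul_T_zpow γ k) 1) 0
      simpa using this
    have e11 : (γ * T ^ k) 1 1 = γ 1 1 + k * γ 1 0 := by
      have := congrFun (congrFun (coe_mul_T_zpow γ k) 1) 1
      simp only [Matrix.of_apply, Matrix.cons_val', Matrix.cons_val_one, Matrix.cons_val_fin_one]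
        at this
      rw [this]
      ring
    have hdet1 := det_entries (γ * T ^ k)
    rw [e10, e11] at hdet1
    set d₁ : ℤ := γ 1 1 + k * γ 1 0 with hd₁
    have hd₁0 : d₁ ≠ 0 := by
      intro h0
      rw [h0, mul_zero, zero_sub] at hdet1
      have hdvd : γ 1 0 ∣ 1 := ⟨-(γ * T ^ k) 0 1, by linear_combination -hdet1⟩
      have := Int.natAbs_dvd_natAbs.mpr hdvd
      have h1' : (γ 1 0).natAbs = 1 := Nat.dvd_one.mp this
      have : |γ 1 0| = 1 := by
        rw [← Int.natCast_natAbs, h1']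
        rfl
      omega
    have hlt : 2 * |d₁| < |γ 1 0| := by
      rcases lt_or_eq_of_le hk with h | h
      · exact h
      · exfalso
        -- `c = ± 2 d₁`, so `d₁ ∣ 1`
        have hdvd : d₁ ∣ 1 := by
          rcases abs_choice (γ 1 0) with h2 | h2 <;> rcases abs_choice d₁ with h3 | h3
          · rw [h2, h3] at h
            exact ⟨(γ * T ^ k) 0 0 - 2 * (γ * T ^ k) 0 1, by rw [← h] at hdet1; linear_combination -hdet1⟩
          · rw [h2, h3] at h
            exact ⟨(γ * T ^ k) 0 0 + 2 * (γ * T ^ k) 0 1, by rw [← h] at hdet1; linear_combination -hdet1⟩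
          · rw [h2, h3] at h
            exact ⟨(γ * T ^ k) 0 0 + 2 * (γ * T ^ k) 0 1, by
              have : γ 1 0 = -(2 * d₁) := by linarith
              rw [this] at hdet1; linear_combination -hdet1⟩
          · rw [h2, h3] at h
            exact ⟨(γ * T ^ k) 0 0 - 2 * (γ * T ^ k) 0 1, by
              have : γ 1 0 = 2 * d₁ := by linarith
              rw [this] at hdet1; linear_combination -hdet1⟩
        have := Int.natAbs_dvd_natAbs.mpr hdvd
        have h1' : d₁.natAbs = 1 := Nat.dvd_one.mp this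
        have : |d₁| = 1 := by
          rw [← Int.natCast_natAbs, h1']
          rfl
        omega
    have hNd : (N : ℤ) * d₁ ≠ 0 := mul_ne_zero (by exact_mod_cast (by omega : N ≠ 0)) hd₁0
    obtain ⟨m, hm⟩ := exists_small_add_mul (γ 1 0) ((N : ℤ) * d₁) hNd
    have f10 : (γ * T ^ k * lowerU (N * m)) 1 0 = γ 1 0 + m * ((N : ℤ) * d₁) := by
      have := congrFun (congrFun (coe_mul_lowerU (γ * T ^ k) (N * m)) 1) 0
      simp only [Matrix.of_apply, Matrix.cons_val', Matrix.cons_val_one, Matrix.cons_val_zero,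
        Matrix.cons_val_fin_one] at this
      rw [this, e10, e11]
      ring
    have hsmall : |γ 1 0 + m * ((N : ℤ) * d₁)| < |γ 1 0| := by
      rw [abs_mul, Nat.abs_cast] at hm
      have hN4' : (N : ℤ) ≤ 4 := by exact_mod_cast hN4
      have hN0 : (0 : ℤ) ≤ N := by positivity
      have hd0 : 0 ≤ |d₁| := abs_nonneg _
      nlinarith
    have hmem : γ * T ^ k * lowerU (N * m) ∈ CongruenceSubgroup.Gamma0 N :=
      mul_lowerU_mem_Gamma0 (mul_T_zpow_mem_Gamma0 hγ k) m
    have hP := ih ((γ * T ^ k * lowerU (N * m)) 1 0).natAbs (by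
      rw [← hn, f10]
      have := Int.natAbs_lt_natAbs_of_nonneg_of_lt (abs_nonneg _) hsmall
      simpa [Int.natAbs_abs] using this) (γ * T ^ k * lowerU (N * m)) hmem rfl
    have e : γ = γ * T ^ k * lowerU (N * m) * lowerU (N * (-m)) * T ^ (-k) := by
      rw [mul_neg, lowerU_neg, zpow_neg]
      group
    rw [e]
    exact hTk _ _ (hUk _ _ hP)

end Fermat.Agent.T3.helper55
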