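import Mathlib
import Fermat.Agent.T3.helper55_EtaLaw
import Fermat.Agent.T3.helper55_Gamma0Gen

/-!
# Tier 3, [T3-UNIT-ETA] (helper55), part 3: the weight-one laws on `Γ₀(9)` and `Γ₀(4)`

* `law_of_generators` : a function with `f(z+1) = f(z)`, `f(z/(Nz+1)) = u (Nz+1) f(z)` satisfies
  `f(γ z) = ω(γ) (cz + d) f(z)` on `Γ₀(N)` (`N = 3, 4`) for every `ω` with the right behaviour
  under right multiplication by the generators;
* `bEta_smul_three` : `b(γ z) = χ₋₃(d) ζ₃^{-(c/3) a} (cz + d) b(z)` for `γ ∈ Γ₀(3)`;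
* `bEta_smul_nine`  : `b(γ z) = χ₋₃(d) (cz + d) b(z)` for `γ ∈ Γ₀(9)`;
* `lamEta_smul_four`: `λ(γ z) = χ₋₄(d) (cz + d) λ(z)` for `γ ∈ Γ₀(4)`.
-/

set_option autoImplicit false

noncomputable section

open Complex ModularForm
open UpperHalfPlane hiding I
open scoped Real MatrixGroups
open ModularGroup (T)

namespace Fermat.Agent.T3.helper55

/-! ### The action on the upper half plane in coordinates -/

theorem coe_smul_eq (γ : SL(2, ℤ)) (z : ℍ) :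
    ((γ • z : ℍ) : ℂ) = ((γ 0 0 : ℂ) * z + (γ 0 1 : ℂ)) / ((γ 1 0 : ℂ) * z + (γ 1 1 : ℂ)) := by
  rw [UpperHalfPlane.coe_specialLinearGroup_apply]
  simp

theorem autFactor_ne_zero (γ : SL(2, ℤ)) (z : ℍ) : ((γ 1 0 : ℂ) * z + (γ 1 1 : ℂ)) ≠ 0 := by
  have := UpperHalfPlane.denom_ne_zero (γ : GL (Fin 2) ℝ) z
  simpa [UpperHalfPlane.denom] using this

theorem coe_T_smul (z : ℍ) : ((T • z : ℍ) : ℂ) = z + 1 := by
  rw [UpperHalfPlane.modular_T_smul, UpperHalfPlane.coe_vadd]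
  push_cast
  ring

theorem coe_T_inv_smul (z : ℍ) : ((T⁻¹ • z : ℍ) : ℂ) = z - 1 := by
  have := UpperHalfPlane.modular_T_zpow_smul z (-1)
  rw [zpow_neg_one] at this
  rw [this, UpperHalfPlane.coe_vadd]
  push_cast
  ring

theorem coe_lowerU_smul (n : ℤ) (z : ℍ) :
    ((lowerU n • z : ℍ) : ℂ) = z / ((n : ℂ) * z + 1) := by
  rw [coe_smul_eq]
  simp [lowerU]

theorem entries_mul_T (γ : SL(2, ℤ)) :
    (γ * T) 1 0 = γ 1 0 ∧ (γ * T) 1 1 = γ 1 0 + γ 1 1 ∧ (γ * T) 0 0 = γ 0 0 := by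
  have h := coe_mul_T_zpow γ 1
  rw [zpow_one] at h
  refine ⟨?_, ?_, ?_⟩
  · have := congrFun (congrFun h 1) 0
    simpa using this
  · have := congrFun (congrFun h 1) 1
    simpa using this
  · have := congrFun (congrFun h 0) 0
    simpa using this

theorem entries_mul_lowerU (γ : SL(2, ℤ)) (n : ℤ) :
    (γ * lowerU n) 1 0 = γ 1 0 + γ 1 1 * n ∧ (γ * lowerU n) 1 1 = γ 1 1 ∧
      (γ * lowerU n) 0 0 = γ 0 0 + γ 0 1 * n := by
  have h := coe_mul_lowerU γ n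
  refine ⟨?_, ?_, ?_⟩
  · have := congrFun (congrFun h 1) 0
    simpa using this
  · have := congrFun (congrFun h 1) 1
    simpa using this
  · have := congrFun (congrFun h 0) 0
    simpa using this

theorem mul_T_mem {N : ℕ} {γ : SL(2, ℤ)} (hγ : γ ∈ CongruenceSubgroup.Gamma0 N) :
    γ * T ∈ CongruenceSubgroup.Gamma0 N := by
  have := mul_T_zpow_mem_Gamma0 hγ 1
  rwa [zpow_one] at this

theorem mul_T_inv_mem {N : ℕ} {γ : SL(2, ℤ)} (hγ : γ ∈ CongruenceSubgroup.Gamma0 N) :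
    γ * T⁻¹ ∈ CongruenceSubgroup.Gamma0 N := by
  have := mul_T_zpow_mem_Gamma0 hγ (-1)
  rwa [zpow_neg_one] at this

theorem mul_lowerU_mem {N : ℕ} {γ : SL(2, ℤ)} (hγ : γ ∈ CongruenceSubgroup.Gamma0 N) :
    γ * lowerU N ∈ CongruenceSubgroup.Gamma0 N := by
  have := mul_lowerU_mem_Gamma0 hγ 1
  rwa [mul_one] at this

theorem mul_lowerU_inv_mem {N : ℕ} {γ : SL(2, ℤ)} (hγ : γ ∈ CongruenceSubgroup.Gamma0 N) :
    γ * (lowerU N)⁻¹ ∈ CongruenceSubgroup.Gamma0 N := by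
  have := mul_lowerU_mem_Gamma0 hγ (-1)
  rwa [mul_neg, mul_one, lowerU_neg] at this

theorem neg_mem_Gamma0 {N : ℕ} {γ : SL(2, ℤ)} (hγ : γ ∈ CongruenceSubgroup.Gamma0 N) :
    -γ ∈ CongruenceSubgroup.Gamma0 N := by
  rw [mem_Gamma0_iff_dvd] at hγ ⊢
  have : (-γ) 1 0 = -(γ 1 0) := by
    simp [Matrix.SpecialLinearGroup.coe_neg]
  rw [this]
  exact (dvd_neg).mpr hγ

/-! ### The generic law -/

theorem autFactor_key (c d n z : ℂ) (h : n * z + 1 ≠ 0) :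
    (c * (z / (n * z + 1)) + d) * (n * z + 1) = (c + d * n) * z + d := by
  have : z / (n * z + 1) * (n * z + 1) = z := div_mul_cancel₀ z h
  linear_combination c * this

/-- **From the generators to `Γ₀(N)`** (`N = 3, 4`). -/
theorem law_of_generators (N : ℕ) (hN : N = 3 ∨ N = 4) (f : ℂ → ℂ) (ω : SL(2, ℤ) → ℂ)
    (u : ℂ)
    (hfT : ∀ z : ℂ, 0 < z.im → f (z + 1) = f z)
    (hfU : ∀ z : ℂ, 0 < z.im → f (z / ((N : ℂ) * z + 1)) = u * ((N : ℂ) * z + 1) * f z)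
    (hω1 : ω 1 = 1)
    (hωneg : ∀ γ ∈ CongruenceSubgroup.Gamma0 N, ω (-γ) = -ω γ)
    (hωT : ∀ γ ∈ CongruenceSubgroup.Gamma0 N, ω (γ * T) = ω γ)
    (hωU : ∀ γ ∈ CongruenceSubgroup.Gamma0 N, ω (γ * lowerU N) = ω γ * u) :
    ∀ γ ∈ CongruenceSubgroup.Gamma0 N, ∀ z : ℍ,
      f ((γ • z : ℍ) : ℂ) = ω γ * ((γ 1 0 : ℂ) * z + (γ 1 1 : ℂ)) * f z := by
  intro γ hγ
  refine (gamma0_induction N hN
    (fun γ => γ ∈ CongruenceSubgroup.Gamma0 N ∧ ∀ z : ℍ,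
      f ((γ • z : ℍ) : ℂ) = ω γ * ((γ 1 0 : ℂ) * z + (γ 1 1 : ℂ)) * f z)
    ?_ ?_ ?_ ?_ ?_ ?_ γ hγ).2
  · -- `1`
    refine ⟨one_mem _, fun z => ?_⟩
    rw [one_smul, hω1]
    simp
  · -- negation
    rintro γ ⟨hγ, h⟩
    refine ⟨neg_mem_Gamma0 hγ, fun z => ?_⟩
    have e1 : ((-γ) • z : ℍ) = γ • z := by
      apply UpperHalfPlane.ext
      rw [coe_smul_eq, coe_smul_eq]
      simp only [Matrix.SpecialLinearGroup.coe_neg, Matrix.neg_apply, Int.cast_neg]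
      rw [show (-(γ 0 0 : ℂ) * z + -(γ 0 1 : ℂ)) = -((γ 0 0 : ℂ) * z + (γ 0 1 : ℂ)) by ring,
        show (-(γ 1 0 : ℂ) * z + -(γ 1 1 : ℂ)) = -((γ 1 0 : ℂ) * z + (γ 1 1 : ℂ)) by ring,
        neg_div_neg_eq]
    rw [e1, h z, hωneg γ hγ]
    simp only [Matrix.SpecialLinearGroup.coe_neg, Matrix.neg_apply, Int.cast_neg]
    ring
  · -- `T`
    rintro γ ⟨hγ, h⟩
    refine ⟨mul_T_mem hγ, fun z => ?_⟩
    obtain ⟨e10, e11, -⟩ := entries_mul_T γ
    rw [mul_smul, h (T • z), coe_T_smul, hfT _ z.im_pos, hωT γ hγ, e10, e11]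
    push_cast
    ring
  · -- `T⁻¹`
    rintro γ ⟨hγ, h⟩
    refine ⟨mul_T_inv_mem hγ, fun z => ?_⟩
    have hω : ω (γ * T⁻¹) = ω γ := by
      have := hωT (γ * T⁻¹) (mul_T_inv_mem hγ)
      rw [inv_mul_cancel_right] at this
      exact this.symm
    have hf : f ((z : ℂ) - 1) = f z := by
      have := hfT ((z : ℂ) - 1) (by rw [im_sub_one]; exact z.im_pos)
      rw [sub_add_cancel] at this
      exact this.symm
    obtain ⟨e10, e11, -⟩ := entries_mul_T (γ * T⁻¹)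
    rw [inv_mul_cancel_right] at e10 e11
    rw [mul_smul, h (T⁻¹ • z), coe_T_inv_smul, hf, hω, e10, e11]
    push_cast
    ring
  · -- `U`
    rintro γ ⟨hγ, h⟩
    refine ⟨mul_lowerU_mem hγ, fun z => ?_⟩
    obtain ⟨e10, e11, -⟩ := entries_mul_lowerU γ N
    have hne : ((N : ℂ) * z + 1) ≠ 0 := by
      have := autFactor_ne_zero (lowerU N) z
      simpa [lowerU] using this
    have key := autFactor_key (γ 1 0 : ℂ) (γ 1 1 : ℂ) (N : ℂ) z hne
    rw [mul_smul, h (lowerU N • z), coe_lowerU_smul, hωU γ hγ, e10, e11]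
    push_cast
    rw [hfU _ z.im_pos, ← key]
    ring
  · -- `U⁻¹`
    rintro γ ⟨hγ, h⟩
    refine ⟨mul_lowerU_inv_mem hγ, fun z => ?_⟩
    have hω : ω (γ * (lowerU N)⁻¹) * u = ω γ := by
      have := hωU (γ * (lowerU N)⁻¹) (mul_lowerU_inv_mem hγ)
      rw [inv_mul_cancel_right] at this
      exact this.symm
    set w : ℍ := (lowerU N)⁻¹ • z with hw
    have hzw : z = lowerU N • w := by
      rw [hw, smul_smul, mul_inv_cancel, one_smul]
    have hne : ((N : ℂ) * w + 1) ≠ 0 := by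
      have := autFactor_ne_zero (lowerU N) w
      simpa [lowerU] using this
    have hzw' : (z : ℂ) = w / ((N : ℂ) * w + 1) := by
      conv_lhs => rw [hzw]
      rw [coe_lowerU_smul]
      push_cast
      ring
    have hf : f z = u * ((N : ℂ) * w + 1) * f w := by
      rw [hzw']
      exact hfU _ w.im_pos
    obtain ⟨e10, e11, -⟩ := entries_mul_lowerU (γ * (lowerU N)⁻¹) N
    rw [inv_mul_cancel_right] at e10 e11
    have key := autFactor_key ((γ * (lowerU N)⁻¹) 1 0 : ℂ) ((γ * (lowerU N)⁻¹) 1 1 : ℂ)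
      (N : ℂ) w hne
    rw [mul_smul, ← hw, h w, hf, ← hω, hzw', e10, e11]
    push_cast
    rw [← key]
    ring

/-! ### The characters -/

/-- the quadratic character `χ₋₃` on integers -/
def chi3 (d : ℤ) : ℂ := if d % 3 = 1 then 1 else if d % 3 = 2 then -1 else 0

/-- the quadratic character `χ₋₄` on integers -/
def chi4 (d : ℤ) : ℂ := if d % 4 = 1 then 1 else if d % 4 = 3 then -1 else 0

theorem chi3_neg (d : ℤ) : chi3 (-d) = -chi3 d := by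
  unfold chi3
  have h : d % 3 = 0 ∨ d % 3 = 1 ∨ d % 3 = 2 := by omega
  rcases h with h | h | h
  · have h' : (-d) % 3 = 0 := by omega
    simp [h, h']
  · have h' : (-d) % 3 = 2 := by omega
    simp [h, h']
  · have h' : (-d) % 3 = 1 := by omega
    simp [h, h']

theorem chi3_add_mul (d k : ℤ) : chi3 (3 * k + d) = chi3 d := by
  unfold chi3
  have h : (3 * k + d) % 3 = d % 3 := by omega
  rw [h]

theorem chi4_neg (d : ℤ) (hd : d % 2 = 1) : chi4 (-d) = -chi4 d := by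
  unfold chi4
  have h : d % 4 = 1 ∨ d % 4 = 3 := by omega
  rcases h with h | h
  · have h' : (-d) % 4 = 3 := by omega
    simp [h, h']
  · have h' : (-d) % 4 = 1 := by omega
    simp [h, h']

theorem chi4_add_mul (d k : ℤ) : chi4 (4 * k + d) = chi4 d := by
  unfold chi4
  have h : (4 * k + d) % 4 = d % 4 := by omega
  rw [h]

theorem chi3_one : chi3 1 = 1 := by simp [chi3]

theorem chi4_one : chi4 1 = 1 := by simp [chi4]

theorem zeta3inv_zpow_three_mul (t : ℤ) : zeta3inv ^ (3 * t) = 1 := by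
  rw [zpow_mul, show (3 : ℤ) = ((3 : ℕ) : ℤ) by rfl, zpow_natCast, zeta3inv_pow_three, one_zpow]

theorem zeta3inv_zpow_add (e t : ℤ) : zeta3inv ^ (e + 3 * t) = zeta3inv ^ e := by
  rw [zpow_add₀ zeta3inv_ne_zero, zeta3inv_zpow_three_mul, mul_one]

/-- the multiplier of `b` on `Γ₀(3)` -/
def omega3 (γ : SL(2, ℤ)) : ℂ := chi3 (γ 1 1) * zeta3inv ^ ((γ 1 0 / 3) * γ 0 0)

theorem entries_neg (γ : SL(2, ℤ)) :
    (-γ) 1 0 = -(γ 1 0) ∧ (-γ) 1 1 = -(γ 1 1) ∧ (-γ) 0 0 = -(γ 0 0) := by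
  refine ⟨?_, ?_, ?_⟩ <;> simp [Matrix.SpecialLinearGroup.coe_neg]

/-! ### The laws -/

/-- **the weight-one law of `b = η(z)³/η(3z)` on `Γ₀(3)`** (with its multiplier) -/
theorem bEta_smul_three (γ : SL(2, ℤ)) (hγ : γ ∈ CongruenceSubgroup.Gamma0 3) (z : ℍ) :
    bEta ((γ • z : ℍ) : ℂ) = omega3 γ * ((γ 1 0 : ℂ) * z + (γ 1 1 : ℂ)) * bEta z := by
  refine law_of_generators 3 (Or.inl rfl) bEta omega3 zeta3inv (fun z hz => bEta_add_one z hz)
    (fun z hz => ?_) ?_ ?_ ?_ ?_ γ hγ z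
  · have := bEta_U3 hz
    simpa using this
  · -- `ω 1 = 1`
    simp [omega3, chi3_one]
  · -- negation
    intro γ hγ
    obtain ⟨c', hc'⟩ := mem_Gamma0_iff_dvd.mp hγ
    obtain ⟨e10, e11, e00⟩ := entries_neg γ
    unfold omega3
    rw [e10, e11, e00, chi3_neg, hc']
    have : -(((3 : ℕ) : ℤ) * c') / 3 * -(γ 0 0) = ((3 : ℕ) : ℤ) * c' / 3 * γ 0 0 := by
      have h1 : -(((3 : ℕ) : ℤ) * c') / 3 = -c' := by omega
      have h2 : ((3 : ℕ) : ℤ) * c' / 3 = c' := by omega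
      rw [h1, h2]
      ring
    rw [this]
    ring
  · -- `T`
    intro γ hγ
    obtain ⟨c', hc'⟩ := mem_Gamma0_iff_dvd.mp hγ
    obtain ⟨e10, e11, e00⟩ := entries_mul_T γ
    unfold omega3
    rw [e10, e11, e00, hc']
    have : ((3 : ℕ) : ℤ) * c' + γ 1 1 = 3 * c' + γ 1 1 := by norm_num
    rw [this, chi3_add_mul]
  · -- `U`
    intro γ hγ
    obtain ⟨c', hc'⟩ := mem_Gamma0_iff_dvd.mp hγ
    obtain ⟨e10, e11, e00⟩ := entries_mul_lowerU γ ((3 : ℕ) : ℤ)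
    have hdet := det_entries γ
    unfold omega3
    rw [e10, e11, e00, hc', mul_assoc]
    congr 1
    have h1 : (((3 : ℕ) : ℤ) * c' + γ 1 1 * ((3 : ℕ) : ℤ)) / 3 = c' + γ 1 1 := by
      push_cast
      omega
    have h2 : ((3 : ℕ) : ℤ) * c' / 3 = c' := by
      push_cast
      omega
    rw [h1, h2]
    rw [hc'] at hdet
    have h3 : (c' + γ 1 1) * (γ 0 0 + γ 0 1 * ((3 : ℕ) : ℤ)) =
        (c' * γ 0 0 + 1) + 3 * (2 * c' * γ 0 1 + γ 1 1 * γ 0 1) := by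
      push_cast at hdet ⊢
      linear_combination hdet
    rw [h3, zeta3inv_zpow_add, zpow_add₀ zeta3inv_ne_zero, zpow_one]

/-- **the weight-one law of `b = η(z)³/η(3z)` on `Γ₀(9)`**:
`b(γ z) = χ₋₃(d) (cz + d) b(z)` -/
theorem bEta_smul_nine (γ : SL(2, ℤ)) (hγ : γ ∈ CongruenceSubgroup.Gamma0 9) (z : ℍ) :
    bEta ((γ • z : ℍ) : ℂ) = chi3 (γ 1 1) * ((γ 1 0 : ℂ) * z + (γ 1 1 : ℂ)) * bEta z := by
  obtain ⟨c', hc'⟩ := mem_Gamma0_iff_dvd.mp hγ
  have h3 : γ ∈ CongruenceSubgroup.Gamma0 3 := by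
    rw [mem_Gamma0_iff_dvd, hc']
    exact ⟨3 * c', by push_cast; ring⟩
  rw [bEta_smul_three γ h3 z]
  congr 2
  unfold omega3
  have h1 : γ 1 0 / 3 * γ 0 0 = 3 * (c' * γ 0 0) := by
    rw [hc']
    have : ((9 : ℕ) : ℤ) * c' / 3 = 3 * c' := by
      push_cast
      omega
    rw [this]
    ring
  rw [h1, zeta3inv_zpow_three_mul, mul_one]

/-- the multiplier of `λ` on `Γ₀(4)` -/
def omega4 (γ : SL(2, ℤ)) : ℂ := chi4 (γ 1 1)

/-- **the weight-one law of `λ = η(2z)¹⁰/(η(z)η(4z))⁴` on `Γ₀(4)`**: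
`λ(γ z) = χ₋₄(d) (cz + d) λ(z)` -/
theorem lamEta_smul_four (γ : SL(2, ℤ)) (hγ : γ ∈ CongruenceSubgroup.Gamma0 4) (z : ℍ) :
    lamEta ((γ • z : ℍ) : ℂ) = chi4 (γ 1 1) * ((γ 1 0 : ℂ) * z + (γ 1 1 : ℂ)) * lamEta z := by
  refine law_of_generators 4 (Or.inr rfl) lamEta omega4 1
    (fun z hz => lamEta_add_one z hz) (fun z hz => ?_) ?_ ?_ ?_ ?_ γ hγ z
  · have := lamEta_U4 hz
    simpa using this
  · simp [omega4, chi4_one]
  · intro γ hγ
    obtain ⟨c', hc'⟩ := mem_Gamma0_iff_dvd.mp hγ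
    obtain ⟨e10, e11, e00⟩ := entries_neg γ
    have hdet := det_entries γ
    unfold omega4
    rw [e11]
    apply chi4_neg
    rw [hc'] at hdet
    push_cast at hdet
    have : γ 0 0 * γ 1 1 % 2 = 1 := by
      have : γ 0 0 * γ 1 1 = 1 + 2 * (2 * γ 0 1 * c') := by linear_combination hdet
      rw [this]
      omega
    rcases Int.emod_two_eq_zero_or_one (γ 1 1) with h | h
    · exfalso
      have : γ 0 0 * γ 1 1 % 2 = 0 := by
        rw [Int.mul_emod, h]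
        simp
      omega
    · exact h
  · intro γ hγ
    obtain ⟨c', hc'⟩ := mem_Gamma0_iff_dvd.mp hγ
    obtain ⟨e10, e11, e00⟩ := entries_mul_T γ
    unfold omega4
    rw [e11, hc']
    have : ((4 : ℕ) : ℤ) * c' + γ 1 1 = 4 * c' + γ 1 1 := by norm_num
    rw [this, chi4_add_mul]
  · intro γ hγ
    obtain ⟨e10, e11, e00⟩ := entries_mul_lowerU γ ((4 : ℕ) : ℤ)
    unfold omega4
    rw [e11, mul_one]

end Fermat.Agent.T3.helper55

end
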