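import Fermat.Agent.T3.helper16_UnitDefs
import Fermat.Agent.T3.helper55_EtaMult

/-!
# T3 / [UNIT-LAW4] (helper55): `helper16.Law4Statement` (and a spare `Law9Statement`)

`lam4 τ = η(2τ)¹⁰ / (η(τ)⁴ η(4τ)⁴)` has weight one and character `χ₋₄` on `Γ₀(4)`:
this is `helper55.lamEta_smul_four` (Mathlib's `S`-law of `η`, the laws at `T` and at
`[[1,0],[4,1]]`, and the induction principle `helper55.gamma0_induction`).

Also: nonvanishing of `lam4`, `lam9`, and the values of the two characters are in `{0, 1, -1}`.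
-/

set_option autoImplicit false

open UpperHalfPlane CongruenceSubgroup
open scoped MatrixGroups

namespace Fermat.Agent.T3.helper55

theorem chi4_eq_helper16 : Fermat.Agent.T3.helper16.chi4 = chi4 := by
  funext d
  simp only [Fermat.Agent.T3.helper16.chi4, chi4]

theorem chi3_eq_helper16 : Fermat.Agent.T3.helper16.chi3 = chi3 := by
  funext d
  simp only [Fermat.Agent.T3.helper16.chi3, chi3]

theorem lam4_eq_lamEta (τ : ℍ) : Fermat.Agent.T3.helper16.lam4 τ = lamEta (τ : ℂ) := by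
  simp only [Fermat.Agent.T3.helper16.lam4, lamEta]

theorem lam9_eq_bEta (τ : ℍ) : Fermat.Agent.T3.helper16.lam9 τ = bEta (τ : ℂ) := by
  simp only [Fermat.Agent.T3.helper16.lam9, bEta]

/-- **[UNIT-LAW4]** -/
theorem law4 : Fermat.Agent.T3.helper16.Law4Statement := by
  intro γ hγ τ
  rw [lam4_eq_lamEta, lam4_eq_lamEta, chi4_eq_helper16]
  exact lamEta_smul_four γ hγ τ

/-- **[UNIT-LAW9]** (spare; `helper44.law9` is the primary). -/
theorem law9_spare : Fermat.Agent.T3.helper16.Law9Statement := by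
  intro γ hγ τ
  rw [lam9_eq_bEta, lam9_eq_bEta, chi3_eq_helper16]
  exact bEta_smul_nine γ hγ τ

theorem lam4_ne_zero (τ : ℍ) : Fermat.Agent.T3.helper16.lam4 τ ≠ 0 := by
  rw [lam4_eq_lamEta]
  exact lamEta_ne_zero τ.im_pos

theorem lam9_ne_zero (τ : ℍ) : Fermat.Agent.T3.helper16.lam9 τ ≠ 0 := by
  rw [lam9_eq_bEta]
  exact bEta_ne_zero τ.im_pos

theorem chi4_values (d : ℤ) : Fermat.Agent.T3.helper16.chi4 d = 0 ∨
    Fermat.Agent.T3.helper16.chi4 d = 1 ∨ Fermat.Agent.T3.helper16.chi4 d = -1 := by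
  unfold Fermat.Agent.T3.helper16.chi4
  split_ifs <;> simp

theorem chi3_values (d : ℤ) : Fermat.Agent.T3.helper16.chi3 d = 0 ∨
    Fermat.Agent.T3.helper16.chi3 d = 1 ∨ Fermat.Agent.T3.helper16.chi3 d = -1 := by
  unfold Fermat.Agent.T3.helper16.chi3
  split_ifs <;> simp

end Fermat.Agent.T3.helper55
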