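import Mathlib
import Fermat.Agent.T3.helper16_UnitDefs
import Fermat.Agent.S24.helper17_EtaProd

/-!
# T3 / [UNIT-QEXP] (helper59): the `q`-expansions of `lam4` and `lam9`

`lam4 τ = η(2τ)¹⁰ / (η(τ)⁴ η(4τ)⁴)` and `lam9 τ = η(τ)³ / η(3τ)` of `helper16_UnitDefs` have
`q`-expansions in `1 + t ℤ[[t]]`: the factors `q^(1/24)` cancel (`2·10 - 4 - 4·4 = 0`,
`3 - 3 = 0`) and what remains is a quotient of products of `∏ (1 - q^(dn))`.

* `qexp4`, `qexp9` : the field `qexp` of `helper16.IsWtOneUnit` for `lam4`, `lam9` (verbatim).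
* `isNice_lam4`, `isNice_lam9`, `lam4_ne_zero`, `lam9_ne_zero`, `mdiff_lam4`, `mdiff_lam9`
  (by-products: fields `mdiff`, `ne_zero`).
-/

set_option autoImplicit false

noncomputable section

open ModularCurve UpperHalfPlane ModularForm Function Filter
open scoped MatrixGroups Manifold Topology

namespace Fermat.Agent.T3.helper59

open Fermat.Agent.S24 Fermat.Agent.S24.helper17 Fermat.Agent.P2.helper66
open Fermat.Agent.T3.helper16

local notation "𝕢" => Periodic.qParam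

/-! ### `η(d τ)` in terms of the eta product -/

theorem qParam24_nat_mul (d : ℕ) (z : ℂ) : 𝕢 24 ((d : ℂ) * z) = 𝕢 24 z ^ d := by
  simp only [Periodic.qParam]
  rw [← Complex.exp_nat_mul]
  congr 1
  ring

theorem eta_coe (τ : ℍ) : ModularForm.eta (τ : ℂ) = 𝕢 24 (τ : ℂ) * etaBH τ := rfl

theorem eta_nat_mul (d : ℕ) [NeZero d] (τ : ℍ) :
    ModularForm.eta ((d : ℂ) * (τ : ℂ)) = 𝕢 24 (τ : ℂ) ^ d * etaBH (scaleH d τ) := by
  rw [ModularForm.eta, qParam24_nat_mul]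
  rfl

theorem qParam24_ne_zero (z : ℂ) : 𝕢 24 z ≠ 0 := Periodic.qParam_ne_zero z

theorem lam4_eq (τ : ℍ) :
    lam4 τ = etaBH (scaleH 2 τ) ^ 10 / (etaBH τ ^ 4 * etaBH (scaleH 4 τ) ^ 4) := by
  have h2 := eta_nat_mul 2 τ
  have h4 := eta_nat_mul 4 τ
  simp only [Nat.cast_ofNat] at h2 h4
  rw [lam4, h2, h4, eta_coe]
  have hq : 𝕢 24 (τ : ℂ) ≠ 0 := qParam24_ne_zero _
  have h1 := etaBH_ne_zero τ
  have h4' := etaBH_ne_zero (scaleH 4 τ)
  field_simp

theorem lam9_eq (τ : ℍ) : lam9 τ = etaBH τ ^ 3 / etaBH (scaleH 3 τ) := by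
  have h3 := eta_nat_mul 3 τ
  simp only [Nat.cast_ofNat] at h3
  rw [lam9, h3, eta_coe]
  have hq : 𝕢 24 (τ : ℂ) ≠ 0 := qParam24_ne_zero _
  have h3' := etaBH_ne_zero (scaleH 3 τ)
  field_simp

theorem lam4_ne_zero (τ : ℍ) : lam4 τ ≠ 0 := by
  rw [lam4_eq]
  exact div_ne_zero (pow_ne_zero _ (etaBH_ne_zero _))
    (mul_ne_zero (pow_ne_zero _ (etaBH_ne_zero _)) (pow_ne_zero _ (etaBH_ne_zero _)))

theorem lam9_ne_zero (τ : ℍ) : lam9 τ ≠ 0 := by
  rw [lam9_eq]
  exact div_ne_zero (pow_ne_zero _ (etaBH_ne_zero _)) (etaBH_ne_zero _)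

/-! ### Niceness -/

theorem pow_mem_ball {q : ℂ} (hq : q ∈ Metric.ball (0 : ℂ) 1) {d : ℕ} (hd : d ≠ 0) :
    q ^ d ∈ Metric.ball (0 : ℂ) 1 := by
  rw [mem_ball_zero_iff] at hq ⊢
  rw [norm_pow]
  exact pow_lt_one₀ (norm_nonneg _) hq hd

theorem differentiableOn_etaB_pow {d : ℕ} (hd : d ≠ 0) :
    DifferentiableOn ℂ (fun q : ℂ => etaB (q ^ d)) (Metric.ball (0 : ℂ) 1) := by
  refine differentiableOn_etaB.comp (f := fun q : ℂ => q ^ d) ?_ fun q hq => pow_mem_ball hq hd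
  exact (differentiable_pow d).differentiableOn

theorem etaB_pow_ne_zero {q : ℂ} (hq : q ∈ Metric.ball (0 : ℂ) 1) {d : ℕ} (hd : d ≠ 0) :
    etaB (q ^ d) ≠ 0 :=
  etaB_ne_zero (by simpa using pow_mem_ball hq hd)

/-- `lam4` as a function of `q`. -/
def lamG4 (q : ℂ) : ℂ := etaB (q ^ 2) ^ 10 / (etaB q ^ 4 * etaB (q ^ 4) ^ 4)

/-- `lam9` as a function of `q`. -/
def lamG9 (q : ℂ) : ℂ := etaB q ^ 3 / etaB (q ^ 3)

theorem differentiableOn_lamG4 : DifferentiableOn ℂ lamG4 (Metric.ball (0 : ℂ) 1) := by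
  unfold lamG4
  refine DifferentiableOn.div ((differentiableOn_etaB_pow (d := 2) (by norm_num)).pow 10)
    ((differentiableOn_etaB.pow 4).mul ((differentiableOn_etaB_pow (d := 4) (by norm_num)).pow 4))
    fun q hq => ?_
  exact mul_ne_zero (pow_ne_zero _ (etaB_ne_zero (by simpa using hq)))
    (pow_ne_zero _ (etaB_pow_ne_zero hq (by norm_num)))

theorem differentiableOn_lamG9 : DifferentiableOn ℂ lamG9 (Metric.ball (0 : ℂ) 1) := by
  unfold lamG9
  exact DifferentiableOn.div (differentiableOn_etaB.pow 3)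
    (differentiableOn_etaB_pow (d := 3) (by norm_num))
    fun q hq => etaB_pow_ne_zero hq (by norm_num)

theorem lam4_eq_lamG4 (τ : ℍ) : lam4 τ = lamG4 (𝕢 1 τ) := by
  rw [lam4_eq, lamG4, etaBH_eq, etaBH_eq, etaBH_eq, qParam_scaleH, qParam_scaleH]

theorem lam9_eq_lamG9 (τ : ℍ) : lam9 τ = lamG9 (𝕢 1 τ) := by
  rw [lam9_eq, lamG9, etaBH_eq, etaBH_eq, qParam_scaleH]

theorem isNice_lam4 : IsNice lam4 :=
  (isNice_comp_qParam lamG4 differentiableOn_lamG4).congr fun τ => (lam4_eq_lamG4 τ).symm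

theorem isNice_lam9 : IsNice lam9 :=
  (isNice_comp_qParam lamG9 differentiableOn_lamG9).congr fun τ => (lam9_eq_lamG9 τ).symm

theorem mdiff_lam4 : MDiff lam4 := isNice_lam4.mdiff

theorem mdiff_lam9 : MDiff lam9 := isNice_lam9.mdiff

/-! ### `q`-expansions of the eta products -/

theorem isQExp_etaBH : IsQExp (iota ℂ etaProd) etaBH := by
  have h := IsQExp.of_isNice isNice_etaBH
  rw [qExpansion_etaBH] at h
  exact h

theorem isQExp_etaBH_scale (d : ℕ) [NeZero d] :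
    IsQExp (iota ℂ (ex d etaProd)) (fun τ => etaBH (scaleH d τ)) := by
  rw [iota_ex]
  exact isQExp_etaBH.comp_scale d

theorem constantCoeff_ex (d : ℕ) (P : PowerSeries ℤ) :
    PowerSeries.constantCoeff (ex d P) = PowerSeries.constantCoeff P := by
  rw [← PowerSeries.coeff_zero_eq_constantCoeff_apply, coeff_ex, if_pos (dvd_zero d),
    Nat.zero_div, PowerSeries.coeff_zero_eq_constantCoeff_apply]

/-- abstract division step: if `g * gD = gN` with `g` nice, and `gD`, `gN` have integral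
`q`-expansions `D`, `N` with `D(0) = 1`, `N(0) = 1`, then `g` has the integral `q`-expansion
`N / D`. -/
theorem isQExp_of_mul_eq {g gD gN : ℍ → ℂ} (hg : IsNice g) {D N : PowerSeries ℤ}
    (hD : PowerSeries.constantCoeff D = 1) (hN : PowerSeries.constantCoeff N = 1)
    (hgD : IsQExp (iota ℂ D) gD) (hgN : IsQExp (iota ℂ N) gN)
    (hmul : ∀ τ, g τ * gD τ = gN τ) :
    ∃ L : PowerSeries ℤ, PowerSeries.constantCoeff L = 1 ∧ IsQExp (iota ℂ L) g := by
  have hDu : PowerSeries.constantCoeff D = ((1 : ℤˣ) : ℤ) := by rw [hD]; rfl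
  have hinv : D.invOfUnit 1 * D = 1 := by
    rw [mul_comm]
    exact PowerSeries.mul_invOfUnit D 1 hDu
  refine ⟨N * D.invOfUnit 1, ?_, ?_⟩
  · have h := congrArg (PowerSeries.constantCoeff (R := ℤ)) hinv
    rw [map_mul, hD, mul_one, map_one] at h
    rw [map_mul, hN, h, mul_one]
  · have h1 : IsQExp (HahnSeries.ofPowerSeries ℤ ℂ (qExpansion 1 g)) g := IsQExp.of_isNice hg
    have h2 : IsQExp (HahnSeries.ofPowerSeries ℤ ℂ (qExpansion 1 g) * iota ℂ D) gN :=
      (h1.mul hgD).congr_right fun τ => by rw [Pi.mul_apply, hmul]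
    have e := h2.left_unique hgN
    have e2 : iota ℂ (N * D.invOfUnit 1) * iota ℂ D = iota ℂ N := by
      rw [← map_mul, mul_assoc, hinv, mul_one]
    have hD0 : iota ℂ D ≠ 0 := by
      intro h0
      have h := congrArg (iota ℂ) hinv
      rw [map_mul, h0, mul_zero, map_one] at h
      exact zero_ne_one h
    have e3 : HahnSeries.ofPowerSeries ℤ ℂ (qExpansion 1 g) = iota ℂ (N * D.invOfUnit 1) :=
      mul_right_cancel₀ hD0 (e.trans e2.symm)
    rw [← e3]
    exact h1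

/-! ### The two statements -/

/-- **[UNIT-QEXP]** for `lam4` (field `qexp` of `helper16.IsWtOneUnit`, verbatim). -/
theorem qexp4 : ∃ L : PowerSeries ℤ, PowerSeries.constantCoeff L = 1 ∧
    IsQExp (Fermat.Agent.P2.helper66.iota ℂ L) lam4 := by
  refine isQExp_of_mul_eq (gD := fun τ => etaBH τ ^ 4 * etaBH (scaleH 4 τ) ^ 4)
    (gN := fun τ => etaBH (scaleH 2 τ) ^ 10)
    (D := etaProd ^ 4 * ex 4 etaProd ^ 4) (N := ex 2 etaProd ^ 10) isNice_lam4 ?_ ?_ ?_ ?_ ?_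
  · rw [map_mul, map_pow, map_pow, constantCoeff_ex, constantCoeff_etaProd, one_pow, mul_one]
  · rw [map_pow, constantCoeff_ex, constantCoeff_etaProd, one_pow]
  · rw [map_mul, map_pow, map_pow]
    exact ((isQExp_etaBH.pow 4).mul ((isQExp_etaBH_scale 4).pow 4)).congr_right fun τ => rfl
  · rw [map_pow]
    exact ((isQExp_etaBH_scale 2).pow 10).congr_right fun τ => rfl
  · intro τ
    rw [lam4_eq]
    have h1 := etaBH_ne_zero τ
    have h4 := etaBH_ne_zero (scaleH 4 τ)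
    field_simp

/-- **[UNIT-QEXP]** for `lam9` (field `qexp` of `helper16.IsWtOneUnit`, verbatim). -/
theorem qexp9 : ∃ L : PowerSeries ℤ, PowerSeries.constantCoeff L = 1 ∧
    IsQExp (Fermat.Agent.P2.helper66.iota ℂ L) lam9 := by
  refine isQExp_of_mul_eq (gD := fun τ => etaBH (scaleH 3 τ))
    (gN := fun τ => etaBH τ ^ 3)
    (D := ex 3 etaProd) (N := etaProd ^ 3) isNice_lam9 ?_ ?_ ?_ ?_ ?_
  · rw [constantCoeff_ex, constantCoeff_etaProd]
  · rw [map_pow, constantCoeff_etaProd, one_pow]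
  · exact isQExp_etaBH_scale 3
  · rw [map_pow]
    exact (isQExp_etaBH.pow 3).congr_right fun τ => rfl
  · intro τ
    rw [lam9_eq]
    have h3 := etaBH_ne_zero (scaleH 3 τ)
    field_simp

end Fermat.Agent.T3.helper59
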