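import Mathlib
import Fermat.Agent.T3.helper16_Unit
import Fermat.Agent.T3.helper55_UnitLaw
import Fermat.Agent.T3.helper59_UnitQExp

/-!
# T3 / [T3-UNIT] (helper16): wiring of the leaves

`unitStatement_of_growth : Growth4Statement → Growth9Statement → GoodLevel-type hypothesis →
UnitStatement N q hq hqN`, from [UNIT-LAW4], [UNIT-LAW9] (helper55), [UNIT-QEXP] (helper59) and
the generic part.  The two growth statements are the fields `growth` of `IsWtOneUnit`
([UNIT-GROW]).
-/

set_option autoImplicit false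
set_option linter.unusedSectionVars false

noncomputable section

open UpperHalfPlane ModularForm CongruenceSubgroup ModularCurve
open scoped MatrixGroups Manifold

namespace Fermat.Agent.T3.helper16

open Fermat.Agent.S24 Fermat.Agent.S24.helper17 Fermat.Agent.S24.helper77

/-- **[UNIT-GROW]** for `lam4`. -/
def Growth4Statement : Prop :=
  ∀ g : SL(2, ℤ), (lam4 ∣[(1 : ℤ)] g) ∈ holoExp ∧
    ((fun τ => (lam4 τ)⁻¹) ∣[(-1 : ℤ)] g) ∈ holoExp

/-- **[UNIT-GROW]** for `lam9`. -/
def Growth9Statement : Prop :=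
  ∀ g : SL(2, ℤ), (lam9 ∣[(1 : ℤ)] g) ∈ holoExp ∧
    ((fun τ => (lam9 τ)⁻¹) ∣[(-1 : ℤ)] g) ∈ holoExp

theorem isWtOneUnit_lam4 (hg : Growth4Statement) : IsWtOneUnit 4 lam4 where
  mdiff := Fermat.Agent.T3.helper59.mdiff_lam4
  ne_zero := Fermat.Agent.T3.helper59.lam4_ne_zero
  law := ⟨chi4, Fermat.Agent.T3.helper55.chi4_values, Fermat.Agent.T3.helper55.law4⟩
  growth := hg
  qexp := Fermat.Agent.T3.helper59.qexp4

theorem isWtOneUnit_lam9 (hg : Growth9Statement) : IsWtOneUnit 9 lam9 where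
  mdiff := Fermat.Agent.T3.helper59.mdiff_lam9
  ne_zero := Fermat.Agent.T3.helper59.lam9_ne_zero
  law := ⟨chi3, Fermat.Agent.T3.helper55.chi3_values, Fermat.Agent.T3.helper55.law9_spare⟩
  growth := hg
  qexp := Fermat.Agent.T3.helper59.qexp9

/-- **[T3-UNIT]** from the two growth statements. -/
theorem unitStatement_of_growth (h4 : Growth4Statement) (h9 : Growth9Statement)
    {N q : ℕ} [NeZero N] [NeZero q] (hq : q.Prime) (hqN : ¬ q ∣ N) (hN : 4 ∣ N ∨ 9 ∣ N) :
    UnitStatement N q hq hqN := by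
  rcases hN with h | h
  · exact unitStatement_of_isWtOneUnit (isWtOneUnit_lam4 h4) hq hqN h
  · exact unitStatement_of_isWtOneUnit (isWtOneUnit_lam9 h9) hq hqN h

end Fermat.Agent.T3.helper16
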