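import Mathlib
import Fermat.Agent.T3.helper16_UnitWire

/-!
# T3 / [UNIT-GROW] (helper16, second prover): growth of the translates of `lam4`, `lam9`

The `24`-th powers of `lam4`, `lam9` and of their inverses are products of functions
`Δ^{±1} ∘ (d ·)`; all slashes of these lie in `holoExp` (`comp_scaleH_slash_mem`), hence so do
the slashes of `lam^{±1}` (`mem_holoExp_of_pow_mem`).
-/

set_option autoImplicit false
set_option linter.unusedSectionVars false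

noncomputable section

open UpperHalfPlane ModularForm CongruenceSubgroup ModularCurve
open scoped MatrixGroups Manifold

namespace Fermat.Agent.T3.helper16

open Fermat.Agent.S24 Fermat.Agent.S24.helper17 Fermat.Agent.S24.helper77
open Fermat.Agent.P3.helper48 (discPow discPow_smul discPow_mem_holoExp mem_holoExp_of_pow_mem)

local notation "Δ" => ModularForm.discriminant

/-- All slashes of `Δ ^ (-k)` in weight `-12 k` are `Δ ^ (-k)`. -/
theorem discPow_slash (k : ℤ) (g : SL(2, ℤ)) : (discPow k) ∣[(-(12 * k) : ℤ)] g = discPow k := by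
  funext τ
  rw [SL_slash_apply, discPow_smul]
  have hd : denom g τ ≠ 0 := denom_ne_zero _ τ
  rw [← zpow_natCast, ← zpow_mul, mul_comm _ (discPow k τ), mul_assoc, ← zpow_add₀ hd]
  have : -k * ((12 : ℕ) : ℤ) + - -(12 * k) = 0 := by push_cast; ring
  rw [this, zpow_zero, mul_one]

theorem discPow_slash_mem (k : ℤ) (g : SL(2, ℤ)) :
    (discPow k) ∣[(-(12 * k) : ℤ)] g ∈ holoExp := by
  rw [discPow_slash]
  exact discPow_mem_holoExp k

/-- `Δ^{-k} ∘ (d ·)`. -/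
def discPowD (k : ℤ) (d : ℕ) [NeZero d] (τ : ℍ) : ℂ := discPow k (scaleH d τ)

theorem discPowD_slash_mem (k : ℤ) (d : ℕ) [NeZero d] (g : SL(2, ℤ)) :
    (discPowD k d) ∣[(-(12 * k) : ℤ)] g ∈ holoExp :=
  comp_scaleH_slash_mem _ (fun δ => discPow_slash_mem k δ) d g

theorem pow_slash_SL2 (k : ℤ) (f : ℍ → ℂ) (n : ℕ) (g : SL(2, ℤ)) :
    (f ^ n) ∣[(n * k : ℤ)] g = (f ∣[k] g) ^ n := by
  induction n with
  | zero =>
    funext τ
    simp [SL_slash_apply]
  | succ n ih =>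
    have e : (((n + 1 : ℕ) : ℤ) * k) = n * k + k := by push_cast; ring
    rw [e, pow_succ, mul_slash_SL2, ih, pow_succ]

/-- Growth from the `24`-th power. -/
theorem slash_mem_of_pow24 {k : ℤ} {f P : ℍ → ℂ} (hf : MDiff f) (hP : f ^ 24 = P)
    (g : SL(2, ℤ)) (hPg : P ∣[(24 * k : ℤ)] g ∈ holoExp) : f ∣[k] g ∈ holoExp := by
  apply mem_holoExp_of_pow_mem (m := 24) (by norm_num)
  · rw [SL_slash]
    exact hf.slash k _
  · rw [← pow_slash_SL2, hP]
    exact hPg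

theorem discriminant_scale_eq (d : ℕ) [NeZero d] (τ : ℍ) :
    ModularForm.eta ((d : ℂ) * (τ : ℂ)) ^ 24 = discPowD (-1) d τ := by
  rw [discPowD, discPow]
  simp only [neg_neg, zpow_one]
  rfl

theorem discriminant_eq_discPow (τ : ℍ) : ModularForm.eta (τ : ℂ) ^ 24 = discPow (-1) τ := by
  rw [discPow]
  simp only [neg_neg, zpow_one]
  rfl

theorem inv_discPow (k : ℤ) (τ : ℍ) : (discPow k τ)⁻¹ = discPow (-k) τ := by
  rw [discPow, discPow, neg_neg, zpow_neg, inv_inv]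

theorem inv_discPowD (k : ℤ) (d : ℕ) [NeZero d] (τ : ℍ) :
    (discPowD k d τ)⁻¹ = discPowD (-k) d τ := inv_discPow k _

theorem mem_of_three {f₁ f₂ f₃ : ℍ → ℂ} {k₁ k₂ k₃ : ℤ} (n₁ n₂ n₃ : ℕ) (g : SL(2, ℤ))
    (h₁ : f₁ ∣[k₁] g ∈ holoExp) (h₂ : f₂ ∣[k₂] g ∈ holoExp) (h₃ : f₃ ∣[k₃] g ∈ holoExp)
    (K : ℤ) (hK : K = n₁ * k₁ + (n₂ * k₂ + n₃ * k₃)) :
    (f₁ ^ n₁ * (f₂ ^ n₂ * f₃ ^ n₃)) ∣[K] g ∈ holoExp := by
  subst hK
  rw [mul_slash_SL2, mul_slash_SL2, pow_slash_SL2, pow_slash_SL2, pow_slash_SL2]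
  exact mul_mem (pow_mem h₁ _) (mul_mem (pow_mem h₂ _) (pow_mem h₃ _))

theorem mdiff_inv {f : ℍ → ℂ} (hf : MDiff f) (hne : ∀ τ, f τ ≠ 0) :
    MDiff (fun τ => (f τ)⁻¹) := by
  have := (mdifferentiable_const (c := (1 : ℂ))).div hf hne
  have e : (fun τ : ℍ => (f τ)⁻¹) = (fun _ : ℍ => (1 : ℂ)) / f := by
    funext τ
    simp
  rw [e]
  exact this

theorem discPow_slash_mem' (k K : ℤ) (hK : K = -(12 * k)) (g : SL(2, ℤ)) :
    (discPow k) ∣[K] g ∈ holoExp := by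
  subst hK
  exact discPow_slash_mem k g

theorem discPowD_slash_mem' (k K : ℤ) (hK : K = -(12 * k)) (d : ℕ) [NeZero d] (g : SL(2, ℤ)) :
    (discPowD k d) ∣[K] g ∈ holoExp := by
  subst hK
  exact discPowD_slash_mem k d g

theorem discPow_one_eq (τ : ℍ) : discPow 1 τ = (ModularForm.eta (τ : ℂ) ^ 24)⁻¹ := by
  rw [discPow, zpow_neg, zpow_one]
  rfl

theorem discPow_neg_one_eq (τ : ℍ) : discPow (-1) τ = ModularForm.eta (τ : ℂ) ^ 24 :=
  (discriminant_eq_discPow τ).symm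

theorem discPowD_one_eq (d : ℕ) [NeZero d] (τ : ℍ) :
    discPowD 1 d τ = (ModularForm.eta ((d : ℂ) * (τ : ℂ)) ^ 24)⁻¹ := by
  rw [discPowD, discPow, zpow_neg, zpow_one]
  rfl

theorem discPowD_neg_one_eq (d : ℕ) [NeZero d] (τ : ℍ) :
    discPowD (-1) d τ = ModularForm.eta ((d : ℂ) * (τ : ℂ)) ^ 24 :=
  (discriminant_scale_eq d τ).symm

theorem eta_ne_zero_coe (τ : ℍ) : ModularForm.eta (τ : ℂ) ≠ 0 :=
  ModularForm.eta_ne_zero τ.2

theorem eta_ne_zero_scale (d : ℕ) [NeZero d] (τ : ℍ) :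
    ModularForm.eta ((d : ℂ) * (τ : ℂ)) ≠ 0 :=
  eta_ne_zero_coe (scaleH d τ)

theorem lam4_pow (τ : ℍ) : lam4 τ ^ 24 =
    discPowD (-1) 2 τ ^ 10 * (discPow 1 τ ^ 4 * discPowD 1 4 τ ^ 4) := by
  rw [discPowD_neg_one_eq, discPow_one_eq, discPowD_one_eq, lam4]
  have h1 := eta_ne_zero_coe τ
  have h4 := eta_ne_zero_scale 4 τ
  push_cast at h4 ⊢
  field_simp

theorem lam4_inv_pow (τ : ℍ) : ((lam4 τ)⁻¹) ^ 24 =
    discPowD 1 2 τ ^ 10 * (discPow (-1) τ ^ 4 * discPowD (-1) 4 τ ^ 4) := by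
  rw [discPowD_neg_one_eq, discPow_neg_one_eq, discPowD_one_eq, lam4]
  have h1 := eta_ne_zero_coe τ
  have h2 := eta_ne_zero_scale 2 τ
  have h4 := eta_ne_zero_scale 4 τ
  push_cast at h2 h4 ⊢
  field_simp

theorem lam9_pow (τ : ℍ) : lam9 τ ^ 24 =
    discPow (-1) τ ^ 3 * (discPowD 1 3 τ ^ 1 * discPowD 1 3 τ ^ 0) := by
  rw [discPow_neg_one_eq, discPowD_one_eq, lam9]
  have h3 := eta_ne_zero_scale 3 τ
  push_cast at h3 ⊢
  field_simp

theorem lam9_inv_pow (τ : ℍ) : ((lam9 τ)⁻¹) ^ 24 =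
    discPow 1 τ ^ 3 * (discPowD (-1) 3 τ ^ 1 * discPowD (-1) 3 τ ^ 0) := by
  rw [discPow_one_eq, discPowD_neg_one_eq, lam9]
  have h1 := eta_ne_zero_coe τ
  have h3 := eta_ne_zero_scale 3 τ
  push_cast at h3 ⊢
  field_simp

/-- **[UNIT-GROW]** for `lam4`. -/
theorem growth4 : Growth4Statement := by
  intro g
  constructor
  · refine slash_mem_of_pow24 (k := 1) Fermat.Agent.T3.helper59.mdiff_lam4
      (P := discPowD (-1) 2 ^ 10 * (discPow 1 ^ 4 * discPowD 1 4 ^ 4))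
      (funext fun τ => lam4_pow τ) g ?_
    exact mem_of_three 10 4 4 g (discPowD_slash_mem' (-1) 12 (by norm_num) 2 g)
      (discPow_slash_mem' 1 (-12) (by norm_num) g)
      (discPowD_slash_mem' 1 (-12) (by norm_num) 4 g) _ (by norm_num)
  · refine slash_mem_of_pow24 (k := -1)
      (mdiff_inv Fermat.Agent.T3.helper59.mdiff_lam4 Fermat.Agent.T3.helper59.lam4_ne_zero)
      (P := discPowD 1 2 ^ 10 * (discPow (-1) ^ 4 * discPowD (-1) 4 ^ 4))
      (funext fun τ => ?_) g ?_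
    · exact lam4_inv_pow τ
    · exact mem_of_three 10 4 4 g (discPowD_slash_mem' 1 (-12) (by norm_num) 2 g)
        (discPow_slash_mem' (-1) 12 (by norm_num) g)
        (discPowD_slash_mem' (-1) 12 (by norm_num) 4 g) _ (by norm_num)

/-- **[UNIT-GROW]** for `lam9`. -/
theorem growth9 : Growth9Statement := by
  intro g
  constructor
  · refine slash_mem_of_pow24 (k := 1) Fermat.Agent.T3.helper59.mdiff_lam9
      (P := discPow (-1) ^ 3 * (discPowD 1 3 ^ 1 * discPowD 1 3 ^ 0))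
      (funext fun τ => lam9_pow τ) g ?_
    exact mem_of_three 3 1 0 g (discPow_slash_mem' (-1) 12 (by norm_num) g)
      (discPowD_slash_mem' 1 (-12) (by norm_num) 3 g)
      (discPowD_slash_mem' 1 (-12) (by norm_num) 3 g) _ (by norm_num)
  · refine slash_mem_of_pow24 (k := -1)
      (mdiff_inv Fermat.Agent.T3.helper59.mdiff_lam9 Fermat.Agent.T3.helper59.lam9_ne_zero)
      (P := discPow 1 ^ 3 * (discPowD (-1) 3 ^ 1 * discPowD (-1) 3 ^ 0))
      (funext fun τ => ?_) g ?_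
    · exact lam9_inv_pow τ
    · exact mem_of_three 3 1 0 g (discPow_slash_mem' 1 (-12) (by norm_num) g)
        (discPowD_slash_mem' (-1) 12 (by norm_num) 3 g)
        (discPowD_slash_mem' (-1) 12 (by norm_num) 3 g) _ (by norm_num)

/-- **[T3-UNIT]**, unconditional: the weight-one modular unit at every level `N q` with
`4 ∣ N` or `9 ∣ N` and `q ∤ N` prime. -/
theorem unitStatement {N q : ℕ} [NeZero N] [NeZero q] (hq : q.Prime) (hqN : ¬ q ∣ N)
    (hN : 4 ∣ N ∨ 9 ∣ N) : UnitStatement N q hq hqN :=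
  unitStatement_of_growth growth4 growth9 hq hqN hN

end Fermat.Agent.T3.helper16
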