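import Mathlib
import Fermat.Agent.T3.helper98_NormRed3W

/-!
# Tier 3, [T3-NORM-RED3] (helper98), part 3: the table of the degeneracy maps

Level `N q q` (`q` prime, `q ∤ N`), `ex3 i` (`i = 0, 1, 2`) the expansions at `∞`, `0`, `1/q`
(helper74_Sat3Defs), `α₂, β₂ : F_{Nq} → F_{Nqq}`, `dg0, dg1, dg2 : F_N → F_{Nqq}`
(`f(τ)`, `f(q τ)`, `f(q² τ)`), `W₁ = W_q` on `F_{Nq}`.

* `ex3_*_alpha`, `ex3_*_beta` : the expansions of `α₂ f`, `β₂ f` (`f ∈ F_{Nq}`):
  `(f, (W₁ f)(t^q), f)` and `(f(t^q), W₁ f, (W₁ f)(ζ t))`;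
* `ex3_*_dg0`, `ex3_*_dg1`, `ex3_*_dg2` : the expansions of `dg_i f` (`f ∈ F_N`):
  `(f, f(t^(q²)), f)`, `(f(t^q), f(t^q), f(t^q))`, `(f(t^(q²)), f, f(ζ t))`;
* `red3_alpha`, `red3_beta` : integral models and reductions of `α₂ f`, `β₂ f`;
* `red3_dg0`, `red3_dg1`, `red3_dg2` : for `f ∈ F_N` with `A`-integral expansion of reduction
  `x`, the three expansions of `dg_i f` are `A`-integral with reductions
  `(x, Fr² x, x)`, `(Fr x, Fr x, Fr x)`, `(Fr² x, x, x)`, `Fr x = x(t^q)`;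
* `isFixI_dg0/1/2` : `dg_i f` is `I`-fixed if `f` is.
-/

set_option autoImplicit false
set_option synthInstance.maxHeartbeats 400000
set_option linter.style.haveILetI false
set_option linter.unusedSectionVars false
set_option linter.unusedVariables false
set_option linter.style.longLine false

noncomputable section

open HahnSeries IntermediateField AlgebraicCurve ModularCurve
open Fermat.Agent.S18.helper19 Fermat.Agent.P2.helper29 Fermat.Agent.T2.helper36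

namespace Fermat.Agent.T3.helper98

open Fermat.Agent.P2.helper93 (twistL twistL_coeff)
open Fermat.Agent.T3.helper87
open Fermat.Agent.T3.helper48 (atkinLehnerSq atkinLehnerSq_heckeAlphaBar
  atkinLehnerSq_heckeBetaBar)
open Fermat.Agent.T3.helper74 (ex3 IsFixI IsInt3 midOne midOne_ne dg0 dg1 dg2)

/-! ### expansions of `α₂ f`, `β₂ f` -/

section AB

variable {N q : ℕ} [NeZero N] [NeZero q] {hq : q.Prime} {hqN : ¬ q ∣ N}

theorem ex3_zero_alpha {ζ : Kb} (hζ : IsPrimitiveRoot ζ q) (f : FF (N * q)) :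
    ex3 N q hq hqN hζ 0 (heckeAlphaBar Kb (N * q) q f) = (f : LaurentSeries Kb) := by
  rw [ex3_zero, coe_heckeAlphaBar]

theorem ex3_one_alpha {ζ : Kb} (hζ : IsPrimitiveRoot ζ q) (f : FF (N * q)) :
    ex3 N q hq hqN hζ 1 (heckeAlphaBar Kb (N * q) q f)
      = qExpand Kb q ((atkinLehner N q hq hqN f : FF (N * q)) : LaurentSeries Kb) := by
  rw [ex3_one, atkinLehnerSq_heckeAlphaBar, coe_heckeBetaBar]

theorem ex3_two_alpha {ζ : Kb} (hζ : IsPrimitiveRoot ζ q) (f : FF (N * q)) :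
    ex3 N q hq hqN hζ 2 (heckeAlphaBar Kb (N * q) q f) = (f : LaurentSeries Kb) := by
  rw [ex3_two, embMid_alpha]

theorem ex3_zero_beta {ζ : Kb} (hζ : IsPrimitiveRoot ζ q) (f : FF (N * q)) :
    ex3 N q hq hqN hζ 0 (heckeBetaBar Kb (N * q) q f) = qExpand Kb q (f : LaurentSeries Kb) := by
  rw [ex3_zero, coe_heckeBetaBar]

theorem ex3_one_beta {ζ : Kb} (hζ : IsPrimitiveRoot ζ q) (f : FF (N * q)) :
    ex3 N q hq hqN hζ 1 (heckeBetaBar Kb (N * q) q f)
      = ((atkinLehner N q hq hqN f : FF (N * q)) : LaurentSeries Kb) := by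
  rw [ex3_one, atkinLehnerSq_heckeBetaBar, coe_heckeAlphaBar]

theorem ex3_two_beta {ζ : Kb} (hζ : IsPrimitiveRoot ζ q) (f : FF (N * q)) :
    ex3 N q hq hqN hζ 2 (heckeBetaBar Kb (N * q) q f)
      = twistL (ζ ^ 1) ((atkinLehner N q hq hqN f : FF (N * q)) : LaurentSeries Kb) := by
  rw [ex3_two, embMid_beta]
  rfl

/-! ### expansions of `dg_i f` -/

theorem ex3_zero_dg0 {ζ : Kb} (hζ : IsPrimitiveRoot ζ q) (f : FF N) :
    ex3 N q hq hqN hζ 0 (dg0 N q f) = (f : LaurentSeries Kb) := by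
  show ex3 N q hq hqN hζ 0 (heckeAlphaBar Kb (N * q) q (heckeAlphaBar Kb N q f)) = _
  rw [ex3_zero_alpha, coe_heckeAlphaBar]

theorem ex3_one_dg0 {ζ : Kb} (hζ : IsPrimitiveRoot ζ q) (f : FF N) :
    ex3 N q hq hqN hζ 1 (dg0 N q f) = qExpand Kb q (qExpand Kb q (f : LaurentSeries Kb)) := by
  show ex3 N q hq hqN hζ 1 (heckeAlphaBar Kb (N * q) q (heckeAlphaBar Kb N q f)) = _
  rw [ex3_one_alpha, atkinLehner_heckeAlphaBar, coe_heckeBetaBar]

theorem ex3_two_dg0 {ζ : Kb} (hζ : IsPrimitiveRoot ζ q) (f : FF N) :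
    ex3 N q hq hqN hζ 2 (dg0 N q f) = (f : LaurentSeries Kb) := by
  show ex3 N q hq hqN hζ 2 (heckeAlphaBar Kb (N * q) q (heckeAlphaBar Kb N q f)) = _
  rw [ex3_two_alpha, coe_heckeAlphaBar]

theorem ex3_zero_dg1 {ζ : Kb} (hζ : IsPrimitiveRoot ζ q) (f : FF N) :
    ex3 N q hq hqN hζ 0 (dg1 N q f) = qExpand Kb q (f : LaurentSeries Kb) := by
  show ex3 N q hq hqN hζ 0 (heckeAlphaBar Kb (N * q) q (heckeBetaBar Kb N q f)) = _
  rw [ex3_zero_alpha, coe_heckeBetaBar]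

theorem ex3_one_dg1 {ζ : Kb} (hζ : IsPrimitiveRoot ζ q) (f : FF N) :
    ex3 N q hq hqN hζ 1 (dg1 N q f) = qExpand Kb q (f : LaurentSeries Kb) := by
  show ex3 N q hq hqN hζ 1 (heckeAlphaBar Kb (N * q) q (heckeBetaBar Kb N q f)) = _
  rw [ex3_one_alpha, atkinLehner_heckeBetaBar, coe_heckeAlphaBar]

theorem ex3_two_dg1 {ζ : Kb} (hζ : IsPrimitiveRoot ζ q) (f : FF N) :
    ex3 N q hq hqN hζ 2 (dg1 N q f) = qExpand Kb q (f : LaurentSeries Kb) := by
  show ex3 N q hq hqN hζ 2 (heckeAlphaBar Kb (N * q) q (heckeBetaBar Kb N q f)) = _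
  rw [ex3_two_alpha, coe_heckeBetaBar]

theorem ex3_zero_dg2 {ζ : Kb} (hζ : IsPrimitiveRoot ζ q) (f : FF N) :
    ex3 N q hq hqN hζ 0 (dg2 N q f) = qExpand Kb q (qExpand Kb q (f : LaurentSeries Kb)) := by
  show ex3 N q hq hqN hζ 0 (heckeBetaBar Kb (N * q) q (heckeBetaBar Kb N q f)) = _
  rw [ex3_zero_beta, coe_heckeBetaBar]

theorem ex3_one_dg2 {ζ : Kb} (hζ : IsPrimitiveRoot ζ q) (f : FF N) :
    ex3 N q hq hqN hζ 1 (dg2 N q f) = (f : LaurentSeries Kb) := by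
  show ex3 N q hq hqN hζ 1 (heckeBetaBar Kb (N * q) q (heckeBetaBar Kb N q f)) = _
  rw [ex3_one_beta, atkinLehner_heckeBetaBar, coe_heckeAlphaBar]

theorem ex3_two_dg2 {ζ : Kb} (hζ : IsPrimitiveRoot ζ q) (f : FF N) :
    ex3 N q hq hqN hζ 2 (dg2 N q f) = twistL (ζ ^ 1) (f : LaurentSeries Kb) := by
  show ex3 N q hq hqN hζ 2 (heckeBetaBar Kb (N * q) q (heckeBetaBar Kb N q f)) = _
  rw [ex3_two_beta, atkinLehner_heckeBetaBar, coe_heckeAlphaBar]

end AB

/-! ### Galois -/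

section Fix

variable {N q : ℕ} [NeZero N] [NeZero q] (A : ValuationSubring Kb)

theorem isFixI_dg0 {f : FF N} (hf : IsFixI A N f) : IsFixI A (N * q * q) (dg0 N q f) :=
  isFixI_alpha A (N * q) (isFixI_alpha A N hf)

theorem isFixI_dg1 {f : FF N} (hf : IsFixI A N f) : IsFixI A (N * q * q) (dg1 N q f) :=
  isFixI_alpha A (N * q) (isFixI_beta A N hf)

theorem isFixI_dg2 {f : FF N} (hf : IsFixI A N f) : IsFixI A (N * q * q) (dg2 N q f) :=
  isFixI_beta A (N * q) (isFixI_beta A N hf)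

theorem isFixI_atkinLehner {hq : q.Prime} {hqN : ¬ q ∣ N} {f : FF (N * q)}
    (hf : IsFixI A (N * q) f) : IsFixI A (N * q) (atkinLehner N q hq hqN f) := by
  intro σ hσ
  rw [← atkinLehner_arithmeticRingAut, hf σ hσ]

theorem isFixI_atkinLehnerSq {hq : q.Prime} {hqN : ¬ q ∣ N} {f : FF (N * q * q)}
    (hf : IsFixI A (N * q * q) f) : IsFixI A (N * q * q) (atkinLehnerSq N q hq hqN f) := by
  intro σ hσ
  rw [← Fermat.Agent.T3.helper48.atkinLehnerSq_arithmeticRingAut, hf σ hσ]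

theorem isFixI_mul {M : ℕ} {f g : FF M} (hf : IsFixI A M f) (hg : IsFixI A M g) :
    IsFixI A M (f * g) := by
  intro σ hσ
  rw [map_mul, hf σ hσ, hg σ hσ]

theorem isFixI_one {M : ℕ} : IsFixI A M (1 : FF M) := by
  intro σ hσ
  rw [map_one]

theorem isFixI_inv {M : ℕ} {f : FF M} (hf : IsFixI A M f) : IsFixI A M f⁻¹ := by
  intro σ hσ
  rw [map_inv₀, hf σ hσ]

theorem isFixI_pow {M : ℕ} {f : FF M} (hf : IsFixI A M f) (n : ℕ) : IsFixI A M (f ^ n) := by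
  intro σ hσ
  rw [map_pow, hf σ hσ]

theorem isFixI_add {M : ℕ} {f g : FF M} (hf : IsFixI A M f) (hg : IsFixI A M g) :
    IsFixI A M (f + g) := by
  intro σ hσ
  rw [map_add, hf σ hσ, hg σ hσ]

theorem isFixI_neg {M : ℕ} {f : FF M} (hf : IsFixI A M f) : IsFixI A M (-f) := by
  intro σ hσ
  rw [map_neg, hf σ hσ]

end Fix

/-! ### reductions -/

section Red

variable {N q : ℕ} [NeZero N] [NeZero q] {hq : q.Prime} {hqN : ¬ q ∣ N}
variable (A : ValuationSubring Kb)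

/-- **reductions of `α₂ f`**: `(x, (Fr y), x)` for `f` of reduction `x` and `W₁ f` of
reduction `y`. -/
theorem red3_alpha {ζ : Kb} (hζ : IsPrimitiveRoot ζ q) (f : FF (N * q))
    (Y Yw : LaurentSeries A) (hY : incl A Y = (f : LaurentSeries Kb))
    (hYw : incl A Yw = ((atkinLehner N q hq hqN f : FF (N * q)) : LaurentSeries Kb)) :
    ∃ Y' : Fin 3 → LaurentSeries A,
      (∀ i, incl A (Y' i) = ex3 N q hq hqN hζ i (heckeAlphaBar Kb (N * q) q f)) ∧
      red A (Y' 0) = red A Y ∧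
      red A (Y' 1) = qExpand (kA A) q (red A Yw) ∧
      red A (Y' 2) = red A Y := by
  refine ⟨![Y, qExpand ↥A q Yw, Y], ?_, rfl, ?_, rfl⟩
  · intro i
    fin_cases i
    · show incl A Y = ex3 N q hq hqN hζ 0 _
      rw [ex3_zero_alpha, hY]
    · show incl A (qExpand ↥A q Yw) = ex3 N q hq hqN hζ 1 _
      rw [ex3_one_alpha, ← hYw]
      exact Fermat.Agent.P2.helper94.coeffMap_qExpand _ q Yw
    · show incl A Y = ex3 N q hq hqN hζ 2 _
      rw [ex3_two_alpha, hY]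
  · show red A (qExpand ↥A q Yw) = _
    exact Fermat.Agent.P2.helper94.coeffMap_qExpand _ q Yw

/-- **reductions of `β₂ f`**: `(Fr x, y, y)` for `f` of reduction `x` and `W₁ f` of
reduction `y` (`A` over `q`). -/
theorem red3_beta (hA : A.LiesOverPrime q) {ζ : Kb} (hζ : IsPrimitiveRoot ζ q) (f : FF (N * q))
    (Y Yw : LaurentSeries A) (hY : incl A Y = (f : LaurentSeries Kb))
    (hYw : incl A Yw = ((atkinLehner N q hq hqN f : FF (N * q)) : LaurentSeries Kb)) :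
    ∃ Y' : Fin 3 → LaurentSeries A,
      (∀ i, incl A (Y' i) = ex3 N q hq hqN hζ i (heckeBetaBar Kb (N * q) q f)) ∧
      red A (Y' 0) = qExpand (kA A) q (red A Y) ∧
      red A (Y' 1) = red A Yw ∧
      red A (Y' 2) = red A Yw := by
  obtain ⟨R, hR, hRr⟩ := exists_model_twist A hq hA hζ.pow_eq_one 1 _ Yw hYw
  refine ⟨![qExpand ↥A q Y, Yw, R], ?_, ?_, rfl, hRr⟩
  · intro i
    fin_cases i
    · show incl A (qExpand ↥A q Y) = ex3 N q hq hqN hζ 0 _
      rw [ex3_zero_beta, ← hY]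
      exact Fermat.Agent.P2.helper94.coeffMap_qExpand _ q Y
    · show incl A Yw = ex3 N q hq hqN hζ 1 _
      rw [ex3_one_beta, hYw]
    · show incl A R = ex3 N q hq hqN hζ 2 _
      rw [ex3_two_beta, hR]
  · show red A (qExpand ↥A q Y) = _
    exact Fermat.Agent.P2.helper94.coeffMap_qExpand _ q Y

/-- **reductions of `dg0 f = f(τ)`**: `(x, Fr² x, x)`. -/
theorem red3_dg0 {ζ : Kb} (hζ : IsPrimitiveRoot ζ q) (f : FF N)
    (Y : LaurentSeries A) (hY : incl A Y = (f : LaurentSeries Kb)) :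
    ∃ Y' : Fin 3 → LaurentSeries A,
      (∀ i, incl A (Y' i) = ex3 N q hq hqN hζ i (dg0 N q f)) ∧
      red A (Y' 0) = red A Y ∧
      red A (Y' 1) = qExpand (kA A) q (qExpand (kA A) q (red A Y)) ∧
      red A (Y' 2) = red A Y := by
  refine ⟨![Y, qExpand ↥A q (qExpand ↥A q Y), Y], ?_, rfl, ?_, rfl⟩
  · intro i
    fin_cases i
    · show incl A Y = ex3 N q hq hqN hζ 0 _
      rw [ex3_zero_dg0, hY]
    · show incl A (qExpand ↥A q (qExpand ↥A q Y)) = ex3 N q hq hqN hζ 1 _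
      rw [ex3_one_dg0, ← hY]
      show coeffMap _ _ = _
      rw [Fermat.Agent.P2.helper94.coeffMap_qExpand, Fermat.Agent.P2.helper94.coeffMap_qExpand]
    · show incl A Y = ex3 N q hq hqN hζ 2 _
      rw [ex3_two_dg0, hY]
  · show coeffMap _ (qExpand ↥A q (qExpand ↥A q Y)) = _
    rw [Fermat.Agent.P2.helper94.coeffMap_qExpand, Fermat.Agent.P2.helper94.coeffMap_qExpand]

/-- **reductions of `dg1 f = f(q τ)`**: `(Fr x, Fr x, Fr x)`. -/
theorem red3_dg1 {ζ : Kb} (hζ : IsPrimitiveRoot ζ q) (f : FF N)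
    (Y : LaurentSeries A) (hY : incl A Y = (f : LaurentSeries Kb)) :
    ∃ Y' : Fin 3 → LaurentSeries A,
      (∀ i, incl A (Y' i) = ex3 N q hq hqN hζ i (dg1 N q f)) ∧
      ∀ i, red A (Y' i) = qExpand (kA A) q (red A Y) := by
  have hinc : incl A (qExpand ↥A q Y) = qExpand Kb q (f : LaurentSeries Kb) := by
    rw [← hY]
    exact Fermat.Agent.P2.helper94.coeffMap_qExpand _ q Y
  refine ⟨fun _ => qExpand ↥A q Y, ?_, fun _ =>
    Fermat.Agent.P2.helper94.coeffMap_qExpand _ q Y⟩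
  intro i
  fin_cases i
  · show incl A (qExpand ↥A q Y) = ex3 N q hq hqN hζ 0 _
    rw [ex3_zero_dg1, hinc]
  · show incl A (qExpand ↥A q Y) = ex3 N q hq hqN hζ 1 _
    rw [ex3_one_dg1, hinc]
  · show incl A (qExpand ↥A q Y) = ex3 N q hq hqN hζ 2 _
    rw [ex3_two_dg1, hinc]

/-- **reductions of `dg2 f = f(q² τ)`**: `(Fr² x, x, x)` (`A` over `q`). -/
theorem red3_dg2 (hA : A.LiesOverPrime q) {ζ : Kb} (hζ : IsPrimitiveRoot ζ q) (f : FF N)
    (Y : LaurentSeries A) (hY : incl A Y = (f : LaurentSeries Kb)) :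
    ∃ Y' : Fin 3 → LaurentSeries A,
      (∀ i, incl A (Y' i) = ex3 N q hq hqN hζ i (dg2 N q f)) ∧
      red A (Y' 0) = qExpand (kA A) q (qExpand (kA A) q (red A Y)) ∧
      red A (Y' 1) = red A Y ∧
      red A (Y' 2) = red A Y := by
  obtain ⟨R, hR, hRr⟩ := exists_model_twist A hq hA hζ.pow_eq_one 1 _ Y hY
  refine ⟨![qExpand ↥A q (qExpand ↥A q Y), Y, R], ?_, ?_, rfl, hRr⟩
  · intro i
    fin_cases i
    · show incl A (qExpand ↥A q (qExpand ↥A q Y)) = ex3 N q hq hqN hζ 0 _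
      rw [ex3_zero_dg2, ← hY]
      show coeffMap _ _ = _
      rw [Fermat.Agent.P2.helper94.coeffMap_qExpand, Fermat.Agent.P2.helper94.coeffMap_qExpand]
    · show incl A Y = ex3 N q hq hqN hζ 1 _
      rw [ex3_one_dg2, hY]
    · show incl A R = ex3 N q hq hqN hζ 2 _
      rw [ex3_two_dg2, hR]
  · show coeffMap _ (qExpand ↥A q (qExpand ↥A q Y)) = _
    rw [Fermat.Agent.P2.helper94.coeffMap_qExpand, Fermat.Agent.P2.helper94.coeffMap_qExpand]

/-- the three expansions of `dg_i f` are integral if the expansion of `f` is. -/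
theorem isInt3_dg0 {ζ : Kb} (hζ : IsPrimitiveRoot ζ q) (f : FF N)
    (Y : LaurentSeries A) (hY : incl A Y = (f : LaurentSeries Kb)) :
    IsInt3 N q hq hqN A hζ (dg0 N q f) := by
  obtain ⟨Y', h1, -⟩ := red3_dg0 (hq := hq) (hqN := hqN) A hζ f Y hY
  exact fun i => ⟨Y' i, h1 i⟩

theorem isInt3_dg1 {ζ : Kb} (hζ : IsPrimitiveRoot ζ q) (f : FF N)
    (Y : LaurentSeries A) (hY : incl A Y = (f : LaurentSeries Kb)) :
    IsInt3 N q hq hqN A hζ (dg1 N q f) := by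
  obtain ⟨Y', h1, -⟩ := red3_dg1 (hq := hq) (hqN := hqN) A hζ f Y hY
  exact fun i => ⟨Y' i, h1 i⟩

theorem isInt3_dg2 (hA : A.LiesOverPrime q) {ζ : Kb} (hζ : IsPrimitiveRoot ζ q) (f : FF N)
    (Y : LaurentSeries A) (hY : incl A Y = (f : LaurentSeries Kb)) :
    IsInt3 N q hq hqN A hζ (dg2 N q f) := by
  obtain ⟨Y', h1, -⟩ := red3_dg2 (hq := hq) (hqN := hqN) A hA hζ f Y hY
  exact fun i => ⟨Y' i, h1 i⟩

/-- `α N_α g` and `β N_β g` have integral expansions if the `I`-fixed `g` has. -/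
theorem isInt3_alpha_normAlpha (hA : A.LiesOverPrime q) {ζ : Kb} (hζ : IsPrimitiveRoot ζ q)
    (g : FF (N * q * q)) (hg : IsFixI A (N * q * q) g) (hint : IsInt3 N q hq hqN A hζ g) :
    IsInt3 N q hq hqN A hζ
      (heckeAlphaBar Kb (N * q) q
        (Fermat.Agent.P3.helper94.normAlong (heckeAlphaBar Kb (N * q) q) g)) := by
  choose Y hY using hint
  obtain ⟨Y', h1, -⟩ := normRed3_alpha (hq := hq) (hqN := hqN) A hA hζ g hg Y hY
  exact fun i => ⟨Y' i, h1 i⟩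

theorem isInt3_beta_normBeta (hA : A.LiesOverPrime q) {ζ : Kb} (hζ : IsPrimitiveRoot ζ q)
    (g : FF (N * q * q)) (hg : IsFixI A (N * q * q) g) (hint : IsInt3 N q hq hqN A hζ g) :
    IsInt3 N q hq hqN A hζ
      (heckeBetaBar Kb (N * q) q
        (Fermat.Agent.P3.helper94.normAlong (heckeBetaBar Kb (N * q) q) g)) := by
  choose Y hY using hint
  obtain ⟨Y', h1, -⟩ := normRed3_beta (hq := hq) (hqN := hqN) A hA hζ g hg Y hY
  exact fun i => ⟨Y' i, h1 i⟩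

end Red

end Fermat.Agent.T3.helper98

end
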