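import Mathlib
import Fermat.Agent.T3.helper16_UnitGrow
import Fermat.Agent.T3.helper98_DgTable
import Fermat.Agent.T3.helper36_RhoQ

/-!
# T3 / [UNIT-TABLE] (helper16): the table of the weight-one unit at level `N q q`

`b₀ ∈ F_{Nq}` the weight-one unit of `helper16.unitStatement` (`q`-expansion `B ∈ 1 + t ℤ[[t]]`,
`W₁ b₀ · b₀ = ε q`, `ε = ± 1`).  With `α₂, β₂ : F_{Nq} → F_{Nqq}` and the three expansions
`ex3 i` (`∞`, `0`, `1/q`) of helper74, `A` a valuation subring over `q`: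

| element  | `ex3 0`      | `ex3 1`                  | `ex3 2`          | `(w₁, w₃, w₂)` |
|----------|--------------|--------------------------|------------------|-----------------|
| `α₂ b₀`  | `B`          | `ε q · B⁻¹(t^q)`         | `B`              | `(0, 0, 1)`     |
| `β₂ b₀`  | `B(t^q)`     | `ε q · B⁻¹`              | `ε q · B⁻¹(ζ t)` | `(0, 1, 1)`     |

in the vocabulary `RhoQ` / `GaussIs` of helper36 (`IsUnit3`, `exists_isUnit3`).
-/

set_option autoImplicit false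
set_option synthInstance.maxHeartbeats 400000
set_option linter.style.haveILetI false
set_option linter.unusedSectionVars false
set_option linter.unusedVariables false
set_option linter.style.longLine false

noncomputable section

open HahnSeries IntermediateField AlgebraicCurve ModularCurve
open Fermat.Agent.S18.helper19 Fermat.Agent.P2.helper29 Fermat.Agent.T2.helper36

namespace Fermat.Agent.T3.helper16

open Fermat.Agent.S24 Fermat.Agent.S24.helper17 Fermat.Agent.S24.helper77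
open Fermat.Agent.P2.helper93 (twistL twistL_coeff)
open Fermat.Agent.P2.helper66 (iota inv1 coeffMap_iota iota_ex mul_inv1)
open Fermat.Agent.T3.helper74 (ex3 IsFixI IsInt3)
open Fermat.Agent.T3.helper36 (RhoQ GaussIs)
open Fermat.Agent.T3.helper98

/-! ### formal part -/

section Formal

variable (A : ValuationSubring Kb)

theorem incl_iota (P : PowerSeries ℤ) : incl A (iota ↥A P) = iota Kb P :=
  coeffMap_iota _ P

theorem red_iota (P : PowerSeries ℤ) : red A (iota ↥A P) = iota (kA A) P :=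
  coeffMap_iota _ P

/-- `B · B⁻¹ = 1` over every ring. -/
theorem iota_mul_inv1 (R : Type*) [CommRing R] {B : PowerSeries ℤ}
    (h1 : PowerSeries.constantCoeff B = 1) : iota R B * iota R (inv1 B) = 1 := by
  rw [← map_mul, mul_inv1 (by rw [PowerSeries.coeff_zero_eq_constantCoeff_apply, h1]), map_one]

theorem algebraMap_laurent_eq_C (R : Type*) [CommRing R] (c : R) :
    algebraMap R (LaurentSeries R) c = HahnSeries.C c := by
  have h1 : algebraMap R (PowerSeries R) c = PowerSeries.C c := by simp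
  rw [HahnSeries.algebraMap_apply', h1, HahnSeries.ofPowerSeries_C]

/-- the sign `ε = ± 1` as an element of `A` -/
def sgnA (ε : ℤ) : ↥A := (ε : ↥A)

theorem coe_sgnA (ε : ℤ) : ((sgnA A ε : ↥A) : Kb) = (ε : Kb) := by
  simp [sgnA]

/-- the model of `ε · P` over `A` -/
def sgnModel (ε : ℤ) (P : PowerSeries ℤ) : LaurentSeries ↥A :=
  iota ↥A (PowerSeries.C ε * P)

theorem incl_sgnModel (ε : ℤ) (P : PowerSeries ℤ) :
    incl A (sgnModel A ε P) = algebraMap Kb (LaurentSeries Kb) (ε : Kb) * iota Kb P := by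
  rw [sgnModel, incl_iota, map_mul, Fermat.Agent.P2.helper66.iota_C, algebraMap_laurent_eq_C]

theorem red_sgnModel (ε : ℤ) (P : PowerSeries ℤ) :
    red A (sgnModel A ε P) =
      algebraMap (kA A) (LaurentSeries (kA A)) ((ε : ℤ) : kA A) * iota (kA A) P := by
  rw [sgnModel, red_iota, map_mul, Fermat.Agent.P2.helper66.iota_C, algebraMap_laurent_eq_C]

/-- the constant term of `iota R P` -/
theorem coeff_zero_iota (R : Type*) [CommRing R] (P : PowerSeries ℤ) :
    (iota R P).coeff 0 = ((PowerSeries.constantCoeff P : ℤ) : R) := by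
  have := Fermat.Agent.P2.helper66.coeff_iota_natCast R P 0
  rw [PowerSeries.coeff_zero_eq_constantCoeff_apply] at this
  exact_mod_cast this

theorem sgn_ne_zero (R : Type*) [Field R] {ε : ℤ} (hε : ε = 1 ∨ ε = -1) : ((ε : ℤ) : R) ≠ 0 := by
  rcases hε with rfl | rfl <;> simp

theorem constantCoeff_inv1 {B : PowerSeries ℤ} (h1 : PowerSeries.constantCoeff B = 1) :
    PowerSeries.constantCoeff (inv1 B) = 1 := by
  have := Fermat.Agent.P2.helper66.coeff_zero_inv1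
    (U := B) (by rw [PowerSeries.coeff_zero_eq_constantCoeff_apply, h1])
  rwa [PowerSeries.coeff_zero_eq_constantCoeff_apply] at this

theorem constantCoeff_ex (d : ℕ) [NeZero d] {B : PowerSeries ℤ}
    (h1 : PowerSeries.constantCoeff B = 1) :
    PowerSeries.constantCoeff (Fermat.Agent.P2.helper66.ex d B) = 1 := by
  rw [← PowerSeries.coeff_zero_eq_constantCoeff_apply, Fermat.Agent.P2.helper66.coeff_ex,
    if_pos (dvd_zero d), Nat.zero_div, PowerSeries.coeff_zero_eq_constantCoeff_apply, h1]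


/-- Frobenius on integral power series: `P(t^q) = P(t)^q` over a ring of characteristic `q`. -/
theorem iota_ex_eq_pow (R : Type*) [CommRing R] (q : ℕ) [NeZero q] [Fact q.Prime] [CharP R q]
    (P : PowerSeries ℤ) : iota R (Fermat.Agent.P2.helper66.ex q P) = iota R P ^ q := by
  rw [iota_ex]
  exact Fermat.Agent.P2.helper94.qExpand_eq_pow_of_frobenius q R (iota R P) (iota R P)
    (coeffMap_iota _ P)

/-- an integral model gives the reduction in quotient form -/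
theorem rhoQ_of_model {g : LaurentSeries Kb} {r : LaurentSeries (kA A)}
    (hm : ∃ Y : LaurentSeries A, incl A Y = g ∧ red A Y = r) : RhoQ A g r := by
  obtain ⟨Y, rfl, rfl⟩ := hm
  exact Fermat.Agent.T3.helper36.rhoQ_incl Y

/-- `ε̄ · P̄ ≠ 0` -/
theorem sgn_mul_iota_ne_zero {ε : ℤ} (hε : ε = 1 ∨ ε = -1) {P : PowerSeries ℤ}
    (hP : PowerSeries.constantCoeff P = 1) :
    algebraMap (kA A) (LaurentSeries (kA A)) ((ε : ℤ) : kA A) * iota (kA A) P ≠ 0 := by
  refine mul_ne_zero ?_ (iota_ne_zero_of_coeff (R := kA A) hP)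
  rw [algebraMap_laurent_eq_C]
  exact (map_ne_zero_iff _ HahnSeries.C_injective).2 (sgn_ne_zero (kA A) hε)

/-- an integral model of `q⁻¹ g` gives an integral model of `g` -/
theorem exists_model_of_scaled (q : ℕ) {g : LaurentSeries Kb} (hq0 : (q : Kb) ≠ 0)
    (Y : LaurentSeries A) (hY : incl A Y = algebraMap Kb (LaurentSeries Kb) (q : Kb)⁻¹ * g) :
    ∃ Y' : LaurentSeries A, incl A Y' = g ∧ red A Y' =
      algebraMap (kA A) (LaurentSeries (kA A)) ((q : ℕ) : kA A) * red A Y := by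
  refine ⟨iota ↥A (PowerSeries.C (q : ℤ)) * Y, ?_, ?_⟩
  · rw [map_mul, incl_iota, hY, Fermat.Agent.P2.helper66.iota_C,
      algebraMap_laurent_eq_C, ← mul_assoc, ← map_mul]
    have : ((q : ℤ) : Kb) * (q : Kb)⁻¹ = 1 := by
      rw [Int.cast_natCast]
      exact mul_inv_cancel₀ hq0
    rw [this, map_one, one_mul]
  · rw [map_mul, red_iota, Fermat.Agent.P2.helper66.iota_C, algebraMap_laurent_eq_C,
      Int.cast_natCast]

/-- a twist commutes with constants -/
theorem twistL_C_mul (c a : Kb) (X : LaurentSeries Kb) :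
    twistL c (HahnSeries.C a * X) = HahnSeries.C a * twistL c X := by
  ext k
  rw [twistL_coeff, HahnSeries.C_mul_eq_smul, HahnSeries.C_mul_eq_smul, HahnSeries.coeff_smul,
    HahnSeries.coeff_smul, twistL_coeff, smul_eq_mul, smul_eq_mul]
  ring

end Formal

/-! ### the unit at level `N q` -/

section Table

variable {N q : ℕ} [NeZero N] [NeZero q] {hq : q.Prime} {hqN : ¬ q ∣ N}

/-- the properties of the weight-one unit `b₀` at level `N q`: `q`-expansion `B ∈ 1 + t ℤ[[t]]`,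
`W₁ b₀ · b₀ = ε q`, `b₀^{±1}` integral over `ℚ̄[j]`. -/
structure IsUnit0 (hq : q.Prime) (hqN : ¬ q ∣ N) (b0 : FF (N * q)) (B : PowerSeries ℤ)
    (ε : ℤ) : Prop where
  coe_eq : (b0 : LaurentSeries Kb) = iota Kb B
  const : PowerSeries.constantCoeff B = 1
  sign : ε = 1 ∨ ε = -1
  al : atkinLehner N q hq hqN b0 * b0 = algebraMap Kb (FF (N * q)) ((ε : Kb) * (q : Kb))
  int : IsIntegral (Algebra.adjoin Kb {xJ (N * q)}) b0
  int_inv : IsIntegral (Algebra.adjoin Kb {xJ (N * q)}) b0⁻¹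

/-- **the unit exists** (`4 ∣ N` or `9 ∣ N`). -/
theorem exists_isUnit0 (hq : q.Prime) (hqN : ¬ q ∣ N) (hN : 4 ∣ N ∨ 9 ∣ N) :
    ∃ (b0 : FF (N * q)) (B : PowerSeries ℤ) (ε : ℤ), IsUnit0 hq hqN b0 B ε := by
  obtain ⟨B, hB, h1, ⟨ε, hε, hW⟩, hi, hi'⟩ := unitStatement hq hqN hN
  rcases hε with rfl | rfl
  · exact ⟨⟨_, hB⟩, B, 1, rfl, h1, Or.inl rfl, by simpa using hW, hi, hi'⟩
  · exact ⟨⟨_, hB⟩, B, -1, rfl, h1, Or.inr rfl, by simpa using hW, hi, hi'⟩

namespace IsUnit0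

variable {b0 : FF (N * q)} {B : PowerSeries ℤ} {ε : ℤ} (h : IsUnit0 hq hqN b0 B ε)
include h

theorem ne_zero : b0 ≠ 0 := by
  intro h0
  have h1 := h.coe_eq
  rw [h0] at h1
  exact iota_ne_zero_of_coeff (R := Kb) h.const h1.symm

theorem q_ne_zero : (q : Kb) ≠ 0 := Nat.cast_ne_zero.2 hq.ne_zero

/-- `b₀` is fixed by the whole Galois group. -/
theorem fix (σ : Kb ≃ₐ[ℚ] Kb) :
    arithmeticRingAut (modularFunctionFieldFull (N * q)) σ b0 = b0 := by
  apply Subtype.ext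
  show coeffMap (σ : Kb →+* Kb) (b0 : LaurentSeries Kb) = _
  rw [h.coe_eq, coeffMap_iota]

/-- the expansion of `W₁ b₀` is `ε q / B`. -/
theorem coe_al : ((atkinLehner N q hq hqN b0 : FF (N * q)) : LaurentSeries Kb) =
    HahnSeries.C ((ε : Kb) * (q : Kb)) * iota Kb (inv1 B) := by
  have h1 := congrArg (fun x : FF (N * q) => (x : LaurentSeries Kb)) h.al
  have h2 : ((algebraMap Kb (FF (N * q)) ((ε : Kb) * (q : Kb)) : FF (N * q)) : LaurentSeries Kb)
      = algebraMap Kb (LaurentSeries Kb) ((ε : Kb) * (q : Kb)) := rfl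
  simp only [IntermediateField.coe_mul] at h1
  rw [h.coe_eq, h2, algebraMap_laurent_eq_C] at h1
  calc ((atkinLehner N q hq hqN b0 : FF (N * q)) : LaurentSeries Kb)
      = ((atkinLehner N q hq hqN b0 : FF (N * q)) : LaurentSeries Kb) *
          (iota Kb B * iota Kb (inv1 B)) := by rw [iota_mul_inv1 Kb h.const, mul_one]
    _ = (((atkinLehner N q hq hqN b0 : FF (N * q)) : LaurentSeries Kb) * iota Kb B) *
          iota Kb (inv1 B) := by ring
    _ = _ := by rw [h1]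

/-- `W₁ b₀ = ε q / b₀`. -/
theorem al_eq : atkinLehner N q hq hqN b0 = algebraMap Kb (FF (N * q)) ((ε : Kb) * (q : Kb)) * b0⁻¹ := by
  rw [← h.al, mul_assoc, mul_inv_cancel₀ h.ne_zero, mul_one]


/-! ### the table: integral models -/

variable (A : ValuationSubring Kb) {ζ : Kb} (hζ : IsPrimitiveRoot ζ q)

/-- `C (q⁻¹) · C (ε q) · X = C ε · X` -/
theorem scale_aux (X : LaurentSeries Kb) :
    algebraMap Kb (LaurentSeries Kb) (q : Kb)⁻¹ * (HahnSeries.C ((ε : Kb) * (q : Kb)) * X) =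
      algebraMap Kb (LaurentSeries Kb) (ε : Kb) * X := by
  rw [algebraMap_laurent_eq_C, algebraMap_laurent_eq_C, ← mul_assoc, ← map_mul]
  congr 2
  have := h.q_ne_zero
  field_simp

/-- `α₂ b₀` at `∞`: the series `B`. -/
theorem model_alpha0 : ∃ Y : LaurentSeries A,
    incl A Y = ex3 N q hq hqN hζ 0 (heckeAlphaBar Kb (N * q) q b0) ∧
      red A Y = iota (kA A) B :=
  ⟨iota ↥A B, by rw [ex3_zero_alpha, h.coe_eq, incl_iota], red_iota A B⟩

/-- `α₂ b₀` at `0`: `q⁻¹ ·` the expansion is `ε B⁻¹(t^q)`. -/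
theorem model_alpha1 : ∃ Y : LaurentSeries A,
    incl A Y = algebraMap Kb (LaurentSeries Kb) (q : Kb)⁻¹ *
        ex3 N q hq hqN hζ 1 (heckeAlphaBar Kb (N * q) q b0) ∧
      red A Y = algebraMap (kA A) (LaurentSeries (kA A)) ((ε : ℤ) : kA A) *
        iota (kA A) (Fermat.Agent.P2.helper66.ex q (inv1 B)) := by
  refine ⟨sgnModel A ε (Fermat.Agent.P2.helper66.ex q (inv1 B)), ?_, red_sgnModel A ε _⟩
  rw [ex3_one_alpha, h.coe_al, map_mul, ModularCurve.qExpand_C, h.scale_aux, incl_sgnModel,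
    iota_ex]

/-- `α₂ b₀` at the middle cusp: the series `B`. -/
theorem model_alpha2 : ∃ Y : LaurentSeries A,
    incl A Y = ex3 N q hq hqN hζ 2 (heckeAlphaBar Kb (N * q) q b0) ∧
      red A Y = iota (kA A) B :=
  ⟨iota ↥A B, by rw [ex3_two_alpha, h.coe_eq, incl_iota], red_iota A B⟩

/-- `β₂ b₀` at `∞`: the series `B(t^q)`. -/
theorem model_beta0 : ∃ Y : LaurentSeries A,
    incl A Y = ex3 N q hq hqN hζ 0 (heckeBetaBar Kb (N * q) q b0) ∧
      red A Y = iota (kA A) (Fermat.Agent.P2.helper66.ex q B) :=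
  ⟨iota ↥A (Fermat.Agent.P2.helper66.ex q B),
    by rw [ex3_zero_beta, h.coe_eq, incl_iota, iota_ex], red_iota A _⟩

/-- `β₂ b₀` at `0`: `q⁻¹ ·` the expansion is `ε B⁻¹`. -/
theorem model_beta1 : ∃ Y : LaurentSeries A,
    incl A Y = algebraMap Kb (LaurentSeries Kb) (q : Kb)⁻¹ *
        ex3 N q hq hqN hζ 1 (heckeBetaBar Kb (N * q) q b0) ∧
      red A Y = algebraMap (kA A) (LaurentSeries (kA A)) ((ε : ℤ) : kA A) *
        iota (kA A) (inv1 B) := by
  refine ⟨sgnModel A ε (inv1 B), ?_, red_sgnModel A ε _⟩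
  rw [ex3_one_beta, h.coe_al, h.scale_aux, incl_sgnModel]

/-- `β₂ b₀` at the middle cusp: `q⁻¹ ·` the expansion is `ε B⁻¹(ζ t)`, of reduction `ε B⁻¹`. -/
theorem model_beta2 (hA : A.LiesOverPrime q) : ∃ Y : LaurentSeries A,
    incl A Y = algebraMap Kb (LaurentSeries Kb) (q : Kb)⁻¹ *
        ex3 N q hq hqN hζ 2 (heckeBetaBar Kb (N * q) q b0) ∧
      red A Y = algebraMap (kA A) (LaurentSeries (kA A)) ((ε : ℤ) : kA A) *
        iota (kA A) (inv1 B) := by
  obtain ⟨Z', hZ1, hZ2⟩ := exists_model_twist (q := q) A hq hA hζ.pow_eq_one 1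
    (incl A (sgnModel A ε (inv1 B))) (sgnModel A ε (inv1 B)) rfl
  refine ⟨Z', ?_, by rw [hZ2, red_sgnModel]⟩
  rw [hZ1, ex3_two_beta, h.coe_al, twistL_C_mul, h.scale_aux, incl_sgnModel,
    algebraMap_laurent_eq_C, twistL_C_mul]


/-! ### the table: reductions (`RhoQ`) and valuations (`GaussIs`) -/

theorem rhoQ_alpha0 :
    RhoQ A (ex3 N q hq hqN hζ 0 (heckeAlphaBar Kb (N * q) q b0)) (iota (kA A) B) :=
  rhoQ_of_model A (h.model_alpha0 A hζ)

theorem rhoQ_alpha1 :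
    RhoQ A (algebraMap Kb (LaurentSeries Kb) (q : Kb)⁻¹ *
        ex3 N q hq hqN hζ 1 (heckeAlphaBar Kb (N * q) q b0))
      (algebraMap (kA A) (LaurentSeries (kA A)) ((ε : ℤ) : kA A) *
        iota (kA A) (Fermat.Agent.P2.helper66.ex q (inv1 B))) :=
  rhoQ_of_model A (h.model_alpha1 A hζ)

theorem rhoQ_alpha2 :
    RhoQ A (ex3 N q hq hqN hζ 2 (heckeAlphaBar Kb (N * q) q b0)) (iota (kA A) B) :=
  rhoQ_of_model A (h.model_alpha2 A hζ)

theorem rhoQ_beta0 :
    RhoQ A (ex3 N q hq hqN hζ 0 (heckeBetaBar Kb (N * q) q b0))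
      (iota (kA A) (Fermat.Agent.P2.helper66.ex q B)) :=
  rhoQ_of_model A (h.model_beta0 A hζ)

theorem rhoQ_beta1 :
    RhoQ A (algebraMap Kb (LaurentSeries Kb) (q : Kb)⁻¹ *
        ex3 N q hq hqN hζ 1 (heckeBetaBar Kb (N * q) q b0))
      (algebraMap (kA A) (LaurentSeries (kA A)) ((ε : ℤ) : kA A) * iota (kA A) (inv1 B)) :=
  rhoQ_of_model A (h.model_beta1 A hζ)

theorem rhoQ_beta2 (hA : A.LiesOverPrime q) :
    RhoQ A (algebraMap Kb (LaurentSeries Kb) (q : Kb)⁻¹ *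
        ex3 N q hq hqN hζ 2 (heckeBetaBar Kb (N * q) q b0))
      (algebraMap (kA A) (LaurentSeries (kA A)) ((ε : ℤ) : kA A) * iota (kA A) (inv1 B)) :=
  rhoQ_of_model A (h.model_beta2 A hζ hA)

/-- `w₁(α₂ b₀) = 0` -/
theorem gaussIs_alpha0 : GaussIs A (ex3 N q hq hqN hζ 0 (heckeAlphaBar Kb (N * q) q b0)) 1 :=
  Fermat.Agent.T3.helper36.gaussIs_of_rhoQ (h.rhoQ_alpha0 A hζ)
    (iota_ne_zero_of_coeff (R := kA A) h.const)

/-- `w₂(α₂ b₀) = v(q)` -/
theorem gaussIs_alpha1 :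
    GaussIs A (ex3 N q hq hqN hζ 1 (heckeAlphaBar Kb (N * q) q b0)) (q : Kb) :=
  ⟨h.q_ne_zero, _, sgn_mul_iota_ne_zero A h.sign
    (constantCoeff_ex q (constantCoeff_inv1 h.const)), h.rhoQ_alpha1 A hζ⟩

/-- `w₃(α₂ b₀) = 0` -/
theorem gaussIs_alpha2 : GaussIs A (ex3 N q hq hqN hζ 2 (heckeAlphaBar Kb (N * q) q b0)) 1 :=
  Fermat.Agent.T3.helper36.gaussIs_of_rhoQ (h.rhoQ_alpha2 A hζ)
    (iota_ne_zero_of_coeff (R := kA A) h.const)

/-- `w₁(β₂ b₀) = 0` -/
theorem gaussIs_beta0 : GaussIs A (ex3 N q hq hqN hζ 0 (heckeBetaBar Kb (N * q) q b0)) 1 :=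
  Fermat.Agent.T3.helper36.gaussIs_of_rhoQ (h.rhoQ_beta0 A hζ)
    (iota_ne_zero_of_coeff (R := kA A) (constantCoeff_ex q h.const))

/-- `w₂(β₂ b₀) = v(q)` -/
theorem gaussIs_beta1 :
    GaussIs A (ex3 N q hq hqN hζ 1 (heckeBetaBar Kb (N * q) q b0)) (q : Kb) :=
  ⟨h.q_ne_zero, _, sgn_mul_iota_ne_zero A h.sign (constantCoeff_inv1 h.const),
    h.rhoQ_beta1 A hζ⟩

/-- `w₃(β₂ b₀) = v(q)` -/
theorem gaussIs_beta2 (hA : A.LiesOverPrime q) :
    GaussIs A (ex3 N q hq hqN hζ 2 (heckeBetaBar Kb (N * q) q b0)) (q : Kb) :=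
  ⟨h.q_ne_zero, _, sgn_mul_iota_ne_zero A h.sign (constantCoeff_inv1 h.const),
    h.rhoQ_beta2 A hζ hA⟩

/-! ### integrality of the three expansions and Galois invariance -/

theorem isInt3_alpha : IsInt3 N q hq hqN A hζ (heckeAlphaBar Kb (N * q) q b0) := by
  intro i
  fin_cases i
  · obtain ⟨Y, hY, -⟩ := h.model_alpha0 A hζ
    exact ⟨Y, hY⟩
  · obtain ⟨Y, hY, -⟩ := h.model_alpha1 A hζ
    obtain ⟨Y', hY', -⟩ := exists_model_of_scaled A q h.q_ne_zero Y hY
    exact ⟨Y', hY'⟩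
  · obtain ⟨Y, hY, -⟩ := h.model_alpha2 A hζ
    exact ⟨Y, hY⟩

theorem isInt3_beta (hA : A.LiesOverPrime q) :
    IsInt3 N q hq hqN A hζ (heckeBetaBar Kb (N * q) q b0) := by
  intro i
  fin_cases i
  · obtain ⟨Y, hY, -⟩ := h.model_beta0 A hζ
    exact ⟨Y, hY⟩
  · obtain ⟨Y, hY, -⟩ := h.model_beta1 A hζ
    obtain ⟨Y', hY', -⟩ := exists_model_of_scaled A q h.q_ne_zero Y hY
    exact ⟨Y', hY'⟩
  · obtain ⟨Y, hY, -⟩ := h.model_beta2 A hζ hA
    obtain ⟨Y', hY', -⟩ := exists_model_of_scaled A q h.q_ne_zero Y hY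
    exact ⟨Y', hY'⟩

theorem isFixI : IsFixI A (N * q) b0 := fun σ _ => h.fix σ

theorem isFixI_alpha : IsFixI A (N * q * q) (heckeAlphaBar Kb (N * q) q b0) :=
  Fermat.Agent.T3.helper98.isFixI_alpha A (N * q) (h.isFixI A)

theorem isFixI_beta : IsFixI A (N * q * q) (heckeBetaBar Kb (N * q) q b0) :=
  Fermat.Agent.T3.helper98.isFixI_beta A (N * q) (h.isFixI A)


/-! ### the reductions: `B̄ · B̄⁻¹ = 1`, `B̄(t^q) = B̄^q` -/

theorem red_mul_inv : iota (kA A) B * iota (kA A) (inv1 B) = 1 :=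
  iota_mul_inv1 (kA A) h.const

theorem red_frob (hA : A.LiesOverPrime q) :
    iota (kA A) (Fermat.Agent.P2.helper66.ex q B) = iota (kA A) B ^ q := by
  haveI : Fact q.Prime := ⟨hq⟩
  haveI : CharP (kA A) q := Fermat.Agent.P2.helper93.charP_residueField hq hA
  exact iota_ex_eq_pow (kA A) q B

theorem red_frob_inv (hA : A.LiesOverPrime q) :
    iota (kA A) (Fermat.Agent.P2.helper66.ex q (inv1 B)) = iota (kA A) (inv1 B) ^ q := by
  haveI : Fact q.Prime := ⟨hq⟩
  haveI : CharP (kA A) q := Fermat.Agent.P2.helper93.charP_residueField hq hA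
  exact iota_ex_eq_pow (kA A) q (inv1 B)

/-! ### the other unit `W₁ b₀ = ε q / b₀` -/

theorem al_al : atkinLehner N q hq hqN (atkinLehner N q hq hqN b0) = b0 :=
  atkinLehner_atkinLehner N q hq hqN b0

/-- an integral model of `W₁ b₀`, of reduction `0`. -/
theorem model_al (hA : A.LiesOverPrime q) : ∃ Y : LaurentSeries A,
    incl A Y = ((atkinLehner N q hq hqN b0 : FF (N * q)) : LaurentSeries Kb) ∧ red A Y = 0 := by
  haveI : CharP (kA A) q := Fermat.Agent.P2.helper93.charP_residueField hq hA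
  refine ⟨iota ↥A (PowerSeries.C (ε * (q : ℤ)) * inv1 B), ?_, ?_⟩
  · rw [incl_iota, map_mul, Fermat.Agent.P2.helper66.iota_C, h.coe_al]
    push_cast
    rfl
  · rw [red_iota, map_mul, Fermat.Agent.P2.helper66.iota_C]
    have : (((ε * (q : ℤ) : ℤ)) : kA A) = 0 := by
      push_cast
      rw [CharP.cast_eq_zero (kA A) q, mul_zero]
    rw [this, map_zero, zero_mul]

/-- **the table of `α₂ (W₁ b₀) = ε q / α₂ b₀`**: integral, reductions `(0, B̄(t^q), 0)`. -/
theorem red3_alpha_al (hA : A.LiesOverPrime q) : ∃ Y' : Fin 3 → LaurentSeries A,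
    (∀ i, incl A (Y' i) =
      ex3 N q hq hqN hζ i (heckeAlphaBar Kb (N * q) q (atkinLehner N q hq hqN b0))) ∧
    red A (Y' 0) = 0 ∧
    red A (Y' 1) = iota (kA A) (Fermat.Agent.P2.helper66.ex q B) ∧
    red A (Y' 2) = 0 := by
  obtain ⟨Y, hY, hY0⟩ := h.model_al A hA
  have hYw : incl A (iota ↥A B) =
      ((atkinLehner N q hq hqN (atkinLehner N q hq hqN b0) : FF (N * q)) : LaurentSeries Kb) := by
    rw [h.al_al, h.coe_eq, incl_iota]
  obtain ⟨Y', h1, h2, h3, h4⟩ := red3_alpha (hq := hq) (hqN := hqN) A hζ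
    (atkinLehner N q hq hqN b0) Y (iota ↥A B) hY hYw
  refine ⟨Y', h1, by rw [h2, hY0], ?_, by rw [h4, hY0]⟩
  rw [h3, red_iota, iota_ex]

/-- **the table of `β₂ (W₁ b₀) = ε q / β₂ b₀`**: integral, reductions `(0, B̄, B̄)`. -/
theorem red3_beta_al (hA : A.LiesOverPrime q) : ∃ Y' : Fin 3 → LaurentSeries A,
    (∀ i, incl A (Y' i) =
      ex3 N q hq hqN hζ i (heckeBetaBar Kb (N * q) q (atkinLehner N q hq hqN b0))) ∧
    red A (Y' 0) = 0 ∧
    red A (Y' 1) = iota (kA A) B ∧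
    red A (Y' 2) = iota (kA A) B := by
  obtain ⟨Y, hY, hY0⟩ := h.model_al A hA
  have hYw : incl A (iota ↥A B) =
      ((atkinLehner N q hq hqN (atkinLehner N q hq hqN b0) : FF (N * q)) : LaurentSeries Kb) := by
    rw [h.al_al, h.coe_eq, incl_iota]
  obtain ⟨Y', h1, h2, h3, h4⟩ := red3_beta (hq := hq) (hqN := hqN) A hA hζ
    (atkinLehner N q hq hqN b0) Y (iota ↥A B) hY hYw
  refine ⟨Y', h1, by rw [h2, hY0, map_zero], by rw [h3, red_iota], by rw [h4, red_iota]⟩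

theorem isInt3_alpha_al (hA : A.LiesOverPrime q) :
    IsInt3 N q hq hqN A hζ (heckeAlphaBar Kb (N * q) q (atkinLehner N q hq hqN b0)) := by
  obtain ⟨Y', h1, -⟩ := h.red3_alpha_al A hζ hA
  exact fun i => ⟨Y' i, h1 i⟩

theorem isInt3_beta_al (hA : A.LiesOverPrime q) :
    IsInt3 N q hq hqN A hζ (heckeBetaBar Kb (N * q) q (atkinLehner N q hq hqN b0)) := by
  obtain ⟨Y', h1, -⟩ := h.red3_beta_al A hζ hA
  exact fun i => ⟨Y' i, h1 i⟩

theorem isFixI_al : IsFixI A (N * q) (atkinLehner N q hq hqN b0) :=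
  Fermat.Agent.T3.helper98.isFixI_atkinLehner A (h.isFixI A)

/-- `α₂ b₀ · α₂ (W₁ b₀) = ε q` -/
theorem alpha_mul : heckeAlphaBar Kb (N * q) q (atkinLehner N q hq hqN b0) *
    heckeAlphaBar Kb (N * q) q b0 = algebraMap Kb (FF (N * q * q)) ((ε : Kb) * (q : Kb)) := by
  rw [← map_mul, h.al, AlgHom.commutes]

/-- `β₂ b₀ · β₂ (W₁ b₀) = ε q` -/
theorem beta_mul : heckeBetaBar Kb (N * q) q (atkinLehner N q hq hqN b0) *
    heckeBetaBar Kb (N * q) q b0 = algebraMap Kb (FF (N * q * q)) ((ε : Kb) * (q : Kb)) := by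
  rw [← map_mul, h.al, AlgHom.commutes]

end IsUnit0

end Table

end Fermat.Agent.T3.helper16

end
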