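import Mathlib
import Fermat.Agent.T3.helper16_UnitTable

/-!
# T3 / [UNIT-TABLE], part 2 (helper16): integrality over `ℚ̄[j]` at level `N q q`

* `isIntegral_adjoin_map`, `isIntegral_adjoin_trans` : transport of integrality over `K[x]`;
* `isIntegral_JdF` : `j(d τ)` is integral over `ℚ̄[j]` (`d ∣ M`);
* `isIntegral_alpha`, `isIntegral_beta` : `α f`, `β f` are integral over `ℚ̄[j]` at level `M q`
  if `f` is at level `M`;
* `IsUnit0.int_alpha`, `int_beta`, … : the units `α₂ b₀`, `β₂ b₀`, `α₂ (W₁ b₀)`, `β₂ (W₁ b₀)` and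
  their inverses are integral over `ℚ̄[j]` at level `N q q` (regular where `j` is finite).
-/

set_option autoImplicit false
set_option synthInstance.maxHeartbeats 400000
set_option linter.style.haveILetI false
set_option linter.unusedSectionVars false
set_option linter.unusedVariables false
set_option linter.style.longLine false

noncomputable section

open HahnSeries IntermediateField AlgebraicCurve ModularCurve
open Fermat.Agent.S18.helper19 Fermat.Agent.P2.helper29 Fermat.Agent.T2.helper36

namespace Fermat.Agent.T3.helper16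

open Fermat.Agent.S24 Fermat.Agent.S24.helper17 Fermat.Agent.S24.helper77

/-! ### transport of integrality -/

section Generic

variable {K F₁ F₂ : Type*} [Field K] [Field F₁] [Field F₂] [Algebra K F₁] [Algebra K F₂]

/-- transport of integrality over `K[x]` along an algebra homomorphism -/
theorem isIntegral_adjoin_map (φ : F₁ →ₐ[K] F₂) (x f : F₁)
    (h : IsIntegral (Algebra.adjoin K {x}) f) : IsIntegral (Algebra.adjoin K {φ x}) (φ f) := by
  have hmem : ∀ a : Algebra.adjoin K {x}, φ a ∈ Algebra.adjoin K {φ x} := by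
    intro a
    have e : (Algebra.adjoin K {x}).map φ = Algebra.adjoin K {φ x} := by
      rw [AlgHom.map_adjoin, Set.image_singleton]
    rw [← e]
    exact ⟨a, a.2, rfl⟩
  let φ' : Algebra.adjoin K {x} →+* Algebra.adjoin K {φ x} :=
    (((φ.comp (Algebra.adjoin K {x}).val).codRestrict (Algebra.adjoin K {φ x}) hmem :
      Algebra.adjoin K {x} →ₐ[K] Algebra.adjoin K {φ x}) :
      Algebra.adjoin K {x} →+* Algebra.adjoin K {φ x})
  exact IsIntegral.map_of_comp_eq φ' (φ : F₁ →+* F₂) (by ext a; rfl) h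

/-- integrality over `K[y]` implies integrality over `K[x]` if `y` is integral over `K[x]` -/
theorem isIntegral_adjoin_trans (x y f : F₂) (hy : IsIntegral (Algebra.adjoin K {x}) y)
    (hf : IsIntegral (Algebra.adjoin K {y}) f) : IsIntegral (Algebra.adjoin K {x}) f := by
  set R₀ := Algebra.adjoin K {x} with hR₀
  set T : Subalgebra R₀ F₂ := integralClosure R₀ F₂ with hT
  have hle : Algebra.adjoin K {y} ≤ T.restrictScalars K := by
    apply Algebra.adjoin_le
    intro z hz
    rw [Set.mem_singleton_iff] at hz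
    subst hz
    exact hy
  let ψ : Algebra.adjoin K {y} →+* T :=
    { toFun := fun a => ⟨a.1, hle a.2⟩
      map_one' := rfl
      map_mul' := fun _ _ => rfl
      map_zero' := rfl
      map_add' := fun _ _ => rfl }
  have h1 : IsIntegral T ((RingHom.id F₂) f) :=
    IsIntegral.map_of_comp_eq ψ (RingHom.id F₂) (by ext a; rfl) hf
  exact isIntegral_trans (A := T) f h1

end Generic

/-! ### the degeneracy maps preserve integrality over `ℚ̄[j]` -/

section Modular

variable (M : ℕ) [NeZero M]

/-- `j(d τ)` is integral over `ℚ̄[j]`. -/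
theorem isIntegral_JdF (d : ℕ) [NeZero d] (hd : d ∣ M) :
    IsIntegral (Algebra.adjoin Kb {xJ M}) (JdF M d hd) := by
  have hS : IsQExp (helper17.toC (Jd d)) (jfam (fun _ : Unit => d) ()) := by
    have h := isQExp_jfunDT d
    rw [← toC_JdT, JdT, dif_neg (NeZero.ne d)] at h
    exact h
  exact isIntegral_of_isQExp M (Jd_mem M d hd) hS
    (fun γ hγ => precomp_jfam_of_mem_Gamma0 (N := M) (fun _ : Unit => d) (fun _ => hd) hγ ())
    (fun g => precomp_jfam_mem_holoExp (fun _ : Unit => d) (fun _ => NeZero.ne d) g ())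

variable (q : ℕ) [NeZero q]

theorem heckeAlphaBar_xJ : heckeAlphaBar Kb M q (xJ M) = xJ (M * q) :=
  Subtype.ext rfl

theorem heckeBetaBar_xJ :
    heckeBetaBar Kb M q (xJ M) = JdF (M * q) q (dvd_mul_left q M) := by
  apply Subtype.ext
  rw [coe_heckeBetaBar]
  show qExpand Kb q (Jd 1) = Jd q
  have h := qExpand_JdT q 1 one_ne_zero
  rw [one_mul, JdT, dif_neg one_ne_zero, JdT, dif_neg (NeZero.ne q)] at h
  exact h

/-- `α f` is integral over `ℚ̄[j]` if `f` is. -/
theorem isIntegral_alpha {f : FF M} (h : IsIntegral (Algebra.adjoin Kb {xJ M}) f) :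
    IsIntegral (Algebra.adjoin Kb {xJ (M * q)}) (heckeAlphaBar Kb M q f) := by
  have h1 := isIntegral_adjoin_map (heckeAlphaBar Kb M q) (xJ M) f h
  rwa [heckeAlphaBar_xJ] at h1

/-- `β f` is integral over `ℚ̄[j]` if `f` is. -/
theorem isIntegral_beta {f : FF M} (h : IsIntegral (Algebra.adjoin Kb {xJ M}) f) :
    IsIntegral (Algebra.adjoin Kb {xJ (M * q)}) (heckeBetaBar Kb M q f) := by
  have h1 := isIntegral_adjoin_map (heckeBetaBar Kb M q) (xJ M) f h
  rw [heckeBetaBar_xJ] at h1
  exact isIntegral_adjoin_trans _ _ _ (isIntegral_JdF (M * q) q (dvd_mul_left q M)) h1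

/-- constants are integral over `ℚ̄[j]` -/
theorem isIntegral_const (c : Kb) :
    IsIntegral (Algebra.adjoin Kb {xJ M}) (algebraMap Kb (FF M) c) := by
  have h := isIntegral_algebraMap (R := Algebra.adjoin Kb {xJ M}) (A := FF M)
    (x := algebraMap Kb (Algebra.adjoin Kb {xJ M}) c)
  exact h

end Modular

/-! ### the units at level `N q q` -/

section Units

variable {N q : ℕ} [NeZero N] [NeZero q] {hq : q.Prime} {hqN : ¬ q ∣ N}

namespace IsUnit0

variable {b0 : FF (N * q)} {B : PowerSeries ℤ} {ε : ℤ} (h : IsUnit0 hq hqN b0 B ε)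
include h

theorem eps_q_ne_zero : (ε : Kb) * (q : Kb) ≠ 0 :=
  mul_ne_zero (sgn_ne_zero Kb h.sign) h.q_ne_zero

/-- `W₁ b₀` is integral over `ℚ̄[j]` -/
theorem int_al : IsIntegral (Algebra.adjoin Kb {xJ (N * q)}) (atkinLehner N q hq hqN b0) := by
  rw [h.al_eq]
  exact (isIntegral_const (N * q) _).mul h.int_inv

/-- `(W₁ b₀)⁻¹` is integral over `ℚ̄[j]` -/
theorem int_al_inv :
    IsIntegral (Algebra.adjoin Kb {xJ (N * q)}) (atkinLehner N q hq hqN b0)⁻¹ := by
  have e : (atkinLehner N q hq hqN b0)⁻¹ =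
      algebraMap Kb (FF (N * q)) ((ε : Kb) * (q : Kb))⁻¹ * b0 := by
    rw [h.al_eq, mul_inv, inv_inv, map_inv₀]
  rw [e]
  exact (isIntegral_const (N * q) _).mul h.int

theorem int_alpha :
    IsIntegral (Algebra.adjoin Kb {xJ (N * q * q)}) (heckeAlphaBar Kb (N * q) q b0) :=
  isIntegral_alpha (N * q) q h.int

theorem int_alpha_inv :
    IsIntegral (Algebra.adjoin Kb {xJ (N * q * q)}) (heckeAlphaBar Kb (N * q) q b0)⁻¹ := by
  rw [← map_inv₀]
  exact isIntegral_alpha (N * q) q h.int_inv

theorem int_beta :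
    IsIntegral (Algebra.adjoin Kb {xJ (N * q * q)}) (heckeBetaBar Kb (N * q) q b0) :=
  isIntegral_beta (N * q) q h.int

theorem int_beta_inv :
    IsIntegral (Algebra.adjoin Kb {xJ (N * q * q)}) (heckeBetaBar Kb (N * q) q b0)⁻¹ := by
  rw [← map_inv₀]
  exact isIntegral_beta (N * q) q h.int_inv

theorem int_alpha_al :
    IsIntegral (Algebra.adjoin Kb {xJ (N * q * q)})
      (heckeAlphaBar Kb (N * q) q (atkinLehner N q hq hqN b0)) :=
  isIntegral_alpha (N * q) q h.int_al

theorem int_alpha_al_inv :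
    IsIntegral (Algebra.adjoin Kb {xJ (N * q * q)})
      (heckeAlphaBar Kb (N * q) q (atkinLehner N q hq hqN b0))⁻¹ := by
  rw [← map_inv₀]
  exact isIntegral_alpha (N * q) q h.int_al_inv

theorem int_beta_al :
    IsIntegral (Algebra.adjoin Kb {xJ (N * q * q)})
      (heckeBetaBar Kb (N * q) q (atkinLehner N q hq hqN b0)) :=
  isIntegral_beta (N * q) q h.int_al

theorem int_beta_al_inv :
    IsIntegral (Algebra.adjoin Kb {xJ (N * q * q)})
      (heckeBetaBar Kb (N * q) q (atkinLehner N q hq hqN b0))⁻¹ := by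
  rw [← map_inv₀]
  exact isIntegral_beta (N * q) q h.int_al_inv

end IsUnit0

end Units

end Fermat.Agent.T3.helper16

end
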