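import Mathlib
import Fermat.Agent.T3.helper16_UnitGrow
import Fermat.Agent.S24.helper75_FFCore

/-!
# T3 / [T3-UNIT] (helper16): the unit property in the vocabulary of places

* `ord_nonneg_of_isIntegral` : an element integral over `K[x]` is regular at every place where
  `x` is regular;
* `ord_eq_zero_of_isIntegral` : if `b` and `b⁻¹` are integral over `K[x]`, then `ord_P b = 0` at
  every place `P` with `0 ≤ ord_P x`;
* `UnitPlaceStatement`, `unitPlaceStatement` : [T3-UNIT] with the unit property in place form.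
-/

set_option autoImplicit false
set_option linter.unusedSectionVars false

noncomputable section

open ModularCurve AlgebraicCurve

namespace Fermat.Agent.T3.helper16

open Fermat.Agent.S24 Fermat.Agent.S18.helper19

section Generic

variable {K F : Type*} [Field K] [Field F] [Algebra K F]

theorem ord_nonneg_of_isIntegral {x b : F} (hb : IsIntegral (Algebra.adjoin K {x}) b)
    (P : Place K F) (hP : 0 ≤ P.ord x) : 0 ≤ P.ord b := by
  apply Fermat.Agent.S24.helper75.place_ord_nonneg_of_mem
  have hx : x ∈ P.toValuationSubring := Fermat.Agent.S24.helper75.place_mem_of_ord_nonneg P hP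
  -- `K[x] ⊆ V`
  have hle : ∀ y ∈ Algebra.adjoin K {x}, y ∈ P.toValuationSubring := by
    intro y hy
    induction hy using Algebra.adjoin_induction with
    | mem z hz =>
      rw [Set.mem_singleton_iff] at hz
      rw [hz]
      exact hx
    | algebraMap r => exact P.algebraMap_mem' r
    | add y z _ _ hy hz => exact P.toValuationSubring.add_mem _ _ hy hz
    | mul y z _ _ hy hz => exact P.toValuationSubring.mul_mem _ _ hy hz
  obtain ⟨p, hp, hpb⟩ := hb
  let φ : Algebra.adjoin K {x} →+* P.toValuationSubring :=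
    { toFun := fun y => ⟨y.1, hle y.1 y.2⟩
      map_one' := rfl
      map_mul' := fun _ _ => rfl
      map_zero' := rfl
      map_add' := fun _ _ => rfl }
  have hint : IsIntegral P.toValuationSubring b := by
    refine ⟨p.map φ, hp.map φ, ?_⟩
    rw [Polynomial.eval₂_map]
    exact hpb
  obtain ⟨y, hy⟩ := (IsIntegrallyClosed.isIntegral_iff (R := P.toValuationSubring) (K := F)).1 hint
  rw [← hy]
  exact y.2

theorem ord_eq_zero_of_isIntegral {x b : F} (hb : IsIntegral (Algebra.adjoin K {x}) b)
    (hb' : IsIntegral (Algebra.adjoin K {x}) b⁻¹) (P : Place K F) (hP : 0 ≤ P.ord x) :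
    P.ord b = 0 := by
  have h1 := ord_nonneg_of_isIntegral hb P hP
  have h2 := ord_nonneg_of_isIntegral hb' P hP
  rw [P.ord_inv] at h2
  omega

end Generic

/-- **[T3-UNIT]**, place form of the unit property. -/
def UnitPlaceStatement (N q : ℕ) [NeZero N] [NeZero q] (hq : q.Prime) (hqN : ¬ q ∣ N) : Prop :=
  ∃ (B : PowerSeries ℤ) (hB : Fermat.Agent.P2.helper66.iota Kb B ∈ FF (N * q)),
    PowerSeries.constantCoeff B = 1 ∧
    (∃ ε : Kb, (ε = 1 ∨ ε = -1) ∧
      Fermat.Agent.T2.helper36.atkinLehner N q hq hqN ⟨_, hB⟩ * ⟨_, hB⟩ =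
        algebraMap Kb (FF (N * q)) (ε * (q : Kb))) ∧
    ∀ P : Place Kb (FF (N * q)), 0 ≤ P.ord (xJ (N * q)) → P.ord (⟨_, hB⟩ : FF (N * q)) = 0

theorem unitPlaceStatement {N q : ℕ} [NeZero N] [NeZero q] (hq : q.Prime) (hqN : ¬ q ∣ N)
    (hN : 4 ∣ N ∨ 9 ∣ N) : UnitPlaceStatement N q hq hqN := by
  obtain ⟨B, hB, h1, h2, h3, h4⟩ := unitStatement hq hqN hN
  exact ⟨B, hB, h1, h2, fun P hP => ord_eq_zero_of_isIntegral h3 h4 P hP⟩

end Fermat.Agent.T3.helper16
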