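import Fermat.Agent.T3.helper48_IntTrans
import Fermat.Agent.T3.helper48_AtkinLehnerQ
import Fermat.Agent.T3.helper87_EmbAll
import Fermat.Agent.P2.helper81_ValConv

/-!
# Tier 3, [COMPLETE-A] (helper48): integrality over `A[j]` at the level `N q q`

`q` a prime not dividing `N`, `A` a valuation subring of `ℚ̄` over `q`.

* `evK M : ℚ̄[X] →+* F_M` (`X ↦ j`), `helper81.evX A M : A[X] →+* F_M`;
* `isIntegralElem_level` (level `N`) : integral over `ℚ̄[j]` + `A`-integral expansion at `∞`
  ⟹ integral over `A[j]` (P2, Q1c);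
* `isIntegralElem_level_q` (level `N q`) : integral over `ℚ̄[j]` + `A`-integral expansions at
  `∞` and `0` ⟹ integral over `A[j]`;
* `completeA` (level `N q q`) : integral over `ℚ̄[j]` + `A`-integral expansions at `∞`, `0` and
  all the middle cusps ⟹ integral over `A[j]`.
-/

set_option autoImplicit false
set_option synthInstance.maxHeartbeats 400000
set_option linter.style.haveILetI false
set_option linter.unusedSectionVars false
set_option linter.unusedVariables false

noncomputable section

open HahnSeries IntermediateField AlgebraicCurve ModularCurve Polynomial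
open Fermat.Agent.S18.helper19 Fermat.Agent.P2.helper29 Fermat.Agent.T2.helper36
open Fermat.Agent.S24

namespace Fermat.Agent.T3.helper48

open Fermat.Agent.P2.helper93 (twistL twistL_coeff)
open Fermat.Agent.T2.helper87 (coeHom coeHom_apply twistHom minpoly_coeff_mem_of_embeddings
  minpoly_coeff_isIntegral_of_monic exists_incl_minpoly_coeff exists_incl_of_qExpand_mem)
open Fermat.Agent.T3.helper87 (embMid minpoly_coeff_mem_embAll)
open Fermat.Agent.P2.helper81 (evX)

/-! ### The structure maps -/

section Maps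

/-- the structure map `ℚ̄[X] → F_M`, `X ↦ j` -/
def evK (M : ℕ) [NeZero M] : Polynomial Kb →+* FF M :=
  ((aeval (xJ M) : Polynomial Kb →ₐ[Kb] FF M) : Polynomial Kb →+* FF M)

theorem evK_C (M : ℕ) [NeZero M] (a : Kb) : evK M (C a) = algebraMap Kb (FF M) a := by
  simp [evK]

theorem evK_X (M : ℕ) [NeZero M] : evK M X = xJ M := by
  simp [evK]

variable (M q : ℕ) [NeZero M] [NeZero q]

theorem alpha_comp_evK :
    ((heckeAlphaBar Kb M q : FF M →ₐ[Kb] FF (M * q)) : FF M →+* FF (M * q)).comp (evK M)
      = evK (M * q) := by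
  apply Polynomial.ringHom_ext
  · intro a
    simp only [RingHom.coe_comp, Function.comp_apply, evK_C, RingHom.coe_coe, AlgHom.commutes]
  · simp only [RingHom.coe_comp, Function.comp_apply, evK_X, RingHom.coe_coe]
    exact Fermat.Agent.P2.helper93.alpha_xJ M q

theorem alpha_comp_evX (A : ValuationSubring Kb) :
    ((heckeAlphaBar Kb M q : FF M →ₐ[Kb] FF (M * q)) : FF M →+* FF (M * q)).comp (evX A M)
      = evX A (M * q) := by
  apply Polynomial.ringHom_ext
  · intro a
    simp only [RingHom.coe_comp, Function.comp_apply, RingHom.coe_coe]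
    rw [Fermat.Agent.P2.helper81.evX_C, Fermat.Agent.P2.helper81.evX_C, AlgHom.commutes]
  · simp only [RingHom.coe_comp, Function.comp_apply, RingHom.coe_coe]
    rw [Fermat.Agent.P2.helper81.evX_X, Fermat.Agent.P2.helper81.evX_X]
    exact Fermat.Agent.P2.helper93.alpha_xJ M q

end Maps

/-! ### Level `N` -/

section LevelN

variable (A : ValuationSubring Kb) (N q : ℕ) [NeZero N] [NeZero q]

/-- **Level `N`** (P2, Q1c): integral over `ℚ̄[j]` with an `A`-integral expansion ⟹ integral
over `A[j]`. -/
theorem isIntegralElem_level (hq : q.Prime) (hqN : ¬ q ∣ N) (hA : A.LiesOverPrime q) (c : FF N)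
    (hc : ∃ Y : LaurentSeries A, incl A Y = (c : LaurentSeries Kb))
    (hint : (evK N).IsIntegralElem c) : (evX A N).IsIntegralElem c := by
  haveI : Fact q.Prime := ⟨hq⟩
  obtain ⟨Y, hY⟩ := hc
  have hYmem : coeffMap A.subtype Y ∈ modularFunctionFieldBar N := by
    have : coeffMap A.subtype Y = (c : LaurentSeries Kb) := hY
    rw [this]
    exact c.2
  have hint' : ∃ p : Polynomial (Polynomial Kbar), p.Monic ∧
      Fermat.Agent.P2.helper81.ev₂ Fermat.Agent.P2.helper81.jK (coeffMap A.subtype Y) p = 0 := by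
    obtain ⟨p, hp, hp0⟩ := hint
    refine ⟨p, hp, ?_⟩
    have h1 := congrArg (algebraMap (FF N) (LaurentSeries Kb)) hp0
    rw [Polynomial.hom_eval₂, map_zero] at h1
    have h2 : (algebraMap (FF N) (LaurentSeries Kb)).comp (evK N)
        = ((aeval Fermat.Agent.P2.helper81.jK : Polynomial Kbar →ₐ[Kbar] LaurentSeries Kbar) :
            Polynomial Kbar →+* LaurentSeries Kbar) := by
      apply Polynomial.ringHom_ext
      · intro a
        simp only [RingHom.coe_comp, Function.comp_apply, evK_C, RingHom.coe_coe, aeval_C]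
        rfl
      · simp only [RingHom.coe_comp, Function.comp_apply, evK_X, RingHom.coe_coe, aeval_X]
        exact Fermat.Agent.P2.helper81.coe_xJ_eq N
    rw [h2] at h1
    have h3 : coeffMap A.subtype Y = algebraMap (FF N) (LaurentSeries Kb) c := hY
    rw [Fermat.Agent.P2.helper81.ev₂_apply, h3]
    exact h1
  have key := Fermat.Agent.P2.helper81.isIntegral_of_incl A hA N hqN Y hYmem hint'
  have e : (⟨coeffMap A.subtype Y, hYmem⟩ : FN N) = c := Subtype.ext hY
  rw [e] at key
  exact key

end LevelN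

/-! ### Level `N q` -/

section LevelNq

variable (A : ValuationSubring Kb) (N q : ℕ) [NeZero N] [NeZero q]

/-- **Level `N q`**: integral over `ℚ̄[j]` with `A`-integral expansions at `∞` and at `0`
⟹ integral over `A[j]`. -/
theorem isIntegralElem_level_q (hq : q.Prime) (hqN : ¬ q ∣ N) (hA : A.LiesOverPrime q)
    (g : FF (N * q))
    (h1 : ∃ Y : LaurentSeries A, incl A Y = (g : LaurentSeries Kb))
    (h2 : ∃ Y : LaurentSeries A,
      incl A Y = ((atkinLehner N q hq hqN g : FF (N * q)) : LaurentSeries Kb))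
    (hint : (evK (N * q)).IsIntegralElem g) : (evX A (N * q)).IsIntegralElem g := by
  letI := algebraAlong (heckeAlphaBar Kb N q)
  obtain ⟨Y₁, hY₁⟩ := h1
  obtain ⟨Y₂, hY₂⟩ := h2
  have hrep : Fermat.Agent.T2.helper22.IsRep A (atkinLehner N q hq hqN) g Y₁ Y₂ := ⟨hY₁, hY₂⟩
  have hfr := Fermat.Agent.P2.helper93.finrank_alpha N q hq hqN
  haveI fd : FiniteDimensional (FF N) (FF (N * q)) :=
    Module.finite_of_finrank_pos (by rw [hfr]; omega)
  have hgint : IsIntegral (FF N) g := Algebra.IsIntegral.isIntegral g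
  have hcoef : ∀ n, (evX A N).IsIntegralElem ((minpoly (FF N) g).coeff n) := by
    intro n
    refine isIntegralElem_level A N q hq hqN hA _
      (exists_incl_minpoly_coeff N q hq hqN A hrep n) ?_
    obtain ⟨p, hp, hp0⟩ := hint
    refine minpoly_coeff_isIntegral_of_monic (F := FF N) (E := FF (N * q)) (evK N) p hp g ?_ n
    have : (algebraMap (FF N) (FF (N * q))).comp (evK N) = evK (N * q) := alpha_comp_evK N q
    rw [this]
    exact hp0
  have key := isIntegralElem_of_minpoly_coeff (evX A N) g hgint hcoef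
  exact isIntegralElem_congr (alpha_comp_evX N q A) key

end LevelNq

/-! ### Level `N q q` -/

section LevelNqq

open Fermat.Agent.P2.helper93 (rootUnit coe_rootUnit coeffMap_subtype_rot)

variable (A : ValuationSubring Kb) (N q : ℕ) [NeZero N] [NeZero q] (hq : q.Prime)
  (hqN : ¬ q ∣ N)

/-- the `q` embeddings `f ↦ (W₂ f)(ζ^k t)` of `F_{Nqq}`; on `α F_{Nq}` they are all equal to
`c ↦ (W₁ c)(t^q)`. -/
def embZeroFam (ζ : Kb) (hζ : ζ ≠ 0) (k : Fin q) : FF (N * q * q) →+* LaurentSeries Kb :=
  (twistHom (ζ ^ (k : ℕ)) (pow_ne_zero _ hζ)).comp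
    ((coeHom (N * q * q)).comp
      ((atkinLehnerSq N q hq hqN : FF (N * q * q) ≃ₐ[Kb] FF (N * q * q)) :
        FF (N * q * q) →+* FF (N * q * q)))

variable {N q hq hqN}

theorem embZeroFam_apply (ζ : Kb) (hζ : ζ ≠ 0) (k : Fin q) (f : FF (N * q * q)) :
    embZeroFam N q hq hqN ζ hζ k f =
      twistL (ζ ^ (k : ℕ)) ((atkinLehnerSq N q hq hqN f : FF (N * q * q)) : LaurentSeries Kb) :=
  rfl

theorem embZeroFam_alpha {ζ : Kb} (hζ : ζ ≠ 0) (hζq : ζ ^ q = 1) (k : Fin q) (c : FF (N * q)) :
    embZeroFam N q hq hqN ζ hζ k (heckeAlphaBar Kb (N * q) q c)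
      = qExpand Kb q ((atkinLehner N q hq hqN c : FF (N * q)) : LaurentSeries Kb) := by
  rw [embZeroFam_apply, atkinLehnerSq_heckeAlphaBar, coe_heckeBetaBar]
  apply Fermat.Agent.T2.helper87.twistL_qExpand
  rw [← pow_mul, mul_comm, pow_mul, hζq, one_pow]

theorem coeff_embZeroFam {ζ : Kb} (hζ : ζ ≠ 0) (k : Fin q) :
    (embZeroFam N q hq hqN ζ hζ k
      (atkinLehnerSq N q hq hqN (jElt (N * q * q)))).coeff (-1) = (ζ ^ (k : ℕ))⁻¹ := by
  rw [embZeroFam_apply, atkinLehnerSq_atkinLehnerSq, twistL_coeff]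
  show (ζ ^ (k : ℕ)) ^ (-1 : ℤ) * (jqModC Kb).coeff (-1) = _
  rw [Fermat.Agent.S28.helper81.coeff_jqModC_neg_one, mul_one, zpow_neg_one]

theorem embZeroFam_injective {ζ : Kb} (hζ : ζ ≠ 0) (hprim : IsPrimitiveRoot ζ q) :
    Function.Injective (embZeroFam N q hq hqN ζ hζ) := by
  intro a b hab
  have hab' := congrArg (fun φ : FF (N * q * q) →+* LaurentSeries Kb =>
    (φ (atkinLehnerSq N q hq hqN (jElt (N * q * q)))).coeff (-1)) hab
  beta_reduce at hab'
  rw [coeff_embZeroFam, coeff_embZeroFam] at hab'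
  exact Fin.ext (hprim.pow_inj a.2 b.2 (inv_injective hab'))

variable (N q hq hqN)

include hq hqN in
/-- **the `W₁`-transforms of the coefficients of the minimal polynomial of `f` over
`α F_{Nq}` have `A`-integral expansions** if `W₂ f` does. -/
theorem exists_incl_atkinLehner_minpoly_coeff {f : FF (N * q * q)}
    (h0 : ∃ Y : LaurentSeries A,
      incl A Y = ((atkinLehnerSq N q hq hqN f : FF (N * q * q)) : LaurentSeries Kb)) (n : ℕ) :
    letI := algebraAlong (heckeAlphaBar Kb (N * q) q)
    ∃ Z : LaurentSeries A,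
      incl A Z = ((atkinLehner N q hq hqN ((minpoly (FF (N * q)) f).coeff n) : FF (N * q)) :
        LaurentSeries Kb) := by
  letI := algebraAlong (heckeAlphaBar Kb (N * q) q)
  have hfr : Module.finrank (FF (N * q)) (FF (N * q * q)) = q :=
    Fermat.Agent.T2.helper48.finrank_alpha_of_dvd (N * q) q hq (Dvd.intro_left N rfl)
  haveI fd : FiniteDimensional (FF (N * q)) (FF (N * q * q)) :=
    Module.finite_of_finrank_pos (by rw [hfr]; exact hq.pos)
  haveI : Algebra.IsSeparable (FF (N * q)) (FF (N * q * q)) := inferInstance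
  obtain ⟨ζ, hζ⟩ := HasEnoughRootsOfUnity.exists_primitiveRoot Kb q
  have hζ1 : ζ ^ q = 1 := hζ.pow_eq_one
  have hζ0 : ζ ≠ 0 := hζ.ne_zero hq.ne_zero
  obtain ⟨Y, hY⟩ := h0
  have key := minpoly_coeff_mem_of_embeddings (F := FF (N * q)) (E := FF (N * q * q))
    ((qExpand Kb q).comp ((coeHom (N * q)).comp
      ((atkinLehner N q hq hqN : FF (N * q) ≃ₐ[Kb] FF (N * q)) : FF (N * q) →+* FF (N * q))))
    (embZeroFam N q hq hqN ζ hζ0) (embZeroFam_injective hζ0 hζ)
    (fun i => RingHom.ext fun c => embZeroFam_alpha hζ0 hζ1 i c)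
    (by rw [Fintype.card_fin, hfr]) (incl A).range f ?_ n
  · exact exists_incl_of_qExpand_mem q A key
  · intro k
    rw [embZeroFam_apply, ← hY]
    have hk1 : (ζ ^ (k : ℕ)) ^ q = 1 := by rw [← pow_mul, mul_comm, pow_mul, hζ1, one_pow]
    refine ⟨Fermat.Agent.P2.helper94.rot (rootUnit A hq.ne_zero hk1) Y, ?_⟩
    rw [coeffMap_subtype_rot, coe_rootUnit]

include hq hqN in
/-- **[COMPLETE-A]**, level `N q q`: a function which is integral over `ℚ̄[j]` and has
`A`-integral expansions at `∞`, at `0` and at all the middle cusps is integral over `A[j]`. -/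
theorem completeA (hA : A.LiesOverPrime q) {ζ : Kb} (hζ : IsPrimitiveRoot ζ q)
    (f : FF (N * q * q))
    (hinf : ∃ Y : LaurentSeries A, incl A Y = (f : LaurentSeries Kb))
    (hzero : ∃ Y : LaurentSeries A,
      incl A Y = ((atkinLehnerSq N q hq hqN f : FF (N * q * q)) : LaurentSeries Kb))
    (hmid : ∀ (k : Fin q) (hk : (k : ℕ) ≠ 0),
      ∃ Y : LaurentSeries A, incl A Y = embMid N q hq hqN hζ k hk f)
    (hint : (evK (N * q * q)).IsIntegralElem f) : (evX A (N * q * q)).IsIntegralElem f := by
  letI := algebraAlong (heckeAlphaBar Kb (N * q) q)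
  have hfr : Module.finrank (FF (N * q)) (FF (N * q * q)) = q :=
    Fermat.Agent.T2.helper48.finrank_alpha_of_dvd (N * q) q hq (Dvd.intro_left N rfl)
  haveI fd : FiniteDimensional (FF (N * q)) (FF (N * q * q)) :=
    Module.finite_of_finrank_pos (by rw [hfr]; exact hq.pos)
  have hfint : IsIntegral (FF (N * q)) f := Algebra.IsIntegral.isIntegral f
  have hcoef : ∀ n, (evX A (N * q)).IsIntegralElem ((minpoly (FF (N * q)) f).coeff n) := by
    intro n
    refine isIntegralElem_level_q A N q hq hqN hA _ ?_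
      (exists_incl_atkinLehner_minpoly_coeff A N q hq hqN hzero n) ?_
    · have := minpoly_coeff_mem_embAll (N := N) (q := q) (hq := hq) (hqN := hqN) hζ
        (incl A).range f hinf hmid n
      exact this
    · obtain ⟨p, hp, hp0⟩ := hint
      refine minpoly_coeff_isIntegral_of_monic (F := FF (N * q)) (E := FF (N * q * q))
        (evK (N * q)) p hp f ?_ n
      have : (algebraMap (FF (N * q)) (FF (N * q * q))).comp (evK (N * q)) = evK (N * q * q) :=
        alpha_comp_evK (N * q) q
      rw [this]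
      exact hp0
  have key := isIntegralElem_of_minpoly_coeff (evX A (N * q)) f hfint hcoef
  exact isIntegralElem_congr (alpha_comp_evX (N * q) q A) key

end LevelNqq

/-! ### Regularity in terms of places -/

section Places

variable (M : ℕ) [NeZero M]

theorem jElt_eq_xJ : jElt M = xJ M :=
  Subtype.ext (Fermat.Agent.P2.helper81.coe_xJ_eq M).symm

/-- a function which is regular where `j` is finite is integral over `ℚ̄[j]`. -/
theorem isIntegralElem_evK_of_forall_place (f : FF M)
    (h : ∀ P : Place Kb (FF M), 0 ≤ P.ord (jElt M) → 0 ≤ P.ord f) :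
    (evK M).IsIntegralElem f := by
  haveI : FiniteDimensional Kb⟮xJ M⟯ (FF M) := helper77.an_finiteDimensional M
  have h1 : ∀ P : Place Kb (FF M), 0 ≤ P.ord (xJ M) → 0 ≤ P.ord f := by
    intro P hP
    rw [← jElt_eq_xJ] at hP
    exact h P hP
  have h2 := Fermat.Agent.P2.helper81.isIntegral_of_forall_place (xJ M) f h1
  obtain ⟨p, hp, hp0⟩ := Fermat.Agent.P2.helper81.exists_monic_of_isIntegral_adjoin (xJ M) f h2
  exact ⟨p, hp, hp0⟩

/-- conversely, a function which is integral over `ℚ̄[j]` is regular where `j` is finite. -/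
theorem ord_nonneg_of_isIntegralElem_evK (f : FF M) (hf : (evK M).IsIntegralElem f)
    (P : Place Kb (FF M)) (hP : 0 ≤ P.ord (jElt M)) : 0 ≤ P.ord f := by
  rw [← helper82.mem_iff_ord_nonneg]
  refine Fermat.Agent.T2.helper87.mem_of_isIntegralElem P.toValuationSubring (evK M)
    (fun r => ?_) hf
  have hxP : xJ M ∈ P.toValuationSubring := by
    rw [helper82.mem_iff_ord_nonneg, ← jElt_eq_xJ]
    exact hP
  induction r using Polynomial.induction_on' with
  | add r s hr hs =>
    rw [map_add]
    exact P.toValuationSubring.add_mem _ _ hr hs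
  | monomial k a =>
    show Polynomial.aeval (xJ M) (Polynomial.monomial k a) ∈ P.toValuationSubring
    rw [Polynomial.aeval_monomial]
    exact P.toValuationSubring.mul_mem _ _ (P.algebraMap_mem' a) (pow_mem hxP k)

/-- an element which is integral over `A[j]` is integral over `ℚ̄[j]`. -/
theorem isIntegralElem_evK_of_evX (A : ValuationSubring Kb) (f : FF M)
    (hf : (evX A M).IsIntegralElem f) : (evK M).IsIntegralElem f := by
  obtain ⟨p, hp, hp0⟩ := hf
  refine ⟨p.map (Polynomial.mapRingHom A.subtype), hp.map _, ?_⟩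
  rw [Polynomial.eval₂_map]
  have : (evK M).comp (Polynomial.mapRingHom A.subtype) = evX A M := by
    apply Polynomial.ringHom_ext
    · intro a
      simp only [RingHom.coe_comp, Function.comp_apply, Polynomial.coe_mapRingHom,
        Polynomial.map_C, evK_C]
      rw [Fermat.Agent.P2.helper81.evX_C]
      rfl
    · simp only [RingHom.coe_comp, Function.comp_apply, Polynomial.coe_mapRingHom,
        Polynomial.map_X, evK_X]
      rw [Fermat.Agent.P2.helper81.evX_X]
  rw [this]
  exact hp0

end Places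

section Final

attribute [local instance] Fermat.Agent.P2.helper81.algAX

variable (A : ValuationSubring Kb) (N q : ℕ) [NeZero N] [NeZero q] (hq : q.Prime)
  (hqN : ¬ q ∣ N)

include hq hqN in
/-- **[COMPLETE-A]**, place form: a function of level `N q q` which is regular where `j` is
finite and has `A`-integral expansions at `∞`, at `0` and at all the middle cusps is integral
over `A[X]` (`X ↦ j`, the algebra structure `helper81.algAX`). -/
theorem completeA_of_forall_place (hA : A.LiesOverPrime q) {ζ : Kb} (hζ : IsPrimitiveRoot ζ q)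
    (f : FF (N * q * q))
    (hreg : ∀ P : Place Kb (FF (N * q * q)), 0 ≤ P.ord (jElt (N * q * q)) → 0 ≤ P.ord f)
    (hinf : ∃ Y : LaurentSeries A, incl A Y = (f : LaurentSeries Kb))
    (hzero : ∃ Y : LaurentSeries A,
      incl A Y = ((atkinLehnerSq N q hq hqN f : FF (N * q * q)) : LaurentSeries Kb))
    (hmid : ∀ (k : Fin q) (hk : (k : ℕ) ≠ 0),
      ∃ Y : LaurentSeries A, incl A Y = embMid N q hq hqN hζ k hk f) :
    IsIntegral (Polynomial A) f :=
  completeA A N q hq hqN hA hζ f hinf hzero hmid
    (isIntegralElem_evK_of_forall_place (N * q * q) f hreg)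

end Final

end Fermat.Agent.T3.helper48

end
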