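/-
TIER 3, [T3-TORIC] (helper49, task 924), part 4: the REDUCTION CALCULUS in quotient form.

`RedS A X x` : the series `X ∈ ℚ̄((t))` is a quotient `Y₁ / Y₂` of two `A`-integral series with
`red Y₂ ≠ 0` and `red Y₁ = x · red Y₂` (`helper72.Red3 i f x = RedS A (ex3 i f) x`).

* the calculus of `RedS` (sums, products, inverses, twists by `q`-th roots of unity);
* `redS_embMid_of_fix` : independence of the middle cusp for an `I`-fixed function;
* `red3_normA`, `red3_normB` : **[NORM-RED3] in quotient form** (no integrality, no regularity):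
  the reduction triple of `α N_α g` is `naF (q - 1) X` and that of `β N_β g` is `nbF (q - 1) X`.
-/
import Mathlib
import Fermat.Agent.T3.helper72_Interface3
import Fermat.Agent.T3.helper98_NormReg3
import Fermat.Agent.T3.helper49_TorAlg

set_option autoImplicit false
set_option synthInstance.maxHeartbeats 400000
set_option linter.unusedSectionVars false
set_option linter.unusedVariables false
set_option linter.style.longLine false
set_option linter.style.haveILetI false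
set_option linter.unusedSimpArgs false

noncomputable section

open HahnSeries IntermediateField AlgebraicCurve ModularCurve
open Fermat.Agent.S18.helper19 Fermat.Agent.P2.helper29 Fermat.Agent.T2.helper36

namespace Fermat.Agent.T3.helper49

open Fermat.Agent.P2.helper93 (twistL twistL_coeff actA coeffMap_subtype_actA
  coeffMap_residue_actA decK_eq_id_of_mem_inertia)
open Fermat.Agent.T3.helper87
open Fermat.Agent.T3.helper48 (atkinLehnerSq)
open Fermat.Agent.T3.helper74 (ex3 IsFixI midOne midOne_ne)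
open Fermat.Agent.T3.helper72 (Red3 IsRedOne3)
open Fermat.Agent.P3.helper94 (normAlong)

/-! ### The calculus of `RedS` -/

section Series

variable (A : ValuationSubring Kb)

/-- `X = Y₁ / Y₂` with integral series `Y₁, Y₂`, `red Y₂ ≠ 0`, `red Y₁ = x · red Y₂`. -/
def RedS (X : LaurentSeries Kb) (x : LaurentSeries (kA A)) : Prop :=
  ∃ Y₁ Y₂ : LaurentSeries A, red A Y₂ ≠ 0 ∧ incl A Y₁ = X * incl A Y₂ ∧
    red A Y₁ = x * red A Y₂

variable {A}

theorem redS_one : RedS A 1 1 :=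
  ⟨1, 1, by rw [map_one]; exact one_ne_zero, by rw [map_one, one_mul], by rw [map_one, one_mul]⟩

theorem RedS.mul {X X' : LaurentSeries Kb} {x x' : LaurentSeries (kA A)} (h : RedS A X x)
    (h' : RedS A X' x') : RedS A (X * X') (x * x') := by
  obtain ⟨Y₁, Y₂, h0, h1, h2⟩ := h
  obtain ⟨Z₁, Z₂, k0, k1, k2⟩ := h'
  refine ⟨Y₁ * Z₁, Y₂ * Z₂, ?_, ?_, ?_⟩
  · rw [map_mul]; exact mul_ne_zero h0 k0
  · rw [map_mul, map_mul, h1, k1]; ring
  · rw [map_mul, map_mul, h2, k2]; ring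

theorem RedS.add {X X' : LaurentSeries Kb} {x x' : LaurentSeries (kA A)} (h : RedS A X x)
    (h' : RedS A X' x') : RedS A (X + X') (x + x') := by
  obtain ⟨Y₁, Y₂, h0, h1, h2⟩ := h
  obtain ⟨Z₁, Z₂, k0, k1, k2⟩ := h'
  refine ⟨Y₁ * Z₂ + Z₁ * Y₂, Y₂ * Z₂, ?_, ?_, ?_⟩
  · rw [map_mul]; exact mul_ne_zero h0 k0
  · rw [map_add, map_mul, map_mul, map_mul, h1, k1]; ring
  · rw [map_add, map_mul, map_mul, map_mul, h2, k2]; ring

theorem RedS.neg {X : LaurentSeries Kb} {x : LaurentSeries (kA A)} (h : RedS A X x) :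
    RedS A (-X) (-x) := by
  obtain ⟨Y₁, Y₂, h0, h1, h2⟩ := h
  refine ⟨-Y₁, Y₂, h0, ?_, ?_⟩
  · rw [map_neg, h1]; ring
  · rw [map_neg, h2]; ring

theorem RedS.pow {X : LaurentSeries Kb} {x : LaurentSeries (kA A)} (h : RedS A X x) (m : ℕ) :
    RedS A (X ^ m) (x ^ m) := by
  induction m with
  | zero => simpa using redS_one (A := A)
  | succ k ih => rw [pow_succ, pow_succ]; exact ih.mul h

theorem RedS.prod {ι : Type*} (s : Finset ι) {X : ι → LaurentSeries Kb}
    {x : ι → LaurentSeries (kA A)} (h : ∀ i ∈ s, RedS A (X i) (x i)) :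
    RedS A (∏ i ∈ s, X i) (∏ i ∈ s, x i) := by
  classical
  induction s using Finset.induction_on with
  | empty => simpa using redS_one (A := A)
  | insert a s ha ih =>
    rw [Finset.prod_insert ha, Finset.prod_insert ha]
    exact (h a (Finset.mem_insert_self a s)).mul
      (ih fun i hi => h i (Finset.mem_insert_of_mem hi))

theorem incl_injective : Function.Injective (incl A) := by
  intro Y Z h
  ext k
  have := congrArg (fun W : LaurentSeries Kb => W.coeff k) h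
  exact this

theorem RedS.ne_zero {X : LaurentSeries Kb} {x : LaurentSeries (kA A)} (h : RedS A X x)
    (hx : x ≠ 0) : X ≠ 0 := by
  obtain ⟨Y₁, Y₂, h0, h1, h2⟩ := h
  rintro rfl
  rw [zero_mul] at h1
  have : Y₁ = 0 := incl_injective (by rw [h1, map_zero])
  rw [this, map_zero] at h2
  exact mul_ne_zero hx h0 h2.symm

theorem RedS.inv {X : LaurentSeries Kb} {x : LaurentSeries (kA A)} (h : RedS A X x)
    (hx : x ≠ 0) : RedS A X⁻¹ x⁻¹ := by
  have hX := h.ne_zero hx
  obtain ⟨Y₁, Y₂, h0, h1, h2⟩ := h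
  refine ⟨Y₂, Y₁, ?_, ?_, ?_⟩
  · rw [h2]; exact mul_ne_zero hx h0
  · rw [h1]
    field_simp
  · rw [h2]
    field_simp

end Series

/-! ### Twists and the middle cusps -/

section Twist

variable {q : ℕ} [NeZero q] (A : ValuationSubring Kb)

/-- a twist by a `q`-th root of unity does not change the reduction -/
theorem RedS.twist (hq : q.Prime) (hA : A.LiesOverPrime q) {ζ : Kb} (hζ1 : ζ ^ q = 1) (k : ℕ)
    {X : LaurentSeries Kb} {x : LaurentSeries (kA A)} (h : RedS A X x) :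
    RedS A (twistL (ζ ^ k) X) x := by
  have hζ0 : ζ ≠ 0 := by
    rintro rfl
    rw [zero_pow hq.ne_zero] at hζ1
    exact zero_ne_one hζ1
  obtain ⟨Y₁, Y₂, h0, h1, h2⟩ := h
  obtain ⟨Z₁, hZ₁, rZ₁⟩ :=
    Fermat.Agent.T3.helper98.exists_model_twist A hq hA hζ1 k (incl A Y₁) Y₁ rfl
  obtain ⟨Z₂, hZ₂, rZ₂⟩ :=
    Fermat.Agent.T3.helper98.exists_model_twist A hq hA hζ1 k (incl A Y₂) Y₂ rfl
  refine ⟨Z₁, Z₂, by rw [rZ₂]; exact h0, ?_, by rw [rZ₁, rZ₂, h2]⟩
  rw [hZ₁, hZ₂, h1, Fermat.Agent.T2.helper87.twistL_mul (pow_ne_zero k hζ0)]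

/-- the product of the `q` twists reduces to the `q`-th power -/
theorem RedS.prod_twist (hq : q.Prime) (hA : A.LiesOverPrime q) {ζ : Kb} (hζ1 : ζ ^ q = 1)
    {X : LaurentSeries Kb} {x : LaurentSeries (kA A)} (h : RedS A X x) :
    RedS A (∏ k ∈ Finset.range q, twistL (ζ ^ k) X) (x ^ q) := by
  have := RedS.prod (A := A) (Finset.range q) (X := fun k => twistL (ζ ^ k) X) (x := fun _ => x)
    (fun k _ => h.twist A hq hA hζ1 k)
  rwa [Finset.prod_const, Finset.card_range] at this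

variable {N : ℕ} [NeZero N] {hq : q.Prime} {hqN : ¬ q ∣ N}

/-- **independence of the middle cusp**, quotient form -/
theorem redS_embMid_of_fix (hA : A.LiesOverPrime q) {ζ : Kb} (hζ : IsPrimitiveRoot ζ q)
    (g : FF (N * q * q)) (hg : IsFixI A (N * q * q) g) (k₀ : Fin q) (hk₀ : (k₀ : ℕ) ≠ 0)
    {x : LaurentSeries (kA A)} (h : RedS A (embMid N q hq hqN hζ k₀ hk₀ g) x)
    (k : Fin q) (hk : (k : ℕ) ≠ 0) : RedS A (embMid N q hq hqN hζ k hk g) x := by
  have hcop₀ : Nat.Coprime (k₀ : ℕ) q := by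
    rw [Nat.coprime_comm, Nat.Prime.coprime_iff_not_dvd hq]
    intro hd
    exact hk₀ (Nat.eq_zero_of_dvd_of_lt hd k₀.2)
  have hζ₀ : IsPrimitiveRoot (ζ ^ (k₀ : ℕ)) q := hζ.pow_of_coprime _ hcop₀
  have hζk1 : (ζ ^ (k : ℕ)) ^ q = 1 := by
    rw [← pow_mul, mul_comm, pow_mul, hζ.pow_eq_one, one_pow]
  obtain ⟨i, -, hik⟩ := hζ₀.eq_pow_of_pow_eq_one hζk1
  have hqi : ¬ q ∣ i := by
    intro hd
    obtain ⟨c, rfl⟩ := hd
    rw [pow_mul, hζ₀.pow_eq_one, one_pow] at hik
    have h0 : (k : ℕ) = 0 := hζ.pow_inj k.2 hq.pos (hik.symm.trans (pow_zero ζ).symm)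
    exact hk h0
  obtain ⟨σ, hσI, hσ⟩ := Fermat.Agent.T3.helper84.k0_zeta_trans hq A hA hζ₀ hqi
  obtain ⟨hσD, hid⟩ := decK_eq_id_of_mem_inertia hσI
  have key : coeffMap (σ : Kb →+* Kb) (embMid N q hq hqN hζ k₀ hk₀ g)
      = embMid N q hq hqN hζ k hk g := by
    rw [coeffMap_embMid, hg σ hσI]
    have hc := embMid_congr (N := N) (hq := hq) (hqN := hqN) hζ
      (hζ.map_of_injective (f := σ) σ.injective) k k₀ hk hk₀
      (by rw [← map_pow, hσ, hik])
    rw [hc]
  obtain ⟨Y₁, Y₂, h0, h1, h2⟩ := h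
  have r1 : red A (actA σ hσD Y₁) = red A Y₁ := by
    show coeffMap (IsLocalRing.residue ↥A) _ = _
    rw [coeffMap_residue_actA, hid, coeffMap_id]
  have r2 : red A (actA σ hσD Y₂) = red A Y₂ := by
    show coeffMap (IsLocalRing.residue ↥A) _ = _
    rw [coeffMap_residue_actA, hid, coeffMap_id]
  refine ⟨actA σ hσD Y₁, actA σ hσD Y₂, by rw [r2]; exact h0, ?_, by rw [r1, r2, h2]⟩
  show coeffMap (A.subtype : ↥A →+* Kb) _ = _ * coeffMap (A.subtype : ↥A →+* Kb) _
  rw [coeffMap_subtype_actA, coeffMap_subtype_actA]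
  have h1' : coeffMap (A.subtype : ↥A →+* Kb) Y₁
      = embMid N q hq hqN hζ k₀ hk₀ g * coeffMap (A.subtype : ↥A →+* Kb) Y₂ := h1
  rw [h1', map_mul, key]

/-- the product of the middle expansions of an `I`-fixed `g`, quotient form -/
theorem redS_prod_embMid (hA : A.LiesOverPrime q) {ζ : Kb} (hζ : IsPrimitiveRoot ζ q)
    (g : FF (N * q * q)) (hg : IsFixI A (N * q * q) g) (k₀ : Fin q) (hk₀ : (k₀ : ℕ) ≠ 0)
    {x : LaurentSeries (kA A)} (h : RedS A (embMid N q hq hqN hζ k₀ hk₀ g) x) :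
    RedS A (∏ k : MidIdx q, embMid N q hq hqN hζ k.1 k.2 g) (x ^ (q - 1)) := by
  have := RedS.prod (A := A) (Finset.univ : Finset (MidIdx q))
    (X := fun k => embMid N q hq hqN hζ k.1 k.2 g) (x := fun _ => x)
    (fun k _ => redS_embMid_of_fix A hA hζ g hg k₀ hk₀ h k.1 k.2)
  rwa [Finset.prod_const, Finset.card_univ, Fermat.Agent.T3.helper98.card_midIdx' hq] at this

/-- the middle expansions of `W₂ g` for an `I`-fixed `g`, quotient form -/
theorem redS_embMid_W (hA : A.LiesOverPrime q) {ζ : Kb} (hζ : IsPrimitiveRoot ζ q)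
    (g : FF (N * q * q)) (hg : IsFixI A (N * q * q) g) (k₀ : Fin q) (hk₀ : (k₀ : ℕ) ≠ 0)
    {x : LaurentSeries (kA A)} (h : RedS A (embMid N q hq hqN hζ k₀ hk₀ g) x)
    (k : Fin q) (hk : (k : ℕ) ≠ 0) :
    RedS A (embMid N q hq hqN hζ k hk (atkinLehnerSq N q hq hqN g)) x := by
  obtain ⟨k', hk', hkk'⟩ := Fermat.Agent.T3.helper48.exists_opposite hζ k hk
  have h1 := redS_embMid_of_fix A hA hζ g hg k₀ hk₀ h k' hk'
  have h2 := h1.twist A hq hA hζ.pow_eq_one (k : ℕ)
  rwa [← Fermat.Agent.T3.helper48.embMid_atkinLehnerSq hζ k hk k' hk' hkk'] at h2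

/-- the product of the middle expansions of `W₂ g` for an `I`-fixed `g`, quotient form -/
theorem redS_prod_embMid_W (hA : A.LiesOverPrime q) {ζ : Kb} (hζ : IsPrimitiveRoot ζ q)
    (g : FF (N * q * q)) (hg : IsFixI A (N * q * q) g) (k₀ : Fin q) (hk₀ : (k₀ : ℕ) ≠ 0)
    {x : LaurentSeries (kA A)} (h : RedS A (embMid N q hq hqN hζ k₀ hk₀ g) x) :
    RedS A (∏ k : MidIdx q, embMid N q hq hqN hζ k.1 k.2 (atkinLehnerSq N q hq hqN g))
      (x ^ (q - 1)) := by
  have := RedS.prod (A := A) (Finset.univ : Finset (MidIdx q))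
    (X := fun k => embMid N q hq hqN hζ k.1 k.2 (atkinLehnerSq N q hq hqN g)) (x := fun _ => x)
    (fun k _ => redS_embMid_W A hA hζ g hg k₀ hk₀ h k.1 k.2)
  rwa [Finset.prod_const, Finset.card_univ, Fermat.Agent.T3.helper98.card_midIdx' hq] at this

end Twist

/-! ### The norm table in quotient form -/

section Table

variable {N q : ℕ} [NeZero N] [NeZero q] {hq : q.Prime} {hqN : ¬ q ∣ N}
variable (A : ValuationSubring Kb)

theorem red3_iff {ζ : Kb} (hζ : IsPrimitiveRoot ζ q) (i : Fin 3) (f : FF (N * q * q))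
    (x : LaurentSeries (kA A)) :
    Red3 N q hq hqN A hζ i f x ↔ RedS A (ex3 N q hq hqN hζ i f) x := Iff.rfl

/-- **[NORM-RED3], `α`, quotient form** -/
theorem red3_normA (hA : A.LiesOverPrime q) {ζ : Kb} (hζ : IsPrimitiveRoot ζ q)
    (g : FF (N * q * q)) (hg : IsFixI A (N * q * q) g) (X : Fin 3 → LaurentSeries (kA A))
    (hX : ∀ i, Red3 N q hq hqN A hζ i g (X i)) (i : Fin 3) :
    Red3 N q hq hqN A hζ i (Fermat.Agent.T3.helper98.normA N q g) (naF (q - 1) X i) := by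
  have e : q - 1 + 1 = q := Nat.sub_add_cancel hq.one_le
  have h0 : RedS A (ex3 N q hq hqN hζ 0 g) (X 0) := hX 0
  have h1 : RedS A (ex3 N q hq hqN hζ 1 g) (X 1) := hX 1
  have h2 : RedS A (embMid N q hq hqN hζ (midOne q hq) (midOne_ne q hq) g) (X 2) := by
    have := hX 2
    rw [red3_iff, Fermat.Agent.T3.helper98.ex3_two] at this
    exact this
  have hP := redS_prod_embMid A hA hζ g hg (midOne q hq) (midOne_ne q hq) h2
  rw [red3_iff, Fermat.Agent.T3.helper98.normA_apply]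
  fin_cases i
  · show RedS A (ex3 N q hq hqN hζ 0 _) (X 0 * X 2 ^ (q - 1))
    rw [Fermat.Agent.T3.helper98.ex3_zero_alpha_normAlpha]
    exact h0.mul hP
  · show RedS A (ex3 N q hq hqN hζ 1 _) (X 1 ^ (q - 1 + 1))
    rw [Fermat.Agent.T3.helper98.ex3_one_alpha_normAlpha, e]
    exact h1.prod_twist A hq hA hζ.pow_eq_one
  · show RedS A (ex3 N q hq hqN hζ 2 _) (X 0 * X 2 ^ (q - 1))
    rw [Fermat.Agent.T3.helper98.ex3_two_alpha_normAlpha]
    exact h0.mul hP

/-- **[NORM-RED3], `β`, quotient form** -/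
theorem red3_normB (hA : A.LiesOverPrime q) {ζ : Kb} (hζ : IsPrimitiveRoot ζ q)
    (g : FF (N * q * q)) (hg : IsFixI A (N * q * q) g) (X : Fin 3 → LaurentSeries (kA A))
    (hX : ∀ i, Red3 N q hq hqN A hζ i g (X i)) (i : Fin 3) :
    Red3 N q hq hqN A hζ i (Fermat.Agent.T3.helper98.normB N q g) (nbF (q - 1) X i) := by
  have e : q - 1 + 1 = q := Nat.sub_add_cancel hq.one_le
  have h0 : RedS A (ex3 N q hq hqN hζ 0 g) (X 0) := hX 0
  have h1 : RedS A (ex3 N q hq hqN hζ 1 g) (X 1) := hX 1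
  have h2 : RedS A (embMid N q hq hqN hζ (midOne q hq) (midOne_ne q hq) g) (X 2) := by
    have := hX 2
    rw [red3_iff, Fermat.Agent.T3.helper98.ex3_two] at this
    exact this
  have hP := redS_prod_embMid_W A hA hζ g hg (midOne q hq) (midOne_ne q hq) h2
  rw [red3_iff, Fermat.Agent.T3.helper98.normB_apply]
  fin_cases i
  · show RedS A (ex3 N q hq hqN hζ 0 _) (X 0 ^ (q - 1 + 1))
    rw [Fermat.Agent.T3.helper98.ex3_zero_beta_normBeta, e]
    exact h0.prod_twist A hq hA hζ.pow_eq_one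
  · show RedS A (ex3 N q hq hqN hζ 1 _) (X 1 * X 2 ^ (q - 1))
    rw [Fermat.Agent.T3.helper98.ex3_one_beta_normBeta]
    exact h1.mul hP
  · show RedS A (ex3 N q hq hqN hζ 2 _) (X 1 * X 2 ^ (q - 1))
    rw [Fermat.Agent.T3.helper98.ex3_two_beta_normBeta]
    exact (h1.mul hP).twist A hq hA hζ.pow_eq_one 1

end Table

end Fermat.Agent.T3.helper49

end
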