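/-
TIER 3, [T3-TORIC] (helper49, task 924), part 5: the CONCRETE INSTANCE.

`helper72.ToricStatement N q hq hqN A hζ n (q (q - 1) (q + 1))` from the boxes under [TORIC],
for ANY ring `Reg` of functions of level `N q q` (the instance is ring-agnostic):

* `Rho3 f X`        : `f` is `I`-fixed with reduction triple `X` (`helper72.Red3`, quotient form);
* `TorBase n`       : the boxes `Reg`, `Bt`, `J`, [PB3] `pb`, [REAL3] `real`, [ROOT3] `root`;
* `TorBase.calc`    : the abstract calculus `TorCalc` of `helper49_TorAlg` attached to the boxes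
                      (norm table = `red3_normA`, `red3_normB` of `helper49_TorRed`);
* `Ideal3Statement` : **[IDEAL3]** a semilocal generator and a partition of unity for every
                      `u ≡ 1` at the three valuations with `n ∣ div u`;
* `toricStatement_of` : `TorBase` + `Ideal3Statement` ⟹ `helper72.ToricStatement`.
-/
import Mathlib
import Fermat.Agent.T3.helper49_TorRed
import Fermat.Agent.T3.helper98_DgTable
import Fermat.Agent.T3.helper49_TorLift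

set_option autoImplicit false
set_option synthInstance.maxHeartbeats 400000
set_option linter.unusedSectionVars false
set_option linter.unusedVariables false
set_option linter.style.longLine false
set_option linter.style.haveILetI false
set_option linter.unusedSimpArgs false

noncomputable section

open HahnSeries IntermediateField AlgebraicCurve ModularCurve
open Fermat.Agent.S18.helper19 Fermat.Agent.P2.helper29 Fermat.Agent.T2.helper36

namespace Fermat.Agent.T3.helper49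

open Fermat.Agent.T3.helper74 (ex3 IsFixI)
open Fermat.Agent.T3.helper72 (Red3 IsRedOne3 NormPow nA nB ToricStatement Approx3Statement)
open Fermat.Agent.T3.helper98 (normA normB)

section Inst

variable (N q : ℕ) [NeZero N] [NeZero q] (hq : q.Prime) (hqN : ¬ q ∣ N)
  (A : ValuationSubring Kb) {ζ : Kb} (hζ : IsPrimitiveRoot ζ q)

/-- `f` is `I`-fixed with reduction triple `X` -/
def Rho3 (f : FF (N * q * q)) (X : Fin 3 → LaurentSeries (kA A)) : Prop :=
  IsFixI A (N * q * q) f ∧ ∀ i, Red3 N q hq hqN A hζ i f (X i)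

/-- `n ∣ div f` -/
def Dv3 (n : ℕ) (f : FF (N * q * q)) : Prop :=
  ∀ P : Place Kb (FF (N * q * q)), (n : ℤ) ∣ P.ord f

/-- the constants -/
def Cst3 (c : FF (N * q * q)) : Prop := ∃ k : Kb, c = algebraMap Kb (FF (N * q * q)) k

/-- **the boxes under [TORIC]**, for a ring `Reg` of functions of level `N q q`. -/
structure TorBase (n : ℕ) where
  /-- the ring of the regular functions -/
  Reg : Subring (FF (N * q * q))
  reg_of_pow : ∀ f : FF (N * q * q), f ^ n ∈ Reg → f ∈ Reg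
  normA_mem : ∀ f ∈ Reg, normA N q f ∈ Reg
  normB_mem : ∀ f ∈ Reg, normB N q f ∈ Reg
  /-- the ring of the reductions -/
  Bt : Subring (LaurentSeries (kA A))
  /-- the supersingular ideal -/
  J : AddSubgroup (LaurentSeries (kA A))
  J_le : ∀ e ∈ J, e ∈ Bt
  J_mul : ∀ z ∈ Bt, ∀ e ∈ J, z * e ∈ J
  /-- **[PB3]** pull back by `τ ↦ q τ` from level `N` -/
  pb : ∀ z ∈ Bt, ∃ R ∈ Reg, Rho3 N q hq hqN A hζ R (fun _ => z ^ q)
  /-- **[REAL3]** -/
  real : ∀ e z : Fin 3 → LaurentSeries (kA A), (∀ c, e c ∈ J) → (∀ c, z c ∈ Bt) →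
    ∃ R ∈ Reg, Rho3 N q hq hqN A hζ R (fun c => e c ^ q * z c)
  /-- **[ROOT3]** -/
  root : ∀ H : FF (N * q * q), H ∈ Reg → Rho3 N q hq hqN A hζ H 1 → Dv3 N q n H →
    ∃ (c : Kb) (v : FF (N * q * q)), H = algebraMap Kb (FF (N * q * q)) c * v ^ n

variable {N q hq hqN A hζ}

/-! ### The calculus of `Rho3`, `Dv3`, `Cst3` -/

theorem rho3_one : Rho3 N q hq hqN A hζ 1 1 :=
  ⟨Fermat.Agent.T3.helper98.isFixI_one A, fun i => by
    rw [red3_iff, map_one]
    exact redS_one⟩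

theorem Rho3.add {f g : FF (N * q * q)} {X Y : Fin 3 → LaurentSeries (kA A)}
    (h : Rho3 N q hq hqN A hζ f X) (h' : Rho3 N q hq hqN A hζ g Y) :
    Rho3 N q hq hqN A hζ (f + g) (X + Y) :=
  ⟨Fermat.Agent.T3.helper98.isFixI_add A h.1 h'.1, fun i => by
    rw [red3_iff, map_add]
    exact ((red3_iff A hζ i f (X i)).mp (h.2 i)).add ((red3_iff A hζ i g (Y i)).mp (h'.2 i))⟩

theorem Rho3.neg {f : FF (N * q * q)} {X : Fin 3 → LaurentSeries (kA A)}
    (h : Rho3 N q hq hqN A hζ f X) : Rho3 N q hq hqN A hζ (-f) (-X) :=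
  ⟨Fermat.Agent.T3.helper98.isFixI_neg A h.1, fun i => by
    rw [red3_iff, map_neg]
    exact ((red3_iff A hζ i f (X i)).mp (h.2 i)).neg⟩

theorem Rho3.mul {f g : FF (N * q * q)} {X Y : Fin 3 → LaurentSeries (kA A)}
    (h : Rho3 N q hq hqN A hζ f X) (h' : Rho3 N q hq hqN A hζ g Y) :
    Rho3 N q hq hqN A hζ (f * g) (X * Y) :=
  ⟨Fermat.Agent.T3.helper98.isFixI_mul A h.1 h'.1, fun i => by
    rw [red3_iff, map_mul]
    exact ((red3_iff A hζ i f (X i)).mp (h.2 i)).mul ((red3_iff A hζ i g (Y i)).mp (h'.2 i))⟩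

/-- the quotient form: inverses of units -/
theorem Rho3.inv {f : FF (N * q * q)} {X : Fin 3 → LaurentSeries (kA A)}
    (h : Rho3 N q hq hqN A hζ f X) (hX : ∀ c, X c ≠ 0) : Rho3 N q hq hqN A hζ f⁻¹ X⁻¹ :=
  ⟨Fermat.Agent.T3.helper98.isFixI_inv A h.1, fun i => by
    rw [red3_iff, map_inv₀]
    exact ((red3_iff A hζ i f (X i)).mp (h.2 i)).inv (hX i)⟩

theorem Rho3.inv_one {f : FF (N * q * q)} (h : Rho3 N q hq hqN A hζ f 1) :
    Rho3 N q hq hqN A hζ f⁻¹ 1 := by
  have := h.inv (fun c => one_ne_zero)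
  rwa [_root_.inv_one] at this

theorem Rho3.ne_zero {f : FF (N * q * q)} (h : Rho3 N q hq hqN A hζ f 1) : f ≠ 0 := by
  rintro rfl
  have := (red3_iff A hζ 0 (0 : FF (N * q * q)) 1).mp (h.2 0)
  rw [map_zero] at this
  exact this.ne_zero one_ne_zero rfl

theorem rho3_of_isRedOne3 {f : FF (N * q * q)} (hf : IsFixI A (N * q * q) f)
    (h : IsRedOne3 N q hq hqN A hζ f) : Rho3 N q hq hqN A hζ f 1 :=
  ⟨hf, fun i => h i⟩

theorem Rho3.normA (hA : A.LiesOverPrime q) {f : FF (N * q * q)}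
    {X : Fin 3 → LaurentSeries (kA A)} (h : Rho3 N q hq hqN A hζ f X) :
    Rho3 N q hq hqN A hζ (normA N q f) (naF (q - 1) X) :=
  ⟨Fermat.Agent.T3.helper98.isFixI_normA A h.1, fun i => red3_normA A hA hζ f h.1 X h.2 i⟩

theorem Rho3.normB (hA : A.LiesOverPrime q) {f : FF (N * q * q)}
    {X : Fin 3 → LaurentSeries (kA A)} (h : Rho3 N q hq hqN A hζ f X) :
    Rho3 N q hq hqN A hζ (normB N q f) (nbF (q - 1) X) :=
  ⟨Fermat.Agent.T3.helper98.isFixI_normB A h.1, fun i => red3_normB A hA hζ f h.1 X h.2 i⟩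

theorem Dv3.mul {n : ℕ} {f g : FF (N * q * q)} (hf : Dv3 N q n f) (hg : Dv3 N q n g) :
    Dv3 N q n (f * g) := by
  intro P
  rcases eq_or_ne f 0 with rfl | hf0
  · rw [zero_mul, Place.ord_zero]; exact dvd_zero _
  rcases eq_or_ne g 0 with rfl | hg0
  · rw [mul_zero, Place.ord_zero]; exact dvd_zero _
  rw [Place.ord_mul P hf0 hg0]
  exact dvd_add (hf P) (hg P)

theorem Dv3.inv {n : ℕ} {f : FF (N * q * q)} (hf : Dv3 N q n f) : Dv3 N q n f⁻¹ := by
  intro P
  rw [Place.ord_inv]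
  exact (dvd_neg).mpr (hf P)

theorem dv3_pow (n : ℕ) (f : FF (N * q * q)) : Dv3 N q n (f ^ n) := by
  intro P
  rw [Fermat.Agent.P3.helper94.ord_pow]
  exact dvd_mul_right _ _

theorem cst3_one : Cst3 N q (1 : FF (N * q * q)) := ⟨1, by rw [map_one]⟩

theorem Cst3.mul {c d : FF (N * q * q)} (hc : Cst3 N q c) (hd : Cst3 N q d) :
    Cst3 N q (c * d) := by
  obtain ⟨k, rfl⟩ := hc
  obtain ⟨l, rfl⟩ := hd
  exact ⟨k * l, by rw [map_mul]⟩

theorem Cst3.inv {c : FF (N * q * q)} (hc : Cst3 N q c) : Cst3 N q c⁻¹ := by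
  obtain ⟨k, rfl⟩ := hc
  exact ⟨k⁻¹, by rw [map_inv₀]⟩

theorem Cst3.normA (hq : q.Prime) {c : FF (N * q * q)} (hc : Cst3 N q c) :
    Cst3 N q (normA N q c) := by
  obtain ⟨k, rfl⟩ := hc
  exact ⟨k ^ q, Fermat.Agent.T3.helper98.normA_algebraMap hq k⟩

theorem Cst3.normB (hq : q.Prime) {c : FF (N * q * q)} (hc : Cst3 N q c) :
    Cst3 N q (normB N q c) := by
  obtain ⟨k, rfl⟩ := hc
  exact ⟨k ^ q, Fermat.Agent.T3.helper98.normB_algebraMap hq k⟩

/-! ### The instance -/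

/-- **the abstract toric calculus attached to the boxes** -/
def TorBase.calc {n : ℕ} (B : TorBase N q hq hqN A hζ n) (hA : A.LiesOverPrime q) :
    TorCalc (FF (N * q * q)) (LaurentSeries (kA A)) n (q - 1) where
  Reg := B.Reg
  reg_of_pow := B.reg_of_pow
  Cst := Cst3 N q
  cst_one := cst3_one
  cst_mul := fun _ _ h h' => h.mul h'
  cst_inv := fun _ h => h.inv
  Dv := Dv3 N q n
  dv_mul := fun _ _ h h' => h.mul h'
  dv_inv := fun _ h => h.inv
  dv_pow := dv3_pow n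
  Bt := B.Bt
  J := B.J
  J_le := B.J_le
  J_mul := B.J_mul
  Rho := Rho3 N q hq hqN A hζ
  rho_one := rho3_one
  rho_add := fun _ _ _ _ h h' => h.add h'
  rho_neg := fun _ _ h => h.neg
  rho_mul := fun _ _ _ _ h h' => h.mul h'
  rho_inv_one := fun _ h => h.inv_one
  ne_zero_of_rho_one := fun _ h => h.ne_zero
  NA := normA N q
  NB := normB N q
  NA_reg := B.normA_mem
  NB_reg := B.normB_mem
  NA_dv := fun f h => Fermat.Agent.T3.helper98.dvd_ord_normA (n : ℤ) f h
  NB_dv := fun f h => Fermat.Agent.T3.helper98.dvd_ord_normB (n : ℤ) f h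
  NA_cst := fun _ h => h.normA hq
  NB_cst := fun _ h => h.normB hq
  NA_rho := fun _ _ h => h.normA hA
  NB_rho := fun _ _ h => h.normB hA
  pb := fun z hz => by
    obtain ⟨R, hR, ρ⟩ := B.pb z hz
    refine ⟨R, hR, ?_⟩
    rw [Nat.sub_add_cancel hq.one_le]
    exact ρ
  real := fun e z he hz => by
    obtain ⟨R, hR, ρ⟩ := B.real e z he hz
    refine ⟨R, hR, ?_⟩
    rw [Nat.sub_add_cancel hq.one_le]
    exact ρ
  root := fun H hH ρ d => by
    obtain ⟨c, v, e⟩ := B.root H hH ρ d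
    exact ⟨algebraMap Kb (FF (N * q * q)) c, v, ⟨c, rfl⟩, e⟩

/-- **[IDEAL3]**, consumer form: every `u ≡ 1` at the three valuations with `n ∣ div u` has a
semilocal generator (at the zeros of `J`) and a partition of unity. -/
def Ideal3Statement {n : ℕ} (B : TorBase N q hq hqN A hζ n) (hA : A.LiesOverPrime q) : Prop :=
  ∀ u : FF (N * q * q), Rho3 N q hq hqN A hζ u 1 → Dv3 N q n u →
    (B.calc hA).HasGenerator u ∧ (B.calc hA).HasPartition u

/-- the meaning of `HasGenerator` for the concrete instance -/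
theorem hasGenerator_iff {n : ℕ} (B : TorBase N q hq hqN A hζ n) (hA : A.LiesOverPrime q)
    (u : FF (N * q * q)) :
    (B.calc hA).HasGenerator u ↔
      ∃ (g b : FF (N * q * q)) (X Y : Fin 3 → LaurentSeries (kA A)),
        g ^ n * u⁻¹ ∈ B.Reg ∧ b ^ n * u⁻¹⁻¹ ∈ B.Reg ∧ Rho3 N q hq hqN A hζ g X ∧
        Rho3 N q hq hqN A hζ b Y ∧ (∀ c, Y c ∈ B.Bt) ∧ ∀ c, X c * Y c - 1 ∈ B.J := Iff.rfl

/-- the meaning of `HasPartition` for the concrete instance -/
theorem hasPartition_iff {n : ℕ} (B : TorBase N q hq hqN A hζ n) (hA : A.LiesOverPrime q)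
    (u : FF (N * q * q)) :
    (B.calc hA).HasPartition u ↔
      ∃ (m : ℕ) (g b : Fin m → FF (N * q * q)) (X Y : Fin m → Fin 3 → LaurentSeries (kA A)),
        (∀ i, g i ^ n * u⁻¹ ∈ B.Reg) ∧ (∀ i, b i ^ n * u⁻¹⁻¹ ∈ B.Reg) ∧
        (∀ i, Rho3 N q hq hqN A hζ (g i) (X i)) ∧ (∀ i, Rho3 N q hq hqN A hζ (b i) (Y i)) ∧
        (∀ i c, Y i c ∈ B.Bt) ∧ ∀ c, ∑ i, X i c * Y i c = 1 := Iff.rfl

theorem charP_laurent (hA : A.LiesOverPrime q) (hq : q.Prime) :
    CharP (LaurentSeries (kA A)) (q - 1 + 1) := by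
  haveI : CharP (kA A) q := Fermat.Agent.P2.helper93.charP_residueField hq hA
  rw [Nat.sub_add_cancel hq.one_le]
  exact charP_of_injective_ringHom (f := (HahnSeries.C : kA A →+* LaurentSeries (kA A)))
    HahnSeries.C_injective q

/-- **[T3-TORIC]**: `helper72.ToricStatement` with `C₂ = q (q - 1) (q + 1)` from the boxes. -/
theorem toricStatement_of {n : ℕ} (hn : n ≠ 0) (B : TorBase N q hq hqN A hζ n)
    (hA : A.LiesOverPrime q) (hI : Ideal3Statement B hA) :
    ToricStatement N q hq hqN A hζ n (q * ((q - 1) * (q + 1))) := by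
  intro h h0 hfix hdv hred hnorm
  haveI : Fact (q - 1 + 1).Prime := ⟨by rw [Nat.sub_add_cancel hq.one_le]; exact hq⟩
  haveI : CharP (LaurentSeries (kA A)) (q - 1 + 1) := charP_laurent hA hq
  have ρ : (B.calc hA).Rho h 1 := rho3_of_isRedOne3 hfix hred
  have hdv' : (B.calc hA).Dv h := hdv
  obtain ⟨⟨c₁, w₁, e₁⟩, ⟨c₂, w₂, e₂⟩⟩ := hnorm
  have hA' : ∃ c w : FF (N * q * q), (B.calc hA).Cst c ∧ (B.calc hA).NA h = c * w ^ n := by
    refine ⟨algebraMap Kb (FF (N * q * q)) c₁, heckeAlphaBar Kb (N * q) q w₁, ⟨c₁, rfl⟩, ?_⟩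
    show normA N q h = _
    rw [Fermat.Agent.T3.helper98.normA_apply]
    have e₁' : Fermat.Agent.P3.helper94.normAlong (heckeAlphaBar Kb (N * q) q) h
        = algebraMap Kb (FF (N * q)) c₁ * w₁ ^ n := e₁
    rw [e₁', map_mul, map_pow, AlgHom.commutes]
  have hB' : ∃ c w : FF (N * q * q), (B.calc hA).Cst c ∧ (B.calc hA).NB h = c * w ^ n := by
    refine ⟨algebraMap Kb (FF (N * q * q)) c₂, heckeBetaBar Kb (N * q) q w₂, ⟨c₂, rfl⟩, ?_⟩
    show normB N q h = _
    rw [Fermat.Agent.T3.helper98.normB_apply]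
    have e₂' : Fermat.Agent.P3.helper94.normAlong (heckeBetaBar Kb (N * q) q) h
        = algebraMap Kb (FF (N * q)) c₂ * w₂ ^ n := e₂
    rw [e₂', map_mul, map_pow, AlgHom.commutes]
  obtain ⟨c, v, ⟨k, rfl⟩, e⟩ := TorCalc.new (T := B.calc hA) hn ρ hdv' (hI h ρ hdv).1
    (hI _ (TorCalc.rho_U_one ρ) (TorCalc.dv_U hdv')).2 hA' hB'
  refine ⟨k, v, ?_⟩
  have e1 : q - 1 + 1 = q := Nat.sub_add_cancel hq.one_le
  have e2 : q - 1 + 2 = q + 1 := by omega
  rw [e1, e2] at e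
  exact e

/-- **[APPROX3]** (`helper72.Approx3Statement`) from [REAL3]: if `FFb` is the fraction field of
`Bt` and `J` contains a nonzero element, every triple of elements of `FFb` is the reduction
triple of an `I`-fixed function. -/
theorem approx3_of {n : ℕ} (B : TorBase N q hq hqN A hζ n) (hA : A.LiesOverPrime q)
    (hfrac : ∀ y : LaurentSeries (kA A), y ∈ FFb A N →
      ∃ a ∈ B.Bt, ∃ b ∈ B.Bt, b ≠ 0 ∧ y * b = a)
    {ν : LaurentSeries (kA A)} (hν : ν ∈ B.J) (hν0 : ν ≠ 0) :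
    Approx3Statement N q hq hqN A hζ := by
  intro Y hY hY0
  obtain ⟨G, ρ⟩ := TorCalc.exists_rho_of_frac (T := B.calc hA)
    (fun f X h hX => Rho3.inv h hX) hν hν0 Y (fun c => hfrac _ (hY c))
  refine ⟨G, ?_, ρ.1, ρ.2⟩
  rintro rfl
  have := (red3_iff A hζ 0 (0 : FF (N * q * q)) (Y 0)).mp (ρ.2 0)
  rw [map_zero] at this
  exact this.ne_zero (hY0 0) rfl

end Inst

end Fermat.Agent.T3.helper49

end
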