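/-
TIER 3, [T3-TORIC] (helper49, task 924), part 2: [REAL3] in abstract form (Mathlib only).

The supersingular ideal is `J = ν · Bt`, `ν` = the reduction at `∞` of the weight-one unit `b₀`
(`nuJ`).  If three regular functions `u₁, u₂, u₃` have the reduction triples
`(ν ^ q, 0, 0)`, `(0, ν ^ q, 0)`, `(0, 0, ν ^ 2)` (in the application `β b₀`, its `W`-conjugate and
`± (q / β b₀) · α b₀`) and every element of `Bt` is the `c`-th reduction of a regular function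
(pull back from level `N`), then every triple `(e_c ^ q * z_c)`, `e_c ∈ J`, `z_c ∈ Bt`, is the
reduction triple of a regular function: the field `real` of `TorCalc`.
-/
import Mathlib
import Fermat.Agent.T3.helper49_TorAlg

set_option autoImplicit false
set_option linter.unusedSectionVars false
set_option linter.unusedVariables false
set_option linter.style.longLine false
set_option linter.unusedSimpArgs false

namespace Fermat.Agent.T3.helper49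

variable {F : Type*} {B : Type*} [Field F] [CommRing B]

/-- the ideal `ν · Bt` of `Bt`, as an additive subgroup of `B` -/
def nuJ (Bt : Subring B) (ν : B) : AddSubgroup B where
  carrier := {e | ∃ a ∈ Bt, e = ν * a}
  zero_mem' := ⟨0, Bt.zero_mem, by simp⟩
  add_mem' := by
    rintro x y ⟨a, ha, rfl⟩ ⟨b, hb, rfl⟩
    exact ⟨a + b, Bt.add_mem ha hb, by ring⟩
  neg_mem' := by
    rintro x ⟨a, ha, rfl⟩
    exact ⟨-a, Bt.neg_mem ha, by ring⟩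

theorem mem_nuJ {Bt : Subring B} {ν e : B} : e ∈ nuJ Bt ν ↔ ∃ a ∈ Bt, e = ν * a := Iff.rfl

theorem nuJ_le {Bt : Subring B} {ν : B} (hν : ν ∈ Bt) : ∀ e ∈ nuJ Bt ν, e ∈ Bt := by
  rintro e ⟨a, ha, rfl⟩
  exact Bt.mul_mem hν ha

theorem nuJ_mul {Bt : Subring B} {ν : B} : ∀ z ∈ Bt, ∀ e ∈ nuJ Bt ν, z * e ∈ nuJ Bt ν := by
  rintro z hz e ⟨a, ha, rfl⟩
  exact ⟨z * a, Bt.mul_mem hz ha, by ring⟩

/-- **[REAL3]**, abstract form. -/
theorem real_of_units (Reg : Subring F) (Bt : Subring B) (Rho : F → (Fin 3 → B) → Prop)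
    (rho_add : ∀ f g X Y, Rho f X → Rho g Y → Rho (f + g) (X + Y))
    (rho_mul : ∀ f g X Y, Rho f X → Rho g Y → Rho (f * g) (X * Y))
    {r : ℕ} (hr : 1 ≤ r) {ν : B} (hν : ν ∈ Bt) {u₁ u₂ u₃ : F}
    (h₁ : u₁ ∈ Reg) (h₂ : u₂ ∈ Reg) (h₃ : u₃ ∈ Reg)
    (ρ₁ : Rho u₁ ![ν ^ (r + 1), 0, 0]) (ρ₂ : Rho u₂ ![0, ν ^ (r + 1), 0])
    (ρ₃ : Rho u₃ ![0, 0, ν ^ 2])
    (surj : ∀ (c : Fin 3), ∀ z ∈ Bt, ∃ S ∈ Reg, ∃ X : Fin 3 → B, Rho S X ∧ X c = z) :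
    ∀ e z : Fin 3 → B, (∀ c, e c ∈ nuJ Bt ν) → (∀ c, z c ∈ Bt) →
      ∃ R ∈ Reg, Rho R (fun c => e c ^ (r + 1) * z c) := by
  intro e z he hz
  obtain ⟨a₀, ha₀, e₀⟩ := he 0
  obtain ⟨a₁, ha₁, e₁⟩ := he 1
  obtain ⟨a₂, ha₂, e₂⟩ := he 2
  obtain ⟨S₀, hS₀, X₀, ρS₀, hX₀⟩ := surj 0 (a₀ ^ (r + 1) * z 0)
    (Bt.mul_mem (Bt.pow_mem ha₀ _) (hz 0))
  obtain ⟨S₁, hS₁, X₁, ρS₁, hX₁⟩ := surj 1 (a₁ ^ (r + 1) * z 1)
    (Bt.mul_mem (Bt.pow_mem ha₁ _) (hz 1))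
  obtain ⟨S₂, hS₂, X₂, ρS₂, hX₂⟩ := surj 2 (ν ^ (r - 1) * a₂ ^ (r + 1) * z 2)
    (Bt.mul_mem (Bt.mul_mem (Bt.pow_mem hν _) (Bt.pow_mem ha₂ _)) (hz 2))
  refine ⟨u₁ * S₀ + u₂ * S₁ + u₃ * S₂,
    Reg.add_mem (Reg.add_mem (Reg.mul_mem h₁ hS₀) (Reg.mul_mem h₂ hS₁)) (Reg.mul_mem h₃ hS₂), ?_⟩
  have := rho_add _ _ _ _ (rho_add _ _ _ _ (rho_mul _ _ _ _ ρ₁ ρS₀) (rho_mul _ _ _ _ ρ₂ ρS₁))
    (rho_mul _ _ _ _ ρ₃ ρS₂)
  have hpow : ν ^ 2 * ν ^ (r - 1) = ν ^ (r + 1) := by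
    rw [← pow_add]
    congr 1
    omega
  have e' : (![ν ^ (r + 1), 0, 0] * X₀ + ![0, ν ^ (r + 1), 0] * X₁ + ![0, 0, ν ^ 2] * X₂) =
      fun c => e c ^ (r + 1) * z c := by
    funext c
    fin_cases c
    · simp only [Pi.add_apply, Pi.mul_apply, Fin.zero_eta, Matrix.cons_val_zero, hX₀, e₀]
      ring
    · simp only [Pi.add_apply, Pi.mul_apply, Fin.mk_one, Matrix.cons_val_one,
        Matrix.cons_val_zero, Matrix.head_cons, hX₁, e₁]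
      ring
    · simp only [Pi.add_apply, Pi.mul_apply, Fin.reduceFinMk, Matrix.cons_val_two,
        Matrix.cons_val_one, Matrix.cons_val_zero, Matrix.head_cons, Matrix.tail_cons, hX₂, e₂]
      rw [mul_pow, ← hpow]
      ring
  rwa [e'] at this

end Fermat.Agent.T3.helper49
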