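import Mathlib
import Fermat.Agent.T3.helper98_NormReg3
import Fermat.Agent.T3.helper23_Disc3W

/-!
# Tier 3, [T3-NORM-REGJ] (helper98): `α N_α`, `β N_β` preserve "regular where `j` is finite"

This is the ring of the choice [CUSP-ALL] of the T3 architecture: `Reg` = the functions of
`F_M` which are regular off ALL cusps, i.e. regular at every place where `j` is finite
(= the integral closure of `ℚ̄[j]` in `F_M`).

* `IsRegJ M f` : `∀ P, 0 ≤ P.ord (jElt M) → 0 ≤ P.ord f` (the hypothesis shape of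
  `helper23.disc_root_*`, `helper27.root3_*`, `helper48.completeA_of_forall_place`);
* `regJ M : Subalgebra ℚ̄ F_M`, `regJRing M : Subring F_M`, `isRegJ_of_pow` (normality);
* `isRegJ_alpha`, `isRegJ_normAlpha` (any level `M`, any `q`);
* `isRegJ_atkinLehner`, `isRegJ_atkinLehnerSq`, `isRegJ_beta`, `isRegJ_normBeta`
  (levels `N q`, `N q q`);
* `isRegJ_normA`, `isRegJ_normB` : the fields `NA_reg`, `NB_reg` of `helper49.TorCalc` for
  `Reg := regJRing (N * q * q)`;
* `isRegJ_of_isReg3`-free: no hypothesis on the cusps is used anywhere.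
-/

set_option autoImplicit false
set_option synthInstance.maxHeartbeats 400000
set_option maxHeartbeats 1000000
set_option linter.style.haveILetI false
set_option linter.unusedSectionVars false
set_option linter.unusedVariables false
set_option linter.style.longLine false

noncomputable section

open HahnSeries IntermediateField AlgebraicCurve ModularCurve
open Fermat.Agent.S18.helper19 Fermat.Agent.P2.helper29 Fermat.Agent.T2.helper36
open Fermat.Agent.T2.helper22 Fermat.Agent.S24

namespace Fermat.Agent.T3.helper98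

open Fermat.Agent.T3.helper87
open Fermat.Agent.T3.helper48 (atkinLehnerSq atkinLehnerSq_heckeAlphaBar
  atkinLehnerSq_heckeBetaBar atkinLehnerSq_atkinLehnerSq)
open Fermat.Agent.P3.helper94 (normAlong)

/-! ### The ring of functions regular where `j` is finite -/

section Ring

variable (M : ℕ) [NeZero M]

/-- `f` is regular at every place of `F_M` where `j` is finite (regular off ALL cusps). -/
def IsRegJ (f : FF M) : Prop :=
  ∀ P : Place Kb (FF M), 0 ≤ P.ord (jElt M) → 0 ≤ P.ord f

variable {M}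

theorem isRegJ_iff_mem {f : FF M} :
    IsRegJ M f ↔ ∀ P : Place Kb (FF M), jElt M ∈ P.toValuationSubring →
      f ∈ P.toValuationSubring := by
  constructor
  · intro h P hP
    rw [helper82.mem_iff_ord_nonneg] at hP ⊢
    exact h P hP
  · intro h P hP
    rw [← helper82.mem_iff_ord_nonneg] at hP ⊢
    exact h P hP

theorem isRegJ_zero : IsRegJ M (0 : FF M) :=
  isRegJ_iff_mem.mpr fun P _ => zero_mem _

theorem isRegJ_one : IsRegJ M (1 : FF M) :=
  isRegJ_iff_mem.mpr fun P _ => one_mem _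

theorem IsRegJ.add {f g : FF M} (hf : IsRegJ M f) (hg : IsRegJ M g) : IsRegJ M (f + g) :=
  isRegJ_iff_mem.mpr fun P hP =>
    add_mem (isRegJ_iff_mem.mp hf P hP) (isRegJ_iff_mem.mp hg P hP)

theorem IsRegJ.mul {f g : FF M} (hf : IsRegJ M f) (hg : IsRegJ M g) : IsRegJ M (f * g) :=
  isRegJ_iff_mem.mpr fun P hP =>
    mul_mem (isRegJ_iff_mem.mp hf P hP) (isRegJ_iff_mem.mp hg P hP)

theorem IsRegJ.neg {f : FF M} (hf : IsRegJ M f) : IsRegJ M (-f) :=
  isRegJ_iff_mem.mpr fun P hP => neg_mem (isRegJ_iff_mem.mp hf P hP)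

theorem IsRegJ.sub {f g : FF M} (hf : IsRegJ M f) (hg : IsRegJ M g) : IsRegJ M (f - g) :=
  isRegJ_iff_mem.mpr fun P hP =>
    sub_mem (isRegJ_iff_mem.mp hf P hP) (isRegJ_iff_mem.mp hg P hP)

theorem IsRegJ.pow {f : FF M} (hf : IsRegJ M f) (n : ℕ) : IsRegJ M (f ^ n) :=
  isRegJ_iff_mem.mpr fun P hP => pow_mem (isRegJ_iff_mem.mp hf P hP) n

theorem isRegJ_algebraMap (c : Kb) : IsRegJ M (algebraMap Kb (FF M) c) :=
  isRegJ_iff_mem.mpr fun P _ => P.algebraMap_mem' c

theorem isRegJ_jElt : IsRegJ M (jElt M) := fun _ hP => hP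

theorem isRegJ_genBar (d : M.divisors) : IsRegJ M (genBar M d) :=
  fun P hP => Fermat.Agent.T3.helper23.ord_genBar_nonneg d P hP

theorem isRegJ_sum {ι : Type*} (s : Finset ι) (f : ι → FF M) (hf : ∀ i ∈ s, IsRegJ M (f i)) :
    IsRegJ M (∑ i ∈ s, f i) :=
  isRegJ_iff_mem.mpr fun P hP => sum_mem fun i hi => isRegJ_iff_mem.mp (hf i hi) P hP

theorem isRegJ_prod {ι : Type*} (s : Finset ι) (f : ι → FF M) (hf : ∀ i ∈ s, IsRegJ M (f i)) :
    IsRegJ M (∏ i ∈ s, f i) :=
  isRegJ_iff_mem.mpr fun P hP => prod_mem fun i hi => isRegJ_iff_mem.mp (hf i hi) P hP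

/-- **normality** : the ring is integrally closed in `F_M`. -/
theorem isRegJ_of_pow {f : FF M} {n : ℕ} (hn : n ≠ 0) (hf : IsRegJ M (f ^ n)) : IsRegJ M f := by
  intro P hP
  have h := hf P hP
  have h2 : P.ord (f ^ n) = (n : ℤ) * P.ord f := by
    have := Place.ord_zpow P f (n : ℤ)
    rwa [zpow_natCast] at this
  rw [h2] at h
  have hn' : (0 : ℤ) < n := by exact_mod_cast Nat.pos_of_ne_zero hn
  exact nonneg_of_mul_nonneg_right h hn'

/-- an element which is integral over the ring is in the ring. -/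
theorem isRegJ_of_monic_relation {f : FF M} (n : ℕ) (c : ℕ → FF M) (hc : ∀ k, IsRegJ M (c k))
    (hrel : f ^ (n + 1) = ∑ k ∈ Finset.range (n + 1), c k * f ^ k) : IsRegJ M f := by
  rw [isRegJ_iff_mem]
  intro P hP
  set V := P.toValuationSubring with hV
  by_contra hx
  have hx0 : f ≠ 0 := fun h => hx (h ▸ V.zero_mem)
  have hy : f⁻¹ ∈ V := (V.mem_or_inv_mem f).resolve_left hx
  have key : f = ∑ k ∈ Finset.range (n + 1), c k * f⁻¹ ^ (n - k) := by
    have h1 : f = f ^ (n + 1) * f⁻¹ ^ n := by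
      rw [pow_succ, inv_pow]
      field_simp
    conv_lhs => rw [h1, hrel]
    rw [Finset.sum_mul]
    refine Finset.sum_congr rfl fun k hk => ?_
    have hk' : k ≤ n := by
      have := Finset.mem_range.mp hk
      omega
    have h2 : f ^ k * f⁻¹ ^ n = f⁻¹ ^ (n - k) := by
      have h3 : f⁻¹ ^ n = f⁻¹ ^ (n - k) * f⁻¹ ^ k := by
        rw [← _root_.pow_add, Nat.sub_add_cancel hk']
      rw [h3, inv_pow f k]
      field_simp
    rw [mul_assoc, h2]
  apply hx
  rw [key]
  exact sum_mem fun k _ => mul_mem (isRegJ_iff_mem.mp (hc k) P hP) (pow_mem hy _)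

variable (M)

/-- the `ℚ̄`-algebra of the functions regular where `j` is finite. -/
def regJ : Subalgebra Kb (FF M) where
  carrier := {f | IsRegJ M f}
  mul_mem' hf hg := IsRegJ.mul hf hg
  one_mem' := isRegJ_one
  add_mem' hf hg := IsRegJ.add hf hg
  zero_mem' := isRegJ_zero
  algebraMap_mem' c := isRegJ_algebraMap c

/-- the same as a subring (the shape of the field `Reg` of `helper49.TorCalc`). -/
def regJRing : Subring (FF M) := (regJ M).toSubring

variable {M}

theorem mem_regJ {f : FF M} : f ∈ regJ M ↔ IsRegJ M f := Iff.rfl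

theorem mem_regJRing {f : FF M} : f ∈ regJRing M ↔ IsRegJ M f := Iff.rfl

theorem mem_regJ_iff {f : FF M} :
    f ∈ regJ M ↔ ∀ P : Place Kb (FF M), 0 ≤ P.ord (jElt M) → 0 ≤ P.ord f := Iff.rfl

theorem mem_regJRing_iff {f : FF M} :
    f ∈ regJRing M ↔ ∀ P : Place Kb (FF M), 0 ≤ P.ord (jElt M) → 0 ≤ P.ord f := Iff.rfl

/-- **`reg_of_pow`** for `Reg := regJRing M`. -/
theorem regJRing_of_pow {n : ℕ} (hn : n ≠ 0) (f : FF M) (hf : f ^ n ∈ regJRing M) :
    f ∈ regJRing M :=
  isRegJ_of_pow hn hf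

/-- a `ℚ̄`-automorphism which is an involution and maps `j` to a generator preserves the
ring. -/
theorem IsRegJ.map_invol (W : FF M ≃ₐ[Kb] FF M) (hWW : ∀ f, W (W f) = f)
    (hW : ∃ d : M.divisors, W (jElt M) = genBar M d) {f : FF M} (hf : IsRegJ M f) :
    IsRegJ M (W f) :=
  fun P hP => Fermat.Agent.T3.helper23.ord_map_nonneg_of_gen W hWW hW hf P hP

end Ring

/-! ### `α` and `N_α` (any level) -/

section Alpha

variable (M q : ℕ) [NeZero M] [NeZero q]

theorem heckeAlphaBar_jElt : heckeAlphaBar Kb M q (jElt M) = jElt (M * q) := by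
  apply Subtype.ext
  rw [coe_heckeAlphaBar]
  rfl

variable {M q}

/-- **`α` preserves "regular where `j` is finite"** (any level). -/
theorem isRegJ_alpha {x : FF M} (hx : IsRegJ M x) : IsRegJ (M * q) (heckeAlphaBar Kb M q x) := by
  classical
  intro w hw
  letI := algebraAlong (heckeAlphaBar Kb M q)
  haveI := isScalarTower_along (heckeAlphaBar Kb M q)
  haveI := helper77.an_finiteDimensional M
  haveI := helper77.an_finiteDimensional (M * q)
  obtain ⟨hαint, _, hpd, hfin, hFI, hNF⟩ := Fermat.Agent.P3.helper58.heckeInputs_of_ff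
    (heckeAlphaBar Kb M q) (heckeAlphaBar Kb M q) (xJ M)
    (helper77.an_transcendental M) (xJ (M * q))
    (helper77.an_transcendental (M * q))
  haveI : Algebra.IsIntegral (FF M) (FF (M * q)) := isIntegral_along _ hαint
  haveI := hpd
  haveI : Module.Finite (FF M) (FF (M * q)) := hfin
  have he : (0 : ℤ) < (w.ramificationIndex (FF M) : ℤ) := by
    exact_mod_cast w.ramificationIndex_pos (F := FF M)
  have hj : w.ord (algebraMap (FF M) (FF (M * q)) (jElt M)) = w.ord (jElt (M * q)) :=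
    congrArg w.ord (heckeAlphaBar_jElt M q)
  rw [w.ord_restrict (jElt M)] at hj
  rw [← hj] at hw
  have hv : 0 ≤ (w.restrict (FF M)).ord (jElt M) := nonneg_of_mul_nonneg_right hw he
  show 0 ≤ w.ord (algebraMap (FF M) (FF (M * q)) x)
  rw [w.ord_restrict x]
  exact mul_nonneg he.le (hx _ hv)

/-- **`N_α` preserves "regular where `j` is finite"** (any level). -/
theorem isRegJ_normAlpha {f : FF (M * q)} (hf : IsRegJ (M * q) f) :
    IsRegJ M (normAlong (heckeAlphaBar Kb M q) f) := by
  classical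
  intro v hv
  letI := algebraAlong (heckeAlphaBar Kb M q)
  haveI := isScalarTower_along (heckeAlphaBar Kb M q)
  haveI := helper77.an_finiteDimensional M
  haveI := helper77.an_finiteDimensional (M * q)
  obtain ⟨hαint, _, hpd, hfin, hFI, hNF⟩ := Fermat.Agent.P3.helper58.heckeInputs_of_ff
    (heckeAlphaBar Kb M q) (heckeAlphaBar Kb M q) (xJ M)
    (helper77.an_transcendental M) (xJ (M * q))
    (helper77.an_transcendental (M * q))
  haveI : Algebra.IsIntegral (FF M) (FF (M * q)) := isIntegral_along _ hαint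
  haveI := hpd
  haveI : Module.Finite (FF M) (FF (M * q)) := hfin
  show 0 ≤ v.ord (Algebra.norm (FF M) f)
  refine ord_norm_nonneg_of_fiber hNF f v fun w hw => ?_
  refine hf w ?_
  have he : (0 : ℤ) < (w.ramificationIndex (FF M) : ℤ) := by
    exact_mod_cast w.ramificationIndex_pos (F := FF M)
  have hj : w.ord (algebraMap (FF M) (FF (M * q)) (jElt M)) = w.ord (jElt (M * q)) :=
    congrArg w.ord (heckeAlphaBar_jElt M q)
  rw [← hj, w.ord_restrict (jElt M), hw]
  exact mul_nonneg he.le hv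

end Alpha

/-! ### The Atkin–Lehner involutions, `β` and `N_β` -/

section Beta

variable {N q : ℕ} [NeZero N] [NeZero q] {hq : q.Prime} {hqN : ¬ q ∣ N}

theorem atkinLehner_jElt' (hq : q.Prime) (hqN : ¬ q ∣ N) :
    ∃ d : (N * q).divisors, atkinLehner N q hq hqN (jElt (N * q)) = genBar (N * q) d :=
  ⟨_, by rw [Fermat.Agent.T3.helper23.jElt_eq_genBar, atkinLehner_genBar]⟩

/-- `W_q` (level `N q`) preserves "regular where `j` is finite". -/
theorem isRegJ_atkinLehner {x : FF (N * q)} (hx : IsRegJ (N * q) x) :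
    IsRegJ (N * q) (atkinLehner N q hq hqN x) :=
  hx.map_invol (atkinLehner N q hq hqN) (atkinLehner_atkinLehner N q hq hqN)
    (atkinLehner_jElt' hq hqN)

/-- `W_{q²}` (level `N q q`) preserves "regular where `j` is finite". -/
theorem isRegJ_atkinLehnerSq {f : FF (N * q * q)} (hf : IsRegJ (N * q * q) f) :
    IsRegJ (N * q * q) (atkinLehnerSq N q hq hqN f) :=
  hf.map_invol (atkinLehnerSq N q hq hqN) (atkinLehnerSq_atkinLehnerSq N q hq hqN)
    (Fermat.Agent.T3.helper23.atkinLehnerSq_jElt N q hq hqN)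

theorem isRegJ_atkinLehner_iff {x : FF (N * q)} :
    IsRegJ (N * q) (atkinLehner N q hq hqN x) ↔ IsRegJ (N * q) x :=
  ⟨fun h => by
    have := isRegJ_atkinLehner (hq := hq) (hqN := hqN) h
    rwa [atkinLehner_atkinLehner] at this, isRegJ_atkinLehner⟩

theorem isRegJ_atkinLehnerSq_iff {f : FF (N * q * q)} :
    IsRegJ (N * q * q) (atkinLehnerSq N q hq hqN f) ↔ IsRegJ (N * q * q) f :=
  ⟨fun h => by
    have := isRegJ_atkinLehnerSq (hq := hq) (hqN := hqN) h
    rwa [atkinLehnerSq_atkinLehnerSq] at this, isRegJ_atkinLehnerSq⟩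

/-- **`β : F_{Nq} → F_{Nqq}` preserves "regular where `j` is finite".** -/
theorem isRegJ_beta (hq : q.Prime) (hqN : ¬ q ∣ N) {x : FF (N * q)} (hx : IsRegJ (N * q) x) :
    IsRegJ (N * q * q) (heckeBetaBar Kb (N * q) q x) := by
  have h1 := atkinLehnerSq_heckeAlphaBar N q hq hqN (atkinLehner N q hq hqN x)
  rw [atkinLehner_atkinLehner] at h1
  rw [← h1]
  exact isRegJ_atkinLehnerSq (isRegJ_alpha (isRegJ_atkinLehner hx))

/-- **`N_β : F_{Nqq} → F_{Nq}` preserves "regular where `j` is finite".** -/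
theorem isRegJ_normBeta (hq : q.Prime) (hqN : ¬ q ∣ N) {f : FF (N * q * q)}
    (hf : IsRegJ (N * q * q) f) :
    IsRegJ (N * q) (normAlong (heckeBetaBar Kb (N * q) q) f) := by
  have h1 := atkinLehner_normAlpha (hq := hq) (hqN := hqN) (atkinLehnerSq N q hq hqN f)
  rw [atkinLehnerSq_atkinLehnerSq] at h1
  rw [← h1]
  exact isRegJ_atkinLehner (isRegJ_normAlpha (isRegJ_atkinLehnerSq hf))

/-- **`NA_reg`** for the ring of functions regular off ALL cusps. -/
theorem isRegJ_normA {f : FF (N * q * q)} (hf : IsRegJ (N * q * q) f) :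
    IsRegJ (N * q * q) (normA N q f) :=
  isRegJ_alpha (isRegJ_normAlpha hf)

/-- **`NB_reg`** for the ring of functions regular off ALL cusps. -/
theorem isRegJ_normB (hq : q.Prime) (hqN : ¬ q ∣ N) {f : FF (N * q * q)}
    (hf : IsRegJ (N * q * q) f) :
    IsRegJ (N * q * q) (normB N q f) :=
  isRegJ_beta hq hqN (isRegJ_normBeta hq hqN hf)

/-- `NA_reg` in the `TorCalc` shape. -/
theorem normA_mem_regJRing (f : FF (N * q * q)) (hf : f ∈ regJRing (N * q * q)) :
    normA N q f ∈ regJRing (N * q * q) :=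
  isRegJ_normA hf

/-- `NB_reg` in the `TorCalc` shape. -/
theorem normB_mem_regJRing (hq : q.Prime) (hqN : ¬ q ∣ N) (f : FF (N * q * q))
    (hf : f ∈ regJRing (N * q * q)) :
    normB N q f ∈ regJRing (N * q * q) :=
  isRegJ_normB hq hqN hf

/-- the two-step pull-backs `α α`, `β β`, `α β`-type compositions of level `N → N q q`. -/
theorem isRegJ_alpha_alpha {x : FF N} (hx : IsRegJ N x) :
    IsRegJ (N * q * q) (heckeAlphaBar Kb (N * q) q (heckeAlphaBar Kb N q x)) :=
  isRegJ_alpha (isRegJ_alpha hx)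

end Beta

end Fermat.Agent.T3.helper98

end
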