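import Mathlib
import Fermat.Agent.T3.helper16_UnitInt3
import Fermat.Agent.T3.helper16_UnitPlace
import Fermat.Agent.T3.helper49_TorInst
import Fermat.Agent.T3.helper49_TorReal
import Fermat.Agent.T3.helper98_NormRegJ
import Fermat.Agent.T3.helper48_CompleteA

/-!
# T3 / [UNIT-TABLE], part 3 (helper16): the units of [REAL3] in `helper49.Rho3` form

`b₀` the weight-one unit of level `N q` (`IsUnit0`), `ν = B̄ = iota (kA A) B` its reduction at
`∞`.  In the vocabulary of `helper49_TorInst` (`Rho3 f X` : `f` is `I`-fixed with reduction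
triple `X` at the cusps `∞`, `0`, `1/q`), with `Reg = helper98.regJRing (N q q)` (regular off ALL
cusps):

| element                     | reduction triple     |
|-----------------------------|----------------------|
| `α₂ b₀`                     | `(ν, 0, ν)`          |
| `β₂ b₀`                     | `(ν^q, 0, 0)`        |
| `α₂ (W₁ b₀)`                | `(0, ν^q, 0)`        |
| `β₂ (W₁ b₀)`                | `(0, ν, ν)`          |
| `β₂ (W₁ b₀) · α₂ b₀`        | `(0, 0, ν²)`         |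

and the box `real` of `helper49.TorBase` for `J = ν · Bt` (`real3`).
-/

set_option autoImplicit false
set_option synthInstance.maxHeartbeats 400000
set_option linter.style.haveILetI false
set_option linter.unusedSectionVars false
set_option linter.unusedVariables false
set_option linter.style.longLine false

noncomputable section

open HahnSeries IntermediateField AlgebraicCurve ModularCurve
open Fermat.Agent.S18.helper19 Fermat.Agent.P2.helper29 Fermat.Agent.T2.helper36

namespace Fermat.Agent.T3.helper16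

open Fermat.Agent.S24 Fermat.Agent.S24.helper17 Fermat.Agent.S24.helper77
open Fermat.Agent.P2.helper66 (iota inv1 coeffMap_iota iota_ex mul_inv1)
open Fermat.Agent.T3.helper74 (ex3 IsFixI IsInt3)
open Fermat.Agent.T3.helper72 (Red3)
open Fermat.Agent.T3.helper49 (Rho3 nuJ real_of_units)
open Fermat.Agent.T3.helper98 (IsRegJ regJRing red3_alpha red3_beta)

section Formal

variable {N q : ℕ} [NeZero N] [NeZero q] {hq : q.Prime} {hqN : ¬ q ∣ N}
variable (A : ValuationSubring Kb) {ζ : Kb} (hζ : IsPrimitiveRoot ζ q)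

/-- an integral model gives `Red3`. -/
theorem red3_of_model {i : Fin 3} {f : FF (N * q * q)} {x : LaurentSeries (kA A)}
    (Y : LaurentSeries A) (hY : incl A Y = ex3 N q hq hqN hζ i f) (hr : red A Y = x) :
    Red3 N q hq hqN A hζ i f x :=
  ⟨Y, 1, by rw [map_one]; exact one_ne_zero, by rw [map_one, mul_one, hY],
    by rw [map_one, mul_one, hr]⟩

/-- three integral models give `Rho3`. -/
theorem rho3_of_models {f : FF (N * q * q)} (hf : IsFixI A (N * q * q) f)
    {X : Fin 3 → LaurentSeries (kA A)} (Y : Fin 3 → LaurentSeries A)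
    (hY : ∀ i, incl A (Y i) = ex3 N q hq hqN hζ i f) (hr : ∀ i, red A (Y i) = X i) :
    Rho3 N q hq hqN A hζ f X :=
  ⟨hf, fun i => red3_of_model A hζ (Y i) (hY i) (hr i)⟩

/-- integral over `ℚ̄[j]` implies regular off the cusps -/
theorem isRegJ_of_isIntegral {M : ℕ} [NeZero M] {f : FF M}
    (hf : IsIntegral (Algebra.adjoin Kb {xJ M}) f) : IsRegJ M f := by
  intro P hP
  rw [Fermat.Agent.T3.helper48.jElt_eq_xJ] at hP
  exact ord_nonneg_of_isIntegral hf P hP

end Formal

section Units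

variable {N q : ℕ} [NeZero N] [NeZero q] {hq : q.Prime} {hqN : ¬ q ∣ N}

namespace IsUnit0

variable {b0 : FF (N * q)} {B : PowerSeries ℤ} {ε : ℤ} (h : IsUnit0 hq hqN b0 B ε)
include h

variable (A : ValuationSubring Kb) {ζ : Kb} (hζ : IsPrimitiveRoot ζ q)

/-! ### the full tables of `α₂ b₀`, `β₂ b₀` -/

/-- **the table of `α₂ b₀`**: integral, reductions `(B̄, 0, B̄)`. -/
theorem red3_alpha_unit (hA : A.LiesOverPrime q) : ∃ Y' : Fin 3 → LaurentSeries A,
    (∀ i, incl A (Y' i) = ex3 N q hq hqN hζ i (heckeAlphaBar Kb (N * q) q b0)) ∧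
    red A (Y' 0) = iota (kA A) B ∧ red A (Y' 1) = 0 ∧ red A (Y' 2) = iota (kA A) B := by
  obtain ⟨Yw, hYw, hYw0⟩ := h.model_al A hA
  have hY : incl A (iota ↥A B) = (b0 : LaurentSeries Kb) := by rw [h.coe_eq, incl_iota]
  obtain ⟨Y', h1, h2, h3, h4⟩ := red3_alpha (hq := hq) (hqN := hqN) A hζ b0 (iota ↥A B) Yw hY hYw
  exact ⟨Y', h1, by rw [h2, red_iota], by rw [h3, hYw0, map_zero], by rw [h4, red_iota]⟩

/-- **the table of `β₂ b₀`**: integral, reductions `(B̄(t^q), 0, 0)`. -/
theorem red3_beta_unit (hA : A.LiesOverPrime q) : ∃ Y' : Fin 3 → LaurentSeries A,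
    (∀ i, incl A (Y' i) = ex3 N q hq hqN hζ i (heckeBetaBar Kb (N * q) q b0)) ∧
    red A (Y' 0) = iota (kA A) (Fermat.Agent.P2.helper66.ex q B) ∧ red A (Y' 1) = 0 ∧
    red A (Y' 2) = 0 := by
  obtain ⟨Yw, hYw, hYw0⟩ := h.model_al A hA
  have hY : incl A (iota ↥A B) = (b0 : LaurentSeries Kb) := by rw [h.coe_eq, incl_iota]
  obtain ⟨Y', h1, h2, h3, h4⟩ := red3_beta (hq := hq) (hqN := hqN) A hA hζ b0 (iota ↥A B) Yw
    hY hYw
  exact ⟨Y', h1, by rw [h2, red_iota, iota_ex], by rw [h3, hYw0], by rw [h4, hYw0]⟩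

/-! ### `Rho3` -/

/-- `α₂ b₀` has the reduction triple `(ν, 0, ν)`. -/
theorem rho3_alpha (hA : A.LiesOverPrime q) :
    Rho3 N q hq hqN A hζ (heckeAlphaBar Kb (N * q) q b0)
      ![iota (kA A) B, 0, iota (kA A) B] := by
  obtain ⟨Y', h1, h2, h3, h4⟩ := h.red3_alpha_unit A hζ hA
  refine rho3_of_models A hζ (h.isFixI_alpha A) Y' h1 ?_
  intro i
  fin_cases i
  · exact h2
  · exact h3
  · exact h4

/-- `β₂ b₀` has the reduction triple `(ν^q, 0, 0)`. -/
theorem rho3_beta (hA : A.LiesOverPrime q) :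
    Rho3 N q hq hqN A hζ (heckeBetaBar Kb (N * q) q b0) ![iota (kA A) B ^ q, 0, 0] := by
  obtain ⟨Y', h1, h2, h3, h4⟩ := h.red3_beta_unit A hζ hA
  refine rho3_of_models A hζ (h.isFixI_beta A) Y' h1 ?_
  intro i
  fin_cases i
  · exact h2.trans (h.red_frob A hA)
  · exact h3
  · exact h4

/-- `α₂ (W₁ b₀)` has the reduction triple `(0, ν^q, 0)`. -/
theorem rho3_alpha_al (hA : A.LiesOverPrime q) :
    Rho3 N q hq hqN A hζ (heckeAlphaBar Kb (N * q) q (atkinLehner N q hq hqN b0))
      ![0, iota (kA A) B ^ q, 0] := by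
  obtain ⟨Y', h1, h2, h3, h4⟩ := h.red3_alpha_al A hζ hA
  refine rho3_of_models A hζ
    (Fermat.Agent.T3.helper98.isFixI_alpha A (N * q) (h.isFixI_al A)) Y' h1 ?_
  intro i
  fin_cases i
  · exact h2
  · exact h3.trans (h.red_frob A hA)
  · exact h4

/-- `β₂ (W₁ b₀)` has the reduction triple `(0, ν, ν)`. -/
theorem rho3_beta_al (hA : A.LiesOverPrime q) :
    Rho3 N q hq hqN A hζ (heckeBetaBar Kb (N * q) q (atkinLehner N q hq hqN b0))
      ![0, iota (kA A) B, iota (kA A) B] := by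
  obtain ⟨Y', h1, h2, h3, h4⟩ := h.red3_beta_al A hζ hA
  refine rho3_of_models A hζ
    (Fermat.Agent.T3.helper98.isFixI_beta A (N * q) (h.isFixI_al A)) Y' h1 ?_
  intro i
  fin_cases i
  · exact h2
  · exact h3
  · exact h4

/-- `β₂ (W₁ b₀) · α₂ b₀` has the reduction triple `(0, 0, ν²)`. -/
theorem rho3_mid (hA : A.LiesOverPrime q) :
    Rho3 N q hq hqN A hζ (heckeBetaBar Kb (N * q) q (atkinLehner N q hq hqN b0) *
        heckeAlphaBar Kb (N * q) q b0) ![0, 0, iota (kA A) B ^ 2] := by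
  have h1 := (h.rho3_beta_al A hζ hA).mul (h.rho3_alpha A hζ hA)
  have e : (![0, iota (kA A) B, iota (kA A) B] * ![iota (kA A) B, 0, iota (kA A) B] :
      Fin 3 → LaurentSeries (kA A)) = ![0, 0, iota (kA A) B ^ 2] := by
    funext i
    fin_cases i
    · simp
    · simp
    · simp [pow_two]
  rwa [e] at h1

/-! ### regularity off the cusps -/

theorem mem_regJ_alpha : heckeAlphaBar Kb (N * q) q b0 ∈ regJRing (N * q * q) :=
  isRegJ_of_isIntegral h.int_alpha

theorem mem_regJ_alpha_inv : (heckeAlphaBar Kb (N * q) q b0)⁻¹ ∈ regJRing (N * q * q) :=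
  isRegJ_of_isIntegral h.int_alpha_inv

theorem mem_regJ_beta : heckeBetaBar Kb (N * q) q b0 ∈ regJRing (N * q * q) :=
  isRegJ_of_isIntegral h.int_beta

theorem mem_regJ_beta_inv : (heckeBetaBar Kb (N * q) q b0)⁻¹ ∈ regJRing (N * q * q) :=
  isRegJ_of_isIntegral h.int_beta_inv

theorem mem_regJ_alpha_al :
    heckeAlphaBar Kb (N * q) q (atkinLehner N q hq hqN b0) ∈ regJRing (N * q * q) :=
  isRegJ_of_isIntegral h.int_alpha_al

theorem mem_regJ_alpha_al_inv :
    (heckeAlphaBar Kb (N * q) q (atkinLehner N q hq hqN b0))⁻¹ ∈ regJRing (N * q * q) :=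
  isRegJ_of_isIntegral h.int_alpha_al_inv

theorem mem_regJ_beta_al :
    heckeBetaBar Kb (N * q) q (atkinLehner N q hq hqN b0) ∈ regJRing (N * q * q) :=
  isRegJ_of_isIntegral h.int_beta_al

theorem mem_regJ_beta_al_inv :
    (heckeBetaBar Kb (N * q) q (atkinLehner N q hq hqN b0))⁻¹ ∈ regJRing (N * q * q) :=
  isRegJ_of_isIntegral h.int_beta_al_inv

/-! ### the box `real` of `helper49.TorBase` -/

/-- **[REAL3]** for `Reg = regJRing (N q q)` (regular off ALL cusps) and `J = ν · Bt`,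
`ν = B̄` the reduction of the weight-one unit: every triple `(e_c ^ q · z_c)`, `e_c ∈ J`,
`z_c ∈ Bt`, is the reduction triple of an `I`-fixed function which is regular off the cusps,
PROVIDED every element of `Bt` is a `c`-th reduction of such a function (`surj`, = [SURJ3]) and
`ν ∈ Bt`. -/
theorem real3 (hA : A.LiesOverPrime q) (Bt : Subring (LaurentSeries (kA A)))
    (hν : iota (kA A) B ∈ Bt)
    (surj : ∀ c : Fin 3, ∀ z ∈ Bt, ∃ S ∈ regJRing (N * q * q),
      ∃ X : Fin 3 → LaurentSeries (kA A), Rho3 N q hq hqN A hζ S X ∧ X c = z) :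
    ∀ e z : Fin 3 → LaurentSeries (kA A), (∀ c, e c ∈ nuJ Bt (iota (kA A) B)) →
      (∀ c, z c ∈ Bt) →
      ∃ R ∈ regJRing (N * q * q), Rho3 N q hq hqN A hζ R (fun c => e c ^ q * z c) := by
  have hq2 : 1 ≤ q - 1 := by have := hq.two_le; omega
  have hq1 : q - 1 + 1 = q := by have := hq.two_le; omega
  have key := real_of_units (regJRing (N * q * q)) Bt (Rho3 N q hq hqN A hζ)
    (fun f g X Y hf hg => hf.add hg) (fun f g X Y hf hg => hf.mul hg) hq2 hν
    h.mem_regJ_beta h.mem_regJ_alpha_al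
    ((regJRing (N * q * q)).mul_mem h.mem_regJ_beta_al h.mem_regJ_alpha)
    (by rw [hq1]; exact h.rho3_beta A hζ hA) (by rw [hq1]; exact h.rho3_alpha_al A hζ hA)
    (h.rho3_mid A hζ hA) surj
  intro e z he hz
  have := key e z he hz
  rwa [hq1] at this

end IsUnit0

end Units

end Fermat.Agent.T3.helper16

end
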