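import Mathlib
import Fermat.Agent.S16.helper24_Eis
import Fermat.Agent.S16.helper58_U5
import Fermat.Agent.S24.helper48_LocalOrders
import Fermat.Agent.P2.helper66_HauptSturm

/-!
# T3 / [T3-JAC4] (helper63), part 1: the weight two Eisenstein series of level `4`

`F3 τ = 4 E₂(4τ) - E₂(τ)` is a modular form of weight `2` on `Γ₀(4)` with integral
`q`-expansion `P3 = 4 E₂(q⁴) - E₂(q) = 3 + 24 q + ⋯` (`= 3 θ(τ)⁴`, Jacobi).

* `isMF_F3 : IsMF 4 2 F3`, `mfq_F3 : MFQ 4 2 F3 P3`, `isQ_P3 : IsQ 4 2 P3`.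
-/

set_option autoImplicit false

noncomputable section

namespace Fermat.Agent.T3.helper63

open UpperHalfPlane ModularForm EisensteinSeries CongruenceSubgroup Matrix
open Fermat.Agent.S20 (IsMF)
open Fermat.Agent.S24 (scaleH)
open Fermat.Agent.S24.helper17 (IsNice)
open Fermat.Agent.P2.helper66
open Fermat.Agent.S16.helper24
open Fermat.Agent.S16.helper58 (e2Int)
open scoped MatrixGroups Manifold

/-- `4 E₂(q⁴) - E₂(q)` as an integral power series. -/
def P3 : PowerSeries ℤ := PowerSeries.C (4 : ℤ) * ex 4 e2Int - e2Int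

/-- The function `τ ↦ 4 E₂(4τ) - E₂(τ)`. -/
def F3 : ℍ → ℂ := fun τ => 4 * E2 (scaleH 4 τ) - E2 τ

theorem heckeDiag_smul_eq_scaleH (d : ℕ) [NeZero d] (τ : ℍ) :
    heckeDiagMatrix d • τ = scaleH d τ := by
  apply UpperHalfPlane.ext
  rw [coe_heckeDiagMatrix_smul (NeZero.ne d)]
  rfl

theorem F3_eq : F3 = (24 : ℂ) • eisFun 4 := by
  ext τ
  simp only [F3, Pi.smul_apply, smul_eq_mul]
  rw [eisFun_apply (by norm_num : (4 : ℕ) ≠ 0), heckeDiag_smul_eq_scaleH]
  push_cast
  ring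

theorem isBdd_E2_diag_slash (d : ℕ) [NeZero d] (γ : SL(2, ℤ)) :
    IsBoundedAtImInfty ((E2 ∣[(2 : ℤ)] heckeDiagMatrix d) ∣[(2 : ℤ)] γ) := by
  obtain ⟨δ, β, hβ, h⟩ := exists_decomp_general d γ
  rw [SL_slash, ← SlashAction.slash_mul, h, SlashAction.slash_mul, ← SL_slash]
  exact (isBoundedAtImInfty_E2_slash δ).slash 2 hβ

theorem isMF_eis4 : IsMF 4 2 (eisFun 4) where
  slash γ hγ := eisFun_slash_of_mem_Gamma0 (by norm_num) hγ
  holo := mdiff_eisFun 4
  bdd γ := by
    unfold eisFun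
    rw [SL_smul_slash, sub_eq_add_neg, SlashAction.add_slash, SlashAction.neg_slash,
      ← sub_eq_add_neg]
    exact ((isBoundedAtImInfty_E2_slash γ).sub (isBdd_E2_diag_slash 4 γ)).const_smul_left _

theorem isMF_F3 : IsMF 4 2 F3 := by
  rw [F3_eq]
  exact isMF_eis4.smul _

theorem isNice_E2 : IsNice E2 where
  periodic := by
    have := Fermat.Agent.S24.helper48.periodic_E2
    simpa using this
  mdiff := E2_mdifferentiable
  bdd := isBoundedAtImInfty_E2

theorem qExpansion_E2_eq : qExpansion 1 E2 = e2Int.map (Int.castRingHom ℂ) :=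
  Fermat.Agent.S16.helper58.qExpansion_E2

theorem mfq_F3 : MFQ 4 2 F3 P3 where
  isMF := isMF_F3
  qexp := by
    have h4 : IsNice (fun τ => E2 (scaleH 4 τ)) := isNice_E2.comp_scale 4
    have e : F3 = ((4 : ℂ) • fun τ => E2 (scaleH 4 τ)) - E2 := by
      ext τ
      simp [F3]
    have h4' : IsNice ((4 : ℂ) • fun τ => E2 (scaleH 4 τ)) := by
      have := (IsNice.const 4).mul h4
      exact this.congr fun τ => by simp
    rw [e, qExpansion_sub h4'.analyticAt isNice_E2.analyticAt, qExpansion_smul h4.analyticAt,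
      isNice_E2.qExpansion_comp_scale 4, qExpansion_E2_eq, P3]
    ext n
    simp only [map_sub, map_mul, PowerSeries.map_C, PowerSeries.coeff_smul,
      Fermat.Agent.S24.helper17.coeff_expandPS, PowerSeries.coeff_C_mul, PowerSeries.coeff_map,
      coeff_ex]
    split_ifs <;> simp

theorem isQ_P3 : IsQ 4 2 P3 := ⟨F3, mfq_F3⟩

end Fermat.Agent.T3.helper63
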