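import Mathlib
import Fermat.Agent.T3.helper63_Jac4Eis
import Fermat.Agent.P2.helper66_HauptTr

/-!
# T3 / [T3-JAC4] (helper63), part 2: Jacobi's four square identity in Eisenstein form

`P3 ^ 2 * B4 = 9 * (A4 + 16 B4) ^ 2` in `ℤ⟦q⟧` (weight `8`, level `4`; Sturm bound `4`), where
`P3 = 4 E₂(q⁴) - E₂(q)` and `A4, B4` are the weight four forms of `helper66` with
`t₄ = A4 / B4`.  (Both sides are `9 θ⁸ B4`.)
-/

set_option autoImplicit false
set_option maxRecDepth 100000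

noncomputable section

namespace Fermat.Agent.T3.helper63

open PowerSeries
open Fermat.Agent.P2.helper66
open Fermat.Agent.S16.helper58 (e2Int)
open Fermat.Agent.S23 (sigmaSeries e4Int deltaInt)

theorem jtr_s1 : Tr 17 (Fermat.Agent.S23.sigmaSeries 1)
    [0, 1, 3, 4, 7, 6, 12, 8, 15, 13, 18, 12, 28, 14, 24, 24, 31] :=
  by
  intro n hn
  rw [Fermat.Agent.S23.coeff_sigmaSeries]
  revert n
  decide +kernel

theorem jtr_1 : Tr 17 (PowerSeries.C (24 : ℤ) * Fermat.Agent.S23.sigmaSeries 1)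
    [0, 24, 72, 96, 168, 144, 288, 192, 360, 312, 432, 288, 672, 336, 576, 576, 744] :=
  Tr.smul jtr_s1 (24) _ (by decide +kernel)

theorem jtr_2 : Tr 17 ((1 : PowerSeries ℤ) - PowerSeries.C (24 : ℤ) * Fermat.Agent.S23.sigmaSeries 1)
    [1, -24, -72, -96, -168, -144, -288, -192, -360, -312, -432, -288, -672, -336, -576, -576, -744] :=
  Tr.sub tr_one jtr_1 _ (by decide +kernel)

theorem jtr_e2 : Tr 17 (e2Int)
    [1, -24, -72, -96, -168, -144, -288, -192, -360, -312, -432, -288, -672, -336, -576, -576, -744] :=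
  jtr_2

theorem jtr_3 : Tr 17 (ex 4 e2Int)
    [1, 0, 0, 0, -24, 0, 0, 0, -72, 0, 0, 0, -96, 0, 0, 0, -168] :=
  Tr.ex jtr_e2 4 _ (by decide +kernel)

theorem jtr_4 : Tr 17 (PowerSeries.C (4 : ℤ) * ex 4 e2Int)
    [4, 0, 0, 0, -96, 0, 0, 0, -288, 0, 0, 0, -384, 0, 0, 0, -672] :=
  Tr.smul jtr_3 (4) _ (by decide +kernel)

theorem jtr_5 : Tr 17 (PowerSeries.C (4 : ℤ) * ex 4 e2Int - e2Int)
    [3, 24, 72, 96, 72, 144, 288, 192, 72, 312, 432, 288, 288, 336, 576, 576, 72] :=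
  Tr.sub jtr_4 jtr_e2 _ (by decide +kernel)

theorem jtr_P3 : Tr 17 (P3)
    [3, 24, 72, 96, 72, 144, 288, 192, 72, 312, 432, 288, 288, 336, 576, 576, 72] :=
  jtr_5

theorem jtr_6 : Tr 17 (P3 ^ 2)
    [9, 144, 1008, 4032, 10224, 18144, 28224, 49536, 83952, 109008, 127008, 191808, 286272, 316512, 346752, 508032, 673776] :=
  Tr.pow jtr_P3 2 _ (by decide +kernel)

theorem jtrL : Tr 17 (P3 ^ 2 * B4)
    [0, 0, 9, 144, 1080, 5184, 18540, 54432, 138816, 316800, 661662, 1289520, 2372256, 4152384, 6976440, 11312352, 17763840] :=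
  Tr.mul jtr_6 tr_B4 _ (by decide +kernel)

theorem jtr_7 : Tr 17 (PowerSeries.C (16 : ℤ) * B4)
    [0, 0, 16, 0, 128, 0, 448, 0, 1024, 0, 2016, 0, 3584, 0, 5504, 0, 8192] :=
  Tr.smul tr_B4 (16) _ (by decide +kernel)

theorem jtr_8 : Tr 17 (A4 + PowerSeries.C (16 : ℤ) * B4)
    [0, 1, 8, 28, 64, 126, 224, 344, 512, 757, 1008, 1332, 1792, 2198, 2752, 3528, 4096] :=
  Tr.add tr_A4 jtr_7 _ (by decide +kernel)

theorem jtr_9 : Tr 17 ((A4 + PowerSeries.C (16 : ℤ) * B4) ^ 2)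
    [0, 0, 1, 16, 120, 576, 2060, 6048, 15424, 35200, 73518, 143280, 263584, 461376, 775160, 1256928, 1973760] :=
  Tr.pow jtr_8 2 _ (by decide +kernel)

theorem jtrR : Tr 17 (PowerSeries.C (9 : ℤ) * (A4 + PowerSeries.C (16 : ℤ) * B4) ^ 2)
    [0, 0, 9, 144, 1080, 5184, 18540, 54432, 138816, 316800, 661662, 1289520, 2372256, 4152384, 6976440, 11312352, 17763840] :=
  Tr.smul jtr_9 (9) _ (by decide +kernel)

/-- **Jacobi's identity in Eisenstein form**: `(4 E₂(q⁴) - E₂(q))² B4 = 9 (A4 + 16 B4)²`. -/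
theorem jac4_sq : P3 ^ 2 * B4 = PowerSeries.C (9 : ℤ) * (A4 + PowerSeries.C (16 : ℤ) * B4) ^ 2 := by
  have hL : IsQ 4 8 (PowerSeries.C 240 * (P3 ^ 2 * (ex 2 e4Int - ex 4 e4Int))) :=
    ((isQ_P3.pow 2 (k := 4) (by norm_num)).mul isQ_hB4 (k := 8) (by norm_num)).smul 240
  have hR : IsQ 4 8 (PowerSeries.C 9 * (((e4Int - PowerSeries.C 17 * ex 2 e4Int) +
      PowerSeries.C 16 * ex 4 e4Int) + PowerSeries.C 16 * (ex 2 e4Int - ex 4 e4Int)) ^ 2) :=
    (isQ_hQ4.pow 2 (k := 8) (by norm_num)).smul 9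
  refine IsQ.eq_of_tr hL hR (c := 57600) (by norm_num) ?_ ?_ jtrL jtrR ?_
  · rw [hB4_eq]
    simp only [map_ofNat]
    ring
  · rw [hA4_eq, hB4_eq]
    simp only [map_ofNat]
    ring
  · rw [dedekindPsi_four]; decide

end Fermat.Agent.T3.helper63
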