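import Mathlib
import Fermat.Agent.T3.helper63_Jac4Sturm
import Fermat.Agent.S16.helper85_DerivQExp
import Fermat.Agent.P2.helper66_HauptJ
import Fermat.Agent.S24.helper48_LocalOrders

/-!
# T3 / [T3-JAC4] (helper63), part 3: the derivative of the Hauptmodul of level `4`

`th = X d/dX` on `ℤ⟦X⟧` (`= q d/dq = (2πi)⁻¹ d/dτ`).

* `th_deltaInt : th Δ = E₂ Δ` (Ramanujan; from `helper48.D_discriminant`);
* `A4_cube_mul : A4³ Δ(q⁴) = B4³ Δ(q)` (`t₄³ = Δ(q)/Δ(q⁴)`, from `F2a, F2b, F4a, F4b`);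
* `theta_AB : 3 (th A4 · B4 - A4 · th B4) = - A4 B4 P3`, i.e. `θ t₄ = - t₄ · P3 / 3`.
-/

set_option autoImplicit false

noncomputable section

namespace Fermat.Agent.T3.helper63

open PowerSeries UpperHalfPlane ModularForm EisensteinSeries
open Fermat.Agent.P2.helper66
open Fermat.Agent.S16.helper58 (e2Int)
open Fermat.Agent.S23 (sigmaSeries e4Int deltaInt)
open Fermat.Agent.S24.helper17 (IsNice)
open scoped Derivative

/-! ### The derivation `θ = X d/dX` -/

/-- `θ = X d/dX` on integral power series. -/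
def th (P : PowerSeries ℤ) : PowerSeries ℤ := X * d⁄dX ℤ P

theorem coeff_th (P : PowerSeries ℤ) (n : ℕ) : coeff n (th P) = (n : ℤ) * coeff n P := by
  rcases n with _ | n
  · simp [th]
  · rw [th, coeff_succ_X_mul, coeff_derivative]
    push_cast
    ring

theorem th_add (P Q : PowerSeries ℤ) : th (P + Q) = th P + th Q := by
  simp only [th, map_add, mul_add]

theorem th_sub (P Q : PowerSeries ℤ) : th (P - Q) = th P - th Q := by
  simp only [th, map_sub, mul_sub]

theorem th_mul (P Q : PowerSeries ℤ) : th (P * Q) = th P * Q + P * th Q := by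
  simp only [th, Derivation.leibniz, smul_eq_mul]
  ring

theorem th_pow (P : PowerSeries ℤ) (n : ℕ) :
    th (P ^ (n + 1)) = PowerSeries.C ((n : ℤ) + 1) * P ^ n * th P := by
  induction n with
  | zero => simp
  | succ n ih =>
    rw [pow_succ, th_mul, ih]
    push_cast
    simp only [map_add, map_one, map_natCast]
    ring

theorem th_ex (d : ℕ) (P : PowerSeries ℤ) :
    th (ex d P) = PowerSeries.C (d : ℤ) * ex d (th P) := by
  ext n
  rw [coeff_th, coeff_ex, PowerSeries.coeff_C_mul, coeff_ex]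
  split_ifs with h
  · rw [coeff_th]
    obtain ⟨m, rfl⟩ := h
    rcases Nat.eq_zero_or_pos d with rfl | hd
    · simp
    · rw [Nat.mul_div_cancel_left m hd]
      push_cast
      ring
  · simp

/-- `X ↦ X ^ d` is multiplicative. -/
theorem ex_mul' (d : ℕ) [NeZero d] (P Q : PowerSeries ℤ) : ex d (P * Q) = ex d P * ex d Q := by
  apply iota_injective ℚ
  rw [map_mul, iota_ex, iota_ex, iota_ex, map_mul, map_mul]

theorem ex_pow' (d : ℕ) [NeZero d] (P : PowerSeries ℤ) (n : ℕ) : ex d (P ^ n) = ex d P ^ n := by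
  induction n with
  | zero =>
    rw [pow_zero, pow_zero]
    exact ex_one d (NeZero.ne d)
  | succ n ih => rw [pow_succ, pow_succ, ex_mul', ih]

/-! ### Ramanujan: `θ Δ = E₂ Δ` -/

theorem isNice_discriminant : IsNice (discriminant : ℍ → ℂ) := mfq_discriminant.nice

theorem th_deltaInt : th deltaInt = e2Int * deltaInt := by
  have hΔ := isNice_discriminant
  have hper : Function.Periodic ((discriminant : ℍ → ℂ) ∘ ofComplex) ((1 : ℝ) : ℂ) := by
    simpa using hΔ.periodic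
  have hD : (D (discriminant : ℍ → ℂ)) = E2 * (discriminant : ℍ → ℂ) := by
    funext z
    exact Fermat.Agent.S24.helper48.D_discriminant z
  ext n
  have h1 := Fermat.Agent.S16.helper85.qExpansion_normalizedDeriv_coeff (f := discriminant)
    one_pos hper hΔ.mdiff hΔ.bdd n
  rw [hD, isNice_E2.qExpansion_mul hΔ, qExpansion_E2_eq, mfq_discriminant.qexp, ← map_mul,
    PowerSeries.coeff_map, PowerSeries.coeff_map] at h1
  have h2 : ((coeff n (e2Int * deltaInt) : ℤ) : ℂ) = (((n : ℤ) * coeff n deltaInt : ℤ) : ℂ) := by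
    rw [eq_intCast, eq_intCast] at h1
    rw [h1]
    push_cast
    simp
  rw [coeff_th]
  exact_mod_cast h2.symm

/-! ### `t₄³ = Δ(q) / Δ(q⁴)` -/

theorem B2_eq_A4_add : B2 = A4 + PowerSeries.C (16 : ℤ) * B4 := by
  rw [B2, A4, B4]
  simp only [map_ofNat]
  ring

theorem B2_ne_zero : B2 ≠ 0 := by
  intro h
  have := tr_B2 1 (by norm_num)
  rw [h] at this
  simp at this

theorem B4_ne_zero : B4 ≠ 0 := by
  intro h
  have := tr_B4 2 (by norm_num)
  rw [h] at this
  simp at this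

theorem deltaInt_ne_zero : deltaInt ≠ 0 := by
  intro h
  have := tr_deltaInt 1 (by norm_num)
  rw [h] at this
  simp at this

/-- `A2 B4 = A4²`. -/
theorem A2_mul_B4 : A2 * B4 = A4 ^ 2 := by
  have h := F4a
  rw [← B2_eq_A4_add] at h
  have h' : B2 * (A2 * B4) = B2 * A4 ^ 2 := by rw [← h]; ring
  exact mul_left_cancel₀ B2_ne_zero h'

/-- `Δ(q⁴) = A2(q²) B4²`. -/
theorem ex4_deltaInt : ex 4 deltaInt = A2' * B4 ^ 2 := by
  have h : ex 2 (ex 2 deltaInt) = ex 2 (A2 * B2 ^ 2) := by rw [F2b]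
  rw [ex_ex 2 2 (by norm_num), ex_mul', ex_pow', ex_A2, ex_B2] at h
  exact h

/-- `t₄³ = Δ(q)/Δ(q⁴)`: `A4³ Δ(q⁴) = B4³ Δ(q)`. -/
theorem A4_cube_mul : A4 ^ 3 * ex 4 deltaInt = B4 ^ 3 * deltaInt := by
  have h1 := A2_mul_B4
  have h2 := F4b
  rw [← B2_eq_A4_add] at h2
  rw [ex4_deltaInt, F2a]
  have e1 : A4 ^ 3 * (A2' * B4 ^ 2) = A4 ^ 3 * B4 * (A2' * B4) := by ring
  have e2 : B4 ^ 3 * (A2 ^ 2 * B2) = (A2 * B4) ^ 2 * B2 * B4 := by ring
  rw [e1, e2, h1, h2]
  ring

/-! ### The derivative of `t₄ = A4 / B4` -/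

/-- `3 (θA4 · B4 - A4 · θB4) = - A4 B4 (4 E₂(q⁴) - E₂(q))`. -/
theorem theta_AB :
    PowerSeries.C (3 : ℤ) * (th A4 * B4 - A4 * th B4) = -(A4 * B4 * P3) := by
  have h := congrArg th A4_cube_mul
  rw [th_mul, th_mul, th_pow, th_pow, th_ex, th_deltaInt, ex_mul'] at h
  have hk := A4_cube_mul
  -- multiply by `A4` and eliminate `A4³ Δ(q⁴)`
  have key : (B4 ^ 2 * deltaInt) * (PowerSeries.C (3 : ℤ) * (th A4 * B4 - A4 * th B4)) =
      (B4 ^ 2 * deltaInt) * (-(A4 * B4 * P3)) := by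
    have h3 : (PowerSeries.C (3 : ℤ) : PowerSeries ℤ) = 3 := by simp [map_ofNat]
    have h4 : (PowerSeries.C (4 : ℤ) : PowerSeries ℤ) = 4 := by simp [map_ofNat]
    have h2 : (PowerSeries.C ((2 : ℕ) : ℤ) + 1 : PowerSeries ℤ) = 3 := by
      simp only [Nat.cast_ofNat, map_ofNat]; norm_num
    simp only [Nat.cast_ofNat, map_add, map_one, map_ofNat] at h
    rw [P3, h3, h4]
    linear_combination A4 * h + (-(3 : PowerSeries ℤ) * th A4 - 4 * A4 * ex 4 e2Int) * hk
  exact mul_left_cancel₀ (mul_ne_zero (pow_ne_zero 2 B4_ne_zero) deltaInt_ne_zero) key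

end Fermat.Agent.T3.helper63
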