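import Mathlib
import Fermat.Agent.T3.helper63_Jac4Theta
import Fermat.Agent.T3.helper16_UnitDefs

/-!
# T3 / [T3-JAC4] (helper63), part 4: Jacobi's four square theorem for the eta quotient `lam4`

`lam4 τ = η(2τ)¹⁰ / (η(τ)⁴ η(4τ)⁴)` (the weight one form of [T3-UNIT]).  For EVERY integral
`q`-expansion `L` of `lam4` (`IsQExp (iota ℂ L) lam4`):

* `three_L_sq : 3 L² = 4 E₂(q⁴) - E₂(q)`            (Jacobi: `θ(τ)⁴ = 1 + 8 ∑ (σ(n) - 4σ(n/4)) qⁿ`);
* `theta_A4_B4 : θA4 · B4 - A4 · θB4 = - A4 B4 L²`   (`θ t₄ = - t₄ lam4²`, `t₄ = A4/B4`);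
* `th_tNum4 : θ T - T = - T L²` for `T = tNum4`, `tH4 = q⁻¹ T`.
-/

set_option autoImplicit false

noncomputable section

namespace Fermat.Agent.T3.helper63

open PowerSeries UpperHalfPlane ModularForm
open Fermat.Agent.P2.helper66
open Fermat.Agent.S16.helper58 (e2Int)
open Fermat.Agent.S23 (sigmaSeries e4Int deltaInt)
open Fermat.Agent.S24 (scaleH)
open Fermat.Agent.S24.helper17 (IsNice IsQExp)
open Fermat.Agent.T3.helper16 (lam4)

/-! ### `lam4²⁴ = Δ(2τ)¹⁰ / (Δ(τ)⁴ Δ(4τ)⁴)` -/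

theorem discriminant_scale (d : ℕ) [NeZero d] (τ : ℍ) :
    discriminant (scaleH d τ) = ModularForm.eta ((d : ℂ) * (τ : ℂ)) ^ 24 := rfl

theorem lam4_pow_mul (τ : ℍ) :
    lam4 τ ^ 24 * (discriminant τ ^ 4 * discriminant (scaleH 4 τ) ^ 4) =
      discriminant (scaleH 2 τ) ^ 10 := by
  have h1 : ModularForm.eta (τ : ℂ) ≠ 0 := ModularForm.eta_ne_zero τ.im_pos
  have h4 : ModularForm.eta (4 * (τ : ℂ)) ≠ 0 := by
    have := ModularForm.eta_ne_zero (scaleH 4 τ).im_pos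
    simpa [Fermat.Agent.S24.helper17.coe_scaleH] using this
  rw [discriminant_scale, discriminant_scale]
  simp only [Nat.cast_ofNat]
  rw [show discriminant τ = ModularForm.eta (τ : ℂ) ^ 24 from rfl, lam4]
  generalize ModularForm.eta (τ : ℂ) = a at h1 ⊢
  generalize ModularForm.eta (4 * (τ : ℂ)) = c at h4 ⊢
  generalize ModularForm.eta (2 * (τ : ℂ)) = b
  field_simp

theorem isQExp_iota_of_isNice {g : ℍ → ℂ} {P : PowerSeries ℤ} (hg : IsNice g)
    (h : qExpansion 1 g = P.map (Int.castRingHom ℂ)) : IsQExp (iota ℂ P) g := by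
  have := IsQExp.of_isNice hg
  rwa [h] at this

theorem isQExp_discriminant : IsQExp (iota ℂ deltaInt) (discriminant : ℍ → ℂ) :=
  isQExp_iota_of_isNice mfq_discriminant.nice mfq_discriminant.qexp

theorem isQExp_discriminant_scale (d : ℕ) [NeZero d] :
    IsQExp (iota ℂ (ex d deltaInt)) (fun τ => discriminant (scaleH d τ)) :=
  isQExp_iota_of_isNice (mfq_discriminant_scale d).nice (mfq_discriminant_scale d).qexp

variable {L : PowerSeries ℤ}

theorem lam4_pow_mul_fun :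
    lam4 ^ 24 * ((discriminant : ℍ → ℂ) ^ 4 * (fun τ => discriminant (scaleH 4 τ)) ^ 4) =
      (fun τ => discriminant (scaleH 2 τ)) ^ 10 := by
  funext τ
  simp only [Pi.mul_apply, Pi.pow_apply]
  exact lam4_pow_mul τ

theorem isQExp_iota_pow {P : PowerSeries ℤ} {g : ℍ → ℂ} (h : IsQExp (iota ℂ P) g) (n : ℕ) :
    IsQExp (iota ℂ (P ^ n)) (g ^ n) := by
  rw [map_pow]
  exact h.pow n

theorem isQExp_iota_mul {P Q : PowerSeries ℤ} {g₁ g₂ : ℍ → ℂ} (h₁ : IsQExp (iota ℂ P) g₁)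
    (h₂ : IsQExp (iota ℂ Q) g₂) : IsQExp (iota ℂ (P * Q)) (g₁ * g₂) := by
  rw [map_mul]
  exact h₁.mul h₂

/-- `L²⁴ Δ⁴ Δ(q⁴)⁴ = Δ(q²)¹⁰`. -/
theorem L_pow_mul (hL : IsQExp (iota ℂ L) lam4) :
    L ^ 24 * (deltaInt ^ 4 * ex 4 deltaInt ^ 4) = ex 2 deltaInt ^ 10 := by
  have hd4 := isQExp_discriminant_scale 4
  have hd2 := isQExp_discriminant_scale 2
  have h1 := isQExp_iota_mul (isQExp_iota_pow hL 24)
    (isQExp_iota_mul (isQExp_iota_pow isQExp_discriminant 4) (isQExp_iota_pow hd4 4))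
  have h2 := isQExp_iota_pow hd2 10
  rw [lam4_pow_mul_fun] at h1
  exact iota_injective ℂ (h1.left_unique h2)

theorem A2_ne_zero : A2 ≠ 0 := by
  intro h
  have := tr_A2 0 (by norm_num)
  rw [h] at this
  simp at this

/-- `L²⁴ B4⁶ = B2¹²`, i.e. `lam4⁴ = B2² / B4`. -/
theorem L_pow_B4 (hL : IsQExp (iota ℂ L) lam4) : L ^ 24 * B4 ^ 6 = B2 ^ 12 := by
  have h := L_pow_mul hL
  have hD2 : ex 2 deltaInt = A2 * B2 ^ 2 := F2b
  have h1 := A2_mul_B4
  have h2 := F4b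
  rw [← B2_eq_A4_add] at h2
  rw [ex4_deltaInt, hD2, F2a] at h
  have key : (A2 ^ 10 * B2 ^ 8) * (L ^ 24 * B4 ^ 6) = (A2 ^ 10 * B2 ^ 8) * B2 ^ 12 := by
    have e1 : (A2 ^ 10 * B2 ^ 8) * (L ^ 24 * B4 ^ 6) =
        L ^ 24 * (A2 ^ 8 * B2 ^ 8 * (A2 * B4) ^ 2 * B4 ^ 4) := by ring
    have e2 : L ^ 24 * ((A2 ^ 2 * B2) ^ 4 * (A2' * B4 ^ 2) ^ 4) =
        L ^ 24 * (A2 ^ 8 * B2 ^ 4 * (A2' * B4) ^ 4 * B4 ^ 4) := by ring
    rw [e2, h2] at h
    rw [e1, h1]
    linear_combination h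
  exact mul_left_cancel₀ (mul_ne_zero (pow_ne_zero _ A2_ne_zero) (pow_ne_zero _ B2_ne_zero)) key

/-- A twelfth power determines a series with nonnegative constant coefficient `≥` ... -/
theorem eq_of_pow_twelve_eq {x y : PowerSeries ℤ} (hx : 0 < constantCoeff x)
    (hy : 0 ≤ constantCoeff y) (h : x ^ 12 = y ^ 12) : x = y := by
  have hsum := Commute.geom_sum₂_mul (Commute.all x y) 12
  rw [h, sub_self] at hsum
  rcases mul_eq_zero.mp hsum with h0 | h0
  · exfalso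
    have hc := congrArg constantCoeff h0
    rw [map_sum, map_zero] at hc
    have hpos : 0 < ∑ i ∈ Finset.range 12, constantCoeff (x ^ i * y ^ (12 - 1 - i)) := by
      apply Finset.sum_pos'
      · intro i _
        rw [map_mul, map_pow, map_pow]
        exact mul_nonneg (pow_nonneg hx.le _) (pow_nonneg hy _)
      · refine ⟨11, by simp, ?_⟩
        rw [map_mul, map_pow, map_pow]
        simpa using pow_pos hx 11
    rw [hc] at hpos
    exact lt_irrefl _ hpos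
  · exact sub_eq_zero.mp h0

theorem constantCoeff_P3 : constantCoeff P3 = 3 := by
  have := jtr_P3 0 (by norm_num)
  rw [PowerSeries.coeff_zero_eq_constantCoeff_apply] at this
  simpa using this

/-- **Jacobi's four square theorem** for the eta quotient:
`3 lam4² = 4 E₂(q⁴) - E₂(q)` on `q`-expansions. -/
theorem three_L_sq (hL : IsQExp (iota ℂ L) lam4) : PowerSeries.C (3 : ℤ) * L ^ 2 = P3 := by
  have h1 := L_pow_B4 hL
  have h2 := jac4_sq
  rw [← B2_eq_A4_add] at h2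
  have h3 : (PowerSeries.C (3 : ℤ) : PowerSeries ℤ) = 3 := by simp [map_ofNat]
  have h9 : (PowerSeries.C (9 : ℤ) : PowerSeries ℤ) = 9 := by simp [map_ofNat]
  rw [h9] at h2
  have key : B4 ^ 6 * P3 ^ 12 = B4 ^ 6 * (PowerSeries.C (3 : ℤ) * L ^ 2) ^ 12 := by
    rw [h3]
    have e1 : B4 ^ 6 * P3 ^ 12 = (P3 ^ 2 * B4) ^ 6 := by ring
    rw [e1, h2]
    linear_combination (-(531441 : PowerSeries ℤ)) * h1
  have h12 := mul_left_cancel₀ (pow_ne_zero 6 B4_ne_zero) key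
  refine (eq_of_pow_twelve_eq ?_ ?_ h12).symm
  · rw [constantCoeff_P3]; norm_num
  · rw [map_mul, map_pow, h3]
    have : (0 : ℤ) ≤ constantCoeff L ^ 2 := sq_nonneg _
    simp only [map_ofNat]
    positivity

/-- `θ t₄ = - t₄ lam4²` in the form `θA4 · B4 - A4 · θB4 = - A4 B4 L²`. -/
theorem theta_A4_B4 (hL : IsQExp (iota ℂ L) lam4) :
    th A4 * B4 - A4 * th B4 = -(A4 * B4 * L ^ 2) := by
  have h := theta_AB
  rw [← three_L_sq hL] at h
  have h3 : (PowerSeries.C (3 : ℤ) : PowerSeries ℤ) ≠ 0 := by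
    intro h0
    have := congrArg (PowerSeries.coeff 0) h0
    rw [PowerSeries.coeff_zero_C] at this
    simp at this
  apply mul_left_cancel₀ h3
  rw [h]
  ring

/-! ### The numerator `T = tNum4` of `tH4 = q⁻¹ T` -/

theorem th_X : th (X : PowerSeries ℤ) = X := by
  simp [th]

theorem tNum4_mul_B4 : tNum4 * B4 = X * A4 := by
  have hA : A4 = X * sh A4 := eq_X_mul_sh A4_c0
  have hB : B4 = X * sh B4 := eq_X_mul_sh B4_c0
  have hB' : sh B4 = X * sh (sh B4) := eq_X_mul_sh B4_c1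
  have hinv : sh (sh B4) * inv1 (sh (sh B4)) = 1 := mul_inv1 B4_c2
  have hBB : B4 = X * (X * sh (sh B4)) := by rw [← hB', ← hB]
  have key : ∀ S U a b : PowerSeries ℤ, S * U = 1 → b = X * (X * S) →
      a * U * b = X * (X * a) := by
    intro S U a b h1 h2
    rw [h2]
    linear_combination (X * X * a) * h1
  have h := key (sh (sh B4)) (inv1 (sh (sh B4))) (sh A4) B4 hinv hBB
  rw [← hA] at h
  exact h

/-- `θ T - T = - T L²` for `T = tNum4` (`tH4 = q⁻¹ T`): **`θ t₄ = - t₄ lam4²`**. -/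
theorem th_tNum4 (hL : IsQExp (iota ℂ L) lam4) : th tNum4 - tNum4 = -(tNum4 * L ^ 2) := by
  have h0 := tNum4_mul_B4
  have h1 := congrArg th h0
  rw [th_mul, th_mul, th_X] at h1
  have h2 := theta_A4_B4 hL
  have key : B4 ^ 2 * (th tNum4 - tNum4) = B4 ^ 2 * (-(tNum4 * L ^ 2)) := by
    linear_combination B4 * h1 + X * h2 + (-th B4 - B4 + B4 * L ^ 2) * h0
  exact mul_left_cancel₀ (pow_ne_zero 2 B4_ne_zero) key

end Fermat.Agent.T3.helper63
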