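/-
T3 / S36, [T3-MIDGEN-CORE] (helper67): the FORMAL core of the generator of the middle vertical
prime (helper63 #2229, helper22 #2198 (G3)).

`A` is a valuation subring of `ℚ̄` over the prime `q`, `μ` a primitive `q`-th root of unity,
`incl A`, `red A` the coefficientwise inclusion / reduction of Laurent series (P2 vocabulary),
`twistL μ` the substitution `t ↦ μ t` (helper93) and `thetaL = t d/dt`.

* `twist_sub`  : `twistL μ (incl Y) - incl Y = C (μ - 1) * incl V` with `red V = thetaL (red Y)`;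
* `wilson`     : `(μ - 1)^(q-1) = q * w`, `w ∈ A`, with residue `(-1)^q`;
* `twist_red`  : `twistL μ (incl Y) = incl Y'` with `red Y' = red Y`;
* `midCoreGen` : `(twistL μ t - t)^(q-1) * b * twistL μ b = C q * incl U` with
                 `red U = (-1)^q * (thetaL (red t))^(q-1) * (red b)^2`;
* `midCore`    : if moreover `thetaL (red t) = - red t * l^2` and `red b * l^(q-1) = 1`
                 (Jacobi four squares modulo `q` and `b = λ(t)/λ(t^q)`), then `red U = -(red t)^(q-1)`.
-/
import Mathlib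
import Fermat.Agent.P2.helper29_Interface
import Fermat.Agent.P2.helper93_ESNorm
import Fermat.Agent.P2.helper94_ESFormal
import Fermat.Agent.P2.helper66_HauptJ

set_option autoImplicit false
set_option linter.unusedSectionVars false
set_option linter.style.haveILetI false

noncomputable section

open HahnSeries ModularCurve
open Fermat.Agent.S18.helper19 Fermat.Agent.P2.helper29
open Fermat.Agent.P2.helper93 (twistL twistL_coeff)

namespace Fermat.Agent.T3.helper67

/-! ### The Euler operator `t d/dt` -/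

section Theta

variable {R S : Type*} [CommRing R] [CommRing S]

/-- The Euler operator `t d/dt` on Laurent series: the `k`-th coefficient is multiplied by `k`. -/
def thetaL (f : LaurentSeries R) : LaurentSeries R where
  coeff k := (k : R) * f.coeff k
  isPWO_support' := f.isPWO_support.mono fun k hk => by
    simp only [Function.mem_support, ne_eq] at hk ⊢
    exact fun h => hk (by rw [h, mul_zero])

@[simp]
theorem thetaL_coeff (f : LaurentSeries R) (k : ℤ) :
    (thetaL f).coeff k = (k : R) * f.coeff k := rfl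

theorem coeffMap_thetaL (φ : R →+* S) (f : LaurentSeries R) :
    coeffMap φ (thetaL f) = thetaL (coeffMap φ f) := by
  ext k
  simp

theorem thetaL_add (f g : LaurentSeries R) : thetaL (f + g) = thetaL f + thetaL g := by
  ext k
  simp [mul_add]

theorem thetaL_neg (f : LaurentSeries R) : thetaL (-f) = -thetaL f := by
  ext k
  simp

theorem thetaL_zero : thetaL (0 : LaurentSeries R) = 0 := by
  ext k
  simp

end Theta

/-! ### Cyclotomic arithmetic in `A` -/

section Cyc

variable {q : ℕ} (hq : q.Prime) (A : ValuationSubring Kb) (hA : A.LiesOverPrime q)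
  {μ : Kb} (hμ : IsPrimitiveRoot μ q)

include hq hμ in
theorem mu_mem : μ ∈ A := by
  have h1 : A.valuation μ = 1 := by
    have h : A.valuation (μ ^ q) = 1 := by rw [hμ.pow_eq_one, map_one]
    rw [map_pow] at h
    exact (pow_eq_one_iff_of_nonneg zero_le hq.ne_zero).mp h
  exact (A.valuation_le_one_iff μ).mp h1.le

include hq hA in
theorem residue_q : ((q : ℕ) : kA A) = 0 := by
  have h1 : ((q : ℕ) : A) ∈ IsLocalRing.maximalIdeal A := by
    rw [ValuationSubring.valuation_lt_one_iff]
    have h2 : A.valuation ((q : ℕ) : Kb) < 1 := A.mem_nonunits_iff.mp hA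
    simpa using h2
  have h3 : IsLocalRing.residue A ((q : ℕ) : A) = 0 :=
    (IsLocalRing.residue_eq_zero_iff _).mpr h1
  simpa using h3

include hq hA in
theorem charP_kA : CharP (kA A) q :=
  (CharP.charP_iff_prime_eq_zero hq).2 (residue_q hq A hA)

include hq hA hμ in
theorem residue_mu : IsLocalRing.residue A ⟨μ, mu_mem hq A hμ⟩ = 1 := by
  haveI : Fact q.Prime := ⟨hq⟩
  haveI : CharP (kA A) q := charP_kA hq A hA
  set z : kA A := IsLocalRing.residue A ⟨μ, mu_mem hq A hμ⟩ with hz
  have h1 : z ^ q = 1 := by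
    rw [hz, ← map_pow]
    have : (⟨μ, mu_mem hq A hμ⟩ : A) ^ q = 1 := by
      apply Subtype.ext
      simp [hμ.pow_eq_one]
    rw [this, map_one]
  have h2 : (z - 1) ^ q = 0 := by
    rw [sub_pow_char, h1, one_pow, sub_self]
  exact sub_eq_zero.mp (pow_eq_zero_iff hq.ne_zero |>.mp h2)

/-- the geometric sums `1 + μ + ⋯ + μ^(m-1)`, `m = k mod q`, as elements of `A` -/
def gsum (q : ℕ) (A : ValuationSubring Kb) (μA : A) (k : ℤ) : A :=
  ∑ i ∈ Finset.range (k % (q : ℤ)).toNat, μA ^ i

include hq hA hμ in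
theorem residue_gsum (k : ℤ) :
    IsLocalRing.residue A (gsum q A ⟨μ, mu_mem hq A hμ⟩ k) = ((k : ℤ) : kA A) := by
  haveI : CharP (kA A) q := charP_kA hq A hA
  have hq0 : ((q : ℕ) : ℤ) ≠ 0 := by exact_mod_cast hq.ne_zero
  rw [gsum, map_sum]
  simp only [map_pow, residue_mu hq A hA hμ, one_pow, Finset.sum_const, Finset.card_range,
    nsmul_eq_mul, mul_one]
  have h1 : (((k % (q : ℤ)).toNat : ℕ) : ℤ) = k % (q : ℤ) :=
    Int.toNat_of_nonneg (Int.emod_nonneg k hq0)
  have h2 : (((k % (q : ℤ)).toNat : ℕ) : kA A) = ((k % (q : ℤ) : ℤ) : kA A) := by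
    conv_rhs => rw [← h1]
    rw [Int.cast_natCast]
  rw [h2]
  have h3 : k = k % (q : ℤ) + (q : ℤ) * (k / (q : ℤ)) := (Int.emod_add_mul_ediv k q).symm
  conv_rhs => rw [h3]
  push_cast
  rw [CharP.cast_eq_zero (kA A) q, zero_mul, add_zero]

include hq hμ in
theorem zpow_eq_pow (k : ℤ) : μ ^ k = μ ^ (k % (q : ℤ)).toNat := by
  have hq0 : ((q : ℕ) : ℤ) ≠ 0 := by exact_mod_cast hq.ne_zero
  have hμ0 : μ ≠ 0 := hμ.ne_zero hq.ne_zero
  have h1 : (((k % (q : ℤ)).toNat : ℕ) : ℤ) = k % (q : ℤ) :=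
    Int.toNat_of_nonneg (Int.emod_nonneg k hq0)
  have h3 : k = k % (q : ℤ) + (q : ℤ) * (k / (q : ℤ)) := (Int.emod_add_mul_ediv k q).symm
  have key : μ ^ k = μ ^ (k % (q : ℤ)) := by
    conv_lhs => rw [h3]
    rw [zpow_add₀ hμ0, zpow_mul, zpow_natCast, hμ.pow_eq_one, one_zpow, mul_one]
  rw [key]
  conv_lhs => rw [← h1]
  exact zpow_natCast _ _

include hq hμ in
theorem zpow_sub_one (k : ℤ) :
    μ ^ k - 1 = (μ - 1) * ((gsum q A ⟨μ, mu_mem hq A hμ⟩ k : A) : Kb) := by
  rw [zpow_eq_pow hq hμ k, gsum]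
  push_cast
  rw [mul_geom_sum]

end Cyc

/-! ### The twist `t ↦ μ t` on integral series -/

section Twist

variable {q : ℕ} (hq : q.Prime) (A : ValuationSubring Kb) (hA : A.LiesOverPrime q)
  {μ : Kb} (hμ : IsPrimitiveRoot μ q)

/-- the series `∑ [k]_μ a_k t^k` (`[k]_μ = 1 + μ + ⋯ + μ^(k mod q - 1)`) -/
def divSeries (q : ℕ) (A : ValuationSubring Kb) (μA : A) (Y : LaurentSeries A) :
    LaurentSeries A where
  coeff k := gsum q A μA k * Y.coeff k
  isPWO_support' := Y.isPWO_support.mono fun k hk => by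
    simp only [Function.mem_support, ne_eq] at hk ⊢
    exact fun h => hk (by rw [h, mul_zero])

/-- the series `∑ μ^k a_k t^k` with coefficients in `A` -/
def twistSeries (q : ℕ) (A : ValuationSubring Kb) (μA : A) (Y : LaurentSeries A) :
    LaurentSeries A where
  coeff k := μA ^ (k % (q : ℤ)).toNat * Y.coeff k
  isPWO_support' := Y.isPWO_support.mono fun k hk => by
    simp only [Function.mem_support, ne_eq] at hk ⊢
    exact fun h => hk (by rw [h, mul_zero])

include hq hμ in
/-- **twist = identity + (μ - 1) · (integral series)** -/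
theorem twist_sub (Y : LaurentSeries A) :
    twistL μ (incl A Y) - incl A Y
      = HahnSeries.C (μ - 1) * incl A (divSeries q A ⟨μ, mu_mem hq A hμ⟩ Y) := by
  ext k
  rw [HahnSeries.coeff_sub, twistL_coeff, C_mul_eq_smul, HahnSeries.coeff_smul, coeffMap_coeff,
    coeffMap_coeff, smul_eq_mul]
  show μ ^ k * ((Y.coeff k : A) : Kb) - ((Y.coeff k : A) : Kb)
    = (μ - 1) * (((gsum q A ⟨μ, mu_mem hq A hμ⟩ k * Y.coeff k : A)) : Kb)
  push_cast
  rw [← mul_assoc, ← zpow_sub_one hq A hμ k]
  ring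

include hq hA hμ in
/-- the reduction of the quotient `(twist - id)/(μ - 1)` is the Euler derivative -/
theorem red_divSeries (Y : LaurentSeries A) :
    red A (divSeries q A ⟨μ, mu_mem hq A hμ⟩ Y) = thetaL (red A Y) := by
  ext k
  rw [coeffMap_coeff, thetaL_coeff, coeffMap_coeff]
  show IsLocalRing.residue A (gsum q A ⟨μ, mu_mem hq A hμ⟩ k * Y.coeff k) = _
  rw [map_mul, residue_gsum hq A hA hμ k]

include hq hμ in
/-- the twist of an integral series is integral -/
theorem twist_incl (Y : LaurentSeries A) :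
    twistL μ (incl A Y) = incl A (twistSeries q A ⟨μ, mu_mem hq A hμ⟩ Y) := by
  ext k
  rw [twistL_coeff, coeffMap_coeff, coeffMap_coeff]
  show μ ^ k * ((Y.coeff k : A) : Kb)
    = (((⟨μ, mu_mem hq A hμ⟩ : A) ^ (k % (q : ℤ)).toNat * Y.coeff k : A) : Kb)
  push_cast
  rw [zpow_eq_pow hq hμ k]

include hq hA hμ in
/-- the twist does not change the reduction -/
theorem red_twistSeries (Y : LaurentSeries A) :
    red A (twistSeries q A ⟨μ, mu_mem hq A hμ⟩ Y) = red A Y := by
  ext k
  rw [coeffMap_coeff, coeffMap_coeff]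
  show IsLocalRing.residue A ((⟨μ, mu_mem hq A hμ⟩ : A) ^ (k % (q : ℤ)).toNat * Y.coeff k) = _
  rw [map_mul, map_pow, residue_mu hq A hA hμ, one_pow, one_mul]

end Twist

/-! ### Wilson -/

section Wilson

variable {q : ℕ} (hq : q.Prime) (A : ValuationSubring Kb) (hA : A.LiesOverPrime q)
  {μ : Kb} (hμ : IsPrimitiveRoot μ q)

include hq hA in
theorem factorial_residue : (((q - 1).factorial : ℕ) : kA A) = -1 := by
  haveI : Fact q.Prime := ⟨hq⟩
  haveI : CharP (kA A) q := charP_kA hq A hA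
  have h := congrArg (ZMod.castHom (dvd_refl q) (kA A)) (ZMod.wilsons_lemma (p := q))
  rw [map_neg, map_one, map_natCast] at h
  exact h

include hq hA hμ in
/-- **Wilson**: `(μ - 1)^(q-1) = q · w` with `w ∈ A` of residue `(-1)^q`. -/
theorem wilson : ∃ w : A, (μ - 1) ^ (q - 1) = ((q : ℕ) : Kb) * (w : Kb) ∧
    IsLocalRing.residue A w = (-1) ^ q := by
  obtain ⟨n, rfl⟩ : ∃ n, q = n + 1 := ⟨q - 1, (Nat.succ_pred_eq_of_pos hq.pos).symm⟩
  set μA : A := ⟨μ, mu_mem hq A hμ⟩ with hμA
  -- the product of the geometric sums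
  set P : A := ∏ j ∈ Finset.range n, ∑ i ∈ Finset.range (j + 1), μA ^ i with hP
  have hres : IsLocalRing.residue A P = -1 := by
    rw [hP, map_prod]
    have h1 : ∀ j ∈ Finset.range n,
        IsLocalRing.residue A (∑ i ∈ Finset.range (j + 1), μA ^ i) = (((j + 1 : ℕ)) : kA A) := by
      intro j _
      rw [map_sum]
      simp only [map_pow, hμA, residue_mu hq A hA hμ, one_pow, Finset.sum_const,
        Finset.card_range, nsmul_eq_mul, mul_one]
    rw [Finset.prod_congr rfl h1, ← Nat.cast_prod, Finset.prod_range_add_one_eq_factorial]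
    have := factorial_residue hq A hA
    simpa using this
  have hunit : IsUnit P := by
    rw [← IsLocalRing.residue_ne_zero_iff_isUnit, hres]
    exact neg_ne_zero.mpr one_ne_zero
  obtain ⟨u, hu⟩ := hunit
  have hprod := hμ.prod_pow_sub_one_eq_order
  have hfac : ∏ k ∈ Finset.range n, (μ ^ (k + 1) - 1) = (μ - 1) ^ n * (P : Kb) := by
    rw [hP]
    push_cast
    rw [show (μ - 1) ^ n = ∏ _k ∈ Finset.range n, (μ - 1) by
      rw [Finset.prod_const, Finset.card_range], ← Finset.prod_mul_distrib]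
    refine Finset.prod_congr rfl fun j _ => ?_
    rw [hμA]
    exact (mul_geom_sum μ (j + 1)).symm
  rw [hfac] at hprod
  have hPu : (P : Kb) * ((↑(u⁻¹) : A) : Kb) = 1 := by
    have h : P * (↑(u⁻¹) : A) = 1 := by rw [← hu]; exact u.mul_inv
    have := congrArg (fun x : A => (x : Kb)) h
    simpa using this
  refine ⟨(-1) ^ n * (↑(u⁻¹) : A), ?_, ?_⟩
  · have hsq : ((-1 : Kb) ^ n) * ((-1 : Kb) ^ n) = 1 := by
      rw [← mul_pow]; simp
    have hq' : (((n + 1 : ℕ)) : Kb) = (n : Kb) + 1 := by push_cast; rfl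
    rw [Nat.add_sub_cancel, hq', ← hprod]
    push_cast
    calc (μ - 1) ^ n = (μ - 1) ^ n * (((-1 : Kb) ^ n) * ((-1 : Kb) ^ n))
          * ((P : Kb) * ((↑(u⁻¹) : A) : Kb)) := by rw [hsq, hPu, mul_one, mul_one]
      _ = _ := by ring
  · have hinv : IsLocalRing.residue A (↑(u⁻¹) : A) = -1 := by
      have h : IsLocalRing.residue A P * IsLocalRing.residue A (↑(u⁻¹) : A) = 1 := by
        rw [← map_mul, ← hu, Units.mul_inv, map_one]
      rw [hres] at h
      have : IsLocalRing.residue A (↑(u⁻¹) : A) = -(-1 * IsLocalRing.residue A (↑(u⁻¹) : A)) := by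
        ring
      rw [this, h]
    rw [map_mul, map_pow, map_neg, map_one, hinv, pow_succ]

end Wilson

/-! ### The core -/

section Core

variable {q : ℕ} (hq : q.Prime) (A : ValuationSubring Kb) (hA : A.LiesOverPrime q)
  {μ : Kb} (hμ : IsPrimitiveRoot μ q)

theorem incl_C (w : A) : incl A (HahnSeries.C w) = HahnSeries.C (w : Kb) := by
  rw [HahnSeries.C_apply, HahnSeries.C_apply]
  exact coeffMap_single _ _ _

theorem red_C (w : A) : red A (HahnSeries.C w) = HahnSeries.C (IsLocalRing.residue A w) := by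
  rw [HahnSeries.C_apply, HahnSeries.C_apply]
  exact coeffMap_single _ _ _

include hq hA hμ in
/-- **[T3-MIDGEN-CORE], general form.** For integral series `t`, `b` the series
`(t(μ·) - t)^(q-1) · b · b(μ·)` is `q` times an integral series `U`, and
`red U = (-1)^q (θ t̄)^(q-1) b̄²`. -/
theorem midCoreGen (t b : LaurentSeries A) :
    ∃ U : LaurentSeries A,
      (twistL μ (incl A t) - incl A t) ^ (q - 1) * incl A b * twistL μ (incl A b)
        = HahnSeries.C ((q : ℕ) : Kb) * incl A U ∧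
      red A U = (-1) ^ q * thetaL (red A t) ^ (q - 1) * red A b ^ 2 := by
  obtain ⟨w, hw, hwres⟩ := wilson hq A hA hμ
  set μA : A := ⟨μ, mu_mem hq A hμ⟩ with hμA
  refine ⟨HahnSeries.C w * divSeries q A μA t ^ (q - 1) * b * twistSeries q A μA b, ?_, ?_⟩
  · rw [twist_sub hq A hμ t, twist_incl hq A hμ b, mul_pow, ← map_pow, hw, map_mul, map_mul,
      map_mul, map_mul, map_pow, incl_C]
    ring
  · rw [map_mul, map_mul, map_mul, map_pow, red_C, hwres, red_divSeries hq A hA hμ t,
      red_twistSeries hq A hA hμ b, map_pow, map_neg, map_one]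
    ring

include hq hA hμ in
/-- **[T3-MIDGEN-CORE].** If moreover `θ t̄ = - t̄ l²` (Jacobi four squares modulo `q`) and
`b̄ l^(q-1) = 1` (`b = λ(t)/λ(t^q)`), then `red U = - t̄^(q-1)`. -/
theorem midCore (t b : LaurentSeries A) (l : LaurentSeries (kA A))
    (hθ : thetaL (red A t) = -(red A t * l ^ 2)) (hb : red A b * l ^ (q - 1) = 1) :
    ∃ U : LaurentSeries A,
      (twistL μ (incl A t) - incl A t) ^ (q - 1) * incl A b * twistL μ (incl A b)
        = HahnSeries.C ((q : ℕ) : Kb) * incl A U ∧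
      red A U = -(red A t) ^ (q - 1) := by
  obtain ⟨U, hU, hred⟩ := midCoreGen hq A hA hμ t b
  refine ⟨U, hU, ?_⟩
  obtain ⟨n, rfl⟩ : ∃ n, q = n + 1 := ⟨q - 1, (Nat.succ_pred_eq_of_pos hq.pos).symm⟩
  rw [Nat.add_sub_cancel] at hred hb ⊢
  rw [hred, hθ]
  have hsq : ((-1 : LaurentSeries (kA A)) ^ n) * ((-1 : LaurentSeries (kA A)) ^ n) = 1 := by
    rw [← mul_pow]; simp
  calc (-1 : LaurentSeries (kA A)) ^ (n + 1) * (-(red A t * l ^ 2)) ^ n * red A b ^ 2
      = -(((-1 : LaurentSeries (kA A)) ^ n * (-1 : LaurentSeries (kA A)) ^ n)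
          * (red A t) ^ n * (red A b * l ^ n) ^ 2) := by
        rw [neg_pow (red A t * l ^ 2) n]; ring
    _ = -(red A t) ^ n := by rw [hsq, hb]; ring

include hq hA hμ in
/-- **[T3-MIDGEN-CORE] at the middle cusp `k`** (`ζ` primitive, `q ∤ k`). -/
theorem midCore_pow {k : ℕ} (hk : ¬ q ∣ k) (t b : LaurentSeries A) (l : LaurentSeries (kA A))
    (hθ : thetaL (red A t) = -(red A t * l ^ 2)) (hb : red A b * l ^ (q - 1) = 1) :
    ∃ U : LaurentSeries A,
      (twistL (μ ^ k) (incl A t) - incl A t) ^ (q - 1) * incl A b * twistL (μ ^ k) (incl A b)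
        = HahnSeries.C ((q : ℕ) : Kb) * incl A U ∧
      red A U = -(red A t) ^ (q - 1) :=
  midCore hq A hA (hμ.pow_of_coprime k ((Nat.Prime.coprime_iff_not_dvd hq).mpr hk).symm) t b l
    hθ hb

end Core

/-! ### Discharging the hypothesis on `b`: `B · L(t^q) = L` gives `b̄ · l̄^(q-1) = 1` -/

section Frob

open Fermat.Agent.P2.helper66 (iota ex iota_ex coeffMap_iota)

variable {q : ℕ} (hq : q.Prime) (A : ValuationSubring Kb) (hA : A.LiesOverPrime q)

theorem incl_iota (P : PowerSeries ℤ) : incl A (iota A P) = iota Kb P := coeffMap_iota _ P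

theorem red_iota (P : PowerSeries ℤ) : red A (iota A P) = iota (kA A) P := coeffMap_iota _ P

include hq hA in
/-- in characteristic `q`: `L(t^q) = L^q` for a series with integer coefficients -/
theorem iota_ex_char (L : PowerSeries ℤ) : iota (kA A) (ex q L) = iota (kA A) L ^ q := by
  haveI : Fact q.Prime := ⟨hq⟩
  haveI : NeZero q := ⟨hq.ne_zero⟩
  haveI : CharP (kA A) q := charP_kA hq A hA
  rw [iota_ex, Fermat.Agent.P2.helper94.laurent_pow_char q (iota (kA A) L), coeffMap_iota]

include hq hA in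
/-- `B · L(t^q) = L`, `L(0) = 1` ⟹ `B̄ · L̄^(q-1) = 1` -/
theorem red_unit_of_ex {B L : PowerSeries ℤ} (hL : PowerSeries.constantCoeff L = 1)
    (hBL : B * ex q L = L) :
    red A (iota A B) * iota (kA A) L ^ (q - 1) = 1 := by
  have h1 : iota (kA A) B * iota (kA A) L ^ q = iota (kA A) L := by
    rw [← iota_ex_char hq A hA, ← map_mul, hBL]
  have hne : iota (kA A) L ≠ 0 := by
    intro h0
    have h2 := congrArg (fun x : LaurentSeries (kA A) => x.coeff ((0 : ℕ) : ℤ)) h0
    simp only [Fermat.Agent.P2.helper66.coeff_iota_natCast, HahnSeries.coeff_zero] at h2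
    rw [PowerSeries.coeff_zero_eq_constantCoeff_apply, hL] at h2
    simp at h2
  obtain ⟨n, rfl⟩ : ∃ n, q = n + 1 := ⟨q - 1, (Nat.succ_pred_eq_of_pos hq.pos).symm⟩
  rw [Nat.add_sub_cancel, red_iota]
  rw [pow_succ, ← mul_assoc] at h1
  exact mul_right_cancel₀ hne (by rw [h1, one_mul])

end Frob

end Fermat.Agent.T3.helper67

end
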