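import Mathlib
import Fermat.Agent.T3.helper63_Jac4Lam
import Fermat.Agent.T3.helper67_MidCore

/-!
# T3 / [T3-JAC4] (helper63), part 5: `θ t₄ = - t₄ λ²` over every ring, and the middle generator

For every integral `q`-expansion `L` of `lam4` (`IsQExp (iota ℂ L) lam4`) and every commutative
ring `R`:

* `thetaL_tH4 : thetaL (tH4 R) = -(tH4 R * (iota R L) ^ 2)`   (hypothesis `hθ` of
  `helper67.midCore`);
* `midGen_tH4` : for `A` over the prime `q`, `μ` a primitive `q`-th root of unity, `q ∤ k`, and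
  `B ∈ ℤ⟦t⟧` with `B · L(t^q) = L`, `L(0) = 1` (the expansion of `b₀ = lam4(τ)/lam4(qτ)`):
  `(t₄(μᵏ t) - t₄(t))^(q-1) · B(t) · B(μᵏ t) = q · U` with `U` integral and
  `red U = - t̄₄^(q-1)`: **no zero off the cusps**.
-/

set_option autoImplicit false

noncomputable section

namespace Fermat.Agent.T3.helper63

open HahnSeries ModularCurve
open Fermat.Agent.S18.helper19 Fermat.Agent.P2.helper29
open Fermat.Agent.P2.helper93 (twistL)
open Fermat.Agent.P2.helper66
open Fermat.Agent.S24.helper17 (IsQExp)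
open Fermat.Agent.T3.helper16 (lam4)
open Fermat.Agent.T3.helper67 (thetaL thetaL_coeff)

variable {L : PowerSeries ℤ}

/-- **`θ t₄ = - t₄ λ²`** over every commutative ring. -/
theorem thetaL_tH4 (R : Type*) [CommRing R] (hL : IsQExp (iota ℂ L) lam4) :
    thetaL (tH4 R) = -(tH4 R * (iota R L) ^ 2) := by
  have h := th_tNum4 hL
  have e : tH4 R * (iota R L) ^ 2 =
      HahnSeries.single (-1 : ℤ) (1 : R) * iota R (tNum4 * L ^ 2) := by
    rw [tH4, map_mul, map_pow]
    ring
  rw [e]
  ext k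
  rw [thetaL_coeff, HahnSeries.coeff_neg, tH4, coeff_single_neg_one_mul,
    coeff_single_neg_one_mul]
  rcases lt_or_ge (k + 1) 0 with hk | hk
  · rw [coeff_iota_of_neg _ _ hk, coeff_iota_of_neg _ _ hk]
    simp
  · obtain ⟨m, hm⟩ := Int.eq_ofNat_of_zero_le hk
    rw [hm, coeff_iota_natCast, coeff_iota_natCast]
    have hc := congrArg (PowerSeries.coeff m) h
    rw [map_sub, coeff_th, map_neg] at hc
    have hk' : (k : R) = (m : R) - 1 := by
      have : k = (m : ℤ) - 1 := by omega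
      rw [this]
      push_cast
      ring
    rw [hk']
    have hc' := congrArg (Int.cast : ℤ → R) hc
    push_cast at hc'
    linear_combination hc'

section Mid

variable {q : ℕ} (hq : q.Prime) (A : ValuationSubring Kb) (hA : A.LiesOverPrime q)
  {μ : Kb} (hμ : IsPrimitiveRoot μ q)

include hq hA hμ in
/-- **The middle generator** (formal form of [T3-MIDGEN]): with `t = t₄`, `B = L / L(t^q)`,
`(t(μᵏ·) - t)^(q-1) · B · B(μᵏ·) = q · U`, `U` integral, `red U = - t̄^(q-1)`. -/
theorem midGen_tH4 (hL : IsQExp (iota ℂ L) lam4) (hL0 : PowerSeries.constantCoeff L = 1)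
    {B : PowerSeries ℤ} (hBL : B * ex q L = L) {k : ℕ} (hk : ¬ q ∣ k) :
    ∃ U : LaurentSeries A,
      (twistL (μ ^ k) (tH4 Kb) - tH4 Kb) ^ (q - 1) * iota Kb B * twistL (μ ^ k) (iota Kb B)
        = HahnSeries.C ((q : ℕ) : Kb) * incl A U ∧
      red A U = -(tH4 (kA A)) ^ (q - 1) := by
  have hθ : thetaL (red A (tH4 A)) = -(red A (tH4 A) * (iota (kA A) L) ^ 2) := by
    rw [show red A (tH4 A) = tH4 (kA A) from coeffMap_tH4 _]
    exact thetaL_tH4 (kA A) hL
  have hb : red A (iota A B) * (iota (kA A) L) ^ (q - 1) = 1 :=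
    Fermat.Agent.T3.helper67.red_unit_of_ex hq A hA hL0 hBL
  obtain ⟨U, hU, hred⟩ := Fermat.Agent.T3.helper67.midCore_pow hq A hA hμ hk (tH4 A) (iota A B)
    (iota (kA A) L) hθ hb
  refine ⟨U, ?_, ?_⟩
  · rw [show incl A (tH4 A) = tH4 Kb from coeffMap_tH4 _,
      show incl A (iota A B) = iota Kb B from coeffMap_iota _ B] at hU
    exact hU
  · rw [hred, show red A (tH4 A) = tH4 (kA A) from coeffMap_tH4 _]

end Mid

end Fermat.Agent.T3.helper63
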