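import Mathlib
import Fermat.Agent.T3.helper63_Jac4Mid
import Fermat.Agent.T3.helper16_UnitGrow
import Fermat.Agent.T3.helper98_DgTable
import Fermat.Agent.P2.helper66_HauptMem
import Fermat.Agent.P2.helper28_CuspReg
import Fermat.Agent.T2.helper87_RegRed2

/-!
# T3 / [T3-MIDGEN] (helper63): the generator of the middle vertical prime, in `ex3` vocabulary

Level `N q q`, `q` an odd prime, `q ∤ N`, `4 ∣ N`, `A` a valuation subring of `ℚ̄` over `q`, `ζ` a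
primitive `q`-th root of unity.  With `t = t₄ ∈ F_N` (Hauptmodul of level `4`) and the weight-one
unit `b₀ ∈ F_{Nq}` (`b₀ = lam4(τ)/lam4(qτ)`, expansion `B`, `W_q b₀ · b₀ = ε q`, `ε = ± 1`):

* `zMid  = dg2 t - dg0 t = t(q² τ) - t(τ)`;
* `gMid  = zMid^(q-2) · α₂ b₀ · (β₂ b₀)⁻¹`;
* `uMid  = zMid · gMid = zMid^(q-1) · α₂ b₀ · (β₂ b₀)⁻¹`.

Table (`Fr x = x(t^q)`):

| | `∞` (`ex3 0`) | `0` (`ex3 1`) | middle (`ex3 2`) |
|---|---|---|---|
| `zMid` | `Fr² t - t` | `t - Fr² t` | `t(ζ·) - t = (ζ - 1) · V`, `red V = θ t̄` |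
| `uMid` | `(Fr² t - t)^(q-1) B / Fr B` | `(t - Fr² t)^(q-1) B / Fr B` | `ε · U`, `red U = - t̄^(q-1)` |
| `gMid` | `(Fr² t - t)^(q-2) B / Fr B` | `(t - Fr² t)^(q-2) B / Fr B` | `G' / (ζ - 1)`, `G'` integral |
-/

set_option autoImplicit false
set_option synthInstance.maxHeartbeats 400000
set_option maxHeartbeats 1000000
set_option linter.unusedSectionVars false
set_option linter.unusedVariables false
set_option linter.style.haveILetI false
set_option linter.style.longLine false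

noncomputable section

open HahnSeries IntermediateField AlgebraicCurve ModularCurve
open Fermat.Agent.S18.helper19 Fermat.Agent.P2.helper29 Fermat.Agent.T2.helper36

namespace Fermat.Agent.T3.helper63

open Fermat.Agent.P2.helper93 (twistL twistL_coeff)
open Fermat.Agent.P2.helper66
open Fermat.Agent.S24.helper17 (IsQExp)
open Fermat.Agent.T3.helper16 (lam4)
open Fermat.Agent.T3.helper67 (thetaL thetaL_coeff)
open Fermat.Agent.T3.helper74 (ex3 IsFixI IsInt3 midOne midOne_ne dg0 dg1 dg2)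

/-! ### the Hauptmodul `t₄` as an element of `F_N` -/

section T4

variable (N : ℕ) [NeZero N]

/-- `t₄ ∈ F_N` for `4 ∣ N`. -/
theorem tH4_mem_FF (h4 : 4 ∣ N) : tH4 Kb ∈ FF N := by
  rw [Fermat.Agent.P2.helper28.FF_eq_fullC]
  exact tH4_mem Kb two_ne_zero N h4

/-- `t₄` as an element of `F_N`. -/
def t4F (h4 : 4 ∣ N) : FF N := ⟨tH4 Kb, tH4_mem_FF N h4⟩

theorem coe_t4F (h4 : 4 ∣ N) : ((t4F N h4 : FF N) : LaurentSeries Kb) = tH4 Kb := rfl

/-- `t₄` is fixed by the whole Galois group, in particular by the inertia group. -/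
theorem isFixI_t4F (A : ValuationSubring Kb) (h4 : 4 ∣ N) : IsFixI A N (t4F N h4) := by
  intro σ _
  apply Subtype.ext
  rw [coe_arithmeticRingAut_apply, coe_t4F]
  exact coeffMap_tH4 _

/-- the integral model of `t₄` -/
theorem incl_tH4 (A : ValuationSubring Kb) : incl A (tH4 A) = tH4 Kb := coeffMap_tH4 _

theorem red_tH4 (A : ValuationSubring Kb) : red A (tH4 A) = tH4 (kA A) := coeffMap_tH4 _

end T4


/-! ### formal series: `Fr² t - t` and `B / Fr B` -/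

section Formal

variable (R : Type*) [CommRing R] (q : ℕ) [NeZero q]

/-- `Fr² t₄ - t₄ = t₄(t^(q²)) - t₄(t)` -/
def zQ : LaurentSeries R := qExpand R q (qExpand R q (tH4 R)) - tH4 R

/-- `B / Fr B = B(t) / B(t^q)` -/
def rQ (B : PowerSeries ℤ) : LaurentSeries R := iota R B * qExpand R q (iota R (inv1 B))

variable {R}

theorem coeffMap_zQ {S : Type*} [CommRing S] (φ : R →+* S) : coeffMap φ (zQ R q) = zQ S q := by
  rw [zQ, zQ, map_sub, Fermat.Agent.P2.helper94.coeffMap_qExpand,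
    Fermat.Agent.P2.helper94.coeffMap_qExpand, coeffMap_tH4]

theorem coeffMap_rQ {S : Type*} [CommRing S] (φ : R →+* S) (B : PowerSeries ℤ) :
    coeffMap φ (rQ R q B) = rQ S q B := by
  rw [rQ, rQ, map_mul, Fermat.Agent.P2.helper94.coeffMap_qExpand, coeffMap_iota, coeffMap_iota]

theorem iota_mul_inv1 {B : PowerSeries ℤ} (hB0 : PowerSeries.constantCoeff B = 1) :
    iota R B * iota R (inv1 B) = 1 := by
  have h : PowerSeries.coeff 0 B = 1 := by
    rw [PowerSeries.coeff_zero_eq_constantCoeff_apply, hB0]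
  rw [← map_mul, mul_inv1 h, map_one]

/-- `(B / Fr B) · Fr B = B` -/
theorem rQ_mul {B : PowerSeries ℤ} (hB0 : PowerSeries.constantCoeff B = 1) :
    rQ R q B * qExpand R q (iota R B) = iota R B := by
  rw [rQ, mul_assoc, ← map_mul, mul_comm (iota R (inv1 B)), iota_mul_inv1 hB0, map_one, mul_one]

end Formal

/-! ### the generator `Z = t(q² τ) - t(τ)` -/

section Z

variable {N q : ℕ} [NeZero N] [NeZero q] {hq : q.Prime} {hqN : ¬ q ∣ N}

/-- `Z = dg2 t₄ - dg0 t₄ = t₄(q² τ) - t₄(τ)`. -/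
def zMid (N q : ℕ) [NeZero N] [NeZero q] (h4 : 4 ∣ N) : FF (N * q * q) :=
  dg2 N q (t4F N h4) - dg0 N q (t4F N h4)

theorem isFixI_zMid (A : ValuationSubring Kb) (h4 : 4 ∣ N) :
    IsFixI A (N * q * q) (zMid N q h4) := by
  intro σ hσ
  rw [zMid, map_sub, Fermat.Agent.T3.helper98.isFixI_dg2 A (isFixI_t4F N A h4) σ hσ,
    Fermat.Agent.T3.helper98.isFixI_dg0 A (isFixI_t4F N A h4) σ hσ]

theorem ex3_zero_zMid {ζ : Kb} (hζ : IsPrimitiveRoot ζ q) (h4 : 4 ∣ N) :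
    ex3 N q hq hqN hζ 0 (zMid N q h4) = zQ Kb q := by
  rw [zMid, map_sub, Fermat.Agent.T3.helper98.ex3_zero_dg2,
    Fermat.Agent.T3.helper98.ex3_zero_dg0, coe_t4F, zQ]

theorem ex3_one_zMid {ζ : Kb} (hζ : IsPrimitiveRoot ζ q) (h4 : 4 ∣ N) :
    ex3 N q hq hqN hζ 1 (zMid N q h4) = -zQ Kb q := by
  rw [zMid, map_sub, Fermat.Agent.T3.helper98.ex3_one_dg2,
    Fermat.Agent.T3.helper98.ex3_one_dg0, coe_t4F, zQ, neg_sub]

theorem ex3_two_zMid {ζ : Kb} (hζ : IsPrimitiveRoot ζ q) (h4 : 4 ∣ N) :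
    ex3 N q hq hqN hζ 2 (zMid N q h4) = twistL ζ (tH4 Kb) - tH4 Kb := by
  rw [zMid, map_sub, Fermat.Agent.T3.helper98.ex3_two_dg2,
    Fermat.Agent.T3.helper98.ex3_two_dg0, coe_t4F, pow_one]

end Z


/-! ### the weight-one unit `b₀` and the quotient `α₂ b₀ / β₂ b₀` -/

section Unit

variable {N q : ℕ} [NeZero N] [NeZero q] {hq : q.Prime} {hqN : ¬ q ∣ N}
variable {B : PowerSeries ℤ} (hB : iota Kb B ∈ FF (N * q))

/-- the expansion of `W_q b₀` : `ε q / B`. -/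
theorem coe_atkinLehner_unit (hB0 : PowerSeries.constantCoeff B = 1) {ε : Kb}
    (hW : atkinLehner N q hq hqN ⟨_, hB⟩ * ⟨_, hB⟩
      = algebraMap Kb (FF (N * q)) (ε * (q : Kb))) :
    ((atkinLehner N q hq hqN ⟨_, hB⟩ : FF (N * q)) : LaurentSeries Kb)
      = HahnSeries.C (ε * (q : Kb)) * iota Kb (inv1 B) := by
  have h1 := congrArg (fun x : FF (N * q) => (x : LaurentSeries Kb)) hW
  have h2 : ((atkinLehner N q hq hqN ⟨_, hB⟩ : FF (N * q)) : LaurentSeries Kb) * iota Kb B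
      = HahnSeries.C (ε * (q : Kb)) := by
    rw [← Fermat.Agent.S24.helper77.algebraMap_eq_C]
    exact h1
  calc ((atkinLehner N q hq hqN ⟨_, hB⟩ : FF (N * q)) : LaurentSeries Kb)
      = ((atkinLehner N q hq hqN ⟨_, hB⟩ : FF (N * q)) : LaurentSeries Kb)
          * (iota Kb B * iota Kb (inv1 B)) := by rw [iota_mul_inv1 hB0, mul_one]
    _ = HahnSeries.C (ε * (q : Kb)) * iota Kb (inv1 B) := by rw [← mul_assoc, h2]

/-- the quotient `α₂ b₀ · (β₂ b₀)⁻¹` -/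
def rMid (hB : iota Kb B ∈ FF (N * q)) : FF (N * q * q) :=
  heckeAlphaBar Kb (N * q) q ⟨_, hB⟩ * (heckeBetaBar Kb (N * q) q ⟨_, hB⟩)⁻¹

end Unit

/-! ### the table of `r = α₂ b₀ / β₂ b₀` -/

section Table

variable {N q : ℕ} [NeZero N] [NeZero q] {hq : q.Prime} {hqN : ¬ q ∣ N}
variable {B : PowerSeries ℤ} (hB : iota Kb B ∈ FF (N * q))
  (hB0 : PowerSeries.constantCoeff B = 1) {ε : Kb}
  (hW : atkinLehner N q hq hqN ⟨_, hB⟩ * ⟨_, hB⟩ = algebraMap Kb (FF (N * q)) (ε * (q : Kb)))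

theorem inv_iota_inv1 (hB0 : PowerSeries.constantCoeff B = 1) :
    (iota Kb (inv1 B))⁻¹ = iota Kb B :=
  inv_eq_of_mul_eq_one_right (by rw [mul_comm]; exact iota_mul_inv1 hB0)

theorem C_unit_ne_zero (hq : q.Prime) (hε : ε = 1 ∨ ε = -1) :
    (HahnSeries.C (ε * (q : Kb)) : LaurentSeries Kb) ≠ 0 := by
  have hq0 : ((q : ℕ) : Kb) ≠ 0 := Nat.cast_ne_zero.mpr hq.ne_zero
  have hε0 : ε ≠ 0 := by
    rcases hε with rfl | rfl
    · exact one_ne_zero
    · exact neg_ne_zero.mpr one_ne_zero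
  intro h
  have h2 := congrArg (fun x : LaurentSeries Kb => x.coeff 0) h
  simp only [HahnSeries.C_apply, HahnSeries.coeff_single_same, HahnSeries.coeff_zero] at h2
  exact mul_ne_zero hε0 hq0 h2

include hB0 in
/-- at `∞`: `B / Fr B`. -/
theorem ex3_zero_rMid {ζ : Kb} (hζ : IsPrimitiveRoot ζ q) :
    ex3 N q hq hqN hζ 0 (rMid hB) = rQ Kb q B := by
  rw [rMid, map_mul, map_inv₀, Fermat.Agent.T3.helper98.ex3_zero_alpha,
    Fermat.Agent.T3.helper98.ex3_zero_beta]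
  have h : qExpand Kb q (iota Kb B) * qExpand Kb q (iota Kb (inv1 B)) = 1 := by
    rw [← map_mul, iota_mul_inv1 hB0, map_one]
  rw [rQ, inv_eq_of_mul_eq_one_right h]

include hB0 hW in
/-- at `0`: `B / Fr B`. -/
theorem ex3_one_rMid (hε : ε = 1 ∨ ε = -1) {ζ : Kb} (hζ : IsPrimitiveRoot ζ q) :
    ex3 N q hq hqN hζ 1 (rMid hB) = rQ Kb q B := by
  rw [rMid, map_mul, map_inv₀, Fermat.Agent.T3.helper98.ex3_one_alpha,
    Fermat.Agent.T3.helper98.ex3_one_beta, coe_atkinLehner_unit hB hB0 hW, map_mul,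
    qExpand_C, mul_inv, inv_iota_inv1 hB0, rQ]
  have hc := C_unit_ne_zero (q := q) hq hε
  field_simp

include hB0 hW in
/-- at the middle cusp: `B(t) B(ζ t) / (ε q)`. -/
theorem ex3_two_rMid (hε : ε = 1 ∨ ε = -1) {ζ : Kb} (hζ : IsPrimitiveRoot ζ q) :
    ex3 N q hq hqN hζ 2 (rMid hB)
      = iota Kb B * twistL ζ (iota Kb B) * (HahnSeries.C (ε * (q : Kb)))⁻¹ := by
  have hζ0 : ζ ≠ 0 := hζ.ne_zero hq.ne_zero
  rw [rMid, map_mul, map_inv₀, Fermat.Agent.T3.helper98.ex3_two_alpha,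
    Fermat.Agent.T3.helper98.ex3_two_beta, coe_atkinLehner_unit hB hB0 hW, pow_one,
    Fermat.Agent.T2.helper87.twistL_mul hζ0]
  have h1 : twistL ζ (HahnSeries.C (ε * (q : Kb)) : LaurentSeries Kb)
      = HahnSeries.C (ε * (q : Kb)) := by
    rw [HahnSeries.C_apply, Fermat.Agent.T2.helper87.twistL_single, zpow_zero, one_mul]
  have h2 : twistL ζ (iota Kb B) * twistL ζ (iota Kb (inv1 B)) = 1 := by
    rw [← Fermat.Agent.T2.helper87.twistL_mul hζ0, iota_mul_inv1 hB0,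
      Fermat.Agent.T2.helper87.twistL_one]
  have h3 : (twistL ζ (iota Kb (inv1 B)))⁻¹ = twistL ζ (iota Kb B) :=
    inv_eq_of_mul_eq_one_right (by rw [mul_comm]; exact h2)
  rw [h1, mul_inv, h3]
  ring

end Table

/-! ### the multiplier `G = Z^(q-2) r` and the unit `u = Z G` -/

section Main

variable {N q : ℕ} [NeZero N] [NeZero q] {hq : q.Prime} {hqN : ¬ q ∣ N}
variable (h4 : 4 ∣ N) {B : PowerSeries ℤ} (hB : iota Kb B ∈ FF (N * q))
  (hB0 : PowerSeries.constantCoeff B = 1) {ε : Kb} (hε : ε = 1 ∨ ε = -1)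
  (hW : atkinLehner N q hq hqN ⟨_, hB⟩ * ⟨_, hB⟩ = algebraMap Kb (FF (N * q)) (ε * (q : Kb)))

/-- the multiplier `G = Z^(q-2) · α₂ b₀ / β₂ b₀` -/
def gMid (h4 : 4 ∣ N) (hB : iota Kb B ∈ FF (N * q)) : FF (N * q * q) :=
  zMid N q h4 ^ (q - 2) * rMid hB

/-- the unit `u = Z · G = Z^(q-1) · α₂ b₀ / β₂ b₀` -/
def uMid (h4 : 4 ∣ N) (hB : iota Kb B ∈ FF (N * q)) : FF (N * q * q) :=
  zMid N q h4 * gMid h4 hB

theorem uMid_eq_mul : uMid h4 hB = zMid N q h4 * gMid h4 hB := rfl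

theorem uMid_eq_pow (hq : q.Prime) : uMid h4 hB = zMid N q h4 ^ (q - 1) * rMid hB := by
  have h2 := hq.two_le
  rw [uMid, gMid, ← mul_assoc, ← pow_succ', show q - 2 + 1 = q - 1 from by omega]

/-- `b₀` is fixed by the whole Galois group. -/
theorem isFixI_unit (A : ValuationSubring Kb) :
    IsFixI A (N * q) (⟨iota Kb B, hB⟩ : FF (N * q)) := by
  intro σ _
  apply Subtype.ext
  rw [coe_arithmeticRingAut_apply]
  exact coeffMap_iota _ B

theorem isFixI_rMid (A : ValuationSubring Kb) : IsFixI A (N * q * q) (rMid hB) :=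
  Fermat.Agent.T3.helper98.isFixI_mul A
    (Fermat.Agent.T3.helper98.isFixI_alpha A (N * q) (isFixI_unit hB A))
    (Fermat.Agent.T3.helper98.isFixI_inv A
      (Fermat.Agent.T3.helper98.isFixI_beta A (N * q) (isFixI_unit hB A)))

theorem isFixI_gMid (A : ValuationSubring Kb) : IsFixI A (N * q * q) (gMid h4 hB) :=
  Fermat.Agent.T3.helper98.isFixI_mul A
    (Fermat.Agent.T3.helper98.isFixI_pow A (isFixI_zMid A h4) _) (isFixI_rMid hB A)

theorem isFixI_uMid (A : ValuationSubring Kb) : IsFixI A (N * q * q) (uMid h4 hB) :=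
  Fermat.Agent.T3.helper98.isFixI_mul A (isFixI_zMid A h4) (isFixI_gMid h4 hB A)

/-! #### expansions at `∞` and `0` -/

include hB0 in
theorem ex3_zero_gMid {ζ : Kb} (hζ : IsPrimitiveRoot ζ q) :
    ex3 N q hq hqN hζ 0 (gMid h4 hB) = zQ Kb q ^ (q - 2) * rQ Kb q B := by
  rw [gMid, map_mul, map_pow, ex3_zero_zMid, ex3_zero_rMid hB hB0]

include hB0 hW hε in
theorem ex3_one_gMid {ζ : Kb} (hζ : IsPrimitiveRoot ζ q) :
    ex3 N q hq hqN hζ 1 (gMid h4 hB) = (-zQ Kb q) ^ (q - 2) * rQ Kb q B := by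
  rw [gMid, map_mul, map_pow, ex3_one_zMid, ex3_one_rMid hB hB0 hW hε]

include hB0 in
theorem ex3_zero_uMid {ζ : Kb} (hζ : IsPrimitiveRoot ζ q) :
    ex3 N q hq hqN hζ 0 (uMid h4 hB) = zQ Kb q ^ (q - 1) * rQ Kb q B := by
  rw [uMid_eq_pow h4 hB hq, map_mul, map_pow, ex3_zero_zMid, ex3_zero_rMid hB hB0]

include hB0 hW hε in
theorem ex3_one_uMid {ζ : Kb} (hζ : IsPrimitiveRoot ζ q) :
    ex3 N q hq hqN hζ 1 (uMid h4 hB) = (-zQ Kb q) ^ (q - 1) * rQ Kb q B := by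
  rw [uMid_eq_pow h4 hB hq, map_mul, map_pow, ex3_one_zMid, ex3_one_rMid hB hB0 hW hε]

/-! #### expansions at the middle cusp -/

include hB0 hW hε in
theorem ex3_two_gMid {ζ : Kb} (hζ : IsPrimitiveRoot ζ q) :
    ex3 N q hq hqN hζ 2 (gMid h4 hB)
      = (twistL ζ (tH4 Kb) - tH4 Kb) ^ (q - 2)
          * (iota Kb B * twistL ζ (iota Kb B) * (HahnSeries.C (ε * (q : Kb)))⁻¹) := by
  rw [gMid, map_mul, map_pow, ex3_two_zMid, ex3_two_rMid hB hB0 hW hε]

include hB0 hW hε in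
theorem ex3_two_uMid_eq {ζ : Kb} (hζ : IsPrimitiveRoot ζ q) :
    ex3 N q hq hqN hζ 2 (uMid h4 hB)
      = (twistL ζ (tH4 Kb) - tH4 Kb) ^ (q - 1)
          * (iota Kb B * twistL ζ (iota Kb B) * (HahnSeries.C (ε * (q : Kb)))⁻¹) := by
  rw [uMid_eq_pow h4 hB hq, map_mul, map_pow, ex3_two_zMid, ex3_two_rMid hB hB0 hW hε]

theorem C_unit_inv_mul (hq : q.Prime) (hε : ε = 1 ∨ ε = -1) :
    (HahnSeries.C (ε * (q : Kb)) : LaurentSeries Kb)⁻¹ * HahnSeries.C ((q : ℕ) : Kb)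
      = HahnSeries.C ε := by
  have hq0 : ((q : ℕ) : Kb) ≠ 0 := Nat.cast_ne_zero.mpr hq.ne_zero
  have hc := C_unit_ne_zero (q := q) hq hε
  have hε2 : ε * ε = 1 := by
    rcases hε with rfl | rfl <;> norm_num
  rw [inv_mul_eq_iff_eq_mul₀ hc, ← map_mul]
  congr 1
  rw [mul_right_comm, hε2, one_mul]

end Main

/-! ### integral models and reductions -/

section Integral

open Fermat.Agent.T3.helper67 (divSeries twistSeries mu_mem)

variable {N q : ℕ} [NeZero N] [NeZero q] {hq : q.Prime} {hqN : ¬ q ∣ N}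
variable (h4 : 4 ∣ N) {B : PowerSeries ℤ} (hB : iota Kb B ∈ FF (N * q))
  (hB0 : PowerSeries.constantCoeff B = 1) {ε : Kb} (hε : ε = 1 ∨ ε = -1)
  (hW : atkinLehner N q hq hqN ⟨_, hB⟩ * ⟨_, hB⟩ = algebraMap Kb (FF (N * q)) (ε * (q : Kb)))
  (A : ValuationSubring Kb) (hA : A.LiesOverPrime q)
  {L : PowerSeries ℤ} (hL : IsQExp (iota ℂ L) lam4) (hL0 : PowerSeries.constantCoeff L = 1)
  (hBL : B * ex q L = L)

/-- `ζ - 1` as an element of `A` -/
def zetaSubOne (hq : q.Prime) (A : ValuationSubring Kb) {ζ : Kb} (hζ : IsPrimitiveRoot ζ q) : A :=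
  ⟨ζ, mu_mem hq A hζ⟩ - 1

theorem coe_zetaSubOne {ζ : Kb} (hζ : IsPrimitiveRoot ζ q) :
    ((zetaSubOne hq A hζ : A) : Kb) = ζ - 1 := by
  rw [zetaSubOne]
  push_cast
  rfl

include hA in
theorem residue_zetaSubOne {ζ : Kb} (hζ : IsPrimitiveRoot ζ q) :
    IsLocalRing.residue A (zetaSubOne hq A hζ) = 0 := by
  rw [zetaSubOne, map_sub, Fermat.Agent.T3.helper67.residue_mu hq A hA hζ, map_one, sub_self]

/-- the quotient `V = (t(ζ ·) - t) / (ζ - 1)` -/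
def vMid (hq : q.Prime) (A : ValuationSubring Kb) {ζ : Kb} (hζ : IsPrimitiveRoot ζ q) :
    LaurentSeries A :=
  divSeries q A ⟨ζ, mu_mem hq A hζ⟩ (tH4 A)

/-- **the middle expansion of `Z`** : `(ζ - 1) · V`. -/
theorem ex3_two_zMid_eq {ζ : Kb} (hζ : IsPrimitiveRoot ζ q) :
    ex3 N q hq hqN hζ 2 (zMid N q h4) = HahnSeries.C (ζ - 1) * incl A (vMid hq A hζ) := by
  rw [ex3_two_zMid, vMid, ← Fermat.Agent.T3.helper67.twist_sub hq A hζ (tH4 A), incl_tH4]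

include hA in
/-- `red V = θ t̄ = t d/dt t̄`. -/
theorem red_vMid {ζ : Kb} (hζ : IsPrimitiveRoot ζ q) :
    red A (vMid hq A hζ) = thetaL (tH4 (kA A)) := by
  rw [vMid, Fermat.Agent.T3.helper67.red_divSeries hq A hA hζ, red_tH4]

include hA hL in
/-- `red V = - t̄ · l̄²` (Jacobi). -/
theorem red_vMid_eq {ζ : Kb} (hζ : IsPrimitiveRoot ζ q) :
    red A (vMid hq A hζ) = -(tH4 (kA A) * (iota (kA A) L) ^ 2) := by
  rw [red_vMid A hA hζ, thetaL_tH4 (kA A) hL]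

/-- the three integral models of `Z` -/
def zModel (hq : q.Prime) (A : ValuationSubring Kb) {ζ : Kb} (hζ : IsPrimitiveRoot ζ q) :
    Fin 3 → LaurentSeries A :=
  ![zQ A q, -zQ A q, HahnSeries.C (zetaSubOne hq A hζ) * vMid hq A hζ]

theorem incl_zModel {ζ : Kb} (hζ : IsPrimitiveRoot ζ q) (i : Fin 3) :
    incl A (zModel hq A hζ i) = ex3 N q hq hqN hζ i (zMid N q h4) := by
  fin_cases i
  · show incl A (zQ A q) = ex3 N q hq hqN hζ 0 _
    rw [ex3_zero_zMid]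
    exact coeffMap_zQ q _
  · show incl A (-zQ A q) = ex3 N q hq hqN hζ 1 _
    rw [ex3_one_zMid, map_neg]
    exact congrArg Neg.neg (coeffMap_zQ q _)
  · show incl A (HahnSeries.C (zetaSubOne hq A hζ) * vMid hq A hζ) = ex3 N q hq hqN hζ 2 _
    rw [ex3_two_zMid_eq h4 A hζ, map_mul, Fermat.Agent.T3.helper67.incl_C, coe_zetaSubOne]

theorem red_zModel_zero {ζ : Kb} (hζ : IsPrimitiveRoot ζ q) :
    red A (zModel hq A hζ 0) = zQ (kA A) q := coeffMap_zQ q _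

theorem red_zModel_one {ζ : Kb} (hζ : IsPrimitiveRoot ζ q) :
    red A (zModel hq A hζ 1) = -zQ (kA A) q := by
  show red A (-zQ A q) = _
  rw [map_neg]
  exact congrArg Neg.neg (coeffMap_zQ q _)

include hA in
/-- **`Z` lies in the middle vertical prime.** -/
theorem red_zModel_two {ζ : Kb} (hζ : IsPrimitiveRoot ζ q) :
    red A (zModel hq A hζ 2) = 0 := by
  show red A (HahnSeries.C (zetaSubOne hq A hζ) * vMid hq A hζ) = 0
  rw [map_mul, Fermat.Agent.T3.helper67.red_C, residue_zetaSubOne A hA hζ, map_zero, zero_mul]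

theorem isInt3_zMid {ζ : Kb} (hζ : IsPrimitiveRoot ζ q) :
    IsInt3 N q hq hqN A hζ (zMid N q h4) :=
  fun i => ⟨zModel hq A hζ i, incl_zModel h4 A hζ i⟩


/-- the sign `ε = ± 1` as an element of `A` -/
def epsA (A : ValuationSubring Kb) (ε : Kb) : A := by
  classical
  exact if ε = 1 then 1 else -1

include hε in
theorem coe_epsA : ((epsA A ε : A) : Kb) = ε := by
  classical
  rcases hε with rfl | rfl
  · simp [epsA]
  · have h : ¬ ((-1 : Kb) = 1) := by norm_num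
    simp [epsA, h]

include hB0 hW hε hA hL hL0 hBL in
/-- **the middle expansion of `u`** : `ε · U` with `red U = - t̄₄^(q-1)`. -/
theorem ex3_two_uMid {ζ : Kb} (hζ : IsPrimitiveRoot ζ q) :
    ∃ U : LaurentSeries A,
      ex3 N q hq hqN hζ 2 (uMid h4 hB) = HahnSeries.C ε * incl A U ∧
      red A U = -(tH4 (kA A)) ^ (q - 1) := by
  have hk : ¬ q ∣ 1 := fun h => hq.one_lt.ne' (Nat.dvd_one.mp h)
  obtain ⟨U, hU, hred⟩ := midGen_tH4 hq A hA hζ hL hL0 hBL hk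
  rw [pow_one] at hU
  refine ⟨U, ?_, hred⟩
  rw [ex3_two_uMid_eq h4 hB hB0 hε hW hζ]
  calc (twistL ζ (tH4 Kb) - tH4 Kb) ^ (q - 1)
        * (iota Kb B * twistL ζ (iota Kb B) * (HahnSeries.C (ε * (q : Kb)))⁻¹)
      = ((twistL ζ (tH4 Kb) - tH4 Kb) ^ (q - 1) * iota Kb B * twistL ζ (iota Kb B))
          * (HahnSeries.C (ε * (q : Kb)))⁻¹ := by ring
    _ = ((HahnSeries.C (ε * (q : Kb)))⁻¹ * HahnSeries.C ((q : ℕ) : Kb)) * incl A U := by
        rw [hU]; ring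
    _ = HahnSeries.C ε * incl A U := by rw [C_unit_inv_mul hq hε]

include hB0 hW hε hA hL hL0 hBL in
/-- **integral models of `u` and their reductions**: `u` is integral at the three cusps, with
reductions `(Fr² t̄ - t̄)^(q-1) b̄ / Fr b̄` at `∞`, `(t̄ - Fr² t̄)^(q-1) b̄ / Fr b̄` at `0` and
`∓ t̄^(q-1)` at the middle cusp. -/
theorem exists_uModel {ζ : Kb} (hζ : IsPrimitiveRoot ζ q) :
    ∃ Y : Fin 3 → LaurentSeries A,
      (∀ i, incl A (Y i) = ex3 N q hq hqN hζ i (uMid h4 hB)) ∧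
      red A (Y 0) = zQ (kA A) q ^ (q - 1) * rQ (kA A) q B ∧
      red A (Y 1) = (-zQ (kA A) q) ^ (q - 1) * rQ (kA A) q B ∧
      ((ε = 1 ∧ red A (Y 2) = -(tH4 (kA A)) ^ (q - 1)) ∨
        (ε = -1 ∧ red A (Y 2) = (tH4 (kA A)) ^ (q - 1))) := by
  obtain ⟨U, hU, hred⟩ := ex3_two_uMid h4 hB hB0 hε hW A hA hL hL0 hBL hζ
  refine ⟨![zQ A q ^ (q - 1) * rQ A q B, (-zQ A q) ^ (q - 1) * rQ A q B,
    HahnSeries.C (epsA A ε) * U], ?_, ?_, ?_, ?_⟩
  · intro i
    fin_cases i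
    · show incl A (zQ A q ^ (q - 1) * rQ A q B) = ex3 N q hq hqN hζ 0 _
      rw [ex3_zero_uMid h4 hB hB0 hζ, map_mul, map_pow]
      exact congrArg₂ (fun x y => x ^ (q - 1) * y) (coeffMap_zQ q _) (coeffMap_rQ q _ B)
    · show incl A ((-zQ A q) ^ (q - 1) * rQ A q B) = ex3 N q hq hqN hζ 1 _
      rw [ex3_one_uMid h4 hB hB0 hε hW hζ, map_mul, map_pow, map_neg]
      exact congrArg₂ (fun x y => (-x) ^ (q - 1) * y) (coeffMap_zQ q _) (coeffMap_rQ q _ B)
    · show incl A (HahnSeries.C (epsA A ε) * U) = ex3 N q hq hqN hζ 2 _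
      rw [hU, map_mul, Fermat.Agent.T3.helper67.incl_C, coe_epsA hε A]
  · show red A (zQ A q ^ (q - 1) * rQ A q B) = _
    rw [map_mul, map_pow]
    exact congrArg₂ (fun x y => x ^ (q - 1) * y) (coeffMap_zQ q _) (coeffMap_rQ q _ B)
  · show red A ((-zQ A q) ^ (q - 1) * rQ A q B) = _
    rw [map_mul, map_pow, map_neg]
    exact congrArg₂ (fun x y => (-x) ^ (q - 1) * y) (coeffMap_zQ q _) (coeffMap_rQ q _ B)
  · have h2 : red A (HahnSeries.C (epsA A ε) * U)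
        = HahnSeries.C (IsLocalRing.residue A (epsA A ε)) * -(tH4 (kA A)) ^ (q - 1) := by
      rw [map_mul, Fermat.Agent.T3.helper67.red_C, hred]
    classical
    rcases hε with rfl | rfl
    · left
      refine ⟨rfl, ?_⟩
      show red A (HahnSeries.C (epsA A 1) * U) = _
      rw [h2]
      simp [epsA]
    · right
      refine ⟨rfl, ?_⟩
      show red A (HahnSeries.C (epsA A (-1)) * U) = _
      rw [h2]
      have h : ¬ ((-1 : Kb) = 1) := by norm_num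
      simp [epsA, h]

include hB0 hW hε hA hL hL0 hBL in
theorem isInt3_uMid {ζ : Kb} (hζ : IsPrimitiveRoot ζ q) :
    IsInt3 N q hq hqN A hζ (uMid h4 hB) := by
  obtain ⟨Y, hY, -⟩ := exists_uModel h4 hB hB0 hε hW A hA hL hL0 hBL hζ
  exact fun i => ⟨Y i, hY i⟩


/-! #### the multiplier -/

include hB0 in
theorem incl_gModel_zero {ζ : Kb} (hζ : IsPrimitiveRoot ζ q) :
    incl A (zQ A q ^ (q - 2) * rQ A q B) = ex3 N q hq hqN hζ 0 (gMid h4 hB) := by
  rw [ex3_zero_gMid h4 hB hB0 hζ, map_mul, map_pow]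
  exact congrArg₂ (fun x y => x ^ (q - 2) * y) (coeffMap_zQ q _) (coeffMap_rQ q _ B)

include hB0 hW hε in
theorem incl_gModel_one {ζ : Kb} (hζ : IsPrimitiveRoot ζ q) :
    incl A ((-zQ A q) ^ (q - 2) * rQ A q B) = ex3 N q hq hqN hζ 1 (gMid h4 hB) := by
  rw [ex3_one_gMid h4 hB hB0 hε hW hζ, map_mul, map_pow, map_neg]
  exact congrArg₂ (fun x y => (-x) ^ (q - 2) * y) (coeffMap_zQ q _) (coeffMap_rQ q _ B)

include hB0 hW hε hA in
/-- **the multiplier at the middle cusp**: `(ζ - 1) · G` is integral. -/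
theorem exists_gModel_two {ζ : Kb} (hζ : IsPrimitiveRoot ζ q) :
    ∃ G' : LaurentSeries A,
      incl A G' = ex3 N q hq hqN hζ 2 (gMid h4 hB) * HahnSeries.C (ζ - 1) := by
  obtain ⟨w, hw, -⟩ := Fermat.Agent.T3.helper67.wilson hq A hA hζ
  have h2 := hq.two_le
  refine ⟨HahnSeries.C (epsA A ε * w) * vMid hq A hζ ^ (q - 2) * iota A B
    * twistSeries q A ⟨ζ, mu_mem hq A hζ⟩ (iota A B), ?_⟩
  have hZ : twistL ζ (tH4 Kb) - tH4 Kb = HahnSeries.C (ζ - 1) * incl A (vMid hq A hζ) := by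
    rw [vMid, ← Fermat.Agent.T3.helper67.twist_sub hq A hζ (tH4 A), incl_tH4]
  have hT : twistL ζ (iota Kb B) = incl A (twistSeries q A ⟨ζ, mu_mem hq A hζ⟩ (iota A B)) := by
    rw [← Fermat.Agent.T3.helper67.twist_incl hq A hζ (iota A B),
      Fermat.Agent.T3.helper67.incl_iota]
  have hpow : (HahnSeries.C (ζ - 1) : LaurentSeries Kb) ^ (q - 2) * HahnSeries.C (ζ - 1)
      = HahnSeries.C ((q : ℕ) : Kb) * HahnSeries.C (w : Kb) := by
    rw [← pow_succ, show q - 2 + 1 = q - 1 from by omega, ← map_pow, hw, map_mul]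
  rw [ex3_two_gMid h4 hB hB0 hε hW hζ, hZ, hT, map_mul, map_mul, map_mul, map_pow,
    Fermat.Agent.T3.helper67.incl_C, Fermat.Agent.T3.helper67.incl_iota]
  push_cast
  rw [coe_epsA hε A, map_mul, mul_pow]
  have hc := C_unit_inv_mul (q := q) hq hε
  linear_combination (-(incl A (vMid hq A hζ) ^ (q - 2) * iota Kb B
      * incl A (twistSeries q A ⟨ζ, mu_mem hq A hζ⟩ (iota A B)) * HahnSeries.C (w : Kb))) * hc
    - (incl A (vMid hq A hζ) ^ (q - 2) * iota Kb B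
      * incl A (twistSeries q A ⟨ζ, mu_mem hq A hζ⟩ (iota A B))
      * (HahnSeries.C (ε * (q : Kb)))⁻¹) * hpow

include hB0 hW hε hA in
/-- **[T3-MIDGEN], multiplier property**: if `n` is integral at the three cusps and its middle
expansion is divisible by `ζ - 1`, then `G · n` is integral at the three cusps. -/
theorem isInt3_gMid_mul {ζ : Kb} (hζ : IsPrimitiveRoot ζ q) {n : FF (N * q * q)}
    (hn : IsInt3 N q hq hqN A hζ n)
    (hn2 : ∃ Y : LaurentSeries A, ex3 N q hq hqN hζ 2 n = HahnSeries.C (ζ - 1) * incl A Y) :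
    IsInt3 N q hq hqN A hζ (gMid h4 hB * n) := by
  obtain ⟨G', hG'⟩ := exists_gModel_two h4 hB hB0 hε hW A hA hζ
  obtain ⟨Y2, hY2⟩ := hn2
  obtain ⟨Y0, hY0⟩ := hn 0
  obtain ⟨Y1, hY1⟩ := hn 1
  intro i
  fin_cases i
  · refine ⟨zQ A q ^ (q - 2) * rQ A q B * Y0, ?_⟩
    show incl A (zQ A q ^ (q - 2) * rQ A q B * Y0) = ex3 N q hq hqN hζ 0 _
    rw [map_mul, map_mul (ex3 N q hq hqN hζ 0), incl_gModel_zero h4 hB hB0 A hζ, hY0]
  · refine ⟨(-zQ A q) ^ (q - 2) * rQ A q B * Y1, ?_⟩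
    show incl A ((-zQ A q) ^ (q - 2) * rQ A q B * Y1) = ex3 N q hq hqN hζ 1 _
    rw [map_mul, map_mul (ex3 N q hq hqN hζ 1), incl_gModel_one h4 hB hB0 hε hW A hζ, hY1]
  · refine ⟨G' * Y2, ?_⟩
    show incl A (G' * Y2) = ex3 N q hq hqN hζ 2 _
    rw [map_mul, map_mul (ex3 N q hq hqN hζ 2), hG', hY2]
    ring

/-- `u · n = Z · (G · n)`. -/
theorem uMid_mul (n : FF (N * q * q)) :
    uMid h4 hB * n = zMid N q h4 * (gMid h4 hB * n) :=
  mul_assoc _ _ _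

end Integral

end Fermat.Agent.T3.helper63
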