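import Mathlib

/-!
# Tier 3, abstract tool (helper3): overrings of Dedekind domains are Dedekind domains

Let `D` be a Dedekind domain with fraction field `K` and let `R` be a ring between `D` and `K`
(`D → R → K`, the second map injective).  Then `R` is a Dedekind domain.

* `exists_split` : for every `x ∈ K` there are `j₁ j₂ d₁ d₂ ∈ D` with `x j₁ = d₁`, `x j₂ = d₂`
  and `d₁ + j₂ = 1` (the fractional ideal `D + D x` is invertible);
* `mem_map_comap` / `ideal_eq_map_comap` : every ideal `I` of `R` is `(I ∩ D) R`;
* `isNoetherianRing_overring`, `dimensionLEOne_overring`, `exists_of_isIntegral_overring`;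
* `isFractionRing_overring`, `isDedekindDomain_overring`;
* `isDedekindDomain_of_between` : the same for a subring of a field `L` containing the image of a
  Dedekind domain `D` all of whose elements are quotients of elements of `D`.
-/

set_option autoImplicit false
set_option linter.style.haveILetI false

namespace Fermat.Agent.T3.helper3

open scoped nonZeroDivisors

section Split

variable {D K : Type*} [CommRing D] [IsDedekindDomain D] [Field K] [Algebra D K]
  [IsFractionRing D K]

/-- The fractional ideal `D + D x` of a Dedekind domain is invertible, in elementary terms. -/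
theorem exists_split (x : K) :
    ∃ j₁ j₂ d₁ d₂ : D, x * algebraMap D K j₁ = algebraMap D K d₁ ∧
      x * algebraMap D K j₂ = algebraMap D K d₂ ∧ d₁ + j₂ = 1 := by
  obtain ⟨a, b, hb, hab⟩ := IsFractionRing.div_surjective (A := D) x
  have hb0 : b ≠ 0 := nonZeroDivisors.ne_zero hb
  have hbK : algebraMap D K b ≠ 0 := by
    intro h
    exact hb0 ((IsFractionRing.injective D K) (by rw [h, map_zero]))
  set I : Ideal D := Ideal.span {a, b} with hI
  have haI : a ∈ I := Ideal.subset_span (by simp)
  have hbI : b ∈ I := Ideal.subset_span (by simp)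
  have hI0 : I ≠ ⊥ := by
    intro h
    rw [h, Ideal.mem_bot] at hbI
    exact hb0 hbI
  have hF0 : (I : FractionalIdeal D⁰ K) ≠ 0 := FractionalIdeal.coeIdeal_ne_zero.mpr hI0
  have hmul : (I : FractionalIdeal D⁰ K) * (I : FractionalIdeal D⁰ K)⁻¹ = 1 :=
    mul_inv_cancel₀ hF0
  have h1 : (1 : K) ∈ (I : FractionalIdeal D⁰ K) * (I : FractionalIdeal D⁰ K)⁻¹ := by
    rw [hmul]
    exact FractionalIdeal.one_mem_one _
  -- every element of the product is `a v + b w` with `v, w` in the inverse
  have key : ∀ z ∈ (I : FractionalIdeal D⁰ K) * (I : FractionalIdeal D⁰ K)⁻¹,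
      ∃ v ∈ (I : FractionalIdeal D⁰ K)⁻¹, ∃ w ∈ (I : FractionalIdeal D⁰ K)⁻¹,
        z = algebraMap D K a * v + algebraMap D K b * w := by
    intro z hz
    refine FractionalIdeal.mul_induction_on hz ?_ ?_
    · intro i hi j hj
      obtain ⟨i', hi', rfl⟩ := (FractionalIdeal.mem_coeIdeal _).mp hi
      obtain ⟨α, β, hαβ⟩ := Ideal.mem_span_pair.mp hi'
      refine ⟨α • j, Submodule.smul_mem (((I : FractionalIdeal D⁰ K)⁻¹ : FractionalIdeal D⁰ K) :
          Submodule D K) α hj, β • j,
        Submodule.smul_mem (((I : FractionalIdeal D⁰ K)⁻¹ : FractionalIdeal D⁰ K) :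
          Submodule D K) β hj, ?_⟩
      rw [← hαβ, map_add, map_mul, map_mul, Algebra.smul_def, Algebra.smul_def]
      ring
    · rintro x y ⟨v, hv, w, hw, rfl⟩ ⟨v', hv', w', hw', rfl⟩
      exact ⟨v + v', Submodule.add_mem (((I : FractionalIdeal D⁰ K)⁻¹ : FractionalIdeal D⁰ K) :
          Submodule D K) hv hv', w + w',
        Submodule.add_mem (((I : FractionalIdeal D⁰ K)⁻¹ : FractionalIdeal D⁰ K) :
          Submodule D K) hw hw', by ring⟩
  obtain ⟨v, hv, w, hw, h1eq⟩ := key 1 h1
  have hv' := (FractionalIdeal.mem_inv_iff hF0).mp hv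
  have hw' := (FractionalIdeal.mem_inv_iff hF0).mp hw
  obtain ⟨va, hva⟩ := (FractionalIdeal.mem_one_iff _).mp
    (hv' _ (FractionalIdeal.mem_coeIdeal_of_mem _ haI))
  obtain ⟨vb, hvb⟩ := (FractionalIdeal.mem_one_iff _).mp
    (hv' _ (FractionalIdeal.mem_coeIdeal_of_mem _ hbI))
  obtain ⟨wa, hwa⟩ := (FractionalIdeal.mem_one_iff _).mp
    (hw' _ (FractionalIdeal.mem_coeIdeal_of_mem _ haI))
  obtain ⟨wb, hwb⟩ := (FractionalIdeal.mem_one_iff _).mp
    (hw' _ (FractionalIdeal.mem_coeIdeal_of_mem _ hbI))
  -- `j₁ = b v`, `j₂ = b w`, `d₁ = a v`, `d₂ = a w`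
  refine ⟨vb, wb, va, wa, ?_, ?_, ?_⟩
  · rw [hvb, hva, ← hab]
    field_simp
  · rw [hwb, hwa, ← hab]
    field_simp
  · apply IsFractionRing.injective D K
    rw [map_add, map_one, hva, hwb, h1eq]
    ring

end Split

section Overring

/-- Every element of an ideal `I` of an overring `R` of a Dedekind domain `D` lies in
`(I ∩ D) R`. -/
theorem mem_map_comap (D K : Type*) [CommRing D] [IsDedekindDomain D] [Field K] [Algebra D K]
    [IsFractionRing D K] {R : Type*} [CommRing R] [Algebra D R] [Algebra R K]
    [IsScalarTower D R K] (hinj : Function.Injective (algebraMap R K)) (I : Ideal R) {x : R}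
    (hx : x ∈ I) : x ∈ Ideal.map (algebraMap D R) (Ideal.comap (algebraMap D R) I) := by
  obtain ⟨j₁, j₂, d₁, d₂, h1, h2, h3⟩ := exists_split (D := D) (algebraMap R K x)
  have e1 : x * algebraMap D R j₁ = algebraMap D R d₁ := by
    apply hinj
    rw [map_mul, ← IsScalarTower.algebraMap_apply, ← IsScalarTower.algebraMap_apply, h1]
  have e2 : x * algebraMap D R j₂ = algebraMap D R d₂ := by
    apply hinj
    rw [map_mul, ← IsScalarTower.algebraMap_apply, ← IsScalarTower.algebraMap_apply, h2]
  have m1 : d₁ ∈ Ideal.comap (algebraMap D R) I := by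
    rw [Ideal.mem_comap, ← e1]
    exact I.mul_mem_right _ hx
  have m2 : d₂ ∈ Ideal.comap (algebraMap D R) I := by
    rw [Ideal.mem_comap, ← e2]
    exact I.mul_mem_right _ hx
  have hx' : x = algebraMap D R d₁ * x + algebraMap D R d₂ := by
    have : (algebraMap D R d₁ + algebraMap D R j₂ : R) = 1 := by
      rw [← map_add, h3, map_one]
    calc x = x * (algebraMap D R d₁ + algebraMap D R j₂) := by rw [this, mul_one]
      _ = algebraMap D R d₁ * x + algebraMap D R d₂ := by rw [← e2]; ring
  rw [hx']
  exact Ideal.add_mem _ (Ideal.mul_mem_right _ _ (Ideal.mem_map_of_mem _ m1))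
    (Ideal.mem_map_of_mem _ m2)

theorem ideal_eq_map_comap (D K : Type*) [CommRing D] [IsDedekindDomain D] [Field K] [Algebra D K]
    [IsFractionRing D K] {R : Type*} [CommRing R] [Algebra D R] [Algebra R K]
    [IsScalarTower D R K] (hinj : Function.Injective (algebraMap R K)) (I : Ideal R) :
    I = Ideal.map (algebraMap D R) (Ideal.comap (algebraMap D R) I) :=
  le_antisymm (fun _ hx => mem_map_comap D K hinj I hx) Ideal.map_comap_le

theorem isNoetherianRing_overring (D K : Type*) [CommRing D] [IsDedekindDomain D] [Field K] [Algebra D K]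
    [IsFractionRing D K] {R : Type*} [CommRing R] [Algebra D R] [Algebra R K]
    [IsScalarTower D R K] (hinj : Function.Injective (algebraMap R K)) :
    IsNoetherianRing R := by
  rw [isNoetherianRing_iff_ideal_fg]
  intro I
  rw [ideal_eq_map_comap D K hinj I]
  exact Ideal.FG.map (IsNoetherian.noetherian _) _

theorem dimensionLEOne_overring (D K : Type*) [CommRing D] [IsDedekindDomain D] [Field K] [Algebra D K]
    [IsFractionRing D K] {R : Type*} [CommRing R] [Algebra D R] [Algebra R K]
    [IsScalarTower D R K] (hinj : Function.Injective (algebraMap R K)) :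
    Ring.DimensionLEOne R where
  maximalOfPrime := by
    intro P hP0 hPprime
    have hcomap0 : Ideal.comap (algebraMap D R) P ≠ ⊥ := by
      intro h
      apply hP0
      rw [ideal_eq_map_comap D K hinj P, h, Ideal.map_bot]
    have hmax : (Ideal.comap (algebraMap D R) P).IsMaximal :=
      Ring.DimensionLEOne.maximalOfPrime hcomap0 (Ideal.comap_isPrime _ P)
    refine Ideal.isMaximal_iff.mpr ⟨fun h => hPprime.ne_top ((Ideal.eq_top_iff_one _).mpr h), ?_⟩
    intro Q x hPQ hxP hxQ
    by_contra h1
    have hQtop : Q ≠ ⊤ := fun h => h1 (h ▸ Submodule.mem_top)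
    have hle : Ideal.comap (algebraMap D R) P ≤ Ideal.comap (algebraMap D R) Q :=
      Ideal.comap_mono hPQ
    have hne : Ideal.comap (algebraMap D R) Q ≠ ⊤ := by
      intro h
      apply h1
      have : (1 : D) ∈ Ideal.comap (algebraMap D R) Q := h ▸ Submodule.mem_top
      simpa using this
    have heq : Ideal.comap (algebraMap D R) P = Ideal.comap (algebraMap D R) Q :=
      hmax.eq_of_le hne hle
    have : Q = P := by
      rw [ideal_eq_map_comap D K hinj Q, ← heq, ← ideal_eq_map_comap D K hinj P]
    exact hxP (this ▸ hxQ)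

/-- An overring of a Dedekind domain is integrally closed in the common fraction field. -/
theorem exists_of_isIntegral_overring (D K : Type*) [CommRing D] [IsDedekindDomain D] [Field K] [Algebra D K]
    [IsFractionRing D K] {R : Type*} [CommRing R] [Algebra D R] [Algebra R K]
    [IsScalarTower D R K] {x : K} (hx : IsIntegral R x) :
    ∃ y : R, algebraMap R K y = x := by
  obtain ⟨j₁, j₂, d₁, d₂, h1, h2, h3⟩ := exists_split (D := D) x
  obtain ⟨p, hp, hpx⟩ := hx
  -- `x = x d₁ ^ m + (element of D)` for all `m`
  have hstep : ∀ m : ℕ, ∃ e : D, x = x * algebraMap D K d₁ ^ m + algebraMap D K e := by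
    intro m
    induction m with
    | zero => exact ⟨0, by simp⟩
    | succ m ih =>
      obtain ⟨e, he⟩ := ih
      refine ⟨d₁ ^ m * d₂ + e, ?_⟩
      have h3' : algebraMap D K d₁ + algebraMap D K j₂ = 1 := by
        rw [← map_add, h3, map_one]
      calc x = x * algebraMap D K d₁ ^ m + algebraMap D K e := he
        _ = x * algebraMap D K d₁ ^ m * (algebraMap D K d₁ + algebraMap D K j₂)
              + algebraMap D K e := by rw [h3', mul_one]
        _ = x * algebraMap D K d₁ ^ (m + 1) + algebraMap D K (d₁ ^ m * d₂ + e) := by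
            rw [map_add, map_mul, map_pow, ← h2]; ring
  -- the degree of `p`
  have hn : p.natDegree ≠ 0 := by
    intro h0
    have : p = 1 := by
      have := Polynomial.eq_C_of_natDegree_eq_zero h0
      rw [this, ← h0, ← Polynomial.leadingCoeff, hp.leadingCoeff, map_one]
    rw [this, Polynomial.eval₂_one] at hpx
    exact one_ne_zero hpx
  obtain ⟨m, hm⟩ := Nat.exists_eq_succ_of_ne_zero hn
  -- the relation `x ^ (m+1) = - ∑_{i ≤ m} c_i x ^ i`
  have hrel : x ^ (m + 1) =
      - ∑ i ∈ Finset.range (m + 1), algebraMap R K (p.coeff i) * x ^ i := by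
    rw [Polynomial.eval₂_eq_sum_range, hm, Finset.sum_range_succ] at hpx
    have hlc : p.coeff (m + 1) = 1 := by
      have := hp.coeff_natDegree
      rwa [hm] at this
    rw [hlc, map_one, one_mul] at hpx
    linear_combination hpx
  obtain ⟨e, he⟩ := hstep m
  -- `x d₁ ^ m = x ^ (m+1) j₁ ^ m` lies in `R`
  have hd1 : x * algebraMap D K d₁ ^ m = x ^ (m + 1) * algebraMap D K j₁ ^ m := by
    rw [← h1]; ring
  have hterm : ∀ i ∈ Finset.range (m + 1),
      x ^ i * algebraMap D K j₁ ^ m = algebraMap D K (d₁ ^ i * j₁ ^ (m - i)) := by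
    intro i hi
    have hi' : i ≤ m := Nat.lt_succ_iff.mp (Finset.mem_range.mp hi)
    rw [map_mul, map_pow, map_pow, ← h1]
    have : m = i + (m - i) := by omega
    conv_lhs => rw [this, pow_add]
    ring
  refine ⟨- ∑ i ∈ Finset.range (m + 1), p.coeff i * algebraMap D R (d₁ ^ i * j₁ ^ (m - i))
    + algebraMap D R e, ?_⟩
  rw [map_add, map_neg, map_sum, ← IsScalarTower.algebraMap_apply]
  conv_rhs => rw [he, hd1, hrel, neg_mul, Finset.sum_mul]
  congr 2
  refine Finset.sum_congr rfl fun i hi => ?_
  rw [map_mul, ← IsScalarTower.algebraMap_apply, ← hterm i hi]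
  ring

theorem isFractionRing_overring (D K : Type*) [CommRing D] [Field K] [Algebra D K]
    [IsFractionRing D K] {R : Type*} [CommRing R] [Algebra D R] [Algebra R K]
    [IsScalarTower D R K] (hinj : Function.Injective (algebraMap R K)) :
    IsFractionRing R K := by
  have hfs : FaithfulSMul R K := (faithfulSMul_iff_algebraMap_injective R K).mpr hinj
  refine IsFractionRing.of_field R K fun z => ?_
  obtain ⟨a, b, -, hab⟩ := IsFractionRing.div_surjective (A := D) z
  refine ⟨algebraMap D R a, algebraMap D R b, ?_⟩
  rw [← IsScalarTower.algebraMap_apply, ← IsScalarTower.algebraMap_apply, hab]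

/-- **Overrings of Dedekind domains are Dedekind domains.** -/
theorem isDedekindDomain_overring (D K : Type*) [CommRing D] [IsDedekindDomain D] [Field K] [Algebra D K]
    [IsFractionRing D K] {R : Type*} [CommRing R] [Algebra D R] [Algebra R K]
    [IsScalarTower D R K] (hinj : Function.Injective (algebraMap R K)) :
    IsDedekindDomain R := by
  have hdom : IsDomain R := hinj.isDomain (algebraMap R K)
  have hfr : IsFractionRing R K := isFractionRing_overring D K hinj
  exact (isDedekindDomain_iff R K).mpr
    ⟨hdom, isNoetherianRing_overring D K hinj, dimensionLEOne_overring D K hinj,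
      fun {x} hx => exists_of_isIntegral_overring D K hx⟩

end Overring

section Between

variable {D L : Type*} [CommRing D] [IsDedekindDomain D] [Field L]

/-- A subring `R` of a field `L` which contains the image of a Dedekind domain `D` under an
injective ring homomorphism `φ`, and all of whose elements are quotients of elements of `φ D`,
is a Dedekind domain. -/
theorem isDedekindDomain_of_between (φ : D →+* L) (hφ : Function.Injective φ) (R : Subring L)
    (hDR : ∀ d : D, φ d ∈ R) (hfrac : ∀ r ∈ R, ∃ a b : D, b ≠ 0 ∧ r * φ b = φ a) :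
    IsDedekindDomain R := by
  -- the fraction field of `D` maps to `L`
  letI : Algebra D L := φ.toAlgebra
  have hfs : FaithfulSMul D L := (faithfulSMul_iff_algebraMap_injective D L).mpr hφ
  let K := FractionRing D
  let ψ : K →+* L := IsFractionRing.lift (K := K) (g := (algebraMap D L)) hφ
  have hψ : ∀ d : D, ψ (algebraMap D K d) = φ d := fun d => IsFractionRing.lift_algebraMap hφ d
  have hψinj : Function.Injective ψ := ψ.injective
  -- every element of `R` is in the image of `ψ`
  have hmem : ∀ r : R, ∃ k : K, ψ k = (r : L) := by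
    intro r
    obtain ⟨a, b, hb, hab⟩ := hfrac r r.2
    have hbK : algebraMap D K b ≠ 0 := by
      intro h
      exact hb ((IsFractionRing.injective D K) (by rw [h, map_zero]))
    refine ⟨algebraMap D K a / algebraMap D K b, ?_⟩
    have hφb : φ b ≠ 0 := fun h => hb (hφ (by rw [h, map_zero]))
    rw [map_div₀, hψ, hψ, ← hab, mul_div_assoc, div_self hφb, mul_one]
  let ι : R → K := fun r => (hmem r).choose
  have hι : ∀ r : R, ψ (ι r) = (r : L) := fun r => (hmem r).choose_spec
  let ιhom : R →+* K :=
    { toFun := ι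
      map_one' := hψinj (by rw [hι, map_one]; rfl)
      map_mul' := fun x y => hψinj (by rw [hι, map_mul, hι, hι]; rfl)
      map_zero' := hψinj (by rw [hι, map_zero]; rfl)
      map_add' := fun x y => hψinj (by rw [hι, map_add, hι, hι]; rfl) }
  let δ : D →+* R :=
    { toFun := fun d => ⟨φ d, hDR d⟩
      map_one' := Subtype.ext (map_one φ)
      map_mul' := fun x y => Subtype.ext (map_mul φ x y)
      map_zero' := Subtype.ext (map_zero φ)
      map_add' := fun x y => Subtype.ext (map_add φ x y) }
  letI : Algebra D R := δ.toAlgebra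
  letI : Algebra R K := ιhom.toAlgebra
  have htower : IsScalarTower D R K := IsScalarTower.of_algebraMap_eq fun d => by
    apply hψinj
    show ψ (algebraMap D K d) = ψ (ι (δ d))
    rw [hψ, hι]
    rfl
  have hinj : Function.Injective (algebraMap R K) := by
    intro x y hxy
    have : ψ (ι x) = ψ (ι y) := congrArg ψ hxy
    rw [hι, hι] at this
    exact Subtype.ext this
  exact isDedekindDomain_overring D K hinj

end Between

end Fermat.Agent.T3.helper3
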