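import Mathlib
import Fermat.Agent.T3.helper87_Places3
import Fermat.Agent.T3.helper74_Sat3Defs

/-!
# Tier 3 (helper87): the ring of the functions regular off the cusps over `∞`

* `regSub3 hζ : Subalgebra Kb (FF (N * q * q))` : the functions regular at every place different
  from the `q + 1` cusps `∞`, `0`, `c_k` (`IsReg3`);
* `dg_mem_regSub3` : **the hypothesis `hB` of `helper74.sat3_of` / `peelable3`** for
  `B = regSub3`: the three pull-backs of a function of level `N` regular off `∞` lie in `regSub3`;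
* `alpha_mem_regSub3`, `beta_mem_regSub3` : the same for the two pull-backs from level `N q`;
* `IsReg3.ord_nonneg_of_jElt` : a function regular off the cusps is regular where `j` is finite
  (the regularity hypothesis of `helper23.disc_root_*`);
* `isMid_congr`, `isReg3_congr` : independence of the choice of the primitive root.
-/

set_option autoImplicit false
set_option synthInstance.maxHeartbeats 400000
set_option linter.style.haveILetI false
set_option linter.unusedSectionVars false
set_option linter.unusedVariables false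
set_option linter.style.longLine false

noncomputable section

open HahnSeries IntermediateField AlgebraicCurve ModularCurve
open Fermat.Agent.S18.helper19 Fermat.Agent.P2.helper29 Fermat.Agent.T2.helper36
open Fermat.Agent.T2.helper22 Fermat.Agent.S24

namespace Fermat.Agent.T3.helper87

open Fermat.Agent.T3.helper48 (atkinLehnerSq atkinLehnerSq_heckeAlphaBar
  atkinLehnerSq_heckeBetaBar atkinLehnerSq_atkinLehnerSq)
open Fermat.Agent.T3.helper74 (dg0 dg1 dg2)

section Sub

variable (N q : ℕ) [NeZero N] [NeZero q] (hq : q.Prime) (hqN : ¬ q ∣ N)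

/-- **the ring of the functions of level `N q q` regular off the cusps over `∞`**. -/
def regSub3 {ζ : Kb} (hζ : IsPrimitiveRoot ζ q) : Subalgebra Kb (FF (N * q * q)) where
  carrier := {f | IsReg3 N q hq hqN hζ f}
  mul_mem' := fun hf hg => IsReg3.mul hf hg
  add_mem' := fun hf hg => IsReg3.add hf hg
  algebraMap_mem' := fun c => isReg3_algebraMap c

variable {N q hq hqN} {ζ : Kb} {hζ : IsPrimitiveRoot ζ q}

theorem mem_regSub3 {f : FF (N * q * q)} :
    f ∈ regSub3 N q hq hqN hζ ↔ IsReg3 N q hq hqN hζ f := Iff.rfl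

theorem alpha_mem_regSub3 {x : FF (N * q)} (hx : IsReg2 (atkinLehner N q hq hqN) x) :
    heckeAlphaBar Kb (N * q) q x ∈ regSub3 N q hq hqN hζ :=
  isReg3_alpha hx

theorem beta_mem_regSub3 {x : FF (N * q)} (hx : IsReg2 (atkinLehner N q hq hqN) x) :
    heckeBetaBar Kb (N * q) q x ∈ regSub3 N q hq hqN hζ :=
  isReg3_beta hx

theorem atkinLehnerSq_mem_regSub3 {f : FF (N * q * q)} (hf : f ∈ regSub3 N q hq hqN hζ) :
    atkinLehnerSq N q hq hqN f ∈ regSub3 N q hq hqN hζ :=
  IsReg3.map hf

/-- **the hypothesis `hB` of `helper74.sat3_of`** for `B = regSub3`. -/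
theorem dg_mem_regSub3 (m : ℕ) (f : FF N) (hf : InL (FF N) m (f : LaurentSeries Kb)) :
    dg0 N q f ∈ regSub3 N q hq hqN hζ ∧ dg1 N q f ∈ regSub3 N q hq hqN hζ ∧
      dg2 N q f ∈ regSub3 N q hq hqN hζ := by
  have e : (⟨(f : LaurentSeries Kb), hf.1⟩ : FF N) = f := Subtype.ext rfl
  refine ⟨?_, ?_, ?_⟩
  · have := isReg3_alpha_alpha (hq := hq) (hqN := hqN) (hζ := hζ) hf
    rw [e] at this
    exact this
  · have := isReg3_alpha_beta (hq := hq) (hqN := hqN) (hζ := hζ) hf
    rw [e] at this
    exact this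
  · have := isReg3_beta_beta (hq := hq) (hqN := hqN) (hζ := hζ) hf
    rw [e] at this
    exact this

/-- `j` at the level `N q q` -/
theorem jElt_eq_jAA : jElt (N * q * q) = jAA N q := by
  apply Subtype.ext
  rw [coe_jAA]
  rfl

/-- **a function regular off the cusps is regular where `j` is finite.** -/
theorem IsReg3.ord_nonneg_of_jElt {f : FF (N * q * q)} (hf : IsReg3 N q hq hqN hζ f)
    (P : Place Kb (FF (N * q * q))) (hP : 0 ≤ P.ord (jElt (N * q * q))) : 0 ≤ P.ord f := by
  rw [jElt_eq_jAA] at hP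
  have h1 := one_lt_sq_int (hq := hq)
  refine hf P (fun h => ?_) (fun h => ?_) (fun k hk h => ?_)
  · rw [h _ (jAA_ne_zero N q), order_coe_jAA] at hP
    omega
  · rw [h _ (jAA_ne_zero N q), atkinLehnerSq_jAA, order_coe_jBB] at hP
    omega
  · rw [h _ (jAA_ne_zero N q), embMid_jAA, order_jqModC (K := Kb)] at hP
    omega

end Sub

/-! ### Independence of the primitive root -/

section Congr

variable {N q : ℕ} [NeZero N] [NeZero q] {hq : q.Prime} {hqN : ¬ q ∣ N}

/-- every middle cusp for `ζ'` is a middle cusp for `ζ`. -/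
theorem exists_isMid_congr {ζ ζ' : Kb} (hζ : IsPrimitiveRoot ζ q) (hζ' : IsPrimitiveRoot ζ' q)
    (k' : Fin q) (hk' : (k' : ℕ) ≠ 0) :
    ∃ (k : Fin q) (hk : (k : ℕ) ≠ 0),
      embMid N q hq hqN hζ' k' hk' = embMid N q hq hqN hζ k hk := by
  have h1 : (ζ' ^ (k' : ℕ)) ^ q = 1 := by
    rw [← pow_mul, mul_comm, pow_mul, hζ'.pow_eq_one, one_pow]
  obtain ⟨i, hi, hie⟩ := hζ.eq_pow_of_pow_eq_one h1
  have hi0 : i ≠ 0 := by
    rintro rfl
    rw [pow_zero] at hie
    have := hζ'.pow_eq_one_iff_dvd (k' : ℕ) |>.mp hie.symm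
    have h2 := Nat.le_of_dvd (Nat.pos_of_ne_zero hk') this
    have := k'.2
    omega
  exact ⟨⟨i, hi⟩, hi0, embMid_congr hζ hζ' ⟨i, hi⟩ k' hi0 hk' hie.symm⟩

theorem isReg3_congr {ζ ζ' : Kb} (hζ : IsPrimitiveRoot ζ q) (hζ' : IsPrimitiveRoot ζ' q)
    {f : FF (N * q * q)} (hf : IsReg3 N q hq hqN hζ f) : IsReg3 N q hq hqN hζ' f := by
  intro P hP hP2 hm
  refine hf P hP hP2 (fun k hk h => ?_)
  obtain ⟨k', hk', e⟩ := exists_isMid_congr (N := N) (hq := hq) (hqN := hqN) hζ' hζ k hk
  apply hm k' hk'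
  intro g hg
  rw [h g hg, e]

end Congr

end Fermat.Agent.T3.helper87

end
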