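import Mathlib

/-!
# Tier 3 (helper22): local principality by Nakayama, abstract form

Mathlib only.  The situation to keep in mind: `R` is the ring of integral functions of a model of
a curve over a discrete valuation ring, `b ∈ R` generates a vertical prime, `R / b` is the
coordinate ring of a component of the special fibre, `M` is a divisorial `R`-module,
`ρ : M → L` is the reduction along the component (`L` its function field) and `O ⊆ L` is the
local ring of a closed point `e` of the component.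

* `exists_smul_mem_of_forall_exists_smul_mem` : Nakayama in determinant-trick form, for a
  multiplicative set `S` stable under addition of elements of an ideal `I`.
* `exists_generator_of_valuationSubring` : among the generators of a finitely generated module
  one has minimal valuation.
* `locPrin` : local principality at `e`:  there are `g ∈ M` and `d ∈ R`, a unit at `e`, with
  `d • M ⊆ R g`.
* `locPrin_points` : a simultaneous local generator at finitely many points.
* `toric_relations` : the two norm relations give the `(q² - 1)`-th power relations.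
-/

set_option autoImplicit false

namespace Fermat.Agent.T3.helper22

open Polynomial

section Nakayama

variable {R : Type*} [CommRing R] {M : Type*} [AddCommGroup M] [Module R M]

/-- the value at `s` of a monic polynomial whose lower coefficients lie in (powers of) `I` is
`s ^ deg` modulo `I` -/
theorem eval_sub_pow_mem (I : Ideal R) (p : R[X]) (hp : p.Monic)
    (hc : ∀ k, p.coeff k ∈ I ^ (p.natDegree - k)) (s : R) :
    p.eval s - s ^ p.natDegree ∈ I := by
  rw [Polynomial.eval_eq_sum_range, Finset.sum_range_succ, hp.coeff_natDegree, one_mul,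
    add_sub_cancel_right]
  refine Ideal.sum_mem _ fun k hk => ?_
  have hk' : k < p.natDegree := Finset.mem_range.mp hk
  have h1 : p.coeff k ∈ I := Ideal.pow_le_self (by omega) (hc k)
  exact Ideal.mul_mem_right _ _ h1

/-- **Nakayama, determinant-trick form.**  `S` a multiplicative set with `S + I ⊆ S`, `M` a
finitely generated module and `N` a submodule such that every element of `M` is carried into
`N + I M` by an element of `S`.  Then one element of `S` carries `M` into `N`. -/
theorem exists_smul_mem_of_forall_exists_smul_mem [Module.Finite R M] (S : Submonoid R)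
    (I : Ideal R) (hS : ∀ s ∈ S, ∀ c ∈ I, s + c ∈ S) (N : Submodule R M)
    (h : ∀ G : M, ∃ s ∈ S, s • G ∈ N ⊔ I • (⊤ : Submodule R M)) :
    ∃ d ∈ S, ∀ G : M, d • G ∈ N := by
  classical
  -- a common multiplier for a finite generating set
  obtain ⟨T, hT⟩ := (Module.Finite.fg_top : (⊤ : Submodule R M).FG)
  choose σ hσS hσ using h
  obtain ⟨s, hsS, hs⟩ : ∃ s ∈ S, ∀ G ∈ T, s • G ∈ N ⊔ I • (⊤ : Submodule R M) := by
    refine ⟨∏ G ∈ T, σ G, Submonoid.prod_mem _ fun G _ => hσS G, fun G hG => ?_⟩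
    rw [← Finset.mul_prod_erase T σ hG, mul_comm, mul_smul]
    exact Submodule.smul_mem _ _ (hσ G)
  have hall : ∀ G : M, s • G ∈ N ⊔ I • (⊤ : Submodule R M) := by
    intro G
    have hG : G ∈ Submodule.span R (T : Set M) := by rw [hT]; trivial
    induction hG using Submodule.span_induction with
    | mem x hx => exact hs x hx
    | zero => rw [smul_zero]; exact Submodule.zero_mem _
    | add x y _ _ hx hy => rw [smul_add]; exact Submodule.add_mem _ hx hy
    | smul a x _ hx => rw [smul_comm]; exact Submodule.smul_mem _ _ hx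
  -- Cayley-Hamilton on the quotient
  let f : Module.End R (M ⧸ N) := algebraMap R (Module.End R (M ⧸ N)) s
  have hf : LinearMap.range f ≤ I • (⊤ : Submodule R (M ⧸ N)) := by
    rintro _ ⟨x, rfl⟩
    obtain ⟨G, rfl⟩ := N.mkQ_surjective x
    have h1 : f (N.mkQ G) = N.mkQ (s • G) := by
      simp [f, Module.algebraMap_end_apply]
    rw [h1]
    obtain ⟨y, hy, z, hz, hyz⟩ := Submodule.mem_sup.mp (hall G)
    have hy0 : N.mkQ y = 0 := by
      rw [Submodule.mkQ_apply]; exact (Submodule.Quotient.mk_eq_zero N).mpr hy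
    rw [← hyz, map_add, hy0, zero_add]
    have h2 : N.mkQ z ∈ (I • (⊤ : Submodule R M)).map N.mkQ := ⟨z, hz, rfl⟩
    rw [Submodule.map_smul''] at h2
    exact Submodule.smul_mono le_rfl le_top h2
  obtain ⟨p, hp, -, hpc, hpf⟩ :=
    LinearMap.exists_monic_and_natDegree_eq_and_coeff_mem_pow_and_aeval_eq_zero R f I hf
  refine ⟨p.eval s, ?_, fun G => ?_⟩
  · have h1 := eval_sub_pow_mem I p hp hpc s
    have h2 := hS _ (pow_mem hsS p.natDegree) _ h1
    rwa [add_sub_cancel] at h2
  · have h1 : Polynomial.aeval f p = algebraMap R (Module.End R (M ⧸ N)) (p.eval s) :=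
      Polynomial.aeval_algebraMap_apply_eq_algebraMap_eval s p
    rw [hpf] at h1
    have h2 : (algebraMap R (Module.End R (M ⧸ N)) (p.eval s)) (N.mkQ G) = 0 := by
      rw [← h1]; rfl
    rw [Module.algebraMap_end_apply, ← map_smul, Submodule.mkQ_apply] at h2
    exact (Submodule.Quotient.mk_eq_zero N).mp h2

end Nakayama

section LocPrin

variable {R : Type*} [CommRing R] {M : Type*} [AddCommGroup M] [Module R M]
  {L : Type*} [Field L]

/-- the elements of `R` which are units at the point `O`: their image under `ρ̄` is a unit of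
the valuation ring `O` -/
def unitsAt (ρ' : R →+* L) (O : ValuationSubring L) : Submonoid R where
  carrier := {s | ρ' s ≠ 0 ∧ (ρ' s)⁻¹ ∈ O}
  one_mem' := by
    refine ⟨by rw [map_one]; exact one_ne_zero, ?_⟩
    rw [map_one, inv_one]
    exact O.one_mem
  mul_mem' := by
    rintro x y ⟨hx0, hx⟩ ⟨hy0, hy⟩
    refine ⟨by rw [map_mul]; exact mul_ne_zero hx0 hy0, ?_⟩
    rw [map_mul, mul_inv]
    exact O.mul_mem _ _ hx hy

theorem mem_unitsAt {ρ' : R →+* L} {O : ValuationSubring L} {s : R} :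
    s ∈ unitsAt ρ' O ↔ ρ' s ≠ 0 ∧ (ρ' s)⁻¹ ∈ O := Iff.rfl

theorem unitsAt_add {ρ' : R →+* L} {O : ValuationSubring L} {s c : R} (hs : s ∈ unitsAt ρ' O)
    (hc : ρ' c = 0) : s + c ∈ unitsAt ρ' O := by
  rw [mem_unitsAt, map_add, hc, add_zero]
  exact hs

/-- among the generators of a finitely generated module, one has a reduction dividing all
reductions -/
theorem exists_generator_of_valuationSubring [Module.Finite R M] (ρ' : R →+* L) (ρ : M →+ L)
    (hρ : ∀ (r : R) (G : M), ρ (r • G) = ρ' r * ρ G)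
    (O : ValuationSubring L) (hO : ∀ r, ρ' r ∈ O) (hne : ∃ G : M, ρ G ≠ 0) :
    ∃ g : M, ρ g ≠ 0 ∧ ∀ G : M, ρ G / ρ g ∈ O := by
  classical
  obtain ⟨T, hT⟩ := (Module.Finite.fg_top : (⊤ : Submodule R M).FG)
  have hspan : ∀ G : M, G ∈ Submodule.span R (T : Set M) := fun G => by rw [hT]; trivial
  -- some generator has nonzero reduction
  have hT' : (T.filter fun G => ρ G ≠ 0).Nonempty := by
    by_contra hcon
    rw [Finset.not_nonempty_iff_eq_empty] at hcon
    have h0 : ∀ G ∈ T, ρ G = 0 := by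
      intro G hG
      by_contra h
      have : G ∈ T.filter fun G => ρ G ≠ 0 := Finset.mem_filter.mpr ⟨hG, h⟩
      rw [hcon] at this
      exact absurd this (Finset.notMem_empty _)
    have hall0 : ∀ G : M, ρ G = 0 := by
      intro G
      have := hspan G
      induction this using Submodule.span_induction with
      | mem x hx => exact h0 x hx
      | zero => exact map_zero ρ
      | add x y _ _ hx hy => rw [map_add, hx, hy, add_zero]
      | smul a x _ hx => rw [hρ, hx, mul_zero]
    obtain ⟨G, hG⟩ := hne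
    exact hG (hall0 G)
  obtain ⟨g, hgT, hg⟩ := Finset.exists_max_image _ (fun G => O.valuation (ρ G)) hT'
  have hg0 : ρ g ≠ 0 := (Finset.mem_filter.mp hgT).2
  refine ⟨g, hg0, fun G => ?_⟩
  have hgen : ∀ G ∈ T, ρ G / ρ g ∈ O := by
    intro G hG
    by_cases h0 : ρ G = 0
    · rw [h0, zero_div]; exact O.zero_mem
    · have h1 := hg G (Finset.mem_filter.mpr ⟨hG, h0⟩)
      rw [← ValuationSubring.valuation_le_one_iff, map_div₀]
      exact div_le_one_of_le₀ h1 zero_le
  have := hspan G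
  induction this using Submodule.span_induction with
  | mem x hx => exact hgen x hx
  | zero => rw [map_zero, zero_div]; exact O.zero_mem
  | add x y _ _ hx hy => rw [map_add, add_div]; exact O.add_mem _ _ hx hy
  | smul a x _ hx => rw [hρ, mul_div_assoc]; exact O.mul_mem _ _ (hO a) hx

/-- **Local principality.**  `b` generates the kernel of the reduction `ρ̄ : R → L`,
`ρ : M → L` is a `ρ̄`-semilinear map whose kernel is `b M`, and every element of the valuation
ring `O` of `L` is a quotient of reductions with denominator a unit of `O`.  If `M` is finitely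
generated, then `M` is generated by one element at the point `O`: there are `g ∈ M` and
`d ∈ R`, a unit at `O`, such that `d • M ⊆ R g`. -/
theorem locPrin [Module.Finite R M] (ρ' : R →+* L) (ρ : M →+ L)
    (hρ : ∀ (r : R) (G : M), ρ (r • G) = ρ' r * ρ G)
    (O : ValuationSubring L) (hO : ∀ r, ρ' r ∈ O)
    (b : R) (hb : ρ' b = 0)
    (hker : ∀ G : M, ρ G = 0 → ∃ G' : M, G = b • G')
    (hloc : ∀ y ∈ O, ∃ r s : R, s ∈ unitsAt ρ' O ∧ y * ρ' s = ρ' r)
    (hne : ∃ G : M, ρ G ≠ 0) :
    ∃ g : M, ρ g ≠ 0 ∧ (∀ G : M, ρ G / ρ g ∈ O) ∧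
      ∃ d ∈ unitsAt ρ' O, ∀ G : M, ∃ r : R, d • G = r • g := by
  obtain ⟨g, hg0, hg⟩ := exists_generator_of_valuationSubring ρ' ρ hρ O hO hne
  refine ⟨g, hg0, hg, ?_⟩
  have hI : ∀ c ∈ Ideal.span ({b} : Set R), ρ' c = 0 := by
    intro c hc
    obtain ⟨a, rfl⟩ := Ideal.mem_span_singleton'.mp hc
    rw [map_mul, hb, mul_zero]
  obtain ⟨d, hdS, hd⟩ := exists_smul_mem_of_forall_exists_smul_mem (unitsAt ρ' O)
    (Ideal.span ({b} : Set R)) (fun s hs c hc => unitsAt_add hs (hI c hc))
    (Submodule.span R ({g} : Set M)) (fun G => by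
      obtain ⟨r, s, hs, hrs⟩ := hloc _ (hg G)
      refine ⟨s, hs, ?_⟩
      have h0 : ρ (s • G - r • g) = 0 := by
        rw [map_sub, hρ, hρ, ← hrs]
        field_simp
        ring
      obtain ⟨G', hG'⟩ := hker _ h0
      have h1 : s • G = r • g + b • G' := by rw [← hG']; abel
      rw [h1]
      refine Submodule.add_mem_sup (Submodule.smul_mem _ _ (Submodule.mem_span_singleton_self g)) ?_
      exact Submodule.smul_mem_smul (Ideal.mem_span_singleton_self b) trivial)
  exact ⟨d, hdS, fun G => by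
    obtain ⟨r, hr⟩ := Submodule.mem_span_singleton.mp (hd G)
    exact ⟨r, hr.symm⟩⟩

/-- **A simultaneous local generator at finitely many points.**  The points are given by
multiplicative sets `S j` and ideals `I j` with `S j + I j ⊆ S j`; `c j` is `1` at the point `j`
and `0` at the other points.  If `M` is generated by `g j` at the point `j`, then
`g = ∑ c j • g j` generates `M` at all points. -/
theorem locPrin_points {ι : Type*} [Fintype ι] [DecidableEq ι] (S : ι → Submonoid R)
    (I : ι → Ideal R) (hS : ∀ j, ∀ s ∈ S j, ∀ c ∈ I j, s + c ∈ S j)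
    (c : ι → R) (hc1 : ∀ j, c j - 1 ∈ I j) (hc0 : ∀ i j, i ≠ j → c i ∈ I j)
    (g : ι → M) (d : ι → R) (hd : ∀ j, d j ∈ S j)
    (hg : ∀ j, ∀ G : M, ∃ r : R, d j • G = r • g j) :
    ∃ g₀ : M, ∀ j, ∃ D ∈ S j, ∀ G : M, ∃ r : R, D • G = r • g₀ := by
  classical
  choose r hr using hg
  refine ⟨∑ i, c i • g i, fun j => ?_⟩
  -- `d j • g₀ = u • g j` with `u ≡ d j` at the point `j`
  let u : R := c j * d j + ∑ i ∈ Finset.univ.erase j, c i * r j (g i)
  have hu : d j • ∑ i, c i • g i = u • g j := by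
    rw [← Finset.add_sum_erase Finset.univ _ (Finset.mem_univ j), smul_add, Finset.smul_sum]
    simp only [u, add_smul, Finset.sum_smul]
    congr 1
    · rw [smul_smul, mul_comm]
    · refine Finset.sum_congr rfl fun i _ => ?_
      rw [smul_comm, hr j (g i), smul_smul]
  have huS : u ∈ S j := by
    have h1 : u = d j + ((c j - 1) * d j + ∑ i ∈ Finset.univ.erase j, c i * r j (g i)) := by
      simp only [u]; ring
    rw [h1]
    refine hS j _ (hd j) _ (Ideal.add_mem _ (Ideal.mul_mem_right _ _ (hc1 j)) ?_)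
    exact Ideal.sum_mem _ fun i hi =>
      Ideal.mul_mem_right _ _ (hc0 i j (Finset.ne_of_mem_erase hi))
  refine ⟨u * d j, (S j).mul_mem huS (hd j), fun G => ⟨r j G * d j, ?_⟩⟩
  rw [mul_smul, hr j G, smul_comm, ← hu, smul_smul]

end LocPrin

section Toric

/-- **The toric relations.**  If the values `ζ₁, ζ₂, ζ₃` of a local generator on the three
branches satisfy the two norm relations `ζ₁ ζ₃^(q-1) = κ ζ₂^q` (norm along `α`) and
`ζ₁^q = κ' ζ₂ ζ₃^(q-1)` (norm along `β`), then
`ζ₁^(q²-1) = (κ'^q / κ) ζ₃^(q²-1)` and `ζ₂^(q²-1) = (κ' / κ^q) ζ₃^(q²-1)`. -/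
theorem toric_relations {k : Type*} [Field k] (q : ℕ) (hq : 1 ≤ q) {ζ₁ ζ₂ ζ₃ κ κ' : k}
    (h1 : ζ₁ ≠ 0) (h2 : ζ₂ ≠ 0)
    (hα : ζ₁ * ζ₃ ^ (q - 1) = κ * ζ₂ ^ q) (hβ : ζ₁ ^ q = κ' * ζ₂ * ζ₃ ^ (q - 1)) :
    ζ₁ ^ (q ^ 2 - 1) * κ = κ' ^ q * ζ₃ ^ (q ^ 2 - 1) ∧
      ζ₂ ^ (q ^ 2 - 1) * κ ^ q = κ' * ζ₃ ^ (q ^ 2 - 1) := by
  obtain ⟨m, rfl⟩ : ∃ m, q = m + 1 := ⟨q - 1, by omega⟩
  simp only [Nat.add_sub_cancel] at hα hβ
  have e : (m + 1) ^ 2 - 1 = m * (m + 1) + m := by
    have : (m + 1) ^ 2 = m * (m + 1) + m + 1 := by ring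
    omega
  rw [e]
  constructor
  · -- ζ₁^(q²) κ = κ'^q ζ₂^q ζ₃^(q(q-1)) κ = κ'^q ζ₁ ζ₃^(q-1) ζ₃^(q(q-1))
    have hA : ζ₁ ^ ((m + 1) * (m + 1)) * κ = κ' ^ (m + 1) * (ζ₁ * ζ₃ ^ m) * ζ₃ ^ (m * (m + 1)) := by
      rw [pow_mul, hβ, hα]
      ring
    have hB : ζ₁ ^ ((m + 1) * (m + 1)) = ζ₁ ^ (m * (m + 1) + m) * ζ₁ := by
      rw [← pow_succ]; congr 1; ring
    rw [hB] at hA
    have hC : ζ₁ * (ζ₁ ^ (m * (m + 1) + m) * κ) = ζ₁ * (κ' ^ (m + 1) * ζ₃ ^ (m * (m + 1) + m)) := by
      rw [pow_add ζ₃]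
      linear_combination hA
    exact mul_left_cancel₀ h1 hC
  · -- ζ₂^(q²) κ^q = (ζ₁ ζ₃^(q-1))^q = κ' ζ₂ ζ₃^(q-1) ζ₃^(q(q-1))
    have hA : ζ₂ ^ ((m + 1) * (m + 1)) * κ ^ (m + 1) = κ' * ζ₂ * ζ₃ ^ m * ζ₃ ^ (m * (m + 1)) := by
      have : (κ * ζ₂ ^ (m + 1)) ^ (m + 1) = ζ₁ ^ (m + 1) * (ζ₃ ^ m) ^ (m + 1) := by
        rw [← hα, mul_pow]
      rw [hβ] at this
      rw [pow_mul, ← pow_mul ζ₃ m (m + 1)] at *
      linear_combination (exp := 1) this
    have hB : ζ₂ ^ ((m + 1) * (m + 1)) = ζ₂ ^ (m * (m + 1) + m) * ζ₂ := by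
      rw [← pow_succ]; congr 1; ring
    rw [hB] at hA
    have hC : ζ₂ * (ζ₂ ^ (m * (m + 1) + m) * κ ^ (m + 1)) =
        ζ₂ * (κ' * ζ₃ ^ (m * (m + 1) + m)) := by
      rw [pow_add ζ₃]
      linear_combination hA
    exact mul_left_cancel₀ h2 hC

end Toric

end Fermat.Agent.T3.helper22
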