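import Mathlib
import Fermat.Agent.P2.helper95_FFlInst
import Fermat.Agent.P2.helper22_InL
import Fermat.Agent.P2.helper29_Infty
import Fermat.Agent.T2.helper22_CoreDefs
import Fermat.Agent.T3.helper22_LocPrin

/-!
# Tier 3, [T3-LOC-BT] (helper95): the local ring of a finite place is a localisation of the
ring of functions regular off infinity

Abstract part (`RiemannSetting` + Riemann's theorem in large degree, any characteristic):

* `exists_unit_at_of_riemann` : for a place `e ≠ Pinf` and an effective divisor `D₀` with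
  `D₀ e = 0` there is a function `s`, regular off `Pinf`, with `ord_e s = 0` and
  `ord_v s ≥ D₀ v` for all `v ≠ Pinf`.
* `exists_quot_regular_off` : every `y` with `ord_e y ≥ 0` is a quotient `x / s` of functions
  regular off `Pinf` with `ord_e s = 0`.

Instance for the special fibre field `FFb A N` and the ring `Bt A N` of helper22_CoreDefs:

* `mem_Bt_of_regular`, `locBt` : the hypothesis `hloc` of `helper22.locPrin` /
  `helper3.local_principal_of_dedekind_quotient` for the places of `FFb A N`.
-/

set_option autoImplicit false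
set_option linter.unusedSectionVars false

noncomputable section

namespace Fermat.Agent.T3.helper95

open AlgebraicCurve HahnSeries
open Fermat.Agent.P2.helper74 Fermat.Agent.P2.helper29 Fermat.Agent.S18.helper19

section Abstract

variable {K F : Type*} [Field K] [Field F] [Algebra K F]

open Classical in
/-- the effective divisor of the poles of `Z` off `Pinf` -/
def polePart (Pinf : Place K F) (Z : Divisor K F) : Divisor K F :=
  Finsupp.onFinset Z.support (fun v => if v = Pinf then 0 else max 0 (-(Z v)))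
    (fun v hv => by
      rw [Finsupp.mem_support_iff]
      intro h0
      apply hv
      rw [h0]
      simp)

open Classical in
theorem polePart_apply (Pinf : Place K F) (Z : Divisor K F) (v : Place K F) :
    polePart Pinf Z v = if v = Pinf then 0 else max 0 (-(Z v)) := by
  unfold polePart
  rw [Finsupp.onFinset_apply]

theorem polePart_nonneg (Pinf : Place K F) (Z : Divisor K F) (v : Place K F) :
    0 ≤ polePart Pinf Z v := by
  classical
  rw [polePart_apply]
  split_ifs
  · exact le_rfl
  · exact le_max_left _ _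

/-- **Riemann**: a function regular off `Pinf`, a unit at `e`, vanishing along `D₀`. -/
theorem exists_unit_at_of_riemann (hS : RiemannSetting K F) {g : ℕ} {c : ℤ}
    (hc : ∀ D : Divisor K F, c ≤ Divisor.degree D → (ell D : ℤ) + g = Divisor.degree D + 1)
    {Pinf e : Place K F} (he : e ≠ Pinf)
    (D₀ : Divisor K F) (hD₀e : D₀ e = 0) :
    ∃ s : F, s ≠ 0 ∧ e.ord s = 0 ∧ ∀ v, v ≠ Pinf → D₀ v ≤ v.ord s := by
  classical
  set N : ℤ := c + 1 + Divisor.degree D₀ with hN
  set E : Divisor K F := Finsupp.single Pinf N - D₀ with hE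
  set E' : Divisor K F := E - Finsupp.single e 1 with hE'
  have hdegE : Divisor.degree E = c + 1 := by
    rw [hE, map_sub, Divisor.degree_single, hS.deg_one Pinf, hN]
    push_cast
    ring
  have hdegE' : Divisor.degree E' = c := by
    rw [hE', map_sub, hdegE, Divisor.degree_single, hS.deg_one e]
    push_cast
    ring
  have h1 := hc E (by rw [hdegE]; linarith)
  have h2 := hc E' (by rw [hdegE'])
  rw [hdegE] at h1
  rw [hdegE'] at h2
  have hlt : ell E' < ell E := by
    have : (ell E' : ℤ) < ell E := by linarith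
    exact_mod_cast this
  have hle : riemannRochSpace E' ≤ riemannRochSpace E := L_mono (fun v => by
    rw [hE', Finsupp.sub_apply]
    have : (0 : ℤ) ≤ (Finsupp.single e (1 : ℤ)) v := by
      rw [Finsupp.single_apply]
      split_ifs <;> norm_num
    linarith)
  have hne : ¬ riemannRochSpace E ≤ riemannRochSpace E' := by
    intro h
    have heq : riemannRochSpace E' = riemannRochSpace E := le_antisymm hle h
    unfold ell at hlt
    rw [heq] at hlt
    exact lt_irrefl _ hlt
  obtain ⟨s, hsE, hsE'⟩ := SetLike.not_le_iff_exists.mp hne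
  have hs0 : s ≠ 0 := by
    rintro rfl
    exact hsE' (zero_mem _)
  have hsE2 := (mem_L_iff' hs0).mp hsE
  have hEv : ∀ v, v ≠ Pinf → E v = - D₀ v := by
    intro v hv
    rw [hE, Finsupp.sub_apply, Finsupp.single_apply, if_neg (Ne.symm hv), zero_sub]
  refine ⟨s, hs0, ?_, fun v hv => ?_⟩
  · have h3 : 0 ≤ e.ord s := by
      have := hsE2 e
      rw [hEv e he, hD₀e] at this
      simpa using this
    have h4 : ¬ (∀ v : Place K F, -E' v ≤ v.ord s) := fun h => hsE' ((mem_L_iff' hs0).mpr h)
    by_contra hne0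
    apply h4
    intro v
    by_cases hv : v = e
    · subst hv
      rw [hE', Finsupp.sub_apply, Finsupp.single_eq_same, hEv v he, hD₀e]
      have : 0 < v.ord s := lt_of_le_of_ne h3 (Ne.symm hne0)
      omega
    · rw [hE', Finsupp.sub_apply, Finsupp.single_apply, if_neg (Ne.symm hv), sub_zero]
      exact hsE2 v
  · have := hsE2 v
    rw [hEv v hv] at this
    simpa using this

/-- **[LOC], abstract form**: every function regular at `e ≠ Pinf` is a quotient of two functions
regular off `Pinf`, the denominator being a unit at `e`. -/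
theorem exists_quot_regular_off (hS : RiemannSetting K F) {g : ℕ} {c : ℤ}
    (hc : ∀ D : Divisor K F, c ≤ Divisor.degree D → (ell D : ℤ) + g = Divisor.degree D + 1)
    {Pinf e : Place K F} (he : e ≠ Pinf)
    (y : F) (hy : 0 ≤ e.ord y) :
    ∃ x s : F, s ≠ 0 ∧ e.ord s = 0 ∧ (∀ v, v ≠ Pinf → 0 ≤ v.ord s) ∧
      (∀ v, v ≠ Pinf → 0 ≤ v.ord x) ∧ y * s = x := by
  classical
  rcases eq_or_ne y 0 with rfl | hy0
  · exact ⟨0, 1, one_ne_zero, Place.ord_one e, fun v _ => (Place.ord_one v).ge,
      fun v _ => (Place.ord_zero v).ge, zero_mul 1⟩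
  obtain ⟨Z, hZ, -⟩ := hS.principal.exists_divisor y hy0
  obtain ⟨s, hs0, hse, hsv⟩ := exists_unit_at_of_riemann hS hc he (polePart Pinf Z) (by
    rw [polePart_apply, if_neg he, hZ e]
    exact max_eq_left (by omega))
  refine ⟨y * s, s, hs0, hse, fun v hv => ?_, fun v hv => ?_, rfl⟩
  · exact (polePart_nonneg Pinf Z v).trans (hsv v hv)
  · rw [Place.ord_mul v hy0 hs0]
    have h1 := hsv v hv
    rw [polePart_apply, if_neg hv, hZ v] at h1
    have h2 : -(v.ord y) ≤ max 0 (-(v.ord y)) := le_max_right _ _
    omega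

end Abstract

/-! ### The special fibre field -/

section Inst

open Fermat.Agent.T2.helper22 (Bt mem_Bt)

variable (N : ℕ) [NeZero N] (A : ValuationSubring Kb)

/-- a function of the special fibre field which is regular off infinity lies in `Bt` -/
theorem mem_Bt_of_regular (x : FFb A N)
    (hx : ∀ P : Place (kA A) (FFb A N), ¬ IsInfty P → 0 ≤ P.ord x) :
    (x : LaurentSeries (kA A)) ∈ Bt A N := by
  rw [mem_Bt]
  refine ⟨-(x : LaurentSeries (kA A)).order, x.2, hx, fun k hk => ?_⟩
  rw [neg_neg] at hk
  exact HahnSeries.coeff_eq_zero_of_lt_order hk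

/-- an element of `Bt` is regular off infinity -/
theorem regular_of_mem_Bt {x : LaurentSeries (kA A)} (hx : x ∈ Bt A N) :
    ∃ hx' : x ∈ FFb A N, ∀ P : Place (kA A) (FFb A N), ¬ IsInfty P →
      0 ≤ P.ord (⟨x, hx'⟩ : FFb A N) := by
  obtain ⟨n, hx', h1, -⟩ := mem_Bt.mp hx
  exact ⟨hx', h1⟩

/-- **[LOC-BT]** every function of the special fibre field which is regular at a finite place
`e` is a quotient `x / s` of elements of `Bt` with `s` a unit at `e`. -/
theorem locBt (e : Place (kA A) (FFb A N)) (he : ¬ IsInfty e) (y : FFb A N)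
    (hy : 0 ≤ e.ord y) :
    ∃ x s : FFb A N, (x : LaurentSeries (kA A)) ∈ Bt A N ∧
      (s : LaurentSeries (kA A)) ∈ Bt A N ∧ s ≠ 0 ∧ e.ord s = 0 ∧ y * s = x := by
  obtain ⟨-, Pinf, hPinf⟩ := inftyStatement N A
  obtain ⟨g, -, c, hc⟩ := Fermat.Agent.P2.helper95.riemannBar N A
  have hS := Fermat.Agent.P2.helper95.riemannSetting_FFb N A
  have he' : e ≠ Pinf := fun h => he (h ▸ hPinf)
  have hne : ∀ v : Place (kA A) (FFb A N), ¬ IsInfty v → v ≠ Pinf :=
    fun v hv h => hv (h ▸ hPinf)
  obtain ⟨x, s, hs0, hse, hsv, hxv, hxy⟩ := exists_quot_regular_off hS hc he' y hy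
  exact ⟨x, s, mem_Bt_of_regular N A x (fun P hP => hxv P (hne P hP)),
    mem_Bt_of_regular N A s (fun P hP => hsv P (hne P hP)), hs0, hse, hxy⟩

/-- **[LOC-BT]** in the shape of the hypothesis `hloc` of `helper22.locPrin`: if the reduction
`ρ' : R → FFb A N` is onto `Bt A N`, then every element of the local ring of a finite place `e`
is a quotient of reductions with denominator a unit at `e`. -/
theorem hloc_of_surj {R : Type*} [CommRing R] (ρ' : R →+* FFb A N)
    (hsurj : ∀ x : FFb A N, (x : LaurentSeries (kA A)) ∈ Bt A N → ∃ r : R, ρ' r = x)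
    (e : Place (kA A) (FFb A N)) (he : ¬ IsInfty e) :
    ∀ y ∈ e.toValuationSubring, ∃ r s : R,
      s ∈ Fermat.Agent.T3.helper22.unitsAt ρ' e.toValuationSubring ∧ y * ρ' s = ρ' r := by
  intro y hy
  rw [Fermat.Agent.S24.helper82.mem_iff_ord_nonneg] at hy
  obtain ⟨x, s, hx, hs, hs0, hse, hxy⟩ := locBt N A e he y hy
  obtain ⟨r, hr⟩ := hsurj x hx
  obtain ⟨s', hs'⟩ := hsurj s hs
  refine ⟨r, s', ?_, by rw [hs', hr, hxy]⟩
  rw [Fermat.Agent.T3.helper22.mem_unitsAt, hs']
  refine ⟨hs0, ?_⟩
  rw [Fermat.Agent.S24.helper82.mem_iff_ord_nonneg, Place.ord_inv, hse]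
  simp

end Inst

end Fermat.Agent.T3.helper95

end
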