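/-
T3 (S36), helper96, row 956 [T3-SAT3-X]: `helper74.ExactPoleFix N A m₀`, verbatim.

For a level `N` prime to the residue characteristic of `A` and `m` large there is an integral
series `X = t^(-m) + …` in `L(m ∞)` at level `N` whose coefficients are fixed by EVERY element of
`G_ℚ` (in particular by the inertia group of `A`).

Proof by *pivot uniqueness*.  Let `T` be the (finite) set of pole orders `i ∈ [0, m]` of the
elements of `L̄(m ∞̃)` on the special fibre.
* (B) `eq_zero_of_pivots` : an element of `L(m ∞)` whose coefficients of `t^(-i)`, `i ∈ T`,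
  vanish is `0` (scale it to an integral series with nonzero reduction; the pole order of the
  reduction lies in `T`).
* (A) `exists_pivot_elt` : lift monic elements of pole order `i ∈ T` by `SurjRed`; the matrix of
  their `T`-coefficients is unitriangular modulo the maximal ideal, hence invertible over `A`;
  this gives an integral `X ∈ L(m ∞)` with `T`-coefficients `δ_{i m}`.
* `L(m ∞)` is stable under the coefficientwise Galois action (`inL_coeffMap`), so `σ X - X = 0`
  by (B).
-/
import Mathlib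
import Fermat.Agent.T3.helper74_Sat3Defs
import Fermat.Agent.T2.helper49_FrobBase
import Fermat.Agent.P2.helper28_CuspReg
import Fermat.Agent.T2.helper72_SNGood

set_option autoImplicit false
set_option synthInstance.maxHeartbeats 400000
set_option maxHeartbeats 1000000
set_option linter.style.haveILetI false
set_option linter.unusedSectionVars false

noncomputable section

open HahnSeries IntermediateField ModularCurve AlgebraicCurve
open Fermat.Agent.S18.helper19 Fermat.Agent.P2.helper29

namespace Fermat.Agent.T3.helper96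

/-! ### Galois stability of `L(m ∞)` -/

section Galois

variable {N : ℕ} [NeZero N]

/-- `L(m ∞)` is stable under the coefficientwise action of `G_ℚ`. -/
theorem inL_coeffMap (σ : Kb ≃ₐ[ℚ] Kb) {m : ℤ} {f : LaurentSeries Kb}
    (hf : InL (FF N) m f) : InL (FF N) m (coeffMap (σ : Kb →+* Kb) f) := by
  obtain ⟨hmem, hreg, hco⟩ := hf
  have hmem' : coeffMap (σ : Kb →+* Kb) f ∈ FF N :=
    (Fermat.Agent.P2.helper93.galF N σ ⟨f, hmem⟩).2
  refine ⟨hmem', fun P hP => ?_, fun k hk => ?_⟩
  · have e : (⟨coeffMap (σ : Kb →+* Kb) f, hmem'⟩ : FF N)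
        = Fermat.Agent.P2.helper93.galF N σ ⟨f, hmem⟩ := rfl
    rw [e, Fermat.Agent.T2.helper49.fb_ord_galF]
    exact hreg _ (fun h => hP (Fermat.Agent.T2.helper49.fb_isInfty_inv_smul σ h))
  · rw [coeffMap_coeff, hco k hk, map_zero]

end Galois

/-! ### Functions on the special fibre have pole order `≥ 0` at infinity -/

section Bar

variable {K : Type*} [Field K] {E : IntermediateField K (LaurentSeries K)}

/-- `L(i ∞) = 0` for `i < 0`. -/
theorem eq_zero_of_inL_neg (hS : Fermat.Agent.P2.helper74.RiemannSetting K E)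
    {i : ℤ} (hi : i < 0) {y : LaurentSeries K} (hy : InL E i y) : y = 0 := by
  by_contra hy0
  obtain ⟨hmem, hreg, hco⟩ := hy
  have hne : (⟨y, hmem⟩ : E) ≠ 0 := fun h => hy0 (congrArg Subtype.val h)
  have hord : -i ≤ y.order := (HahnSeries.le_order_iff_forall hy0).mpr (fun k hk => hco k hk)
  have hall : ∀ v : Place K E, 0 ≤ v.ord (⟨y, hmem⟩ : E) := by
    intro v
    by_cases hv : IsInfty v
    · have e := hv _ hne
      rw [e]
      show 0 ≤ y.order
      omega
    · exact hreg v hv
  obtain ⟨a, ha⟩ := Fermat.Agent.P2.helper74.exists_eq_algebraMap_of_forall_ord_nonneg hS hall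
  have hya : y = algebraMap K (LaurentSeries K) a := congrArg Subtype.val ha
  have ha0 : a ≠ 0 := by
    rintro rfl
    exact hy0 (by rw [hya, map_zero])
  have h0 : y.order = 0 := by
    rw [hya, algebraMap_laurentSeries_eq_single]
    exact HahnSeries.order_single ha0
  omega

end Bar

/-! ### The pivot set -/

section Pivot

variable (N : ℕ) [NeZero N] (A : ValuationSubring Kb)

/-- `i` is the pole order at infinity of an element of `L̄(m ∞̃)` -/
def IsPoleBar (m i : ℤ) : Prop :=
  ∃ y : LaurentSeries (kA A), InL (FFb A N) m y ∧ y.coeff (-i) = 1 ∧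
    ∀ k : ℤ, k < -i → y.coeff k = 0

variable {N A}

theorem IsPoleBar.le {m i : ℤ} (h : IsPoleBar N A m i) : i ≤ m := by
  obtain ⟨y, hy, h1, -⟩ := h
  by_contra hcon
  have := hy.2.2 (-i) (by omega)
  rw [h1] at this
  exact one_ne_zero this

theorem IsPoleBar.nonneg {m i : ℤ} (h : IsPoleBar N A m i) : 0 ≤ i := by
  obtain ⟨y, hy, h1, h2⟩ := h
  by_contra hcon
  have hy' : InL (FFb A N) i y := ⟨hy.1, hy.2.1, h2⟩
  have := eq_zero_of_inL_neg (Fermat.Agent.P2.helper95.riemannSetting_FFb N A) (by omega) hy'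
  rw [this] at h1
  simp at h1

/-- the pole order of a nonzero element of `L̄(m ∞̃)` is a pivot -/
theorem isPoleBar_of_ne_zero {m : ℤ} {y : LaurentSeries (kA A)} (hy : InL (FFb A N) m y)
    (hy0 : y ≠ 0) : IsPoleBar N A m (-y.order) := by
  have hc : y.coeff y.order ≠ 0 := fun h => hy0 (HahnSeries.coeff_order_eq_zero.mp h)
  refine ⟨algebraMap (kA A) (LaurentSeries (kA A)) (y.coeff y.order)⁻¹ * y, hy.smul _, ?_, ?_⟩
  · rw [algebraMap_laurentSeries_eq_single, ← HahnSeries.C_apply, HahnSeries.C_mul_eq_smul,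
      HahnSeries.coeff_smul, neg_neg, smul_eq_mul, inv_mul_cancel₀ hc]
  · intro k hk
    rw [neg_neg] at hk
    rw [algebraMap_laurentSeries_eq_single, ← HahnSeries.C_apply, HahnSeries.C_mul_eq_smul,
      HahnSeries.coeff_smul, HahnSeries.coeff_eq_zero_of_lt_order hk, smul_zero]

/-- **(B) pivot uniqueness**: an element of `L(m ∞)` all of whose pivot coefficients vanish
is zero. -/
theorem eq_zero_of_pivots (hP : PrimeToLevel N A) {m : ℤ} {f : LaurentSeries Kb}
    (hf : InL (FF N) m f) (h0 : ∀ i : ℤ, IsPoleBar N A m i → f.coeff (-i) = 0) : f = 0 := by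
  by_contra hf0
  have hSc := Fermat.Agent.P2.helper81.scaleStatement N A hP
  have hInt := Fermat.Agent.P2.helper81.integralityStatement N A hP
  have hReg := Fermat.Agent.P2.helper28.regRedStatement N A hP
  have hInf := isInfty_inftyBar N
  obtain ⟨c, hc, Y, hY, hYred⟩ := Fermat.Agent.P2.helper96.exists_scaled hSc hInt hInf m f
    ((Fermat.Agent.P2.helper96.mem_LSub_iff hInf m f).mpr hf) hf0
  have hYL : InL (FF N) m (incl A Y) := by
    have e : incl A Y = algebraMap Kb (LaurentSeries Kb) c * f := by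
      rw [show incl A Y = c • f from hY, algebraMap_laurentSeries_eq_single, ← HahnSeries.C_apply,
        HahnSeries.C_mul_eq_smul]
    rw [e]
    exact hf.smul c
  have hred : InL (FFb A N) m (red A Y) := hReg m Y hYL
  have hpiv := isPoleBar_of_ne_zero hred hYred
  have h1 := h0 _ hpiv
  rw [neg_neg] at h1
  have h2 : (incl A Y).coeff (red A Y).order = 0 := by
    rw [show incl A Y = c • f from hY, HahnSeries.coeff_smul, h1, smul_zero]
  have h3 : Y.coeff (red A Y).order = 0 := by
    rw [coeffMap_coeff] at h2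
    exact Subtype.ext h2
  have h4 : (red A Y).coeff (red A Y).order = 0 := by
    rw [coeffMap_coeff, h3, map_zero]
  exact hYred (HahnSeries.coeff_order_eq_zero.mp h4)

end Pivot

/-! ### Existence of the pivot elements -/

section Exist

variable {N : ℕ} [NeZero N] {A : ValuationSubring Kb}

open Classical in
/-- the finite set of pivots -/
def pivots (N : ℕ) [NeZero N] (A : ValuationSubring Kb) (m : ℤ) : Finset ℤ :=
  (Finset.Icc 0 m).filter (fun i => IsPoleBar N A m i)

theorem mem_pivots {m i : ℤ} : i ∈ pivots N A m ↔ IsPoleBar N A m i := by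
  classical
  unfold pivots
  rw [Finset.mem_filter, Finset.mem_Icc]
  exact ⟨fun h => h.2, fun h => ⟨⟨h.nonneg, h.le⟩, h⟩⟩

theorem inL_sum {K : Type*} [Field K] {E : IntermediateField K (LaurentSeries K)} {ι : Type*}
    (s : Finset ι) {m : ℤ} (f : ι → LaurentSeries K) (h : ∀ i ∈ s, InL E m (f i)) :
    InL E m (∑ i ∈ s, f i) := by
  classical
  induction s using Finset.induction_on with
  | empty => simpa using inL_zero (E := E) m
  | insert a s ha ih =>
    rw [Finset.sum_insert ha]
    exact (h a (Finset.mem_insert_self a s)).add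
      (ih fun i hi => h i (Finset.mem_insert_of_mem hi))

theorem incl_C_mul (a : A) (Z : LaurentSeries A) :
    incl A (HahnSeries.C a * Z) = algebraMap Kb (LaurentSeries Kb) (a : Kb) * incl A Z := by
  rw [map_mul]
  congr 1
  rw [algebraMap_laurentSeries_eq_single]
  exact coeffMap_single A.subtype 0 _

theorem coeff_C_mul' (a : A) (Z : LaurentSeries A) (k : ℤ) :
    (HahnSeries.C a * Z).coeff k = a * Z.coeff k := by
  rw [HahnSeries.C_mul_eq_smul, HahnSeries.coeff_smul, smul_eq_mul]

/-- **(A) existence**: integral elements of `L(m ∞)` with prescribed pivot coefficients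
`δ_{i i₀}`. -/
theorem exists_pivot_elt {m : ℤ}
    (hS : ∀ y : LaurentSeries (kA A), InL (FFb A N) m y →
      ∃ Y : LaurentSeries A, InL (FF N) m (incl A Y) ∧ red A Y = y)
    {i₀ : ℤ} (hi₀ : IsPoleBar N A m i₀) :
    ∃ X : LaurentSeries A, InL (FF N) m (incl A X) ∧ X.coeff (-i₀) = 1 ∧
      ∀ i : ℤ, IsPoleBar N A m i → i ≠ i₀ → X.coeff (-i) = 0 := by
  classical
  -- monic elements on the special fibre and their lifts
  have hex : ∀ i : {i : ℤ // i ∈ pivots N A m}, ∃ Z : LaurentSeries A,
      InL (FF N) m (incl A Z) ∧ (red A Z).coeff (-(i : ℤ)) = 1 ∧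
        ∀ k : ℤ, k < -(i : ℤ) → (red A Z).coeff k = 0 := by
    intro i
    obtain ⟨y, hy, h1, h2⟩ := mem_pivots.mp i.2
    obtain ⟨Z, hZ, hZy⟩ := hS y hy
    exact ⟨Z, hZ, by rw [hZy]; exact h1, by rw [hZy]; exact h2⟩
  choose Z hZL hZ1 hZ2 using hex
  -- the matrix of pivot coefficients
  let M : Matrix {i : ℤ // i ∈ pivots N A m} {i : ℤ // i ∈ pivots N A m} A :=
    fun i j => (Z i).coeff (-(j : ℤ))
  have hMbar : ∀ i j, (IsLocalRing.residue A).mapMatrix M i j = (red A (Z i)).coeff (-(j : ℤ)) := by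
    intro i j
    rw [coeffMap_coeff]
    rfl
  have htri : ((IsLocalRing.residue A).mapMatrix M).IsLowerTriangular := by
    intro i j hij
    rw [hMbar]
    apply hZ2
    have : (i : ℤ) < (j : ℤ) := hij
    omega
  have hdet : ((IsLocalRing.residue A).mapMatrix M).det = 1 := by
    rw [Matrix.det_of_isLowerTriangular _ htri]
    apply Finset.prod_eq_one
    intro i _
    rw [hMbar]
    exact hZ1 i
  have hunit : IsUnit M.det := by
    apply Fermat.Agent.P2.helper96.isUnit_of_residue_ne_zero
    rw [RingHom.map_det, hdet]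
    exact one_ne_zero
  have hinv : M⁻¹ * M = 1 := Matrix.nonsing_inv_mul M hunit
  set j₀ : {i : ℤ // i ∈ pivots N A m} := ⟨i₀, mem_pivots.mpr hi₀⟩ with hj₀
  have hcoef : ∀ j : {i : ℤ // i ∈ pivots N A m},
      (∑ l, HahnSeries.C (M⁻¹ j₀ l) * Z l).coeff (-(j : ℤ)) = (1 : Matrix _ _ A) j₀ j := by
    intro j
    rw [HahnSeries.coeff_sum, ← hinv, Matrix.mul_apply]
    apply Finset.sum_congr rfl
    intro l _
    rw [coeff_C_mul']
  refine ⟨∑ l, HahnSeries.C (M⁻¹ j₀ l) * Z l, ?_, ?_, ?_⟩
  · rw [map_sum]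
    apply inL_sum
    intro l _
    rw [incl_C_mul]
    exact (hZL l).smul _
  · have := hcoef j₀
    rw [Matrix.one_apply_eq] at this
    exact this
  · intro i hi hne
    have := hcoef ⟨i, mem_pivots.mpr hi⟩
    rw [Matrix.one_apply_ne] at this
    · exact this
    · intro h
      exact hne (congrArg Subtype.val h).symm

end Exist

/-! ### The exact-pole elements -/

section Main

variable (N : ℕ) [NeZero N] (A : ValuationSubring Kb)

/-- **exact-pole elements fixed by the whole Galois group**: for every `m ≥ m₀` there is an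
integral series `X = t^(-m) + …` in `L(m ∞)` at level `N` whose coefficients are fixed by every
`σ ∈ G_ℚ`. -/
def ExactPoleGal (m₀ : ℕ) : Prop :=
  ∀ m : ℕ, m₀ ≤ m → ∃ X : LaurentSeries A, InL (FF N) m (incl A X) ∧ X.coeff (-(m : ℤ)) = 1 ∧
    ∀ (σ : Kb ≃ₐ[ℚ] Kb) (k : ℤ), σ ((X.coeff k : A) : Kb) = ((X.coeff k : A) : Kb)

variable {N A}

theorem ExactPoleGal.exactPoleFix {m₀ : ℕ} (h : ExactPoleGal N A m₀) :
    Fermat.Agent.T3.helper74.ExactPoleFix N A m₀ := by
  intro m hm
  obtain ⟨X, hX, h1, h2⟩ := h m hm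
  exact ⟨X, hX, h1, fun σ _ k => h2 σ k⟩

theorem ExactPoleGal.exactPole {m₀ : ℕ} (h : ExactPoleGal N A m₀) :
    Fermat.Agent.T2.helper96.ExactPole N A m₀ := by
  intro m hm
  obtain ⟨X, hX, h1, -⟩ := h m hm
  exact ⟨X, hX, h1⟩

/-- **[T3-SAT3-X], Galois form**, from `SurjRed` at a level prime to the residue
characteristic. -/
theorem exactPoleGal (hP : PrimeToLevel N A) (hS : SurjRedStatement N A) :
    ∃ m₀ : ℕ, ExactPoleGal N A m₀ := by
  obtain ⟨c, hc⟩ := hS
  obtain ⟨cb, hcb⟩ := Fermat.Agent.T2.helper96.exists_exact_bar N A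
  refine ⟨(max c cb).toNat, fun m hm => ?_⟩
  have hm' : max c cb ≤ (m : ℤ) := by
    have := Int.self_le_toNat (max c cb)
    have h2 : ((max c cb).toNat : ℤ) ≤ (m : ℤ) := by exact_mod_cast hm
    omega
  -- `m` is a pivot
  have hpiv : IsPoleBar N A (m : ℤ) (m : ℤ) := by
    obtain ⟨y, hy, hy0⟩ := hcb m (le_trans (le_max_right _ _) hm')
    refine ⟨algebraMap (kA A) (LaurentSeries (kA A)) (y.coeff (-(m : ℤ)))⁻¹ * y, hy.smul _, ?_, ?_⟩
    · rw [algebraMap_laurentSeries_eq_single, ← HahnSeries.C_apply, HahnSeries.C_mul_eq_smul,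
        HahnSeries.coeff_smul, smul_eq_mul, inv_mul_cancel₀ hy0]
    · intro k hk
      rw [algebraMap_laurentSeries_eq_single, ← HahnSeries.C_apply, HahnSeries.C_mul_eq_smul,
        HahnSeries.coeff_smul, hy.2.2 k hk, smul_zero]
  obtain ⟨X, hXL, hX1, hX0⟩ := exists_pivot_elt
    (fun y hy => hc m (le_trans (le_max_left _ _) hm') y hy) hpiv
  refine ⟨X, hXL, hX1, fun σ k => ?_⟩
  -- `σ X - X` has vanishing pivot coefficients
  have hdiff : coeffMap (σ : Kb →+* Kb) (incl A X) - incl A X = 0 := by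
    apply eq_zero_of_pivots hP ((inL_coeffMap σ hXL).sub hXL)
    intro i hi
    rw [HahnSeries.coeff_sub, coeffMap_coeff, coeffMap_coeff]
    by_cases him : i = (m : ℤ)
    · rw [him, hX1]
      simp
    · rw [hX0 i hi him]
      simp
  have := congrArg (fun z : LaurentSeries Kb => z.coeff k) hdiff
  simp only [HahnSeries.coeff_sub, coeffMap_coeff, HahnSeries.coeff_zero] at this
  exact sub_eq_zero.mp this

/-- **[T3-SAT3-X]** `helper74.ExactPoleFix`, verbatim, from `SurjRed` at a level prime to the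
residue characteristic. -/
theorem exactPoleFix (hP : PrimeToLevel N A) (hS : SurjRedStatement N A) :
    ∃ m₀ : ℕ, Fermat.Agent.T3.helper74.ExactPoleFix N A m₀ := by
  obtain ⟨m₀, h⟩ := exactPoleGal hP hS
  exact ⟨m₀, h.exactPoleFix⟩

/-- **[T3-SAT3-X]** at a good level `N` (`4 ∣ N` or `9 ∣ N`) prime to `q`, unconditional. -/
theorem exactPoleFix_good {q : ℕ} [NeZero q] (hq : q.Prime) (hqN : ¬ q ∣ N)
    (hA : A.LiesOverPrime q) (hN : 4 ∣ N ∨ 9 ∣ N) :
    ∃ m₀ : ℕ, Fermat.Agent.T3.helper74.ExactPoleFix N A m₀ :=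
  exactPoleFix ⟨q, hq, hqN, hA⟩ (Fermat.Agent.T2.helper72.surjRed_good hq hqN A hA hN)

/-- the Galois form at a good level -/
theorem exactPoleGal_good {q : ℕ} [NeZero q] (hq : q.Prime) (hqN : ¬ q ∣ N)
    (hA : A.LiesOverPrime q) (hN : 4 ∣ N ∨ 9 ∣ N) :
    ∃ m₀ : ℕ, ExactPoleGal N A m₀ :=
  exactPoleGal ⟨q, hq, hqN, hA⟩ (Fermat.Agent.T2.helper72.surjRed_good hq hqN A hA hN)

end Main

end Fermat.Agent.T3.helper96

end
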