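/-
T3 (S36), helper96: **SurjRed with inertia-fixed lifts** at a level `N` prime to the residue
characteristic (the K0-form of P2's `SurjRedStatement`).

* `exists_pivot_elt_gal` : the integral pivot elements of `L(m ∞)` (reduced echelon basis) have
  coefficients fixed by every `σ ∈ G_ℚ`.
* `eq_zero_of_pivots_bar` : pivot uniqueness on the special fibre.
* `surjRedFix` : for large `n` every element of `L̄(n ∞̃)` is the reduction of an integral
  element of `L(n ∞)` whose coefficients are fixed by the inertia group of `A`.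
* `surjRedFix_good` : the same at good levels, unconditional.
-/
import Mathlib
import Fermat.Agent.T3.helper96_ExactPoleFix
import Fermat.Agent.T3.helper84_K0Basic

set_option autoImplicit false
set_option synthInstance.maxHeartbeats 400000
set_option maxHeartbeats 1000000
set_option linter.style.haveILetI false
set_option linter.unusedSectionVars false

noncomputable section

open HahnSeries IntermediateField ModularCurve AlgebraicCurve
open Fermat.Agent.S18.helper19 Fermat.Agent.P2.helper29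

namespace Fermat.Agent.T3.helper96

variable {N : ℕ} [NeZero N] {A : ValuationSubring Kb}

/-- the integral pivot elements have Galois-fixed coefficients -/
theorem exists_pivot_elt_gal (hP : PrimeToLevel N A) {m : ℤ}
    (hS : ∀ y : LaurentSeries (kA A), InL (FFb A N) m y →
      ∃ Y : LaurentSeries A, InL (FF N) m (incl A Y) ∧ red A Y = y)
    {i₀ : ℤ} (hi₀ : IsPoleBar N A m i₀) :
    ∃ X : LaurentSeries A, InL (FF N) m (incl A X) ∧ X.coeff (-i₀) = 1 ∧
      (∀ i : ℤ, IsPoleBar N A m i → i ≠ i₀ → X.coeff (-i) = 0) ∧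
      ∀ (σ : Kb ≃ₐ[ℚ] Kb) (k : ℤ), σ ((X.coeff k : A) : Kb) = ((X.coeff k : A) : Kb) := by
  obtain ⟨X, hXL, hX1, hX0⟩ := exists_pivot_elt hS hi₀
  refine ⟨X, hXL, hX1, hX0, fun σ k => ?_⟩
  have hdiff : coeffMap (σ : Kb →+* Kb) (incl A X) - incl A X = 0 := by
    apply eq_zero_of_pivots hP ((inL_coeffMap σ hXL).sub hXL)
    intro i hi
    rw [HahnSeries.coeff_sub, coeffMap_coeff, coeffMap_coeff]
    by_cases him : i = i₀
    · rw [him, hX1]
      simp
    · rw [hX0 i hi him]
      simp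
  have := congrArg (fun z : LaurentSeries Kb => z.coeff k) hdiff
  simp only [HahnSeries.coeff_sub, coeffMap_coeff, HahnSeries.coeff_zero] at this
  exact sub_eq_zero.mp this

/-- pivot uniqueness on the special fibre -/
theorem eq_zero_of_pivots_bar {m : ℤ} {z : LaurentSeries (kA A)} (hz : InL (FFb A N) m z)
    (h0 : ∀ i : ℤ, IsPoleBar N A m i → z.coeff (-i) = 0) : z = 0 := by
  by_contra hz0
  have h1 := h0 _ (isPoleBar_of_ne_zero hz hz0)
  rw [neg_neg] at h1
  exact hz0 (HahnSeries.coeff_order_eq_zero.mp h1)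

/-- inertia-fixed lifts of residue classes -/
theorem exists_fixed_residue {q : ℕ} (hq : q.Prime) (hA : A.LiesOverPrime q) (c : kA A) :
    ∃ b : A, IsLocalRing.residue A b = c ∧
      ∀ σ ∈ A.inertiaSubgroupIn ℚ, σ ((b : A) : Kb) = ((b : A) : Kb) := by
  obtain ⟨a, rfl⟩ := IsLocalRing.residue_surjective c
  obtain ⟨b, hb, hfix, hlt⟩ := Fermat.Agent.T3.helper84.k0_res hq A hA a.2
  refine ⟨⟨b, hb⟩, ?_, hfix⟩
  have hmem : (a - ⟨b, hb⟩ : A) ∈ IsLocalRing.maximalIdeal A := by
    rw [IsLocalRing.mem_maximalIdeal, mem_nonunits_iff]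
    intro hu
    have h1 : A.valuation (((a - ⟨b, hb⟩ : A) : A) : Kb) = 1 :=
      (A.valuation_eq_one_iff _).mp hu
    have e : (((a - ⟨b, hb⟩ : A) : A) : Kb) = (a : Kb) - b := rfl
    rw [e] at h1
    rw [h1] at hlt
    exact lt_irrefl _ hlt
  have h2 : IsLocalRing.residue A (a - ⟨b, hb⟩) = 0 :=
    (IsLocalRing.residue_eq_zero_iff _).mpr hmem
  rw [map_sub, sub_eq_zero] at h2
  exact h2.symm

/-- **SurjRed with inertia-fixed lifts**, at one pole bound `m`. -/
theorem exists_fixI_lift (hP : PrimeToLevel N A) {m : ℤ}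
    (hS : ∀ y : LaurentSeries (kA A), InL (FFb A N) m y →
      ∃ Y : LaurentSeries A, InL (FF N) m (incl A Y) ∧ red A Y = y)
    {y : LaurentSeries (kA A)} (hy : InL (FFb A N) m y) :
    ∃ Y : LaurentSeries A, InL (FF N) m (incl A Y) ∧ red A Y = y ∧
      ∀ σ ∈ A.inertiaSubgroupIn ℚ, ∀ k : ℤ, σ ((Y.coeff k : A) : Kb) = ((Y.coeff k : A) : Kb) := by
  classical
  obtain ⟨q, hq, -, hA⟩ := id hP
  have hReg := Fermat.Agent.P2.helper28.regRedStatement N A hP
  -- the pivot elements
  have hex : ∀ i : {i : ℤ // i ∈ pivots N A m}, ∃ X : LaurentSeries A,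
      InL (FF N) m (incl A X) ∧ X.coeff (-(i : ℤ)) = 1 ∧
      (∀ j : ℤ, IsPoleBar N A m j → j ≠ (i : ℤ) → X.coeff (-j) = 0) ∧
      ∀ (σ : Kb ≃ₐ[ℚ] Kb) (k : ℤ), σ ((X.coeff k : A) : Kb) = ((X.coeff k : A) : Kb) :=
    fun i => exists_pivot_elt_gal hP hS (mem_pivots.mp i.2)
  choose X hXL hX1 hX0 hXfix using hex
  -- inertia-fixed lifts of the pivot coefficients of `y`
  have hb : ∀ i : {i : ℤ // i ∈ pivots N A m}, ∃ b : A,
      IsLocalRing.residue A b = y.coeff (-(i : ℤ)) ∧
      ∀ σ ∈ A.inertiaSubgroupIn ℚ, σ ((b : A) : Kb) = ((b : A) : Kb) :=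
    fun i => exists_fixed_residue hq hA _
  choose b hbres hbfix using hb
  have hcoeff : ∀ k : ℤ, (∑ i, HahnSeries.C (b i) * X i).coeff k
      = ∑ i, b i * (X i).coeff k := by
    intro k
    rw [HahnSeries.coeff_sum]
    exact Finset.sum_congr rfl fun i _ => coeff_C_mul' _ _ _
  have hYL : InL (FF N) m (incl A (∑ i, HahnSeries.C (b i) * X i)) := by
    rw [map_sum]
    apply inL_sum
    intro i _
    rw [incl_C_mul]
    exact (hXL i).smul _
  refine ⟨∑ i, HahnSeries.C (b i) * X i, hYL, ?_, ?_⟩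
  · -- the reduction is `y`
    have hz : red A (∑ i, HahnSeries.C (b i) * X i) - y = 0 := by
      apply eq_zero_of_pivots_bar ((hReg m _ hYL).sub hy)
      intro j hj
      rw [HahnSeries.coeff_sub, coeffMap_coeff, hcoeff, map_sum]
      have hsum : ∑ i, IsLocalRing.residue A (b i * (X i).coeff (-j))
          = IsLocalRing.residue A (b ⟨j, mem_pivots.mpr hj⟩) := by
        rw [Finset.sum_eq_single (⟨j, mem_pivots.mpr hj⟩ : {i : ℤ // i ∈ pivots N A m})]
        · rw [hX1 ⟨j, mem_pivots.mpr hj⟩, mul_one]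
        · intro i _ hij
          have hne : j ≠ (i : ℤ) := fun h => hij (Subtype.ext h.symm)
          rw [hX0 i j hj hne, mul_zero, map_zero]
        · intro h
          exact absurd (Finset.mem_univ _) h
      rw [hsum, hbres]
      exact sub_self _
    exact sub_eq_zero.mp hz
  · intro σ hσ k
    rw [hcoeff]
    have e : (((∑ i, b i * (X i).coeff k : A)) : Kb)
        = ∑ i, ((b i : A) : Kb) * (((X i).coeff k : A) : Kb) := by
      rw [← A.subtype_apply, map_sum]
      rfl
    rw [e, map_sum]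
    apply Finset.sum_congr rfl
    intro i _
    rw [map_mul, hbfix i σ hσ, hXfix i σ k]

/-- **[SURJ-FIX]** P2's `SurjRed` with inertia-fixed lifts. -/
def SurjRedFixStatement (N : ℕ) [NeZero N] (A : ValuationSubring Kb) : Prop :=
  ∃ c : ℤ, ∀ n : ℤ, c ≤ n → ∀ y : LaurentSeries (kA A), InL (FFb A N) n y →
    ∃ Y : LaurentSeries A, InL (FF N) n (incl A Y) ∧ red A Y = y ∧
      ∀ σ ∈ A.inertiaSubgroupIn ℚ, ∀ k : ℤ, σ ((Y.coeff k : A) : Kb) = ((Y.coeff k : A) : Kb)

theorem surjRedFix (hP : PrimeToLevel N A) (hS : SurjRedStatement N A) :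
    SurjRedFixStatement N A := by
  obtain ⟨c, hc⟩ := hS
  exact ⟨c, fun n hn y hy => exists_fixI_lift hP (fun y' hy' => hc n hn y' hy') hy⟩

/-- **[SURJ-FIX]** at a good level `N` (`4 ∣ N` or `9 ∣ N`) prime to `q`, unconditional. -/
theorem surjRedFix_good {q : ℕ} [NeZero q] (hq : q.Prime) (hqN : ¬ q ∣ N)
    (hA : A.LiesOverPrime q) (hN : 4 ∣ N ∨ 9 ∣ N) : SurjRedFixStatement N A :=
  surjRedFix ⟨q, hq, hqN, hA⟩ (Fermat.Agent.T2.helper72.surjRed_good hq hqN A hA hN)

end Fermat.Agent.T3.helper96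

end
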