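import Mathlib
import Fermat.Agent.T3.helper96_FixLift
import Fermat.Agent.T3.helper98_DgTable
import Fermat.Agent.T3.helper87_Reg3Sub
import Fermat.Agent.T3.helper74_Sat3
import Fermat.Agent.T3.helper95_LocBt

/-!
# Tier 3, [T3-SURJ3] (helper95, task 941): inertia-fixed lifts and the surjectivity of the three
reduction maps at level `N q q`

Level `N` prime to `q`, `A` a valuation subring of `ℚ̄` over `q`, `I` its inertia group.

* `fixLift` : **[FIXLIFT]** every element of `L̄(m ∞̃)` (`m` large) is the reduction of an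
  integral element of `L(m ∞)` whose coefficients are fixed by the inertia group
  (= `helper96.surjRedFix`, restated with `helper74.CoeffFix`).
* `fixLift_Bt` : the same for the elements of `Bt A N`.
* `exists_den_of_riemann`, `exists_quot_regular`, `fracBt` : every element of the function field
  of the special fibre is a quotient of two elements of `Bt A N`.
* `fixLift_frac` : every `y ∈ FFb A N` is `red Y₁ / red Y₂` with `Y₁, Y₂` integral, inertia-fixed,
  in `L(m ∞)`, `red Y₂ ≠ 0`.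
* `surj3_zero`, `surj3_one`, `surj3_two`, `surj3` : **[SURJ3]** for `y ∈ Bt A N` and each of the
  three cusps `∞`, `0`, `1/q` of level `N q q` there is an inertia-fixed function, regular off
  the cusps (`helper87.IsReg3`), with integral expansions at the three cusps, whose reduction at
  the chosen cusp is `y` (the other two reductions are given by the table of helper98).
* `surj3_ring3` : the same as a statement on the ring `helper74.ring3 … (regSub3 …)`.
* good-level corollaries `fixLift_good`, `fixLift_Bt_good`, `fixLift_frac_good`, `surj3_good`.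
-/

set_option autoImplicit false
set_option synthInstance.maxHeartbeats 400000
set_option maxHeartbeats 1000000
set_option linter.style.haveILetI false
set_option linter.unusedSectionVars false
set_option linter.unusedVariables false
set_option linter.style.longLine false

noncomputable section

open HahnSeries IntermediateField ModularCurve AlgebraicCurve
open Fermat.Agent.S18.helper19 Fermat.Agent.P2.helper29

namespace Fermat.Agent.T3.helper95

open Fermat.Agent.T3.helper74 (CoeffFix ex3 IsFixI dg0 dg1 dg2 isFixI_of_coeffFix)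
open Fermat.Agent.T2.helper22 (Bt mem_Bt)

/-! ### Inertia-fixed lifts of the elements of `Bt A N` -/

section Pivot

variable {N : ℕ} [NeZero N] {A : ValuationSubring Kb}

/-- **[FIXLIFT]** from `SurjRed` at a level prime to `q` (`helper96.surjRedFix`, in the
`CoeffFix` vocabulary of helper74). -/
theorem fixLift {q : ℕ} (hq : q.Prime) (hqN : ¬ q ∣ N) (hA : A.LiesOverPrime q)
    (hS : SurjRedStatement N A) :
    ∃ c : ℤ, ∀ m : ℤ, c ≤ m → ∀ y : LaurentSeries (kA A), InL (FFb A N) m y →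
      ∃ Y : LaurentSeries A, InL (FF N) m (incl A Y) ∧ red A Y = y ∧ CoeffFix A Y :=
  Fermat.Agent.T3.helper96.surjRedFix ⟨q, hq, hqN, hA⟩ hS

/-- **[FIXLIFT]** for the elements of `Bt A N`. -/
theorem fixLift_Bt {q : ℕ} (hq : q.Prime) (hqN : ¬ q ∣ N) (hA : A.LiesOverPrime q)
    (hS : SurjRedStatement N A) {y : LaurentSeries (kA A)} (hy : y ∈ Bt A N) :
    ∃ (m : ℕ) (Y : LaurentSeries A), InL (FF N) m (incl A Y) ∧ red A Y = y ∧ CoeffFix A Y := by
  obtain ⟨c, hc⟩ := fixLift hq hqN hA hS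
  obtain ⟨n, hn⟩ := mem_Bt.mp hy
  have h1 : c ≤ ((max c n).toNat : ℤ) := (le_max_left c n).trans (Int.self_le_toNat _)
  have h2 : n ≤ ((max c n).toNat : ℤ) := (le_max_right c n).trans (Int.self_le_toNat _)
  obtain ⟨Y, hY⟩ := hc _ h1 y (hn.mono h2)
  exact ⟨(max c n).toNat, Y, hY⟩

end Pivot

/-! ### Quotients of elements regular off infinity -/

section Abstract

open Fermat.Agent.P2.helper74

variable {K F : Type*} [Field K] [Field F] [Algebra K F]

/-- **Riemann**: a nonzero function, regular off `Pinf`, vanishing along `D₀` off `Pinf`. -/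
theorem exists_den_of_riemann (hS : RiemannSetting K F) {g : ℕ} {c : ℤ}
    (hc : ∀ D : Divisor K F, c ≤ Divisor.degree D → (ell D : ℤ) + g = Divisor.degree D + 1)
    (Pinf : Place K F) (D₀ : Divisor K F) :
    ∃ s : F, s ≠ 0 ∧ ∀ v, v ≠ Pinf → D₀ v ≤ v.ord s := by
  classical
  set N : ℤ := c + 1 + Divisor.degree D₀ with hN
  set E : Divisor K F := Finsupp.single Pinf N - D₀ with hE
  set E' : Divisor K F := E - Finsupp.single Pinf 1 with hE'
  have hdegE : Divisor.degree E = c + 1 := by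
    rw [hE, map_sub, Divisor.degree_single, hS.deg_one Pinf, hN]
    push_cast
    ring
  have hdegE' : Divisor.degree E' = c := by
    rw [hE', map_sub, hdegE, Divisor.degree_single, hS.deg_one Pinf]
    push_cast
    ring
  have h1 := hc E (by rw [hdegE]; linarith)
  have h2 := hc E' (by rw [hdegE'])
  rw [hdegE] at h1
  rw [hdegE'] at h2
  have hlt : ell E' < ell E := by
    have : (ell E' : ℤ) < ell E := by linarith
    exact_mod_cast this
  have hle : riemannRochSpace E' ≤ riemannRochSpace E := L_mono (fun v => by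
    rw [hE', Finsupp.sub_apply]
    have : (0 : ℤ) ≤ (Finsupp.single Pinf (1 : ℤ)) v := by
      rw [Finsupp.single_apply]
      split_ifs <;> norm_num
    linarith)
  have hne : ¬ riemannRochSpace E ≤ riemannRochSpace E' := by
    intro h
    have heq : riemannRochSpace E' = riemannRochSpace E := le_antisymm hle h
    unfold ell at hlt
    rw [heq] at hlt
    exact lt_irrefl _ hlt
  obtain ⟨s, hsE, hsE'⟩ := SetLike.not_le_iff_exists.mp hne
  have hs0 : s ≠ 0 := by
    rintro rfl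
    exact hsE' (zero_mem _)
  have hsE2 := (mem_L_iff' hs0).mp hsE
  refine ⟨s, hs0, fun v hv => ?_⟩
  have := hsE2 v
  rw [hE, Finsupp.sub_apply, Finsupp.single_apply, if_neg (Ne.symm hv), zero_sub] at this
  simpa using this

/-- every function is a quotient of two functions regular off `Pinf`. -/
theorem exists_quot_regular (hS : RiemannSetting K F) {g : ℕ} {c : ℤ}
    (hc : ∀ D : Divisor K F, c ≤ Divisor.degree D → (ell D : ℤ) + g = Divisor.degree D + 1)
    (Pinf : Place K F) (y : F) :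
    ∃ x s : F, s ≠ 0 ∧ (∀ v, v ≠ Pinf → 0 ≤ v.ord s) ∧ (∀ v, v ≠ Pinf → 0 ≤ v.ord x) ∧
      y * s = x := by
  classical
  rcases eq_or_ne y 0 with rfl | hy0
  · exact ⟨0, 1, one_ne_zero, fun v _ => (Place.ord_one v).ge,
      fun v _ => (Place.ord_zero v).ge, zero_mul 1⟩
  obtain ⟨Z, hZ, -⟩ := hS.principal.exists_divisor y hy0
  obtain ⟨s, hs0, hsv⟩ := exists_den_of_riemann hS hc Pinf (polePart Pinf Z)
  refine ⟨y * s, s, hs0, fun v hv => ?_, fun v hv => ?_, rfl⟩
  · exact (polePart_nonneg Pinf Z v).trans (hsv v hv)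
  · rw [Place.ord_mul v hy0 hs0]
    have h1 := hsv v hv
    rw [polePart_apply, if_neg hv, hZ v] at h1
    have h2 : -(v.ord y) ≤ max 0 (-(v.ord y)) := le_max_right _ _
    omega

end Abstract

section Frac

variable (N : ℕ) [NeZero N] (A : ValuationSubring Kb)

/-- every element of the function field of the special fibre is a quotient of two elements of
`Bt A N`. -/
theorem fracBt (y : FFb A N) :
    ∃ x s : FFb A N, (x : LaurentSeries (kA A)) ∈ Bt A N ∧
      (s : LaurentSeries (kA A)) ∈ Bt A N ∧ s ≠ 0 ∧ y * s = x := by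
  obtain ⟨-, Pinf, hPinf⟩ := inftyStatement N A
  obtain ⟨g, -, c, hc⟩ := Fermat.Agent.P2.helper95.riemannBar N A
  have hS := Fermat.Agent.P2.helper95.riemannSetting_FFb N A
  have hne : ∀ v : Place (kA A) (FFb A N), ¬ IsInfty v → v ≠ Pinf :=
    fun v hv h => hv (h ▸ hPinf)
  obtain ⟨x, s, hs0, hsv, hxv, hxy⟩ := exists_quot_regular hS hc Pinf y
  exact ⟨x, s, mem_Bt_of_regular N A x (fun P hP => hxv P (hne P hP)),
    mem_Bt_of_regular N A s (fun P hP => hsv P (hne P hP)), hs0, hxy⟩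

variable {N A}

/-- **[FIXLIFT], quotient form**: every element of the function field of the special fibre is
`red Y₁ / red Y₂` for two integral inertia-fixed elements of `L(m ∞)`. -/
theorem fixLift_frac {q : ℕ} (hq : q.Prime) (hqN : ¬ q ∣ N) (hA : A.LiesOverPrime q)
    (hS : SurjRedStatement N A) {y : LaurentSeries (kA A)} (hy : y ∈ FFb A N) :
    ∃ (m : ℕ) (Y₁ Y₂ : LaurentSeries A), InL (FF N) m (incl A Y₁) ∧ InL (FF N) m (incl A Y₂) ∧
      CoeffFix A Y₁ ∧ CoeffFix A Y₂ ∧ red A Y₂ ≠ 0 ∧ red A Y₁ = y * red A Y₂ := by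
  obtain ⟨x, s, hx, hs, hs0, hxy⟩ := fracBt N A ⟨y, hy⟩
  obtain ⟨m₁, Y₁, hY₁, hr₁, hf₁⟩ := fixLift_Bt hq hqN hA hS hx
  obtain ⟨m₂, Y₂, hY₂, hr₂, hf₂⟩ := fixLift_Bt hq hqN hA hS hs
  refine ⟨max m₁ m₂, Y₁, Y₂, hY₁.mono (by exact_mod_cast le_max_left m₁ m₂),
    hY₂.mono (by exact_mod_cast le_max_right m₁ m₂), hf₁, hf₂, ?_, ?_⟩
  · rw [hr₂]
    intro h
    exact hs0 (Subtype.ext h)
  · rw [hr₁, hr₂]
    exact (congrArg Subtype.val hxy).symm

end Frac

/-! ### The three reduction maps at level `N q q` -/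

section Surj

variable {N q : ℕ} [NeZero N] [NeZero q] {hq : q.Prime} {hqN : ¬ q ∣ N}
variable {A : ValuationSubring Kb}

/-- the function of level `N` with a given expansion in `L(m ∞)` -/
theorem exists_fun_of_inL {m : ℕ} {Y : LaurentSeries A} (hY : InL (FF N) m (incl A Y))
    (hfix : CoeffFix A Y) :
    ∃ f : FF N, (f : LaurentSeries Kb) = incl A Y ∧ InL (FF N) m (f : LaurentSeries Kb) ∧
      IsFixI A N f :=
  ⟨⟨incl A Y, hY.1⟩, rfl, hY, isFixI_of_coeffFix A N hY.1 hfix⟩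

/-- **[SURJ3] at the cusp `∞`** (and at the middle cusp): `F = f(τ)`, reductions
`(y, Fr² y, y)`. -/
theorem surj3_zero (hA : A.LiesOverPrime q) (hS : SurjRedStatement N A) {ζ : Kb}
    (hζ : IsPrimitiveRoot ζ q) {y : LaurentSeries (kA A)} (hy : y ∈ Bt A N) :
    ∃ (F : FF (N * q * q)) (Y' : Fin 3 → LaurentSeries A),
      Fermat.Agent.T3.helper87.IsReg3 N q hq hqN hζ F ∧ IsFixI A (N * q * q) F ∧
      (∀ i, incl A (Y' i) = ex3 N q hq hqN hζ i F) ∧
      red A (Y' 0) = y ∧ red A (Y' 1) = qExpand (kA A) q (qExpand (kA A) q y) ∧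
      red A (Y' 2) = y := by
  obtain ⟨m, Y, hY, hr, hfix⟩ := fixLift_Bt hq hqN hA hS hy
  obtain ⟨f, hf, hfL, hfI⟩ := exists_fun_of_inL hY hfix
  obtain ⟨Y', hY', h0, h1, h2⟩ :=
    Fermat.Agent.T3.helper98.red3_dg0 (hq := hq) (hqN := hqN) A hζ f Y hf.symm
  refine ⟨dg0 N q f, Y', ?_, Fermat.Agent.T3.helper98.isFixI_dg0 A hfI, hY', ?_, ?_, ?_⟩
  · exact (Fermat.Agent.T3.helper87.dg_mem_regSub3 (hq := hq) (hqN := hqN) (hζ := hζ) m f hfL).1
  · rw [h0, hr]
  · rw [h1, hr]
  · rw [h2, hr]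

/-- **[SURJ3] at the cusp `0`** (and at the middle cusp): `F = f(q² τ)`, reductions
`(Fr² y, y, y)`. -/
theorem surj3_one (hA : A.LiesOverPrime q) (hS : SurjRedStatement N A) {ζ : Kb}
    (hζ : IsPrimitiveRoot ζ q) {y : LaurentSeries (kA A)} (hy : y ∈ Bt A N) :
    ∃ (F : FF (N * q * q)) (Y' : Fin 3 → LaurentSeries A),
      Fermat.Agent.T3.helper87.IsReg3 N q hq hqN hζ F ∧ IsFixI A (N * q * q) F ∧
      (∀ i, incl A (Y' i) = ex3 N q hq hqN hζ i F) ∧
      red A (Y' 0) = qExpand (kA A) q (qExpand (kA A) q y) ∧ red A (Y' 1) = y ∧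
      red A (Y' 2) = y := by
  obtain ⟨m, Y, hY, hr, hfix⟩ := fixLift_Bt hq hqN hA hS hy
  obtain ⟨f, hf, hfL, hfI⟩ := exists_fun_of_inL hY hfix
  obtain ⟨Y', hY', h0, h1, h2⟩ :=
    Fermat.Agent.T3.helper98.red3_dg2 (hq := hq) (hqN := hqN) A hA hζ f Y hf.symm
  refine ⟨dg2 N q f, Y', ?_, Fermat.Agent.T3.helper98.isFixI_dg2 A hfI, hY', ?_, ?_, ?_⟩
  · exact (Fermat.Agent.T3.helper87.dg_mem_regSub3 (hq := hq) (hqN := hqN) (hζ := hζ) m f
      hfL).2.2
  · rw [h0, hr]
  · rw [h1, hr]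
  · rw [h2, hr]

/-- **[SURJ3]** each of the three reduction maps of the ring of the inertia-fixed functions of
level `N q q`, regular off the cusps and with integral expansions, is onto `Bt A N`. -/
theorem surj3 (hA : A.LiesOverPrime q) (hS : SurjRedStatement N A) {ζ : Kb}
    (hζ : IsPrimitiveRoot ζ q) (i : Fin 3) {y : LaurentSeries (kA A)} (hy : y ∈ Bt A N) :
    ∃ (F : FF (N * q * q)) (Y' : Fin 3 → LaurentSeries A),
      Fermat.Agent.T3.helper87.IsReg3 N q hq hqN hζ F ∧ IsFixI A (N * q * q) F ∧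
      (∀ j, incl A (Y' j) = ex3 N q hq hqN hζ j F) ∧ red A (Y' i) = y := by
  rcases Fermat.Agent.T3.helper74.fin3_cases i with rfl | rfl | rfl
  · obtain ⟨F, Y', h1, h2, h3, h4, -, -⟩ := surj3_zero (hq := hq) (hqN := hqN) hA hS hζ hy
    exact ⟨F, Y', h1, h2, h3, h4⟩
  · obtain ⟨F, Y', h1, h2, h3, -, h4, -⟩ := surj3_one (hq := hq) (hqN := hqN) hA hS hζ hy
    exact ⟨F, Y', h1, h2, h3, h4⟩
  · obtain ⟨F, Y', h1, h2, h3, -, -, h4⟩ := surj3_zero (hq := hq) (hqN := hqN) hA hS hζ hy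
    exact ⟨F, Y', h1, h2, h3, h4⟩

/-- **[SURJ3]** on the ring `ring3` of helper74 for `B = regSub3`. -/
theorem surj3_ring3 (hA : A.LiesOverPrime q) (hS : SurjRedStatement N A) {ζ : Kb}
    (hζ : IsPrimitiveRoot ζ q) (i : Fin 3) {y : LaurentSeries (kA A)} (hy : y ∈ Bt A N) :
    ∃ Φ ∈ Fermat.Agent.T3.helper74.ring3 N q hq hqN A hζ
        (Fermat.Agent.T3.helper87.regSub3 N q hq hqN hζ), red A (Φ i) = y := by
  obtain ⟨F, Y', h1, h2, h3, h4⟩ := surj3 (hq := hq) (hqN := hqN) hA hS hζ i hy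
  exact ⟨Y', ⟨F, h1, h2, h3⟩, h4⟩

end Surj

/-! ### Good levels -/

section Good

variable {N q : ℕ} [NeZero N] [NeZero q] {A : ValuationSubring Kb}

/-- **[FIXLIFT]** at a good level, unconditional. -/
theorem fixLift_good (hq : q.Prime) (hqN : ¬ q ∣ N) (hA : A.LiesOverPrime q)
    (hN : 4 ∣ N ∨ 9 ∣ N) :
    ∃ c : ℤ, ∀ m : ℤ, c ≤ m → ∀ y : LaurentSeries (kA A), InL (FFb A N) m y →
      ∃ Y : LaurentSeries A, InL (FF N) m (incl A Y) ∧ red A Y = y ∧ CoeffFix A Y :=
  fixLift hq hqN hA (Fermat.Agent.T2.helper72.surjRed_good hq hqN A hA hN)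

/-- **[FIXLIFT]** for `Bt A N` at a good level, unconditional. -/
theorem fixLift_Bt_good (hq : q.Prime) (hqN : ¬ q ∣ N) (hA : A.LiesOverPrime q)
    (hN : 4 ∣ N ∨ 9 ∣ N) {y : LaurentSeries (kA A)} (hy : y ∈ Bt A N) :
    ∃ (m : ℕ) (Y : LaurentSeries A), InL (FF N) m (incl A Y) ∧ red A Y = y ∧ CoeffFix A Y :=
  fixLift_Bt hq hqN hA (Fermat.Agent.T2.helper72.surjRed_good hq hqN A hA hN) hy

/-- **[FIXLIFT], quotient form**, at a good level, unconditional. -/
theorem fixLift_frac_good (hq : q.Prime) (hqN : ¬ q ∣ N) (hA : A.LiesOverPrime q)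
    (hN : 4 ∣ N ∨ 9 ∣ N) {y : LaurentSeries (kA A)} (hy : y ∈ FFb A N) :
    ∃ (m : ℕ) (Y₁ Y₂ : LaurentSeries A), InL (FF N) m (incl A Y₁) ∧ InL (FF N) m (incl A Y₂) ∧
      CoeffFix A Y₁ ∧ CoeffFix A Y₂ ∧ red A Y₂ ≠ 0 ∧ red A Y₁ = y * red A Y₂ :=
  fixLift_frac hq hqN hA (Fermat.Agent.T2.helper72.surjRed_good hq hqN A hA hN) hy

/-- **[SURJ3]** at a good level, unconditional. -/
theorem surj3_good (hq : q.Prime) (hqN : ¬ q ∣ N) (hA : A.LiesOverPrime q)
    (hN : 4 ∣ N ∨ 9 ∣ N) {ζ : Kb} (hζ : IsPrimitiveRoot ζ q) (i : Fin 3)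
    {y : LaurentSeries (kA A)} (hy : y ∈ Bt A N) :
    ∃ (F : FF (N * q * q)) (Y' : Fin 3 → LaurentSeries A),
      Fermat.Agent.T3.helper87.IsReg3 N q hq hqN hζ F ∧ IsFixI A (N * q * q) F ∧
      (∀ j, incl A (Y' j) = ex3 N q hq hqN hζ j F) ∧ red A (Y' i) = y :=
  surj3 hA (Fermat.Agent.T2.helper72.surjRed_good hq hqN A hA hN) hζ i hy

end Good

end Fermat.Agent.T3.helper95

end
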