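import Mathlib
import Fermat.Agent.T3.helper95_Surj3
import Fermat.Agent.T2.helper22_Filt
import Fermat.Agent.T3.helper3_Overring
import Fermat.Agent.T2.helper87_RegRed2

/-!
# Tier 3, [T3-BT-DEDEKIND] (helper95): the affine ring of the special fibre is a Dedekind domain

`Bt A N` (helper22_CoreDefs) is the ring of the functions of the special fibre of `X₀(N)` at `A`
which are regular off the place `∞̃`; `FFb A N` is the function field.

* `exists_div_rem` : division with remainder: for `f ≠ 0` in `Bt` there is `m₀` with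
  `Bt = f Bt + L̄(m₀ ∞̃)` (exact-pole elements + induction on the pole order).
* `finite_quot_Bt` : `Bt ⧸ I` is finite-dimensional over `k` for every ideal `I ≠ 0`.
* `isNoetherianRing_Bt`, `dimensionLEOne_Bt`.
* `btIncl : Bt A N →+* FFb A N`, `isFractionRing_Bt`, `exists_btIncl_eq_of_isIntegral`.
* `isDedekindDomain_Bt` : **`Bt A N` is a Dedekind domain** (no separability argument).
* `BtAll N A` : the functions regular where `j̄` is finite (regular off ALL cusps);
  `Bt_le_BtAll`, `isDedekindDomain_BtAll` (overring, helper3), `btAllIncl`,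
  `isFractionRing_BtAll`.
-/

set_option autoImplicit false
set_option synthInstance.maxHeartbeats 400000
set_option maxHeartbeats 1000000
set_option linter.style.haveILetI false
set_option linter.unusedSectionVars false
set_option linter.unusedVariables false
set_option linter.style.longLine false

noncomputable section

open HahnSeries IntermediateField ModularCurve AlgebraicCurve
open Fermat.Agent.S18.helper19 Fermat.Agent.P2.helper29

namespace Fermat.Agent.T3.helper95

open Fermat.Agent.T2.helper22 (Bt mem_Bt LtLS mem_LtLS finiteDimensional_LtLS)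

section Div

variable {N : ℕ} [NeZero N] {A : ValuationSubring Kb}

/-- an element of `Bt` lies in `L̄(d ∞̃)` for `d = - order`. -/
theorem inL_neg_order {f : LaurentSeries (kA A)} (hf : f ∈ Bt A N) :
    InL (FFb A N) (-f.order) f := by
  obtain ⟨n, hmem, hreg, -⟩ := mem_Bt.mp hf
  refine ⟨hmem, hreg, fun k hk => ?_⟩
  rw [neg_neg] at hk
  exact HahnSeries.coeff_eq_zero_of_lt_order hk

/-- lowering the pole order by one -/
theorem inL_pred {m : ℤ} {y : LaurentSeries (kA A)} (hy : InL (FFb A N) m y)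
    (h0 : y.coeff (-m) = 0) : InL (FFb A N) (m - 1) y := by
  refine ⟨hy.1, hy.2.1, fun k hk => ?_⟩
  rcases lt_or_eq_of_le (show k ≤ -m by omega) with h | h
  · exact hy.2.2 k h
  · rw [h, h0]

/-- **one division step**: modulo `f`, the pole order of `y` can be lowered as long as it is
at least `cb - order f`. -/
theorem exists_div_step {f : LaurentSeries (kA A)} (hf : f ∈ Bt A N) (hf0 : f ≠ 0) {cb : ℤ}
    (hcb : ∀ m : ℤ, cb ≤ m → ∃ y : LaurentSeries (kA A), InL (FFb A N) m y ∧ y.coeff (-m) ≠ 0)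
    {m : ℤ} (hm : cb - f.order ≤ m) {y : LaurentSeries (kA A)} (hy : InL (FFb A N) m y) :
    ∃ z : LaurentSeries (kA A), z ∈ Bt A N ∧ InL (FFb A N) (m - 1) (y - f * z) := by
  obtain ⟨w, hw, hw0⟩ := hcb (m + f.order) (by omega)
  have hwo : w.order = -(m + f.order) :=
    Fermat.Agent.S28.helper81.order_eq_of_coeff w _ hw0 hw.2.2
  have hwne : w ≠ 0 := by
    intro h
    rw [h, HahnSeries.coeff_zero] at hw0
    exact hw0 rfl
  have hfL := inL_neg_order hf
  have hlead : (f * w).coeff (-m) = f.leadingCoeff * w.leadingCoeff := by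
    have := HahnSeries.coeff_mul_order_add_order f w
    rw [hwo] at this
    rw [← this]
    congr 1
    ring
  have hlead0 : f.leadingCoeff * w.leadingCoeff ≠ 0 :=
    mul_ne_zero (HahnSeries.leadingCoeff_ne_zero.mpr hf0) (HahnSeries.leadingCoeff_ne_zero.mpr hwne)
  set a : kA A := y.coeff (-m) / (f.leadingCoeff * w.leadingCoeff) with ha
  set z : LaurentSeries (kA A) := algebraMap (kA A) (LaurentSeries (kA A)) a * w with hz
  have hzL : InL (FFb A N) (m + f.order) z := hw.smul a
  have hfz : InL (FFb A N) m (f * z) := by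
    have := hfL.mul hzL
    rwa [show -f.order + (m + f.order) = m by ring] at this
  refine ⟨z, mem_Bt.mpr ⟨_, hzL⟩, inL_pred (hy.sub hfz) ?_⟩
  have e : f * z = algebraMap (kA A) (LaurentSeries (kA A)) a * (f * w) := by
    rw [hz]
    ring
  rw [HahnSeries.coeff_sub, e, algebraMap_laurentSeries_eq_single, ← HahnSeries.C_apply,
    HahnSeries.C_mul_eq_smul, HahnSeries.coeff_smul, hlead, smul_eq_mul, ha,
    div_mul_cancel₀ _ hlead0, sub_self]

/-- **division with remainder in `Bt`**: modulo a nonzero `f`, every element of `Bt` is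
congruent to an element of the finite-dimensional space `L̄(m₀ ∞̃)`. -/
theorem exists_div_rem (N : ℕ) [NeZero N] (A : ValuationSubring Kb)
    {f : LaurentSeries (kA A)} (hf : f ∈ Bt A N) (hf0 : f ≠ 0) :
    ∃ m₀ : ℤ, ∀ y : LaurentSeries (kA A), y ∈ Bt A N →
      ∃ z : LaurentSeries (kA A), z ∈ Bt A N ∧ InL (FFb A N) m₀ (y - f * z) := by
  obtain ⟨cb, hcb⟩ := Fermat.Agent.T2.helper96.exists_exact_bar N A
  set m₀ : ℤ := cb - f.order with hm₀
  have key : ∀ n : ℕ, ∀ y : LaurentSeries (kA A), InL (FFb A N) (m₀ + n) y →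
      ∃ z : LaurentSeries (kA A), z ∈ Bt A N ∧ InL (FFb A N) m₀ (y - f * z) := by
    intro n
    induction n with
    | zero =>
      intro y hy
      refine ⟨0, (Bt A N).zero_mem, ?_⟩
      rw [mul_zero, sub_zero]
      simpa using hy
    | succ n ih =>
      intro y hy
      obtain ⟨z, hz, hyz⟩ := exists_div_step hf hf0 hcb (m := m₀ + (n + 1 : ℕ))
        (by rw [hm₀]; push_cast; omega) hy
      have hyz' : InL (FFb A N) (m₀ + n) (y - f * z) := by
        have e : m₀ + ((n + 1 : ℕ) : ℤ) - 1 = m₀ + n := by push_cast; ring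
        rwa [e] at hyz
      obtain ⟨z', hz', hyz''⟩ := ih _ hyz'
      refine ⟨z + z', (Bt A N).add_mem hz hz', ?_⟩
      have e : y - f * (z + z') = y - f * z - f * z' := by ring
      rw [e]
      exact hyz''
  refine ⟨m₀, fun y hy => ?_⟩
  obtain ⟨n, hn⟩ := mem_Bt.mp hy
  have h1 : n ≤ m₀ + ((n - m₀).toNat : ℤ) := by
    have := Int.self_le_toNat (n - m₀)
    omega
  exact key _ y (hn.mono h1)

end Div

/-! ### Quotients of `Bt` are finite-dimensional -/

section Quot

variable (N : ℕ) [NeZero N] (A : ValuationSubring Kb)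

/-- the elements of `L̄(m ∞̃)` as elements of `Bt` -/
def toBt (m : ℤ) : LtLS A N m →ₗ[kA A] Bt A N where
  toFun r := ⟨r.1, mem_Bt.mpr ⟨m, r.2⟩⟩
  map_add' _ _ := rfl
  map_smul' c r := by
    apply Subtype.ext
    show c • (r : LaurentSeries (kA A)) = ((c • (⟨r.1, mem_Bt.mpr ⟨m, r.2⟩⟩ : Bt A N) : Bt A N) :
      LaurentSeries (kA A))
    rw [Fermat.Agent.T2.helper22.coe_smul_Bt, Fermat.Agent.P2.helper22.algebraMap_mul_eq_smul]

@[simp] theorem coe_toBt (m : ℤ) (r : LtLS A N m) :
    ((toBt N A m r : Bt A N) : LaurentSeries (kA A)) = r := rfl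

variable {N A}

/-- **the quotient of `Bt` by a nonzero ideal is finite-dimensional.** -/
theorem finite_quot_Bt {I : Ideal (Bt A N)} (hI : I ≠ ⊥) :
    Module.Finite (kA A) (Bt A N ⧸ I) := by
  obtain ⟨f, hfI, hf0⟩ := Submodule.exists_mem_ne_zero_of_ne_bot hI
  have hf0' : (f : LaurentSeries (kA A)) ≠ 0 := fun h => hf0 (Subtype.ext h)
  obtain ⟨m₀, hm₀⟩ := exists_div_rem N A f.2 hf0'
  obtain ⟨-, Pinf, hPinf⟩ := inftyStatement N A
  haveI : FiniteDimensional (kA A) (LtLS A N m₀) :=
    finiteDimensional_LtLS (Fermat.Agent.P2.helper95.riemannSetting_FFb N A) hPinf m₀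
  let θ : LtLS A N m₀ →ₗ[kA A] (Bt A N ⧸ I) :=
    (Ideal.Quotient.mkₐ (kA A) I).toLinearMap.comp (toBt N A m₀)
  refine Module.Finite.of_surjective θ ?_
  intro x
  obtain ⟨y, rfl⟩ := Ideal.Quotient.mk_surjective x
  obtain ⟨z, hz, hr⟩ := hm₀ y y.2
  refine ⟨⟨(y : LaurentSeries (kA A)) - f * z, hr⟩, ?_⟩
  show Ideal.Quotient.mk I (toBt N A m₀ ⟨(y : LaurentSeries (kA A)) - f * z, hr⟩) = _
  rw [Ideal.Quotient.eq]
  have e : toBt N A m₀ ⟨(y : LaurentSeries (kA A)) - f * z, hr⟩ - y = -(f * ⟨z, hz⟩) := by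
    apply Subtype.ext
    show (y : LaurentSeries (kA A)) - f * z - y = -((f : LaurentSeries (kA A)) * z)
    ring
  rw [e]
  exact I.neg_mem (I.mul_mem_right _ hfI)

/-- `Bt` is noetherian. -/
theorem isNoetherianRing_Bt : IsNoetherianRing (Bt A N) := by
  rw [isNoetherianRing_iff_ideal_fg]
  intro I
  rcases eq_or_ne I ⊥ with rfl | hI
  · exact Submodule.fg_bot
  obtain ⟨f, hfI, hf0⟩ := Submodule.exists_mem_ne_zero_of_ne_bot hI
  set J : Ideal (Bt A N) := Ideal.span {f} with hJ
  have hJI : J ≤ I := (Ideal.span_singleton_le_iff_mem I).mpr hfI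
  have hJ0 : J ≠ ⊥ := by
    intro h
    apply hf0
    have : f ∈ J := Ideal.mem_span_singleton_self f
    rw [h] at this
    exact (Submodule.mem_bot _).mp this
  haveI : Module.Finite (kA A) (Bt A N ⧸ J) := finite_quot_Bt hJ0
  haveI : IsNoetherian (kA A) (Bt A N ⧸ J) := inferInstance
  haveI : IsNoetherian (Bt A N) (Bt A N ⧸ J) := isNoetherian_of_tower (kA A) inferInstance
  refine Submodule.fg_of_fg_map_of_fg_inf_ker (Submodule.mkQ J) (IsNoetherian.noetherian _) ?_
  rw [Submodule.ker_mkQ, inf_eq_right.mpr hJI]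
  exact ⟨{f}, by rw [Finset.coe_singleton]⟩

/-- every nonzero prime ideal of `Bt` is maximal. -/
theorem dimensionLEOne_Bt : Ring.DimensionLEOne (Bt A N) where
  maximalOfPrime := by
    intro P hP0 hPprime
    haveI := hPprime
    haveI : Module.Finite (kA A) (Bt A N ⧸ P) := finite_quot_Bt hP0
    haveI : IsArtinianRing (Bt A N ⧸ P) := IsArtinianRing.of_finite (kA A) _
    exact Ideal.Quotient.maximal_of_isField P (IsArtinianRing.isField_of_isDomain _)

end Quot

/-! ### `Bt` is a Dedekind domain with fraction field `FFb` -/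

section Ded

variable (N : ℕ) [NeZero N] (A : ValuationSubring Kb)

/-- the inclusion of `Bt` into the function field of the special fibre -/
def btIncl : Bt A N →+* FFb A N :=
  (Bt A N).val.toRingHom.codRestrict (FFb A N) (fun y => by
    obtain ⟨n, hn⟩ := mem_Bt.mp y.2
    exact hn.1)

@[simp] theorem coe_btIncl (y : Bt A N) :
    ((btIncl N A y : FFb A N) : LaurentSeries (kA A)) = y := rfl

theorem btIncl_injective : Function.Injective (btIncl N A) :=
  fun x y h => Subtype.ext (congrArg (fun z : FFb A N => (z : LaurentSeries (kA A))) h)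

/-- the elements of `Bt` are regular at the finite places -/
theorem ord_btIncl_nonneg (y : Bt A N) (P : Place (kA A) (FFb A N)) (hP : ¬ IsInfty P) :
    0 ≤ P.ord (btIncl N A y) := by
  obtain ⟨hy', h⟩ := regular_of_mem_Bt N A y.2
  exact h P hP

/-- a function regular at the finite places lies in `Bt` -/
theorem exists_btIncl_eq (x : FFb A N)
    (hx : ∀ P : Place (kA A) (FFb A N), ¬ IsInfty P → 0 ≤ P.ord x) :
    ∃ y : Bt A N, btIncl N A y = x :=
  ⟨⟨x, mem_Bt_of_regular N A x hx⟩, Subtype.ext rfl⟩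

/-- **`FFb A N` is the fraction field of `Bt A N`.** -/
theorem isFractionRing_Bt :
    letI := (btIncl N A).toAlgebra
    IsFractionRing (Bt A N) (FFb A N) := by
  letI := (btIncl N A).toAlgebra
  haveI : FaithfulSMul (Bt A N) (FFb A N) :=
    (faithfulSMul_iff_algebraMap_injective _ _).mpr (btIncl_injective N A)
  refine IsFractionRing.of_field _ _ fun z => ?_
  obtain ⟨x, s, hx, hs, hs0, hxy⟩ := fracBt N A z
  refine ⟨⟨x, hx⟩, ⟨s, hs⟩, ?_⟩
  have e1 : algebraMap (Bt A N) (FFb A N) ⟨x, hx⟩ = x := Subtype.ext rfl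
  have e2 : algebraMap (Bt A N) (FFb A N) ⟨s, hs⟩ = s := Subtype.ext rfl
  rw [e1, e2, eq_div_iff hs0]
  exact hxy

/-- `Bt` is integrally closed in `FFb`. -/
theorem exists_btIncl_eq_of_isIntegral {x : FFb A N} (hx : (btIncl N A).IsIntegralElem x) :
    ∃ y : Bt A N, btIncl N A y = x := by
  apply exists_btIncl_eq
  intro P hP
  rw [← Fermat.Agent.S24.helper82.mem_iff_ord_nonneg]
  refine Fermat.Agent.T2.helper87.mem_of_isIntegralElem P.toValuationSubring (btIncl N A)
    (fun r => ?_) hx
  rw [Fermat.Agent.S24.helper82.mem_iff_ord_nonneg]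
  exact ord_btIncl_nonneg N A r P hP

/-- **`Bt A N` is a Dedekind domain.** -/
theorem isDedekindDomain_Bt : IsDedekindDomain (Bt A N) := by
  letI := (btIncl N A).toAlgebra
  haveI := isFractionRing_Bt N A
  exact (isDedekindDomain_iff (Bt A N) (FFb A N)).mpr
    ⟨inferInstance, isNoetherianRing_Bt, dimensionLEOne_Bt,
      fun {x} hx => exists_btIncl_eq_of_isIntegral N A hx⟩

end Ded

/-! ### The ring of the functions regular where `j̄` is finite -/

section Generic

variable {K : Type*} [Field K] {E : IntermediateField K (LaurentSeries K)}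

/-- `y` is a function which is regular at every place where `j` is regular -/
def RegWhere (j : E) (y : LaurentSeries K) : Prop :=
  ∃ hy : y ∈ E, ∀ P : Place K E, 0 ≤ P.ord j → 0 ≤ P.ord (⟨y, hy⟩ : E)

theorem RegWhere.mul {j : E} {x y : LaurentSeries K} (hx : RegWhere j x) (hy : RegWhere j y) :
    RegWhere j (x * y) := by
  obtain ⟨hx, hx'⟩ := hx
  obtain ⟨hy, hy'⟩ := hy
  refine ⟨E.mul_mem hx hy, fun P hP => ?_⟩
  have h1 := hx' P hP
  have h2 := hy' P hP
  rw [← Fermat.Agent.S24.helper82.mem_iff_ord_nonneg] at h1 h2 ⊢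
  have e : (⟨x * y, E.mul_mem hx hy⟩ : E) = (⟨x, hx⟩ : E) * (⟨y, hy⟩ : E) := rfl
  rw [e]
  exact P.toValuationSubring.mul_mem _ _ h1 h2

theorem RegWhere.add {j : E} {x y : LaurentSeries K} (hx : RegWhere j x) (hy : RegWhere j y) :
    RegWhere j (x + y) := by
  obtain ⟨hx, hx'⟩ := hx
  obtain ⟨hy, hy'⟩ := hy
  refine ⟨E.add_mem hx hy, fun P hP => ?_⟩
  have h1 := hx' P hP
  have h2 := hy' P hP
  rw [← Fermat.Agent.S24.helper82.mem_iff_ord_nonneg] at h1 h2 ⊢
  have e : (⟨x + y, E.add_mem hx hy⟩ : E) = (⟨x, hx⟩ : E) + (⟨y, hy⟩ : E) := rfl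
  rw [e]
  exact P.toValuationSubring.add_mem _ _ h1 h2

theorem regWhere_algebraMap (j : E) (c : K) :
    RegWhere j (algebraMap K (LaurentSeries K) c) := by
  refine ⟨E.algebraMap_mem c, fun P _ => ?_⟩
  have e : (⟨algebraMap K (LaurentSeries K) c, E.algebraMap_mem c⟩ : E) = algebraMap K E c := rfl
  rw [e, Fermat.Agent.S24.helper82.ord_algebraMap]

end Generic

section All

variable (N : ℕ) [NeZero N] (A : ValuationSubring Kb)

/-- the functions of the special fibre which are regular where `j̄` is finite (regular off ALL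
cusps), as a subalgebra of `k((t))`. -/
def BtAll : Subalgebra (kA A) (LaurentSeries (kA A)) where
  carrier := {y | RegWhere (jBar A N) y}
  mul_mem' := fun hx hy => hx.mul hy
  add_mem' := fun hx hy => hx.add hy
  algebraMap_mem' := fun c => regWhere_algebraMap _ c

variable {N A}

theorem mem_BtAll {y : LaurentSeries (kA A)} :
    y ∈ BtAll N A ↔ ∃ hy : y ∈ FFb A N, ∀ P : Place (kA A) (FFb A N),
      0 ≤ P.ord (jBar A N) → 0 ≤ P.ord (⟨y, hy⟩ : FFb A N) := Iff.rfl

/-- `j̄` has a pole at infinity -/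
theorem ord_jBar_neg {P : Place (kA A) (FFb A N)} (hP : IsInfty P) : P.ord (jBar A N) < 0 := by
  have h0 : jBar A N ≠ 0 := by
    intro h
    have h1 := congrArg (fun x : FFb A N => (x : LaurentSeries (kA A)).order) h
    simp only [ZeroMemClass.coe_zero, HahnSeries.order_zero] at h1
    have h2 : ((jBar A N : FFb A N) : LaurentSeries (kA A)).order = -1 :=
      Fermat.Agent.S28.helper81.order_jqModC (kA A)
    rw [h2] at h1
    omega
  rw [hP _ h0]
  have h2 : ((jBar A N : FFb A N) : LaurentSeries (kA A)).order = -1 :=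
    Fermat.Agent.S28.helper81.order_jqModC (kA A)
  rw [h2]
  norm_num

/-- `Bt ≤ BtAll` -/
theorem Bt_le_BtAll : Bt A N ≤ BtAll N A := by
  intro y hy
  obtain ⟨hy', h⟩ := regular_of_mem_Bt N A hy
  exact ⟨hy', fun P hP => h P (fun hinf => by
    have := ord_jBar_neg (N := N) (A := A) hinf
    omega)⟩

variable (N A)

/-- **`BtAll` is a Dedekind domain** (an overring of `Bt`). -/
theorem isDedekindDomain_BtAll : IsDedekindDomain (BtAll N A) := by
  haveI := isDedekindDomain_Bt N A
  have h := Fermat.Agent.T3.helper3.isDedekindDomain_of_between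
    ((Bt A N).val.toRingHom : Bt A N →+* LaurentSeries (kA A))
    (fun x y h => Subtype.ext h) (BtAll N A).toSubring
    (fun d => Bt_le_BtAll d.2)
    (fun r hr => by
      obtain ⟨hr', -⟩ := mem_BtAll.mp hr
      obtain ⟨x, s, hx, hs, hs0, hxy⟩ := fracBt N A ⟨r, hr'⟩
      refine ⟨⟨x, hx⟩, ⟨s, hs⟩, fun h => hs0 (Subtype.ext
        (congrArg (fun z : Bt A N => (z : LaurentSeries (kA A))) h)), ?_⟩
      exact congrArg (fun z : FFb A N => (z : LaurentSeries (kA A))) hxy)
  exact h

/-- the inclusion of `BtAll` into the function field of the special fibre -/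
def btAllIncl : BtAll N A →+* FFb A N :=
  (BtAll N A).val.toRingHom.codRestrict (FFb A N) (fun y => by
    obtain ⟨hy, -⟩ := mem_BtAll.mp y.2
    exact hy)

@[simp] theorem coe_btAllIncl (y : BtAll N A) :
    ((btAllIncl N A y : FFb A N) : LaurentSeries (kA A)) = y := rfl

theorem btAllIncl_injective : Function.Injective (btAllIncl N A) :=
  fun x y h => Subtype.ext (congrArg (fun z : FFb A N => (z : LaurentSeries (kA A))) h)

/-- **`FFb A N` is the fraction field of `BtAll`.** -/
theorem isFractionRing_BtAll :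
    letI := (btAllIncl N A).toAlgebra
    IsFractionRing (BtAll N A) (FFb A N) := by
  letI := (btAllIncl N A).toAlgebra
  haveI : FaithfulSMul (BtAll N A) (FFb A N) :=
    (faithfulSMul_iff_algebraMap_injective _ _).mpr (btAllIncl_injective N A)
  refine IsFractionRing.of_field _ _ fun z => ?_
  obtain ⟨x, s, hx, hs, hs0, hxy⟩ := fracBt N A z
  refine ⟨⟨x, Bt_le_BtAll hx⟩, ⟨s, Bt_le_BtAll hs⟩, ?_⟩
  have e1 : algebraMap (BtAll N A) (FFb A N) ⟨x, Bt_le_BtAll hx⟩ = x := Subtype.ext rfl
  have e2 : algebraMap (BtAll N A) (FFb A N) ⟨s, Bt_le_BtAll hs⟩ = s := Subtype.ext rfl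
  rw [e1, e2, eq_div_iff hs0]
  exact hxy

end All

end Fermat.Agent.T3.helper95

end
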