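import Mathlib
import Fermat.Agent.T3.helper63_MidGenInst
import Fermat.Agent.T3.helper16_UnitReal
import Fermat.Agent.T3.helper95_BtDed

/-!
# T3 / [T3-MIDGEN] (helper63): regularity of `t₄`, `t₄⁻¹` and of `Z`, `G`, `u` off the cusps

* `isIntegral_of_relation` : a monic relation gives integrality (generic);
* `isIntegral_haupt4`, `isIntegral_haupt4_inv` : if `j t⁴ (t + 16) = (t² + 256 t + 4096)³` then `t`
  (and `t⁻¹` if `2` is invertible) is integral over `K[j]`;
* `isIntegral_t4F`, `isIntegral_zMid`, `isRegJ_zMid` : `t₄` is integral over `ℚ̄[j]`,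
  `Z = dg2 t₄ - dg0 t₄` is integral over `ℚ̄[j]`, hence regular where `j` is finite;
* `isRegJ_gMid`, `isRegJ_uMid` : the same for `G`, `u` (from the unit `b₀`);
* `tH4_mem_FFb`, `tH4_inv_mem_BtAll` : for `q` odd, `t̄₄ ∈ F̃_N` and `t̄₄⁻¹` is regular where `j̄` is
  finite.
-/

set_option autoImplicit false
set_option synthInstance.maxHeartbeats 400000
set_option maxHeartbeats 1000000
set_option linter.unusedSectionVars false
set_option linter.unusedVariables false
set_option linter.style.haveILetI false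
set_option linter.style.longLine false

noncomputable section

open HahnSeries IntermediateField AlgebraicCurve ModularCurve
open Fermat.Agent.S18.helper19 Fermat.Agent.P2.helper29 Fermat.Agent.T2.helper36

namespace Fermat.Agent.T3.helper63

open Fermat.Agent.P2.helper66
open Fermat.Agent.S24 (xJ)
open Fermat.Agent.T3.helper74 (ex3 IsFixI IsInt3 dg0 dg1 dg2)
open Fermat.Agent.T3.helper98 (IsRegJ regJRing)
open Fermat.Agent.T3.helper95 (BtAll mem_BtAll)

/-! ### generic integrality -/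

section Generic

/-- a monic relation gives integrality -/
theorem isIntegral_of_relation {R F : Type*} [CommRing R] [CommRing F] [Algebra R F] (f : F)
    (n : ℕ) (c : ℕ → R)
    (hrel : f ^ (n + 1) = ∑ k ∈ Finset.range (n + 1), algebraMap R F (c k) * f ^ k) :
    IsIntegral R f := by
  have hdeg : (∑ k ∈ Finset.range (n + 1), Polynomial.C (c k) * Polynomial.X ^ k :
      Polynomial R).degree ≤ (n : WithBot ℕ) := by
    refine (Polynomial.degree_sum_le _ _).trans (Finset.sup_le fun k hk => ?_)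
    refine (Polynomial.degree_C_mul_X_pow_le k _).trans ?_
    have := Finset.mem_range.mp hk
    exact_mod_cast Nat.lt_succ_iff.mp this
  have hm : (Polynomial.X ^ (n + 1)
      - ∑ k ∈ Finset.range (n + 1), Polynomial.C (c k) * Polynomial.X ^ k :
      Polynomial R).Monic :=
    Polynomial.monic_X_pow_sub (lt_of_le_of_lt hdeg (by exact_mod_cast Nat.lt_succ_self n))
  refine ⟨_, hm, ?_⟩
  rw [Polynomial.eval₂_sub, Polynomial.eval₂_pow, Polynomial.eval₂_X,
    Polynomial.eval₂_finsetSum, hrel, sub_eq_zero]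
  refine Finset.sum_congr rfl fun k _ => ?_
  rw [Polynomial.eval₂_mul, Polynomial.eval₂_C, Polynomial.eval₂_pow, Polynomial.eval₂_X]

/-- a monic relation with coefficients in a subalgebra gives integrality over it -/
theorem isIntegral_subalgebra_of_relation {K F : Type*} [CommRing K] [CommRing F] [Algebra K F]
    (S : Subalgebra K F) (f : F) (n : ℕ) (c : ℕ → F) (hc : ∀ k, c k ∈ S)
    (hrel : f ^ (n + 1) = ∑ k ∈ Finset.range (n + 1), c k * f ^ k) : IsIntegral S f :=
  isIntegral_of_relation f n (fun k => (⟨c k, hc k⟩ : S)) hrel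

variable {K F : Type*} [Field K] [Field F] [Algebra K F]

/-- the coefficients of the relation of `t₄` over `K[j]` -/
def haupt4Coeff (j : F) : ℕ → F
  | 0 => -68719476736
  | 1 => -12884901888
  | 2 => -855638016
  | 3 => -23068672
  | 4 => 16 * j - 208896
  | 5 => j - 768
  | _ => 0

theorem haupt4Coeff_mem (j : F) (k : ℕ) : haupt4Coeff j k ∈ Algebra.adjoin K {j} := by
  have hj : j ∈ Algebra.adjoin K {j} := Algebra.subset_adjoin (Set.mem_singleton j)
  have hnum : ∀ n : ℕ, (n : F) ∈ Algebra.adjoin K {j} := fun n => natCast_mem _ n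
  unfold haupt4Coeff
  split
  · exact neg_mem (by exact_mod_cast hnum 68719476736)
  · exact neg_mem (by exact_mod_cast hnum 12884901888)
  · exact neg_mem (by exact_mod_cast hnum 855638016)
  · exact neg_mem (by exact_mod_cast hnum 23068672)
  · exact sub_mem (mul_mem (by exact_mod_cast hnum 16) hj) (by exact_mod_cast hnum 208896)
  · exact sub_mem hj (by exact_mod_cast hnum 768)
  · exact zero_mem _

/-- **`t₄` is integral over `K[j]`**. -/
theorem isIntegral_haupt4 {j t : F}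
    (hrel : j * (t ^ 4 * (t + 16)) = (t ^ 2 + 256 * t + 4096) ^ 3) :
    IsIntegral (Algebra.adjoin K {j}) t := by
  refine isIntegral_subalgebra_of_relation _ t 5 (haupt4Coeff j) (haupt4Coeff_mem j) ?_
  simp only [Finset.sum_range_succ, Finset.sum_range_zero, haupt4Coeff]
  linear_combination -hrel

/-- the coefficients of the relation of `t₄⁻¹` over `K[j]` -/
def haupt4InvCoeff (β j : F) : ℕ → F
  | 0 => -β
  | 1 => (j - 768) * β
  | 2 => (16 * j - 208896) * β
  | 3 => -23068672 * β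
  | 4 => -855638016 * β
  | 5 => -12884901888 * β
  | _ => 0

theorem haupt4InvCoeff_mem {β j : F} (hβ : β ∈ Algebra.adjoin K {j}) (k : ℕ) :
    haupt4InvCoeff β j k ∈ Algebra.adjoin K {j} := by
  have hj : j ∈ Algebra.adjoin K {j} := Algebra.subset_adjoin (Set.mem_singleton j)
  have hnum : ∀ n : ℕ, (n : F) ∈ Algebra.adjoin K {j} := fun n => natCast_mem _ n
  unfold haupt4InvCoeff
  split
  · exact neg_mem hβ
  · exact mul_mem (sub_mem hj (by exact_mod_cast hnum 768)) hβ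
  · exact mul_mem (sub_mem (mul_mem (by exact_mod_cast hnum 16) hj)
      (by exact_mod_cast hnum 208896)) hβ
  · exact mul_mem (neg_mem (by exact_mod_cast hnum 23068672)) hβ
  · exact mul_mem (neg_mem (by exact_mod_cast hnum 855638016)) hβ
  · exact mul_mem (neg_mem (by exact_mod_cast hnum 12884901888)) hβ
  · exact zero_mem _

/-- **`t₄⁻¹` is integral over `K[j]`** if `2` is invertible. -/
theorem isIntegral_haupt4_inv (h2 : (2 : K) ≠ 0) {j t : F} (ht : t ≠ 0)
    (hrel : j * (t ^ 4 * (t + 16)) = (t ^ 2 + 256 * t + 4096) ^ 3) :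
    IsIntegral (Algebra.adjoin K {j}) t⁻¹ := by
  have hb : (68719476736 : K) ≠ 0 := by
    have : (68719476736 : K) = 2 ^ 36 := by norm_num
    rw [this]
    exact pow_ne_zero _ h2
  set β : F := algebraMap K F (68719476736 : K)⁻¹ with hβ
  have hβmem : β ∈ Algebra.adjoin K {j} := Subalgebra.algebraMap_mem _ _
  have hbF : β * 68719476736 = 1 := by
    have h1 : (68719476736 : F) = algebraMap K F 68719476736 := by
      rw [map_ofNat]
    rw [hβ, h1, ← map_mul, inv_mul_cancel₀ hb, map_one]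
  refine isIntegral_subalgebra_of_relation _ t⁻¹ 5 (haupt4InvCoeff β j)
    (fun k => haupt4InvCoeff_mem hβmem k) ?_
  simp only [Finset.sum_range_succ, Finset.sum_range_zero, haupt4InvCoeff]
  -- the relation in `s = t⁻¹`
  have hrel' : j * t⁻¹ * (1 + 16 * t⁻¹) = (1 + 256 * t⁻¹ + 4096 * t⁻¹ ^ 2) ^ 3 := by
    field_simp
    linear_combination hrel
  linear_combination (-(t⁻¹ ^ 6)) * hbF - β * hrel'

end Generic

/-! ### `t₄` over `ℚ̄` -/

section Char0

variable (N : ℕ) [NeZero N]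

/-- the relation `j t₄⁴ (t₄ + 16) = (t₄² + 256 t₄ + 4096)³` in `F_N`. -/
theorem haupt_rel_t4F (h4 : 4 ∣ N) :
    xJ N * ((t4F N h4) ^ 4 * (t4F N h4 + 16))
      = ((t4F N h4) ^ 2 + 256 * t4F N h4 + 4096) ^ 3 := by
  have hinj : Function.Injective ((FF N).val : FF N →ₐ[Kb] LaurentSeries Kb) :=
    Subtype.val_injective
  apply hinj
  simp only [map_mul, map_pow, map_add, map_ofNat]
  have e1 : (FF N).val (xJ N) = jqModC Kb := Fermat.Agent.P2.helper98.coe_xJ_eq_jqModC N
  have e2 : (FF N).val (t4F N h4) = tH4 Kb := rfl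
  rw [e1, e2]
  exact jq_tH4 Kb

/-- **`t₄` is integral over `ℚ̄[j]`.** -/
theorem isIntegral_t4F (h4 : 4 ∣ N) : IsIntegral (Algebra.adjoin Kb {xJ N}) (t4F N h4) :=
  isIntegral_haupt4 (haupt_rel_t4F N h4)

theorem t4F_ne_zero (h4 : 4 ∣ N) : t4F N h4 ≠ 0 := fun h =>
  tH4_ne_zero Kb (congrArg (fun x : FF N => (x : LaurentSeries Kb)) h)

/-- **`t₄⁻¹` is integral over `ℚ̄[j]`.** -/
theorem isIntegral_t4F_inv (h4 : 4 ∣ N) :
    IsIntegral (Algebra.adjoin Kb {xJ N}) (t4F N h4)⁻¹ :=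
  isIntegral_haupt4_inv two_ne_zero (t4F_ne_zero N h4) (haupt_rel_t4F N h4)

variable {N} {q : ℕ} [NeZero q]

/-- **`Z` is integral over `ℚ̄[j]`.** -/
theorem isIntegral_zMid (h4 : 4 ∣ N) :
    IsIntegral (Algebra.adjoin Kb {xJ (N * q * q)}) (zMid N q h4) := by
  have h0 := isIntegral_t4F N h4
  exact IsIntegral.sub
    (Fermat.Agent.T3.helper16.isIntegral_beta (N * q) q
      (Fermat.Agent.T3.helper16.isIntegral_beta N q h0))
    (Fermat.Agent.T3.helper16.isIntegral_alpha (N * q) q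
      (Fermat.Agent.T3.helper16.isIntegral_alpha N q h0))

/-- **`Z` is regular where `j` is finite.** -/
theorem isRegJ_zMid (h4 : 4 ∣ N) : IsRegJ (N * q * q) (zMid N q h4) :=
  Fermat.Agent.T3.helper16.isRegJ_of_isIntegral (isIntegral_zMid h4)

/-- `Z ≠ 0`. -/
theorem zQ_ne_zero (R : Type*) [CommRing R] [Nontrivial R] (hq : q.Prime) : zQ R q ≠ 0 := by
  intro h
  have h1 := congrArg (fun x : LaurentSeries R => x.coeff (-1)) h
  simp only [zQ, HahnSeries.coeff_sub, HahnSeries.coeff_zero] at h1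
  have hnd : ¬ ((q : ℕ) : ℤ) ∣ (-1 : ℤ) := by
    intro hd
    have h2 : ((q : ℕ) : ℤ) ∣ 1 := (Int.dvd_neg).mp hd
    have h3 : q ∣ 1 := by exact_mod_cast h2
    exact hq.one_lt.ne' (Nat.dvd_one.mp h3)
  rw [qExpand_coeff_of_not_dvd _ _ hnd, coeff_tH4_neg_one, zero_sub] at h1
  exact one_ne_zero (neg_eq_zero.mp h1)

theorem coe_zMid (h4 : 4 ∣ N) :
    ((zMid N q h4 : FF (N * q * q)) : LaurentSeries Kb) = zQ Kb q := by
  show (((dg2 N q (t4F N h4) - dg0 N q (t4F N h4) : FF (N * q * q))) : LaurentSeries Kb) = _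
  have h1 : (((dg2 N q (t4F N h4) - dg0 N q (t4F N h4) : FF (N * q * q))) : LaurentSeries Kb)
      = ((dg2 N q (t4F N h4) : FF (N * q * q)) : LaurentSeries Kb)
        - ((dg0 N q (t4F N h4) : FF (N * q * q)) : LaurentSeries Kb) := rfl
  rw [h1, Fermat.Agent.T3.helper74.coe_dg2, Fermat.Agent.T3.helper74.coe_dg0, coe_t4F, zQ]

theorem zMid_ne_zero (hq : q.Prime) (h4 : 4 ∣ N) : zMid N q h4 ≠ 0 := by
  intro h
  have h1 := congrArg (fun x : FF (N * q * q) => (x : LaurentSeries Kb)) h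
  simp only [coe_zMid] at h1
  exact zQ_ne_zero Kb hq h1

end Char0

/-! ### `G`, `u` are regular where `j` is finite -/

section RegUnit

variable {N q : ℕ} [NeZero N] [NeZero q] {hq : q.Prime} {hqN : ¬ q ∣ N}
variable {B : PowerSeries ℤ} {hB : iota Kb B ∈ FF (N * q)} {ε : ℤ}

theorem isRegJ_rMid (h : Fermat.Agent.T3.helper16.IsUnit0 hq hqN ⟨_, hB⟩ B ε) :
    IsRegJ (N * q * q) (rMid hB) :=
  IsRegJ.mul (Fermat.Agent.T3.helper98.mem_regJRing.mp h.mem_regJ_alpha)
    (Fermat.Agent.T3.helper98.mem_regJRing.mp h.mem_regJ_beta_inv)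

theorem isRegJ_rMid_inv (h : Fermat.Agent.T3.helper16.IsUnit0 hq hqN ⟨_, hB⟩ B ε) :
    IsRegJ (N * q * q) (rMid hB)⁻¹ := by
  have e : (rMid hB)⁻¹ = heckeBetaBar Kb (N * q) q ⟨_, hB⟩
      * (heckeAlphaBar Kb (N * q) q ⟨_, hB⟩)⁻¹ := by
    show (heckeAlphaBar Kb (N * q) q ⟨_, hB⟩ * (heckeBetaBar Kb (N * q) q ⟨_, hB⟩)⁻¹)⁻¹ = _
    exact (mul_inv _ _).trans ((congrArg _ (inv_inv _)).trans (mul_comm _ _))
  rw [e]
  exact IsRegJ.mul (Fermat.Agent.T3.helper98.mem_regJRing.mp h.mem_regJ_beta)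
    (Fermat.Agent.T3.helper98.mem_regJRing.mp h.mem_regJ_alpha_inv)

theorem isRegJ_gMid (h4 : 4 ∣ N) (h : Fermat.Agent.T3.helper16.IsUnit0 hq hqN ⟨_, hB⟩ B ε) :
    IsRegJ (N * q * q) (gMid h4 hB) :=
  IsRegJ.mul ((isRegJ_zMid h4).pow _) (isRegJ_rMid h)

theorem isRegJ_uMid (h4 : 4 ∣ N) (h : Fermat.Agent.T3.helper16.IsUnit0 hq hqN ⟨_, hB⟩ B ε) :
    IsRegJ (N * q * q) (uMid h4 hB) :=
  IsRegJ.mul (isRegJ_zMid h4) (isRegJ_gMid h4 h)

end RegUnit

/-! ### the special fibre: `t̄₄⁻¹` is regular where `j̄` is finite -/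

section Bar

variable {N q : ℕ} [NeZero N] [NeZero q]
variable (A : ValuationSubring Kb)

theorem two_ne_zero_kA (hq : q.Prime) (hq2 : q ≠ 2) (hA : A.LiesOverPrime q) :
    (2 : kA A) ≠ 0 := by
  haveI : CharP (kA A) q := Fermat.Agent.T3.helper67.charP_kA hq A hA
  intro h
  have h1 : ((2 : ℕ) : kA A) = 0 := by exact_mod_cast h
  have h2 : q ∣ 2 := (CharP.cast_eq_zero_iff (kA A) q 2).mp h1
  exact hq2 ((Nat.prime_dvd_prime_iff_eq hq Nat.prime_two).mp h2)

/-- `t̄₄ ∈ F̃_N` for `q` odd. -/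
theorem tH4_mem_FFb (hq : q.Prime) (hq2 : q ≠ 2) (hA : A.LiesOverPrime q) (h4 : 4 ∣ N) :
    tH4 (kA A) ∈ FFb A N :=
  tH4_mem (kA A) (two_ne_zero_kA A hq hq2 hA) N h4

/-- **`t̄₄⁻¹` is regular where `j̄` is finite** (`q` odd). -/
theorem tH4_inv_mem_BtAll (hq : q.Prime) (hq2 : q ≠ 2) (hA : A.LiesOverPrime q) (h4 : 4 ∣ N) :
    (tH4 (kA A))⁻¹ ∈ BtAll N A := by
  have hmem := tH4_mem_FFb (N := N) A hq hq2 hA h4
  set tb : FFb A N := ⟨tH4 (kA A), hmem⟩ with htb
  have htb0 : tb ≠ 0 := fun h =>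
    tH4_ne_zero (kA A) (congrArg (fun x : FFb A N => (x : LaurentSeries (kA A))) h)
  have hrel : jBar A N * (tb ^ 4 * (tb + 16)) = (tb ^ 2 + 256 * tb + 4096) ^ 3 := by
    have hinj : Function.Injective
        ((FFb A N).val : FFb A N →ₐ[kA A] LaurentSeries (kA A)) := Subtype.val_injective
    apply hinj
    simp only [map_mul, map_pow, map_add, map_ofNat]
    have e1 : (FFb A N).val (jBar A N) = jqModC (kA A) := rfl
    have e2 : (FFb A N).val tb = tH4 (kA A) := rfl
    rw [e1, e2]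
    exact jq_tH4 (kA A)
  have hint : IsIntegral (Algebra.adjoin (kA A) {jBar A N}) tb⁻¹ :=
    isIntegral_haupt4_inv (two_ne_zero_kA A hq hq2 hA) htb0 hrel
  refine mem_BtAll.mpr ⟨(FFb A N).inv_mem hmem, fun P hP => ?_⟩
  have e : (⟨(tH4 (kA A))⁻¹, (FFb A N).inv_mem hmem⟩ : FFb A N) = tb⁻¹ := Subtype.ext rfl
  rw [e]
  exact Fermat.Agent.T3.helper16.ord_nonneg_of_isIntegral hint P hP

end Bar

end Fermat.Agent.T3.helper63
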