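import Mathlib
import Fermat.Agent.T3.helper16_UnitGrow
import Fermat.Agent.T3.helper16_UnitTable

/-!
# T3 / [T3-MIDGEN] (helper63): the weight-one unit of level `4` with its `q`-expansion

`helper16.exists_isUnit0` hides the expansion `B` of `b₀` behind an existential.  For the generator
of the middle vertical prime one needs `B · L(t^q) = L` with `L` the `q`-expansion of `lam4`:

* `exists_isUnit0_lam4 : ∃ B L hB ε, IsUnit0 hq hqN ⟨iota Kb B, hB⟩ B ε ∧ IsQExp (iota ℂ L) lam4 ∧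
    constantCoeff L = 1 ∧ B * ex q L = L`   (`4 ∣ N`, `q ∤ N` prime).
-/

set_option autoImplicit false
set_option linter.unusedSectionVars false
set_option linter.unusedVariables false
set_option linter.style.haveILetI false

noncomputable section

open UpperHalfPlane ModularForm CongruenceSubgroup ModularCurve
open scoped MatrixGroups Manifold

namespace Fermat.Agent.T3.helper63

open Fermat.Agent.S24 Fermat.Agent.S24.helper17 Fermat.Agent.S24.helper77
open Fermat.Agent.S18.helper19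
open Fermat.Agent.P2.helper66 (iota coeffMap_iota ex)
open Fermat.Agent.T3.helper16

/-- **the weight-one unit of level `4`**, with the `q`-expansion `L` of `lam4` and
`B · L(t^q) = L`. -/
theorem exists_isUnit0_lam4 {N q : ℕ} [NeZero N] [NeZero q] (hq : q.Prime) (hqN : ¬ q ∣ N)
    (h4 : 4 ∣ N) :
    ∃ (B L : PowerSeries ℤ) (hB : iota Kb B ∈ FF (N * q)) (ε : ℤ),
      IsUnit0 hq hqN (⟨iota Kb B, hB⟩ : FF (N * q)) B ε ∧ IsQExp (iota ℂ L) lam4 ∧
      PowerSeries.constantCoeff L = 1 ∧ B * ex q L = L := by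
  have h : IsWtOneUnit 4 lam4 := isWtOneUnit_lam4 growth4
  obtain ⟨L, hL1, hL⟩ := h.qexp
  obtain ⟨χ, -, hlaw⟩ := h.law
  haveI : NeZero (N * q) := ⟨Nat.mul_ne_zero (NeZero.ne N) (NeZero.ne q)⟩
  obtain ⟨hBq, hBFC⟩ := isQExp_unitFun h hL1 hL (N := N) (q := q) h4
  have hC : helper17.toC (iota Kb (unitSeries L q)) = iota ℂ (unitSeries L q) :=
    coeffMap_iota _ _
  have hB : iota Kb (unitSeries L q) ∈ FF (N * q) :=
    mem_FF_of_toC_mem_FC (N * q) (by rw [hC]; exact hBFC)
  have hinv : ∀ γ ∈ Gamma0 (N * q), precomp γ (unitFun lam4 q) = unitFun lam4 q :=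
    fun γ hγ => precomp_unitFun hlaw h.ne_zero h4 hγ
  have hinv' : ∀ γ ∈ Gamma0 (N * q),
      precomp γ (fun τ => (unitFun lam4 q τ)⁻¹) = fun τ => (unitFun lam4 q τ)⁻¹ :=
    fun γ hγ => precomp_unitFun_inv hlaw h.ne_zero h4 hγ
  have hi : IsIntegral (Algebra.adjoin Kb {xJ (N * q)})
      (⟨iota Kb (unitSeries L q), hB⟩ : FF (N * q)) :=
    isIntegral_of_isQExp (N * q) hB (by rw [hC]; exact hBq) hinv
      (fun g => precomp_unitFun_mem h q g)
  have hi' : IsIntegral (Algebra.adjoin Kb {xJ (N * q)})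
      (⟨iota Kb (unitSeries L q), hB⟩ : FF (N * q))⁻¹ := by
    have hper : ∀ τ : ℍ, unitFun lam4 q ((1 : ℝ) +ᵥ τ) = unitFun lam4 q τ :=
      Fermat.Agent.P3.helper48.vadd_of_precomp hinv
    have hmem1 : (fun τ => (unitFun lam4 q τ)⁻¹) ∈ holoExp := by
      have := precomp_unitFun_inv_mem h q 1
      rwa [precomp_one] at this
    have hq' : IsQExp (helper17.toC (iota Kb (unitSeries L q))⁻¹)
        (fun τ => (unitFun lam4 q τ)⁻¹) := by
      rw [map_inv₀, hC]
      exact isQExp_inv hBq (unitFun_ne_zero h.ne_zero q) hmem1 hper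
    have hi := isIntegral_of_isQExp (N * q) (inv_mem hB) hq' hinv'
      (fun g => precomp_unitFun_inv_mem h q g)
    have e : (⟨(iota Kb (unitSeries L q))⁻¹, inv_mem hB⟩ : FF (N * q)) =
        (⟨iota Kb (unitSeries L q), hB⟩ : FF (N * q))⁻¹ := Subtype.ext rfl
    rw [← e]
    exact hi
  obtain ⟨ε, hε, hW⟩ := atkinLehner_mul_self h hq hqN h4 hB hBq
  rcases hε with rfl | rfl
  · exact ⟨unitSeries L q, L, hB, 1, ⟨rfl, constantCoeff_unitSeries hL1 q, Or.inl rfl,
      by simpa using hW, hi, hi'⟩, hL, hL1, unitSeries_mul hL1 q⟩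
  · exact ⟨unitSeries L q, L, hB, -1, ⟨rfl, constantCoeff_unitSeries hL1 q, Or.inr rfl,
      by simpa using hW, hi, hi'⟩, hL, hL1, unitSeries_mul hL1 q⟩

end Fermat.Agent.T3.helper63
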