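import Mathlib
import Fermat.Agent.T3.helper63_MidGenReg
import Fermat.Agent.T3.helper63_MidGenUnit
import Fermat.Agent.T3.helper5_Gauss3BMid

/-!
# T3 / [IDEAL3], box `hker` of `helper22.Ideal3Rest` at the middle component (helper63)

Level `N q q`, `q` prime, `q ∤ N`, `A` over `q`, `ζ` a primitive `q`-th root of unity.

* `hker_two_odd` : `q` odd, `4 ∣ N` : `(b, s) = (Z, u)`, `Z = dg2 t₄ - dg0 t₄`,
  `u = Z^(q-1) · α₂ b₀ / β₂ b₀`; the reduction of `u` at the middle cusp is `∓ t̄₄^(q-1)`, a unit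
  of `BtAll`; divisibility from [G3-B] (helper5) and the multiplier `G = u / Z`.

(`q = 2` : `helper72.ker2_of_two`; `c = 0, 1` : `helper16.ker_div0/1`.)
-/

set_option autoImplicit false
set_option synthInstance.maxHeartbeats 400000
set_option maxHeartbeats 1000000
set_option linter.unusedSectionVars false
set_option linter.unusedVariables false
set_option linter.style.haveILetI false
set_option linter.style.longLine false

noncomputable section

open HahnSeries IntermediateField AlgebraicCurve ModularCurve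
open Fermat.Agent.S18.helper19 Fermat.Agent.P2.helper29 Fermat.Agent.T2.helper36

namespace Fermat.Agent.T3.helper63

open Fermat.Agent.P2.helper93 (twistL twistL_coeff)
open Fermat.Agent.P2.helper66
open Fermat.Agent.S24.helper17 (IsQExp)
open Fermat.Agent.T3.helper16 (lam4 IsUnit0)
open Fermat.Agent.T3.helper67 (divSeries twistSeries mu_mem)
open Fermat.Agent.T3.helper74 (ex3 IsFixI IsInt3 dg0 dg1 dg2)
open Fermat.Agent.T3.helper72 (Red3)
open Fermat.Agent.T3.helper36 (RhoQ GaussIs)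
open Fermat.Agent.T3.helper49 (Rho3)
open Fermat.Agent.T3.helper98 (IsRegJ regJRing)
open Fermat.Agent.T3.helper95 (BtAll mem_BtAll)

/-! ### Gauss values at the middle cusp -/

section Gauss

variable {q : ℕ} (hq : q.Prime) (A : ValuationSubring Kb) {ζ : Kb} (hζ : IsPrimitiveRoot ζ q)

include hq hζ in
theorem one_sub_zeta_mem : (1 - ζ) ∈ A := sub_mem A.one_mem (mu_mem hq A hζ)

include hq hζ in
/-- an element of Gauss value `(1 - ζ) ^ m` with reduction `0` has `m ≥ 1` -/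
theorem one_le_of_gaussIs_zeta {g : LaurentSeries Kb} {m : ℤ}
    (h : GaussIs A g ((1 - ζ) ^ m)) (h0 : RhoQ A g 0) : 1 ≤ m := by
  by_contra hm
  rw [not_le] at hm
  obtain ⟨hc, r, hr0, hr⟩ := h
  obtain ⟨k, hk⟩ : ∃ k : ℕ, m = -(k : ℤ) := ⟨(-m).toNat, by omega⟩
  have hmem : (1 - ζ) ^ k ∈ A := A.pow_mem (one_sub_zeta_mem hq A hζ) k
  have e : ((1 - ζ) ^ m)⁻¹ = (((⟨(1 - ζ) ^ k, hmem⟩ : A) : Kb)) := by
    show ((1 - ζ) ^ m)⁻¹ = (1 - ζ) ^ k
    rw [hk, zpow_neg, inv_inv, zpow_natCast]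
  rw [e] at hr
  have h1 := (Fermat.Agent.T3.helper36.rhoQ_algebraMap (A := A) ⟨(1 - ζ) ^ k, hmem⟩).mul h0
  rw [mul_zero] at h1
  exact hr0 (hr.unique h1)

end Gauss

/-! ### the box at the middle component, `q` odd -/

section Odd

variable {N q : ℕ} [NeZero N] [NeZero q] {hq : q.Prime} {hqN : ¬ q ∣ N}

theorem rho3_zero (A : ValuationSubring Kb) {ζ : Kb} (hζ : IsPrimitiveRoot ζ q) :
    Rho3 N q hq hqN A hζ 0 0 :=
  ⟨fun σ _ => map_zero _, fun i => by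
    show RhoQ A (ex3 N q hq hqN hζ i 0) 0
    rw [map_zero]
    exact Fermat.Agent.T3.helper36.rhoQ_zero⟩

theorem rho3_one (A : ValuationSubring Kb) {ζ : Kb} (hζ : IsPrimitiveRoot ζ q) :
    Rho3 N q hq hqN A hζ 1 1 :=
  ⟨Fermat.Agent.T3.helper98.isFixI_one A, fun i => by
    show RhoQ A (ex3 N q hq hqN hζ i 1) 1
    rw [map_one]
    exact Fermat.Agent.T3.helper36.rhoQ_one⟩

variable (h4 : 4 ∣ N) {B : PowerSeries ℤ} {hB : iota Kb B ∈ FF (N * q)} {ε : ℤ}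
  (h : IsUnit0 hq hqN (⟨iota Kb B, hB⟩ : FF (N * q)) B ε)
  (A : ValuationSubring Kb) (hA : A.LiesOverPrime q)
  {L : PowerSeries ℤ} (hL : IsQExp (iota ℂ L) lam4) (hL0 : PowerSeries.constantCoeff L = 1)
  (hBL : B * ex q L = L) {ζ : Kb} (hζ : IsPrimitiveRoot ζ q)

include h in
theorem unit_sign : ((ε : ℤ) : Kb) = 1 ∨ ((ε : ℤ) : Kb) = -1 := by
  rcases h.sign with rfl | rfl
  · left; norm_num
  · right; norm_num

/-- `Z` has the reduction triple `(Fr² t̄ - t̄, t̄ - Fr² t̄, 0)`. -/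
theorem rho3_zMid :
    Rho3 N q hq hqN A hζ (zMid N q h4) (fun i => red A (zModel hq A hζ i)) :=
  Fermat.Agent.T3.helper16.rho3_of_models A hζ (isFixI_zMid A h4) (zModel hq A hζ)
    (incl_zModel h4 A hζ) (fun _ => rfl)

include h hA in
/-- **divisibility at the middle component** by `Z`, up to the multiplier `u`. -/
theorem ker_div2 (g : FF (N * q * q)) (X : Fin 3 → LaurentSeries (kA A))
    (ρ : Rho3 N q hq hqN A hζ g X) (hX : X 2 = 0) :
    ∃ X', Rho3 N q hq hqN A hζ (g * gMid h4 hB) X' := by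
  rcases eq_or_ne g 0 with rfl | hg0
  · refine ⟨0, ?_⟩
    rw [zero_mul]
    exact rho3_zero A hζ
  obtain ⟨hfix, hred⟩ := ρ
  have hε := unit_sign h
  obtain ⟨m, hm⟩ := Fermat.Agent.T3.helper5.gaussIs_ex3_two (hq := hq) (hqN := hqN) hA hζ hg0 hfix
  have h0 : RhoQ A (ex3 N q hq hqN hζ 2 g) 0 := by
    have := hred 2
    rwa [hX] at this
  have hm1 := one_le_of_gaussIs_zeta hq A hζ hm h0
  obtain ⟨k, hk⟩ : ∃ k : ℕ, m = (k : ℤ) + 1 := ⟨(m - 1).toNat, by omega⟩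
  obtain ⟨hc, r, hr0, hr⟩ := hm
  obtain ⟨G', hG'⟩ := exists_gModel_two h4 hB h.const hε h.al A hA hζ
  have hπ : (1 - ζ) ≠ 0 := by
    intro h0
    exact hc (by rw [h0, zero_zpow _ (by omega)])
  have hmem : (1 - ζ) ^ k ∈ A := A.pow_mem (one_sub_zeta_mem hq A hζ) k
  have h2 : ∃ r2 : LaurentSeries (kA A), RhoQ A (ex3 N q hq hqN hζ 2 (g * gMid h4 hB)) r2 := by
    have h3 := hr.mul ((Fermat.Agent.T3.helper36.rhoQ_algebraMap (A := A)
      ⟨(1 - ζ) ^ k, hmem⟩).mul (Fermat.Agent.T3.helper36.rhoQ_incl (A := A) (-G')))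
    have e : ex3 N q hq hqN hζ 2 (g * gMid h4 hB)
        = algebraMap Kb (LaurentSeries Kb) ((1 - ζ) ^ m)⁻¹ * ex3 N q hq hqN hζ 2 g
          * (algebraMap Kb (LaurentSeries Kb) (((⟨(1 - ζ) ^ k, hmem⟩ : A) : Kb))
            * incl A (-G')) := by
      rw [map_mul, map_neg, hG', Fermat.Agent.S24.helper77.algebraMap_eq_C,
        Fermat.Agent.S24.helper77.algebraMap_eq_C]
      have e1 : (HahnSeries.C ((1 - ζ) ^ m)⁻¹ : LaurentSeries Kb)
          * HahnSeries.C (((⟨(1 - ζ) ^ k, hmem⟩ : A) : Kb)) * HahnSeries.C (1 - ζ) = 1 := by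
        rw [← map_mul, ← map_mul]
        show HahnSeries.C (((1 - ζ) ^ m)⁻¹ * (1 - ζ) ^ k * (1 - ζ)) = 1
        rw [hk, zpow_add₀ hπ, zpow_one, zpow_natCast, mul_inv]
        have hk0 : (1 - ζ) ^ k ≠ 0 := pow_ne_zero _ hπ
        have : ((1 - ζ) ^ k)⁻¹ * (1 - ζ)⁻¹ * (1 - ζ) ^ k * (1 - ζ) = 1 := by
          field_simp
        rw [this, map_one]
      have e2 : (HahnSeries.C (ζ - 1) : LaurentSeries Kb) = -HahnSeries.C (1 - ζ) := by
        rw [← map_neg, neg_sub]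
      rw [e2]
      linear_combination (-(ex3 N q hq hqN hζ 2 g * ex3 N q hq hqN hζ 2 (gMid h4 hB))) * e1
    rw [e]
    exact ⟨_, h3⟩
  obtain ⟨r2, h2⟩ := h2
  refine ⟨![X 0 * red A (zQ A q ^ (q - 2) * rQ A q B),
    X 1 * red A ((-zQ A q) ^ (q - 2) * rQ A q B), r2], ?_, ?_⟩
  · exact Fermat.Agent.T3.helper98.isFixI_mul A hfix (isFixI_gMid h4 hB A)
  · intro i
    show RhoQ A (ex3 N q hq hqN hζ i (g * gMid h4 hB)) _
    fin_cases i
    · show RhoQ A (ex3 N q hq hqN hζ 0 (g * gMid h4 hB)) _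
      rw [map_mul, ← incl_gModel_zero h4 hB h.const A hζ]
      exact Fermat.Agent.T3.helper36.RhoQ.mul (hred 0) (Fermat.Agent.T3.helper36.rhoQ_incl _)
    · show RhoQ A (ex3 N q hq hqN hζ 1 (g * gMid h4 hB)) _
      rw [map_mul, ← incl_gModel_one h4 hB h.const hε h.al A hζ]
      exact Fermat.Agent.T3.helper36.RhoQ.mul (hred 1) (Fermat.Agent.T3.helper36.rhoQ_incl _)
    · exact h2

include h4 h hA hL hL0 hBL in
/-- **box `hker` at the middle component (`c = 2`), `q` odd, `4 ∣ N`.** -/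
theorem hker_two_odd_aux (hq2 : q ≠ 2) :
    ∃ (b s : FF (N * q * q)) (Xb Xs : Fin 3 → LaurentSeries (kA A)),
      IsRegJ (N * q * q) b ∧ IsRegJ (N * q * q) s ∧ b ≠ 0 ∧ IsRegJ (N * q * q) (s * b⁻¹) ∧
      Rho3 N q hq hqN A hζ b Xb ∧ Rho3 N q hq hqN A hζ s Xs ∧ Xb 2 = 0 ∧
      (∃ z ∈ BtAll N A, Xs 2 * z = 1) ∧
      ∀ (g : FF (N * q * q)) (X : Fin 3 → LaurentSeries (kA A)), Rho3 N q hq hqN A hζ g X →
        X 2 = 0 → ∃ X', Rho3 N q hq hqN A hζ (g * (s * b⁻¹)) X' := by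
  have hε := unit_sign h
  have hZ0 : zMid N q h4 ≠ 0 := zMid_ne_zero hq h4
  have hsb : uMid h4 hB * (zMid N q h4)⁻¹ = gMid h4 hB :=
    (mul_right_comm (zMid N q h4) (gMid h4 hB) (zMid N q h4)⁻¹).trans
      ((congrArg (· * gMid h4 hB) (mul_inv_cancel₀ hZ0)).trans (one_mul _))
  obtain ⟨Y, hY, -, -, hY2⟩ := exists_uModel h4 hB h.const hε h.al A hA hL hL0 hBL hζ
  have htinv := tH4_inv_mem_BtAll (N := N) A hq hq2 hA h4
  have ht0 : tH4 (kA A) ≠ 0 := tH4_ne_zero (kA A)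
  refine ⟨zMid N q h4, uMid h4 hB, fun i => red A (zModel hq A hζ i), fun i => red A (Y i),
    isRegJ_zMid h4, isRegJ_uMid h4 h, hZ0, ?_, rho3_zMid h4 A hζ,
    Fermat.Agent.T3.helper16.rho3_of_models A hζ (isFixI_uMid h4 hB A) Y hY (fun _ => rfl),
    red_zModel_two A hA hζ, ?_, ?_⟩
  · rw [hsb]
    exact isRegJ_gMid h4 h
  · rcases hY2 with ⟨-, hY2⟩ | ⟨-, hY2⟩
    · refine ⟨-((tH4 (kA A))⁻¹ ^ (q - 1)), neg_mem (pow_mem htinv _), ?_⟩
      show red A (Y 2) * _ = 1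
      rw [hY2, neg_mul_neg, ← mul_pow, mul_inv_cancel₀ ht0, one_pow]
    · refine ⟨(tH4 (kA A))⁻¹ ^ (q - 1), pow_mem htinv _, ?_⟩
      show red A (Y 2) * _ = 1
      rw [hY2, ← mul_pow, mul_inv_cancel₀ ht0, one_pow]
  · intro g X ρ hX
    rw [hsb]
    exact ker_div2 h4 h A hA hζ g X ρ hX

end Odd

/-! ### the boxes, unconditional -/

section Final

variable {N q : ℕ} [NeZero N] [NeZero q]

/-- **box `hker` of `helper22.Ideal3Rest` at the middle component (`c = 2`)**, for `q` odd and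
`4 ∣ N`. -/
theorem hker_two_odd (hq : q.Prime) (hqN : ¬ q ∣ N) (h4 : 4 ∣ N) (hq2 : q ≠ 2)
    (A : ValuationSubring Kb) (hA : A.LiesOverPrime q) {ζ : Kb} (hζ : IsPrimitiveRoot ζ q) :
    ∃ (b s : FF (N * q * q)) (Xb Xs : Fin 3 → LaurentSeries (kA A)),
      IsRegJ (N * q * q) b ∧ IsRegJ (N * q * q) s ∧ b ≠ 0 ∧ IsRegJ (N * q * q) (s * b⁻¹) ∧
      Rho3 N q hq hqN A hζ b Xb ∧ Rho3 N q hq hqN A hζ s Xs ∧ Xb 2 = 0 ∧
      (∃ z ∈ BtAll N A, Xs 2 * z = 1) ∧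
      ∀ (g : FF (N * q * q)) (X : Fin 3 → LaurentSeries (kA A)), Rho3 N q hq hqN A hζ g X →
        X 2 = 0 → ∃ X', Rho3 N q hq hqN A hζ (g * (s * b⁻¹)) X' := by
  obtain ⟨B, L, hB, ε, h, hL, hL0, hBL⟩ := exists_isUnit0_lam4 hq hqN h4
  exact hker_two_odd_aux h4 h A hA hL hL0 hBL hζ hq2

end Final

end Fermat.Agent.T3.helper63
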