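import Mathlib

/-!
# Tier 3 (helper22): finite generation from integrality, abstract form  ([FG-2])

Mathlib only.  `A` is an integrally closed noetherian domain (`A = O[j]`, `O` a discrete valuation
ring), `K` its fraction field, `L / K` a finite separable extension (the inertia-fixed functions),
`S` a subring of `L` containing the image of `A` all of whose elements are integral over `A` (the
ring `AA`: by [COMPLETE] the functions which are regular off the cusps and integral for the three
Gauss valuations are integral over `O[j]`).

* `isNoetherian_of_forall_isIntegral` : `S` is a noetherian `A`-module (for a subalgebra);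
* `isNoetherianRing_of_forall_isIntegral` : `S` is a noetherian ring (for a subring);
* `finite_of_mul_mem` : an `S`-submodule `𝔞` of `L` with a common denominator (`Q 𝔞 ⊆ S`,
  `Q ≠ 0`) is a finitely generated `S`-module.
-/

set_option autoImplicit false
set_option linter.unusedSectionVars false
set_option linter.style.haveILetI false

namespace Fermat.Agent.T3.helper22

section FGInt

variable (A K L : Type*) [CommRing A] [IsDomain A] [IsIntegrallyClosed A] [IsNoetherianRing A]
  [Field K] [Algebra A K] [IsFractionRing A K] [Field L] [Algebra K L] [Algebra A L]
  [IsScalarTower A K L] [FiniteDimensional K L] [Algebra.IsSeparable K L]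

include K

/-- a subalgebra of integral elements is a noetherian module -/
theorem isNoetherian_of_forall_isIntegral (S : Subalgebra A L) (hS : ∀ x ∈ S, IsIntegral A x) :
    IsNoetherian A S := by
  haveI : IsNoetherian A (integralClosure A L) :=
    IsIntegralClosure.isNoetherian A K L (integralClosure A L)
  have hle : S ≤ integralClosure A L := fun x hx => hS x hx
  exact isNoetherian_of_injective (Subalgebra.inclusion hle).toLinearMap
    (Subalgebra.inclusion_injective hle)

/-- a subalgebra of integral elements is a finitely generated module and a noetherian ring -/
theorem finite_and_isNoetherianRing_of_forall_isIntegral (S : Subalgebra A L)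
    (hS : ∀ x ∈ S, IsIntegral A x) : Module.Finite A S ∧ IsNoetherianRing S := by
  haveI := isNoetherian_of_forall_isIntegral A K L S hS
  exact ⟨Module.IsNoetherian.finite A S, isNoetherianRing_iff.mpr (isNoetherian_of_tower A ‹_›)⟩

/-- a subring of integral elements containing the image of `A` is a noetherian ring -/
theorem isNoetherianRing_of_forall_isIntegral (S : Subring L)
    (hA : ∀ a : A, algebraMap A L a ∈ S) (hS : ∀ x ∈ S, IsIntegral A x) :
    IsNoetherianRing S := by
  let S' : Subalgebra A L :=
    { carrier := S
      mul_mem' := S.mul_mem
      one_mem' := S.one_mem
      add_mem' := S.add_mem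
      zero_mem' := S.zero_mem
      algebraMap_mem' := hA }
  have h := (finite_and_isNoetherianRing_of_forall_isIntegral A K L S' hS).2
  exact h

end FGInt

section Frac

variable {L : Type*} [Field L]

/-- **fractional ideals of a noetherian ring are finitely generated.** -/
theorem finite_of_mul_mem (S : Subring L) [IsNoetherianRing S] (𝔞 : Submodule S L) {Q : L}
    (hQ : Q ≠ 0) (h : ∀ G ∈ 𝔞, Q * G ∈ S) : Module.Finite S 𝔞 := by
  let φ : 𝔞 →ₗ[S] S :=
    { toFun := fun G => ⟨Q * (G : L), h G G.2⟩
      map_add' := fun x y => Subtype.ext (by simp [mul_add])
      map_smul' := fun c x => Subtype.ext (by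
        simp only [Submodule.coe_smul, RingHom.id_apply, smul_eq_mul, Subring.coe_mul]
        rw [Subring.smul_def, smul_eq_mul]
        ring) }
  have hφ : Function.Injective φ := by
    intro x y hxy
    have := congrArg Subtype.val hxy
    exact Subtype.ext (mul_left_cancel₀ hQ this)
  haveI : IsNoetherian S 𝔞 := isNoetherian_of_injective φ hφ
  exact Module.IsNoetherian.finite S 𝔞

end Frac

end Fermat.Agent.T3.helper22
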