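import Mathlib

/-!
# Tier 3 (S36), abstract tools for the local-principality step (helper3)

Mathlib only.  Elementwise forms (no localisation types) of the two facts behind
"a divisorial module is principal at the points of a principal vertical prime with Dedekind
quotient":

* `nakayama_elementwise` : `N` a finite `B`-module, `P` a prime, `b ∈ P`, `g ∈ N`; if every
  `f ∈ N` satisfies `s f ∈ B g + b N` for some `s ∉ P`, then ONE `t ∉ P` satisfies
  `t N ⊆ B g`;
* `dedekind_local_principal` : a finitely generated submodule `𝔄` of the fraction field of a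
  Dedekind domain `R` and a prime `𝔭`: there are `g ∈ 𝔄` and `s ∉ 𝔭` with `s 𝔄 ⊆ R g`;
* `local_principal_of_dedekind_quotient` : the combination: `π : B → R` onto a Dedekind domain
  with `ker π ⊆ P`, `b ∈ ker π`, `ρ : N → Frac R` a `π`-semilinear map whose kernel is `b N`
  (saturation); then `N` is principal at `P`: `t N ⊆ B g` for some `g ∈ N`, `t ∉ P`.
-/

set_option autoImplicit false

open scoped nonZeroDivisors

namespace Fermat.Agent.T3.helper3

/-! ### Nakayama, elementwise -/

section Nakayama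

variable {B : Type*} [CommRing B] {N : Type*} [AddCommGroup N] [Module B N]

/-- the value of a monic polynomial whose lower coefficients lie in a prime `P` at a point
outside `P` lies outside `P` -/
theorem eval_notMem_of_monic {P : Ideal B} [P.IsPrime] {p : Polynomial B} (hp : p.Monic)
    (hc : ∀ k, k < p.natDegree → p.coeff k ∈ P) {s : B} (hs : s ∉ P) : p.eval s ∉ P := by
  rw [Polynomial.eval_eq_sum_range, Finset.sum_range_succ, hp.coeff_natDegree, one_mul]
  intro h
  have h1 : ∑ k ∈ Finset.range p.natDegree, p.coeff k * s ^ k ∈ P :=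
    P.sum_mem fun k hk => P.mul_mem_right _ (hc k (Finset.mem_range.1 hk))
  have h2 : s ^ p.natDegree ∈ P := by
    have := P.sub_mem h h1
    rwa [add_sub_cancel_left] at this
  exact hs (Ideal.IsPrime.mem_of_pow_mem inferInstance _ h2)

/-- **Nakayama, elementwise and uniform**: if `N` is a finite `B`-module, `b ∈ P` (`P` prime)
and every `f ∈ N` satisfies `s f ∈ B g + b N` for some `s ∉ P`, then there is ONE `t ∉ P` with
`t N ⊆ B g`. -/
theorem nakayama_elementwise [Module.Finite B N] (P : Ideal B) [P.IsPrime] {b : B} (hb : b ∈ P)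
    (g : N) (h : ∀ f : N, ∃ s : B, s ∉ P ∧ ∃ (r : B) (n' : N), s • f = r • g + b • n') :
    ∃ t : B, t ∉ P ∧ ∀ f : N, ∃ r : B, t • f = r • g := by
  classical
  -- a uniform `s`
  obtain ⟨S, hS⟩ := (Module.Finite.fg_top : (⊤ : Submodule B N).FG)
  choose σ hσ using h
  set s : B := ∏ x ∈ S, σ x with hs
  have hsP : s ∉ P := by
    rw [hs, Ideal.IsPrime.prod_mem_iff]
    rintro ⟨x, -, hx⟩
    exact (hσ x).1 hx
  -- the module of `x` with `s x ∈ B g + b N`
  let T : Submodule B N :=
    (Submodule.span B {g} ⊔ (Ideal.span {b} : Ideal B) • (⊤ : Submodule B N)).comap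
      (s • (LinearMap.id : N →ₗ[B] N))
  have hgen : ∀ x ∈ S, x ∈ T := by
    intro x hx
    obtain ⟨-, r, n', e⟩ := hσ x
    show s • x ∈ Submodule.span B {g} ⊔ (Ideal.span {b} : Ideal B) • (⊤ : Submodule B N)
    have e1 : s = (∏ y ∈ S.erase x, σ y) * σ x := by
      rw [hs, Finset.prod_erase_mul _ _ hx]
    rw [e1, mul_smul, e]
    apply Submodule.smul_mem
    apply Submodule.add_mem
    · exact Submodule.mem_sup_left (Submodule.smul_mem _ _ (Submodule.mem_span_singleton_self g))
    · exact Submodule.mem_sup_right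
        (Submodule.smul_mem_smul (Ideal.mem_span_singleton_self b) Submodule.mem_top)
  have hT : T = ⊤ := by
    rw [eq_top_iff, ← hS]
    exact Submodule.span_le.2 fun x hx => hgen x hx
  -- pass to the quotient by `B g`
  let Q := N ⧸ Submodule.span B {g}
  let φ : Module.End B Q := algebraMap B (Module.End B Q) s
  have hφ : LinearMap.range φ ≤ (Ideal.span {b} : Ideal B) • (⊤ : Submodule B Q) := by
    rintro _ ⟨y, rfl⟩
    obtain ⟨x, rfl⟩ := Submodule.Quotient.mk_surjective _ y
    have hx : x ∈ T := hT ▸ Submodule.mem_top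
    have hx' : s • x ∈ Submodule.span B {g} ⊔ (Ideal.span {b} : Ideal B) • (⊤ : Submodule B N) :=
      hx
    obtain ⟨u, hu, v, hv, e⟩ := Submodule.mem_sup.1 hx'
    have e1 : φ (Submodule.Quotient.mk x) = Submodule.Quotient.mk v := by
      show s • (Submodule.Quotient.mk x : Q) = Submodule.Quotient.mk v
      rw [← Submodule.Quotient.mk_smul, ← e, Submodule.Quotient.mk_add,
        (Submodule.Quotient.mk_eq_zero _).2 hu, zero_add]
    rw [e1]
    have : (Ideal.span {b} : Ideal B) • (⊤ : Submodule B N) ≤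
        ((Ideal.span {b} : Ideal B) • (⊤ : Submodule B Q)).comap
          (Submodule.mkQ (Submodule.span B {g})) := by
      rw [Submodule.smul_le]
      intro c hc n _
      show (Submodule.Quotient.mk (c • n) : Q) ∈
        (Ideal.span {b} : Ideal B) • (⊤ : Submodule B Q)
      rw [Submodule.Quotient.mk_smul]
      exact Submodule.smul_mem_smul hc Submodule.mem_top
    exact this hv
  obtain ⟨p, hp, -, hcoef, hzero⟩ :=
    LinearMap.exists_monic_and_natDegree_eq_and_coeff_mem_pow_and_aeval_eq_zero B φ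
      (Ideal.span {b}) hφ
  have hIP : (Ideal.span {b} : Ideal B) ≤ P := (Ideal.span_singleton_le_iff_mem P).2 hb
  refine ⟨p.eval s, eval_notMem_of_monic hp (fun k hk => ?_) hsP, fun f => ?_⟩
  · have h1 := hcoef k
    have h2 : (Ideal.span {b} : Ideal B) ^ (p.natDegree - k) ≤ Ideal.span {b} :=
      Ideal.pow_le_self (by omega)
    exact hIP (h2 h1)
  · have h1 : Polynomial.aeval φ p = algebraMap B (Module.End B Q) (p.eval s) :=
      Polynomial.aeval_algebraMap_apply_eq_algebraMap_eval s p
    have h2 : (p.eval s) • (Submodule.Quotient.mk f : Q) = 0 := by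
      have := LinearMap.congr_fun hzero (Submodule.Quotient.mk f : Q)
      rw [h1] at this
      exact this
    rw [← Submodule.Quotient.mk_smul, Submodule.Quotient.mk_eq_zero,
      Submodule.mem_span_singleton] at h2
    obtain ⟨r, hr⟩ := h2
    exact ⟨r, hr.symm⟩

end Nakayama

/-! ### Fractional ideals of a Dedekind domain are principal at a prime -/

section Dedekind

variable {R K : Type*} [CommRing R] [IsDedekindDomain R] [Field K] [Algebra R K]
  [IsFractionRing R K]

/-- **local principality over a Dedekind domain**, elementwise and uniform: for a finitely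
generated `R`-submodule `𝔄` of the fraction field and a prime `𝔭` there are `g ∈ 𝔄` and
`s ∉ 𝔭` with `s 𝔄 ⊆ R g`. -/
theorem dedekind_local_principal (𝔭 : Ideal R) [𝔭.IsPrime] (𝔄 : Submodule R K) (h𝔄 : 𝔄.FG) :
    ∃ g ∈ 𝔄, ∃ s : R, s ∉ 𝔭 ∧ ∀ f ∈ 𝔄, ∃ r : R, s • f = r • g := by
  classical
  by_cases h0 : 𝔄 = ⊥
  · refine ⟨0, 𝔄.zero_mem, 1, fun h => Ideal.IsPrime.ne_top inferInstance
      ((Ideal.eq_top_iff_one 𝔭).2 h), fun f hf => ⟨0, ?_⟩⟩
    rw [h0, Submodule.mem_bot] at hf
    rw [hf, smul_zero, zero_smul]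
  let I : FractionalIdeal R⁰ K := ⟨𝔄, FractionalIdeal.isFractional_of_fg h𝔄⟩
  have hI0 : I ≠ 0 := by
    intro h
    apply h0
    have := congrArg (fun J : FractionalIdeal R⁰ K => (J : Submodule R K)) h
    simpa [I] using this
  have hmem : ∀ x : K, x ∈ I ↔ x ∈ 𝔄 := fun x => Iff.rfl
  have hone : (1 : K) ∈ I * I⁻¹ := by
    rw [mul_inv_cancel₀ hI0]
    exact FractionalIdeal.one_mem_one _
  -- some product `a β` lies outside `𝔭`
  have key : ∃ a ∈ I, ∃ β ∈ I⁻¹, ∃ z : R, z ∉ 𝔭 ∧ algebraMap R K z = a * β := by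
    by_contra hcon
    push Not at hcon
    have hC : ∃ y : R, algebraMap R K y = 1 ∧ y ∈ 𝔭 := by
      refine FractionalIdeal.mul_induction_on (C := fun x => ∃ y : R, algebraMap R K y = x ∧ y ∈ 𝔭)
        hone ?_ ?_
      · intro a ha β hβ
        have h1 : β * a ∈ (1 : FractionalIdeal R⁰ K) := (FractionalIdeal.mem_inv_iff hI0).1 hβ a ha
        obtain ⟨y, hy⟩ := (FractionalIdeal.mem_one_iff _).1 h1
        refine ⟨y, by rw [hy, mul_comm], ?_⟩
        by_contra hyp
        exact hcon a ha β hβ y hyp (by rw [hy, mul_comm])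
      · rintro x x' ⟨y, hy, hyp⟩ ⟨y', hy', hyp'⟩
        exact ⟨y + y', by rw [map_add, hy, hy'], 𝔭.add_mem hyp hyp'⟩
    obtain ⟨y, hy, hyp⟩ := hC
    have : y = 1 := (IsFractionRing.injective R K) (by rw [hy, map_one])
    rw [this] at hyp
    exact Ideal.IsPrime.ne_top inferInstance ((Ideal.eq_top_iff_one 𝔭).2 hyp)
  obtain ⟨a, ha, β, hβ, z, hz, e⟩ := key
  refine ⟨a, (hmem a).1 ha, z, hz, fun f hf => ?_⟩
  have h1 : β * f ∈ (1 : FractionalIdeal R⁰ K) :=
    (FractionalIdeal.mem_inv_iff hI0).1 hβ f ((hmem f).2 hf)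
  obtain ⟨r, hr⟩ := (FractionalIdeal.mem_one_iff _).1 h1
  refine ⟨r, ?_⟩
  rw [Algebra.smul_def, Algebra.smul_def, e, hr]
  ring

end Dedekind

/-! ### The combination -/

section Combination

variable {B : Type*} [CommRing B] {N : Type*} [AddCommGroup N] [Module B N] [Module.Finite B N]
  {R K : Type*} [CommRing R] [IsDedekindDomain R] [Field K] [Algebra R K] [IsFractionRing R K]

/-- **local principality along a principal vertical prime with Dedekind quotient.**
`π : B → R` onto a Dedekind domain, `P` a prime of `B` containing `ker π`, `b ∈ ker π`,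
`ρ : N → Frac R` additive and `π`-semilinear with `ker ρ ⊆ b N` (saturation).  Then the finite
`B`-module `N` is principal at `P`: there are `g ∈ N` and `t ∉ P` with `t N ⊆ B g`. -/
theorem local_principal_of_dedekind_quotient (π : B →+* R) (hπ : Function.Surjective π)
    (P : Ideal B) [P.IsPrime] (hker : RingHom.ker π ≤ P) {b : B} (hb : π b = 0)
    (ρ : N →+ K) (hρ : ∀ (c : B) (n : N), ρ (c • n) = algebraMap R K (π c) * ρ n)
    (hsat : ∀ n : N, ρ n = 0 → ∃ n' : N, n = b • n') :
    ∃ (g : N) (t : B), t ∉ P ∧ ∀ f : N, ∃ r : B, t • f = r • g := by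
  classical
  -- the prime of `R`
  have hPmap : (P.map π).IsPrime := Ideal.map_isPrime_of_surjective hπ hker
  have hmem : ∀ c : B, π c ∈ P.map π → c ∈ P := by
    intro c hc
    rw [Ideal.mem_map_iff_of_surjective π hπ] at hc
    obtain ⟨c', hc', e⟩ := hc
    have : c - c' ∈ P := hker (by rw [RingHom.mem_ker, map_sub, e, sub_self])
    have := P.add_mem this hc'
    rwa [sub_add_cancel] at this
  -- the image of `ρ` as a finitely generated `R`-submodule of `K`
  obtain ⟨S, hS⟩ := (Module.Finite.fg_top : (⊤ : Submodule B N).FG)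
  let 𝔄 : Submodule R K := Submodule.span R (ρ '' (S : Set N))
  have h𝔄fg : 𝔄.FG := ⟨S.image ρ, by rw [Finset.coe_image]⟩
  have hρmem : ∀ n : N, ρ n ∈ 𝔄 := by
    intro n
    have hn : n ∈ Submodule.span B (S : Set N) := hS ▸ Submodule.mem_top
    induction hn using Submodule.span_induction with
    | mem x hx => exact Submodule.subset_span ⟨x, hx, rfl⟩
    | zero => rw [map_zero]; exact 𝔄.zero_mem
    | add x y _ _ hx hy => rw [map_add]; exact 𝔄.add_mem hx hy
    | smul c x _ hx =>
      rw [hρ, ← Algebra.smul_def]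
      exact 𝔄.smul_mem _ hx
  have h𝔄mem : ∀ x ∈ 𝔄, ∃ n : N, ρ n = x := by
    intro x hx
    induction hx using Submodule.span_induction with
    | mem x hx =>
      obtain ⟨n, -, rfl⟩ := hx
      exact ⟨n, rfl⟩
    | zero => exact ⟨0, map_zero ρ⟩
    | add x y _ _ hx hy =>
      obtain ⟨n, rfl⟩ := hx
      obtain ⟨n', rfl⟩ := hy
      exact ⟨n + n', map_add ρ n n'⟩
    | smul c x _ hx =>
      obtain ⟨n, rfl⟩ := hx
      obtain ⟨c', rfl⟩ := hπ c
      exact ⟨c' • n, by rw [hρ, Algebra.smul_def]⟩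
  obtain ⟨γ, hγ, sb, hsb, hdiv⟩ := dedekind_local_principal (P.map π) 𝔄 h𝔄fg
  obtain ⟨g, rfl⟩ := h𝔄mem γ hγ
  obtain ⟨s, rfl⟩ := hπ sb
  have hsP : s ∉ P := fun h => hsb (Ideal.mem_map_of_mem π h)
  have hbP : b ∈ P := hker (by rw [RingHom.mem_ker, hb])
  obtain ⟨t, ht, hdiv'⟩ := nakayama_elementwise P hbP g (fun f => by
    obtain ⟨rb, hrb⟩ := hdiv (ρ f) (hρmem f)
    obtain ⟨r, rfl⟩ := hπ rb
    have h0 : ρ (s • f - r • g) = 0 := by
      rw [map_sub, hρ, hρ, ← Algebra.smul_def, ← Algebra.smul_def, hrb, sub_self]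
    obtain ⟨n', hn'⟩ := hsat _ h0
    exact ⟨s, hsP, r, n', by rw [← hn']; abel⟩)
  exact ⟨g, t, ht, hdiv'⟩

end Combination

end Fermat.Agent.T3.helper3
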