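import Mathlib
import Fermat.Agent.T3.helper3_LocPrin
import Fermat.Agent.T3.helper22_LocPrin

/-!
# Tier 3 (helper22): the ideal step [IDEAL3], abstract form

Mathlib + the two landed Nakayama files.  The situation to keep in mind: `B = AA` is the ring of
the inertia-fixed functions of level `N q²` which are regular off the cusps and integral for the
three Gauss valuations `w₁, w₂, w₃`; `𝔞 = 𝔞_D` and `𝔟 = 𝔞_{-D}` are the divisorial modules of a
divisor `D` (finitely generated, because `B` is noetherian), `μ : 𝔞 × 𝔟 → B` is the product;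
`π c : B → Bt` (`c : Fin 3`) are the three reductions, `ρ c`, `ρ' c` the reductions of the elements
of `𝔞`, `𝔟` (values in the function field of the special fibre).

* `local_principal_of_local_ker` : local principality along a vertical prime which is principal
  only LOCALLY (`s • n = b • n'` with `s` a unit at the point): the case of the middle component.
* `pairing_notMem_of_local_principal` : the UNIT CRITERION: if `𝔞`, `𝔟` are principal at `P` with
  generators `g`, `g'` and `(B : 𝔞 𝔟) = B` (`hval`), then `μ g g' ∉ P`.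
* `exists_partition` : from the points to the partition of unity `∑ g_i g_i' ≡ 1` on all the
  components simultaneously.
* `exists_partition_of_dedekind` : the combination (`[IDEAL3]`, partition form).
* `exists_semilocal_generator` : the semilocal generator at the points of a nonzero ideal `J₀` of
  one component (the supersingular points): `μ g g' ≡ 1` modulo `J₀` (`[IDEAL3]`, generator form).
-/

set_option autoImplicit false
set_option linter.unusedSectionVars false
set_option linter.style.haveILetI false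

namespace Fermat.Agent.T3.helper22

open Fermat.Agent.T3.helper3

section Local

variable {B : Type*} [CommRing B] {N : Type*} [AddCommGroup N] [Module B N] [Module.Finite B N]
  {R K : Type*} [CommRing R] [IsDedekindDomain R] [Field K] [Algebra R K] [IsFractionRing R K]

/-- **local principality along a locally principal vertical prime with Dedekind quotient.**
As `helper3.local_principal_of_dedekind_quotient`, but the kernel of `ρ` is `b N` only up to a
multiplier `s ∉ P`. -/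
theorem local_principal_of_local_ker (π : B →+* R) (hπ : Function.Surjective π)
    (P : Ideal B) [P.IsPrime] (hker : RingHom.ker π ≤ P) {b : B} (hb : π b = 0)
    (ρ : N →+ K) (hρ : ∀ (c : B) (n : N), ρ (c • n) = algebraMap R K (π c) * ρ n)
    (hsat : ∀ n : N, ρ n = 0 → ∃ s : B, s ∉ P ∧ ∃ n' : N, s • n = b • n') :
    ∃ (g : N) (t : B), t ∉ P ∧ ∀ f : N, ∃ r : B, t • f = r • g := by
  classical
  have hPmap : (P.map π).IsPrime := Ideal.map_isPrime_of_surjective hπ hker
  obtain ⟨S, hS⟩ := (Module.Finite.fg_top : (⊤ : Submodule B N).FG)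
  let 𝔄 : Submodule R K := Submodule.span R (ρ '' (S : Set N))
  have h𝔄fg : 𝔄.FG := ⟨S.image ρ, by rw [Finset.coe_image]⟩
  have hρmem : ∀ n : N, ρ n ∈ 𝔄 := by
    intro n
    have hn : n ∈ Submodule.span B (S : Set N) := hS ▸ Submodule.mem_top
    induction hn using Submodule.span_induction with
    | mem x hx => exact Submodule.subset_span ⟨x, hx, rfl⟩
    | zero => rw [map_zero]; exact 𝔄.zero_mem
    | add x y _ _ hx hy => rw [map_add]; exact 𝔄.add_mem hx hy
    | smul c x _ hx =>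
      rw [hρ, ← Algebra.smul_def]
      exact 𝔄.smul_mem _ hx
  have h𝔄mem : ∀ x ∈ 𝔄, ∃ n : N, ρ n = x := by
    intro x hx
    induction hx using Submodule.span_induction with
    | mem x hx =>
      obtain ⟨n, -, rfl⟩ := hx
      exact ⟨n, rfl⟩
    | zero => exact ⟨0, map_zero ρ⟩
    | add x y _ _ hx hy =>
      obtain ⟨n, rfl⟩ := hx
      obtain ⟨n', rfl⟩ := hy
      exact ⟨n + n', map_add ρ n n'⟩
    | smul c x _ hx =>
      obtain ⟨n, rfl⟩ := hx
      obtain ⟨c', rfl⟩ := hπ c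
      exact ⟨c' • n, by rw [hρ, Algebra.smul_def]⟩
  obtain ⟨γ, hγ, sb, hsb, hdiv⟩ := dedekind_local_principal (P.map π) 𝔄 h𝔄fg
  obtain ⟨g, rfl⟩ := h𝔄mem γ hγ
  obtain ⟨s, rfl⟩ := hπ sb
  have hsP : s ∉ P := fun h => hsb (Ideal.mem_map_of_mem π h)
  have hbP : b ∈ P := hker (by rw [RingHom.mem_ker, hb])
  obtain ⟨t, ht, hdiv'⟩ := nakayama_elementwise P hbP g (fun f => by
    obtain ⟨rb, hrb⟩ := hdiv (ρ f) (hρmem f)
    obtain ⟨r, rfl⟩ := hπ rb
    have h0 : ρ (s • f - r • g) = 0 := by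
      rw [map_sub, hρ, hρ, ← Algebra.smul_def, ← Algebra.smul_def, hrb, sub_self]
    obtain ⟨s₁, hs₁, n', hn'⟩ := hsat _ h0
    refine ⟨s₁ * s, fun h => (Ideal.IsPrime.mem_or_mem inferInstance h).elim hs₁ hsP,
      s₁ * r, n', ?_⟩
    rw [← hn', smul_sub, mul_smul, mul_smul]
    abel)
  exact ⟨g, t, ht, hdiv'⟩

end Local

section Pairing

variable {B : Type*} [CommRing B] {N : Type*} [AddCommGroup N] [Module B N]
  {N' : Type*} [AddCommGroup N'] [Module B N']

/-- **the unit criterion.**  `hval` says `(B : 𝔞 𝔟) = B`: an element `r / s` of the fraction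
field which carries all the products `G G'` into `B` lies in `B` (true for divisorial modules:
for every defining valuation `v` there are `G`, `G'` with `v (G G') = 0`).  If `𝔞` and `𝔟` are
principal at the prime `P` with generators `g`, `g'`, then `g g'` is a unit at `P`. -/
theorem pairing_notMem_of_local_principal (μ : N →ₗ[B] N' →ₗ[B] B)
    (hval : ∀ r s : B, (∀ (G : N) (G' : N'), ∃ c, r * μ G G' = s * c) → ∃ c, r = s * c)
    (P : Ideal B) [P.IsPrime]
    {g : N} {t : B} (ht : t ∉ P) (hg : ∀ f : N, ∃ r : B, t • f = r • g)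
    {g' : N'} {t' : B} (ht' : t' ∉ P) (hg' : ∀ f : N', ∃ r : B, t' • f = r • g') :
    μ g g' ∉ P := by
  intro hP
  obtain ⟨c, hc⟩ := hval (t * t') (μ g g') (fun G G' => by
    obtain ⟨r, hr⟩ := hg G
    obtain ⟨r', hr'⟩ := hg' G'
    refine ⟨r * r', ?_⟩
    have h1 : μ (t • G) (t' • G') = (t * t') * μ G G' := by
      simp only [map_smul, LinearMap.smul_apply, smul_eq_mul]
      ring
    have h2 : μ (r • g) (r' • g') = μ g g' * (r * r') := by
      simp only [map_smul, LinearMap.smul_apply, smul_eq_mul]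
      ring
    rw [← h1, hr, hr', h2])
  have h : t * t' ∈ P := by
    rw [hc]
    exact P.mul_mem_right _ hP
  exact (Ideal.IsPrime.mem_or_mem inferInstance h).elim ht ht'

/-- the sums of products -/
theorem exists_sum_of_mem_span (μ : N →ₗ[B] N' →ₗ[B] B) {x : B}
    (hx : x ∈ Ideal.span (Set.range fun p : N × N' => μ p.1 p.2)) :
    ∃ (m : ℕ) (g : Fin m → N) (g' : Fin m → N'), x = ∑ i, μ (g i) (g' i) := by
  induction hx using Submodule.span_induction with
  | mem x hx =>
    obtain ⟨p, rfl⟩ := hx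
    exact ⟨1, fun _ => p.1, fun _ => p.2, by simp⟩
  | zero => exact ⟨0, Fin.elim0, Fin.elim0, by simp⟩
  | add x y _ _ hx hy =>
    obtain ⟨m, g, g', rfl⟩ := hx
    obtain ⟨m', h, h', rfl⟩ := hy
    refine ⟨m + m', Fin.append g h, Fin.append g' h', ?_⟩
    rw [Fin.sum_univ_add]
    simp only [Fin.append_left, Fin.append_right]
  | smul c x _ hx =>
    obtain ⟨m, g, g', rfl⟩ := hx
    refine ⟨m, fun i => c • g i, g', ?_⟩
    rw [smul_eq_mul, Finset.mul_sum]
    refine Finset.sum_congr rfl fun i _ => ?_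
    rw [map_smul, LinearMap.smul_apply, smul_eq_mul]

/-- **from the points to the partition of unity.** -/
theorem exists_partition {ι : Type*} [Fintype ι] {Rc : ι → Type*} [∀ c, CommRing (Rc c)]
    (π : ∀ c, B →+* Rc c) (hπ : ∀ c, Function.Surjective (π c))
    (μ : N →ₗ[B] N' →ₗ[B] B)
    (hpt : ∀ (c : ι) (𝔪 : Ideal (Rc c)), 𝔪.IsMaximal → ∃ g g', π c (μ g g') ∉ 𝔪) :
    ∃ (m : ℕ) (g : Fin m → N) (g' : Fin m → N'), ∀ c, π c (∑ i, μ (g i) (g' i)) = 1 := by
  classical
  set J : Ideal B := Ideal.span (Set.range fun p : N × N' => μ p.1 p.2) with hJ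
  have hmap : ∀ c, J.map (π c) = ⊤ := by
    intro c
    by_contra hne
    obtain ⟨𝔪, h𝔪, hle⟩ := Ideal.exists_le_maximal _ hne
    obtain ⟨g, g', hgg⟩ := hpt c 𝔪 h𝔪
    exact hgg (hle (Ideal.mem_map_of_mem _ (Ideal.subset_span ⟨(g, g'), rfl⟩)))
  have hx : ∀ c, ∃ x ∈ J, π c x = 1 := by
    intro c
    have h1 : (1 : Rc c) ∈ J.map (π c) := by rw [hmap c]; trivial
    rw [Ideal.mem_map_iff_of_surjective (π c) (hπ c)] at h1
    exact h1
  choose x hxJ hx1 using hx
  have hmem : 1 - ∏ c, (1 - x c) ∈ J := by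
    rw [← Ideal.Quotient.eq_zero_iff_mem, map_sub, map_one, map_prod]
    have : ∀ c, Ideal.Quotient.mk J (1 - x c) = 1 := by
      intro c
      rw [map_sub, map_one, Ideal.Quotient.eq_zero_iff_mem.mpr (hxJ c), sub_zero]
    simp only [this, Finset.prod_const_one, sub_self]
  obtain ⟨m, g, g', hgg⟩ := exists_sum_of_mem_span μ hmem
  refine ⟨m, g, g', fun c => ?_⟩
  rw [← hgg, map_sub, map_one, map_prod,
    Finset.prod_eq_zero (Finset.mem_univ c) (by rw [map_sub, map_one, hx1 c, sub_self]), sub_zero]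

end Pairing

section Ideal3

variable {B : Type*} [CommRing B] {N : Type*} [AddCommGroup N] [Module B N] [Module.Finite B N]
  {N' : Type*} [AddCommGroup N'] [Module B N'] [Module.Finite B N']

/-- **[IDEAL3], partition form.**  `B` with finitely many surjections `π c` onto Dedekind domains
(the components of the special fibre), two finite modules `𝔞 = N`, `𝔟 = N'` with a pairing `μ`
into `B` such that `(B : 𝔞 𝔟) = B` (`hval`), semilinear reductions `ρ c`, `ρ' c` whose kernels are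
`b c • N`, `b c • N'` up to multipliers which are units at the given point.  Then there is a
partition of unity `∑ μ (g i) (g' i) ≡ 1` on all the components. -/
theorem exists_partition_of_dedekind {ι : Type*} [Fintype ι]
    {Rc : ι → Type*} [∀ c, CommRing (Rc c)] [∀ c, IsDedekindDomain (Rc c)]
    {Kc : ι → Type*} [∀ c, Field (Kc c)] [∀ c, Algebra (Rc c) (Kc c)]
    [∀ c, IsFractionRing (Rc c) (Kc c)]
    (π : ∀ c, B →+* Rc c) (hπ : ∀ c, Function.Surjective (π c))
    (μ : N →ₗ[B] N' →ₗ[B] B)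
    (hval : ∀ r s : B, (∀ (G : N) (G' : N'), ∃ c, r * μ G G' = s * c) → ∃ c, r = s * c)
    (b : ι → B) (hb : ∀ c, π c (b c) = 0)
    (ρ : ∀ c, N →+ Kc c)
    (hρ : ∀ (c : ι) (x : B) (n : N), ρ c (x • n) = algebraMap (Rc c) (Kc c) (π c x) * ρ c n)
    (hsat : ∀ (c : ι) (𝔪 : Ideal (Rc c)), 𝔪.IsMaximal → ∀ n : N, ρ c n = 0 →
      ∃ s : B, π c s ∉ 𝔪 ∧ ∃ n' : N, s • n = b c • n')
    (ρ' : ∀ c, N' →+ Kc c)
    (hρ' : ∀ (c : ι) (x : B) (n : N'), ρ' c (x • n) = algebraMap (Rc c) (Kc c) (π c x) * ρ' c n)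
    (hsat' : ∀ (c : ι) (𝔪 : Ideal (Rc c)), 𝔪.IsMaximal → ∀ n : N', ρ' c n = 0 →
      ∃ s : B, π c s ∉ 𝔪 ∧ ∃ n' : N', s • n = b c • n') :
    ∃ (m : ℕ) (g : Fin m → N) (g' : Fin m → N'), ∀ c, π c (∑ i, μ (g i) (g' i)) = 1 := by
  refine exists_partition π hπ μ fun c 𝔪 h𝔪 => ?_
  haveI : (𝔪.comap (π c)).IsPrime := Ideal.comap_isPrime (π c) 𝔪
  have hker : RingHom.ker (π c) ≤ 𝔪.comap (π c) := fun x hx => by
    rw [Ideal.mem_comap, RingHom.mem_ker.mp hx]
    exact 𝔪.zero_mem
  obtain ⟨g, t, ht, hg⟩ := local_principal_of_local_ker (π c) (hπ c) (𝔪.comap (π c)) hker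
    (hb c) (ρ c) (hρ c) (fun n hn => by
      obtain ⟨s, hs, n', hn'⟩ := hsat c 𝔪 h𝔪 n hn
      exact ⟨s, hs, n', hn'⟩)
  obtain ⟨g', t', ht', hg'⟩ := local_principal_of_local_ker (π c) (hπ c) (𝔪.comap (π c)) hker
    (hb c) (ρ' c) (hρ' c) (fun n hn => by
      obtain ⟨s, hs, n', hn'⟩ := hsat' c 𝔪 h𝔪 n hn
      exact ⟨s, hs, n', hn'⟩)
  exact ⟨g, g', pairing_notMem_of_local_principal μ hval (𝔪.comap (π c)) ht hg ht' hg'⟩

/-- Chinese remainder elements for finitely many different maximal ideals -/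
theorem exists_crt_elements {ι : Type*} [Fintype ι] [DecidableEq ι] (P : ι → Ideal B)
    (hmax : ∀ j, (P j).IsMaximal) (hne : ∀ i j, i ≠ j → P i ≠ P j) :
    ∃ c : ι → B, (∀ j, c j - 1 ∈ P j) ∧ ∀ i j, i ≠ j → c i ∈ P j := by
  have hcop : Pairwise (Function.onFun IsCoprime P) := fun i j hij =>
    haveI := hmax i
    haveI := hmax j
    Ideal.isCoprime_of_isMaximal (hne i j hij)
  have hsurj := Ideal.quotientInfToPiQuotient_surj hcop
  have key : ∀ j : ι, ∃ e : B, ∀ i, Ideal.Quotient.mk (P i) e = if i = j then 1 else 0 := by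
    intro j
    obtain ⟨y, hy⟩ := hsurj (fun i => if i = j then 1 else 0)
    obtain ⟨e, rfl⟩ := Ideal.Quotient.mk_surjective y
    refine ⟨e, fun i => ?_⟩
    have := congrFun hy i
    rwa [Ideal.quotientInfToPiQuotient_mk'] at this
  choose c hc using key
  refine ⟨c, fun j => ?_, fun i j hij => ?_⟩
  · rw [← Ideal.Quotient.eq_zero_iff_mem, map_sub, map_one, hc j j, if_pos rfl, sub_self]
  · rw [← Ideal.Quotient.eq_zero_iff_mem, hc i j, if_neg (Ne.symm hij)]

/-- **[IDEAL3], generator form.**  `π : B → R` onto a Dedekind domain (one component of the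
special fibre), `J₀ ≠ 0` an ideal of `R` (the ideal of the supersingular points).  If the finite
modules `𝔞 = N`, `𝔟 = N'` satisfy the hypotheses of `exists_partition_of_dedekind` along `π`,
then there are `g ∈ 𝔞`, `g' ∈ 𝔟` with `π (g g') ≡ 1` modulo `J₀`. -/
theorem exists_semilocal_generator
    {R K : Type*} [CommRing R] [IsDedekindDomain R] [Field K] [Algebra R K] [IsFractionRing R K]
    (π : B →+* R) (hπ : Function.Surjective π)
    (μ : N →ₗ[B] N' →ₗ[B] B)
    (hval : ∀ r s : B, (∀ (G : N) (G' : N'), ∃ c, r * μ G G' = s * c) → ∃ c, r = s * c)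
    (J₀ : Ideal R) (hJ₀ : J₀ ≠ ⊥)
    {b : B} (hb : π b = 0)
    (ρ : N →+ K) (hρ : ∀ (x : B) (n : N), ρ (x • n) = algebraMap R K (π x) * ρ n)
    (hsat : ∀ 𝔪 : Ideal R, 𝔪.IsMaximal → J₀ ≤ 𝔪 → ∀ n : N, ρ n = 0 →
      ∃ s : B, π s ∉ 𝔪 ∧ ∃ n' : N, s • n = b • n')
    (ρ' : N' →+ K) (hρ' : ∀ (x : B) (n : N'), ρ' (x • n) = algebraMap R K (π x) * ρ' n)
    (hsat' : ∀ 𝔪 : Ideal R, 𝔪.IsMaximal → J₀ ≤ 𝔪 → ∀ n : N', ρ' n = 0 →
      ∃ s : B, π s ∉ 𝔪 ∧ ∃ n' : N', s • n = b • n') :
    ∃ (g : N) (g' : N'), π (μ g g') - 1 ∈ J₀ := by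
  classical
  -- the finitely many maximal ideals containing `J₀`
  have hfin : (J₀.minimalPrimes).Finite := Ideal.finite_minimalPrimes_of_isNoetherianRing R J₀
  letI : Fintype J₀.minimalPrimes := hfin.fintype
  have hmaxR : ∀ j : J₀.minimalPrimes, (j : Ideal R).IsMaximal := by
    intro j
    have hj := j.2
    have hprime : (j : Ideal R).IsPrime := hj.1.1
    have hle : J₀ ≤ (j : Ideal R) := hj.1.2
    exact Ideal.IsPrime.isMaximal hprime (fun h0 => hJ₀ (le_bot_iff.mp (h0 ▸ hle)))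
  have hall : ∀ 𝔪 : Ideal R, 𝔪.IsMaximal → J₀ ≤ 𝔪 → 𝔪 ∈ J₀.minimalPrimes := by
    intro 𝔪 h𝔪 hle
    haveI := h𝔪.isPrime
    obtain ⟨𝔭, h𝔭, h𝔭le⟩ := Ideal.exists_minimalPrimes_le hle
    have h𝔭max := hmaxR ⟨𝔭, h𝔭⟩
    have : 𝔭 = 𝔪 := h𝔭max.eq_of_le h𝔪.ne_top h𝔭le
    exact this ▸ h𝔭
  -- the maximal ideals of `B`
  let P : J₀.minimalPrimes → Ideal B := fun j => (j : Ideal R).comap π
  have hPmax : ∀ j, (P j).IsMaximal := fun j =>
    haveI := hmaxR j
    Ideal.comap_isMaximal_of_surjective π hπ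
  have hPne : ∀ i j, i ≠ j → P i ≠ P j := by
    intro i j hij h
    apply hij
    apply Subtype.ext
    have := congrArg (Ideal.map π) h
    simpa only [P, Ideal.map_comap_of_surjective π hπ] using this
  have hPprime : ∀ j, (P j).IsPrime := fun j => (hPmax j).isPrime
  have hkerP : ∀ j, RingHom.ker π ≤ P j := fun j x hx => by
    show x ∈ (j : Ideal R).comap π
    rw [Ideal.mem_comap, RingHom.mem_ker.mp hx]
    exact (j : Ideal R).zero_mem
  -- local generators
  have hloc : ∀ j, ∃ (g : N) (t : B), t ∉ P j ∧ ∀ f : N, ∃ r : B, t • f = r • g := fun j =>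
    haveI := hPprime j
    local_principal_of_local_ker π hπ (P j) (hkerP j) hb ρ hρ (fun n hn => by
      obtain ⟨s, hs, n', hn'⟩ := hsat (j : Ideal R) (hmaxR j) j.2.1.2 n hn
      exact ⟨s, hs, n', hn'⟩)
  have hloc' : ∀ j, ∃ (g : N') (t : B), t ∉ P j ∧ ∀ f : N', ∃ r : B, t • f = r • g := fun j =>
    haveI := hPprime j
    local_principal_of_local_ker π hπ (P j) (hkerP j) hb ρ' hρ' (fun n hn => by
      obtain ⟨s, hs, n', hn'⟩ := hsat' (j : Ideal R) (hmaxR j) j.2.1.2 n hn
      exact ⟨s, hs, n', hn'⟩)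
  choose gl tl htl hgl using hloc
  choose gl' tl' htl' hgl' using hloc'
  obtain ⟨c, hc1, hc0⟩ := exists_crt_elements P hPmax hPne
  have hS : ∀ j, ∀ s ∈ (P j).primeCompl, ∀ x ∈ P j, s + x ∈ (P j).primeCompl := by
    intro j s hs x hx h
    apply hs
    have := (P j).sub_mem h hx
    rwa [add_sub_cancel_right] at this
  obtain ⟨g₀, hg₀⟩ := locPrin_points (fun j => (P j).primeCompl) P hS c hc1 hc0 gl tl htl hgl
  obtain ⟨g₀', hg₀'⟩ := locPrin_points (fun j => (P j).primeCompl) P hS c hc1 hc0 gl' tl' htl'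
    hgl'
  -- the unit criterion
  have hunit : ∀ j, μ g₀ g₀' ∉ P j := by
    intro j
    haveI := hPprime j
    obtain ⟨D, hD, hDg⟩ := hg₀ j
    obtain ⟨D', hD', hDg'⟩ := hg₀' j
    exact pairing_notMem_of_local_principal μ hval (P j) hD hDg hD' hDg'
  -- inversion modulo `J₀`
  have htop : Ideal.span {π (μ g₀ g₀')} ⊔ J₀ = ⊤ := by
    by_contra hne
    obtain ⟨𝔪, h𝔪, hle⟩ := Ideal.exists_le_maximal _ hne
    have h1 : J₀ ≤ 𝔪 := le_sup_right.trans hle
    have h2 : π (μ g₀ g₀') ∈ 𝔪 :=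
      hle (Ideal.mem_sup_left (Ideal.subset_span (Set.mem_singleton _)))
    exact hunit ⟨𝔪, hall 𝔪 h𝔪 h1⟩ h2
  have h1 : (1 : R) ∈ Ideal.span {π (μ g₀ g₀')} ⊔ J₀ := by rw [htop]; trivial
  obtain ⟨u, hu, e, he, hue⟩ := Submodule.mem_sup.mp h1
  obtain ⟨z, rfl⟩ := Ideal.mem_span_singleton'.mp hu
  obtain ⟨y, rfl⟩ := hπ z
  refine ⟨g₀, y • g₀', ?_⟩
  have : π (μ g₀ (y • g₀')) - 1 = -e := by
    rw [map_smul, smul_eq_mul, map_mul, ← hue]
    ring
  rw [this]
  exact J₀.neg_mem he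

end Ideal3

end Fermat.Agent.T3.helper22
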