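import Mathlib
import Fermat.Agent.T3.helper49_TorAlg
import Fermat.Agent.T3.helper22_Ideal3Abs
import Fermat.Agent.T3.helper22_FGInt

/-!
# Tier 3 (helper22): [IDEAL3] for a toric calculus, adapter

`T : TorCalc F B n r` (`helper49_TorAlg`), `B` a field.  We put

* `IsInt3B T f` : `f` is integral at the three valuations (`∃ X, T.Rho f X`);
* `aaRing T`   : the ring `AA` of the `f ∈ T.Reg` which are integral at the three valuations with
                 reductions in `T.Bt`;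
* `idMod T hn u` : the divisorial module `𝔞_u = {g | g ^ n / u ∈ T.Reg, g integral}`.

`Ideal3Box T` collects the inputs (the BOXES, see the fields); the results are

* `Ideal3Box.hasPartition : T.Rho u 1 → T.Dv u → T.HasPartition u`,
* `Ideal3Box.hasGenerator : T.Rho h 1 → T.Dv h → T.HasGenerator h`  (with `Ideal3Glue T`),

the two inputs `hgen`, `hpart` of `helper49.TorCalc.main` / `TorCalc.new`.
-/

set_option autoImplicit false
set_option linter.unusedSectionVars false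
set_option linter.unusedVariables false
set_option linter.style.haveILetI false
set_option linter.style.longLine false

namespace Fermat.Agent.T3.helper22

open Fermat.Agent.T3.helper3 Fermat.Agent.T3.helper49

/-! ### The semilocal generator from local principality at the points -/

section Semilocal

variable {B : Type*} [CommRing B] {N : Type*} [AddCommGroup N] [Module B N]
  {N' : Type*} [AddCommGroup N'] [Module B N']

/-- **[IDEAL3], generator form, from local principality.**  As `exists_semilocal_generator`, with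
the local principality at the points of `J₀` as hypothesis. -/
theorem exists_semilocal_generator_of_loc
    {R : Type*} [CommRing R] [IsDedekindDomain R]
    (π : B →+* R) (hπ : Function.Surjective π)
    (μ : N →ₗ[B] N' →ₗ[B] B)
    (hval : ∀ r s : B, (∀ (G : N) (G' : N'), ∃ c, r * μ G G' = s * c) → ∃ c, r = s * c)
    (J₀ : Ideal R) (hJ₀ : J₀ ≠ ⊥)
    (hloc : ∀ 𝔪 : Ideal R, 𝔪.IsMaximal → J₀ ≤ 𝔪 →
      ∃ (g : N) (t : B), t ∉ 𝔪.comap π ∧ ∀ f : N, ∃ r : B, t • f = r • g)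
    (hloc' : ∀ 𝔪 : Ideal R, 𝔪.IsMaximal → J₀ ≤ 𝔪 →
      ∃ (g : N') (t : B), t ∉ 𝔪.comap π ∧ ∀ f : N', ∃ r : B, t • f = r • g) :
    ∃ (g : N) (g' : N'), π (μ g g') - 1 ∈ J₀ := by
  classical
  have hfin : (J₀.minimalPrimes).Finite := Ideal.finite_minimalPrimes_of_isNoetherianRing R J₀
  letI : Fintype J₀.minimalPrimes := hfin.fintype
  have hmaxR : ∀ j : J₀.minimalPrimes, (j : Ideal R).IsMaximal := by
    intro j
    have hj := j.2
    have hprime : (j : Ideal R).IsPrime := hj.1.1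
    have hle : J₀ ≤ (j : Ideal R) := hj.1.2
    exact Ideal.IsPrime.isMaximal hprime (fun h0 => hJ₀ (le_bot_iff.mp (h0 ▸ hle)))
  have hall : ∀ 𝔪 : Ideal R, 𝔪.IsMaximal → J₀ ≤ 𝔪 → 𝔪 ∈ J₀.minimalPrimes := by
    intro 𝔪 h𝔪 hle
    haveI := h𝔪.isPrime
    obtain ⟨𝔭, h𝔭, h𝔭le⟩ := Ideal.exists_minimalPrimes_le hle
    have h𝔭max := hmaxR ⟨𝔭, h𝔭⟩
    have : 𝔭 = 𝔪 := h𝔭max.eq_of_le h𝔪.ne_top h𝔭le
    exact this ▸ h𝔭
  let P : J₀.minimalPrimes → Ideal B := fun j => (j : Ideal R).comap π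
  have hPmax : ∀ j, (P j).IsMaximal := fun j =>
    haveI := hmaxR j
    Ideal.comap_isMaximal_of_surjective π hπ
  have hPne : ∀ i j, i ≠ j → P i ≠ P j := by
    intro i j hij h
    apply hij
    apply Subtype.ext
    have := congrArg (Ideal.map π) h
    simpa only [P, Ideal.map_comap_of_surjective π hπ] using this
  have hPprime : ∀ j, (P j).IsPrime := fun j => (hPmax j).isPrime
  have hl : ∀ j, ∃ (g : N) (t : B), t ∉ P j ∧ ∀ f : N, ∃ r : B, t • f = r • g := fun j =>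
    hloc (j : Ideal R) (hmaxR j) j.2.1.2
  have hl' : ∀ j, ∃ (g : N') (t : B), t ∉ P j ∧ ∀ f : N', ∃ r : B, t • f = r • g := fun j =>
    hloc' (j : Ideal R) (hmaxR j) j.2.1.2
  choose gl tl htl hgl using hl
  choose gl' tl' htl' hgl' using hl'
  obtain ⟨c, hc1, hc0⟩ := exists_crt_elements P hPmax hPne
  have hS : ∀ j, ∀ s ∈ (P j).primeCompl, ∀ x ∈ P j, s + x ∈ (P j).primeCompl := by
    intro j s hs x hx h
    apply hs
    have := (P j).sub_mem h hx
    rwa [add_sub_cancel_right] at this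
  obtain ⟨g₀, hg₀⟩ := locPrin_points (fun j => (P j).primeCompl) P hS c hc1 hc0 gl tl htl hgl
  obtain ⟨g₀', hg₀'⟩ := locPrin_points (fun j => (P j).primeCompl) P hS c hc1 hc0 gl' tl' htl'
    hgl'
  have hunit : ∀ j, μ g₀ g₀' ∉ P j := by
    intro j
    haveI := hPprime j
    obtain ⟨D, hD, hDg⟩ := hg₀ j
    obtain ⟨D', hD', hDg'⟩ := hg₀' j
    exact pairing_notMem_of_local_principal μ hval (P j) hD hDg hD' hDg'
  have htop : Ideal.span {π (μ g₀ g₀')} ⊔ J₀ = ⊤ := by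
    by_contra hne
    obtain ⟨𝔪, h𝔪, hle⟩ := Ideal.exists_le_maximal _ hne
    have h1 : J₀ ≤ 𝔪 := le_sup_right.trans hle
    have h2 : π (μ g₀ g₀') ∈ 𝔪 :=
      hle (Ideal.mem_sup_left (Ideal.subset_span (Set.mem_singleton _)))
    exact hunit ⟨𝔪, hall 𝔪 h𝔪 h1⟩ h2
  have h1 : (1 : R) ∈ Ideal.span {π (μ g₀ g₀')} ⊔ J₀ := by rw [htop]; trivial
  obtain ⟨u, hu, e, he, hue⟩ := Submodule.mem_sup.mp h1
  obtain ⟨z, rfl⟩ := Ideal.mem_span_singleton'.mp hu
  obtain ⟨y, rfl⟩ := hπ z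
  refine ⟨g₀, y • g₀', ?_⟩
  have : π (μ g₀ (y • g₀')) - 1 = -e := by
    rw [map_smul, smul_eq_mul, map_mul, ← hue]
    ring
  rw [this]
  exact J₀.neg_mem he

end Semilocal

/-! ### Integrally closed subrings of a field -/

section IntClosed

variable {B : Type*} [Field B]

/-- an element of the fraction field of an integrally closed subring `R` of a field, a power of
which lies in `R`, lies in `R` -/
theorem mem_of_pow_mem_of_frac (R : Subring B) [IsIntegrallyClosed R] {z : B} {m : ℕ}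
    (hm : m ≠ 0) (hz : z ^ m ∈ R) (hfrac : ∃ a ∈ R, ∃ b ∈ R, b ≠ 0 ∧ z * b = a) : z ∈ R := by
  obtain ⟨a, ha, b, hb, hb0, hab⟩ := hfrac
  set K := FractionRing R
  have hb' : (⟨b, hb⟩ : R) ≠ 0 := fun h => hb0 (congrArg Subtype.val h)
  have hbK : algebraMap R K ⟨b, hb⟩ ≠ 0 :=
    (map_ne_zero_iff _ (IsFractionRing.injective R K)).mpr hb'
  have hξ : (algebraMap R K ⟨a, ha⟩ / algebraMap R K ⟨b, hb⟩) ^ m = algebraMap R K ⟨z ^ m, hz⟩ := by
    rw [div_pow, div_eq_iff (pow_ne_zero _ hbK), ← map_pow, ← map_pow, ← map_mul]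
    congr 1
    apply Subtype.ext
    show a ^ m = z ^ m * b ^ m
    rw [← hab, mul_pow]
  have hint : IsIntegral R (algebraMap R K ⟨a, ha⟩ / algebraMap R K ⟨b, hb⟩) := by
    refine IsIntegral.of_pow (Nat.pos_of_ne_zero hm) ?_
    rw [hξ]
    exact isIntegral_algebraMap
  obtain ⟨y, hy⟩ := IsIntegrallyClosed.isIntegral_iff.mp hint
  have h1 : y * ⟨b, hb⟩ = (⟨a, ha⟩ : R) := by
    apply IsFractionRing.injective R K
    rw [map_mul, hy, div_mul_cancel₀ _ hbK]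
  have h2 : (y : B) * b = z * b := by
    rw [hab]
    exact congrArg Subtype.val h1
  have h3 : z = y := (mul_right_cancel₀ hb0 h2).symm
  rw [h3]
  exact y.2

end IntClosed

/-! ### The ring `AA` and the divisorial modules -/

section Tor

variable {F B : Type*} [Field F] [Field B] {n r : ℕ} (T : TorCalc F B n r)

/-- the ring `AA`: the regular functions which are integral at the three valuations, with
reductions in `T.Bt` -/
def aaRing : Subring F where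
  carrier := {f | f ∈ T.Reg ∧ ∃ X, T.Rho f X ∧ ∀ c, X c ∈ T.Bt}
  mul_mem' := by
    rintro f g ⟨hf, X, ρf, hX⟩ ⟨hg, Y, ρg, hY⟩
    exact ⟨T.Reg.mul_mem hf hg, X * Y, T.rho_mul _ _ _ _ ρf ρg,
      fun c => T.Bt.mul_mem (hX c) (hY c)⟩
  one_mem' := ⟨T.Reg.one_mem, 1, T.rho_one, fun c => T.Bt.one_mem⟩
  add_mem' := by
    rintro f g ⟨hf, X, ρf, hX⟩ ⟨hg, Y, ρg, hY⟩
    exact ⟨T.Reg.add_mem hf hg, X + Y, T.rho_add _ _ _ _ ρf ρg,
      fun c => T.Bt.add_mem (hX c) (hY c)⟩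
  zero_mem' := ⟨T.Reg.zero_mem, 0, TorCalc.rho_zero, fun c => T.Bt.zero_mem⟩
  neg_mem' := by
    rintro f ⟨hf, X, ρf, hX⟩
    exact ⟨T.Reg.neg_mem hf, -X, T.rho_neg _ _ ρf, fun c => T.Bt.neg_mem (hX c)⟩

theorem mem_aaRing {f : F} :
    f ∈ aaRing T ↔ f ∈ T.Reg ∧ ∃ X, T.Rho f X ∧ ∀ c, X c ∈ T.Bt := Iff.rfl

/-- the divisorial module `𝔞_u`: the integral `g` with `g ^ n / u` regular -/
def idMod (hn : n ≠ 0) (u : F) : Submodule (aaRing T) F where
  carrier := {g | T.InId u g ∧ ∃ X, T.Rho g X}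
  zero_mem' := by
    refine ⟨?_, 0, TorCalc.rho_zero⟩
    unfold TorCalc.InId
    rw [zero_pow hn, zero_mul]
    exact T.Reg.zero_mem
  add_mem' := by
    rintro g g' ⟨h, X, ρ⟩ ⟨h', X', ρ'⟩
    exact ⟨h.add h' hn, X + X', T.rho_add _ _ _ _ ρ ρ'⟩
  smul_mem' := by
    rintro ⟨c, hc, Xc, ρc, -⟩ g ⟨h, X, ρ⟩
    refine ⟨?_, Xc * X, ?_⟩
    · rw [Subring.smul_def, smul_eq_mul, mul_comm]
      exact h.mul_reg hc
    · rw [Subring.smul_def, smul_eq_mul]
      exact T.rho_mul _ _ _ _ ρc ρ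

theorem mem_idMod {hn : n ≠ 0} {u g : F} :
    g ∈ idMod T hn u ↔ T.InId u g ∧ ∃ X, T.Rho g X := Iff.rfl

/-- the reduction triple of an integral function (`0` otherwise) -/
noncomputable def redX (f : F) : Fin 3 → B := by
  classical exact if h : ∃ X, T.Rho f X then h.choose else 0

theorem rho_redX {f : F} (h : ∃ X, T.Rho f X) : T.Rho f (redX T f) := by
  unfold redX
  rw [dif_pos h]
  exact h.choose_spec

/-- **the boxes of [IDEAL3]** -/
structure Ideal3Box : Prop where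
  /-- the reduction triple is unique (`Rho3.unique`) -/
  huniq : ∀ (f : F) (X Y : Fin 3 → B), T.Rho f X → T.Rho f Y → X = Y
  /-- units (`Rho3.inv`) -/
  hinv : ∀ (f : F) (X : Fin 3 → B), T.Rho f X → (∀ c, X c ≠ 0) → T.Rho f⁻¹ (fun c => (X c)⁻¹)
  /-- **[RES]** the reductions of a regular integral function are regular -/
  hres : ∀ (f : F) (X : Fin 3 → B), f ∈ T.Reg → T.Rho f X → ∀ c, X c ∈ T.Bt
  /-- **[FFB3]** the reductions lie in the fraction field of `Bt` -/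
  hfrac : ∀ (f : F) (X : Fin 3 → B), T.Rho f X →
    ∀ c, ∃ a ∈ T.Bt, ∃ b ∈ T.Bt, b ≠ 0 ∧ X c * b = a
  /-- `Bt` is a Dedekind domain -/
  hded : IsDedekindDomain T.Bt
  /-- **[SURJ3]** every element of `Bt` is the `c`-th reduction of a regular function -/
  hsurj : ∀ (c : Fin 3), ∀ z ∈ T.Bt, ∃ f ∈ T.Reg, ∃ X, T.Rho f X ∧ X c = z
  /-- **[FG]** `AA` is noetherian -/
  hnoeth : IsNoetherianRing (aaRing T)
  /-- **[QUOT]** a unit at the three valuations is a quotient of elements of `AA` -/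
  hquot : ∀ u : F, T.Rho u 1 →
    ∃ u₁ u₂ : F, u₁ ∈ aaRing T ∧ u₂ ∈ aaRing T ∧ u₂ ≠ 0 ∧ u * u₂ = u₁
  /-- **[KER]** at every point `𝔪` of the component `c` the vertical prime is generated by `b`,
  up to the multiplier `s`, a unit at `𝔪` -/
  hker : ∀ (c : Fin 3) (𝔪 : Ideal T.Bt), 𝔪.IsMaximal →
    ∃ (b s : F) (Xb Xs : Fin 3 → B), b ∈ T.Reg ∧ s ∈ T.Reg ∧ b ≠ 0 ∧ s * b⁻¹ ∈ T.Reg ∧
      T.Rho b Xb ∧ T.Rho s Xs ∧ Xb c = 0 ∧ (∃ z : T.Bt, (z : B) = Xs c ∧ z ∉ 𝔪) ∧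
      ∀ (g : F) (X : Fin 3 → B), T.Rho g X → X c = 0 → ∃ X', T.Rho (g * (s * b⁻¹)) X'
  /-- **[UNITW]** the valuation `c` is discrete on the integral functions: `m` is regular,
  integral at the other valuations and the inverse of a uniformiser at `c` -/
  hunitw : ∀ c : Fin 3, ∃ m ∈ T.Reg, ∀ (G : F) (X : Fin 3 → B), G ≠ 0 → T.Rho G X →
    ∃ (k : ℕ) (X' : Fin 3 → B), T.Rho (G * m ^ k) X' ∧ X' c ≠ 0
  /-- **[IDEM]** an integral function whose reduction is nonzero exactly at `c` -/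
  hidem : ∀ c : Fin 3, ∃ (e : F) (X : Fin 3 → B), T.Rho e X ∧ X c ≠ 0 ∧ ∀ c', c' ≠ c → X c' = 0
  /-- **[HOR]** the horizontal part: the products `G G'` (`G ∈ 𝔞_u`, `G' ∈ 𝔞_(1/u)`) have no
  common zero off the cusps -/
  hhor : ∀ u f : F, T.Rho u 1 → T.Dv u →
    (∀ G G' : F, T.InId u G → T.InId u⁻¹ G' → (∃ X, T.Rho G X) → (∃ X, T.Rho G' X) →
      f * (G * G') ∈ T.Reg) → f ∈ T.Reg

/-- **the gluing box** (for the semilocal generator) -/
structure Ideal3Glue : Prop where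
  /-- **[GLUE]** the three components meet at the supersingular points -/
  hglue : ∀ (f : F) (X : Fin 3 → B), f ∈ T.Reg → T.Rho f X → X 0 - 1 ∈ T.J →
    ∀ c, X c - 1 ∈ T.J
  /-- the supersingular ideal is not zero -/
  hJ : ∃ e ∈ T.J, e ≠ 0

variable {T}

namespace Ideal3Box

variable (D : Ideal3Box T)
include D

theorem redX_eq {f : F} {X : Fin 3 → B} (h : T.Rho f X) : redX T f = X :=
  D.huniq f _ _ (rho_redX T ⟨X, h⟩) h

/-- the reductions of the elements of `𝔞_u` lie in `Bt` -/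
theorem mem_Bt_of_inId (hn : n ≠ 0) {u g : F} {X : Fin 3 → B} (hu : T.Rho u 1)
    (h : T.InId u g) (ρ : T.Rho g X) (c : Fin 3) : X c ∈ T.Bt := by
  haveI := D.hded
  have ρ' : T.Rho (g ^ n * u⁻¹) (X ^ n * 1) :=
    T.rho_mul _ _ _ _ (TorCalc.rho_pow ρ n) (T.rho_inv_one _ hu)
  have h1 := D.hres _ _ h ρ' c
  rw [mul_one, Pi.pow_apply] at h1
  exact mem_of_pow_mem_of_frac T.Bt hn h1 (D.hfrac g X ρ c)

theorem mem_aaRing_of_reg {f : F} {X : Fin 3 → B} (hf : f ∈ T.Reg) (ρ : T.Rho f X) :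
    f ∈ aaRing T :=
  ⟨hf, X, ρ, D.hres f X hf ρ⟩

omit D in
theorem rho_aa (f : aaRing T) : T.Rho (f : F) (redX T f) := by
  obtain ⟨X, ρ, -⟩ := f.2.2
  exact rho_redX T ⟨X, ρ⟩

omit D in
theorem rho_id {hn : n ≠ 0} {u : F} (g : idMod T hn u) : T.Rho (g : F) (redX T g) :=
  rho_redX T g.2.2

theorem redX_mul {f g : F} (hf : ∃ X, T.Rho f X) (hg : ∃ X, T.Rho g X) :
    redX T (f * g) = redX T f * redX T g :=
  D.redX_eq (T.rho_mul _ _ _ _ (rho_redX T hf) (rho_redX T hg))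

theorem redX_add {f g : F} (hf : ∃ X, T.Rho f X) (hg : ∃ X, T.Rho g X) :
    redX T (f + g) = redX T f + redX T g :=
  D.redX_eq (T.rho_add _ _ _ _ (rho_redX T hf) (rho_redX T hg))

theorem redX_zero : redX T (0 : F) = 0 := D.redX_eq TorCalc.rho_zero

theorem redX_one : redX T (1 : F) = 1 := D.redX_eq T.rho_one

theorem redX_mem_Bt (f : aaRing T) (c : Fin 3) : redX T (f : F) c ∈ T.Bt := by
  obtain ⟨X, ρ, hX⟩ := f.2.2
  rw [D.redX_eq ρ]
  exact hX c

/-- the `c`-th reduction `AA → Bt` -/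
noncomputable def aaRed (c : Fin 3) : aaRing T →+* T.Bt where
  toFun f := ⟨redX T f c, D.redX_mem_Bt f c⟩
  map_one' := Subtype.ext (by
    show redX T (1 : F) c = 1
    rw [D.redX_one]; rfl)
  map_mul' f g := Subtype.ext (by
    show redX T ((f : F) * (g : F)) c = redX T f c * redX T g c
    rw [D.redX_mul ⟨_, rho_aa f⟩ ⟨_, rho_aa g⟩]; rfl)
  map_zero' := Subtype.ext (by
    show redX T (0 : F) c = 0
    rw [D.redX_zero]; rfl)
  map_add' f g := Subtype.ext (by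
    show redX T ((f : F) + (g : F)) c = redX T f c + redX T g c
    rw [D.redX_add ⟨_, rho_aa f⟩ ⟨_, rho_aa g⟩]; rfl)

theorem coe_aaRed (c : Fin 3) (f : aaRing T) : ((D.aaRed c f : T.Bt) : B) = redX T (f : F) c := rfl

theorem aaRed_surjective (c : Fin 3) : Function.Surjective (D.aaRed c) := by
  rintro ⟨z, hz⟩
  obtain ⟨f, hf, X, ρ, hX⟩ := D.hsurj c z hz
  refine ⟨⟨f, D.mem_aaRing_of_reg hf ρ⟩, Subtype.ext ?_⟩
  show redX T f c = z
  rw [D.redX_eq ρ, hX]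

/-- the `c`-th reduction of the elements of `𝔞_u` -/
noncomputable def idRed (hn : n ≠ 0) {u : F} (hu : T.Rho u 1) (c : Fin 3) :
    idMod T hn u →+ FractionRing T.Bt where
  toFun g := algebraMap T.Bt (FractionRing T.Bt)
    ⟨redX T g c, D.mem_Bt_of_inId hn hu g.2.1 (rho_id g) c⟩
  map_zero' := by
    rw [← map_zero (algebraMap T.Bt (FractionRing T.Bt))]
    congr 1
    apply Subtype.ext
    show redX T (0 : F) c = 0
    rw [D.redX_zero]; rfl
  map_add' g g' := by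
    rw [← map_add (algebraMap T.Bt (FractionRing T.Bt))]
    congr 1
    apply Subtype.ext
    show redX T ((g : F) + (g' : F)) c = redX T g c + redX T g' c
    rw [D.redX_add ⟨_, rho_id g⟩ ⟨_, rho_id g'⟩]; rfl

theorem idRed_smul (hn : n ≠ 0) {u : F} (hu : T.Rho u 1) (c : Fin 3) (x : aaRing T)
    (g : idMod T hn u) :
    D.idRed hn hu c (x • g) = algebraMap T.Bt (FractionRing T.Bt) (D.aaRed c x) *
      D.idRed hn hu c g := by
  show algebraMap T.Bt (FractionRing T.Bt) _ = _ * algebraMap T.Bt (FractionRing T.Bt) _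
  rw [← map_mul (algebraMap T.Bt (FractionRing T.Bt))]
  congr 1
  apply Subtype.ext
  show redX T ((x : F) * (g : F)) c = redX T x c * redX T g c
  rw [D.redX_mul ⟨_, rho_aa x⟩ ⟨_, rho_id g⟩]; rfl

theorem idRed_eq_zero_iff (hn : n ≠ 0) {u : F} (hu : T.Rho u 1) (c : Fin 3)
    (g : idMod T hn u) : D.idRed hn hu c g = 0 ↔ redX T (g : F) c = 0 := by
  haveI := D.hded
  show algebraMap T.Bt (FractionRing T.Bt) _ = 0 ↔ _
  rw [map_eq_zero_iff _ (IsFractionRing.injective T.Bt (FractionRing T.Bt))]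
  constructor
  · intro h
    exact congrArg Subtype.val h
  · intro h
    exact Subtype.ext h

/-- the product `𝔞_u × 𝔞_(1/u) → AA` -/
noncomputable def idPair (hn : n ≠ 0) {u : F} (hu : T.Rho u 1) :
    idMod T hn u →ₗ[aaRing T] idMod T hn u⁻¹ →ₗ[aaRing T] aaRing T :=
  LinearMap.mk₂ (aaRing T)
    (fun g b => ⟨(g : F) * (b : F),
      D.mem_aaRing_of_reg
        (TorCalc.InId.mul_inv_reg (T.ne_zero_of_rho_one _ hu) g.2.1 b.2.1)
        (T.rho_mul _ _ _ _ (rho_id g) (rho_id b))⟩)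
    (fun g g' b => Subtype.ext (by
      show ((g : F) + (g' : F)) * (b : F) = (g : F) * b + (g' : F) * b
      ring))
    (fun x g b => Subtype.ext (by
      show ((x : F) * (g : F)) * (b : F) = (x : F) * ((g : F) * b)
      ring))
    (fun g b b' => Subtype.ext (by
      show (g : F) * ((b : F) + (b' : F)) = (g : F) * b + (g : F) * b'
      ring))
    (fun x g b => Subtype.ext (by
      show (g : F) * ((x : F) * (b : F)) = (x : F) * ((g : F) * b)
      ring))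

theorem coe_idPair (hn : n ≠ 0) {u : F} (hu : T.Rho u 1) (g : idMod T hn u)
    (b : idMod T hn u⁻¹) : ((D.idPair hn hu g b : aaRing T) : F) = (g : F) * (b : F) := rfl

/-! ### Finiteness -/

/-- a common denominator of `𝔞_v` -/
theorem mul_mem_aaRing_of_quot (hn : n ≠ 0) {v v₁ v₂ G : F} (hv : v ≠ 0) (h₁ : v₁ ∈ aaRing T)
    (h₂ : v₂ ∈ aaRing T) (he : v * v₂ = v₁) (hG : G ∈ idMod T hn v) : v₂ * G ∈ aaRing T := by
  obtain ⟨hI, X, ρ⟩ := hG
  obtain ⟨h₂r, X₂, ρ₂, -⟩ := h₂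
  refine D.mem_aaRing_of_reg (T.reg_of_pow _ ?_) (T.rho_mul _ _ _ _ ρ₂ ρ)
  have e : (v₂ * G) ^ n = v₂ ^ (n - 1) * v₁ * (G ^ n * v⁻¹) := by
    rw [mul_pow, ← pow_sub_one_mul hn v₂, ← he]
    field_simp
  rw [e]
  exact T.Reg.mul_mem (T.Reg.mul_mem (T.Reg.pow_mem h₂r _) h₁.1) hI

theorem inId_of_quot (hn : n ≠ 0) {v v₁ v₂ : F} (hv : v ≠ 0) (h₁ : v₁ ∈ aaRing T)
    (h₂ : v₂ ∈ aaRing T) (h₂0 : v₂ ≠ 0) (he : v * v₂ = v₁) : v₁ ∈ idMod T hn v := by
  obtain ⟨h₁r, X₁, ρ₁, -⟩ := h₁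
  refine ⟨?_, X₁, ρ₁⟩
  unfold TorCalc.InId
  have e : v₁ ^ n * v⁻¹ = v₁ ^ (n - 1) * v₂ := by
    rw [← pow_sub_one_mul hn v₁]
    nth_rewrite 2 [← he]
    field_simp
  rw [e]
  exact T.Reg.mul_mem (T.Reg.pow_mem h₁r _) h₂.1

theorem finite_idMod (hn : n ≠ 0) {u : F} (hu : T.Rho u 1) :
    Module.Finite (aaRing T) (idMod T hn u) := by
  haveI := D.hnoeth
  obtain ⟨u₁, u₂, h₁, h₂, h₂0, he⟩ := D.hquot u hu
  exact finite_of_mul_mem (aaRing T) (idMod T hn u) h₂0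
    (fun G hG => D.mul_mem_aaRing_of_quot hn (T.ne_zero_of_rho_one _ hu) h₁ h₂ he hG)

theorem finite_idMod_inv (hn : n ≠ 0) {u : F} (hu : T.Rho u 1) :
    Module.Finite (aaRing T) (idMod T hn u⁻¹) := by
  haveI := D.hnoeth
  obtain ⟨u₁, u₂, h₁, h₂, h₂0, he⟩ := D.hquot u hu
  have hu0 := T.ne_zero_of_rho_one _ hu
  have h₁0 : u₁ ≠ 0 := by
    rw [← he]
    exact mul_ne_zero hu0 h₂0
  have he' : u⁻¹ * u₁ = u₂ := by
    rw [← he]
    field_simp
  exact finite_of_mul_mem (aaRing T) (idMod T hn u⁻¹) h₁0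
    (fun G hG => D.mul_mem_aaRing_of_quot hn (inv_ne_zero hu0) h₂ h₁ he' hG)

/-! ### Local principality at the points of the special fibre -/

/-- **local principality of `𝔞_u`** at the point `𝔪` of the component `c` -/
theorem exists_local_generator (hn : n ≠ 0) {u : F} (hu : T.Rho u 1) (c : Fin 3)
    (𝔪 : Ideal T.Bt) (h𝔪 : 𝔪.IsMaximal) :
    ∃ (g : idMod T hn u) (t : aaRing T), t ∉ 𝔪.comap (D.aaRed c) ∧
      ∀ f : idMod T hn u, ∃ r : aaRing T, t • f = r • g := by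
  haveI := D.hded
  haveI := D.finite_idMod hn hu
  haveI : (𝔪.comap (D.aaRed c)).IsPrime := Ideal.comap_isPrime (D.aaRed c) 𝔪
  obtain ⟨b, s, Xb, Xs, hb, hs, hb0, hsb, ρb, ρs, hXb, ⟨z, hz, hz𝔪⟩, hdiv⟩ := D.hker c 𝔪 h𝔪
  have hker : RingHom.ker (D.aaRed c) ≤ 𝔪.comap (D.aaRed c) := fun x hx => by
    rw [Ideal.mem_comap, RingHom.mem_ker.mp hx]
    exact 𝔪.zero_mem
  have hb' : D.aaRed c ⟨b, D.mem_aaRing_of_reg hb ρb⟩ = 0 := by
    apply Subtype.ext
    show redX T b c = 0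
    rw [D.redX_eq ρb, hXb]
  refine local_principal_of_local_ker (D.aaRed c) (D.aaRed_surjective c) (𝔪.comap (D.aaRed c))
    hker hb' (D.idRed hn hu c) (D.idRed_smul hn hu c) (fun g hg => ?_)
  rw [D.idRed_eq_zero_iff] at hg
  obtain ⟨X', ρ'⟩ := hdiv g _ (rho_id g) hg
  refine ⟨⟨s, D.mem_aaRing_of_reg hs ρs⟩, ?_, ⟨(g : F) * (s * b⁻¹), g.2.1.mul_reg hsb, X', ρ'⟩, ?_⟩
  · rw [Ideal.mem_comap]
    have e : D.aaRed c ⟨s, D.mem_aaRing_of_reg hs ρs⟩ = z := by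
      apply Subtype.ext
      show redX T s c = z
      rw [D.redX_eq ρs, hz]
    rw [e]
    exact hz𝔪
  · apply Subtype.ext
    show s * (g : F) = b * ((g : F) * (s * b⁻¹))
    field_simp

/-! ### Patching the three valuations -/

/-- **[PATCH]** a function which is integral at each of the three valuations is integral -/
theorem rho_of_local {f : F}
    (h : ∀ c : Fin 3, ∃ (num den : F) (Xn Xd : Fin 3 → B), T.Rho num Xn ∧ T.Rho den Xd ∧
      Xd c ≠ 0 ∧ f * den = num) : ∃ X, T.Rho f X := by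
  classical
  choose num den Xn Xd ρn ρd hd he using h
  choose e E ρe hEc hEo using D.hidem
  have ρD : T.Rho (∑ c, e c * den c) (∑ c, E c * Xd c) :=
    TorCalc.rho_sum _ _ _ fun c _ => T.rho_mul _ _ _ _ (ρe c) (ρd c)
  have ρN : T.Rho (∑ c, e c * num c) (∑ c, E c * Xn c) :=
    TorCalc.rho_sum _ _ _ fun c _ => T.rho_mul _ _ _ _ (ρe c) (ρn c)
  have hval : ∀ c, (∑ c', E c' * Xd c') c = E c c * Xd c c := by
    intro c
    rw [Finset.sum_apply, Finset.sum_eq_single c]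
    · rfl
    · intro c' _ hc'
      rw [Pi.mul_apply, hEo c' c (Ne.symm hc'), zero_mul]
    · intro hc
      exact absurd (Finset.mem_univ c) hc
  have hne : ∀ c, (∑ c', E c' * Xd c') c ≠ 0 := fun c => by
    rw [hval c]
    exact mul_ne_zero (hEc c) (hd c)
  have hD0 : (∑ c, e c * den c) ≠ 0 := by
    intro h0
    rw [h0] at ρD
    have := D.huniq _ _ _ ρD TorCalc.rho_zero
    exact hne 0 (by rw [this]; rfl)
  have hfD : f * (∑ c, e c * den c) = ∑ c, e c * num c := by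
    rw [Finset.mul_sum]
    refine Finset.sum_congr rfl fun c _ => ?_
    rw [← he c]
    ring
  have hf : f = (∑ c, e c * num c) * (∑ c, e c * den c)⁻¹ := by
    rw [← hfD, mul_assoc, mul_inv_cancel₀ hD0, mul_one]
  rw [hf]
  exact ⟨_, T.rho_mul _ _ _ _ ρN (D.hinv _ _ ρD hne)⟩

/-! ### The unit criterion -/

/-- an element of `𝔞_v` which is a unit at the valuation `c` -/
theorem exists_unit_at (hn : n ≠ 0) {v : F} (hv : T.Rho v 1) {G : F} (hG : G ∈ idMod T hn v)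
    (hG0 : G ≠ 0) (c : Fin 3) :
    ∃ (G' : F) (X : Fin 3 → B), G' ∈ idMod T hn v ∧ T.Rho G' X ∧ X c ≠ 0 := by
  obtain ⟨m, hm, hmk⟩ := D.hunitw c
  obtain ⟨hI, X, ρ⟩ := hG
  obtain ⟨k, X', ρ', hX'⟩ := hmk G X hG0 ρ
  exact ⟨G * m ^ k, X', ⟨hI.mul_reg (T.Reg.pow_mem hm k), X', ρ'⟩, ρ', hX'⟩

/-- **the hypothesis `hval`** of the unit criterion: `(AA : 𝔞 𝔟) = AA` -/
theorem hval (hn : n ≠ 0) {u : F} (hu : T.Rho u 1) (hdv : T.Dv u) (a s : aaRing T)
    (h : ∀ (G : idMod T hn u) (G' : idMod T hn u⁻¹), ∃ c, a * D.idPair hn hu G G' = s * c) :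
    ∃ c, a = s * c := by
  have hu0 := T.ne_zero_of_rho_one _ hu
  have hui : T.Rho u⁻¹ 1 := T.rho_inv_one _ hu
  obtain ⟨u₁, u₂, h₁, h₂, h₂0, he⟩ := D.hquot u hu
  have h₁0 : u₁ ≠ 0 := by
    rw [← he]
    exact mul_ne_zero hu0 h₂0
  have he' : u⁻¹ * u₁ = u₂ := by
    rw [← he]
    field_simp
  have m₁ : u₁ ∈ idMod T hn u := D.inId_of_quot hn hu0 h₁ h₂ h₂0 he
  have m₂ : u₂ ∈ idMod T hn u⁻¹ := D.inId_of_quot hn (inv_ne_zero hu0) h₂ h₁ h₁0 he'
  by_cases hs : s = 0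
  · obtain ⟨c, hc⟩ := h ⟨u₁, m₁⟩ ⟨u₂, m₂⟩
    rw [hs, zero_mul] at hc
    have hc' : (a : F) * (u₁ * u₂) = 0 := congrArg Subtype.val hc
    have ha : (a : F) = 0 := by
      rcases mul_eq_zero.mp hc' with h0 | h0
      · exact h0
      · exact absurd h0 (mul_ne_zero h₁0 h₂0)
    exact ⟨0, by rw [hs, zero_mul]; exact Subtype.ext ha⟩
  · have hs0 : (s : F) ≠ 0 := fun h0 => hs (Subtype.ext h0)
    -- the quotient
    have key : ∀ (G : idMod T hn u) (G' : idMod T hn u⁻¹), ∃ c : aaRing T,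
        (a : F) * (s : F)⁻¹ * ((G : F) * (G' : F)) = c := by
      intro G G'
      obtain ⟨c, hc⟩ := h G G'
      refine ⟨c, ?_⟩
      have hc' : (a : F) * ((G : F) * (G' : F)) = (s : F) * (c : F) := congrArg Subtype.val hc
      rw [mul_assoc, mul_comm (s : F)⁻¹, ← mul_assoc, hc', mul_comm (s : F), mul_assoc,
        mul_inv_cancel₀ hs0, mul_one]
    have hreg : (a : F) * (s : F)⁻¹ ∈ T.Reg := by
      refine D.hhor u _ hu hdv fun G G' hG hG' ρG ρG' => ?_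
      obtain ⟨c, hc⟩ := key ⟨G, hG, ρG⟩ ⟨G', hG', ρG'⟩
      rw [hc]
      exact c.2.1
    obtain ⟨X, ρ⟩ : ∃ X, T.Rho ((a : F) * (s : F)⁻¹) X := by
      refine D.rho_of_local fun c => ?_
      obtain ⟨G, XG, mG, ρG, hXG⟩ := D.exists_unit_at hn hu m₁ h₁0 c
      obtain ⟨G', XG', mG', ρG', hXG'⟩ := D.exists_unit_at hn hui m₂ h₂0 c
      obtain ⟨cc, hcc⟩ := key ⟨G, mG⟩ ⟨G', mG'⟩
      exact ⟨cc, G * G', redX T cc, XG * XG', rho_aa cc, T.rho_mul _ _ _ _ ρG ρG',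
        mul_ne_zero hXG hXG', hcc⟩
    refine ⟨⟨(a : F) * (s : F)⁻¹, D.mem_aaRing_of_reg hreg ρ⟩, Subtype.ext ?_⟩
    show (a : F) = (s : F) * ((a : F) * (s : F)⁻¹)
    field_simp

/-- the unit criterion at the point `𝔪` of the component `c` -/
theorem exists_pair_notMem (hn : n ≠ 0) {u : F} (hu : T.Rho u 1) (hdv : T.Dv u) (c : Fin 3)
    (𝔪 : Ideal T.Bt) (h𝔪 : 𝔪.IsMaximal) :
    ∃ (g : idMod T hn u) (g' : idMod T hn u⁻¹), D.aaRed c (D.idPair hn hu g g') ∉ 𝔪 := by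
  haveI : (𝔪.comap (D.aaRed c)).IsPrime := Ideal.comap_isPrime (D.aaRed c) 𝔪
  obtain ⟨g, t, ht, hg⟩ := D.exists_local_generator hn hu c 𝔪 h𝔪
  obtain ⟨g', t', ht', hg'⟩ := D.exists_local_generator hn (T.rho_inv_one _ hu) c 𝔪 h𝔪
  exact ⟨g, g', pairing_notMem_of_local_principal (D.idPair hn hu) (D.hval hn hu hdv)
    (𝔪.comap (D.aaRed c)) ht hg ht' hg'⟩

/-! ### The results -/

/-- **[IDEAL3], partition form**: the input `hpart` of `helper49.TorCalc.main`. -/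
theorem hasPartition (hn : n ≠ 0) {u : F} (hu : T.Rho u 1) (hdv : T.Dv u) :
    T.HasPartition u := by
  obtain ⟨m, g, g', hgg⟩ := exists_partition (fun c => D.aaRed c) (fun c => D.aaRed_surjective c)
    (D.idPair hn hu) (fun c 𝔪 h𝔪 => D.exists_pair_notMem hn hu hdv c 𝔪 h𝔪)
  refine ⟨m, fun i => (g i : F), fun i => (g' i : F), fun i => redX T (g i : F),
    fun i => redX T (g' i : F), fun i => (g i).2.1, fun i => (g' i).2.1, fun i => rho_id (g i),
    fun i => rho_id (g' i),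
    fun i c => D.mem_Bt_of_inId hn (T.rho_inv_one _ hu) (g' i).2.1 (rho_id (g' i)) c,
    fun c => ?_⟩
  have h1 := congrArg (fun z : T.Bt => (z : B)) (hgg c)
  simp only [map_sum, Subring.coe_one] at h1
  rw [← h1, AddSubmonoidClass.coe_finsetSum]
  refine Finset.sum_congr rfl fun i _ => ?_
  rw [coe_aaRed, coe_idPair, D.redX_mul ⟨_, rho_id (g i)⟩ ⟨_, rho_id (g' i)⟩]
  rfl

/-- the supersingular ideal as an ideal of `Bt` -/
def idealJ (T : TorCalc F B n r) : Ideal T.Bt where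
  carrier := {z | (z : B) ∈ T.J}
  add_mem' := fun {a b} ha hb => T.J.add_mem ha hb
  zero_mem' := T.J.zero_mem
  smul_mem' := fun c z hz => T.J_mul c c.2 z hz

omit D in
theorem mem_idealJ {z : T.Bt} : z ∈ idealJ T ↔ (z : B) ∈ T.J := Iff.rfl

/-- **[IDEAL3], generator form**: the input `hgen` of `helper49.TorCalc.main`. -/
theorem hasGenerator (G : Ideal3Glue T) (hn : n ≠ 0) {h : F} (hh : T.Rho h 1) (hdv : T.Dv h) :
    T.HasGenerator h := by
  haveI := D.hded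
  have hJ₀ : idealJ T ≠ ⊥ := by
    obtain ⟨e, he, he0⟩ := G.hJ
    intro h0
    have : (⟨e, T.J_le e he⟩ : T.Bt) ∈ idealJ T := he
    rw [h0, Ideal.mem_bot] at this
    exact he0 (congrArg Subtype.val this)
  obtain ⟨g, g', hgg⟩ := exists_semilocal_generator_of_loc (D.aaRed 0) (D.aaRed_surjective 0)
    (D.idPair hn hh) (D.hval hn hh hdv) (idealJ T) hJ₀
    (fun 𝔪 h𝔪 _ => D.exists_local_generator hn hh 0 𝔪 h𝔪)
    (fun 𝔪 h𝔪 _ => D.exists_local_generator hn (T.rho_inv_one _ hh) 0 𝔪 h𝔪)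
  have ρ := T.rho_mul _ _ _ _ (rho_id g) (rho_id g')
  have hreg : (g : F) * (g' : F) ∈ T.Reg :=
    TorCalc.InId.mul_inv_reg (T.ne_zero_of_rho_one _ hh) g.2.1 g'.2.1
  have h0 : (redX T (g : F) * redX T (g' : F)) 0 - 1 ∈ T.J := by
    have h1 : ((D.aaRed 0 (D.idPair hn hh g g') : T.Bt) : B) - 1 ∈ T.J := hgg
    rw [coe_aaRed, coe_idPair, D.redX_mul ⟨_, rho_id g⟩ ⟨_, rho_id g'⟩] at h1
    exact h1
  exact ⟨g, g', redX T (g : F), redX T (g' : F), g.2.1, g'.2.1, rho_id g, rho_id g',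
    fun c => D.mem_Bt_of_inId hn (T.rho_inv_one _ hh) g'.2.1 (rho_id g') c,
    fun c => G.hglue _ _ hreg ρ h0 c⟩

end Ideal3Box

end Tor

end Fermat.Agent.T3.helper22
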