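/-
TIER 3, [T3-TORIC] (helper49, task 924), part 6: the boxes of the instance for the ring
`Reg = regJRing (N q q)` (the functions regular off ALL cusps, architect decision #2517).

* `RedS.unique`, `Rho3.unique`, `calc_huniq`, `calc_hinv` : the fields `huniq`, `hinv` of
  `helper22.Ideal3Box (B.calc hA)` (for ANY base `B`);
* `isRegJ_galF`, `isFixI_galF` : the arithmetic Galois action preserves "regular where `j` is
  finite", and an element of the decomposition group preserves "fixed by the inertia group";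
* `isRegJ_dg0`, `isRegJ_dg1`, `isRegJ_dg2` : the three degeneracy maps preserve `IsRegJ`;
* `rho3_dg0`, `rho3_dg1`, `rho3_dg2` : the reduction triples of the degeneracy maps
  (`helper98.red3_dg*` in the `Rho3` vocabulary);
* `SurjAllStatement N A Bt` : **[SURJ-ALL]** every `z ∈ Bt` is the reduction of the expansion at
  `∞` of an inertia-fixed function of level `N`, regular where `j` is finite, with `A`-integral
  expansion;
* `pb_of_surjAll` : **[PB3-ALL]** = the field `pb` of `TorBase` (no Frobenius-stability of `Bt`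
  is needed: the lift is twisted by a Frobenius element of `Gal(ℚ̄/ℚ)`);
* `hsurj_of_surjAll` : **[SURJ3-ALL]** = the field `hsurj` of `helper22.Ideal3Box`;
* `torBaseJ` : the base with `Reg = regJRing (N q q)`, from [SURJ-ALL], [REAL3], [ROOT3].
-/
import Mathlib
import Fermat.Agent.T3.helper49_TorInst
import Fermat.Agent.T3.helper98_NormRegJ
import Fermat.Agent.T3.helper22_Ideal3Tor
import Fermat.Agent.T3.helper74_Sat3
import Fermat.Agent.T2.helper15_Cong
import Fermat.Agent.S54.helper91_Frobenius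

set_option autoImplicit false
set_option synthInstance.maxHeartbeats 400000
set_option linter.unusedSectionVars false
set_option linter.unusedVariables false
set_option linter.style.longLine false
set_option linter.style.haveILetI false
set_option linter.unusedSimpArgs false

noncomputable section

open HahnSeries IntermediateField AlgebraicCurve ModularCurve
open Fermat.Agent.S18.helper19 Fermat.Agent.P2.helper29 Fermat.Agent.T2.helper36

namespace Fermat.Agent.T3.helper49

open Fermat.Agent.P2.helper93 (actA coeffMap_subtype_actA coeffMap_residue_actA)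
open Fermat.Agent.T3.helper74 (ex3 IsFixI dg0 dg1 dg2)
open Fermat.Agent.T3.helper72 (Red3)
open Fermat.Agent.T3.helper98 (IsRegJ regJRing mem_regJRing isRegJ_iff_mem isRegJ_alpha
  isRegJ_beta isRegJ_atkinLehner)

/-! ### Uniqueness of the reduction -/

section Unique

variable {A : ValuationSubring Kb}

theorem RedS.unique {X : LaurentSeries Kb} {x x' : LaurentSeries (kA A)} (h : RedS A X x)
    (h' : RedS A X x') : x = x' := by
  obtain ⟨Y₁, Y₂, h0, h1, h2⟩ := h
  obtain ⟨Z₁, Z₂, k0, k1, k2⟩ := h'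
  have e : Y₁ * Z₂ = Z₁ * Y₂ := by
    apply incl_injective (A := A)
    rw [map_mul, map_mul, h1, k1]
    ring
  have e' := congrArg (red A) e
  rw [map_mul, map_mul, h2, k2] at e'
  have e'' : x * (red A Y₂ * red A Z₂) = x' * (red A Y₂ * red A Z₂) := by
    linear_combination e'
  exact mul_right_cancel₀ (mul_ne_zero h0 k0) e''

end Unique

section Inst

variable {N q : ℕ} [NeZero N] [NeZero q] {hq : q.Prime} {hqN : ¬ q ∣ N}
  {A : ValuationSubring Kb} {ζ : Kb} {hζ : IsPrimitiveRoot ζ q}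

theorem Rho3.unique {f : FF (N * q * q)} {X Y : Fin 3 → LaurentSeries (kA A)}
    (h : Rho3 N q hq hqN A hζ f X) (h' : Rho3 N q hq hqN A hζ f Y) : X = Y := by
  funext i
  exact ((red3_iff A hζ i f (X i)).mp (h.2 i)).unique ((red3_iff A hζ i f (Y i)).mp (h'.2 i))

/-- the field `huniq` of `helper22.Ideal3Box (B.calc hA)` -/
theorem calc_huniq {n : ℕ} (B : TorBase N q hq hqN A hζ n) (hA : A.LiesOverPrime q) :
    ∀ (f : FF (N * q * q)) (X Y : Fin 3 → LaurentSeries (kA A)),
      (B.calc hA).Rho f X → (B.calc hA).Rho f Y → X = Y :=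
  fun _ _ _ h h' => Rho3.unique h h'

/-- the field `hinv` of `helper22.Ideal3Box (B.calc hA)` -/
theorem calc_hinv {n : ℕ} (B : TorBase N q hq hqN A hζ n) (hA : A.LiesOverPrime q) :
    ∀ (f : FF (N * q * q)) (X : Fin 3 → LaurentSeries (kA A)),
      (B.calc hA).Rho f X → (∀ c, X c ≠ 0) → (B.calc hA).Rho f⁻¹ (fun c => (X c)⁻¹) :=
  fun _ _ h hX => Rho3.inv h hX

end Inst

/-! ### The arithmetic Galois action -/

section Gal

variable {M : ℕ} [NeZero M]

/-- the preimage of a place under the (semilinear) arithmetic Galois action -/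
def placeGal (σ : Kb ≃ₐ[ℚ] Kb) (P : Place Kb (FF M)) : Place Kb (FF M) where
  toValuationSubring := P.toValuationSubring.comap
    ((arithmeticRingAut (modularFunctionFieldFull M) σ : FF M ≃+* FF M) : FF M →+* FF M)
  algebraMap_mem' a := by
    rw [ValuationSubring.mem_comap]
    have h : ((arithmeticRingAut (modularFunctionFieldFull M) σ : FF M ≃+* FF M) : FF M →+* FF M)
        (algebraMap Kb (FF M) a) = algebraMap Kb (FF M) (σ a) :=
      arithmeticRingAut_algebraMap (modularFunctionFieldFull M) σ a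
    rw [h]
    exact P.algebraMap_mem' _
  ne_top' := by
    intro h
    apply P.ne_top'
    refine SetLike.ext fun y => ⟨fun _ => ValuationSubring.mem_top y, fun _ => ?_⟩
    have h1 : (arithmeticRingAut (modularFunctionFieldFull M) σ).symm y ∈
        P.toValuationSubring.comap
          ((arithmeticRingAut (modularFunctionFieldFull M) σ : FF M ≃+* FF M) : FF M →+* FF M) := by
      rw [h]
      exact ValuationSubring.mem_top _
    rw [ValuationSubring.mem_comap] at h1
    have h2 : ((arithmeticRingAut (modularFunctionFieldFull M) σ : FF M ≃+* FF M) : FF M →+* FF M)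
        ((arithmeticRingAut (modularFunctionFieldFull M) σ).symm y) = y :=
      (arithmeticRingAut (modularFunctionFieldFull M) σ).apply_symm_apply y
    rwa [h2] at h1
  isPrincipalIdealRing' := by
    set e := arithmeticRingAut (modularFunctionFieldFull M) σ with he
    let φ : P.toValuationSubring →+* (P.toValuationSubring.comap (e : FF M →+* FF M)) :=
      { toFun := fun y => ⟨e.symm y, by
          rw [ValuationSubring.mem_comap]
          have h2 : (e : FF M →+* FF M) (e.symm y) = y := e.apply_symm_apply y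
          rw [h2]
          exact y.2⟩
        map_one' := Subtype.ext (map_one e.symm)
        map_mul' := fun x y => Subtype.ext (map_mul e.symm _ _)
        map_zero' := Subtype.ext (map_zero e.symm)
        map_add' := fun x y => Subtype.ext (map_add e.symm _ _) }
    have hφ : Function.Surjective φ := by
      intro x
      refine ⟨⟨e x, x.2⟩, ?_⟩
      apply Subtype.ext
      show e.symm (e (x : FF M)) = x
      exact e.symm_apply_apply _
    haveI := P.isPrincipalIdealRing'
    exact IsPrincipalIdealRing.of_surjective φ hφ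

theorem mem_placeGal (σ : Kb ≃ₐ[ℚ] Kb) (P : Place Kb (FF M)) (f : FF M) :
    f ∈ (placeGal σ P).toValuationSubring ↔
      arithmeticRingAut (modularFunctionFieldFull M) σ f ∈ P.toValuationSubring := Iff.rfl

theorem galF_jElt (σ : Kb ≃ₐ[ℚ] Kb) :
    arithmeticRingAut (modularFunctionFieldFull M) σ (jElt M) = jElt M := by
  rw [Fermat.Agent.T3.helper23.jElt_eq_genBar, arithmeticRingAut_genBar]

/-- the arithmetic Galois action preserves "regular where `j` is finite" -/
theorem isRegJ_galF (σ : Kb ≃ₐ[ℚ] Kb) {f : FF M} (hf : IsRegJ M f) :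
    IsRegJ M (arithmeticRingAut (modularFunctionFieldFull M) σ f) := by
  rw [isRegJ_iff_mem] at hf ⊢
  intro P hP
  rw [← mem_placeGal]
  apply hf
  rw [mem_placeGal, galF_jElt]
  exact hP

variable (A : ValuationSubring Kb)

theorem conj_mem_inertiaIn' {σ t : Kb ≃ₐ[ℚ] Kb} (hσ : σ ∈ A.decompositionSubgroup ℚ)
    (ht : t ∈ A.inertiaSubgroupIn ℚ) : σ * t * σ⁻¹ ∈ A.inertiaSubgroupIn ℚ := by
  obtain ⟨τ, hτ, rfl⟩ := Subgroup.mem_map.mp ht
  refine Subgroup.mem_map.mpr ⟨⟨σ, hσ⟩ * τ * ⟨σ, hσ⟩⁻¹, ?_, rfl⟩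
  have hn : (A.inertiaSubgroup ℚ).Normal := by
    unfold ValuationSubring.inertiaSubgroup
    infer_instance
  exact hn.conj_mem τ hτ ⟨σ, hσ⟩

theorem conj_mem_inertiaIn {φ t : Kb ≃ₐ[ℚ] Kb} (hφ : φ ∈ A.decompositionSubgroup ℚ)
    (ht : t ∈ A.inertiaSubgroupIn ℚ) : φ⁻¹ * t * φ ∈ A.inertiaSubgroupIn ℚ := by
  have := conj_mem_inertiaIn' A ((A.decompositionSubgroup ℚ).inv_mem hφ) ht
  rwa [inv_inv] at this

/-- an element of the decomposition group preserves "fixed by the inertia group" -/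
theorem isFixI_galF {φ : Kb ≃ₐ[ℚ] Kb} (hφ : φ ∈ A.decompositionSubgroup ℚ) {f : FF M}
    (hf : IsFixI A M f) : IsFixI A M (arithmeticRingAut (modularFunctionFieldFull M) φ f) := by
  intro σ hσ
  have h1 := hf _ (conj_mem_inertiaIn A hφ hσ)
  have h2 := congrArg (fun g : FF M => ((g : FF M) : LaurentSeries Kb)) h1
  apply Subtype.ext
  show coeffMap (σ : Kb →+* Kb) (coeffMap (φ : Kb →+* Kb) (f : LaurentSeries Kb))
    = coeffMap (φ : Kb →+* Kb) (f : LaurentSeries Kb)
  have h3 : coeffMap ((φ⁻¹ * σ * φ : Kb ≃ₐ[ℚ] Kb) : Kb →+* Kb) (f : LaurentSeries Kb)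
      = (f : LaurentSeries Kb) := h2
  ext k
  rw [coeffMap_coeff, coeffMap_coeff]
  have h4 := congrArg (fun W : LaurentSeries Kb => W.coeff k) h3
  simp only [coeffMap_coeff] at h4
  have h5 : (φ⁻¹ * σ * φ) ((f : LaurentSeries Kb).coeff k) = (f : LaurentSeries Kb).coeff k := h4
  have h6 : φ ((φ⁻¹ * σ * φ) ((f : LaurentSeries Kb).coeff k))
      = σ (φ ((f : LaurentSeries Kb).coeff k)) := by
    simp [AlgEquiv.mul_apply]
  show σ (φ ((f : LaurentSeries Kb).coeff k)) = φ ((f : LaurentSeries Kb).coeff k)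
  rw [← h6, h5]

end Gal

/-! ### The degeneracy maps and `IsRegJ` -/

section Dg

variable {N q : ℕ} [NeZero N] [NeZero q]

/-- `β : F_N → F_{Nq}` preserves "regular where `j` is finite" -/
theorem isRegJ_beta1 (hq : q.Prime) (hqN : ¬ q ∣ N) {x : FF N} (hx : IsRegJ N x) :
    IsRegJ (N * q) (heckeBetaBar Kb N q x) := by
  rw [← atkinLehner_heckeAlphaBar N q hq hqN x]
  exact isRegJ_atkinLehner (isRegJ_alpha hx)

theorem isRegJ_dg0 {x : FF N} (hx : IsRegJ N x) : IsRegJ (N * q * q) (dg0 N q x) :=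
  isRegJ_alpha (isRegJ_alpha hx)

theorem isRegJ_dg1 (hq : q.Prime) (hqN : ¬ q ∣ N) {x : FF N} (hx : IsRegJ N x) :
    IsRegJ (N * q * q) (dg1 N q x) :=
  isRegJ_alpha (isRegJ_beta1 hq hqN hx)

theorem isRegJ_dg2 (hq : q.Prime) (hqN : ¬ q ∣ N) {x : FF N} (hx : IsRegJ N x) :
    IsRegJ (N * q * q) (dg2 N q x) :=
  isRegJ_beta hq hqN (isRegJ_beta1 hq hqN hx)

variable {hq : q.Prime} {hqN : ¬ q ∣ N} {A : ValuationSubring Kb} {ζ : Kb}
  {hζ : IsPrimitiveRoot ζ q}

/-- an integral model gives the reduction in quotient form -/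
theorem red3_of_model {i : Fin 3} {F : FF (N * q * q)} {Y : LaurentSeries A}
    (hY : incl A Y = ex3 N q hq hqN hζ i F) {x : LaurentSeries (kA A)} (hx : red A Y = x) :
    Red3 N q hq hqN A hζ i F x := by
  rw [red3_iff]
  exact ⟨Y, 1, by rw [map_one]; exact one_ne_zero, by rw [map_one, mul_one, hY],
    by rw [map_one, mul_one, hx]⟩

/-- **reductions of `dg0 f = f(τ)`** : `(x, Fr² x, x)` -/
theorem rho3_dg0 {f : FF N} (hf : IsFixI A N f) (Y : LaurentSeries A)
    (hY : incl A Y = (f : LaurentSeries Kb)) :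
    Rho3 N q hq hqN A hζ (dg0 N q f)
      ![red A Y, qExpand (kA A) q (qExpand (kA A) q (red A Y)), red A Y] := by
  obtain ⟨Y', hY', h0, h1, h2⟩ :=
    Fermat.Agent.T3.helper98.red3_dg0 (hq := hq) (hqN := hqN) A hζ f Y hY
  refine ⟨Fermat.Agent.T3.helper98.isFixI_dg0 A hf, fun i => ?_⟩
  fin_cases i
  · exact red3_of_model (hY' 0) h0
  · exact red3_of_model (hY' 1) h1
  · exact red3_of_model (hY' 2) h2

/-- **reductions of `dg1 f = f(q τ)`** : `(Fr x, Fr x, Fr x)` -/
theorem rho3_dg1 {f : FF N} (hf : IsFixI A N f) (Y : LaurentSeries A)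
    (hY : incl A Y = (f : LaurentSeries Kb)) :
    Rho3 N q hq hqN A hζ (dg1 N q f) (fun _ => qExpand (kA A) q (red A Y)) := by
  obtain ⟨Y', hY', h⟩ :=
    Fermat.Agent.T3.helper98.red3_dg1 (hq := hq) (hqN := hqN) A hζ f Y hY
  exact ⟨Fermat.Agent.T3.helper98.isFixI_dg1 A hf, fun i => red3_of_model (hY' i) (h i)⟩

/-- **reductions of `dg2 f = f(q² τ)`** : `(Fr² x, x, x)` -/
theorem rho3_dg2 (hA : A.LiesOverPrime q) {f : FF N} (hf : IsFixI A N f) (Y : LaurentSeries A)
    (hY : incl A Y = (f : LaurentSeries Kb)) :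
    Rho3 N q hq hqN A hζ (dg2 N q f)
      ![qExpand (kA A) q (qExpand (kA A) q (red A Y)), red A Y, red A Y] := by
  obtain ⟨Y', hY', h0, h1, h2⟩ :=
    Fermat.Agent.T3.helper98.red3_dg2 (hq := hq) (hqN := hqN) A hA hζ f Y hY
  refine ⟨Fermat.Agent.T3.helper98.isFixI_dg2 A hf, fun i => ?_⟩
  fin_cases i
  · exact red3_of_model (hY' 0) h0
  · exact red3_of_model (hY' 1) h1
  · exact red3_of_model (hY' 2) h2

end Dg

/-! ### [SURJ-ALL] ⟹ [PB3-ALL], [SURJ3-ALL] -/

section Surj

variable (N : ℕ) [NeZero N] (A : ValuationSubring Kb)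

/-- **[SURJ-ALL]** every `z ∈ Bt` is the reduction of the expansion at `∞` of an inertia-fixed
function of level `N`, regular where `j` is finite, whose expansion at `∞` is `A`-integral. -/
def SurjAllStatement (Bt : Subring (LaurentSeries (kA A))) : Prop :=
  ∀ z ∈ Bt, ∃ (f : FF N) (Y : LaurentSeries A), IsRegJ N f ∧ IsFixI A N f ∧
    incl A Y = (f : LaurentSeries Kb) ∧ red A Y = z

variable {N A} {q : ℕ} [NeZero q] {hq : q.Prime} {hqN : ¬ q ∣ N} {ζ : Kb}
  {hζ : IsPrimitiveRoot ζ q}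

/-- the twist of a lift by a Frobenius element: a lift of the coefficientwise Frobenius, in the
form `(red Y') (t ^ q) = (red Y) ^ q` -/
theorem exists_frob_lift (hq : q.Prime) (hA : A.LiesOverPrime q) {f : FF N}
    {Y : LaurentSeries A} (hreg : IsRegJ N f) (hfix : IsFixI A N f)
    (hY : incl A Y = (f : LaurentSeries Kb)) :
    ∃ (f' : FF N) (Y' : LaurentSeries A), IsRegJ N f' ∧ IsFixI A N f' ∧
      incl A Y' = (f' : LaurentSeries Kb) ∧
      qExpand (kA A) q (red A Y') = red A Y ^ q := by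
  haveI : Fact q.Prime := ⟨hq⟩
  haveI hchar : CharP (kA A) q := Fermat.Agent.P2.helper93.charP_residueField hq hA
  obtain ⟨φ, hφ⟩ := Fermat.Agent.S54.helper91.exists_isFrobeniusAt_of_liesOver A hq hA
  have hφ' : φ ∈ A.decompositionSubgroup ℚ := hφ.mem_decompositionSubgroup
  refine ⟨arithmeticRingAut (modularFunctionFieldFull N) φ f, actA φ hφ' Y,
    isRegJ_galF φ hreg, isFixI_galF A hφ' hfix, ?_, ?_⟩
  · show coeffMap A.subtype (actA φ hφ' Y) = coeffMap (φ : Kb →+* Kb) (f : LaurentSeries Kb)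
    rw [coeffMap_subtype_actA]
    exact congrArg _ hY
  · rw [Fermat.Agent.T2.helper15.red_actA_of_isFrobeniusAt hφ hφ' Y]
    exact (Fermat.Agent.P2.helper94.laurent_pow_char q (red A Y)).symm

/-- **[PB3-ALL]** the field `pb` of `TorBase` for `Reg = regJRing (N q q)`, from [SURJ-ALL]. -/
theorem pb_of_surjAll (hq : q.Prime) (hqN : ¬ q ∣ N) (hA : A.LiesOverPrime q)
    {Bt : Subring (LaurentSeries (kA A))} (hS : SurjAllStatement N A Bt) :
    ∀ z ∈ Bt, ∃ R ∈ regJRing (N * q * q), Rho3 N q hq hqN A hζ R (fun _ => z ^ q) := by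
  intro z hz
  obtain ⟨f, Y, hreg, hfix, hY, hr⟩ := hS z hz
  obtain ⟨f', Y', hreg', hfix', hY', hr'⟩ := exists_frob_lift hq hA hreg hfix hY
  refine ⟨dg1 N q f', mem_regJRing.mpr (isRegJ_dg1 hq hqN hreg'), ?_⟩
  have h := rho3_dg1 (hq := hq) (hqN := hqN) (hζ := hζ) hfix' Y' hY'
  rw [hr', hr] at h
  exact h

/-- **[SURJ3-ALL]** the field `hsurj` of `helper22.Ideal3Box` for `Reg = regJRing (N q q)`,
from [SURJ-ALL]. -/
theorem hsurj_of_surjAll (hq : q.Prime) (hqN : ¬ q ∣ N) (hA : A.LiesOverPrime q)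
    {Bt : Subring (LaurentSeries (kA A))} (hS : SurjAllStatement N A Bt) :
    ∀ (c : Fin 3), ∀ z ∈ Bt, ∃ F ∈ regJRing (N * q * q), ∃ X : Fin 3 → LaurentSeries (kA A),
      Rho3 N q hq hqN A hζ F X ∧ X c = z := by
  intro c z hz
  obtain ⟨f, Y, hreg, hfix, hY, hr⟩ := hS z hz
  by_cases hc : c = 1
  · subst hc
    refine ⟨dg2 N q f, mem_regJRing.mpr (isRegJ_dg2 hq hqN hreg), _,
      rho3_dg2 (hq := hq) (hqN := hqN) (hζ := hζ) hA hfix Y hY, ?_⟩
    simpa using hr
  · refine ⟨dg0 N q f, mem_regJRing.mpr (isRegJ_dg0 hreg), _,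
      rho3_dg0 (hq := hq) (hqN := hqN) (hζ := hζ) hfix Y hY, ?_⟩
    fin_cases c
    · simpa using hr
    · exact absurd rfl hc
    · simpa using hr

end Surj

/-! ### The base with `Reg = regJRing (N q q)` -/

section Base

variable {N q : ℕ} [NeZero N] [NeZero q] {hq : q.Prime} {hqN : ¬ q ∣ N}
  {A : ValuationSubring Kb} {ζ : Kb} {hζ : IsPrimitiveRoot ζ q}

/-- **the base for the ring of the functions regular off all cusps** -/
def torBaseJ {n : ℕ} (hn : n ≠ 0) (hA : A.LiesOverPrime q)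
    (Bt : Subring (LaurentSeries (kA A))) (J : AddSubgroup (LaurentSeries (kA A)))
    (J_le : ∀ e ∈ J, e ∈ Bt) (J_mul : ∀ z ∈ Bt, ∀ e ∈ J, z * e ∈ J)
    (hS : SurjAllStatement N A Bt)
    (real : ∀ e z : Fin 3 → LaurentSeries (kA A), (∀ c, e c ∈ J) → (∀ c, z c ∈ Bt) →
      ∃ R ∈ regJRing (N * q * q), Rho3 N q hq hqN A hζ R (fun c => e c ^ q * z c))
    (root : ∀ H : FF (N * q * q), H ∈ regJRing (N * q * q) → Rho3 N q hq hqN A hζ H 1 →
      Dv3 N q n H → ∃ (c : Kb) (v : FF (N * q * q)),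
        H = algebraMap Kb (FF (N * q * q)) c * v ^ n) :
    TorBase N q hq hqN A hζ n where
  Reg := regJRing (N * q * q)
  reg_of_pow := fun f hf => Fermat.Agent.T3.helper98.regJRing_of_pow hn f hf
  normA_mem := Fermat.Agent.T3.helper98.normA_mem_regJRing
  normB_mem := Fermat.Agent.T3.helper98.normB_mem_regJRing hq hqN
  Bt := Bt
  J := J
  J_le := J_le
  J_mul := J_mul
  pb := pb_of_surjAll hq hqN hA hS
  real := real
  root := root

end Base

end Fermat.Agent.T3.helper49
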