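import Mathlib
import Fermat.Agent.T3.helper87_EmbAll
import Fermat.Agent.T3.helper74_Sat3Defs
import Fermat.Agent.P2.helper93_CoreWire

/-!
# T3 / [G3-B] (helper58), part 2: the power basis of `F_{Nqq}` over `α F_{Nq}`

`π = j(q² τ) - j(τ) ∈ F_{Nqq}`.  Its expansions at `∞` and at the middle cusps are
`j(t^(q²)) - j(t)` and `j(ζ^k t) - j(t)`; they are pairwise distinct, so `1, π, …, π^(q-1)` is a
basis of `F_{Nqq}` over `α F_{Nq}`, and the coordinates of a function fixed by a group of Galois
automorphisms are fixed by that group.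

* `piE`, `coe_piE`, `embMid_piE`, `galF_piE`;
* `piE_indep` : linear independence of the powers of `π`;
* `exists_repr_piE` : every `f` is `∑_{i < q} α(a_i) π^i`;
* `exists_repr_piE_fixed` : for `f` fixed by a set `S` of Galois automorphisms, the `a_i` are
  fixed by `S`.
-/

set_option autoImplicit false
set_option linter.unusedSectionVars false
set_option linter.unusedVariables false
set_option linter.style.haveILetI false
set_option synthInstance.maxHeartbeats 400000

noncomputable section

open HahnSeries IntermediateField AlgebraicCurve ModularCurve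
open Fermat.Agent.S18.helper19 Fermat.Agent.P2.helper29 Fermat.Agent.T2.helper36
open Fermat.Agent.P2.helper93 (twistL twistL_coeff galF coe_galF)
open Fermat.Agent.T2.helper87 (coeHom coeHom_apply jN embW embW_none embW_some coeff_embW_none
  coeff_embW_some)
open Fermat.Agent.T3.helper87
open Fermat.Agent.T3.helper74 (dg0 dg2)

namespace Fermat.Agent.T3.helper58

section Pi

variable (N q : ℕ) [NeZero N] [NeZero q]

/-- `π = j(q² τ) - j(τ)`, a primitive element of `F_{Nqq}` over `α F_{Nq}` -/
def piE : FF (N * q * q) :=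
  heckeBetaBar Kb (N * q) q (heckeBetaBar Kb N q (jN N))
    - heckeAlphaBar Kb (N * q) q (heckeAlphaBar Kb N q (jN N))

theorem piE_eq_dg : piE N q = dg2 N q (jN N) - dg0 N q (jN N) := rfl

theorem coe_piE : ((piE N q : FF (N * q * q)) : LaurentSeries Kb)
    = qExpand Kb q (qExpand Kb q (jqModC Kb)) - jqModC Kb := by
  unfold piE
  rw [AddSubgroupClass.coe_sub, coe_heckeBetaBar, coe_heckeBetaBar, coe_heckeAlphaBar,
    coe_heckeAlphaBar]
  rfl

variable {N q}
variable {hq : q.Prime} {hqN : ¬ q ∣ N}

theorem embMid_piE {ζ : Kb} (hζ : IsPrimitiveRoot ζ q) (k : Fin q) (hk : (k : ℕ) ≠ 0) :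
    embMid N q hq hqN hζ k hk (piE N q) = twistL (ζ ^ (k : ℕ)) (jqModC Kb) - jqModC Kb := by
  unfold piE
  rw [map_sub, embMid_beta, embMid_alpha, atkinLehner_heckeBetaBar, coe_heckeAlphaBar]
  rfl

theorem embAll_piE {ζ : Kb} (hζ : IsPrimitiveRoot ζ q) (i : Option (MidIdx q)) :
    embAll N q hq hqN hζ i (piE N q)
      = embW N q hq hqN ζ (hζ.ne_zero hq.ne_zero) (i.map fun k => k.1)
          (heckeBetaBar Kb N q (jN N)) - jqModC Kb := by
  unfold piE
  rw [map_sub, embAll_beta, embAll_alpha, coe_heckeAlphaBar]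
  rfl

/-- the values of `π` under the `q` embeddings are pairwise distinct -/
theorem embAll_piE_injective {ζ : Kb} (hζ : IsPrimitiveRoot ζ q) :
    Function.Injective fun i : Option (MidIdx q) => embAll N q hq hqN hζ i (piE N q) := by
  intro a b hab
  have hζ0 : ζ ≠ 0 := hζ.ne_zero hq.ne_zero
  beta_reduce at hab
  rw [embAll_piE, embAll_piE] at hab
  have hab1 := sub_left_injective hab
  have hab' := congrArg (fun x : LaurentSeries Kb => x.coeff (-1)) hab1
  beta_reduce at hab'
  cases a with
  | none =>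
    cases b with
    | none => rfl
    | some k =>
      rw [Option.map_none, Option.map_some, coeff_embW_none, coeff_embW_some] at hab'
      exact absurd hab'.symm (inv_ne_zero (pow_ne_zero _ hζ0))
  | some k =>
    cases b with
    | none =>
      rw [Option.map_none, Option.map_some, coeff_embW_none, coeff_embW_some] at hab'
      exact absurd hab' (inv_ne_zero (pow_ne_zero _ hζ0))
    | some k' =>
      rw [Option.map_some, Option.map_some, coeff_embW_some, coeff_embW_some] at hab'
      have h1 : ζ ^ ((k : Fin q) : ℕ) = ζ ^ ((k' : Fin q) : ℕ) := inv_injective hab'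
      have h2 : ((k : Fin q) : ℕ) = ((k' : Fin q) : ℕ) := hζ.pow_inj k.1.2 k'.1.2 h1
      exact congrArg some (Subtype.ext (Fin.ext h2))

theorem galF_piE (σ : Kb ≃ₐ[ℚ] Kb) : galF (N * q * q) σ (piE N q) = piE N q := by
  apply Subtype.ext
  rw [coe_galF, coe_piE, map_sub, Fermat.Agent.P2.helper94.coeffMap_qExpand,
    Fermat.Agent.P2.helper94.coeffMap_qExpand, coeffMap_jqModC]

end Pi

section Basis

variable {N q : ℕ} [NeZero N] [NeZero q] (hq : q.Prime) (hqN : ¬ q ∣ N)

include hq hqN in
/-- **linear independence** of `1, π, …, π^(q-1)` over `α F_{Nq}` -/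
theorem piE_indep (a : Fin q → FF (N * q))
    (h : ∑ i, heckeAlphaBar Kb (N * q) q (a i) * piE N q ^ (i : ℕ) = 0) : ∀ i, a i = 0 := by
  classical
  obtain ⟨ζ, hζ⟩ := HasEnoughRootsOfUnity.exists_primitiveRoot Kb q
  set P : Polynomial (LaurentSeries Kb) :=
    ∑ i : Fin q, Polynomial.C ((a i : FF (N * q)) : LaurentSeries Kb) * Polynomial.X ^ (i : ℕ)
    with hP
  have heval : ∀ e : Option (MidIdx q),
      P.eval (embAll N q hq hqN hζ e (piE N q)) = 0 := by
    intro e
    have h1 := congrArg (embAll N q hq hqN hζ e) h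
    rw [map_sum, map_zero] at h1
    rw [hP, Polynomial.eval_finsetSum, ← h1]
    refine Finset.sum_congr rfl fun i _ => ?_
    rw [Polynomial.eval_mul, Polynomial.eval_C, Polynomial.eval_pow, Polynomial.eval_X, map_mul,
      map_pow, embAll_alpha]
  have hdeg : P.natDegree < Fintype.card (Option (MidIdx q)) := by
    rw [card_midIdx q hq]
    have hle : P.natDegree ≤ q - 1 := by
      rw [hP]
      refine Polynomial.natDegree_sum_le_of_forall_le _ _ fun i _ => ?_
      refine (Polynomial.natDegree_C_mul_X_pow_le _ _).trans ?_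
      have := i.2
      omega
    have := hq.pos
    omega
  have hP0 : P = 0 :=
    Polynomial.eq_zero_of_natDegree_lt_card_of_eval_eq_zero P
      (embAll_piE_injective (hq := hq) (hqN := hqN) hζ) heval hdeg
  intro i
  have hc : P.coeff (i : ℕ) = ((a i : FF (N * q)) : LaurentSeries Kb) := by
    rw [hP, Polynomial.finsetSum_coeff]
    rw [Finset.sum_eq_single i]
    · rw [Polynomial.coeff_C_mul, Polynomial.coeff_X_pow, if_pos rfl, mul_one]
    · intro j _ hji
      rw [Polynomial.coeff_C_mul, Polynomial.coeff_X_pow, if_neg, mul_zero]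
      intro hij
      exact hji (Fin.ext hij.symm)
    · intro hi
      exact absurd (Finset.mem_univ i) hi
  rw [hP0, Polynomial.coeff_zero] at hc
  exact Subtype.ext hc.symm

include hq hqN in
/-- **the power basis**: every function of level `N q q` is `∑_{i < q} α(a_i) π^i`. -/
theorem exists_repr_piE (f : FF (N * q * q)) :
    ∃ a : Fin q → FF (N * q), f = ∑ i, heckeAlphaBar Kb (N * q) q (a i) * piE N q ^ (i : ℕ) := by
  letI alg : Algebra (FF (N * q)) (FF (N * q * q)) :=
    AlgebraicCurve.algebraAlong (heckeAlphaBar Kb (N * q) q)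
  letI : Module (FF (N * q)) (FF (N * q * q)) := alg.toModule
  set v : Fin q → FF (N * q * q) := fun i => piE N q ^ (i : ℕ) with hv
  have hcomb : ∀ g : Fin q → FF (N * q),
      ∑ i, g i • v i = ∑ i, heckeAlphaBar Kb (N * q) q (g i) * piE N q ^ (i : ℕ) := fun g => rfl
  have hli : LinearIndependent (FF (N * q)) v := by
    rw [Fintype.linearIndependent_iff]
    intro g hg0
    rw [hcomb g] at hg0
    exact piE_indep hq hqN g hg0
  have hfr : Fintype.card (Fin q) = Module.finrank (FF (N * q)) (FF (N * q * q)) := by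
    rw [Fintype.card_fin]
    exact (Fermat.Agent.T2.helper48.finrank_alpha_of_dvd (N * q) q hq
      (Dvd.intro_left N rfl)).symm
  have hspan := hli.span_eq_top_of_card_eq_finrank hfr
  have hf : f ∈ Submodule.span (FF (N * q)) (Set.range v) := by
    rw [hspan]
    exact Submodule.mem_top
  obtain ⟨g, hg⟩ := (Submodule.mem_span_range_iff_exists_fun (FF (N * q))).mp hf
  exact ⟨g, ((hcomb g).symm.trans hg).symm⟩

include hq hqN in
/-- **fixed coordinates**: if `f` is fixed by `σ`, so are its coordinates. -/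
theorem repr_piE_fixed {f : FF (N * q * q)} {a : Fin q → FF (N * q)}
    (hf : f = ∑ i, heckeAlphaBar Kb (N * q) q (a i) * piE N q ^ (i : ℕ))
    {σ : Kb ≃ₐ[ℚ] Kb} (hσ : galF (N * q * q) σ f = f) (i : Fin q) :
    galF (N * q) σ (a i) = a i := by
  have h1 : galF (N * q * q) σ f
      = ∑ i, heckeAlphaBar Kb (N * q) q (galF (N * q) σ (a i)) * piE N q ^ (i : ℕ) := by
    conv_lhs => rw [hf]
    rw [map_sum]
    refine Finset.sum_congr rfl fun i _ => ?_
    rw [map_mul, map_pow, galF_piE]
    exact congrArg (· * piE N q ^ (i : ℕ)) (arithmeticRingAut_heckeAlphaBar (N * q) σ (a i))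
  rw [hσ] at h1
  have h2 : ∑ i, heckeAlphaBar Kb (N * q) q (galF (N * q) σ (a i) - a i) * piE N q ^ (i : ℕ)
      = 0 := by
    have : ∀ i : Fin q, heckeAlphaBar Kb (N * q) q (galF (N * q) σ (a i) - a i)
        * piE N q ^ (i : ℕ)
        = heckeAlphaBar Kb (N * q) q (galF (N * q) σ (a i)) * piE N q ^ (i : ℕ)
          - heckeAlphaBar Kb (N * q) q (a i) * piE N q ^ (i : ℕ) := by
      intro i
      rw [map_sub, sub_mul]
    rw [Finset.sum_congr rfl fun i _ => this i, Finset.sum_sub_distrib, ← h1, ← hf, sub_self]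
  exact sub_eq_zero.mp (piE_indep hq hqN _ h2 i)

end Basis

end Fermat.Agent.T3.helper58

end
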