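import Mathlib
import Fermat.Agent.T2.helper58_ScaleCore

/-!
# T3 / [G3-B] (helper58), part 1: the valuation-theoretic core at the middle cusp

Abstract form.  `A` is a valuation subring of `ℚ̄`, `lam ∈ 𝔪_A`, `lam ≠ 0`, `c = u · lam ^ r` with
`u ∈ Aˣ` (in the application `c = q`, `lam = ζ ^ k - 1`, `r = q - 1`).  A function `f` has
coordinates `a_0, …, a_r` with respect to the powers of an element `π` whose expansions are
`x₁ = incl P₁` (a unit for the Gauss valuation `w₁`) and `x₃ = lam · incl Θ` (`w₃(π) = 1 / r`):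

  `f₁ = ∑ a_i x₁ ^ i`,   `f₃ = ∑ a_i x₃ ^ i`,   `a_i · incl D = c ^ (m_i) · incl Y_i`  (`m_i : ℤ`).

* `unique_or_tie` : either the minimum of `r m_i + i` is attained exactly once and
  `f₃ · incl D = lam ^ M · incl N₃` with `red N₃ ≠ 0` explicit (**case U**), or
  `f₁ · incl D = c ^ m · incl N₁` with `red N₁ ≠ 0` and `f₃ · incl D = c ^ (m + 1) · incl N₃`
  with `N₃` integral (**case T**).
* `not_tie_tie` : `f` and `f⁻¹` cannot both be in case T (norm trick).
-/

set_option autoImplicit false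
set_option linter.unusedSectionVars false
set_option linter.style.haveILetI false

noncomputable section

open HahnSeries
open Fermat.Agent.S18.helper19 Fermat.Agent.P2.helper29

namespace Fermat.Agent.T3.helper58

variable {A : ValuationSubring Kb}

/-- the constant series attached to an element of `ℚ̄` -/
abbrev cst (c : Kb) : LaurentSeries Kb := algebraMap Kb (LaurentSeries Kb) c

theorem cst_mul (c d : Kb) : cst (c * d) = cst c * cst d := map_mul _ _ _

theorem cst_pow (c : Kb) (n : ℕ) : cst (c ^ n) = cst c ^ n := map_pow _ _ _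

theorem cst_ne_zero {c : Kb} (hc : c ≠ 0) : cst c ≠ 0 :=
  (map_ne_zero (algebraMap Kb (LaurentSeries Kb))).mpr hc

theorem incl_constA (a : A) : incl A (constA a) = cst (a : Kb) := coeffMap_subtype_constA a

theorem red_constA (a : A) :
    red A (constA a) = algebraMap (kA A) (LaurentSeries (kA A)) (IsLocalRing.residue A a) :=
  coeffMap_residue_constA a

theorem red_constA_mul_of_residue_eq_zero {a : A} (ha : IsLocalRing.residue A a = 0)
    (Y : LaurentSeries A) : red A (constA a * Y) = 0 := by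
  rw [map_mul, red_constA, ha, map_zero, zero_mul]

/-- a series which is a non-unit constant times an integral series has reduction `0`; hence two
integral series with non-zero reduction cannot differ by such a constant -/
theorem residue_ne_zero_of_incl_eq {a : A} {Y Z : LaurentSeries A}
    (e : incl A Z = cst (a : Kb) * incl A Y) (hZ : red A Z ≠ 0) :
    IsLocalRing.residue A a ≠ 0 := by
  intro ha
  apply hZ
  have : Z = constA a * Y := Fermat.Agent.T2.helper58.incl_injective (by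
    rw [e, map_mul, incl_constA])
  rw [this]
  exact red_constA_mul_of_residue_eq_zero ha Y

/-! ### Scalars -/

section Scalars

/-- integral powers of a unit of `A` lie in `A` and are units -/
theorem exists_unit_zpow {u : A} (hu : IsLocalRing.residue A u ≠ 0) (m : ℤ) :
    ∃ b : A, (b : Kb) = (u : Kb) ^ m ∧ IsLocalRing.residue A b ≠ 0 := by
  have hunit : IsUnit u := by
    by_contra h
    exact hu ((IsLocalRing.residue_eq_zero_iff u).mpr h)
  obtain ⟨v, rfl⟩ := hunit
  refine ⟨((v ^ m : (↥A)ˣ) : ↥A), ?_, ?_⟩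
  · have h1 : ∀ w : (↥A)ˣ, (((w : ↥A) : Kb)) = Units.map (A.subtype : ↥A →* Kb) w := fun _ => rfl
    rw [h1, h1, map_zpow, Units.val_zpow_eq_zpow_val]
  · intro h0
    have : IsUnit ((v ^ m : (↥A)ˣ) : ↥A) := Units.isUnit _
    exact ((IsLocalRing.residue_eq_zero_iff _).mp h0) this

/-- natural powers of a non-unit -/
theorem residue_pow_eq_zero {x : A} (hx : IsLocalRing.residue A x = 0) {n : ℕ} (hn : n ≠ 0) :
    IsLocalRing.residue A (x ^ n) = 0 := by
  rw [map_pow, hx, zero_pow hn]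

/-- `lam ^ e` for an integer `e ≥ 0` -/
theorem exists_nonneg_zpow {lam : A} (hlam : IsLocalRing.residue A lam = 0) {e : ℤ}
    (he : 0 ≤ e) :
    ∃ b : A, (b : Kb) = (lam : Kb) ^ e ∧ (0 < e → IsLocalRing.residue A b = 0) ∧
      (e = 0 → b = 1) := by
  obtain ⟨n, rfl⟩ := Int.eq_ofNat_of_zero_le he
  refine ⟨lam ^ n, ?_, ?_, ?_⟩
  · rw [zpow_natCast]; rfl
  · intro h
    exact residue_pow_eq_zero hlam (by
      rintro rfl
      exact lt_irrefl _ h)
  · intro h
    have : n = 0 := by exact_mod_cast h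
    rw [this, pow_zero]

end Scalars

/-! ### The terms of the two expansions -/

section Terms

variable {r : ℕ} {lam u : A} {c : Kb}

theorem unit_coe_ne_zero {u : A} (hu : IsLocalRing.residue A u ≠ 0) : (u : Kb) ≠ 0 := by
  intro h
  apply hu
  have : u = 0 := Subtype.ext h
  rw [this, map_zero]

/-- a term of the expansion at the middle cusp, scaled by `lam ^ M` -/
theorem term_mid (hu : IsLocalRing.residue A u ≠ 0) (hlam : IsLocalRing.residue A lam = 0)
    (hlam0 : (lam : Kb) ≠ 0) (hc : c = (u : Kb) * (lam : Kb) ^ r)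
    {Θ D Y : LaurentSeries A} {a : LaurentSeries Kb} {m : ℤ}
    (ha : a * incl A D = cst (c ^ m) * incl A Y) (i : ℕ) (M : ℤ) (hM : M ≤ r * m + i) :
    ∃ b : A, (M < r * m + i → IsLocalRing.residue A b = 0) ∧
      (M = r * m + i → IsLocalRing.residue A b ≠ 0) ∧
      a * (cst (lam : Kb) * incl A Θ) ^ i * incl A D =
        cst ((lam : Kb) ^ M) * incl A (constA b * (Y * Θ ^ i)) := by
  obtain ⟨bu, hbu, hbu'⟩ := exists_unit_zpow hu m
  obtain ⟨bl, hbl, hbl0, hbl1⟩ := exists_nonneg_zpow hlam (e := r * m + i - M) (by omega)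
  refine ⟨bu * bl, ?_, ?_, ?_⟩
  · intro h
    rw [map_mul, hbl0 (by omega), mul_zero]
  · intro h
    rw [hbl1 (by omega), mul_one]
    exact hbu'
  · have e1 : a * (cst (lam : Kb) * incl A Θ) ^ i * incl A D =
        (a * incl A D) * (cst (lam : Kb) ^ i * incl A Θ ^ i) := by
      rw [mul_pow]; ring
    have e2 : c ^ m * (lam : Kb) ^ i = (lam : Kb) ^ M * ((bu * bl : A) : Kb) := by
      have h3 : ((bu * bl : A) : Kb) = (bu : Kb) * (bl : Kb) := rfl
      rw [h3, hbu, hbl, hc, mul_zpow, ← zpow_natCast ((lam : Kb)) r, ← zpow_mul,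
        ← zpow_natCast ((lam : Kb)) i]
      have h4 : (lam : Kb) ^ M * ((u : Kb) ^ m * (lam : Kb) ^ ((r : ℤ) * m + i - M)) =
          (u : Kb) ^ m * ((lam : Kb) ^ M * (lam : Kb) ^ ((r : ℤ) * m + i - M)) := by ring
      rw [h4, ← zpow_add₀ hlam0, mul_assoc, ← zpow_add₀ hlam0]
      congr 2
      ring
    rw [e1, ha, map_mul (incl A), incl_constA, map_mul (incl A), map_pow (incl A)]
    have e3 : cst (c ^ m) * incl A Y * (cst (lam : Kb) ^ i * incl A Θ ^ i) =
        cst (c ^ m * (lam : Kb) ^ i) * (incl A Y * incl A Θ ^ i) := by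
      rw [cst_mul, cst_pow]; ring
    rw [e3, e2, cst_mul]
    ring

/-- a term of the expansion at `∞`, scaled by `c ^ m₀` -/
theorem term_inf (hu : IsLocalRing.residue A u ≠ 0) (hlam : IsLocalRing.residue A lam = 0)
    (hlam0 : (lam : Kb) ≠ 0) (hr : 0 < r) (hc : c = (u : Kb) * (lam : Kb) ^ r)
    {P D Y : LaurentSeries A} {a : LaurentSeries Kb} {m : ℤ}
    (ha : a * incl A D = cst (c ^ m) * incl A Y) (i : ℕ) (m₀ : ℤ) (hm : m₀ ≤ m) :
    ∃ b : A, (m₀ < m → IsLocalRing.residue A b = 0) ∧ (m₀ = m → b = 1) ∧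
      a * incl A P ^ i * incl A D = cst (c ^ m₀) * incl A (constA b * (Y * P ^ i)) := by
  have hcA : IsLocalRing.residue A (u * lam ^ r) = 0 := by
    rw [map_mul, residue_pow_eq_zero hlam hr.ne', mul_zero]
  have hc0 : c ≠ 0 := by
    rw [hc]
    exact mul_ne_zero (unit_coe_ne_zero hu) (pow_ne_zero _ hlam0)
  obtain ⟨b, hb, hb0, hb1⟩ := exists_nonneg_zpow hcA (e := m - m₀) (by omega)
  refine ⟨b, fun h => hb0 (by omega), fun h => hb1 (by omega), ?_⟩
  have hb' : (b : Kb) = c ^ (m - m₀) := by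
    rw [hb, hc]; rfl
  have e1 : a * incl A P ^ i * incl A D = (a * incl A D) * incl A P ^ i := by ring
  rw [e1, ha, map_mul (incl A), incl_constA, map_mul (incl A), map_pow (incl A), hb']
  have e2 : c ^ m = c ^ m₀ * c ^ (m - m₀) := by
    rw [← zpow_add₀ hc0]
    congr 1
    ring
  rw [e2, cst_mul]
  ring

end Terms

/-! ### The dichotomy -/

section Dichotomy

variable {r : ℕ} {lam u : A} {c : Kb}

/-- arithmetic of a tie: `r x = d`, `0 < |d| ≤ r` forces `x = ± 1`, `d = ± r` -/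
theorem tie_arith {r : ℕ} (hr : 0 < r) {x : ℤ} {i j : ℕ} (hi : i ≤ r) (hj : j ≤ r)
    (hij : i ≠ j) (e : (r : ℤ) * x + i = j) : (x = 1 ∧ i = 0 ∧ j = r) ∨ (x = -1 ∧ i = r ∧ j = 0) := by
  have hr' : (0 : ℤ) < r := by exact_mod_cast hr
  have h1 : x ≤ 1 := by
    by_contra h
    push Not at h
    have : (r : ℤ) * x ≥ r * 2 := by nlinarith
    omega
  have h2 : -1 ≤ x := by
    by_contra h
    push Not at h
    have : (r : ℤ) * x ≤ r * (-2) := by nlinarith
    omega
  have h3 : x = 1 ∨ x = 0 ∨ x = -1 := by omega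
  rcases h3 with rfl | rfl | rfl
  · left
    rw [mul_one] at e
    omega
  · rw [mul_zero] at e
    omega
  · right
    rw [mul_neg, mul_one] at e
    omega

/-- **The dichotomy.**  Case U: the expansion at the middle cusp has an explicit Gauss
representation.  Case T: the expansion at `∞` has an explicit Gauss representation, and the
valuation at the middle cusp is strictly bigger. -/
theorem unique_or_tie (hr : 0 < r) (hu : IsLocalRing.residue A u ≠ 0)
    (hlam : IsLocalRing.residue A lam = 0) (hlam0 : (lam : Kb) ≠ 0)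
    (hc : c = (u : Kb) * (lam : Kb) ^ r)
    {P₁ Θ D : LaurentSeries A} (hP : red A P₁ ≠ 0)
    (a : Fin (r + 1) → LaurentSeries Kb) (Y : Fin (r + 1) → LaurentSeries A)
    (m : Fin (r + 1) → ℤ)
    (ha : ∀ i, a i * incl A D = cst (c ^ m i) * incl A (Y i))
    (hY : ∀ i, Y i = 0 ∨ red A (Y i) ≠ 0) (hne : ∃ i, Y i ≠ 0) :
    (∃ (M : ℤ) (N₃ : LaurentSeries A) (i₀ : Fin (r + 1)) (κ : kA A), κ ≠ 0 ∧
        red A (Y i₀) ≠ 0 ∧ M = r * m i₀ + ((i₀ : ℕ) : ℤ) ∧
        (∑ i, a i * (cst (lam : Kb) * incl A Θ) ^ (i : ℕ)) * incl A D =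
          cst ((lam : Kb) ^ M) * incl A N₃ ∧
        red A N₃ = algebraMap (kA A) (LaurentSeries (kA A)) κ *
          (red A (Y i₀) * red A Θ ^ (i₀ : ℕ))) ∨
    (∃ (m₀ : ℤ) (N₁ N₃ : LaurentSeries A), red A N₁ ≠ 0 ∧
        (∑ i, a i * incl A P₁ ^ (i : ℕ)) * incl A D = cst (c ^ m₀) * incl A N₁ ∧
        (∑ i, a i * (cst (lam : Kb) * incl A Θ) ^ (i : ℕ)) * incl A D =
          cst (c ^ (m₀ + 1)) * incl A N₃) := by
  classical
  set Mf : Fin (r + 1) → ℤ := fun i => r * m i + ((i : ℕ) : ℤ) with hMf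
  set S : Finset (Fin (r + 1)) := Finset.univ.filter fun i => Y i ≠ 0 with hS
  have hmemS : ∀ i, i ∈ S ↔ Y i ≠ 0 := fun i => by rw [hS, Finset.mem_filter]; simp
  have hSne : S.Nonempty := by
    obtain ⟨i, hi⟩ := hne
    exact ⟨i, (hmemS i).mpr hi⟩
  have hzero : ∀ i, Y i = 0 → a i * incl A D = 0 := by
    intro i hi
    rw [ha i, hi, map_zero, mul_zero]
  have hD0 : ∀ i, Y i = 0 → ∀ X : LaurentSeries Kb, a i * X * incl A D = 0 := by
    intro i hi X
    have : a i * X * incl A D = (a i * incl A D) * X := by ring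
    rw [this, hzero i hi, zero_mul]
  obtain ⟨i₀, hi₀S, hmin⟩ := S.exists_min_image Mf hSne
  have hYi₀ : red A (Y i₀) ≠ 0 := (hY i₀).resolve_left ((hmemS i₀).mp hi₀S)
  by_cases huniq : ∀ i ∈ S, i ≠ i₀ → Mf i₀ < Mf i
  · -- case U
    left
    have hterm : ∀ i, ∃ b : A, (i ≠ i₀ → IsLocalRing.residue A b = 0) ∧
        (i = i₀ → IsLocalRing.residue A b ≠ 0) ∧
        a i * (cst (lam : Kb) * incl A Θ) ^ (i : ℕ) * incl A D =
          cst ((lam : Kb) ^ Mf i₀) * incl A (constA b * (Y i * Θ ^ (i : ℕ))) := by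
      intro i
      by_cases hi : Y i = 0
      · refine ⟨0, fun _ => map_zero _, fun h => ?_, ?_⟩
        · exact absurd (h ▸ hi) ((hmemS i₀).mp hi₀S)
        · rw [hD0 i hi, hi, zero_mul, mul_zero, map_zero, mul_zero]
      · have hiS : i ∈ S := (hmemS i).mpr hi
        obtain ⟨b, hb0, hb1, hb⟩ :=
          term_mid (Θ := Θ) hu hlam hlam0 hc (ha i) (i : ℕ) (Mf i₀) (hmin i hiS)
        exact ⟨b, fun hne' => hb0 (huniq i hiS hne'), fun heq => hb1 (by rw [heq]), hb⟩
    choose b hb0 hb1 hb using hterm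
    refine ⟨Mf i₀, ∑ i, constA (b i) * (Y i * Θ ^ (i : ℕ)), i₀, IsLocalRing.residue A (b i₀),
      hb1 i₀ rfl, hYi₀, rfl, ?_, ?_⟩
    · rw [Finset.sum_mul, map_sum, Finset.mul_sum]
      exact Finset.sum_congr rfl fun i _ => hb i
    · rw [map_sum, Finset.sum_eq_single i₀]
      · rw [map_mul, red_constA, map_mul, map_pow]
      · intro i _ hi
        exact red_constA_mul_of_residue_eq_zero (hb0 i hi) _
      · intro h
        exact absurd (Finset.mem_univ _) h
  · -- case T
    right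
    push Not at huniq
    obtain ⟨i₁, hi₁S, hi₁ne, hle⟩ := huniq
    have heq : Mf i₁ = Mf i₀ := le_antisymm hle (hmin i₁ hi₁S)
    -- the two indices are `0` and `r`
    have hjr : ∃ jr j0 : Fin (r + 1), jr ∈ S ∧ j0 ∈ S ∧ (jr : ℕ) = r ∧ m j0 = m jr + 1 ∧
        ∀ i ∈ S, Mf jr ≤ Mf i := by
      have e : (r : ℤ) * (m i₁ - m i₀) + ((i₁ : ℕ) : ℤ) = ((i₀ : ℕ) : ℤ) := by
        have := heq
        simp only [hMf] at this
        linarith
      have hne' : (i₁ : ℕ) ≠ (i₀ : ℕ) := fun h => hi₁ne (Fin.ext h)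
      rcases tie_arith hr (Nat.lt_succ_iff.mp i₁.2) (Nat.lt_succ_iff.mp i₀.2) hne' e with
        ⟨h1, -, h3⟩ | ⟨h1, h2, -⟩
      · exact ⟨i₀, i₁, hi₀S, hi₁S, h3, by omega, hmin⟩
      · refine ⟨i₁, i₀, hi₁S, hi₀S, h2, by omega, fun i hi => ?_⟩
        rw [heq]
        exact hmin i hi
    obtain ⟨jr, j0, hjrS, -, hjr_r, -, hjrmin⟩ := hjr
    have hYjr : red A (Y jr) ≠ 0 := (hY jr).resolve_left ((hmemS jr).mp hjrS)
    have hr' : (0 : ℤ) < r := by exact_mod_cast hr
    have hmlt : ∀ i ∈ S, i ≠ jr → m jr < m i := by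
      intro i hiS hne'
      have h1 := hjrmin i hiS
      simp only [hMf] at h1
      have h2 : (i : ℕ) < r := by
        have h3 : (i : ℕ) ≠ r := fun h => hne' (Fin.ext (h.trans hjr_r.symm))
        have h4 := Nat.lt_succ_iff.mp i.2
        omega
      by_contra hcon
      push Not at hcon
      have : (r : ℤ) * m i ≤ r * m jr := by nlinarith
      omega
    refine ⟨m jr, ?_⟩
    -- the expansion at infinity
    have hterm1 : ∀ i, ∃ b : A, (i ≠ jr → IsLocalRing.residue A b = 0 ∨ Y i = 0) ∧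
        (i = jr → b = 1) ∧
        a i * incl A P₁ ^ (i : ℕ) * incl A D =
          cst (c ^ m jr) * incl A (constA b * (Y i * P₁ ^ (i : ℕ))) := by
      intro i
      by_cases hi : Y i = 0
      · by_cases hij : i = jr
        · exact absurd (hij ▸ hi) ((hmemS jr).mp hjrS)
        · refine ⟨0, fun _ => Or.inr hi, fun h => absurd h hij, ?_⟩
          rw [hD0 i hi, hi, zero_mul, mul_zero, map_zero, mul_zero]
      · have hiS : i ∈ S := (hmemS i).mpr hi
        by_cases hij : i = jr
        · obtain ⟨b, -, hb1, hb⟩ := term_inf (P := P₁) hu hlam hlam0 hr hc (ha i) (i : ℕ)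
            (m jr) (by rw [hij])
          exact ⟨b, fun h => absurd hij h, fun _ => hb1 (by rw [hij]), hb⟩
        · obtain ⟨b, hb0, -, hb⟩ := term_inf (P := P₁) hu hlam hlam0 hr hc (ha i) (i : ℕ)
            (m jr) (hmlt i hiS hij).le
          exact ⟨b, fun _ => Or.inl (hb0 (hmlt i hiS hij)), fun h => absurd h hij, hb⟩
    choose b1 hb10 hb11 hb1 using hterm1
    -- the expansion at the middle cusp
    have hterm3 : ∀ i, ∃ b : A,
        a i * (cst (lam : Kb) * incl A Θ) ^ (i : ℕ) * incl A D =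
          cst ((lam : Kb) ^ Mf jr) * incl A (constA b * (Y i * Θ ^ (i : ℕ))) := by
      intro i
      by_cases hi : Y i = 0
      · refine ⟨0, ?_⟩
        rw [hD0 i hi, hi, zero_mul, mul_zero, map_zero, mul_zero]
      · have hiS : i ∈ S := (hmemS i).mpr hi
        obtain ⟨b, -, -, hb⟩ :=
          term_mid (Θ := Θ) hu hlam hlam0 hc (ha i) (i : ℕ) (Mf jr) (hjrmin i hiS)
        exact ⟨b, hb⟩
    choose b3 hb3 using hterm3
    obtain ⟨bu, hbu, -⟩ := exists_unit_zpow hu (-(m jr + 1))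
    refine ⟨∑ i, constA (b1 i) * (Y i * P₁ ^ (i : ℕ)),
      constA bu * ∑ i, constA (b3 i) * (Y i * Θ ^ (i : ℕ)), ?_, ?_, ?_⟩
    · rw [map_sum, Finset.sum_eq_single jr]
      · rw [hb11 jr rfl, map_mul, map_mul, map_pow]
        have : red A (constA (1 : A)) = 1 := by
          rw [red_constA, map_one, map_one]
        rw [this, one_mul]
        exact mul_ne_zero hYjr (pow_ne_zero _ hP)
      · intro i _ hi
        rcases hb10 i hi with h | h
        · exact red_constA_mul_of_residue_eq_zero h _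
        · rw [h, zero_mul, mul_zero, map_zero]
      · intro h
        exact absurd (Finset.mem_univ _) h
    · rw [Finset.sum_mul, map_sum, Finset.mul_sum]
      exact Finset.sum_congr rfl fun i _ => hb1 i
    · have e1 : (∑ i, a i * (cst (lam : Kb) * incl A Θ) ^ (i : ℕ)) * incl A D =
          cst ((lam : Kb) ^ Mf jr) * incl A (∑ i, constA (b3 i) * (Y i * Θ ^ (i : ℕ))) := by
        rw [Finset.sum_mul, map_sum, Finset.mul_sum]
        exact Finset.sum_congr rfl fun i _ => hb3 i
      rw [e1, map_mul (incl A), incl_constA, hbu, ← mul_assoc, ← cst_mul]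
      congr 2
      have hu0 : (u : Kb) ≠ 0 := unit_coe_ne_zero hu
      have e2 : Mf jr = (r : ℤ) * (m jr + 1) := by
        simp only [hMf]
        rw [hjr_r]
        ring
      rw [hc, mul_zpow, e2, ← zpow_natCast ((lam : Kb)) r, ← zpow_mul]
      have e3 : (u : Kb) ^ (m jr + 1) * (lam : Kb) ^ ((r : ℤ) * (m jr + 1)) *
          (u : Kb) ^ (-(m jr + 1)) =
          ((u : Kb) ^ (m jr + 1) * (u : Kb) ^ (-(m jr + 1))) *
            (lam : Kb) ^ ((r : ℤ) * (m jr + 1)) := by ring
      rw [e3, ← zpow_add₀ hu0, add_neg_cancel, zpow_zero, one_mul]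

end Dichotomy

/-! ### The norm trick -/

section NormTrick

/-- an integral series which is a positive power of a non-unit times an integral series has
reduction `0` -/
theorem red_eq_zero_of_incl_eq {cA : A} (hcA : IsLocalRing.residue A cA = 0)
    {e : ℤ} (he : 0 < e) {Z Y : LaurentSeries A}
    (h : incl A Z = cst ((cA : Kb) ^ e) * incl A Y) : red A Z = 0 := by
  obtain ⟨b, hb, hb0, -⟩ := exists_nonneg_zpow hcA he.le
  have : Z = constA b * Y := Fermat.Agent.T2.helper58.incl_injective (by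
    rw [h, map_mul, incl_constA, hb])
  rw [this]
  exact red_constA_mul_of_residue_eq_zero (hb0 he) Y

/-- **Norm trick**: `f` and `f⁻¹` cannot both be in case T. -/
theorem not_tie_tie {cA : A} (hcA : IsLocalRing.residue A cA = 0) (hc0 : (cA : Kb) ≠ 0)
    {f₁ g₁ f₃ g₃ : LaurentSeries Kb} (h1 : f₁ * g₁ = 1) (h3 : f₃ * g₃ = 1)
    {D D' N₁ N₁' N₃ N₃' : LaurentSeries A} {m m' : ℤ} (hD : red A D ≠ 0)
    (hD' : red A D' ≠ 0) (hN₁ : red A N₁ ≠ 0) (hN₁' : red A N₁' ≠ 0)
    (e1 : f₁ * incl A D = cst ((cA : Kb) ^ m) * incl A N₁)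
    (e1' : g₁ * incl A D' = cst ((cA : Kb) ^ m') * incl A N₁')
    (e3 : f₃ * incl A D = cst ((cA : Kb) ^ (m + 1)) * incl A N₃)
    (e3' : g₃ * incl A D' = cst ((cA : Kb) ^ (m' + 1)) * incl A N₃') : False := by
  have hDD : red A (D * D') ≠ 0 := by
    rw [map_mul]; exact mul_ne_zero hD hD'
  have hNN : red A (N₁ * N₁') ≠ 0 := by
    rw [map_mul]; exact mul_ne_zero hN₁ hN₁'
  have p1 : incl A (D * D') = cst ((cA : Kb) ^ (m + m')) * incl A (N₁ * N₁') := by
    have : (f₁ * incl A D) * (g₁ * incl A D') = incl A (D * D') := by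
      rw [map_mul]
      calc (f₁ * incl A D) * (g₁ * incl A D') = (f₁ * g₁) * (incl A D * incl A D') := by ring
        _ = incl A D * incl A D' := by rw [h1, one_mul]
    rw [← this, e1, e1', map_mul (incl A), zpow_add₀ hc0, cst_mul]
    ring
  have p3 : incl A (D * D') = cst ((cA : Kb) ^ (m + m' + 2)) * incl A (N₃ * N₃') := by
    have : (f₃ * incl A D) * (g₃ * incl A D') = incl A (D * D') := by
      rw [map_mul]
      calc (f₃ * incl A D) * (g₃ * incl A D') = (f₃ * g₃) * (incl A D * incl A D') := by ring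
        _ = incl A D * incl A D' := by rw [h3, one_mul]
    rw [← this, e3, e3', map_mul (incl A)]
    have e : (cA : Kb) ^ (m + m' + 2) = (cA : Kb) ^ (m + 1) * (cA : Kb) ^ (m' + 1) := by
      rw [← zpow_add₀ hc0]
      congr 1
      ring
    rw [e, cst_mul]
    ring
  rcases lt_trichotomy (m + m') 0 with h | h | h
  · -- `N₁ N₁' = c ^ (-(m + m')) D D'`
    apply hNN
    refine red_eq_zero_of_incl_eq hcA (e := -(m + m')) (by omega) (Y := D * D') ?_
    rw [p1, ← mul_assoc, ← cst_mul, ← zpow_add₀ hc0, neg_add_cancel, zpow_zero]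
    show _ = (algebraMap Kb (LaurentSeries Kb)) 1 * _
    rw [map_one, one_mul]
  · apply hDD
    exact red_eq_zero_of_incl_eq hcA (e := m + m' + 2) (by omega) p3
  · apply hDD
    exact red_eq_zero_of_incl_eq hcA (e := m + m') h p1

end NormTrick

end Fermat.Agent.T3.helper58
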