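import Mathlib
import Fermat.Agent.T3.helper58_MidCore
import Fermat.Agent.T3.helper58_MidBasis
import Fermat.Agent.T3.helper67_MidCore
import Fermat.Agent.T3.helper98_NormRed3
import Fermat.Agent.T2.helper58_ScaleBad

/-!
# T3 / [G3-B] (helper58), part 3: the integral models of `π` at `∞` and at the middle cusps

* `P1 q A` : `j(t^(q²)) - j(t)` over `A`; `incl_P1`, `red_P1_ne_zero`, `red_P1_mem`;
* `ThetaM` : `(j(μ t) - j(t)) / (μ - 1)` over `A` (`μ` a primitive `q`-th root of unity), with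
  reduction `θ j̄ = thetaL (jqModC (kA A))`; `incl_ThetaM`, `red_ThetaM`, `thetaL_jqModC_ne_zero`;
* `exists_scalars` : `q = u · (μ - 1)^(q-1)` with a unit `u` of `A`;
* `thetaL_pow_mem` : `(θ j̄)^(q-1) ∈ F̃_N` (reduction of `N_α(π) / ∏ (ζ^k - 1)`).
-/

set_option autoImplicit false
set_option linter.unusedSectionVars false
set_option linter.unusedVariables false
set_option linter.style.haveILetI false
set_option synthInstance.maxHeartbeats 400000

noncomputable section

open HahnSeries IntermediateField AlgebraicCurve ModularCurve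
open Fermat.Agent.S18.helper19 Fermat.Agent.P2.helper29
open Fermat.Agent.P2.helper93 (twistL twistL_coeff galF coe_galF)
open Fermat.Agent.T3.helper87
open Fermat.Agent.T3.helper67 (thetaL thetaL_coeff)
open Fermat.Agent.P3.helper94 (normAlong)
open Fermat.Agent.T2.helper58 (incl_qExpand red_qExpand incl_jqModC red_jqModC isGood_jqModC
  red_mem_FFb_bad incl_injective)

namespace Fermat.Agent.T3.helper58

section Models

variable (q : ℕ) [NeZero q] (A : ValuationSubring Kb)

/-- the integral model of the expansion of `π` at `∞` -/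
def P1 : LaurentSeries A := qExpand A q (qExpand A q (jqModC A)) - jqModC A

theorem incl_P1 : incl A (P1 q A) = qExpand Kb q (qExpand Kb q (jqModC Kb)) - jqModC Kb := by
  unfold P1
  rw [map_sub, incl_qExpand, incl_qExpand, incl_jqModC]

theorem red_P1 : red A (P1 q A)
    = qExpand (kA A) q (qExpand (kA A) q (jqModC (kA A))) - jqModC (kA A) := by
  unfold P1
  rw [map_sub, red_qExpand, red_qExpand, red_jqModC]

variable {q}

theorem not_dvd_neg_one (hq : q.Prime) : ¬ ((q : ℕ) : ℤ) ∣ (-1 : ℤ) := by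
  intro h
  have h1 : (q : ℤ) ∣ 1 := (dvd_neg).mp h
  have h2 : q ∣ 1 := by exact_mod_cast h1
  exact hq.one_lt.ne' (Nat.dvd_one.mp h2)

theorem red_P1_ne_zero (hq : q.Prime) : red A (P1 q A) ≠ 0 := by
  intro h
  have h1 := congrArg (fun x : LaurentSeries (kA A) => x.coeff (-1)) h
  beta_reduce at h1
  rw [red_P1, HahnSeries.coeff_sub, qExpand_coeff_of_not_dvd q _ (not_dvd_neg_one hq),
    coeff_jqModC_neg_one, HahnSeries.coeff_zero, zero_sub, neg_eq_zero] at h1
  exact one_ne_zero h1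

theorem thetaL_jqModC_ne_zero : thetaL (jqModC (kA A)) ≠ 0 := by
  intro h
  have h1 := congrArg (fun x : LaurentSeries (kA A) => x.coeff (-1)) h
  beta_reduce at h1
  rw [thetaL_coeff, coeff_jqModC_neg_one, mul_one, HahnSeries.coeff_zero] at h1
  have h2 : ((-1 : ℤ) : kA A) = -1 := by push_cast; rfl
  rw [h2, neg_eq_zero] at h1
  exact one_ne_zero h1

theorem jbar_mem (N : ℕ) [NeZero N] : jqModC (kA A) ∈ FFb A N := by
  have h := (isGood_jqModC (A := A) (N := N)).2.1
  rwa [show coeffMap (IsLocalRing.residue A) (jqModC A) = jqModC (kA A) from red_jqModC] at h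

theorem red_P1_mem (hq : q.Prime) (hA : A.LiesOverPrime q) (N : ℕ) [NeZero N] :
    red A (P1 q A) ∈ FFb A N := by
  haveI : Fact q.Prime := ⟨hq⟩
  haveI : CharP (kA A) q := Fermat.Agent.P2.helper93.charP_residueField hq hA
  have e1 : qExpand (kA A) q (jqModC (kA A)) = jqModC (kA A) ^ q :=
    (Fermat.Agent.T2.helper58.jqModC_pow_char (k := kA A) q).symm
  rw [red_P1, e1, map_pow, e1]
  exact sub_mem (pow_mem (pow_mem (jbar_mem A N) q) q) (jbar_mem A N)

end Models

section Theta

variable {q : ℕ} [NeZero q] (hq : q.Prime) (A : ValuationSubring Kb) (hA : A.LiesOverPrime q)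
  {μ : Kb} (hμ : IsPrimitiveRoot μ q)

/-- the integral model of `(j(μ t) - j(t)) / (μ - 1)` -/
def ThetaM : LaurentSeries A :=
  Fermat.Agent.T3.helper67.divSeries q A ⟨μ, Fermat.Agent.T3.helper67.mu_mem hq A hμ⟩ (jqModC A)

theorem incl_ThetaM :
    cst (μ - 1) * incl A (ThetaM hq A hμ) = twistL μ (jqModC Kb) - jqModC Kb := by
  have h := Fermat.Agent.T3.helper67.twist_sub hq A hμ (jqModC A)
  rw [incl_jqModC] at h
  rw [h, HahnSeries.C_apply]
  unfold ThetaM cst
  rw [algebraMap_laurentSeries_eq_single]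

include hA in
theorem red_ThetaM : red A (ThetaM hq A hμ) = thetaL (jqModC (kA A)) := by
  unfold ThetaM
  rw [Fermat.Agent.T3.helper67.red_divSeries hq A hA hμ, red_jqModC]

include hq hA hμ in
/-- `q = u · (μ - 1)^(q-1)` with a unit `u` -/
theorem exists_scalars : ∃ lam u : A, (lam : Kb) = μ - 1 ∧ IsLocalRing.residue A lam = 0 ∧
    (lam : Kb) ≠ 0 ∧ IsLocalRing.residue A u ≠ 0 ∧
    ((q : ℕ) : Kb) = (u : Kb) * (lam : Kb) ^ (q - 1) := by
  obtain ⟨w, hw, hwres⟩ := Fermat.Agent.T3.helper67.wilson hq A hA hμ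
  have hwne : IsLocalRing.residue A w ≠ 0 := by
    rw [hwres]
    exact pow_ne_zero _ (neg_ne_zero.mpr one_ne_zero)
  have hwu : IsUnit w := by
    rw [← IsLocalRing.notMem_maximalIdeal]
    intro hmem
    exact hwne ((IsLocalRing.residue_eq_zero_iff w).mpr hmem)
  obtain ⟨W, rfl⟩ := hwu
  refine ⟨⟨μ, Fermat.Agent.T3.helper67.mu_mem hq A hμ⟩ - 1, ((W⁻¹ : Aˣ) : A), ?_, ?_, ?_, ?_, ?_⟩
  · push_cast
    rfl
  · rw [map_sub, map_one, Fermat.Agent.T3.helper67.residue_mu hq A hA hμ, sub_self]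
  · push_cast
    exact sub_ne_zero.mpr (hμ.ne_one hq.one_lt)
  · intro h0
    have hu : IsUnit (((W⁻¹ : Aˣ) : A)) := Units.isUnit _
    rw [← IsLocalRing.notMem_maximalIdeal] at hu
    exact hu ((IsLocalRing.residue_eq_zero_iff _).mp h0)
  · have e1 : ((⟨μ, Fermat.Agent.T3.helper67.mu_mem hq A hμ⟩ - 1 : A) : Kb) = μ - 1 := by
      push_cast
      rfl
    rw [e1, hw]
    have e2 : (((W⁻¹ : Aˣ) : A) : Kb) * ((W : A) : Kb) = 1 := by
      have : ((W⁻¹ : Aˣ) : A) * (W : A) = 1 := by
        rw [← Units.val_mul, inv_mul_cancel, Units.val_one]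
      have h2 := congrArg (fun x : A => (x : Kb)) this
      beta_reduce at h2
      push_cast at h2
      exact h2
    calc ((q : ℕ) : Kb) = ((q : ℕ) : Kb) * ((((W⁻¹ : Aˣ) : A) : Kb) * ((W : A) : Kb)) := by
          rw [e2, mul_one]
      _ = (((W⁻¹ : Aˣ) : A) : Kb) * (((q : ℕ) : Kb) * ((W : A) : Kb)) := by ring

include hq hA in
theorem residue_natCast_q : IsLocalRing.residue A ((q : ℕ) : A) = 0 := by
  rw [map_natCast]
  exact Fermat.Agent.T3.helper67.residue_q hq A hA

end Theta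

section ThetaPow

variable {N q : ℕ} [NeZero N] [NeZero q] (hq : q.Prime) (hqN : ¬ q ∣ N)
  (A : ValuationSubring Kb) (hA : A.LiesOverPrime q)

include hq in
theorem card_midIdx' : Fintype.card (MidIdx q) = q - 1 := by
  have h := card_midIdx q hq
  rw [Fintype.card_option] at h
  omega

include hq hqN hA in
/-- **`(θ j̄)^(q-1)` is a function on the special fibre**: it is the reduction of
`N_α(π) / ∏_k (ζ^k - 1)` divided by `j̄^(q²) - j̄`. -/
theorem thetaL_pow_mem : thetaL (jqModC (kA A)) ^ (q - 1) ∈ FFb A N := by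
  classical
  obtain ⟨ζ, hζ⟩ := HasEnoughRootsOfUnity.exists_primitiveRoot Kb q
  have hprim : ∀ k : MidIdx q, IsPrimitiveRoot (ζ ^ ((k : Fin q) : ℕ)) q := by
    intro k
    apply hζ.pow_of_coprime
    rw [Nat.coprime_comm]
    apply (Nat.Prime.coprime_iff_not_dvd hq).mpr
    intro hdvd
    exact k.2 (Nat.eq_zero_of_dvd_of_lt hdvd k.1.2)
  set Θ : MidIdx q → LaurentSeries A := fun k => ThetaM hq A (hprim k) with hΘ
  set c₀ : Kb := ∏ k : MidIdx q, (ζ ^ ((k : Fin q) : ℕ) - 1) with hc₀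
  have hc₀ne : c₀ ≠ 0 := by
    rw [hc₀, Finset.prod_ne_zero_iff]
    intro k _
    exact sub_ne_zero.mpr ((hprim k).ne_one hq.one_lt)
  set X : LaurentSeries A := P1 q A * ∏ k : MidIdx q, Θ k with hX
  have hnorm := Fermat.Agent.T3.helper98.normAlpha_expand (hq := hq) (hqN := hqN) hζ (piE N q)
  have hexp : ((normAlong (heckeAlphaBar Kb (N * q) q) (piE N q) : FF (N * q)) :
      LaurentSeries Kb) = cst c₀ * incl A X := by
    rw [hnorm, coe_piE, hX, map_mul, map_prod, ← incl_P1 q A, hc₀]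
    have e1 : ∀ k : MidIdx q, embMid N q hq hqN hζ k.1 k.2 (piE N q)
        = cst (ζ ^ ((k : Fin q) : ℕ) - 1) * incl A (Θ k) := by
      intro k
      rw [embMid_piE, hΘ, incl_ThetaM]
    rw [Finset.prod_congr rfl fun k _ => e1 k, Finset.prod_mul_distrib]
    show _ = (algebraMap Kb (LaurentSeries Kb)) (∏ k : MidIdx q, (ζ ^ ((k : Fin q) : ℕ) - 1)) * _
    rw [map_prod]
    ring
  have hXmem : incl A X ∈ FF (N * q) := by
    have e2 : incl A X = cst c₀⁻¹ *
        ((normAlong (heckeAlphaBar Kb (N * q) q) (piE N q) : FF (N * q)) :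
          LaurentSeries Kb) := by
      rw [hexp, ← mul_assoc, ← cst_mul, inv_mul_cancel₀ hc₀ne]
      show _ = (algebraMap Kb (LaurentSeries Kb)) 1 * _
      rw [map_one, one_mul]
    rw [e2]
    exact mul_mem ((FF (N * q)).algebraMap_mem _) (SetLike.coe_mem _)
  have hXred : red A X ∈ FFb A N := red_mem_FFb_bad N q hq hqN A hA hXmem
  have hredX : red A X = red A (P1 q A) * thetaL (jqModC (kA A)) ^ (q - 1) := by
    rw [hX, map_mul, map_prod]
    congr 1
    rw [Finset.prod_congr rfl fun k _ => red_ThetaM hq A hA (hprim k), Finset.prod_const,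
      Finset.card_univ, card_midIdx' hq]
  have hP := red_P1_ne_zero A hq
  have e3 : thetaL (jqModC (kA A)) ^ (q - 1) = (red A (P1 q A))⁻¹ * red A X := by
    rw [hredX, ← mul_assoc, inv_mul_cancel₀ hP, one_mul]
  rw [e3]
  exact mul_mem (inv_mem (red_P1_mem A hq hA N)) hXred

end ThetaPow

end Fermat.Agent.T3.helper58

end
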