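/-
T3 [IDEAL3], box `hunitw` **[UNITW]** of `helper22.Ideal3Box` (helper5), VERBATIM for the concrete
calculus `T = B.calc hA`, `B : helper49.TorBase` with `B.Reg = helper98.regJRing (N q q)`.

Setting: `q` prime, `q ∤ N`, `4 ∣ N` or `9 ∣ N`, `A` over `q`, `ζ` a primitive `q`-th root of unity.

* `unif3 q ζ = ![q, q, 1 - ζ]`  : the uniformisers of the three value groups on `I`-fixed
                                 functions (cusps `∞`, `0`, middle);
* `exists_gaussIs_nat`          : a nonzero `I`-fixed function which is Gauss-integral at the cusp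
                                 `c` has the Gauss value `(unif3 c) ^ e`, `e : ℕ`, there;
* `unitw_of_unit`               : if `m` is `I`-fixed with Gauss value `(unif3 c)⁻¹` at `c` and `1`
                                 at the two other cusps, then every nonzero `Rho3`-integral `G`
                                 has a multiple `G m ^ k` which is `Rho3`-integral with NONZERO
                                 reduction at `c`;
* `gaussIs_piE_*`               : `π = j(q² τ) - j(τ)` has the Gauss values `1, 1, ζ - 1`;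
* `unitInf`, `unitZero`, `unitMid` : `m₀ = β₂ b₀ / q`, `m₁ = (α₂ b₀)⁻¹`,
                                 `m₂ = π ^ (q - 2) · α₂ b₀ / β₂ b₀` (`b₀` the weight-one unit of
                                 helper16); all regular off the cusps and fixed by `G_ℚ`;
* **`unitw`**                   : the field `hunitw`.
-/
import Mathlib
import Fermat.Agent.T3.helper5_Gauss3BMid
import Fermat.Agent.T3.helper16_UnitReal
import Fermat.Agent.T3.helper58_MidSeries

set_option autoImplicit false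
set_option synthInstance.maxHeartbeats 400000
set_option linter.unusedSectionVars false
set_option linter.unusedVariables false
set_option linter.style.haveILetI false

noncomputable section

open HahnSeries IntermediateField AlgebraicCurve ModularCurve
open Fermat.Agent.S18.helper19 Fermat.Agent.P2.helper29 Fermat.Agent.P2.helper93
open Fermat.Agent.T3.helper36 (RhoQ GaussIs)
open Fermat.Agent.T3.helper74 (ex3 IsFixI dg0 dg2)
open Fermat.Agent.T3.helper49 (Rho3 TorBase)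
open Fermat.Agent.T3.helper72 (Red3)
open Fermat.Agent.T3.helper98 (regJRing)
open Fermat.Agent.T3.helper16 (IsUnit0 exists_isUnit0)
open Fermat.Agent.T3.helper58 (piE P1 ThetaM)

namespace Fermat.Agent.T3.helper5

variable {A : ValuationSubring Kb} {ζ : Kb}

/-- the uniformisers of the three value groups -/
def unif3 (q : ℕ) (ζ : Kb) : Fin 3 → Kb := ![(q : Kb), (q : Kb), 1 - ζ]

/-- a Gauss-integral series whose Gauss value is an integral power of a non-unit `π` has Gauss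
value a natural power of `π` -/
theorem gaussIs_nat_of_rhoQ {g : LaurentSeries Kb} {π : Kb} (hπ0 : π ≠ 0)
    (hπ : A.valuation π < 1) {x : LaurentSeries (kA A)} (h : RhoQ A g x) {m : ℤ}
    (hG : GaussIs A g (π ^ m)) : ∃ e : ℕ, GaussIs A g (π ^ e) := by
  obtain ⟨e, rfl | rfl⟩ := m.eq_nat_or_neg
  · exact ⟨e, by rwa [zpow_natCast] at hG⟩
  · rcases Nat.eq_zero_or_pos e with rfl | he
    · refine ⟨0, ?_⟩
      rwa [Nat.cast_zero, neg_zero, zpow_zero, ← pow_zero π] at hG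
    · exfalso
      obtain ⟨hc, r, hr, hR⟩ := hG
      have e1 : (π ^ (-(e : ℤ)))⁻¹ = π ^ e := by rw [zpow_neg, inv_inv, zpow_natCast]
      rw [e1] at hR
      have hv : A.valuation (π ^ e) < 1 := by
        rw [map_pow]
        exact pow_lt_one₀ zero_le hπ he.ne'
      have hπA : π ^ e ∈ A := (A.valuation_le_one_iff _).1 hv.le
      have hres : IsLocalRing.residue A (⟨π ^ e, hπA⟩ : A) = 0 := by
        rw [IsLocalRing.residue_eq_zero_iff]
        exact (A.valuation_lt_one_iff (⟨π ^ e, hπA⟩ : A)).2 hv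
      have h1 := (helper36.rhoQ_algebraMap (⟨π ^ e, hπA⟩ : A)).mul h
      rw [hres, map_zero, zero_mul] at h1
      exact hr (hR.unique h1)

section Level

variable {N q : ℕ} [NeZero N] [NeZero q] {hq : q.Prime} {hqN : ¬ q ∣ N}

theorem valuation_q_lt_one (hq : q.Prime) (hA : A.LiesOverPrime q) (hζ : IsPrimitiveRoot ζ q) :
    A.valuation (q : Kb) < 1 := by
  rw [← helper84.k0_zeta_val hq A hζ]
  exact pow_lt_one₀ zero_le (helper84.k0_zeta_val_lt hq A hA hζ)
    (Nat.sub_ne_zero_of_lt hq.one_lt)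

theorem unif3_ne_zero (hq : q.Prime) (hζ : IsPrimitiveRoot ζ q) (c : Fin 3) :
    unif3 q ζ c ≠ 0 := by
  have h1 : (q : Kb) ≠ 0 := Nat.cast_ne_zero.mpr hq.ne_zero
  have h2 : (1 - ζ : Kb) ≠ 0 := sub_ne_zero.mpr (fun h => hζ.ne_one hq.one_lt h.symm)
  fin_cases c
  · exact h1
  · exact h1
  · exact h2

/-- **the Gauss value of an integral `I`-fixed function is a natural power of the uniformiser.** -/
theorem exists_gaussIs_nat (hA : A.LiesOverPrime q) (hζ : IsPrimitiveRoot ζ q)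
    {G : FF (N * q * q)} (hG0 : G ≠ 0) (hfix : IsFixI A (N * q * q) G) (c : Fin 3)
    {x : LaurentSeries (kA A)} (hx : RhoQ A (ex3 N q hq hqN hζ c G) x) :
    ∃ e : ℕ, GaussIs A (ex3 N q hq hqN hζ c G) (unif3 q ζ c ^ e) := by
  have hq0 : (q : Kb) ≠ 0 := Nat.cast_ne_zero.mpr hq.ne_zero
  have hq1 : A.valuation (q : Kb) < 1 := valuation_q_lt_one hq hA hζ
  have hz0 : (1 - ζ : Kb) ≠ 0 := sub_ne_zero.mpr (fun h => hζ.ne_one hq.one_lt h.symm)
  have hz1 : A.valuation (1 - ζ) < 1 := helper84.k0_zeta_val_lt hq A hA hζ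
  fin_cases c
  · obtain ⟨m, hm⟩ := gaussIs_ex3_zero (hq := hq) (hqN := hqN) hA hζ hG0 hfix
    exact gaussIs_nat_of_rhoQ hq0 hq1 hx hm
  · obtain ⟨m, hm⟩ := gaussIs_ex3_one (hq := hq) (hqN := hqN) hA hζ hG0 hfix
    exact gaussIs_nat_of_rhoQ hq0 hq1 hx hm
  · obtain ⟨m, hm⟩ := gaussIs_ex3_two (hq := hq) (hqN := hqN) hA hζ hG0 hfix
    exact gaussIs_nat_of_rhoQ hz0 hz1 hx hm

/-- **[UNITW], abstract form**: if `m` is `I`-fixed with Gauss value `(unif3 c)⁻¹` at the cusp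
`c` and Gauss value `1` at the two other cusps, then every nonzero `Rho3`-integral `G` has a
multiple `G m ^ k` which is `Rho3`-integral with nonzero reduction at `c`. -/
theorem unitw_of_unit (hA : A.LiesOverPrime q) (hζ : IsPrimitiveRoot ζ q) (c : Fin 3)
    {m : FF (N * q * q)} (hmfix : IsFixI A (N * q * q) m)
    (hmc : GaussIs A (ex3 N q hq hqN hζ c m) (unif3 q ζ c)⁻¹)
    (hmo : ∀ c', c' ≠ c → GaussIs A (ex3 N q hq hqN hζ c' m) 1)
    (G : FF (N * q * q)) (X : Fin 3 → LaurentSeries (kA A)) (hG0 : G ≠ 0)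
    (ρ : Rho3 N q hq hqN A hζ G X) :
    ∃ (k : ℕ) (X' : Fin 3 → LaurentSeries (kA A)),
      Rho3 N q hq hqN A hζ (G * m ^ k) X' ∧ X' c ≠ 0 := by
  classical
  have hρ : ∀ i, RhoQ A (ex3 N q hq hqN hζ i G) (X i) := fun i => ρ.2 i
  obtain ⟨e, he⟩ := exists_gaussIs_nat hA hζ hG0 ρ.1 c (hρ c)
  have hπ0 := unif3_ne_zero (q := q) hq hζ c
  have hc1 : GaussIs A (ex3 N q hq hqN hζ c (G * m ^ e)) 1 := by
    have h1 := he.mul (hmc.pow e)
    rw [inv_pow, mul_inv_cancel₀ (pow_ne_zero _ hπ0)] at h1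
    rwa [map_mul, map_pow]
  obtain ⟨r, hr, hR⟩ := hc1.rhoQ_one
  have hother : ∀ c', ∃ x : LaurentSeries (kA A),
      RhoQ A (ex3 N q hq hqN hζ c' (G * m ^ e)) x ∧ (c' = c → x ≠ 0) := by
    intro c'
    by_cases hc' : c' = c
    · subst hc'
      exact ⟨r, hR, fun _ => hr⟩
    · obtain ⟨r', -, hR'⟩ := (hmo c' hc').rhoQ_one
      refine ⟨X c' * r' ^ e, ?_, fun h => absurd h hc'⟩
      rw [map_mul, map_pow]
      exact (hρ c').mul (hR'.pow e)
  choose Y hY using hother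
  exact ⟨e, Y, ⟨helper98.isFixI_mul A ρ.1 (helper98.isFixI_pow A hmfix e),
    fun i => (hY i).1⟩, (hY c).2 rfl⟩

/-! ### The Gauss values of `π = j(q² τ) - j(τ)` -/

theorem gaussIs_neg {g : LaurentSeries Kb} {c : Kb} (h : GaussIs A g c) : GaussIs A (-g) c := by
  obtain ⟨hc, r, hr, hR⟩ := h
  refine ⟨hc, -r, neg_ne_zero.mpr hr, ?_⟩
  rw [mul_neg]
  exact hR.neg

theorem ex3_zero_piE (hζ : IsPrimitiveRoot ζ q) :
    ex3 N q hq hqN hζ 0 (piE N q) = incl A (P1 q A) := by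
  rw [helper98.ex3_zero, helper58.coe_piE, helper58.incl_P1]

theorem ex3_one_piE (hζ : IsPrimitiveRoot ζ q) :
    ex3 N q hq hqN hζ 1 (piE N q) = -incl A (P1 q A) := by
  rw [helper58.piE_eq_dg, map_sub, helper98.ex3_one_dg2, helper98.ex3_one_dg0,
    helper58.incl_P1, neg_sub]
  rfl

theorem ex3_two_piE (hq' : q.Prime) (hζ : IsPrimitiveRoot ζ q) :
    ex3 N q hq hqN hζ 2 (piE N q)
      = algebraMap Kb (LaurentSeries Kb) (ζ - 1) * incl A (ThetaM hq' A hζ) := by
  rw [helper58.piE_eq_dg, map_sub, helper98.ex3_two_dg2, helper98.ex3_two_dg0, pow_one]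
  exact (helper58.incl_ThetaM hq' A hζ).symm

theorem gaussIs_piE_zero (hζ : IsPrimitiveRoot ζ q) :
    GaussIs A (ex3 N q hq hqN hζ 0 (piE N q)) 1 := by
  rw [ex3_zero_piE (A := A)]
  exact helper36.gaussIs_of_rhoQ (helper36.rhoQ_incl _) (helper58.red_P1_ne_zero A hq)

theorem gaussIs_piE_one (hζ : IsPrimitiveRoot ζ q) :
    GaussIs A (ex3 N q hq hqN hζ 1 (piE N q)) 1 := by
  rw [ex3_one_piE (A := A)]
  exact gaussIs_neg
    (helper36.gaussIs_of_rhoQ (helper36.rhoQ_incl _) (helper58.red_P1_ne_zero A hq))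

theorem gaussIs_piE_two (hA : A.LiesOverPrime q) (hζ : IsPrimitiveRoot ζ q) :
    GaussIs A (ex3 N q hq hqN hζ 2 (piE N q)) (1 - ζ) := by
  have hz0 : (1 - ζ : Kb) ≠ 0 := sub_ne_zero.mpr (fun h => hζ.ne_one hq.one_lt h.symm)
  have hz0' : (ζ - 1 : Kb) ≠ 0 := sub_ne_zero.mpr (fun h => hζ.ne_one hq.one_lt h)
  have h1 : GaussIs A (ex3 N q hq hqN hζ 2 (piE N q)) (ζ - 1) := by
    refine gaussIs_of_scaling (Z₁ := ThetaM hq A hζ) (Z₂ := 1) hz0' ?_ ?_ ?_
    · rw [helper58.red_ThetaM hq A hA hζ]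
      exact helper58.thetaL_jqModC_ne_zero A
    · rw [map_one]
      exact one_ne_zero
    · rw [map_one, mul_one, ex3_two_piE (A := A) hq hζ]
  refine h1.congr_val hz0 ?_
  rw [← neg_sub, Valuation.map_neg]

theorem isFixI_piE : IsFixI A (N * q * q) (piE N q) :=
  fun σ _ => helper58.galF_piE σ

theorem jN_eq_xJ (M : ℕ) [NeZero M] : Fermat.Agent.T2.helper87.jN M = Fermat.Agent.S24.xJ M :=
  Subtype.ext (Fermat.Agent.P2.helper81.coe_xJ_eq M).symm

theorem isIntegral_xJ (M : ℕ) [NeZero M] :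
    IsIntegral (Algebra.adjoin Kb {Fermat.Agent.S24.xJ M}) (Fermat.Agent.S24.xJ M) := by
  have h : Fermat.Agent.S24.xJ M ∈ Algebra.adjoin Kb {Fermat.Agent.S24.xJ M} :=
    Algebra.subset_adjoin (Set.mem_singleton _)
  have h2 := isIntegral_algebraMap (R := Algebra.adjoin Kb {Fermat.Agent.S24.xJ M})
    (A := FF M) (x := ⟨_, h⟩)
  exact h2

theorem mem_regJ_piE : piE N q ∈ regJRing (N * q * q) := by
  apply helper16.isRegJ_of_isIntegral
  unfold piE
  rw [jN_eq_xJ]
  exact IsIntegral.sub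
    (helper16.isIntegral_beta (N * q) q (helper16.isIntegral_beta N q (isIntegral_xJ N)))
    (helper16.isIntegral_alpha (N * q) q (helper16.isIntegral_alpha N q (isIntegral_xJ N)))

end Level

/-! ### The three units -/

section Units

variable (N q : ℕ) [NeZero N] [NeZero q]

/-- `m₀ = β₂ b₀ / q` : Gauss values `(q⁻¹, 1, 1)` -/
def unitInf (b0 : FF (N * q)) : FF (N * q * q) :=
  algebraMap Kb (FF (N * q * q)) ((q : Kb))⁻¹ * heckeBetaBar Kb (N * q) q b0

/-- `m₁ = (α₂ b₀)⁻¹` : Gauss values `(1, q⁻¹, 1)` -/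
def unitZero (b0 : FF (N * q)) : FF (N * q * q) :=
  (heckeAlphaBar Kb (N * q) q b0)⁻¹

/-- `m₂ = π ^ (q - 2) · α₂ b₀ / β₂ b₀` : Gauss values `(1, 1, (1 - ζ)⁻¹)` -/
def unitMid (b0 : FF (N * q)) : FF (N * q * q) :=
  piE N q ^ (q - 2) * heckeAlphaBar Kb (N * q) q b0 * (heckeBetaBar Kb (N * q) q b0)⁻¹

variable {N q} {hq : q.Prime} {hqN : ¬ q ∣ N}

theorem ex3_const (hζ : IsPrimitiveRoot ζ q) (i : Fin 3) (c : Kb) :
    ex3 N q hq hqN hζ i (algebraMap Kb (FF (N * q * q)) c)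
      = algebraMap Kb (LaurentSeries Kb) c := by
  fin_cases i
  · exact helper98.ex3_zero hζ _
  · show ex3 N q hq hqN hζ 1 _ = _
    rw [helper98.ex3_one, AlgEquiv.commutes]
    rfl
  · show ex3 N q hq hqN hζ 2 _ = _
    rw [helper98.ex3_two, AlgHom.commutes]

variable {b0 : FF (N * q)} {B : PowerSeries ℤ} {ε : ℤ} (h : IsUnit0 hq hqN b0 B ε)
include h

theorem q_inv_ne_zero : ((q : Kb))⁻¹ ≠ 0 := inv_ne_zero h.q_ne_zero

/-! #### `m₀` -/

theorem isFixI_unitInf : IsFixI A (N * q * q) (unitInf N q b0) :=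
  helper98.isFixI_mul A
    (fun σ _ => by rw [arithmeticRingAut_algebraMap, map_inv₀, map_natCast])
    (h.isFixI_beta A)

theorem mem_regJ_unitInf : unitInf N q b0 ∈ regJRing (N * q * q) :=
  Subring.mul_mem _ ((helper98.regJ (N * q * q)).algebraMap_mem _) h.mem_regJ_beta

theorem gaussIs_unitInf_zero (hζ : IsPrimitiveRoot ζ q) :
    GaussIs A (ex3 N q hq hqN hζ 0 (unitInf N q b0)) (unif3 q ζ 0)⁻¹ := by
  have h1 := (h.gaussIs_beta0 A hζ).const_mul (q_inv_ne_zero h)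
  rw [mul_one] at h1
  unfold unitInf
  rw [map_mul, ex3_const]
  exact h1

theorem gaussIs_unitInf_one (hζ : IsPrimitiveRoot ζ q) :
    GaussIs A (ex3 N q hq hqN hζ 1 (unitInf N q b0)) 1 := by
  have h1 := (h.gaussIs_beta1 A hζ).const_mul (q_inv_ne_zero h)
  rw [inv_mul_cancel₀ h.q_ne_zero] at h1
  unfold unitInf
  rw [map_mul, ex3_const]
  exact h1

theorem gaussIs_unitInf_two (hA : A.LiesOverPrime q) (hζ : IsPrimitiveRoot ζ q) :
    GaussIs A (ex3 N q hq hqN hζ 2 (unitInf N q b0)) 1 := by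
  have h1 := (h.gaussIs_beta2 A hζ hA).const_mul (q_inv_ne_zero h)
  rw [inv_mul_cancel₀ h.q_ne_zero] at h1
  unfold unitInf
  rw [map_mul, ex3_const]
  exact h1

/-! #### `m₁` -/

theorem isFixI_unitZero : IsFixI A (N * q * q) (unitZero N q b0) :=
  helper98.isFixI_inv A (h.isFixI_alpha A)

theorem mem_regJ_unitZero : unitZero N q b0 ∈ regJRing (N * q * q) := h.mem_regJ_alpha_inv

theorem gaussIs_unitZero_zero (hζ : IsPrimitiveRoot ζ q) :
    GaussIs A (ex3 N q hq hqN hζ 0 (unitZero N q b0)) 1 := by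
  have h1 := (h.gaussIs_alpha0 A hζ).inv
  rw [inv_one] at h1
  unfold unitZero
  rw [map_inv₀]
  exact h1

theorem gaussIs_unitZero_one (hζ : IsPrimitiveRoot ζ q) :
    GaussIs A (ex3 N q hq hqN hζ 1 (unitZero N q b0)) (unif3 q ζ 1)⁻¹ := by
  have h1 := (h.gaussIs_alpha1 A hζ).inv
  unfold unitZero
  rw [map_inv₀]
  exact h1

theorem gaussIs_unitZero_two (hζ : IsPrimitiveRoot ζ q) :
    GaussIs A (ex3 N q hq hqN hζ 2 (unitZero N q b0)) 1 := by
  have h1 := (h.gaussIs_alpha2 A hζ).inv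
  rw [inv_one] at h1
  unfold unitZero
  rw [map_inv₀]
  exact h1

/-! #### `m₂` -/

theorem isFixI_unitMid : IsFixI A (N * q * q) (unitMid N q b0) :=
  helper98.isFixI_mul A
    (helper98.isFixI_mul A (helper98.isFixI_pow A isFixI_piE _) (h.isFixI_alpha A))
    (helper98.isFixI_inv A (h.isFixI_beta A))

theorem mem_regJ_unitMid : unitMid N q b0 ∈ regJRing (N * q * q) :=
  Subring.mul_mem _ (Subring.mul_mem _ (Subring.pow_mem _ mem_regJ_piE _) h.mem_regJ_alpha)
    h.mem_regJ_beta_inv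

theorem ex3_unitMid (hζ : IsPrimitiveRoot ζ q) (i : Fin 3) :
    ex3 N q hq hqN hζ i (unitMid N q b0)
      = ex3 N q hq hqN hζ i (piE N q) ^ (q - 2)
        * ex3 N q hq hqN hζ i (heckeAlphaBar Kb (N * q) q b0)
        * (ex3 N q hq hqN hζ i (heckeBetaBar Kb (N * q) q b0))⁻¹ := by
  unfold unitMid
  rw [map_mul, map_mul, map_pow, map_inv₀]

theorem gaussIs_unitMid_zero (hζ : IsPrimitiveRoot ζ q) :
    GaussIs A (ex3 N q hq hqN hζ 0 (unitMid N q b0)) 1 := by
  have h1 := (((gaussIs_piE_zero (A := A) (N := N) (hq := hq) (hqN := hqN) hζ).pow (q - 2)).mul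
    (h.gaussIs_alpha0 A hζ)).mul (h.gaussIs_beta0 A hζ).inv
  rw [one_pow, one_mul, inv_one, mul_one] at h1
  rw [ex3_unitMid h]
  exact h1

theorem gaussIs_unitMid_one (hζ : IsPrimitiveRoot ζ q) :
    GaussIs A (ex3 N q hq hqN hζ 1 (unitMid N q b0)) 1 := by
  have h1 := (((gaussIs_piE_one (A := A) (N := N) (hq := hq) (hqN := hqN) hζ).pow (q - 2)).mul
    (h.gaussIs_alpha1 A hζ)).mul (h.gaussIs_beta1 A hζ).inv
  rw [one_pow, one_mul, mul_inv_cancel₀ h.q_ne_zero] at h1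
  rw [ex3_unitMid h]
  exact h1

theorem gaussIs_unitMid_two (hA : A.LiesOverPrime q) (hζ : IsPrimitiveRoot ζ q) :
    GaussIs A (ex3 N q hq hqN hζ 2 (unitMid N q b0)) (unif3 q ζ 2)⁻¹ := by
  have hz0 : (1 - ζ : Kb) ≠ 0 := sub_ne_zero.mpr (fun h => hζ.ne_one hq.one_lt h.symm)
  have hπ0 : A.valuation (1 - ζ) ≠ 0 := helper84.k0_zeta_val_ne_zero hq A hζ
  have h1 := (((gaussIs_piE_two (A := A) (N := N) (hq := hq) (hqN := hqN) hA hζ).pow
    (q - 2)).mul (h.gaussIs_alpha2 A hζ)).mul (h.gaussIs_beta2 A hζ hA).inv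
  rw [ex3_unitMid h]
  refine h1.congr_val (inv_ne_zero hz0) ?_
  show A.valuation ((1 - ζ) ^ (q - 2) * 1 * ((q : Kb))⁻¹) = A.valuation ((1 - ζ)⁻¹)
  have e1 : q - 1 = (q - 2) + 1 := by
    have := hq.two_le
    omega
  rw [map_mul, map_mul, map_one, mul_one, map_inv₀, map_inv₀, map_pow,
    ← helper84.k0_zeta_val hq A hζ, e1, pow_succ, mul_inv,
    ← mul_assoc, mul_inv_cancel₀ (pow_ne_zero _ hπ0), one_mul]

end Units

/-! ### The box -/

section Box

variable {N q : ℕ} [NeZero N] [NeZero q] {hq : q.Prime} {hqN : ¬ q ∣ N}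

/-- **[UNITW]**, the field `hunitw` of `helper22.Ideal3Box (B.calc hA)`, VERBATIM, for every base
`B` with `B.Reg = regJRing (N q q)` (regular off all cusps). -/
theorem unitw (hA : A.LiesOverPrime q) (hζ : IsPrimitiveRoot ζ q) (hN : 4 ∣ N ∨ 9 ∣ N)
    {n : ℕ} (B : TorBase N q hq hqN A hζ n) (hReg : B.Reg = regJRing (N * q * q)) :
    ∀ c : Fin 3, ∃ m ∈ (B.calc hA).Reg,
      ∀ (G : FF (N * q * q)) (X : Fin 3 → LaurentSeries (kA A)), G ≠ 0 →
        (B.calc hA).Rho G X →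
        ∃ (k : ℕ) (X' : Fin 3 → LaurentSeries (kA A)),
          (B.calc hA).Rho (G * m ^ k) X' ∧ X' c ≠ 0 := by
  obtain ⟨b0, Bs, ε, h⟩ := exists_isUnit0 hq hqN hN
  have hmem : ∀ m : FF (N * q * q), m ∈ regJRing (N * q * q) → m ∈ (B.calc hA).Reg := by
    intro m hm
    show m ∈ B.Reg
    rw [hReg]
    exact hm
  have hfin : ∀ c' : Fin 3, c' = 0 ∨ c' = 1 ∨ c' = 2 := by
    intro c'
    fin_cases c'
    · exact Or.inl rfl
    · exact Or.inr (Or.inl rfl)
    · exact Or.inr (Or.inr rfl)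
  intro c
  rcases hfin c with rfl | rfl | rfl
  · refine ⟨unitInf N q b0, hmem _ (mem_regJ_unitInf h), fun G X hG ρ => ?_⟩
    refine unitw_of_unit hA hζ 0 (isFixI_unitInf h) (gaussIs_unitInf_zero h hζ) ?_ G X hG ρ
    intro c' hc'
    rcases hfin c' with rfl | rfl | rfl
    · exact absurd rfl hc'
    · exact gaussIs_unitInf_one h hζ
    · exact gaussIs_unitInf_two h hA hζ
  · refine ⟨unitZero N q b0, hmem _ (mem_regJ_unitZero h), fun G X hG ρ => ?_⟩
    refine unitw_of_unit hA hζ 1 (isFixI_unitZero h) (gaussIs_unitZero_one h hζ) ?_ G X hG ρ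
    intro c' hc'
    rcases hfin c' with rfl | rfl | rfl
    · exact gaussIs_unitZero_zero h hζ
    · exact absurd rfl hc'
    · exact gaussIs_unitZero_two h hζ
  · refine ⟨unitMid N q b0, hmem _ (mem_regJ_unitMid h), fun G X hG ρ => ?_⟩
    refine unitw_of_unit hA hζ 2 (isFixI_unitMid h) (gaussIs_unitMid_two h hA hζ) ?_ G X hG ρ
    intro c' hc'
    rcases hfin c' with rfl | rfl | rfl
    · exact gaussIs_unitMid_zero h hζ
    · exact gaussIs_unitMid_one h hζ
    · exact absurd rfl hc'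

end Box

end Fermat.Agent.T3.helper5

end
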