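import Mathlib
import Fermat.Agent.P3.helper85_Cont
import Fermat.Agent.P2.helper74_RieInst
import Fermat.Agent.P2.helper29_Infty
import Fermat.Agent.T3.helper5_UnitW
import Fermat.Agent.T3.helper98_NormRegJ
import Fermat.Agent.T3.helper49_TorBox

/-!
# T3 [IDEAL3], box `hhor` **[HOR]** of `helper22.Ideal3Rest` (helper22)

For an `I`-fixed `u` with `n ∣ div u` and a place `P` where `j` is finite there are `I`-fixed,
`Rho3`-integral `G`, `G'` with `G ^ n / u` and `G' ^ n u` regular off the cusps and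
`n ord_P G = ord_P u`, `n ord_P G' = - ord_P u`:

* `hor_exists_exact`  : Riemann - a function with prescribed orders off one place and an EXACT
                        order at one more place;
* `hor_trace`         : the twisted trace `∑ e(c) σ_e(G₀)` over the restrictions `e = σ|K`,
                        `σ ∈ I`, to a number field `K` of definition of `G₀`: fixed by `I`;
* `hor_exists_coeff`  : linear independence of the embeddings: the leading coefficient of the
                        twisted trace is not zero for a suitable `c ∈ K`;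
* `hor_exists_scale`  : every `I`-fixed function has a `Rho3`-integral multiple by a power of `q`;
* `hhor_rest`         : the field `hhor`.
-/

set_option autoImplicit false
set_option linter.unusedSectionVars false
set_option linter.unusedVariables false
set_option linter.style.haveILetI false

noncomputable section

open HahnSeries IntermediateField AlgebraicCurve ModularCurve
open Fermat.Agent.S18.helper19 Fermat.Agent.P2.helper29 Fermat.Agent.P2.helper93
open Fermat.Agent.P2.helper74 (RiemannSetting ell mem_L_iff' L_mono)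

namespace Fermat.Agent.T3.helper22

/-! ### Riemann: an exact order at one place -/

section Riemann

variable {K F : Type*} [Field K] [Field F] [Algebra K F]

/-- **Riemann**: a function with orders at least `D₀` off `Pinf` and order exactly `D₀ e`
at `e`. -/
theorem hor_exists_exact (hS : RiemannSetting K F) {g : ℕ} {c : ℤ}
    (hc : ∀ D : Divisor K F, c ≤ Divisor.degree D → (ell D : ℤ) + g = Divisor.degree D + 1)
    {Pinf e : Place K F} (he : e ≠ Pinf) (D₀ : Divisor K F) :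
    ∃ s : F, s ≠ 0 ∧ e.ord s = D₀ e ∧ ∀ v, v ≠ Pinf → D₀ v ≤ v.ord s := by
  classical
  set N : ℤ := c + 1 + Divisor.degree D₀ with hN
  set E : Divisor K F := Finsupp.single Pinf N - D₀ with hE
  set E' : Divisor K F := E - Finsupp.single e 1 with hE'
  have hdegE : Divisor.degree E = c + 1 := by
    rw [hE, map_sub, Divisor.degree_single, hS.deg_one Pinf, hN]
    push_cast
    ring
  have hdegE' : Divisor.degree E' = c := by
    rw [hE', map_sub, hdegE, Divisor.degree_single, hS.deg_one e]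
    push_cast
    ring
  have h1 := hc E (by rw [hdegE]; linarith)
  have h2 := hc E' (by rw [hdegE'])
  rw [hdegE] at h1
  rw [hdegE'] at h2
  have hlt : ell E' < ell E := by
    have : (ell E' : ℤ) < ell E := by linarith
    exact_mod_cast this
  have hle : riemannRochSpace E' ≤ riemannRochSpace E := L_mono (fun v => by
    rw [hE', Finsupp.sub_apply]
    have : (0 : ℤ) ≤ (Finsupp.single e (1 : ℤ)) v := by
      rw [Finsupp.single_apply]
      split_ifs <;> norm_num
    linarith)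
  have hne : ¬ riemannRochSpace E ≤ riemannRochSpace E' := by
    intro h
    have heq : riemannRochSpace E' = riemannRochSpace E := le_antisymm hle h
    unfold ell at hlt
    rw [heq] at hlt
    exact lt_irrefl _ hlt
  obtain ⟨s, hsE, hsE'⟩ := SetLike.not_le_iff_exists.mp hne
  have hs0 : s ≠ 0 := by
    rintro rfl
    exact hsE' (zero_mem _)
  have hsE2 := (mem_L_iff' hs0).mp hsE
  have hEv : ∀ v, v ≠ Pinf → E v = - D₀ v := by
    intro v hv
    rw [hE, Finsupp.sub_apply, Finsupp.single_apply, if_neg (Ne.symm hv), zero_sub]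
  refine ⟨s, hs0, ?_, fun v hv => ?_⟩
  · have h3 : D₀ e ≤ e.ord s := by
      have := hsE2 e
      rw [hEv e he] at this
      simpa using this
    have h4 : ¬ (∀ v : Place K F, -E' v ≤ v.ord s) := fun h => hsE' ((mem_L_iff' hs0).mpr h)
    by_contra hne0
    apply h4
    intro v
    by_cases hv : v = e
    · subst hv
      rw [hE', Finsupp.sub_apply, Finsupp.single_eq_same, hEv v he]
      have : D₀ v < v.ord s := lt_of_le_of_ne h3 (Ne.symm hne0)
      omega
    · rw [hE', Finsupp.sub_apply, Finsupp.single_apply, if_neg (Ne.symm hv), sub_zero]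
      exact hsE2 v
  · have := hsE2 v
    rw [hEv v hv] at this
    simpa using this

/-- the divisor `div(u) / n` -/
theorem hor_exists_div (hS : RiemannSetting K F) {n : ℕ} (hn : 0 < n)
    {u : F} (hu0 : u ≠ 0) (hdiv : ∀ P : Place K F, (n : ℤ) ∣ P.ord u) :
    ∃ D : Divisor K F, ∀ v : Place K F, (n : ℤ) * D v = v.ord u := by
  classical
  obtain ⟨Dh, hDh, -⟩ := hS.principal.exists_divisor u hu0
  refine ⟨Dh.mapRange (fun x => x / (n : ℤ)) (by simp), fun v => ?_⟩
  rw [Finsupp.mapRange_apply, hDh]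
  exact Int.mul_ediv_cancel' (hdiv v)

end Riemann

/-! ### The arithmetic Galois action and the ideal condition -/

section Gal

open Fermat.Agent.T3.helper74 (IsFixI)
open Fermat.Agent.T3.helper98 (IsRegJ)

variable {M : ℕ} [NeZero M]

theorem hor_ord_galF (σ : Kb ≃ₐ[ℚ] Kb) (P : Place Kb (FF M)) (x : FF M) :
    P.ord (galF M σ x) =
      ((arithmeticGalois (modularFunctionFieldFull M) σ)⁻¹ • P).ord x := by
  have h := SemilinearAut.ord_smul (arithmeticGalois (modularFunctionFieldFull M) σ)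
    ((arithmeticGalois (modularFunctionFieldFull M) σ)⁻¹ • P) x
  rw [smul_inv_smul] at h
  exact h

theorem hor_val_galF (σ : Kb ≃ₐ[ℚ] Kb) (P : Place Kb (FF M)) (x : FF M) :
    P.adicValuation (galF M σ x) =
      ((arithmeticGalois (modularFunctionFieldFull M) σ)⁻¹ • P).adicValuation x := by
  rcases eq_or_ne x 0 with rfl | hx
  · rw [map_zero, map_zero, map_zero]
  · have hx' : galF M σ x ≠ 0 := (map_ne_zero_iff _ (galF M σ).injective).mpr hx
    rw [Place.adicValuation_eq_exp_neg_ord _ hx', Place.adicValuation_eq_exp_neg_ord _ hx,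
      hor_ord_galF]

theorem hor_galF_mul (σ τ : Kb ≃ₐ[ℚ] Kb) (x : FF M) :
    galF M (σ * τ) x = galF M σ (galF M τ x) :=
  Subtype.ext (Fermat.Agent.T3.helper5.coeffMap_gal_mul σ τ (x : LaurentSeries Kb))

theorem hor_galF_one (x : FF M) : galF M 1 x = x :=
  Subtype.ext (Fermat.Agent.T3.helper5.coeffMap_gal_one (x : LaurentSeries Kb))

theorem hor_val_const (P : Place Kb (FF M)) {c : Kb} (hc : c ≠ 0) :
    P.adicValuation (algebraMap Kb (FF M) c) = 1 := by
  have h0 : algebraMap Kb (FF M) c ≠ 0 :=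
    (map_ne_zero_iff _ (algebraMap Kb (FF M)).injective).mpr hc
  rw [Place.adicValuation_eq_exp_neg_ord _ h0, Fermat.Agent.S24.helper82.ord_algebraMap]
  simp

/-- `G ^ n / u` is regular where `j` is finite (valuation form, `G = 0` allowed) -/
def HorIn (M : ℕ) [NeZero M] (n : ℕ) (u G : FF M) : Prop :=
  ∀ v : Place Kb (FF M), 0 ≤ v.ord (jElt M) → v.adicValuation G ^ n ≤ v.adicValuation u

theorem HorIn.zero {n : ℕ} (hn : 0 < n) (u : FF M) : HorIn M n u 0 := by
  intro v _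
  rw [map_zero, zero_pow hn.ne']
  exact zero_le

theorem HorIn.add {n : ℕ} {u G G' : FF M} (h : HorIn M n u G) (h' : HorIn M n u G') :
    HorIn M n u (G + G') := by
  intro v hv
  rcases le_total (v.adicValuation G) (v.adicValuation G') with hle | hle
  · exact (pow_le_pow_left' ((Valuation.map_add _ _ _).trans (max_le hle le_rfl)) n).trans
      (h' v hv)
  · exact (pow_le_pow_left' ((Valuation.map_add _ _ _).trans (max_le le_rfl hle)) n).trans
      (h v hv)

theorem HorIn.const_mul {n : ℕ} {u G : FF M} (h : HorIn M n u G) (c : Kb) :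
    HorIn M n u (algebraMap Kb (FF M) c * G) := by
  intro v hv
  rw [map_mul, mul_pow]
  calc v.adicValuation (algebraMap Kb (FF M) c) ^ n * v.adicValuation G ^ n
      ≤ 1 * v.adicValuation G ^ n :=
        mul_le_mul' (pow_le_one' (v.adicValuation_algebraMap_le_one c) n) le_rfl
    _ = v.adicValuation G ^ n := one_mul _
    _ ≤ v.adicValuation u := h v hv

theorem HorIn.sum {n : ℕ} (hn : 0 < n) {u : FF M} {ι : Type*} (s : Finset ι) (G : ι → FF M)
    (h : ∀ i ∈ s, HorIn M n u (G i)) : HorIn M n u (∑ i ∈ s, G i) := by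
  classical
  induction s using Finset.induction_on with
  | empty => rw [Finset.sum_empty]; exact HorIn.zero hn u
  | insert a s ha ih =>
    rw [Finset.sum_insert ha]
    exact (h a (Finset.mem_insert_self a s)).add
      (ih fun i hi => h i (Finset.mem_insert_of_mem hi))

theorem HorIn.gal {A : ValuationSubring Kb} {n : ℕ} {u G : FF M} (hu : IsFixI A M u)
    (h : HorIn M n u G) {σ : Kb ≃ₐ[ℚ] Kb} (hσ : σ ∈ A.inertiaSubgroupIn ℚ) :
    HorIn M n u (galF M σ G) := by
  intro v hv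
  have hj : 0 ≤ ((arithmeticGalois (modularFunctionFieldFull M) σ)⁻¹ • v).ord (jElt M) := by
    rw [← hor_ord_galF]
    have e : galF M σ (jElt M) = jElt M := Fermat.Agent.T3.helper49.galF_jElt σ
    rw [e]
    exact hv
  have h1 := h _ hj
  rw [← hor_val_galF, ← hor_val_galF] at h1
  have e : galF M σ u = u := hu σ hσ
  rwa [e] at h1

theorem HorIn.isRegJ {n : ℕ} {u G : FF M} (hu0 : u ≠ 0) (h : HorIn M n u G) :
    IsRegJ M (G ^ n * u⁻¹) := by
  intro v hv
  have h1 : v.adicValuation (G ^ n * u⁻¹) ≤ 1 := by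
    rw [map_mul, map_pow, map_inv₀]
    have hu' := v.adicValuation_ne_zero hu0
    calc v.adicValuation G ^ n * (v.adicValuation u)⁻¹
        ≤ v.adicValuation u * (v.adicValuation u)⁻¹ := mul_le_mul' (h v hv) le_rfl
      _ = 1 := mul_inv_cancel₀ hu'
  rcases (v.adicValuation_le_one_iff).mp h1 with h0 | h0
  · rw [h0, Place.ord_zero]
  · exact h0

/-- the ideal condition in terms of orders -/
theorem horIn_of_ord {n : ℕ} {u G : FF M} (hu0 : u ≠ 0) (hG0 : G ≠ 0)
    (h : ∀ v : Place Kb (FF M), 0 ≤ v.ord (jElt M) → v.ord u ≤ n * v.ord G) :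
    HorIn M n u G := by
  intro v hv
  rw [← map_pow, Place.adicValuation_eq_exp_neg_ord _ (pow_ne_zero n hG0),
    Place.adicValuation_eq_exp_neg_ord _ hu0, WithZero.exp_le_exp]
  have e : v.ord (G ^ n) = n * v.ord G := by
    have := v.ord_zpow G (n : ℤ)
    rwa [zpow_natCast] at this
  rw [e]
  linarith [h v hv]

theorem hor_val_pow_eq {n : ℕ} {u G : FF M} (hu0 : u ≠ 0) (hG0 : G ≠ 0)
    (v : Place Kb (FF M)) (h : v.ord u = n * v.ord G) :
    v.adicValuation G ^ n = v.adicValuation u := by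
  rw [← map_pow, Place.adicValuation_eq_exp_neg_ord _ (pow_ne_zero n hG0),
    Place.adicValuation_eq_exp_neg_ord _ hu0]
  have e : v.ord (G ^ n) = n * v.ord G := by
    have := v.ord_zpow G (n : ℤ)
    rwa [zpow_natCast] at this
  rw [e, h]

end Gal

/-! ### The twisted trace -/

section Trace

open Fermat.Agent.T3.helper74 (IsFixI)

variable {M : ℕ} [NeZero M]

variable (H : Subgroup (Kb ≃ₐ[ℚ] Kb)) (K : IntermediateField ℚ Kb) (G₀ : FF M)

/-- the restriction of a Galois element to `K` -/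
def horRes (σ : Kb ≃ₐ[ℚ] Kb) : K →ₐ[ℚ] Kb := (σ : Kb →ₐ[ℚ] Kb).comp K.val

/-- the conjugate of `G₀` attached to a restriction -/
def horConj (e : K →ₐ[ℚ] Kb) : FF M :=
  open Classical in
  if h : ∃ σ : H, horRes K (σ : Kb ≃ₐ[ℚ] Kb) = e then galF M (h.choose : Kb ≃ₐ[ℚ] Kb) G₀ else 0

variable [FiniteDimensional ℚ K]

/-- the restrictions to `K` of the elements of `H` -/
def horSet : Finset (K →ₐ[ℚ] Kb) :=
  (Set.toFinite (Set.range fun σ : H => horRes K (σ : Kb ≃ₐ[ℚ] Kb))).toFinset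

/-- the twisted trace -/
def horTrace (c : K) : FF M :=
  ∑ e ∈ horSet H K, algebraMap Kb (FF M) (e c) * horConj H K G₀ e

variable {H K G₀}

theorem mem_horSet {e : K →ₐ[ℚ] Kb} :
    e ∈ horSet H K ↔ ∃ σ : H, horRes K (σ : Kb ≃ₐ[ℚ] Kb) = e := by
  unfold horSet
  rw [Set.Finite.mem_toFinset]
  rfl

omit [FiniteDimensional ℚ K] in
theorem hor_galF_eq_of_res
    (hfix : ∀ g : Kb ≃ₐ[ℚ] Kb, (∀ y ∈ K, g y = y) → galF M g G₀ = G₀)
    {σ τ : Kb ≃ₐ[ℚ] Kb} (h : horRes K σ = horRes K τ) : galF M σ G₀ = galF M τ G₀ := by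
  have hagree : ∀ y ∈ K, τ y = σ y := fun y hy =>
    (congrArg (fun e : K →ₐ[ℚ] Kb => e ⟨y, hy⟩) h).symm
  have h1 := hfix (τ⁻¹ * σ) (fun y hy => by
    show τ⁻¹ (σ y) = y
    rw [← hagree y hy]
    exact τ.symm_apply_apply y)
  have h2 := congrArg (galF M τ) h1
  rw [← hor_galF_mul, mul_inv_cancel_left] at h2
  exact h2

omit [FiniteDimensional ℚ K] in
theorem horConj_res (hfix : ∀ g : Kb ≃ₐ[ℚ] Kb, (∀ y ∈ K, g y = y) → galF M g G₀ = G₀)
    (σ : H) : horConj H K G₀ (horRes K (σ : Kb ≃ₐ[ℚ] Kb)) = galF M (σ : Kb ≃ₐ[ℚ] Kb) G₀ := by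
  classical
  have hex : ∃ τ : H, horRes K (τ : Kb ≃ₐ[ℚ] Kb) = horRes K (σ : Kb ≃ₐ[ℚ] Kb) := ⟨σ, rfl⟩
  unfold horConj
  rw [dif_pos hex]
  exact hor_galF_eq_of_res hfix hex.choose_spec

/-- the twisted trace is fixed by `H` -/
theorem hor_trace_fix (hfix : ∀ g : Kb ≃ₐ[ℚ] Kb, (∀ y ∈ K, g y = y) → galF M g G₀ = G₀)
    (c : K) {τ : Kb ≃ₐ[ℚ] Kb} (hτ : τ ∈ H) :
    galF M τ (horTrace H K G₀ c) = horTrace H K G₀ c := by
  classical
  unfold horTrace
  rw [map_sum]
  refine Finset.sum_nbij' (fun e => (τ : Kb →ₐ[ℚ] Kb).comp e)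
    (fun e => ((τ⁻¹ : Kb ≃ₐ[ℚ] Kb) : Kb →ₐ[ℚ] Kb).comp e) ?_ ?_ ?_ ?_ ?_
  · intro e he
    obtain ⟨σ, rfl⟩ := mem_horSet.mp he
    exact mem_horSet.mpr ⟨⟨τ * σ, H.mul_mem hτ σ.2⟩, rfl⟩
  · intro e he
    obtain ⟨σ, rfl⟩ := mem_horSet.mp he
    exact mem_horSet.mpr ⟨⟨τ⁻¹ * σ, H.mul_mem (H.inv_mem hτ) σ.2⟩, rfl⟩
  · intro e _
    apply AlgHom.ext
    intro y
    show τ⁻¹ (τ (e y)) = e y
    exact τ.symm_apply_apply _
  · intro e _
    apply AlgHom.ext
    intro y
    show τ (τ⁻¹ (e y)) = e y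
    exact τ.apply_symm_apply _
  · intro e he
    obtain ⟨σ, rfl⟩ := mem_horSet.mp he
    rw [map_mul, galF_algebraMap, horConj_res hfix σ, ← hor_galF_mul]
    have e1 : (τ : Kb →ₐ[ℚ] Kb).comp (horRes K (σ : Kb ≃ₐ[ℚ] Kb))
        = horRes K (((⟨τ * σ, H.mul_mem hτ σ.2⟩ : H) : Kb ≃ₐ[ℚ] Kb)) := rfl
    rw [e1, horConj_res hfix]
    rfl

/-- the leading coefficient of the twisted trace does not vanish for a suitable `c` -/
theorem hor_exists_coeff (hS : RiemannSetting Kb (FF M))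
    (hfix : ∀ g : Kb ≃ₐ[ℚ] Kb, (∀ y ∈ K, g y = y) → galF M g G₀ = G₀)
    (P : Place Kb (FF M)) (hG0 : G₀ ≠ 0)
    (hle : ∀ σ ∈ H, P.adicValuation (galF M σ G₀) ≤ P.adicValuation G₀) :
    ∃ c : K, P.adicValuation (horTrace H K G₀ c) = P.adicValuation G₀ := by
  classical
  have hw0 : P.adicValuation G₀ ≠ 0 := P.adicValuation_ne_zero hG0
  -- the normalised conjugates
  have hz : ∀ e : K →ₐ[ℚ] Kb, P.adicValuation (horConj H K G₀ e * G₀⁻¹) ≤ 1 := by
    intro e
    by_cases he : ∃ σ : H, horRes K (σ : Kb ≃ₐ[ℚ] Kb) = e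
    · obtain ⟨σ, rfl⟩ := he
      rw [horConj_res hfix σ, map_mul, map_inv₀]
      calc P.adicValuation (galF M (σ : Kb ≃ₐ[ℚ] Kb) G₀) * (P.adicValuation G₀)⁻¹
          ≤ P.adicValuation G₀ * (P.adicValuation G₀)⁻¹ := mul_le_mul' (hle σ σ.2) le_rfl
        _ = 1 := mul_inv_cancel₀ hw0
    · unfold horConj
      rw [dif_neg he, zero_mul, map_zero]
      exact zero_le
  have hres : ∀ e : K →ₐ[ℚ] Kb, ∃ a : Kb,
      P.adicValuation (horConj H K G₀ e * G₀⁻¹ - algebraMap Kb (FF M) a) < 1 := by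
    intro e
    have h0 : 0 ≤ P.ord (horConj H K G₀ e * G₀⁻¹) := by
      rcases (P.adicValuation_le_one_iff).mp (hz e) with h | h
      · rw [h, Place.ord_zero]
      · exact h
    obtain ⟨a, ha | ha⟩ := hS.residue P _ h0
    · refine ⟨a, ?_⟩
      rw [ha, sub_self, map_zero]
      exact zero_lt_one
    · refine ⟨a, ?_⟩
      have hne : horConj H K G₀ e * G₀⁻¹ - algebraMap Kb (FF M) a ≠ 0 := by
        intro h
        rw [h, Place.ord_zero] at ha
        exact lt_irrefl _ ha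
      rw [Place.adicValuation_eq_exp_neg_ord _ hne, ← WithZero.exp_zero, WithZero.exp_lt_exp]
      omega
  choose a ha using hres
  -- the coefficient at the identity is not zero
  have h1H : (1 : Kb ≃ₐ[ℚ] Kb) ∈ H := H.one_mem
  set e₀ : K →ₐ[ℚ] Kb := horRes K (((⟨1, h1H⟩ : H)) : Kb ≃ₐ[ℚ] Kb) with he₀
  have he₀mem : e₀ ∈ horSet H K := mem_horSet.mpr ⟨⟨1, h1H⟩, rfl⟩
  have ha₀ : a e₀ ≠ 0 := by
    intro h0
    have h2 := ha e₀
    rw [h0, map_zero, sub_zero, he₀, horConj_res hfix ⟨1, h1H⟩] at h2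
    have h3 : galF M (((⟨1, h1H⟩ : H)) : Kb ≃ₐ[ℚ] Kb) G₀ = G₀ := hor_galF_one G₀
    rw [h3, mul_inv_cancel₀ hG0, map_one] at h2
    exact lt_irrefl _ h2
  -- linear independence of the embeddings
  have hex : ∃ c : K, ∑ e ∈ horSet H K, a e * e c ≠ 0 := by
    by_contra hcon0
    have hcon : ∀ c : K, ∑ e ∈ horSet H K, a e * e c = 0 := fun c =>
      not_not.mp ((not_exists.mp hcon0) c)
    have hli := linearIndependent_toLinearMap ℚ K Kb
    have hsum : ∑ e ∈ horSet H K, a e • (e.toLinearMap : K →ₗ[ℚ] Kb) = 0 := by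
      apply LinearMap.ext
      intro c
      rw [LinearMap.sum_apply, LinearMap.zero_apply, ← hcon c]
      refine Finset.sum_congr rfl fun e _ => ?_
      rw [LinearMap.smul_apply, AlgHom.toLinearMap_apply, smul_eq_mul]
    exact ha₀ (linearIndependent_iff'.mp hli (horSet H K) a hsum e₀ he₀mem)
  obtain ⟨c, hc⟩ := hex
  refine ⟨c, ?_⟩
  -- the decomposition of the trace
  have hdec : horTrace H K G₀ c = G₀ * (algebraMap Kb (FF M) (∑ e ∈ horSet H K, a e * e c)
      + ∑ e ∈ horSet H K, algebraMap Kb (FF M) (e c) *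
          (horConj H K G₀ e * G₀⁻¹ - algebraMap Kb (FF M) (a e))) := by
    unfold horTrace
    rw [map_sum, ← Finset.sum_add_distrib, Finset.mul_sum]
    refine Finset.sum_congr rfl fun e _ => ?_
    rw [map_mul]
    field_simp
    ring
  have hsmall : P.adicValuation (∑ e ∈ horSet H K, algebraMap Kb (FF M) (e c) *
      (horConj H K G₀ e * G₀⁻¹ - algebraMap Kb (FF M) (a e))) < 1 := by
    refine Valuation.map_sum_lt _ one_ne_zero fun e _ => ?_
    rw [map_mul]
    calc P.adicValuation (algebraMap Kb (FF M) (e c)) *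
          P.adicValuation (horConj H K G₀ e * G₀⁻¹ - algebraMap Kb (FF M) (a e))
        ≤ 1 * P.adicValuation (horConj H K G₀ e * G₀⁻¹ - algebraMap Kb (FF M) (a e)) :=
          mul_le_mul' (P.adicValuation_algebraMap_le_one _) le_rfl
      _ = P.adicValuation (horConj H K G₀ e * G₀⁻¹ - algebraMap Kb (FF M) (a e)) := one_mul _
      _ < 1 := ha e
  have hone : P.adicValuation (algebraMap Kb (FF M) (∑ e ∈ horSet H K, a e * e c)) = 1 :=
    hor_val_const P hc
  rw [hdec, map_mul, Valuation.map_add_eq_of_lt_left _ (by rw [hone]; exact hsmall), hone,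
    mul_one]

end Trace

/-! ### Existence of `I`-fixed elements of exact order -/

section Exist

open Fermat.Agent.T3.helper74 (IsFixI)

variable {M : ℕ} [NeZero M]

/-- **[HOR], the core**: for an `I`-fixed `u` with `n ∣ div u` and a place `P` where `j` is
finite there is an `I`-fixed `G` with `G ^ n / u` regular off the cusps and
`n ord_P G = ord_P u`. -/
theorem hor_exists_fix (A : ValuationSubring Kb) {n : ℕ} (hn : 0 < n) {u : FF M} (hu0 : u ≠ 0)
    (hu : IsFixI A M u) (hdv : ∀ P : Place Kb (FF M), (n : ℤ) ∣ P.ord u)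
    (P : Place Kb (FF M)) (hP : 0 ≤ P.ord (jElt M)) :
    ∃ G : FF M, IsFixI A M G ∧ HorIn M n u G ∧
      P.adicValuation G ^ n = P.adicValuation u := by
  classical
  have hS := Fermat.Agent.P2.helper74.riemannSetting_FF M
  obtain ⟨g, -, c, hc⟩ := Fermat.Agent.P2.helper74.riemannStatement M
  obtain ⟨⟨Pinf, hPinf⟩, -⟩ := inftyStatement M A
  have hjord : ((jElt M : FF M) : LaurentSeries Kb).order = -1 := order_jqModC Kb
  have hjne : jElt M ≠ 0 := by
    intro h
    rw [h] at hjord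
    have h0 : (((0 : FF M) : LaurentSeries Kb)).order = 0 := HahnSeries.order_zero
    rw [h0] at hjord
    omega
  have hjinf : Pinf.ord (jElt M) = -1 := by rw [hPinf _ hjne]; exact hjord
  have hne : ∀ v : Place Kb (FF M), 0 ≤ v.ord (jElt M) → v ≠ Pinf := by
    rintro v hv rfl
    rw [hjinf] at hv
    omega
  obtain ⟨D, hD⟩ := hor_exists_div hS hn hu0 hdv
  obtain ⟨G₀, hG0, hGP, hGv⟩ := hor_exists_exact hS hc (hne P hP) D
  have hin₀ : HorIn M n u G₀ := horIn_of_ord hu0 hG0 fun v hv => by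
    rw [← hD v]
    exact mul_le_mul_of_nonneg_left (hGv v (hne v hv)) (Int.natCast_nonneg n)
  have hex₀ : P.adicValuation G₀ ^ n = P.adicValuation u :=
    hor_val_pow_eq hu0 hG0 P (by rw [hGP, hD])
  obtain ⟨K, hK, hfixK⟩ :=
    Fermat.Agent.P3.helper85.exists_numberField_fixing (modularFunctionFieldFull M) G₀
  haveI := hK
  have hfix : ∀ g : Kb ≃ₐ[ℚ] Kb, (∀ y ∈ K, g y = y) → galF M g G₀ = G₀ :=
    fun g hg => hfixK g hg
  have hle : ∀ σ ∈ A.inertiaSubgroupIn ℚ,
      P.adicValuation (galF M σ G₀) ≤ P.adicValuation G₀ := by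
    intro σ hσ
    have h1 := (hin₀.gal hu hσ) P hP
    rw [← hex₀] at h1
    exact (pow_le_pow_iff_left₀ zero_le zero_le hn.ne').mp h1
  obtain ⟨c', hc'⟩ := hor_exists_coeff (H := A.inertiaSubgroupIn ℚ) hS hfix P hG0 hle
  refine ⟨horTrace (A.inertiaSubgroupIn ℚ) K G₀ c', fun σ hσ => hor_trace_fix hfix c' hσ, ?_,
    by rw [hc', hex₀]⟩
  unfold horTrace
  refine HorIn.sum hn _ _ fun e he => ?_
  obtain ⟨σ, rfl⟩ := mem_horSet.mp he
  rw [horConj_res hfix σ]
  exact (hin₀.gal hu σ.2).const_mul _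

end Exist

/-! ### Scaling by powers of `q` -/

section Scale

open Fermat.Agent.T3.helper36 (RhoQ GaussIs)
open Fermat.Agent.T3.helper74 (ex3 IsFixI)
open Fermat.Agent.T3.helper49 (Rho3)
open Fermat.Agent.T3.helper72 (Red3)
open Fermat.Agent.T3.helper98 (IsRegJ)

variable {A : ValuationSubring Kb} {ζ : Kb}

/-- a constant multiple of a series with a Gauss value is integral -/
theorem hor_rhoQ_of_gaussIs {g : LaurentSeries Kb} {c d : Kb} (h : GaussIs A g c)
    (hd : d * c ∈ A) : ∃ x, RhoQ A (algebraMap Kb (LaurentSeries Kb) d * g) x := by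
  obtain ⟨hc0, r, -, hr⟩ := h
  have h1 := (Fermat.Agent.T3.helper36.rhoQ_algebraMap (⟨d * c, hd⟩ : A)).mul hr
  have e : algebraMap Kb (LaurentSeries Kb) ((⟨d * c, hd⟩ : A) : Kb) *
      (algebraMap Kb (LaurentSeries Kb) c⁻¹ * g) = algebraMap Kb (LaurentSeries Kb) d * g := by
    rw [← mul_assoc, ← map_mul, mul_assoc, mul_inv_cancel₀ hc0, mul_one]
  rw [e] at h1
  exact ⟨_, h1⟩

theorem hor_mem_of_zpow {π x : Kb} (hπ0 : π ≠ 0) (hπ : π ∈ A) (hx : x ∈ A)
    (hxπ : x * π⁻¹ ∈ A) (m : ℤ) (k : ℕ) (hk : -m ≤ k) : x ^ k * π ^ m ∈ A := by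
  obtain ⟨e, rfl | rfl⟩ := m.eq_nat_or_neg
  · rw [zpow_natCast]
    exact A.mul_mem _ _ (pow_mem hx k) (pow_mem hπ e)
  · have hek : e ≤ k := by omega
    obtain ⟨d, rfl⟩ := Nat.exists_eq_add_of_le hek
    have e1 : x ^ (e + d) * π ^ (-(e : ℤ)) = (x * π⁻¹) ^ e * x ^ d := by
      rw [zpow_neg, zpow_natCast, _root_.pow_add, mul_pow, inv_pow]
      ring
    rw [e1]
    exact A.mul_mem _ _ (pow_mem hxπ e) (pow_mem hx d)

variable {N q : ℕ} [NeZero N] [NeZero q] {hq : q.Prime} {hqN : ¬ q ∣ N}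

/-- **every `I`-fixed function has a `Rho3`-integral multiple by a power of `q`** -/
theorem hor_exists_scale (hA : A.LiesOverPrime q) (hζ : IsPrimitiveRoot ζ q)
    {G : FF (N * q * q)} (hfix : IsFixI A (N * q * q) G) :
    ∃ (k : ℕ) (X : Fin 3 → LaurentSeries (kA A)),
      Rho3 N q hq hqN A hζ (algebraMap Kb (FF (N * q * q)) ((q : Kb) ^ k) * G) X := by
  have hcfix : ∀ k : ℕ, IsFixI A (N * q * q) (algebraMap Kb (FF (N * q * q)) ((q : Kb) ^ k)) :=
    fun k σ _ => by
      rw [arithmeticRingAut_algebraMap, map_pow, map_natCast]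
  rcases eq_or_ne G 0 with rfl | hG0
  · refine ⟨0, fun _ => 0, ?_, fun i => ?_⟩
    · rw [mul_zero]
      exact fun σ _ => map_zero _
    · show RhoQ A (ex3 N q hq hqN hζ i (_ * 0)) 0
      rw [mul_zero, map_zero]
      exact Fermat.Agent.T3.helper36.rhoQ_zero
  obtain ⟨m₀, m₁, m₂, h₀, h₁, h₂⟩ :=
    Fermat.Agent.T3.helper5.gaussIs_ex3_all (hq := hq) (hqN := hqN) hA hζ hG0 hfix
  obtain ⟨k, hk⟩ : ∃ k : ℕ, k = (-m₀).toNat + (-m₁).toNat + (-m₂).toNat := ⟨_, rfl⟩
  have hq0 : (q : Kb) ≠ 0 := Nat.cast_ne_zero.mpr hq.ne_zero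
  have hqA : (q : Kb) ∈ A := natCast_mem A q
  have hζ0 : (1 - ζ : Kb) ≠ 0 := sub_ne_zero.mpr (fun h => hζ.ne_one hq.one_lt h.symm)
  have hζlt : A.valuation (1 - ζ) < 1 := Fermat.Agent.T3.helper84.k0_zeta_val_lt hq A hA hζ
  have hζA : (1 - ζ : Kb) ∈ A := (A.valuation_le_one_iff _).mp hζlt.le
  have hqζ : (q : Kb) * (1 - ζ)⁻¹ ∈ A := by
    rw [← A.valuation_le_one_iff, map_mul, map_inv₀,
      ← Fermat.Agent.T3.helper84.k0_zeta_val hq A hζ]
    obtain ⟨d, hd⟩ : ∃ d, q - 1 = d + 1 := ⟨q - 2, by have := hq.two_le; omega⟩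
    have hv0 : A.valuation (1 - ζ) ≠ 0 := (Valuation.ne_zero_iff _).mpr hζ0
    rw [hd, pow_succ, mul_assoc, mul_inv_cancel₀ hv0, mul_one]
    exact pow_le_one' hζlt.le d
  have key : ∀ i : Fin 3, ∃ x : LaurentSeries (kA A),
      RhoQ A (ex3 N q hq hqN hζ i (algebraMap Kb (FF (N * q * q)) ((q : Kb) ^ k) * G)) x := by
    intro i
    rw [map_mul, Fermat.Agent.T3.helper5.ex3_const]
    fin_cases i
    · exact hor_rhoQ_of_gaussIs h₀ (hor_mem_of_zpow hq0 hqA hqA
        (by rw [mul_inv_cancel₀ hq0]; exact A.one_mem) m₀ k (by omega))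
    · exact hor_rhoQ_of_gaussIs h₁ (hor_mem_of_zpow hq0 hqA hqA
        (by rw [mul_inv_cancel₀ hq0]; exact A.one_mem) m₁ k (by omega))
    · exact hor_rhoQ_of_gaussIs h₂ (hor_mem_of_zpow hζ0 hζA hqA hqζ m₂ k (by omega))
  choose X hX using key
  exact ⟨k, X, Fermat.Agent.T3.helper98.isFixI_mul A (hcfix k) hfix, hX⟩

/-- **[HOR]** the field `hhor` of `helper22.Ideal3Rest`. -/
theorem hhor_rest (hA : A.LiesOverPrime q) (hζ : IsPrimitiveRoot ζ q) {n : ℕ} (hn : n ≠ 0) :
    ∀ u f : FF (N * q * q), Rho3 N q hq hqN A hζ u 1 →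
    (∀ P : Place Kb (FF (N * q * q)), (n : ℤ) ∣ P.ord u) →
    (∀ G G' : FF (N * q * q), IsRegJ (N * q * q) (G ^ n * u⁻¹) →
      IsRegJ (N * q * q) (G' ^ n * u⁻¹⁻¹) → (∃ X, Rho3 N q hq hqN A hζ G X) →
      (∃ X, Rho3 N q hq hqN A hζ G' X) → IsRegJ (N * q * q) (f * (G * G'))) →
    IsRegJ (N * q * q) f := by
  intro u f hu hdv hyp P hP
  have hn' : 0 < n := Nat.pos_of_ne_zero hn
  have hu0 : u ≠ 0 := by
    rintro rfl
    have h1 : RhoQ A (ex3 N q hq hqN hζ 0 (0 : FF (N * q * q))) ((1 : Fin 3 → _) 0) := hu.2 0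
    rw [map_zero] at h1
    exact one_ne_zero h1.eq_zero
  have hui0 : u⁻¹ ≠ 0 := inv_ne_zero hu0
  obtain ⟨G₁, hfix₁, hin₁, hex₁⟩ := hor_exists_fix A hn' hu0 hu.1 hdv P hP
  obtain ⟨G₂, hfix₂, hin₂, hex₂⟩ := hor_exists_fix A hn' hui0
    (Fermat.Agent.T3.helper98.isFixI_inv A hu.1)
    (fun v => by rw [Place.ord_inv]; exact (dvd_neg).mpr (hdv v)) P hP
  obtain ⟨k₁, X₁, ρ₁⟩ := hor_exists_scale (hq := hq) (hqN := hqN) hA hζ hfix₁
  obtain ⟨k₂, X₂, ρ₂⟩ := hor_exists_scale (hq := hq) (hqN := hqN) hA hζ hfix₂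
  have hq0 : ∀ k : ℕ, ((q : Kb)) ^ k ≠ 0 := fun k => pow_ne_zero _ (Nat.cast_ne_zero.mpr hq.ne_zero)
  have h1 := hyp _ _ ((hin₁.const_mul _).isRegJ hu0) ((hin₂.const_mul _).isRegJ hui0)
    ⟨X₁, ρ₁⟩ ⟨X₂, ρ₂⟩ P hP
  have hw : P.adicValuation u ≠ 0 := P.adicValuation_ne_zero hu0
  have hv : P.adicValuation (algebraMap Kb (FF (N * q * q)) ((q : Kb) ^ k₁) * G₁ *
      (algebraMap Kb (FF (N * q * q)) ((q : Kb) ^ k₂) * G₂)) = 1 := by
    rw [map_mul, map_mul, map_mul, hor_val_const P (hq0 k₁), hor_val_const P (hq0 k₂), one_mul,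
      one_mul]
    have h2 : (P.adicValuation G₁ * P.adicValuation G₂) ^ n = 1 := by
      rw [mul_pow, hex₁, hex₂, map_inv₀, mul_inv_cancel₀ hw]
    exact (pow_eq_one_iff_of_nonneg zero_le hn).mp h2
  have h3 : P.adicValuation f ≤ 1 := by
    have h2 : P.adicValuation (f * (algebraMap Kb (FF (N * q * q)) ((q : Kb) ^ k₁) * G₁ *
      (algebraMap Kb (FF (N * q * q)) ((q : Kb) ^ k₂) * G₂))) ≤ 1 :=
      (P.adicValuation_le_one_iff).mpr (Or.inr h1)
    rwa [map_mul, hv, mul_one] at h2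
  rcases (P.adicValuation_le_one_iff).mp h3 with h | h
  · rw [h, Place.ord_zero]
  · exact h

end Scale

end Fermat.Agent.T3.helper22

end
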