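import Fermat.Agent.T3.helper48_AtkinLehnerQ
import Fermat.Agent.P3.helper94_Kummer

/-!
# Tier 3, [T3-W] (helper48), part 4: `W_{q²}` exchanges the two norms

Level `N * q * q`; `W₂ = atkinLehnerSq N q hq hqN`, `W₁ = helper36.atkinLehner N q hq hqN`,
`α₂, β₂ : F_{Nq} → F_{Nq²}`.  From `W₂ ∘ α₂ = β₂ ∘ W₁`:

* `normAlong_beta_atkinLehnerSq` : `N_{β₂} (W₂ h) = W₁ (N_{α₂} h)`;
* `normAlong_alpha_atkinLehnerSq` : `N_{α₂} (W₂ h) = W₁ (N_{β₂} h)`.

So every statement about `N_{β₂}` at a cusp is the `W`-conjugate of a statement about `N_{α₂}`.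
-/

set_option autoImplicit false
set_option linter.unusedSectionVars false
set_option linter.unusedVariables false
set_option linter.style.haveILetI false

open IntermediateField AlgebraicCurve ModularCurve
open Fermat.Agent.S24 Fermat.Agent.T2.helper36 Fermat.Agent.P3.helper94

noncomputable section

namespace Fermat.Agent.T3.helper48

variable (N q : ℕ) [NeZero N] [NeZero q] (hq : q.Prime) (hqN : ¬ q ∣ N)

/-- **`N_{β₂} ∘ W₂ = W₁ ∘ N_{α₂}`.** -/
theorem normAlong_beta_atkinLehnerSq (h : modularFunctionFieldBar (N * q * q)) :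
    normAlong (heckeBetaBar Kbar (N * q) q) (atkinLehnerSq N q hq hqN h)
      = T2.helper36.atkinLehner N q hq hqN (normAlong (heckeAlphaBar Kbar (N * q) q) h) := by
  have he : (@algebraMap (modularFunctionFieldBar (N * q)) (modularFunctionFieldBar (N * q * q))
        _ _ (algebraAlong (heckeBetaBar Kbar (N * q) q))).comp
        ((T2.helper36.atkinLehner N q hq hqN).toRingEquiv :
          modularFunctionFieldBar (N * q) →+* modularFunctionFieldBar (N * q))
      = ((atkinLehnerSq N q hq hqN).toRingEquiv :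
          modularFunctionFieldBar (N * q * q) →+* modularFunctionFieldBar (N * q * q)).comp
        (@algebraMap (modularFunctionFieldBar (N * q)) (modularFunctionFieldBar (N * q * q))
          _ _ (algebraAlong (heckeAlphaBar Kbar (N * q) q))) := by
    refine RingHom.ext fun x => ?_
    exact (atkinLehnerSq_heckeAlphaBar N q hq hqN x).symm
  have key := @Algebra.norm_eq_of_equiv_equiv (modularFunctionFieldBar (N * q))
    (modularFunctionFieldBar (N * q * q)) (modularFunctionFieldBar (N * q))
    (modularFunctionFieldBar (N * q * q)) _ _ _ _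
    (algebraAlong (heckeAlphaBar Kbar (N * q) q)) (algebraAlong (heckeBetaBar Kbar (N * q) q))
    (T2.helper36.atkinLehner N q hq hqN).toRingEquiv (atkinLehnerSq N q hq hqN).toRingEquiv he h
  have key' := congrArg (T2.helper36.atkinLehner N q hq hqN).toRingEquiv key
  rw [RingEquiv.apply_symm_apply] at key'
  exact key'.symm

/-- **`N_{α₂} ∘ W₂ = W₁ ∘ N_{β₂}`.** -/
theorem normAlong_alpha_atkinLehnerSq (h : modularFunctionFieldBar (N * q * q)) :
    normAlong (heckeAlphaBar Kbar (N * q) q) (atkinLehnerSq N q hq hqN h)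
      = T2.helper36.atkinLehner N q hq hqN (normAlong (heckeBetaBar Kbar (N * q) q) h) := by
  have h1 := normAlong_beta_atkinLehnerSq N q hq hqN (atkinLehnerSq N q hq hqN h)
  rw [atkinLehnerSq_atkinLehnerSq] at h1
  rw [h1, T2.helper36.atkinLehner_atkinLehner]

end Fermat.Agent.T3.helper48

end
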