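import Fermat.Agent.T3.helper48_CompleteA
import Fermat.Agent.T3.helper48_WNorm
import Fermat.Agent.T3.helper23_Disc3W
import Fermat.Agent.T3.helper98_NormReg3
import Fermat.Agent.T3.helper87_Reg3Sub

/-!
# Tier 3, [REG-ALL] (helper48): the ring `B_all` of the functions regular off ALL cusps

Architect decision [G5]: `Reg = B_all = {f : ∀ P, 0 ≤ P.ord j → 0 ≤ P.ord f}` in every T3 box.

* `IsRegAll M f`, `regAll M : Subalgebra ℚ̄ F_M`; `isRegAll_iff_isIntegralElem` : `f ∈ B_all` iff
  `f` is integral over `ℚ̄[j]`;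
* closure: `IsRegAll.of_pow` (normality), `IsRegAll.alpha`, `IsRegAll.beta`,
  `IsRegAll.atkinLehner` (`W₁`), `IsRegAll.atkinLehnerSq` (`W₂`), `IsRegAll.galois`
  (`arithmeticRingAut`), `isRegAll_genBar`, `isRegAll_dg0/dg1/dg2`;
* norms: `IsRegAll.normAlong_alpha`, `IsRegAll.normAlong_beta`, `IsRegAll.normA`,
  `IsRegAll.normB` : the fields `reg_of_pow`, `normA_mem`, `normB_mem` of `helper49.TorBase`
  for `Reg = (regAll (N * q * q)).toSubring`.
-/

set_option autoImplicit false
set_option synthInstance.maxHeartbeats 400000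
set_option linter.style.haveILetI false
set_option linter.unusedSectionVars false
set_option linter.unusedVariables false

noncomputable section

open HahnSeries IntermediateField AlgebraicCurve ModularCurve Polynomial
open Fermat.Agent.S18.helper19 Fermat.Agent.P2.helper29 Fermat.Agent.T2.helper36
open Fermat.Agent.S24

namespace Fermat.Agent.T3.helper48

open Fermat.Agent.P3.helper94 (normAlong)

/-! ### Transitivity of integrality, ring form -/

section Trans

/-- an element which is a root of a monic polynomial whose coefficients are integral over `φ` is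
integral over `φ`. -/
theorem isIntegralElem_of_monic_coeff {R S : Type*} [CommRing R] [CommRing S] (φ : R →+* S)
    (x : S) (p : Polynomial S) (hp : p.Monic) (hx : p.eval x = 0)
    (h : ∀ n, φ.IsIntegralElem (p.coeff n)) : φ.IsIntegralElem x := by
  letI : Algebra R S := φ.toAlgebra
  have hcoef : (↑p.coeffs : Set S) ⊆ (integralClosure R S).toSubring := by
    intro c hc
    obtain ⟨n, -, rfl⟩ := (Polynomial.mem_coeffs_iff).mp (Finset.mem_coe.mp hc)
    exact h n
  have hC : IsIntegral (integralClosure R S) x := by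
    refine ⟨p.toSubring (integralClosure R S).toSubring hcoef,
      (p.monic_toSubring _ _).mpr hp, ?_⟩
    have hm : (p.toSubring (integralClosure R S).toSubring hcoef).map
        (algebraMap (integralClosure R S) S) = p :=
      p.map_toSubring (integralClosure R S).toSubring hcoef
    rw [← eval_map, hm]
    exact hx
  exact isIntegral_trans (R := R) (A := integralClosure R S) x hC

/-- transitivity: if `x` is integral over `ψ` and every `ψ r` is integral over `φ`, then `x` is
integral over `φ`. -/
theorem isIntegralElem_trans {R R' S : Type*} [CommRing R] [CommRing R'] [CommRing S]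
    (φ : R →+* S) (ψ : R' →+* S) (hψ : ∀ r, φ.IsIntegralElem (ψ r)) {x : S}
    (hx : ψ.IsIntegralElem x) : φ.IsIntegralElem x := by
  obtain ⟨p, hp, hp0⟩ := hx
  refine isIntegralElem_of_monic_coeff φ x (p.map ψ) (hp.map ψ) ?_ (fun n => ?_)
  · rw [eval_map]
    exact hp0
  · rw [coeff_map]
    exact hψ _

end Trans

/-! ### The predicate -/

section Pred

variable (M : ℕ) [NeZero M]

/-- **`f` is regular where `j` is finite** (regular off all the cusps). -/
def IsRegAll (f : FF M) : Prop :=
  ∀ P : Place Kb (FF M), 0 ≤ P.ord (jElt M) → 0 ≤ P.ord f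

variable {M}

theorem isRegAll_iff_isIntegralElem {f : FF M} : IsRegAll M f ↔ (evK M).IsIntegralElem f :=
  ⟨isIntegralElem_evK_of_forall_place M f, ord_nonneg_of_isIntegralElem_evK M f⟩

theorem isRegAll_zero : IsRegAll M (0 : FF M) := fun P _ => (Place.ord_zero P).ge

theorem isRegAll_one : IsRegAll M (1 : FF M) := fun P _ => (Place.ord_one P).ge

theorem isRegAll_algebraMap (c : Kb) : IsRegAll M (algebraMap Kb (FF M) c) :=
  fun P _ => (helper82.ord_algebraMap P c).ge

theorem isRegAll_jElt : IsRegAll M (jElt M) := fun _ hP => hP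

theorem IsRegAll.add {f g : FF M} (hf : IsRegAll M f) (hg : IsRegAll M g) :
    IsRegAll M (f + g) := by
  intro P hP
  have h1 := hf P hP
  have h2 := hg P hP
  rw [← helper82.mem_iff_ord_nonneg] at h1 h2 ⊢
  exact P.toValuationSubring.add_mem _ _ h1 h2

theorem IsRegAll.mul {f g : FF M} (hf : IsRegAll M f) (hg : IsRegAll M g) :
    IsRegAll M (f * g) := by
  intro P hP
  have h1 := hf P hP
  have h2 := hg P hP
  rw [← helper82.mem_iff_ord_nonneg] at h1 h2 ⊢
  exact P.toValuationSubring.mul_mem _ _ h1 h2

theorem IsRegAll.neg {f : FF M} (hf : IsRegAll M f) : IsRegAll M (-f) := by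
  intro P hP
  have h1 := hf P hP
  rw [← helper82.mem_iff_ord_nonneg] at h1 ⊢
  exact P.toValuationSubring.neg_mem _ h1

theorem IsRegAll.sub {f g : FF M} (hf : IsRegAll M f) (hg : IsRegAll M g) :
    IsRegAll M (f - g) := by
  rw [sub_eq_add_neg]
  exact hf.add hg.neg

theorem IsRegAll.smul {f : FF M} (hf : IsRegAll M f) (c : Kb) : IsRegAll M (c • f) := by
  rw [Algebra.smul_def]
  exact (isRegAll_algebraMap c).mul hf

theorem IsRegAll.pow {f : FF M} (hf : IsRegAll M f) (m : ℕ) : IsRegAll M (f ^ m) := by
  induction m with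
  | zero => rw [pow_zero]; exact isRegAll_one
  | succ k ih => rw [pow_succ]; exact ih.mul hf

/-- **normality**: `f ^ n ∈ B_all`, `n ≠ 0` ⟹ `f ∈ B_all`. -/
theorem IsRegAll.of_pow {f : FF M} {n : ℕ} (hn : n ≠ 0) (hf : IsRegAll M (f ^ n)) :
    IsRegAll M f := by
  intro P hP
  have h1 := hf P hP
  rw [← helper82.mem_iff_ord_nonneg] at h1 ⊢
  by_contra hfP
  have hinv : f⁻¹ ∈ P.toValuationSubring :=
    (P.toValuationSubring.mem_or_inv_mem f).resolve_left hfP
  have hf0 : f ≠ 0 := fun h => hfP (h ▸ P.toValuationSubring.zero_mem)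
  have hn1 : f = f ^ n * f⁻¹ ^ (n - 1) := by
    have h2 : f ^ n = f ^ (n - 1) * f := by
      rw [← pow_succ, Nat.sub_add_cancel (Nat.one_le_iff_ne_zero.mpr hn)]
    rw [h2, inv_pow]
    field_simp
  apply hfP
  rw [hn1]
  exact P.toValuationSubring.mul_mem _ _ h1 (pow_mem hinv _)

/-- the generators `j_d` are regular off the cusps. -/
theorem isRegAll_genBar (d : M.divisors) : IsRegAll M (genBar M d) :=
  fun P hP => Fermat.Agent.T3.helper23.ord_genBar_nonneg d P hP

variable (M)

/-- **the ring `B_all`** of the functions of level `M` regular off all the cusps. -/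
def regAll : Subalgebra Kb (FF M) where
  carrier := {f | IsRegAll M f}
  mul_mem' := fun hf hg => IsRegAll.mul hf hg
  add_mem' := fun hf hg => IsRegAll.add hf hg
  algebraMap_mem' := fun c => isRegAll_algebraMap c

variable {M}

theorem mem_regAll {f : FF M} : f ∈ regAll M ↔ IsRegAll M f := Iff.rfl

theorem mem_regAll_iff_isIntegralElem {f : FF M} :
    f ∈ regAll M ↔ (evK M).IsIntegralElem f := isRegAll_iff_isIntegralElem

end Pred

/-! ### Degeneracy maps, involutions, Galois -/

section Maps

variable {M : ℕ} [NeZero M] (q : ℕ) [NeZero q]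

/-- `α` preserves the regularity off the cusps. -/
theorem IsRegAll.alpha {f : FF M} (hf : IsRegAll M f) :
    IsRegAll (M * q) (heckeAlphaBar Kb M q f) := by
  rw [isRegAll_iff_isIntegralElem] at hf ⊢
  have h := isIntegralElem_map (evK M)
    ((heckeAlphaBar Kb M q : FF M →ₐ[Kb] FF (M * q)) : FF M →+* FF (M * q)) hf
  rw [alpha_comp_evK] at h
  exact h

/-- `β j = j_q`. -/
theorem exists_beta_jElt_eq_genBar :
    ∃ d : (M * q).divisors, heckeBetaBar Kb M q (jElt M) = genBar (M * q) d :=
  ⟨_, by rw [Fermat.Agent.T3.helper23.jElt_eq_genBar, heckeBetaBar_genBar]⟩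

/-- polynomials in a regular function are regular. -/
theorem isRegAll_aeval {x : FF M} (hx : IsRegAll M x) (r : Polynomial Kb) :
    IsRegAll M (Polynomial.aeval x r) := by
  induction r using Polynomial.induction_on' with
  | add r s hr hs =>
    rw [map_add]
    exact hr.add hs
  | monomial k a =>
    rw [Polynomial.aeval_monomial]
    exact (isRegAll_algebraMap a).mul (hx.pow k)

/-- `β` preserves the regularity off the cusps. -/
theorem IsRegAll.beta {f : FF M} (hf : IsRegAll M f) :
    IsRegAll (M * q) (heckeBetaBar Kb M q f) := by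
  obtain ⟨d, hd⟩ := exists_beta_jElt_eq_genBar (M := M) q
  have hj : IsRegAll (M * q) (heckeBetaBar Kb M q (xJ M)) := by
    rw [← jElt_eq_xJ, hd]
    exact isRegAll_genBar d
  rw [isRegAll_iff_isIntegralElem] at hf ⊢
  have h := isIntegralElem_map (evK M)
    ((heckeBetaBar Kb M q : FF M →ₐ[Kb] FF (M * q)) : FF M →+* FF (M * q)) hf
  refine isIntegralElem_trans (evK (M * q)) _ (fun r => ?_) h
  rw [← isRegAll_iff_isIntegralElem]
  have e : (((heckeBetaBar Kb M q : FF M →ₐ[Kb] FF (M * q)) : FF M →+* FF (M * q)).comp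
      (evK M)) r = Polynomial.aeval (heckeBetaBar Kb M q (xJ M)) r := by
    show heckeBetaBar Kb M q (Polynomial.aeval (xJ M) r) = _
    rw [Polynomial.aeval_algHom_apply]
  rw [e]
  exact isRegAll_aeval hj r

/-- a `ℚ̄`-involution mapping `j` to a generator preserves the regularity off the cusps. -/
theorem IsRegAll.map_invol (W : FF M ≃ₐ[Kb] FF M) (hWW : ∀ f, W (W f) = f)
    (hW : ∃ d : M.divisors, W (jElt M) = genBar M d) {f : FF M} (hf : IsRegAll M f) :
    IsRegAll M (W f) :=
  fun P hP => Fermat.Agent.T3.helper23.ord_map_nonneg_of_gen W hWW hW hf P hP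

/-- the Galois action preserves the regularity off the cusps. -/
theorem IsRegAll.galois (σ : Kb ≃ₐ[ℚ] Kb) {f : FF M} (hf : IsRegAll M f) :
    IsRegAll M (arithmeticRingAut (modularFunctionFieldFull M) σ f) := by
  rw [isRegAll_iff_isIntegralElem] at hf ⊢
  obtain ⟨p, hp, hp0⟩ := hf
  refine ⟨p.map (Polynomial.mapRingHom (σ : Kb →+* Kb)), hp.map _, ?_⟩
  rw [Polynomial.eval₂_map]
  have hcomp : (evK M).comp (Polynomial.mapRingHom (σ : Kb →+* Kb))
      = ((arithmeticRingAut (modularFunctionFieldFull M) σ : FF M ≃+* FF M) :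
          FF M →+* FF M).comp (evK M) := by
    apply Polynomial.ringHom_ext
    · intro a
      simp only [RingHom.coe_comp, Function.comp_apply, Polynomial.coe_mapRingHom,
        Polynomial.map_C, evK_C, RingHom.coe_coe]
      rw [arithmeticRingAut_algebraMap]
    · simp only [RingHom.coe_comp, Function.comp_apply, Polynomial.coe_mapRingHom,
        Polynomial.map_X, evK_X, RingHom.coe_coe]
      apply Subtype.ext
      rw [coe_arithmeticRingAut_apply, Fermat.Agent.P2.helper81.coe_xJ_eq]
      show _ = coeffMap (σ : Kb →+* Kb) (jqModC Kb)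
      rw [coeffMap_jqModC]
  rw [hcomp]
  have h2 := Polynomial.hom_eval₂ p (evK M)
    ((arithmeticRingAut (modularFunctionFieldFull M) σ : FF M ≃+* FF M) : FF M →+* FF M) f
  rw [hp0, map_zero] at h2
  exact h2.symm

/-- the norm along `α` preserves the regularity off the cusps. -/
theorem IsRegAll.normAlong_alpha {f : FF (M * q)} (hf : IsRegAll (M * q) f) :
    IsRegAll M (normAlong (heckeAlphaBar Kb M q) f) := by
  rw [isRegAll_iff_isIntegralElem] at hf ⊢
  letI := algebraAlong (heckeAlphaBar Kb M q)
  letI : Algebra (Polynomial Kb) (FF M) := (evK M).toAlgebra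
  letI : Algebra (Polynomial Kb) (FF (M * q)) := (evK (M * q)).toAlgebra
  haveI : IsScalarTower (Polynomial Kb) (FF M) (FF (M * q)) :=
    IsScalarTower.of_algebraMap_eq fun r => by
      show evK (M * q) r = heckeAlphaBar Kb M q (evK M r)
      rw [← alpha_comp_evK]
      rfl
  exact Algebra.isIntegral_norm (FF M) hf

end Maps

/-! ### The levels `N q` and `N q q` -/

section Level

open Fermat.Agent.T3.helper74 (dg0 dg1 dg2)
open Fermat.Agent.T3.helper98 (normA normB normA_apply normB_apply)

variable {N q : ℕ} [NeZero N] [NeZero q] (hq : q.Prime) (hqN : ¬ q ∣ N)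

include hq hqN in
/-- `W₁` preserves the regularity off the cusps. -/
theorem isRegAll_atkinLehner {g : FF (N * q)} (hg : IsRegAll (N * q) g) :
    IsRegAll (N * q) (atkinLehner N q hq hqN g) :=
  hg.map_invol _ (atkinLehner_atkinLehner N q hq hqN)
    ⟨_, by rw [Fermat.Agent.T3.helper23.jElt_eq_genBar, atkinLehner_genBar]⟩

include hq hqN in
/-- `W₂` preserves the regularity off the cusps. -/
theorem isRegAll_atkinLehnerSq {f : FF (N * q * q)} (hf : IsRegAll (N * q * q) f) :
    IsRegAll (N * q * q) (atkinLehnerSq N q hq hqN f) :=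
  hf.map_invol _ (atkinLehnerSq_atkinLehnerSq N q hq hqN)
    (Fermat.Agent.T3.helper23.atkinLehnerSq_jElt N q hq hqN)

include hq hqN in
/-- the norm along `β₂` preserves the regularity off the cusps. -/
theorem isRegAll_normAlong_beta {f : FF (N * q * q)} (hf : IsRegAll (N * q * q) f) :
    IsRegAll (N * q) (normAlong (heckeBetaBar Kb (N * q) q) f) := by
  have h1 := normAlong_alpha_atkinLehnerSq N q hq hqN f
  have h2 : normAlong (heckeBetaBar Kb (N * q) q) f
      = atkinLehner N q hq hqN
          (normAlong (heckeAlphaBar Kb (N * q) q) (atkinLehnerSq N q hq hqN f)) := by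
    rw [h1, atkinLehner_atkinLehner]
  rw [h2]
  exact isRegAll_atkinLehner hq hqN ((isRegAll_atkinLehnerSq hq hqN hf).normAlong_alpha q)

/-- **`normA_mem`**: `α N_α` preserves `B_all`. -/
theorem isRegAll_normA {f : FF (N * q * q)} (hf : IsRegAll (N * q * q) f) :
    IsRegAll (N * q * q) (normA N q f) := by
  rw [normA_apply]
  exact (hf.normAlong_alpha q).alpha q

include hq hqN in
/-- **`normB_mem`**: `β N_β` preserves `B_all`. -/
theorem isRegAll_normB {f : FF (N * q * q)} (hf : IsRegAll (N * q * q) f) :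
    IsRegAll (N * q * q) (normB N q f) := by
  rw [normB_apply]
  exact (isRegAll_normAlong_beta hq hqN hf).beta q

theorem isRegAll_dg0 {x : FF N} (hx : IsRegAll N x) : IsRegAll (N * q * q) (dg0 N q x) :=
  (hx.alpha q).alpha q

theorem isRegAll_dg1 {x : FF N} (hx : IsRegAll N x) : IsRegAll (N * q * q) (dg1 N q x) :=
  (hx.beta q).alpha q

theorem isRegAll_dg2 {x : FF N} (hx : IsRegAll N x) : IsRegAll (N * q * q) (dg2 N q x) :=
  (hx.beta q).beta q

/-- a function regular off the cusps over `∞_N` is regular off all the cusps. -/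
theorem isRegAll_of_isReg3 {ζ : Kb} {hζ : IsPrimitiveRoot ζ q} {f : FF (N * q * q)}
    (hf : Fermat.Agent.T3.helper87.IsReg3 N q hq hqN hζ f) : IsRegAll (N * q * q) f :=
  fun P hP => Fermat.Agent.T3.helper87.IsReg3.ord_nonneg_of_jElt hf P hP

end Level

end Fermat.Agent.T3.helper48

end
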