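import Fermat.Agent.T3.helper48_CompleteA
import Fermat.Agent.T3.helper98_NormRed3W
import Fermat.Agent.T3.helper87_Reg3Sub

/-!
# Tier 3, [COMPLETE-A] (helper48), part 3: the `I`-fixed form

For an `I`-fixed function of level `N q q` the integrality at ONE middle cusp gives the
integrality at all of them (`helper98.exists_model_embMid_of_fix`), so

* `completeA_of_fix` : `IsFixI`, `IsInt3` and regular where `j` is finite ⟹ integral over `A[j]`;
* `completeA_of_isReg3` : the same for `helper87.IsReg3` (regular off the cusps over `∞_N`).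
-/

set_option autoImplicit false
set_option synthInstance.maxHeartbeats 400000
set_option linter.style.haveILetI false
set_option linter.unusedSectionVars false
set_option linter.unusedVariables false

noncomputable section

open HahnSeries IntermediateField AlgebraicCurve ModularCurve Polynomial
open Fermat.Agent.S18.helper19 Fermat.Agent.P2.helper29 Fermat.Agent.T2.helper36
open Fermat.Agent.S24

namespace Fermat.Agent.T3.helper48

open Fermat.Agent.T3.helper87 (embMid IsReg3)
open Fermat.Agent.T3.helper74 (IsFixI IsInt3 ex3 midOne midOne_ne)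
open Fermat.Agent.P2.helper81 (evX)

attribute [local instance] Fermat.Agent.P2.helper81.algAX

variable (A : ValuationSubring Kb) (N q : ℕ) [NeZero N] [NeZero q] (hq : q.Prime)
  (hqN : ¬ q ∣ N)

include hq hqN in
/-- **[MID-ALL]**: for an `I`-fixed function, `IsInt3` gives `A`-integral expansions at all the
middle cusps. -/
theorem exists_incl_embMid_of_fix (hA : A.LiesOverPrime q) {ζ : Kb} (hζ : IsPrimitiveRoot ζ q)
    (f : FF (N * q * q)) (hfix : IsFixI A (N * q * q) f) (hint3 : IsInt3 N q hq hqN A hζ f)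
    (k : Fin q) (hk : (k : ℕ) ≠ 0) :
    ∃ Y : LaurentSeries A, incl A Y = embMid N q hq hqN hζ k hk f := by
  obtain ⟨Z, hZ⟩ := hint3 2
  rw [Fermat.Agent.T3.helper98.ex3_two] at hZ
  obtain ⟨Z', hZ', -⟩ := Fermat.Agent.T3.helper98.exists_model_embMid_of_fix (hq := hq)
    (hqN := hqN) (A := A) hA hζ f hfix (midOne q hq) (midOne_ne q hq) Z hZ k hk
  exact ⟨Z', hZ'⟩

include hq hqN in
/-- **[COMPLETE-A]**, `I`-fixed form: an `I`-fixed function of level `N q q` which is regular
where `j` is finite and has `A`-integral expansions at the three cusps `∞`, `0`, `1/q` is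
integral over `A[X]` (`X ↦ j`). -/
theorem completeA_of_fix (hA : A.LiesOverPrime q) {ζ : Kb} (hζ : IsPrimitiveRoot ζ q)
    (f : FF (N * q * q)) (hfix : IsFixI A (N * q * q) f) (hint3 : IsInt3 N q hq hqN A hζ f)
    (hreg : ∀ P : Place Kb (FF (N * q * q)), 0 ≤ P.ord (jElt (N * q * q)) → 0 ≤ P.ord f) :
    IsIntegral (Polynomial A) f := by
  refine completeA_of_forall_place A N q hq hqN hA hζ f hreg ?_ ?_
    (exists_incl_embMid_of_fix A N q hq hqN hA hζ f hfix hint3)
  · obtain ⟨Y, hY⟩ := hint3 0
    rw [Fermat.Agent.T3.helper98.ex3_zero] at hY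
    exact ⟨Y, hY⟩
  · obtain ⟨Y, hY⟩ := hint3 1
    rw [Fermat.Agent.T3.helper98.ex3_one] at hY
    exact ⟨Y, hY⟩

include hq hqN in
/-- **[COMPLETE-A]** for `helper87.IsReg3`. -/
theorem completeA_of_isReg3 (hA : A.LiesOverPrime q) {ζ : Kb} (hζ : IsPrimitiveRoot ζ q)
    (f : FF (N * q * q)) (hfix : IsFixI A (N * q * q) f) (hint3 : IsInt3 N q hq hqN A hζ f)
    (hreg : IsReg3 N q hq hqN hζ f) :
    IsIntegral (Polynomial A) f :=
  completeA_of_fix A N q hq hqN hA hζ f hfix hint3
    (fun P hP => Fermat.Agent.T3.helper87.IsReg3.ord_nonneg_of_jElt hreg P hP)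

end Fermat.Agent.T3.helper48

end
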