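import Mathlib
import Fermat.Agent.T3.helper98_NormReg3
import Fermat.Agent.T3.helper98_DgTable
import Fermat.Agent.T3.helper49_TorAlg

/-!
# Tier 3, [T3-NORM-REG3] (helper98, task 993), part 2: the reduction calculus `Rho3` in
quotient form and the fields `NA_rho`, `NB_rho` of `helper49.TorCalc`

Level `N q q`, `A` a valuation subring of `ℚ̄` over `q`, `I` its inertia group, `ex3 i` the three
expansions (at `∞`, `0`, `1/q`).

* `IsTriple f Y` : `f` is `I`-fixed and `Y i` is an `A`-integral model of `ex3 i f` (`i : Fin 3`);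
* `Rho3 f X` : `f = f₁ / f₂` with `IsTriple f₁ Y₁`, `IsTriple f₂ Y₂`, `red (Y₂ i) ≠ 0` and
  `red (Y₁ i) = X i * red (Y₂ i)` (quotient form, as `T2.helper36.RhoIs`, with ONE pair
  `(f₁, f₂)` for the three cusps);
* closure: `rho3_one`, `Rho3.add`, `.neg`, `.mul`, `.pow`, `.inv`, `.inv_one`, `.ne_zero`,
  `.unique`, `.isFixI`, `rho3_of_isTriple`, `isTriple_dg0/1/2`, `rho3_dg1`;
* **`Rho3.map_normA : Rho3 f X → Rho3 (normA N q f) (naF r X)`**,
  **`Rho3.map_normB : Rho3 f X → Rho3 (normB N q f) (nbF r X)`**  (`q = r + 1`), with `naF`, `nbF`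
  of `helper49_TorAlg` verbatim.
-/

set_option autoImplicit false
set_option synthInstance.maxHeartbeats 400000
set_option maxHeartbeats 1000000
set_option linter.style.haveILetI false
set_option linter.unusedSectionVars false
set_option linter.unusedVariables false
set_option linter.style.longLine false

noncomputable section

open HahnSeries IntermediateField AlgebraicCurve ModularCurve
open Fermat.Agent.S18.helper19 Fermat.Agent.P2.helper29 Fermat.Agent.T2.helper36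

namespace Fermat.Agent.T3.helper98

open Fermat.Agent.T3.helper87
open Fermat.Agent.T3.helper74 (ex3 IsFixI IsInt3 dg0 dg1 dg2)
open Fermat.Agent.T3.helper49 (naF nbF)
open Fermat.Agent.P3.helper94 (normAlong)

section Defs

variable (N q : ℕ) [NeZero N] [NeZero q] (hq : q.Prime) (hqN : ¬ q ∣ N)
variable (A : ValuationSubring Kb)

/-- `f` is `I`-fixed and `Y i` is an `A`-integral model of the `i`-th expansion of `f`. -/
def IsTriple {ζ : Kb} (hζ : IsPrimitiveRoot ζ q) (f : FF (N * q * q))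
    (Y : Fin 3 → LaurentSeries A) : Prop :=
  IsFixI A (N * q * q) f ∧ ∀ i, incl A (Y i) = ex3 N q hq hqN hζ i f

/-- **`Rho3 f X`** : `f` is a quotient `f₁ / f₂` of two `I`-fixed functions with `A`-integral
expansions at the three cusps, the three reductions of `f₂` are nonzero, and `X i` is the
quotient of the `i`-th reductions. -/
def Rho3 {ζ : Kb} (hζ : IsPrimitiveRoot ζ q) (f : FF (N * q * q))
    (X : Fin 3 → LaurentSeries (kA A)) : Prop :=
  ∃ (f₁ f₂ : FF (N * q * q)) (Y₁ Y₂ : Fin 3 → LaurentSeries A),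
    IsTriple N q hq hqN A hζ f₁ Y₁ ∧ IsTriple N q hq hqN A hζ f₂ Y₂ ∧
    (∀ i, red A (Y₂ i) ≠ 0) ∧ f * f₂ = f₁ ∧ ∀ i, red A (Y₁ i) = X i * red A (Y₂ i)

end Defs

section Triple

variable {N q : ℕ} [NeZero N] [NeZero q] {hq : q.Prime} {hqN : ¬ q ∣ N}
variable {A : ValuationSubring Kb} {ζ : Kb} {hζ : IsPrimitiveRoot ζ q}

theorem isTriple_zero : IsTriple N q hq hqN A hζ 0 0 :=
  ⟨fun σ _ => map_zero _, fun i => by rw [Pi.zero_apply, map_zero, map_zero]⟩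

theorem isTriple_one : IsTriple N q hq hqN A hζ 1 1 :=
  ⟨isFixI_one A, fun i => by rw [Pi.one_apply, map_one, map_one]⟩

theorem IsTriple.add {f g : FF (N * q * q)} {Y Z : Fin 3 → LaurentSeries A}
    (hf : IsTriple N q hq hqN A hζ f Y) (hg : IsTriple N q hq hqN A hζ g Z) :
    IsTriple N q hq hqN A hζ (f + g) (Y + Z) :=
  ⟨isFixI_add A hf.1 hg.1, fun i => by rw [Pi.add_apply, map_add, map_add, hf.2 i, hg.2 i]⟩

theorem IsTriple.neg {f : FF (N * q * q)} {Y : Fin 3 → LaurentSeries A}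
    (hf : IsTriple N q hq hqN A hζ f Y) : IsTriple N q hq hqN A hζ (-f) (-Y) :=
  ⟨isFixI_neg A hf.1, fun i => by rw [Pi.neg_apply, map_neg, map_neg, hf.2 i]⟩

theorem IsTriple.mul {f g : FF (N * q * q)} {Y Z : Fin 3 → LaurentSeries A}
    (hf : IsTriple N q hq hqN A hζ f Y) (hg : IsTriple N q hq hqN A hζ g Z) :
    IsTriple N q hq hqN A hζ (f * g) (Y * Z) :=
  ⟨isFixI_mul A hf.1 hg.1, fun i => by rw [Pi.mul_apply, map_mul, map_mul, hf.2 i, hg.2 i]⟩

theorem IsTriple.pow {f : FF (N * q * q)} {Y : Fin 3 → LaurentSeries A}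
    (hf : IsTriple N q hq hqN A hζ f Y) (m : ℕ) : IsTriple N q hq hqN A hζ (f ^ m) (Y ^ m) :=
  ⟨isFixI_pow A hf.1 m, fun i => by rw [Pi.pow_apply, map_pow, map_pow, hf.2 i]⟩

/-- the incl map is injective -/
theorem incl_injective' : Function.Injective (incl A) :=
  Fermat.Agent.P2.helper93.coeffMap_subtype_injective

theorem ex3_injective (i : Fin 3) : Function.Injective (ex3 N q hq hqN hζ i) :=
  (ex3 N q hq hqN hζ i).injective

/-- the models of a triple are determined by the function -/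
theorem IsTriple.model_unique {f : FF (N * q * q)} {Y Z : Fin 3 → LaurentSeries A}
    (hf : IsTriple N q hq hqN A hζ f Y) (hg : IsTriple N q hq hqN A hζ f Z) : Y = Z := by
  funext i
  exact incl_injective' ((hf.2 i).trans (hg.2 i).symm)

theorem IsTriple.ne_zero {f : FF (N * q * q)} {Y : Fin 3 → LaurentSeries A}
    (hf : IsTriple N q hq hqN A hζ f Y) {i : Fin 3} (h : red A (Y i) ≠ 0) : f ≠ 0 := by
  rintro rfl
  have h1 := hf.2 i
  rw [map_zero] at h1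
  have h2 : Y i = 0 := incl_injective' (h1.trans (map_zero _).symm)
  rw [h2, map_zero] at h
  exact h rfl

/-- `α N_α` of a triple -/
theorem IsTriple.map_normA (hA : A.LiesOverPrime q) {f : FF (N * q * q)}
    {Y : Fin 3 → LaurentSeries A} (hf : IsTriple N q hq hqN A hζ f Y) :
    ∃ Y' : Fin 3 → LaurentSeries A, IsTriple N q hq hqN A hζ (normA N q f) Y' ∧
      red A (Y' 0) = red A (Y 0) * red A (Y 2) ^ (q - 1) ∧
      red A (Y' 1) = red A (Y 1) ^ q ∧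
      red A (Y' 2) = red A (Y 0) * red A (Y 2) ^ (q - 1) := by
  obtain ⟨Y', h1, h2, h3, h4⟩ := normRed3_alpha (hq := hq) (hqN := hqN) A hA hζ f hf.1 Y hf.2
  exact ⟨Y', ⟨isFixI_normA A hf.1, h1⟩, h2, h3, h4⟩

/-- `β N_β` of a triple -/
theorem IsTriple.map_normB (hA : A.LiesOverPrime q) {f : FF (N * q * q)}
    {Y : Fin 3 → LaurentSeries A} (hf : IsTriple N q hq hqN A hζ f Y) :
    ∃ Y' : Fin 3 → LaurentSeries A, IsTriple N q hq hqN A hζ (normB N q f) Y' ∧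
      red A (Y' 0) = red A (Y 0) ^ q ∧
      red A (Y' 1) = red A (Y 1) * red A (Y 2) ^ (q - 1) ∧
      red A (Y' 2) = red A (Y 1) * red A (Y 2) ^ (q - 1) := by
  obtain ⟨Y', h1, h2, h3, h4⟩ := normRed3_beta (hq := hq) (hqN := hqN) A hA hζ f hf.1 Y hf.2
  exact ⟨Y', ⟨isFixI_normB A hf.1, h1⟩, h2, h3, h4⟩

/-- the triple of `dg0 f = f(τ)` : reductions `(x, Fr² x, x)` -/
theorem isTriple_dg0 {f : FF N} (hf : IsFixI A N f) (Y : LaurentSeries A)
    (hY : incl A Y = (f : LaurentSeries Kb)) :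
    ∃ Y' : Fin 3 → LaurentSeries A, IsTriple N q hq hqN A hζ (dg0 N q f) Y' ∧
      red A (Y' 0) = red A Y ∧
      red A (Y' 1) = qExpand (kA A) q (qExpand (kA A) q (red A Y)) ∧
      red A (Y' 2) = red A Y := by
  obtain ⟨Y', h1, h2, h3, h4⟩ := red3_dg0 (hq := hq) (hqN := hqN) A hζ f Y hY
  exact ⟨Y', ⟨isFixI_dg0 A hf, h1⟩, h2, h3, h4⟩

/-- the triple of `dg1 f = f(q τ)` : reductions `(Fr x, Fr x, Fr x)` -/
theorem isTriple_dg1 {f : FF N} (hf : IsFixI A N f) (Y : LaurentSeries A)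
    (hY : incl A Y = (f : LaurentSeries Kb)) :
    ∃ Y' : Fin 3 → LaurentSeries A, IsTriple N q hq hqN A hζ (dg1 N q f) Y' ∧
      ∀ i, red A (Y' i) = qExpand (kA A) q (red A Y) := by
  obtain ⟨Y', h1, h2⟩ := red3_dg1 (hq := hq) (hqN := hqN) A hζ f Y hY
  exact ⟨Y', ⟨isFixI_dg1 A hf, h1⟩, h2⟩

/-- the triple of `dg2 f = f(q² τ)` : reductions `(Fr² x, x, x)` -/
theorem isTriple_dg2 (hA : A.LiesOverPrime q) {f : FF N} (hf : IsFixI A N f)
    (Y : LaurentSeries A) (hY : incl A Y = (f : LaurentSeries Kb)) :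
    ∃ Y' : Fin 3 → LaurentSeries A, IsTriple N q hq hqN A hζ (dg2 N q f) Y' ∧
      red A (Y' 0) = qExpand (kA A) q (qExpand (kA A) q (red A Y)) ∧
      red A (Y' 1) = red A Y ∧
      red A (Y' 2) = red A Y := by
  obtain ⟨Y', h1, h2, h3, h4⟩ := red3_dg2 (hq := hq) (hqN := hqN) A hA hζ f Y hY
  exact ⟨Y', ⟨isFixI_dg2 A hf, h1⟩, h2, h3, h4⟩

end Triple

section Rho

variable {N q : ℕ} [NeZero N] [NeZero q] {hq : q.Prime} {hqN : ¬ q ∣ N}
variable {A : ValuationSubring Kb} {ζ : Kb} {hζ : IsPrimitiveRoot ζ q}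

theorem rho3_of_isTriple {f : FF (N * q * q)} {Y : Fin 3 → LaurentSeries A}
    (hf : IsTriple N q hq hqN A hζ f Y) :
    Rho3 N q hq hqN A hζ f (fun i => red A (Y i)) :=
  ⟨f, 1, Y, 1, hf, isTriple_one, fun i => by rw [Pi.one_apply, map_one]; exact one_ne_zero,
    mul_one f, fun i => by rw [Pi.one_apply, map_one, mul_one]⟩

/-- `X(dg1 f) = (Fr x, Fr x, Fr x)` for an `I`-fixed `f` of level `N` with integral expansion
of reduction `x`. -/
theorem rho3_dg1 {f : FF N} (hf : IsFixI A N f) (Y : LaurentSeries A)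
    (hY : incl A Y = (f : LaurentSeries Kb)) :
    Rho3 N q hq hqN A hζ (dg1 N q f) (fun _ => qExpand (kA A) q (red A Y)) := by
  obtain ⟨Y', h1, h2⟩ := isTriple_dg1 (hq := hq) (hqN := hqN) (hζ := hζ) hf Y hY
  have h3 := rho3_of_isTriple h1
  have e : (fun i => red A (Y' i)) = fun _ : Fin 3 => qExpand (kA A) q (red A Y) :=
    funext h2
  rw [e] at h3
  exact h3

theorem rho3_zero : Rho3 N q hq hqN A hζ 0 0 :=
  ⟨0, 1, 0, 1, isTriple_zero, isTriple_one,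
    fun i => by rw [Pi.one_apply, map_one]; exact one_ne_zero, zero_mul _,
    fun i => by rw [Pi.zero_apply, Pi.zero_apply, map_zero, zero_mul]⟩

theorem rho3_one : Rho3 N q hq hqN A hζ 1 1 :=
  ⟨1, 1, 1, 1, isTriple_one, isTriple_one,
    fun i => by rw [Pi.one_apply, map_one]; exact one_ne_zero, one_mul _,
    fun i => by rw [Pi.one_apply, Pi.one_apply, map_one, one_mul]⟩

theorem Rho3.isFixI {f : FF (N * q * q)} {X : Fin 3 → LaurentSeries (kA A)}
    (h : Rho3 N q hq hqN A hζ f X) : IsFixI A (N * q * q) f := by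
  obtain ⟨f₁, f₂, Y₁, Y₂, h1, h2, h0, he, hr⟩ := h
  have hf2 : f₂ ≠ 0 := h2.ne_zero (h0 0)
  have e : f = f₁ * f₂⁻¹ := by rw [← he]; exact (mul_inv_cancel_right₀ hf2 f).symm
  rw [e]
  exact isFixI_mul A h1.1 (isFixI_inv A h2.1)

theorem Rho3.add {f g : FF (N * q * q)} {X Z : Fin 3 → LaurentSeries (kA A)}
    (hf : Rho3 N q hq hqN A hζ f X) (hg : Rho3 N q hq hqN A hζ g Z) :
    Rho3 N q hq hqN A hζ (f + g) (X + Z) := by
  obtain ⟨f₁, f₂, Y₁, Y₂, h1, h2, h0, he, hr⟩ := hf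
  obtain ⟨g₁, g₂, Z₁, Z₂, k1, k2, k0, ke, kr⟩ := hg
  refine ⟨f₁ * g₂ + g₁ * f₂, f₂ * g₂, Y₁ * Z₂ + Z₁ * Y₂, Y₂ * Z₂,
    (h1.mul k2).add (k1.mul h2), h2.mul k2, fun i => ?_, ?_, fun i => ?_⟩
  · rw [Pi.mul_apply, map_mul]
    exact mul_ne_zero (h0 i) (k0 i)
  · rw [← he, ← ke]
    ring
  · simp only [Pi.add_apply, Pi.mul_apply, map_add, map_mul]
    rw [hr i, kr i]
    ring

theorem Rho3.neg {f : FF (N * q * q)} {X : Fin 3 → LaurentSeries (kA A)}
    (hf : Rho3 N q hq hqN A hζ f X) : Rho3 N q hq hqN A hζ (-f) (-X) := by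
  obtain ⟨f₁, f₂, Y₁, Y₂, h1, h2, h0, he, hr⟩ := hf
  refine ⟨-f₁, f₂, -Y₁, Y₂, h1.neg, h2, h0, by rw [← he, neg_mul], fun i => ?_⟩
  simp only [Pi.neg_apply, map_neg]
  rw [hr i, neg_mul]

theorem Rho3.mul {f g : FF (N * q * q)} {X Z : Fin 3 → LaurentSeries (kA A)}
    (hf : Rho3 N q hq hqN A hζ f X) (hg : Rho3 N q hq hqN A hζ g Z) :
    Rho3 N q hq hqN A hζ (f * g) (X * Z) := by
  obtain ⟨f₁, f₂, Y₁, Y₂, h1, h2, h0, he, hr⟩ := hf
  obtain ⟨g₁, g₂, Z₁, Z₂, k1, k2, k0, ke, kr⟩ := hg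
  refine ⟨f₁ * g₁, f₂ * g₂, Y₁ * Z₁, Y₂ * Z₂, h1.mul k1, h2.mul k2, fun i => ?_, ?_,
    fun i => ?_⟩
  · rw [Pi.mul_apply, map_mul]
    exact mul_ne_zero (h0 i) (k0 i)
  · rw [← he, ← ke]
    ring
  · simp only [Pi.mul_apply, map_mul]
    rw [hr i, kr i]
    ring

theorem Rho3.pow {f : FF (N * q * q)} {X : Fin 3 → LaurentSeries (kA A)}
    (hf : Rho3 N q hq hqN A hζ f X) (m : ℕ) : Rho3 N q hq hqN A hζ (f ^ m) (X ^ m) := by
  induction m with
  | zero => rw [pow_zero, pow_zero]; exact rho3_one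
  | succ k ih => rw [pow_succ, pow_succ]; exact ih.mul hf

theorem Rho3.sub {f g : FF (N * q * q)} {X Z : Fin 3 → LaurentSeries (kA A)}
    (hf : Rho3 N q hq hqN A hζ f X) (hg : Rho3 N q hq hqN A hζ g Z) :
    Rho3 N q hq hqN A hζ (f - g) (X - Z) := by
  rw [sub_eq_add_neg, sub_eq_add_neg]
  exact hf.add hg.neg

/-- the reduction triple is determined by the function -/
theorem Rho3.unique {f : FF (N * q * q)} {X Z : Fin 3 → LaurentSeries (kA A)}
    (hf : Rho3 N q hq hqN A hζ f X) (hg : Rho3 N q hq hqN A hζ f Z) : X = Z := by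
  obtain ⟨f₁, f₂, Y₁, Y₂, h1, h2, h0, he, hr⟩ := hf
  obtain ⟨g₁, g₂, Z₁, Z₂, k1, k2, k0, ke, kr⟩ := hg
  have hm : Y₁ * Z₂ = Z₁ * Y₂ := by
    refine (h1.mul k2).model_unique ?_
    have e : f₁ * g₂ = g₁ * f₂ := by rw [← he, ← ke]; ring
    rw [e]
    exact k1.mul h2
  funext i
  have h3 := congrArg (fun T : Fin 3 → LaurentSeries A => red A (T i)) hm
  simp only [Pi.mul_apply, map_mul] at h3
  rw [hr i, kr i] at h3
  have h4 : X i * (red A (Y₂ i) * red A (Z₂ i)) = Z i * (red A (Y₂ i) * red A (Z₂ i)) := by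
    calc X i * (red A (Y₂ i) * red A (Z₂ i)) = X i * red A (Y₂ i) * red A (Z₂ i) := by ring
      _ = Z i * red A (Z₂ i) * red A (Y₂ i) := h3
      _ = Z i * (red A (Y₂ i) * red A (Z₂ i)) := by ring
  exact mul_right_cancel₀ (mul_ne_zero (h0 i) (k0 i)) h4

/-- inverse: if all reductions are nonzero -/
theorem Rho3.inv {f : FF (N * q * q)} {X : Fin 3 → LaurentSeries (kA A)}
    (hf : Rho3 N q hq hqN A hζ f X) (hX : ∀ i, X i ≠ 0) :
    Rho3 N q hq hqN A hζ f⁻¹ (fun i => (X i)⁻¹) := by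
  obtain ⟨f₁, f₂, Y₁, Y₂, h1, h2, h0, he, hr⟩ := hf
  have h10 : ∀ i, red A (Y₁ i) ≠ 0 := fun i => by
    rw [hr i]
    exact mul_ne_zero (hX i) (h0 i)
  have hf1 : f₁ ≠ 0 := h1.ne_zero (h10 0)
  have hf2 : f₂ ≠ 0 := h2.ne_zero (h0 0)
  have hf0 : f ≠ 0 := by
    rintro rfl
    rw [zero_mul] at he
    exact hf1 he.symm
  refine ⟨f₂, f₁, Y₂, Y₁, h2, h1, h10, ?_, fun i => ?_⟩
  · rw [← he]
    exact inv_mul_cancel_left₀ hf0 f₂
  · rw [hr i]
    exact (inv_mul_cancel_left₀ (hX i) _).symm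

/-- **`rho_inv_one`** -/
theorem Rho3.inv_one {f : FF (N * q * q)} (hf : Rho3 N q hq hqN A hζ f 1) :
    Rho3 N q hq hqN A hζ f⁻¹ 1 := by
  have h := hf.inv (fun i => by rw [Pi.one_apply]; exact one_ne_zero)
  have e : (fun i : Fin 3 => ((1 : Fin 3 → LaurentSeries (kA A)) i)⁻¹) = 1 := by
    funext i
    rw [Pi.one_apply, _root_.inv_one]
  rw [e] at h
  exact h

/-- **`ne_zero_of_rho_one`** (more generally: some reduction is nonzero) -/
theorem Rho3.ne_zero {f : FF (N * q * q)} {X : Fin 3 → LaurentSeries (kA A)}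
    (hf : Rho3 N q hq hqN A hζ f X) {i : Fin 3} (hX : X i ≠ 0) : f ≠ 0 := by
  obtain ⟨f₁, f₂, Y₁, Y₂, h1, h2, h0, he, hr⟩ := hf
  have hf1 : f₁ ≠ 0 := h1.ne_zero (i := i) (by rw [hr i]; exact mul_ne_zero hX (h0 i))
  rintro rfl
  rw [zero_mul] at he
  exact hf1 he.symm

theorem Rho3.ne_zero_of_one {f : FF (N * q * q)} (hf : Rho3 N q hq hqN A hζ f 1) : f ≠ 0 :=
  hf.ne_zero (i := 0) (by rw [Pi.one_apply]; exact one_ne_zero)

/-- **`NA_rho`** : `X(α N_α f) = (X₀ X₂^r, X₁^(r+1), X₀ X₂^r)`, `q = r + 1`. -/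
theorem Rho3.map_normA (hA : A.LiesOverPrime q) {r : ℕ} (hr : q = r + 1) {f : FF (N * q * q)}
    {X : Fin 3 → LaurentSeries (kA A)} (hf : Rho3 N q hq hqN A hζ f X) :
    Rho3 N q hq hqN A hζ (normA N q f) (naF r X) := by
  obtain ⟨f₁, f₂, Y₁, Y₂, h1, h2, h0, he, hrd⟩ := hf
  obtain ⟨Y₁', k1, a0, a1, a2⟩ := h1.map_normA hA
  obtain ⟨Y₂', k2, b0, b1, b2⟩ := h2.map_normA hA
  have hq1 : q - 1 = r := by omega
  rw [hq1] at a0 a2 b0 b2
  rw [hr] at a1 b1
  refine ⟨normA N q f₁, normA N q f₂, Y₁', Y₂', k1, k2, fun i => ?_, ?_, fun i => ?_⟩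
  · fin_cases i
    · show red A (Y₂' 0) ≠ 0
      rw [b0]
      exact mul_ne_zero (h0 0) (pow_ne_zero _ (h0 2))
    · show red A (Y₂' 1) ≠ 0
      rw [b1]
      exact pow_ne_zero _ (h0 1)
    · show red A (Y₂' 2) ≠ 0
      rw [b2]
      exact mul_ne_zero (h0 0) (pow_ne_zero _ (h0 2))
  · rw [← map_mul, he]
  · fin_cases i
    · show red A (Y₁' 0) = naF r X 0 * red A (Y₂' 0)
      rw [a0, b0, hrd 0, hrd 2]
      simp only [naF, Matrix.cons_val_zero]
      ring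
    · show red A (Y₁' 1) = naF r X 1 * red A (Y₂' 1)
      rw [a1, b1, hrd 1]
      simp only [naF, Matrix.cons_val_one, Matrix.cons_val_zero]
      ring
    · show red A (Y₁' 2) = naF r X 2 * red A (Y₂' 2)
      rw [a2, b2, hrd 0, hrd 2]
      simp only [naF, Matrix.cons_val_two, Matrix.tail_cons, Matrix.head_cons]
      ring

/-- **`NB_rho`** : `X(β N_β f) = (X₀^(r+1), X₁ X₂^r, X₁ X₂^r)`, `q = r + 1`. -/
theorem Rho3.map_normB (hA : A.LiesOverPrime q) {r : ℕ} (hr : q = r + 1) {f : FF (N * q * q)}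
    {X : Fin 3 → LaurentSeries (kA A)} (hf : Rho3 N q hq hqN A hζ f X) :
    Rho3 N q hq hqN A hζ (normB N q f) (nbF r X) := by
  obtain ⟨f₁, f₂, Y₁, Y₂, h1, h2, h0, he, hrd⟩ := hf
  obtain ⟨Y₁', k1, a0, a1, a2⟩ := h1.map_normB hA
  obtain ⟨Y₂', k2, b0, b1, b2⟩ := h2.map_normB hA
  have hq1 : q - 1 = r := by omega
  rw [hq1] at a1 a2 b1 b2
  rw [hr] at a0 b0
  refine ⟨normB N q f₁, normB N q f₂, Y₁', Y₂', k1, k2, fun i => ?_, ?_, fun i => ?_⟩
  · fin_cases i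
    · show red A (Y₂' 0) ≠ 0
      rw [b0]
      exact pow_ne_zero _ (h0 0)
    · show red A (Y₂' 1) ≠ 0
      rw [b1]
      exact mul_ne_zero (h0 1) (pow_ne_zero _ (h0 2))
    · show red A (Y₂' 2) ≠ 0
      rw [b2]
      exact mul_ne_zero (h0 1) (pow_ne_zero _ (h0 2))
  · rw [← map_mul, he]
  · fin_cases i
    · show red A (Y₁' 0) = nbF r X 0 * red A (Y₂' 0)
      rw [a0, b0, hrd 0]
      simp only [nbF, Matrix.cons_val_zero]
      ring
    · show red A (Y₁' 1) = nbF r X 1 * red A (Y₂' 1)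
      rw [a1, b1, hrd 1, hrd 2]
      simp only [nbF, Matrix.cons_val_one, Matrix.cons_val_zero]
      ring
    · show red A (Y₁' 2) = nbF r X 2 * red A (Y₂' 2)
      rw [a2, b2, hrd 1, hrd 2]
      simp only [nbF, Matrix.cons_val_two, Matrix.tail_cons, Matrix.head_cons]
      ring

end Rho

end Fermat.Agent.T3.helper98

end
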