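import Mathlib
import Fermat.Agent.T2.helper45_Integrality
import Fermat.Agent.T3.helper23_Disc3
import Fermat.Agent.T3.helper98_NormRegJ
import Fermat.Agent.T3.helper98_NormQ
import Fermat.Agent.T3.helper98_Rho3

/-!
# Tier 3, [T3-INT-GEN] (helper98, task 1100): integrality of expansions at ANY cusp

`T2.helper45.integrality_of_regular` for an arbitrary expansion map:

* `horizontal_key_emb`, `integrality_emb` : let `E : F_M → ℚ̄((t))` be a ring homomorphism
  (the expansion at a cusp, any parameter), `x ∈ F_M` a function with `E x · t^w` an integral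
  power series (`x = j`), and `f ∈ F_M` regular where `x` is finite.  If `E f` is a quotient of
  two `A`-integral Laurent series with a denominator of nonzero reduction, then `E f` is
  `A`-integral;
* `exists_incl_of_rhoQ`, `exists_incl_of_rhoQ_embMid`, `exists_incl_of_rhoQ_atkinLehnerSq` :
  the instances at the cusps `∞`, `1/q` (`helper87.embMid`), `0` of `X₀(N q²)`, with the
  reduction;
* `exists_triple_of_red3` **[INT3]** : `f` regular where `j` is finite with quotient-form
  reductions `Red3 i f (X i)` has `A`-integral expansions `Y i` at the three cusps, and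
  `red (Y i) = X i`;  `isInt3_of_red3`, `isTriple_of_red3`.
-/

set_option autoImplicit false
set_option synthInstance.maxHeartbeats 400000
set_option maxHeartbeats 1000000
set_option linter.style.haveILetI false
set_option linter.unusedSectionVars false
set_option linter.unusedVariables false
set_option linter.style.longLine false

noncomputable section

open HahnSeries IntermediateField AlgebraicCurve ModularCurve
open Fermat.Agent.S18.helper19 Fermat.Agent.P2.helper29 Fermat.Agent.T2.helper36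
open Fermat.Agent.S24

namespace Fermat.Agent.T3.helper98

open Fermat.Agent.P2.helper23 (capSubring phi phi_apply phi_injective IsRatio)
open Fermat.Agent.P2.helper73 (IsRatioEv exists_finset_isRatio)
open Fermat.Agent.T2.helper45 (vertical_key exists_valuationSubring_of_prime
  algebraMap_mem_of_inv_intCast_mem exists_pow_mul_of_forall_prime isLocalRing_capSubring
  phiA incl_phiA phi_X_pow jq_mul_phi_X)
open Fermat.Agent.T3.helper87 (embMid)
open Fermat.Agent.T3.helper48 (atkinLehnerSq atkinLehnerSq_atkinLehnerSq)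
open Fermat.Agent.T3.helper74 (IsFixI IsInt3 ex3 midOne midOne_ne)
open Fermat.Agent.T3.helper36 (RhoQ)
open Fermat.Agent.T3.helper72 (Red3)

/-! ### The abstract statement -/

section Abstract

variable (M : ℕ) [NeZero M] (A : ValuationSubring Kb)

/-- **horizontal primes**, for an arbitrary expansion map `E`. -/
theorem horizontal_key_emb (K₀ : IntermediateField ℚ Kb) (E : FF M →+* LaurentSeries Kb)
    (x : FF M) (w : ℕ) (J : PowerSeries (capSubring A K₀))
    (hx : E x * phi (capSubring A K₀) (PowerSeries.X ^ w) = phi (capSubring A K₀) J)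
    (f : FF M) (hreg : ∀ Q : Place Kb (FF M), 0 ≤ Q.ord x → 0 ≤ Q.ord f)
    (P a b : PowerSeries (capSubring A K₀)) (hP : Prime P)
    (hX : ¬ Associated P PowerSeries.X)
    (hhor : ∀ r : capSubring A K₀, r ≠ 0 → ¬ P ∣ PowerSeries.C r) (hPb : P ∣ b)
    (hab : E f * phi (capSubring A K₀) b = phi (capSubring A K₀) a) :
    P ∣ a := by
  by_contra ha
  set φ := phi (capSubring A K₀) with hφdef
  have hφ : Function.Injective φ := phi_injective _
  obtain ⟨V, hV1, hV2⟩ := exists_valuationSubring_of_prime (φ := φ) (ι := E) (P := P) hφ hP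
  have ha0 : a ≠ 0 := fun h => ha (h ▸ dvd_zero P)
  have hφa : φ a ≠ 0 := (map_ne_zero_iff φ hφ).mpr ha0
  have hf0 : f ≠ 0 := by
    rintro rfl
    apply hφa
    rw [← hab]
    simp
  have hfL : E f ≠ 0 := (map_ne_zero E).mpr hf0
  -- `f ∉ V`
  have hfV : f ∉ V := by
    intro hmem
    have h1 : E f⁻¹ * φ a = φ b := by
      rw [map_inv₀, ← hab]
      field_simp
    have h2 := hV2 f⁻¹ b a ha hPb h1 (by rwa [inv_inv])
    exact hf0 (inv_eq_zero.mp h2)
  -- constants
  have hK : ∀ c : Kb, algebraMap Kb (FF M) c ∈ V := by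
    refine algebraMap_mem_of_inv_intCast_mem V fun n hn => ?_
    refine hV1 _ 1 (PowerSeries.C ((n : ℤ) : capSubring A K₀)) (hhor _ ?_) ?_
    · intro h0
      have h1 : (((n : ℤ) : capSubring A K₀) : Kb) = 0 := by rw [h0]; rfl
      rw [Subring.coe_intCast] at h1
      exact hn (by exact_mod_cast h1)
    · have : PowerSeries.C ((n : ℤ) : capSubring A K₀)
          = ((n : ℤ) : PowerSeries (capSubring A K₀)) := by
        simp
      rw [this, map_intCast, map_one, map_inv₀, map_intCast]
      have hnL : ((n : ℤ) : LaurentSeries Kb) ≠ 0 := by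
        intro h0
        have h1 : algebraMap Kb (LaurentSeries Kb) ((n : ℤ) : Kb) = 0 := by
          rw [map_intCast]; exact h0
        have h2 : ((n : ℤ) : Kb) = 0 := (map_eq_zero _).mp h1
        exact hn (by exact_mod_cast h2)
      exact inv_mul_cancel₀ hnL
  have hVtop : V ≠ ⊤ := fun h => hfV (h ▸ ValuationSubring.mem_top f)
  obtain ⟨Q, hQ⟩ := Fermat.Agent.P2.helper23.exists_place_of_valuationSubring_FF M V hK hVtop
  -- `x ∈ V`
  have hPX : ¬ P ∣ PowerSeries.X := fun h => hX (hP.associated_of_dvd PowerSeries.X_prime h)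
  have hPXw : ¬ P ∣ PowerSeries.X ^ w := fun h => hPX (hP.dvd_of_dvd_pow h)
  have hxV : x ∈ V := hV1 x J (PowerSeries.X ^ w) hPXw hx
  have hj : 0 ≤ Q.ord x := Fermat.Agent.S24.helper82.ord_nonneg_of_mem Q (hQ ▸ hxV)
  have hf := Fermat.Agent.S24.helper82.mem_of_ord_nonneg Q (hreg Q hj)
  rw [hQ] at hf
  exact hfV hf

/-- **[INT-GEN]** integrality of the expansion at an arbitrary cusp: a function `f ∈ F_M`
which is regular where `x` is finite (`x` a function whose expansion times `t^w` is an integral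
power series, e.g. `x = j`) and whose expansion `E f` is a quotient of `A`-integral Laurent
series with a denominator of nonzero reduction has an `A`-integral expansion. -/
theorem integrality_emb (E : FF M →+* LaurentSeries Kb) (x : FF M) (w : ℕ)
    (hx : ∀ R₀ : Subring Kb, ∃ J : PowerSeries R₀, E x * phi R₀ (PowerSeries.X ^ w) = phi R₀ J)
    (f : FF M) (hratio : IsRatioEv A (E f))
    (hreg : ∀ Q : Place Kb (FF M), 0 ≤ Q.ord x → 0 ≤ Q.ord f)
    (hw : ∃ Y₁ Y₂ : LaurentSeries A, coeffMap (IsLocalRing.residue A) Y₂ ≠ 0 ∧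
      coeffMap A.subtype Y₁ = E f * coeffMap A.subtype Y₂) :
    ∃ Y : LaurentSeries A, coeffMap A.subtype Y = E f := by
  classical
  obtain ⟨S, hS⟩ := hratio
  set K₀ : IntermediateField ℚ Kb := IntermediateField.adjoin ℚ (S : Set Kb) with hK₀
  have halg : Algebra.IsAlgebraic ℚ (AlgebraicClosure ℚ) := AlgebraicClosure.isAlgebraic ℚ
  haveI : FiniteDimensional ℚ K₀ :=
    IntermediateField.finiteDimensional_adjoin fun x _ => (halg.isAlgebraic x).isIntegral
  obtain ⟨G₁, G₂, hG₂, hG⟩ := hS K₀ (IntermediateField.subset_adjoin ℚ _)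
  haveI := Fermat.Agent.P2.helper89.isPrincipalIdealRing_capSubring A K₀
  haveI := isLocalRing_capSubring A K₀
  obtain ⟨J, hJ⟩ := hx (capSubring A K₀)
  obtain ⟨r, a', ha'⟩ := exists_pow_mul_of_forall_prime (phi (capSubring A K₀))
    (phi_injective _) PowerSeries.X PowerSeries.X_ne_zero (E f)
    (fun P a b hP hX hPb hb0 hab => by
      by_cases hvert : ∃ r : capSubring A K₀, r ≠ 0 ∧ P ∣ PowerSeries.C r
      · obtain ⟨r, hr, hPr⟩ := hvert
        exact vertical_key A K₀ (E f) hw P a b hP r hr hPr hPb hab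
      · simp only [not_exists, not_and] at hvert
        exact horizontal_key_emb M A K₀ E x w J hJ f hreg P a b hP hX hvert hPb hab)
    G₂ hG₂ G₁ hG
  refine ⟨HahnSeries.single (-(r : ℤ)) (1 : A) * phiA A K₀ a', ?_⟩
  rw [map_mul, incl_phiA, ← ha', phi_X_pow, coeffMap_single, map_one, mul_comm (E f),
    ← mul_assoc, HahnSeries.single_mul_single]
  simp

/-- the hypothesis `hx` of `integrality_emb` for an expansion map with `E j = j`. -/
theorem exists_phi_of_jqModC (E : FF M →+* LaurentSeries Kb) (x : FF M)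
    (hj : E x = jqModC Kb) (R₀ : Subring Kb) :
    ∃ J : PowerSeries R₀, E x * phi R₀ (PowerSeries.X ^ 1) = phi R₀ J :=
  ⟨_, by rw [pow_one, hj]; exact jq_mul_phi_X R₀⟩

end Abstract

/-! ### Reductions -/

section Red

variable {A : ValuationSubring Kb}

/-- the reduction of an integral model is the quotient-form reduction. -/
theorem red_eq_of_rhoQ {g : LaurentSeries Kb} {X : LaurentSeries (kA A)} (h : RhoQ A g X)
    (Y : LaurentSeries A) (hY : incl A Y = g) : red A Y = X := by
  have h1 : RhoQ A g (red A Y) := hY ▸ Fermat.Agent.T3.helper36.rhoQ_incl Y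
  exact h1.unique h

end Red

/-! ### The three cusps of `X₀(N q²)` -/

section Cusps

variable {N q : ℕ} [NeZero N] [NeZero q] {hq : q.Prime} {hqN : ¬ q ∣ N}
variable {A : ValuationSubring Kb}

/-- **integrality at `∞`** (any level): quotient form + regular where `j` is finite. -/
theorem exists_incl_of_rhoQ (M : ℕ) [NeZero M] {f : FF M} (hf : IsRegJ M f)
    {X : LaurentSeries (kA A)} (h : RhoQ A (f : LaurentSeries Kb) X) :
    ∃ Y : LaurentSeries A, incl A Y = (f : LaurentSeries Kb) ∧ red A Y = X := by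
  obtain ⟨Y₁, Y₂, h0, h1, h2⟩ := h
  obtain ⟨Y, hY⟩ := integrality_emb M A (FF M).val.toRingHom (jElt M) 1
    (exists_phi_of_jqModC M (FF M).val.toRingHom (jElt M) rfl) f
    (exists_finset_isRatio M A _ f.2) hf ⟨Y₁, Y₂, h0, h1⟩
  exact ⟨Y, hY, red_eq_of_rhoQ ⟨Y₁, Y₂, h0, h1, h2⟩ Y hY⟩

/-- **integrality at the cusp `0` of `X₀(N q²)`**. -/
theorem exists_incl_of_rhoQ_atkinLehnerSq {f : FF (N * q * q)} (hf : IsRegJ (N * q * q) f)
    {X : LaurentSeries (kA A)}
    (h : RhoQ A ((atkinLehnerSq N q hq hqN f : FF (N * q * q)) : LaurentSeries Kb) X) :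
    ∃ Y : LaurentSeries A,
      incl A Y = ((atkinLehnerSq N q hq hqN f : FF (N * q * q)) : LaurentSeries Kb) ∧
      red A Y = X :=
  exists_incl_of_rhoQ (N * q * q) (isRegJ_atkinLehnerSq hf) h

/-- **integrality at the middle cusps of `X₀(N q²)`**. -/
theorem exists_incl_of_rhoQ_embMid {ζ : Kb} (hζ : IsPrimitiveRoot ζ q) (k : Fin q)
    (hk : (k : ℕ) ≠ 0) {f : FF (N * q * q)} (hf : IsRegJ (N * q * q) f)
    {X : LaurentSeries (kA A)} (h : RhoQ A (embMid N q hq hqN hζ k hk f) X) :
    ∃ Y : LaurentSeries A, incl A Y = embMid N q hq hqN hζ k hk f ∧ red A Y = X := by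
  obtain ⟨Y₁, Y₂, h0, h1, h2⟩ := h
  obtain ⟨Y, hY⟩ := integrality_emb (N * q * q) A
    (embMid N q hq hqN hζ k hk : FF (N * q * q) →+* LaurentSeries Kb) (jElt (N * q * q)) 1
    (exists_phi_of_jqModC (N * q * q) _ (jElt (N * q * q))
      (Fermat.Agent.T3.helper23.embMid_jElt N q hq hqN hζ k hk)) f
    (Fermat.Agent.T3.helper23.isRatioEv_embMid N q hq hqN A hζ k hk f) hf ⟨Y₁, Y₂, h0, h1⟩
  exact ⟨Y, hY, red_eq_of_rhoQ ⟨Y₁, Y₂, h0, h1, h2⟩ Y hY⟩

/-- **integrality at the cusp `i`**, `i : Fin 3`. -/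
theorem exists_incl_of_red3 {ζ : Kb} (hζ : IsPrimitiveRoot ζ q) (i : Fin 3)
    {f : FF (N * q * q)} (hf : IsRegJ (N * q * q) f) {X : LaurentSeries (kA A)}
    (h : Red3 N q hq hqN A hζ i f X) :
    ∃ Y : LaurentSeries A, incl A Y = ex3 N q hq hqN hζ i f ∧ red A Y = X := by
  have h' : RhoQ A (ex3 N q hq hqN hζ i f) X := h
  fin_cases i
  · have e := ex3_zero (hq := hq) (hqN := hqN) hζ f
    simp only [Fin.zero_eta] at h' ⊢
    rw [e] at h' ⊢
    exact exists_incl_of_rhoQ (N * q * q) hf h'
  · have e := ex3_one (hq := hq) (hqN := hqN) hζ f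
    simp only [Fin.mk_one] at h' ⊢
    rw [e] at h' ⊢
    exact exists_incl_of_rhoQ_atkinLehnerSq hf h'
  · have e := ex3_two (hq := hq) (hqN := hqN) hζ f
    simp only [Fin.reduceFinMk] at h' ⊢
    rw [e] at h' ⊢
    exact exists_incl_of_rhoQ_embMid hζ _ _ hf h'

/-- **[INT3]** a function which is regular where `j` is finite and has quotient-form reductions
`X i` at the three cusps has `A`-integral expansions `Y i` with `red (Y i) = X i`. -/
theorem exists_triple_of_red3 {ζ : Kb} (hζ : IsPrimitiveRoot ζ q) {f : FF (N * q * q)}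
    (hf : IsRegJ (N * q * q) f) {X : Fin 3 → LaurentSeries (kA A)}
    (h : ∀ i, Red3 N q hq hqN A hζ i f (X i)) :
    ∃ Y : Fin 3 → LaurentSeries A, (∀ i, incl A (Y i) = ex3 N q hq hqN hζ i f) ∧
      ∀ i, red A (Y i) = X i := by
  choose Y hY using fun i => exists_incl_of_red3 hζ i hf (h i)
  exact ⟨Y, fun i => (hY i).1, fun i => (hY i).2⟩

/-- `Red3` + regular where `j` is finite ⟹ `IsInt3`. -/
theorem isInt3_of_red3 {ζ : Kb} (hζ : IsPrimitiveRoot ζ q) {f : FF (N * q * q)}
    (hf : IsRegJ (N * q * q) f) {X : Fin 3 → LaurentSeries (kA A)}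
    (h : ∀ i, Red3 N q hq hqN A hζ i f (X i)) : IsInt3 N q hq hqN A hζ f := by
  obtain ⟨Y, hY, -⟩ := exists_triple_of_red3 hζ hf h
  exact fun i => ⟨Y i, hY i⟩

/-- `Red3` + `IsFixI` + regular where `j` is finite ⟹ `IsTriple` with the given reductions. -/
theorem isTriple_of_red3 {ζ : Kb} (hζ : IsPrimitiveRoot ζ q) {f : FF (N * q * q)}
    (hf : IsRegJ (N * q * q) f) (hfix : IsFixI A (N * q * q) f)
    {X : Fin 3 → LaurentSeries (kA A)} (h : ∀ i, Red3 N q hq hqN A hζ i f (X i)) :
    ∃ Y : Fin 3 → LaurentSeries A, IsTriple N q hq hqN A hζ f Y ∧ ∀ i, red A (Y i) = X i := by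
  obtain ⟨Y, hY, hr⟩ := exists_triple_of_red3 hζ hf h
  exact ⟨Y, ⟨hfix, hY⟩, hr⟩

end Cusps

end Fermat.Agent.T3.helper98

end
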