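import Mathlib
import Fermat.Agent.T3.helper98_IntGen
import Fermat.Agent.T3.helper48_CompleteAFix
import Fermat.Agent.T2.helper96_ValBase

/-!
# Tier 3, [T3-RES] core (helper98, task 1100): the reductions of the integral ring are regular
where `j̄` is finite

* `isIntegral_polyA_of_red3` : `f ∈ F_{Nqq}` regular where `j` is finite, `I`-fixed, with
  quotient-form reductions at the three cusps ⟹ `f` is integral over `A[j]`
  (INT3 + `helper48.completeA_of_fix`);
* `isIntegralElem_red` (abstract), `isIntegralElem_red_of_isIntegralElem` : the reduction of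
  the expansion of a function which is integral over `A[j]` is integral over `k[red (E j)]`;
* `isIntegralElem_red3` **[RES-core]** : under the hypotheses of the first item the
  reductions `X i` are integral over `k[j̄]` (in `k((t))`);
* `ord_nonneg_of_red3` **[RES]** : if moreover `X i ∈ F̃_N`, then `X i` is regular at every place
  of `F̃_N` where `j̄` is finite.
-/

set_option autoImplicit false
set_option synthInstance.maxHeartbeats 400000
set_option maxHeartbeats 1000000
set_option linter.style.haveILetI false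
set_option linter.unusedSectionVars false
set_option linter.unusedVariables false
set_option linter.style.longLine false

noncomputable section

open HahnSeries IntermediateField AlgebraicCurve ModularCurve
open Fermat.Agent.S18.helper19 Fermat.Agent.P2.helper29 Fermat.Agent.T2.helper36
open Fermat.Agent.S24

namespace Fermat.Agent.T3.helper98

open Fermat.Agent.T3.helper87 (embMid)
open Fermat.Agent.T3.helper48 (atkinLehnerSq atkinLehnerSq_atkinLehnerSq)
open Fermat.Agent.T3.helper74 (IsFixI IsInt3 ex3 midOne midOne_ne dg0)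
open Fermat.Agent.T3.helper36 (RhoQ)
open Fermat.Agent.T3.helper72 (Red3)
open Fermat.Agent.P2.helper81 (evX)

attribute [local instance] Fermat.Agent.P2.helper81.algAX

/-! ### Membership in the integral ring -/

section AA

variable {N q : ℕ} [NeZero N] [NeZero q] {hq : q.Prime} {hqN : ¬ q ∣ N}
variable {A : ValuationSubring Kb}

/-- **[AA]** a function which is regular where `j` is finite, `I`-fixed and has quotient-form
reductions at the three cusps is integral over `A[j]`. -/
theorem isIntegral_polyA_of_red3 (hA : A.LiesOverPrime q) {ζ : Kb} (hζ : IsPrimitiveRoot ζ q)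
    {f : FF (N * q * q)} (hf : IsRegJ (N * q * q) f) (hfix : IsFixI A (N * q * q) f)
    {X : Fin 3 → LaurentSeries (kA A)} (h : ∀ i, Red3 N q hq hqN A hζ i f (X i)) :
    IsIntegral (Polynomial A) f :=
  Fermat.Agent.T3.helper48.completeA_of_fix A N q hq hqN hA hζ f hfix (isInt3_of_red3 hζ hf h) hf

theorem isIntegralElem_evX_of_red3 (hA : A.LiesOverPrime q) {ζ : Kb}
    (hζ : IsPrimitiveRoot ζ q) {f : FF (N * q * q)} (hf : IsRegJ (N * q * q) f)
    (hfix : IsFixI A (N * q * q) f) {X : Fin 3 → LaurentSeries (kA A)}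
    (h : ∀ i, Red3 N q hq hqN A hζ i f (X i)) :
    (evX A (N * q * q)).IsIntegralElem f :=
  isIntegral_polyA_of_red3 hA hζ hf hfix h

end AA

/-! ### Reduction of integral elements -/

section Abstract

/-- abstract reduction of a monic equation. -/
theorem isIntegralElem_red {R₁ R₂ F L LA Lk : Type*} [CommRing R₁] [CommRing R₂] [CommRing F]
    [CommRing L] [CommRing LA] [CommRing Lk]
    (e : R₁ →+* F) (E : F →+* L) (ι : LA →+* L) (hι : Function.Injective ι)
    (ρ : LA →+* Lk) (a : R₁ →+* LA) (b : R₂ →+* Lk) (m : R₁ →+* R₂)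
    (h1 : ι.comp a = E.comp e) (h2 : ρ.comp a = b.comp m)
    {f : F} (hf : e.IsIntegralElem f) (Y : LA) (hY : ι Y = E f) :
    b.IsIntegralElem (ρ Y) := by
  obtain ⟨p, hp, hp0⟩ := hf
  have h3 : Polynomial.eval₂ a Y p = 0 := by
    apply hι
    rw [Polynomial.hom_eval₂, h1, hY, ← Polynomial.hom_eval₂, hp0, map_zero, map_zero]
  refine ⟨p.map m, hp.map m, ?_⟩
  rw [Polynomial.eval₂_map, ← h2, ← Polynomial.hom_eval₂, h3, map_zero]

/-- integrality over a composite. -/
theorem isIntegralElem_of_comp {R S T : Type*} [CommRing R] [CommRing S] [CommRing T]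
    (c : R →+* S) (b : S →+* T) {x : T} (hx : (b.comp c).IsIntegralElem x) :
    b.IsIntegralElem x := by
  obtain ⟨p, hp, hp0⟩ := hx
  exact ⟨p.map c, hp.map c, by rw [Polynomial.eval₂_map]; exact hp0⟩

end Abstract

section Ev

variable {k : Type*} [Field k]

/-- the structure map `k[X] → k((t))`, `X ↦ y`. -/
def evBar (y : LaurentSeries k) : Polynomial k →+* LaurentSeries k :=
  Polynomial.eval₂RingHom (algebraMap k (LaurentSeries k)) y

theorem evBar_C (y : LaurentSeries k) (c : k) :
    evBar y (Polynomial.C c) = algebraMap k (LaurentSeries k) c := by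
  simp [evBar]

theorem evBar_X (y : LaurentSeries k) : evBar y Polynomial.X = y := by
  simp [evBar]

/-- integral over `k[y ^ n]` ⟹ integral over `k[y]`. -/
theorem isIntegralElem_evBar_of_pow (y : LaurentSeries k) (n : ℕ) {x : LaurentSeries k}
    (hx : (evBar (y ^ n)).IsIntegralElem x) : (evBar y).IsIntegralElem x := by
  have e : evBar (y ^ n) = (evBar y).comp
      (Polynomial.eval₂RingHom (Polynomial.C : k →+* Polynomial k) (Polynomial.X ^ n)) := by
    apply Polynomial.ringHom_ext
    · intro c
      simp [evBar]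
    · simp [evBar]
  rw [e] at hx
  exact isIntegralElem_of_comp _ _ hx

end Ev

section Red

variable {A : ValuationSubring Kb}

/-- the structure map `A[X] → A((t))`, `X ↦ Y`. -/
def evInt (Y : LaurentSeries A) : Polynomial A →+* LaurentSeries A :=
  Polynomial.eval₂RingHom (HahnSeries.C : A →+* LaurentSeries A) Y

theorem incl_C' (a : A) : incl A (HahnSeries.C a) = algebraMap Kb (LaurentSeries Kb) (a : Kb) := by
  rw [algebraMap_laurentSeries_eq_single]
  exact coeffMap_single A.subtype 0 a

theorem red_comp_evInt (Y : LaurentSeries A) :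
    (red A).comp (evInt Y)
      = (evBar (red A Y)).comp (Polynomial.mapRingHom (IsLocalRing.residue A)) := by
  apply Polynomial.ringHom_ext
  · intro c
    simp only [RingHom.comp_apply, evInt, Polynomial.coe_eval₂RingHom, Polynomial.eval₂_C,
      Polynomial.coe_mapRingHom, Polynomial.map_C, evBar]
    exact Fermat.Agent.T2.helper22.red_C c
  · simp only [RingHom.comp_apply, evInt, Polynomial.coe_eval₂RingHom, Polynomial.eval₂_X,
      Polynomial.coe_mapRingHom, Polynomial.map_X, evBar]

/-- **the reduction of the expansion of a function which is integral over `A[j]` is integral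
over `k[red (E j)]`**, for any expansion map `E`. -/
theorem isIntegralElem_red_of_isIntegralElem (M : ℕ) [NeZero M]
    (E : FF M →+* LaurentSeries Kb)
    (hE : ∀ c : Kb, E (algebraMap Kb (FF M) c) = algebraMap Kb (LaurentSeries Kb) c)
    (Yj : LaurentSeries A) (hYj : incl A Yj = E (xJ M))
    {f : FF M} (hf : (evX A M).IsIntegralElem f) (Y : LaurentSeries A) (hY : incl A Y = E f) :
    (evBar (red A Yj)).IsIntegralElem (red A Y) := by
  refine isIntegralElem_red (evX A M) E (incl A) incl_injective' (red A) (evInt Yj)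
    (evBar (red A Yj)) (Polynomial.mapRingHom (IsLocalRing.residue A)) ?_ (red_comp_evInt Yj)
    hf Y hY
  apply Polynomial.ringHom_ext
  · intro c
    rw [RingHom.comp_apply, RingHom.comp_apply, Fermat.Agent.P2.helper81.evX_C, hE]
    simp only [evInt, Polynomial.coe_eval₂RingHom, Polynomial.eval₂_C]
    exact incl_C' c
  · rw [RingHom.comp_apply, RingHom.comp_apply, Fermat.Agent.P2.helper81.evX_X, ← hYj]
    simp only [evInt, Polynomial.coe_eval₂RingHom, Polynomial.eval₂_X]

end Red

/-! ### The three cusps -/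

section Cusps

variable {N q : ℕ} [NeZero N] [NeZero q] {hq : q.Prime} {hqN : ¬ q ∣ N}
variable {A : ValuationSubring Kb}

theorem xJ_eq_dg0 : xJ (N * q * q) = dg0 N q (xJ N) := by
  apply Subtype.ext
  have h : ((dg0 N q (xJ N) : FF (N * q * q)) : LaurentSeries Kb)
      = ((xJ N : FF N) : LaurentSeries Kb) := by
    rw [dg0, AlgHom.comp_apply, coe_heckeAlphaBar, coe_heckeAlphaBar]
  rw [h, Fermat.Agent.P2.helper81.coe_xJ_eq, Fermat.Agent.P2.helper81.coe_xJ_eq]

/-- the expansions are `ℚ̄`-linear. -/
theorem ex3_const {ζ : Kb} (hζ : IsPrimitiveRoot ζ q) (i : Fin 3) (c : Kb) :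
    ex3 N q hq hqN hζ i (algebraMap Kb (FF (N * q * q)) c)
      = algebraMap Kb (LaurentSeries Kb) c := by
  fin_cases i
  · simp only [Fin.zero_eta]
    rw [ex3_zero]
    rfl
  · simp only [Fin.mk_one]
    rw [ex3_one, AlgEquiv.commutes]
    rfl
  · simp only [Fin.reduceFinMk]
    rw [ex3_two, AlgHom.commutes]

theorem incl_jqModC : incl A (jqModC A) = jqModC Kb := coeffMap_jqModC _

theorem red_jqModC : red A (jqModC A) = jqModC (kA A) := coeffMap_jqModC _

theorem coe_xJ' (M : ℕ) [NeZero M] : ((xJ M : FF M) : LaurentSeries Kb) = jqModC Kb :=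
  Fermat.Agent.T2.helper45.coe_xJ M

/-- **[RES-core]** the reductions of an `I`-fixed function regular where `j` is finite are
integral over `k[j̄]`. -/
theorem isIntegralElem_red3 (hA : A.LiesOverPrime q) {ζ : Kb} (hζ : IsPrimitiveRoot ζ q)
    {f : FF (N * q * q)} (hf : IsRegJ (N * q * q) f) (hfix : IsFixI A (N * q * q) f)
    {X : Fin 3 → LaurentSeries (kA A)} (h : ∀ i, Red3 N q hq hqN A hζ i f (X i)) (i : Fin 3) :
    (evBar (jqModC (kA A))).IsIntegralElem (X i) := by
  have hint := isIntegralElem_evX_of_red3 hA hζ hf hfix h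
  obtain ⟨Y, hY, hr⟩ := exists_triple_of_red3 hζ hf h
  rw [← hr i]
  have hE : ∀ c : Kb, ex3 N q hq hqN hζ i (algebraMap Kb (FF (N * q * q)) c)
      = algebraMap Kb (LaurentSeries Kb) c :=
    ex3_const hζ i
  fin_cases i
  · -- `∞`
    have hj : incl A (jqModC A) = ex3 N q hq hqN hζ 0 (xJ (N * q * q)) := by
      rw [xJ_eq_dg0, ex3_zero_dg0, coe_xJ', incl_jqModC]
    have := isIntegralElem_red_of_isIntegralElem (N * q * q) (ex3 N q hq hqN hζ 0) hE
      (jqModC A) hj hint (Y 0) (hY 0)
    rwa [red_jqModC] at this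
  · -- `0`
    have hj : incl A (qExpand A q (qExpand A q (jqModC A)))
        = ex3 N q hq hqN hζ 1 (xJ (N * q * q)) := by
      rw [xJ_eq_dg0, ex3_one_dg0, coe_xJ', ← incl_jqModC (A := A)]
      show coeffMap _ _ = _
      rw [Fermat.Agent.P2.helper94.coeffMap_qExpand, Fermat.Agent.P2.helper94.coeffMap_qExpand]
    have := isIntegralElem_red_of_isIntegralElem (N * q * q) (ex3 N q hq hqN hζ 1) hE
      _ hj hint (Y 1) (hY 1)
    have e : red A (qExpand A q (qExpand A q (jqModC A))) = (jqModC (kA A) ^ q) ^ q := by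
      show coeffMap _ _ = _
      rw [Fermat.Agent.P2.helper94.coeffMap_qExpand, Fermat.Agent.P2.helper94.coeffMap_qExpand]
      have e1 : coeffMap (IsLocalRing.residue A) (jqModC A) = jqModC (kA A) := coeffMap_jqModC _
      rw [e1, Fermat.Agent.T2.helper96.jBar_qExpand A hq hA, map_pow,
        Fermat.Agent.T2.helper96.jBar_qExpand A hq hA]
    rw [e, ← pow_mul] at this
    exact isIntegralElem_evBar_of_pow _ _ this
  · -- middle
    have hj : incl A (jqModC A) = ex3 N q hq hqN hζ 2 (xJ (N * q * q)) := by
      rw [xJ_eq_dg0, ex3_two_dg0, coe_xJ', incl_jqModC]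
    have := isIntegralElem_red_of_isIntegralElem (N * q * q) (ex3 N q hq hqN hζ 2) hE
      (jqModC A) hj hint (Y 2) (hY 2)
    rwa [red_jqModC] at this

/-- **[RES]** if moreover the reduction lies in the special fibre field `F̃_N`, it is regular
at every place of `F̃_N` where `j̄` is finite. -/
theorem ord_nonneg_of_red3 (hA : A.LiesOverPrime q) {ζ : Kb} (hζ : IsPrimitiveRoot ζ q)
    {f : FF (N * q * q)} (hf : IsRegJ (N * q * q) f) (hfix : IsFixI A (N * q * q) f)
    {X : Fin 3 → LaurentSeries (kA A)} (h : ∀ i, Red3 N q hq hqN A hζ i f (X i)) (i : Fin 3)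
    (hX : X i ∈ FFb A N) (Q : Place (kA A) (FFb A N)) (hQ : 0 ≤ Q.ord (jBar A N)) :
    0 ≤ Q.ord (⟨X i, hX⟩ : FFb A N) := by
  have h1 := isIntegralElem_red3 hA hζ hf hfix h i
  set φ : Polynomial (kA A) →+* FFb A N :=
    Polynomial.eval₂RingHom (algebraMap (kA A) (FFb A N)) (jBar A N) with hφ
  have hcomp : evBar (jqModC (kA A)) = ((FFb A N).val : FFb A N →+* LaurentSeries (kA A)).comp φ := by
    apply Polynomial.ringHom_ext
    · intro c
      simp [evBar, hφ]
    · simp only [evBar, hφ, RingHom.comp_apply, Polynomial.coe_eval₂RingHom, Polynomial.eval₂_X]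
      rfl
  have h2 : φ.IsIntegralElem (⟨X i, hX⟩ : FFb A N) := by
    obtain ⟨p, hp, hp0⟩ := h1
    refine ⟨p, hp, ?_⟩
    apply Subtype.ext
    have h3 : ((Polynomial.eval₂ φ (⟨X i, hX⟩ : FFb A N) p : FFb A N) : LaurentSeries (kA A))
        = Polynomial.eval₂ (((FFb A N).val : FFb A N →+* LaurentSeries (kA A)).comp φ)
            (X i) p :=
      Polynomial.hom_eval₂ p φ ((FFb A N).val : FFb A N →+* LaurentSeries (kA A)) ⟨X i, hX⟩
    rw [h3, ← hcomp, hp0]
    rfl
  rw [← helper82.mem_iff_ord_nonneg] at hQ ⊢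
  refine Fermat.Agent.T2.helper87.mem_of_isIntegralElem Q.toValuationSubring φ (fun r => ?_) h2
  induction r using Polynomial.induction_on' with
  | add r s hr hs =>
    rw [map_add]
    exact Q.toValuationSubring.add_mem _ _ hr hs
  | monomial n a =>
    rw [hφ, Polynomial.coe_eval₂RingHom, Polynomial.eval₂_monomial]
    exact Q.toValuationSubring.mul_mem _ _ (Q.algebraMap_mem' a) (pow_mem hQ n)

end Cusps

end Fermat.Agent.T3.helper98

end
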