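/-
T3 (S36), helper20, [T3-GAUSS-ALL] (row 1090): the Gauss valuation of an ARBITRARY expansion
map on the functions of level `N q²` which are inertia-fixed, regular where `j` is finite and have
reduction `1` at the three cusps over `∞_N`.

* `exists_prim_powerSeries` : a nonzero power series over a local principal ideal domain is a
  nonzero constant times a power series with a unit coefficient;
* `exists_gaussIs_of_isRatioEv` **(SCALE)** : every nonzero series which is a quotient of
  integral power series over a number field has a Gauss value: `s = c · (Gauss unit)`;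
* `gaussRing A E hratio` : the Gauss valuation ring `{f | E f is Gauss-integral}` of an expansion
  map `E : F_M →+* ℚ̄((T))`, a valuation subring of `F_M`;
* `rhoQ_of_isIntegralElem` : functions integral over `A[j]` are Gauss-integral at every expansion
  map with `E j` integral;
* `rhoQ_zero_of_pow` : the maximal ideal of the Gauss valuation ring is radical;
* `exists_red3_pow_div` : if `g` is inertia-fixed with reduction `0` at the three cusps, then
  `g ^ (q - 1) / q` is Gauss-integral at the three cusps (discreteness, helper5);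
* `integrality_emb_of_int` : `helper98.integrality_emb` with the hypothesis "`E j` is
  `A`-integral and a ratio" (no shape of `E j` needed);
* `gaussAll_quot` **[GAUSS-ALL], quotient form** and `gaussAll`, `gaussAll_family`
  **[GAUSS-ALL]** (`= hint` of `helper27.root3_all` and of `helper23.disc_all`) : if `H` is
  inertia-fixed, regular where `j` is finite and `Red3 i H 1` for `i = 0, 1, 2`, then for EVERY
  expansion map `E` (identity on the constants, values ratios, `E j` integral: the three fields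
  of `helper23.DiscPack`) the expansion `E H` is `A`-integral with reduction `1`.

No table of the values of `E` on `dg_e j` and no separating elements are needed: `h = H - 1` has
positive Gauss valuation at the three cusps over `∞_N`, hence `h ^ (q - 1) / q` is integral over
`A[j]` (discreteness + INT3 + COMPLETE-A), hence Gauss-integral at `E` (valuation rings are
integrally closed), hence `(E h) ^ (q - 1)` has reduction `0`, hence `E h` has reduction `0`.
-/
import Mathlib
import Fermat.Agent.T3.helper20_Approx3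
import Fermat.Agent.T3.helper98_ResCore
import Fermat.Agent.T3.helper5_Gauss3BMid
import Fermat.Agent.T3.helper23_DiscAll
import Fermat.Agent.T3.helper48_RegAll
import Fermat.Agent.T3.helper84_K0Zeta

set_option autoImplicit false
set_option synthInstance.maxHeartbeats 400000
set_option maxHeartbeats 1000000
set_option linter.style.haveILetI false
set_option linter.unusedSectionVars false
set_option linter.unusedVariables false
set_option linter.style.longLine false

noncomputable section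

open HahnSeries IntermediateField AlgebraicCurve ModularCurve
open Fermat.Agent.S18.helper19 Fermat.Agent.P2.helper29

namespace Fermat.Agent.T3.helper20

open Fermat.Agent.P2.helper23 (capSubring phi phi_apply phi_injective IsRatio)
open Fermat.Agent.P2.helper73 (IsRatioEv)
open Fermat.Agent.T2.helper45 (phiA incl_phiA isLocalRing_capSubring red_phiA_eq_zero_iff)
open Fermat.Agent.T3.helper36 (RhoQ GaussIs)
open Fermat.Agent.T3.helper98 (IsRegJ)
open Fermat.Agent.P2.helper81 (evX)

/-! ### Primitive part of a power series over a discrete valuation ring -/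

section Prim

variable {R : Type*} [CommRing R] [IsDomain R] [IsPrincipalIdealRing R] [IsLocalRing R]

/-- a nonzero power series over a local principal ideal domain is a nonzero constant times a
power series one of whose coefficients is a unit. -/
theorem exists_prim_powerSeries (G : PowerSeries R) (hG : G ≠ 0) :
    ∃ (c : R) (G' : PowerSeries R), c ≠ 0 ∧ G = PowerSeries.C c * G' ∧
      ∃ n, IsUnit (PowerSeries.coeff n G') := by
  classical
  set I : Ideal R := Ideal.span (Set.range fun n => PowerSeries.coeff n G) with hI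
  obtain ⟨c, hc⟩ : ∃ c, I = Ideal.span {c} := (IsPrincipalIdealRing.principal I).principal
  have hmem : ∀ n, PowerSeries.coeff n G ∈ I := fun n => Ideal.subset_span ⟨n, rfl⟩
  have hc0 : c ≠ 0 := by
    rintro rfl
    apply hG
    ext n
    have h := hmem n
    rw [hc, Ideal.mem_span_singleton] at h
    rw [map_zero]
    exact zero_dvd_iff.mp h
  have hdiv : ∀ n, ∃ b, PowerSeries.coeff n G = c * b := fun n => by
    have h := hmem n
    rw [hc, Ideal.mem_span_singleton] at h
    exact h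
  choose b hb using hdiv
  refine ⟨c, PowerSeries.mk b, hc0, ?_, ?_⟩
  · ext n
    rw [PowerSeries.coeff_C_mul, PowerSeries.coeff_mk, hb]
  · by_contra hcon
    push Not at hcon
    have hJ : I ≤ Ideal.span {c} * IsLocalRing.maximalIdeal R := by
      rw [hI, Ideal.span_le]
      rintro _ ⟨n, rfl⟩
      show PowerSeries.coeff n G ∈ _
      rw [hb n]
      refine Ideal.mul_mem_mul (Ideal.mem_span_singleton_self c) ?_
      have := hcon n
      rw [PowerSeries.coeff_mk] at this
      exact (IsLocalRing.mem_maximalIdeal _).mpr this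
    have hcI : c ∈ I := by
      rw [hc]
      exact Ideal.mem_span_singleton_self c
    obtain ⟨m, hm, hcm⟩ := Ideal.mem_span_singleton_mul.mp (hJ hcI)
    have h1 : m = 1 := mul_left_cancel₀ hc0 (by rw [hcm, mul_one])
    rw [h1] at hm
    exact (IsLocalRing.mem_maximalIdeal _).mp hm isUnit_one

end Prim

/-! ### Scaling -/

section Scale

variable (A : ValuationSubring Kb)

theorem phi_C_mul (R₀ : Subring Kb) (c : R₀) (G : PowerSeries R₀) :
    phi R₀ (PowerSeries.C c * G) = algebraMap Kb (LaurentSeries Kb) (c : Kb) * phi R₀ G := by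
  rw [map_mul]
  congr 1
  rw [phi_apply, PowerSeries.map_C, HahnSeries.ofPowerSeries_C,
    algebraMap_laurentSeries_eq_single]
  rfl

/-- **(SCALE)** every nonzero quotient of integral power series over a number field has a
Gauss value. -/
theorem exists_gaussIs_of_isRatioEv {s : LaurentSeries Kb} (hs : IsRatioEv A s) (hs0 : s ≠ 0) :
    ∃ c : Kb, GaussIs A s c := by
  classical
  obtain ⟨S, hS⟩ := hs
  set K₀ : IntermediateField ℚ Kb := IntermediateField.adjoin ℚ (S : Set Kb) with hK₀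
  have halg : Algebra.IsAlgebraic ℚ (AlgebraicClosure ℚ) := AlgebraicClosure.isAlgebraic ℚ
  haveI : FiniteDimensional ℚ K₀ :=
    IntermediateField.finiteDimensional_adjoin fun x _ => (halg.isAlgebraic x).isIntegral
  obtain ⟨G₁, G₂, hG₂, hG⟩ := hS K₀ (IntermediateField.subset_adjoin ℚ _)
  haveI := Fermat.Agent.P2.helper89.isPrincipalIdealRing_capSubring A K₀
  haveI := isLocalRing_capSubring A K₀
  have hG₁ : G₁ ≠ 0 := by
    rintro rfl
    rw [map_zero] at hG
    rcases mul_eq_zero.mp hG with h | h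
    · exact hs0 h
    · exact hG₂ (phi_injective _ (by rw [h, map_zero]))
  obtain ⟨c₁, G₁', hc₁, e₁, n₁, hn₁⟩ := exists_prim_powerSeries G₁ hG₁
  obtain ⟨c₂, G₂', hc₂, e₂, n₂, hn₂⟩ := exists_prim_powerSeries G₂ hG₂
  have hY₁ : red A (phiA A K₀ G₁') ≠ 0 := fun h => (red_phiA_eq_zero_iff A K₀ G₁').mp h n₁ hn₁
  have hY₂ : red A (phiA A K₀ G₂') ≠ 0 := fun h => (red_phiA_eq_zero_iff A K₀ G₂').mp h n₂ hn₂
  have hc₁K : (c₁ : Kb) ≠ 0 := fun h => hc₁ (Subtype.ext h)
  have hc₂K : (c₂ : Kb) ≠ 0 := fun h => hc₂ (Subtype.ext h)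
  refine ⟨(c₁ : Kb) / (c₂ : Kb), div_ne_zero hc₁K hc₂K,
    red A (phiA A K₀ G₁') / red A (phiA A K₀ G₂'), div_ne_zero hY₁ hY₂,
    phiA A K₀ G₁', phiA A K₀ G₂', hY₂, ?_, by rw [div_mul_cancel₀ _ hY₂]⟩
  rw [incl_phiA, incl_phiA]
  rw [e₁, e₂, phi_C_mul, phi_C_mul] at hG
  have ha₁ : algebraMap Kb (LaurentSeries Kb) (c₁ : Kb) ≠ 0 := by
    rw [Ne, map_eq_zero]; exact hc₁K
  have ha₂ : algebraMap Kb (LaurentSeries Kb) (c₂ : Kb) ≠ 0 := by
    rw [Ne, map_eq_zero]; exact hc₂K
  rw [inv_div, map_div₀]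
  apply mul_left_cancel₀ ha₁
  rw [← hG]
  field_simp

variable {A}

/-- an element with Gauss value `c ∈ A` is Gauss-integral -/
theorem exists_rhoQ_of_gaussIs_mem {s : LaurentSeries Kb} {c : Kb} (h : GaussIs A s c)
    (hc : c ∈ A) : ∃ r : LaurentSeries (kA A), RhoQ A s r := by
  obtain ⟨hc0, r, -, hr⟩ := h
  have h1 := (Fermat.Agent.T3.helper36.rhoQ_algebraMap (A := A) ⟨c, hc⟩).mul hr
  have e : algebraMap Kb (LaurentSeries Kb) (((⟨c, hc⟩ : A) : Kb)) *
      (algebraMap Kb (LaurentSeries Kb) c⁻¹ * s) = s := by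
    rw [← mul_assoc, ← map_mul]
    show algebraMap Kb (LaurentSeries Kb) (c * c⁻¹) * s = s
    rw [mul_inv_cancel₀ hc0, map_one, one_mul]
  rw [e] at h1
  exact ⟨_, h1⟩

theorem residue_eq_zero_of_lt {c : Kb} (hc : c ∈ A) (hlt : A.valuation c < 1) :
    IsLocalRing.residue A ⟨c, hc⟩ = 0 := by
  rw [IsLocalRing.residue_eq_zero_iff]
  exact (A.valuation_lt_one_iff (⟨c, hc⟩ : A)).2 hlt

/-- an element with Gauss value `c`, `v(c) < 1`, has reduction `0` -/
theorem rhoQ_zero_of_gaussIs_lt {s : LaurentSeries Kb} {c : Kb} (h : GaussIs A s c)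
    (hc : A.valuation c < 1) : RhoQ A s 0 := by
  obtain ⟨hc0, r, -, hr⟩ := h
  have hcA : c ∈ A := (A.valuation_le_one_iff c).1 hc.le
  have h1 := (Fermat.Agent.T3.helper36.rhoQ_algebraMap (A := A) ⟨c, hcA⟩).mul hr
  have e : algebraMap Kb (LaurentSeries Kb) (((⟨c, hcA⟩ : A) : Kb)) *
      (algebraMap Kb (LaurentSeries Kb) c⁻¹ * s) = s := by
    rw [← mul_assoc, ← map_mul]
    show algebraMap Kb (LaurentSeries Kb) (c * c⁻¹) * s = s
    rw [mul_inv_cancel₀ hc0, map_one, one_mul]
  rw [e, residue_eq_zero_of_lt hcA hc, map_zero, zero_mul] at h1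
  exact h1

/-- an element with Gauss value `c` and reduction `0` has `v(c) < 1` -/
theorem valuation_lt_one_of_rhoQ_zero {s : LaurentSeries Kb} {c : Kb} (h : GaussIs A s c)
    (h0 : RhoQ A s 0) : A.valuation c < 1 := by
  by_contra hge
  rw [not_lt] at hge
  obtain ⟨hc0, r, hr0, hr⟩ := h
  have hv : A.valuation c ≠ 0 := (Valuation.ne_zero_iff _).2 hc0
  have hinv : A.valuation c⁻¹ ≤ 1 := by
    rw [map_inv₀]
    exact inv_le_one_of_one_le₀ hge
  have hmem : c⁻¹ ∈ A := (A.valuation_le_one_iff _).1 hinv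
  have h1 := (Fermat.Agent.T3.helper36.rhoQ_algebraMap (A := A) ⟨c⁻¹, hmem⟩).mul h0
  rw [mul_zero] at h1
  exact hr0 (hr.unique h1)

/-- an element with Gauss value `c ∉ A`: the inverse has reduction `0` -/
theorem rhoQ_inv_zero_of_gaussIs_not_mem {s : LaurentSeries Kb} {c : Kb} (h : GaussIs A s c)
    (hc : c ∉ A) : RhoQ A s⁻¹ 0 := by
  have hinv : GaussIs A s⁻¹ c⁻¹ := h.inv
  apply rhoQ_zero_of_gaussIs_lt hinv
  rw [map_inv₀]
  have h1 : 1 < A.valuation c := by
    rw [← not_le, A.valuation_le_one_iff]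
    exact hc
  exact inv_lt_one_of_one_lt₀ h1

variable (A)

/-- **the Gauss valuation is a valuation**: a quotient of integral power series over a number
field is Gauss-integral, or its inverse has reduction `0`. -/
theorem rhoQ_or_rhoQ_inv {s : LaurentSeries Kb} (hs : IsRatioEv A s) :
    (∃ r : LaurentSeries (kA A), RhoQ A s r) ∨ RhoQ A s⁻¹ 0 := by
  by_cases hs0 : s = 0
  · subst hs0
    exact Or.inl ⟨0, Fermat.Agent.T3.helper36.rhoQ_zero⟩
  obtain ⟨c, hc⟩ := exists_gaussIs_of_isRatioEv A hs hs0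
  by_cases hcA : c ∈ A
  · exact Or.inl (exists_rhoQ_of_gaussIs_mem hc hcA)
  · exact Or.inr (rhoQ_inv_zero_of_gaussIs_not_mem hc hcA)

/-- **the maximal ideal of the Gauss valuation ring is radical.** -/
theorem rhoQ_zero_of_pow {s : LaurentSeries Kb} (hs : IsRatioEv A s) {n : ℕ} (hn : n ≠ 0)
    (h : RhoQ A (s ^ n) 0) : RhoQ A s 0 := by
  by_cases hs0 : s = 0
  · subst hs0
    exact Fermat.Agent.T3.helper36.rhoQ_zero
  obtain ⟨c, hc⟩ := exists_gaussIs_of_isRatioEv A hs hs0
  have h2 := valuation_lt_one_of_rhoQ_zero (hc.pow n) h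
  apply rhoQ_zero_of_gaussIs_lt hc
  by_contra hge
  rw [not_lt] at hge
  rw [map_pow] at h2
  exact absurd h2 (not_lt.mpr (one_le_pow₀ hge))

end Scale

/-! ### The Gauss valuation ring of an expansion map -/

section Ring

variable {M : ℕ} [NeZero M] (A : ValuationSubring Kb) (E : FF M →+* LaurentSeries Kb)
  (hratio : ∀ y : FF M, IsRatioEv A (E y))

/-- the Gauss valuation ring of the expansion map `E` -/
def gaussRing : ValuationSubring (FF M) where
  carrier := {f | ∃ r : LaurentSeries (kA A), RhoQ A (E f) r}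
  mul_mem' := by
    rintro a b ⟨r, hr⟩ ⟨s, hs⟩
    exact ⟨r * s, by rw [map_mul]; exact hr.mul hs⟩
  one_mem' := ⟨1, by rw [map_one]; exact Fermat.Agent.T3.helper36.rhoQ_one⟩
  add_mem' := by
    rintro a b ⟨r, hr⟩ ⟨s, hs⟩
    exact ⟨r + s, by rw [map_add]; exact hr.add hs⟩
  zero_mem' := ⟨0, by rw [map_zero]; exact Fermat.Agent.T3.helper36.rhoQ_zero⟩
  neg_mem' := by
    rintro a ⟨r, hr⟩
    exact ⟨-r, by rw [map_neg]; exact hr.neg⟩
  mem_or_inv_mem' := fun f => by
    rcases rhoQ_or_rhoQ_inv A (hratio f) with h | h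
    · exact Or.inl h
    · exact Or.inr ⟨0, by rw [map_inv₀]; exact h⟩

theorem mem_gaussRing {f : FF M} :
    f ∈ gaussRing A E hratio ↔ ∃ r : LaurentSeries (kA A), RhoQ A (E f) r := Iff.rfl

/-- `E ∘ (A[X] → F_M) = (A((T)) → ℚ̄((T))) ∘ (A[X] → A((T)))`, `X ↦ j ↦ E j = Y_j`. -/
theorem comp_evX_eq
    (hE : ∀ c : Kb, E (algebraMap Kb (FF M) c) = algebraMap Kb (LaurentSeries Kb) c)
    (Yj : LaurentSeries A) (hYj : incl A Yj = E (Fermat.Agent.S24.xJ M)) :
    E.comp (evX A M) = (incl A).comp (Fermat.Agent.T3.helper98.evInt Yj) := by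
  apply Polynomial.ringHom_ext
  · intro c
    rw [RingHom.comp_apply, RingHom.comp_apply, Fermat.Agent.P2.helper81.evX_C, hE]
    simp only [Fermat.Agent.T3.helper98.evInt, Polynomial.coe_eval₂RingHom, Polynomial.eval₂_C]
    exact (Fermat.Agent.T3.helper98.incl_C' c).symm
  · rw [RingHom.comp_apply, RingHom.comp_apply, Fermat.Agent.P2.helper81.evX_X, ← hYj]
    simp only [Fermat.Agent.T3.helper98.evInt, Polynomial.coe_eval₂RingHom, Polynomial.eval₂_X]

include hratio in
/-- **functions integral over `A[j]` are Gauss-integral** at every expansion map `E` such that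
`E j` is `A`-integral. -/
theorem rhoQ_of_isIntegralElem
    (hE : ∀ c : Kb, E (algebraMap Kb (FF M) c) = algebraMap Kb (LaurentSeries Kb) c)
    (Yj : LaurentSeries A) (hYj : incl A Yj = E (Fermat.Agent.S24.xJ M))
    {f : FF M} (hf : (evX A M).IsIntegralElem f) :
    ∃ r : LaurentSeries (kA A), RhoQ A (E f) r := by
  have h := Fermat.Agent.T2.helper87.mem_of_isIntegralElem (gaussRing A E hratio) (evX A M)
    (fun p => ?_) hf
  · exact h
  · refine ⟨red A (Fermat.Agent.T3.helper98.evInt Yj p), ?_⟩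
    have e : E (evX A M p) = incl A (Fermat.Agent.T3.helper98.evInt Yj p) := by
      have := congrArg (fun φ : Polynomial A →+* LaurentSeries Kb => φ p)
        (comp_evX_eq A E hE Yj hYj)
      simpa using this
    rw [e]
    exact Fermat.Agent.T3.helper36.rhoQ_incl _

end Ring

/-! ### Divisibility at the three cusps over `∞_N` -/

section Three

open Fermat.Agent.T3.helper74 (ex3 IsFixI)
open Fermat.Agent.T3.helper72 (Red3)

variable {A : ValuationSubring Kb}

/-- **divisibility**: if `s` has Gauss value `π ^ m`, `v(π) < 1`, and reduction `0`, and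
`v(π) ^ e ≤ v(d)`, then `s ^ e / d` is Gauss-integral. -/
theorem exists_rhoQ_pow_div {s : LaurentSeries Kb} {π d : Kb} {m : ℤ} {e : ℕ}
    (hc : GaussIs A s (π ^ m)) (h0 : RhoQ A s 0) (hπ : A.valuation π < 1) (hd : d ≠ 0)
    (hle : A.valuation π ^ e ≤ A.valuation d) :
    ∃ r : LaurentSeries (kA A), RhoQ A (algebraMap Kb (LaurentSeries Kb) d⁻¹ * s ^ e) r := by
  have hlt := valuation_lt_one_of_rhoQ_zero hc h0
  have hπ0 : π ≠ 0 := by
    rintro rfl
    rcases eq_or_ne m 0 with hm | hm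
    · rw [hm, zpow_zero, map_one] at hlt
      exact lt_irrefl _ hlt
    · exact hc.1 (zero_zpow m hm)
  have hvπ : A.valuation π ≠ 0 := (Valuation.ne_zero_iff _).2 hπ0
  have hm : 1 ≤ m := by
    by_contra hm
    rw [not_le] at hm
    obtain ⟨k, hk⟩ : ∃ k : ℕ, m = -(k : ℤ) := ⟨(-m).toNat, by omega⟩
    have h1 : 1 ≤ A.valuation (π ^ m) := by
      rw [map_zpow₀, hk, zpow_neg, zpow_natCast]
      exact (one_le_inv₀ (zero_lt_iff.mpr (pow_ne_zero _ hvπ))).mpr (pow_le_one₀ zero_le' hπ.le)
    exact absurd hlt (not_lt.mpr h1)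
  have h1 : GaussIs A (algebraMap Kb (LaurentSeries Kb) d⁻¹ * s ^ e) (d⁻¹ * (π ^ m) ^ e) :=
    (hc.pow e).const_mul (inv_ne_zero hd)
  apply exists_rhoQ_of_gaussIs_mem h1
  rw [← A.valuation_le_one_iff, map_mul, map_inv₀, map_pow, map_zpow₀]
  have hvd : A.valuation d ≠ 0 := (Valuation.ne_zero_iff _).2 hd
  rw [inv_mul_le_iff₀ (zero_lt_iff.mpr hvd), mul_one]
  refine le_trans ?_ hle
  apply pow_le_pow_left₀ zero_le'
  obtain ⟨k, hk⟩ : ∃ k : ℕ, m = (k : ℤ) + 1 := ⟨(m - 1).toNat, by omega⟩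
  rw [hk, zpow_add_one₀ hvπ, zpow_natCast]
  exact mul_le_of_le_one_left' (pow_le_one₀ zero_le' hπ.le)

variable {N q : ℕ} [NeZero N] [NeZero q] {hq : q.Prime} {hqN : ¬ q ∣ N} {ζ : Kb}

/-- **`g ^ (q - 1) / q` is Gauss-integral at the three cusps** if `g` is inertia-fixed with
reduction `0` at the three cusps (the Gauss valuations are discrete on the inertia-fixed
functions, with uniformisers `q`, `q`, `1 - ζ`). -/
theorem exists_red3_pow_div (hA : A.LiesOverPrime q) (hζ : IsPrimitiveRoot ζ q)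
    {g : FF (N * q * q)} (hfix : IsFixI A (N * q * q) g)
    (h0 : ∀ i, Red3 N q hq hqN A hζ i g 0) (i : Fin 3) :
    ∃ X : LaurentSeries (kA A),
      Red3 N q hq hqN A hζ i (algebraMap Kb (FF (N * q * q)) (q : Kb)⁻¹ * g ^ (q - 1)) X := by
  have hq1 : q - 1 ≠ 0 := by have := hq.two_le; omega
  by_cases hg0 : g = 0
  · subst hg0
    refine ⟨0, ?_⟩
    rw [zero_pow hq1, mul_zero]
    show RhoQ A (ex3 N q hq hqN hζ i 0) 0
    rw [map_zero]
    exact Fermat.Agent.T3.helper36.rhoQ_zero
  obtain ⟨m₀, m₁, m₂, h₀, h₁, h₂⟩ :=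
    Fermat.Agent.T3.helper5.gaussIs_ex3_all (hq := hq) (hqN := hqN) hA hζ hg0 hfix
  have hq0 : (q : Kb) ≠ 0 := by
    have := hq.ne_zero
    exact_mod_cast this
  have hvq : A.valuation (q : Kb) < 1 := A.mem_nonunits_iff.mp hA
  have e : ∀ i, ex3 N q hq hqN hζ i (algebraMap Kb (FF (N * q * q)) (q : Kb)⁻¹ * g ^ (q - 1))
      = algebraMap Kb (LaurentSeries Kb) (q : Kb)⁻¹ * (ex3 N q hq hqN hζ i g) ^ (q - 1) :=
    fun i => by rw [map_mul, map_pow, Fermat.Agent.T3.helper98.ex3_const hζ i]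
  have hle : A.valuation (q : Kb) ^ (q - 1) ≤ A.valuation (q : Kb) :=
    pow_le_of_le_one zero_le' hvq.le hq1
  fin_cases i
  · obtain ⟨r, hr⟩ := exists_rhoQ_pow_div h₀ (h0 0) hvq hq0 hle
    refine ⟨r, ?_⟩
    show RhoQ A (ex3 N q hq hqN hζ 0 _) r
    rw [e]
    exact hr
  · obtain ⟨r, hr⟩ := exists_rhoQ_pow_div h₁ (h0 1) hvq hq0 hle
    refine ⟨r, ?_⟩
    show RhoQ A (ex3 N q hq hqN hζ 1 _) r
    rw [e]
    exact hr
  · obtain ⟨r, hr⟩ := exists_rhoQ_pow_div h₂ (h0 2)
      (Fermat.Agent.T3.helper84.k0_zeta_val_lt hq A hA hζ) hq0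
      (Fermat.Agent.T3.helper84.k0_zeta_val hq A hζ).le
    refine ⟨r, ?_⟩
    show RhoQ A (ex3 N q hq hqN hζ 2 _) r
    rw [e]
    exact hr

end Three

/-! ### Integrality of an expansion (variant of `helper98.integrality_emb`) -/

section Int

open Fermat.Agent.T2.helper45 (vertical_key exists_pow_mul_of_forall_prime phi_X_pow)

variable (M : ℕ) [NeZero M] (A : ValuationSubring Kb)

/-- **integrality of the expansion at an arbitrary cusp**: `helper98.integrality_emb` with the
hypothesis on `x` (`= j`) in the form "`E x` is `A`-integral and a ratio". -/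
theorem integrality_emb_of_int (E : FF M →+* LaurentSeries Kb) (x : FF M)
    (Yx : LaurentSeries A) (hYx : incl A Yx = E x) (hxratio : IsRatioEv A (E x))
    (f : FF M) (hratio : IsRatioEv A (E f))
    (hreg : ∀ Q : Place Kb (FF M), 0 ≤ Q.ord x → 0 ≤ Q.ord f)
    (hw : ∃ Y₁ Y₂ : LaurentSeries A, red A Y₂ ≠ 0 ∧ incl A Y₁ = E f * incl A Y₂) :
    ∃ Y : LaurentSeries A, incl A Y = E f := by
  classical
  obtain ⟨S, hS⟩ := hratio
  obtain ⟨Sx, hSx⟩ := hxratio
  set K₀ : IntermediateField ℚ Kb :=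
    IntermediateField.adjoin ℚ ((S ∪ Sx : Finset Kb) : Set Kb) with hK₀
  have halg : Algebra.IsAlgebraic ℚ (AlgebraicClosure ℚ) := AlgebraicClosure.isAlgebraic ℚ
  haveI : FiniteDimensional ℚ K₀ :=
    IntermediateField.finiteDimensional_adjoin fun x _ => (halg.isAlgebraic x).isIntegral
  have hsub : ((S ∪ Sx : Finset Kb) : Set Kb) ⊆ K₀ := IntermediateField.subset_adjoin ℚ _
  have hSK : (S : Set Kb) ⊆ K₀ := fun a ha =>
    hsub (by
      have : a ∈ S ∪ Sx := Finset.mem_union_left _ (Finset.mem_coe.mp ha)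
      exact Finset.mem_coe.mpr this)
  have hSxK : (Sx : Set Kb) ⊆ K₀ := fun a ha =>
    hsub (by
      have : a ∈ S ∪ Sx := Finset.mem_union_right _ (Finset.mem_coe.mp ha)
      exact Finset.mem_coe.mpr this)
  obtain ⟨G₁, G₂, hG₂, hG⟩ := hS K₀ hSK
  have hxr : IsRatio (capSubring A K₀) (incl A Yx) := by
    rw [hYx]
    exact hSx K₀ hSxK
  obtain ⟨w, J, hJ, -⟩ := Fermat.Agent.P2.helper56.exists_phi_of_isRatio A K₀ Yx hxr
  have hJ' : E x * phi (capSubring A K₀) (PowerSeries.X ^ w) = phi (capSubring A K₀) J := by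
    rw [← hYx]
    exact hJ
  haveI := Fermat.Agent.P2.helper89.isPrincipalIdealRing_capSubring A K₀
  haveI := isLocalRing_capSubring A K₀
  obtain ⟨r, a', ha'⟩ := exists_pow_mul_of_forall_prime (phi (capSubring A K₀))
    (phi_injective _) PowerSeries.X PowerSeries.X_ne_zero (E f)
    (fun P a b hP hX hPb hb0 hab => by
      by_cases hvert : ∃ r : capSubring A K₀, r ≠ 0 ∧ P ∣ PowerSeries.C r
      · obtain ⟨r, hr, hPr⟩ := hvert
        exact vertical_key A K₀ (E f) hw P a b hP r hr hPr hPb hab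
      · simp only [not_exists, not_and] at hvert
        exact Fermat.Agent.T3.helper98.horizontal_key_emb M A K₀ E x w J hJ' f hreg P a b hP hX
          hvert hPb hab)
    G₂ hG₂ G₁ hG
  refine ⟨HahnSeries.single (-(r : ℤ)) (1 : A) * phiA A K₀ a', ?_⟩
  rw [map_mul, incl_phiA, ← ha', phi_X_pow, coeffMap_single, map_one, mul_comm (E f),
    ← mul_assoc, HahnSeries.single_mul_single]
  simp

end Int

/-! ### [GAUSS-ALL] -/

section Main

open Fermat.Agent.T3.helper74 (ex3 IsFixI)
open Fermat.Agent.T3.helper72 (Red3)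

variable {N q : ℕ} [NeZero N] [NeZero q] {hq : q.Prime} {hqN : ¬ q ∣ N}
variable {A : ValuationSubring Kb} {ζ : Kb}

/-- **[GAUSS-ALL], quotient form.**  Let `E : F_{Nqq} →+* ℚ̄((T))` be ANY expansion map (the
identity on the constants, with values quotients of integral power series over number fields,
`E j` `A`-integral).  If `H` is inertia-fixed, regular where `j` is finite and has reduction `1`
at the three cusps over `∞_N`, then `E H` is Gauss-integral with reduction `1`. -/
theorem gaussAll_quot (hA : A.LiesOverPrime q) (hζ : IsPrimitiveRoot ζ q)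
    (E : FF (N * q * q) →+* LaurentSeries Kb)
    (hE : ∀ c : Kb, E (algebraMap Kb (FF (N * q * q)) c) = algebraMap Kb (LaurentSeries Kb) c)
    (hratio : ∀ y : FF (N * q * q), IsRatioEv A (E y))
    (Yj : LaurentSeries A) (hYj : incl A Yj = E (jElt (N * q * q)))
    {H : FF (N * q * q)} (hreg : IsRegJ (N * q * q) H) (hfix : IsFixI A (N * q * q) H)
    (hred : ∀ i, Red3 N q hq hqN A hζ i H 1) :
    RhoQ A (E H) 1 := by
  have hq1 : q - 1 ≠ 0 := by have := hq.two_le; omega
  have hq0 : (q : Kb) ≠ 0 := by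
    have := hq.ne_zero
    exact_mod_cast this
  have hvq : A.valuation (q : Kb) < 1 := A.mem_nonunits_iff.mp hA
  have hqA : (q : Kb) ∈ A := (A.valuation_le_one_iff _).1 hvq.le
  -- `h = H - 1`
  have hh0 : ∀ i, Red3 N q hq hqN A hζ i (H - 1) 0 := fun i => by
    have h1 : RhoQ A (ex3 N q hq hqN hζ i H) 1 := hred i
    show RhoQ A (ex3 N q hq hqN hζ i (H - 1)) 0
    have h2 := h1.sub (Fermat.Agent.T3.helper36.rhoQ_one (A := A))
    rwa [sub_self, ← map_one (ex3 N q hq hqN hζ i), ← map_sub] at h2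
  have hhfix : IsFixI A (N * q * q) (H - 1) := fun σ hσ => by
    rw [map_sub, map_one, hfix σ hσ]
  have hhreg : IsRegJ (N * q * q) (H - 1) := hreg.sub Fermat.Agent.T3.helper98.isRegJ_one
  -- `h' = h ^ (q - 1) / q`
  set h' : FF (N * q * q) := algebraMap Kb (FF (N * q * q)) (q : Kb)⁻¹ * (H - 1) ^ (q - 1)
    with hh'
  have hcfix : ∀ σ : Kb ≃ₐ[ℚ] Kb, σ (q : Kb)⁻¹ = (q : Kb)⁻¹ := fun σ => by
    rw [map_inv₀, map_natCast]
  have hh'fix : IsFixI A (N * q * q) h' := fun σ hσ => by
    have h1 := isFixI_algebraMap (A := A) (N := N * q * q) (a := (q : Kb)⁻¹)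
      (fun σ _ => hcfix σ) σ hσ
    rw [hh', map_mul, map_pow, hhfix σ hσ, h1]
  have hh'reg : IsRegJ (N * q * q) h' :=
    (Fermat.Agent.T3.helper98.isRegJ_algebraMap _).mul (hhreg.pow _)
  choose X hX using fun i => exists_red3_pow_div (hq := hq) (hqN := hqN) hA hζ hhfix hh0 i
  have hint : (evX A (N * q * q)).IsIntegralElem h' :=
    Fermat.Agent.T3.helper98.isIntegralElem_evX_of_red3 hA hζ hh'reg hh'fix hX
  have hYj' : incl A Yj = E (Fermat.Agent.S24.xJ (N * q * q)) := by
    rw [hYj, Fermat.Agent.T3.helper48.jElt_eq_xJ]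
  obtain ⟨Z, hZ⟩ := rhoQ_of_isIntegralElem A E hratio hE Yj hYj' hint
  -- `(E h) ^ (q - 1) = q * E h'`
  have e : (E (H - 1)) ^ (q - 1) = algebraMap Kb (LaurentSeries Kb) (q : Kb) * E h' := by
    rw [hh', map_mul, hE, map_pow, ← mul_assoc, ← map_mul, mul_inv_cancel₀ hq0, map_one,
      one_mul]
  have h1 : RhoQ A ((E (H - 1)) ^ (q - 1)) 0 := by
    rw [e]
    have := (Fermat.Agent.T3.helper36.rhoQ_algebraMap (A := A) ⟨(q : Kb), hqA⟩).mul hZ
    rwa [residue_eq_zero_of_lt hqA hvq, map_zero, zero_mul] at this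
  have h2 : RhoQ A (E (H - 1)) 0 := rhoQ_zero_of_pow A (hratio _) hq1 h1
  have h3 := h2.add (Fermat.Agent.T3.helper36.rhoQ_one (A := A))
  rwa [zero_add, ← map_one E, ← map_add, sub_add_cancel] at h3

/-- **[GAUSS-ALL]** for one expansion map: the expansion `E H` is `A`-integral with
reduction `1`. -/
theorem gaussAll (hA : A.LiesOverPrime q) (hζ : IsPrimitiveRoot ζ q)
    (E : FF (N * q * q) →+* LaurentSeries Kb)
    (hE : ∀ c : Kb, E (algebraMap Kb (FF (N * q * q)) c) = algebraMap Kb (LaurentSeries Kb) c)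
    (hratio : ∀ y : FF (N * q * q), IsRatioEv A (E y))
    (Yj : LaurentSeries A) (hYj : incl A Yj = E (jElt (N * q * q)))
    {H : FF (N * q * q)} (hreg : IsRegJ (N * q * q) H) (hfix : IsFixI A (N * q * q) H)
    (hred : ∀ i, Red3 N q hq hqN A hζ i H 1) :
    ∃ Y : LaurentSeries A, incl A Y = E H ∧ red A Y = 1 := by
  have h := gaussAll_quot (hq := hq) (hqN := hqN) hA hζ E hE hratio Yj hYj hreg hfix hred
  obtain ⟨Y₁, Y₂, h0, h1, h2⟩ := h
  obtain ⟨Y, hY⟩ := integrality_emb_of_int (N * q * q) A E (jElt (N * q * q)) Yj hYj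
    (hratio _) H (hratio H) hreg ⟨Y₁, Y₂, h0, h1⟩
  exact ⟨Y, hY, Fermat.Agent.T3.helper98.red_eq_of_rhoQ ⟨Y₁, Y₂, h0, h1, h2⟩ Y hY⟩

/-- **[GAUSS-ALL]** for a family of expansions with a DISC package: the hypothesis `hint` of
`helper27.root3_all` (and of `helper23.disc_all`). -/
theorem gaussAll_family (hA : A.LiesOverPrime q) (hζ : IsPrimitiveRoot ζ q) {ι : Type*}
    (E : ι → FF (N * q * q) →+* LaurentSeries Kb)
    (hD : Fermat.Agent.T3.helper23.DiscPack A E)
    {H : FF (N * q * q)} (hreg : IsRegJ (N * q * q) H) (hfix : IsFixI A (N * q * q) H)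
    (hred : ∀ i, Red3 N q hq hqN A hζ i H 1) :
    ∀ i : ι, ∃ Y : LaurentSeries A, incl A Y = E i H ∧ red A Y = 1 := by
  intro i
  obtain ⟨Yj, hYj, -⟩ := hD.jlead i
  exact gaussAll (hq := hq) (hqN := hqN) hA hζ (E i) (hD.alg i) (hD.ratio i) Yj hYj hreg hfix
    hred

/-- **[GAUSS-ALL]**, quotient form, for a family of expansions with a DISC package. -/
theorem gaussAll_family_quot (hA : A.LiesOverPrime q) (hζ : IsPrimitiveRoot ζ q) {ι : Type*}
    (E : ι → FF (N * q * q) →+* LaurentSeries Kb)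
    (hD : Fermat.Agent.T3.helper23.DiscPack A E)
    {H : FF (N * q * q)} (hreg : IsRegJ (N * q * q) H) (hfix : IsFixI A (N * q * q) H)
    (hred : ∀ i, Red3 N q hq hqN A hζ i H 1) :
    ∀ i : ι, RhoQ A (E i H) 1 := by
  intro i
  obtain ⟨Yj, hYj, -⟩ := hD.jlead i
  exact gaussAll_quot (hq := hq) (hqN := hqN) hA hζ (E i) (hD.alg i) (hD.ratio i) Yj hYj hreg
    hfix hred

end Main

end Fermat.Agent.T3.helper20

end
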