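import Mathlib
import Fermat.Agent.P2.helper28_CuspReg
import Fermat.Agent.T3.helper23_DiscGenRatio

/-!
# T3 [DISC-ALL] (helper23): the coset expansions of level `N` are quotients of integral series

`sigmaK N i : F_N → ℚ̄((T))` (`i` a coset of `Γ₀(N)`) are the expansions at all the cusps of
`X₀(N)` in characteristic `0` (`Fermat.Agent.P2.helper28.sigmaK`).  For EVERY valuation ring `A`
of `ℚ̄` (no condition on the residue characteristic: the level may be divisible by it) the
expansions `j(ξ T^e)` of the generators `j(q^d)` have coefficients in `A ∩ ℚ(ζ_N)`; hence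

* `isRatioEv_sigmaK` : every expansion `sigmaK N i y` is a quotient of two power series with
  coefficients in `A ∩ K₀` for all sufficiently large number fields `K₀`
  (the hypothesis `ratio` of `DiscPack`).
-/

set_option autoImplicit false
set_option synthInstance.maxHeartbeats 400000
set_option linter.unusedSectionVars false
set_option linter.unusedVariables false
set_option linter.style.longLine false

noncomputable section

open HahnSeries IntermediateField AlgebraicCurve ModularCurve

namespace Fermat.Agent.T3.helper23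

open Fermat.Agent.P2.helper23 Fermat.Agent.P2.helper73
open Fermat.Agent.P2.helper28 Fermat.Agent.S28

section Sigma

variable (N : ℕ) [NeZero N] (A : ValuationSubring Kb)

/-- `ζ_N` in `ℚ̄` -/
def zetaKb : Kb := rK ⟨helper81.zetaC N, zetaC_mem_SK N⟩

theorem iotaK_zetaKb : iotaK (zetaKb N) = helper81.zetaC N := iotaK_rK _

theorem zetaKb_pow : zetaKb N ^ N = 1 := by
  apply iotaK.injective
  rw [map_pow, iotaK_zetaKb, map_one]
  exact zetaC_pow_self N

theorem zetaKb_mem : zetaKb N ∈ A :=
  Fermat.Agent.P2.helper31.mem_valuationSubring_of_pow_eq_one A (NeZero.ne N) (zetaKb_pow N)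

/-- the number field `ℚ(ζ_N)` -/
def cycK : IntermediateField ℚ Kb := IntermediateField.adjoin ℚ {zetaKb N}

theorem zetaKb_mem_cycK : zetaKb N ∈ cycK N :=
  IntermediateField.subset_adjoin ℚ _ (Set.mem_singleton _)

/-- the image of `A ∩ ℚ(ζ_N)` in `ℂ` -/
def SCyc : Subring ℂ := (capSubring A (cycK N)).map iotaK

theorem zetaC_mem_SCyc : helper81.zetaC N ∈ SCyc N A :=
  ⟨zetaKb N, mem_capSubring.2 ⟨zetaKb_mem N A, zetaKb_mem_cycK N⟩, iotaK_zetaKb N⟩

/-- the coefficients of the coset expansions of the generators lie in `A ∩ ℚ(ζ_N)` -/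
theorem coeff_sigmaK_genK_mem (i : IX N) (d : N.divisors) (n : ℤ) :
    (sigmaK N i ⟨genK Kb N d, genK_mem d⟩).coeff n ∈ capSubring A (cycK N) := by
  have h1 : sigmaK N i ⟨genK Kb N d, genK_mem d⟩
      = Eb (conjX N) SK rK i (JdS (conjX N) SK (zetaC_mem_SK N) (natCast_inv_mem_SK N) d) :=
    sigma_genK (conjX N) SK rK (zetaC_mem_SK N) (natCast_inv_mem_SK N) rK_surjective i d
  rw [h1, helper93.Ebar_coeff]
  have hd : d.1 ∣ N := Nat.dvd_of_mem_divisors d.2
  haveI : NeZero d.1 := ⟨ne_zero_of_dvd_ne_zero (NeZero.ne N) hd⟩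
  have h2 : (EI N i (JdG N d.1)).coeff n ∈ SCyc N A := by
    obtain ⟨hξ1, hξ2⟩ := (hData d.1 (rep N i)).ξ_mem hd (SCyc N A) (zetaC_mem_SCyc N A)
    rw [EI_JdG N d.1 hd i]
    exact helper25.affL_coeff_mem (SCyc N A) _ hξ1 hξ2 _ _
      (helper25.jqModC_coeff_mem (SCyc N A)) n
  obtain ⟨z, hz, hzc⟩ := h2
  have h3 : ((helper93.ES (conjX N).E SK i
      (JdS (conjX N) SK (zetaC_mem_SK N) (natCast_inv_mem_SK N) d)).coeff n : ℂ)
      = (EI N i (JdG N d.1)).coeff n :=
    helper93.ES_coeff (conjX N).E SK i _ n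
  have h4 : (helper93.ES (conjX N).E SK i
      (JdS (conjX N) SK (zetaC_mem_SK N) (natCast_inv_mem_SK N) d)).coeff n
      = ⟨iotaK z, mem_SK z⟩ := by
    apply Subtype.ext
    rw [h3]
    exact hzc.symm
  rw [h4, rK_mk]
  exact hz

/-- the coset expansions of the generators are ratios -/
theorem isRatioEv_sigmaK_genK (i : IX N) (d : N.divisors) :
    IsRatioEv A (sigmaK N i ⟨genK Kb N d, genK_mem d⟩) := by
  classical
  refine isRatioEv_of_coeff_mem A {zetaKb N} _
    (fun n => (mem_capSubring.1 (coeff_sigmaK_genK_mem N A i d n)).1) (fun n => ?_)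
  have h := (mem_capSubring.1 (coeff_sigmaK_genK_mem N A i d n)).2
  have e : ((({zetaKb N} : Finset Kb) : Set Kb)) = {zetaKb N} := by simp
  rw [e]
  exact h

/-- the values of polynomials in the generators are ratios -/
theorem isRatioEv_Thb (i : IX N)
    (P : MvPolynomial N.divisors Kb) :
    IsRatioEv A (Thb (conjX N) SK rK (zetaC_mem_SK N) (natCast_inv_mem_SK N) i P) := by
  induction P using MvPolynomial.induction_on with
  | C a =>
    have e : Thb (conjX N) SK rK (zetaC_mem_SK N) (natCast_inv_mem_SK N) i (MvPolynomial.C a)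
        = HahnSeries.single 0 a := by
      rw [Thb, MvPolynomial.coe_eval₂Hom, MvPolynomial.eval₂_C]
      rfl
    rw [e]
    exact isRatioEv_const A a
  | add p q hp hq =>
    rw [map_add]
    exact isRatioEv_add A hp hq
  | mul_X p d hp =>
    rw [map_mul]
    refine isRatioEv_mul A hp ?_
    have e : Thb (conjX N) SK rK (zetaC_mem_SK N) (natCast_inv_mem_SK N) i (MvPolynomial.X d)
        = sigmaK N i ⟨genK Kb N d, genK_mem d⟩ := by
      rw [Thb, MvPolynomial.coe_eval₂Hom, MvPolynomial.eval₂_X]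
      exact (sigma_genK (conjX N) SK rK (zetaC_mem_SK N) (natCast_inv_mem_SK N)
        rK_surjective i d).symm
    rw [e]
    exact isRatioEv_sigmaK_genK N A i d

/-- **the coset expansions of level `N` are ratios** (any valuation ring `A`). -/
theorem isRatioEv_sigmaK (i : IX N)
    (y : ↥(modularFunctionFieldFullC Kb N)) : IsRatioEv A (sigmaK N i y) := by
  obtain ⟨P, Q, hQ, hyQ⟩ := exists_frac Kb N y.1 y.2
  have e : y * ⟨MvPolynomial.aeval (genK Kb N) Q, aeval_genK_mem Kb N _⟩ =
      ⟨MvPolynomial.aeval (genK Kb N) P, aeval_genK_mem Kb N _⟩ :=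
    Subtype.ext hyQ
  have h1 := congrArg (sigmaK N i) e
  rw [map_mul] at h1
  have hP : sigmaK N i ⟨MvPolynomial.aeval (genK Kb N) P, aeval_genK_mem Kb N _⟩
      = Thb (conjX N) SK rK (zetaC_mem_SK N) (natCast_inv_mem_SK N) i P :=
    sigma_aeval (conjX N) SK rK (zetaC_mem_SK N) (natCast_inv_mem_SK N) rK_surjective i P
  have hQ' : sigmaK N i ⟨MvPolynomial.aeval (genK Kb N) Q, aeval_genK_mem Kb N _⟩
      = Thb (conjX N) SK rK (zetaC_mem_SK N) (natCast_inv_mem_SK N) i Q :=
    sigma_aeval (conjX N) SK rK (zetaC_mem_SK N) (natCast_inv_mem_SK N) rK_surjective i Q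
  rw [hP, hQ'] at h1
  have hne : Thb (conjX N) SK rK (zetaC_mem_SK N) (natCast_inv_mem_SK N) i Q ≠ 0 := by
    intro h0
    exact hQ ((Thb_eq_zero_iff (conjX N) SK rK (zetaC_mem_SK N) (natCast_inv_mem_SK N)
      rK_surjective i _).mpr h0)
  have h2 : sigmaK N i y = Thb (conjX N) SK rK (zetaC_mem_SK N) (natCast_inv_mem_SK N) i P *
      (Thb (conjX N) SK rK (zetaC_mem_SK N) (natCast_inv_mem_SK N) i Q)⁻¹ := by
    rw [← h1, mul_assoc, mul_inv_cancel₀ hne, mul_one]
  rw [h2]
  exact isRatioEv_mul A (isRatioEv_Thb N A i P) (isRatioEv_inv A (isRatioEv_Thb N A i Q))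

end Sigma

end Fermat.Agent.T3.helper23

end
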