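import Mathlib
import Fermat.Agent.T3.helper23_RatioSigma
import Fermat.Agent.T3.helper23_DiscAll

/-!
# T3 [DISC-ALL] (helper23): DISC at ALL the cusps of `X₀(M)`, unconditionally

`sigmaFF M i : F_M →+* ℚ̄((T))` (`i` a coset of `Γ₀(M)`, `T = t^{1/M}`) are the expansions at all
the cusps of `X₀(M)` (`helper28.sigmaK`, read on `FF M`).

* `discPack_sigmaFF` : `DiscPack A (sigmaFF M)` for EVERY level `M` and EVERY valuation ring `A`
  of `ℚ̄` (the residue characteristic may divide the level);
* `disc_sigmaFF` : **DISC at all cusps** : if `H` is regular where `j` is finite, `n ∣ div H`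
  (`n ∈ Aˣ`) and the expansions of `H` at all cosets are `A`-integral with reduction `1`, then
  all these expansions have `A`-integral formal `n`-th roots with reduction `1`;
* `disc_of_eq_sigmaFF` : the same for any family of expansions `E : ι → F_M →+* ℚ̄((T))` each
  member of which is one of the `sigmaFF M i`.
-/

set_option autoImplicit false
set_option synthInstance.maxHeartbeats 400000
set_option linter.unusedSectionVars false
set_option linter.unusedVariables false
set_option linter.style.longLine false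

noncomputable section

open HahnSeries IntermediateField AlgebraicCurve ModularCurve

namespace Fermat.Agent.T3.helper23

open Fermat.Agent.P2.helper23 Fermat.Agent.P2.helper73
open Fermat.Agent.P2.helper28 Fermat.Agent.S28

section SigmaFF

variable (M : ℕ) [NeZero M]

/-- `F_M` as the full field of level `M` -/
def toFullC : FF M ≃ₐ[Kb] ↥(modularFunctionFieldFullC Kb M) :=
  IntermediateField.equivOfEq (FF_eq_fullC M)

theorem coe_toFullC (f : FF M) :
    ((toFullC M f : ↥(modularFunctionFieldFullC Kb M)) : LaurentSeries Kb) = f := by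
  unfold toFullC IntermediateField.equivOfEq
  rw [Subalgebra.equivOfEq_apply]

/-- the expansion of `F_M` at the coset `i` -/
def sigmaFF (i : IX M) : FF M →+* LaurentSeries Kb :=
  (sigmaK M i).comp ((toFullC M : FF M ≃ₐ[Kb] ↥(modularFunctionFieldFullC Kb M)) :
    FF M →+* ↥(modularFunctionFieldFullC Kb M))

theorem sigmaFF_apply (i : IX M) (f : FF M) : sigmaFF M i f = sigmaK M i (toFullC M f) := rfl

theorem sigmaFF_algebraMap (i : IX M) (c : Kb) :
    sigmaFF M i (algebraMap Kb (FF M) c) = algebraMap Kb (LaurentSeries Kb) c := by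
  rw [sigmaFF_apply, AlgEquiv.commutes]
  have h := sigma_algebraMap (conjX M) SK rK (zetaC_mem_SK M) (natCast_inv_mem_SK M)
    rK_surjective i c
  rw [Fermat.Agent.S28.helper93.algebraMap_laurent_eq_C]
  exact h

theorem sigmaFF_jElt (i : IX M) :
    sigmaFF M i (Fermat.Agent.P2.helper29.jElt M) = jqNModC Kb M := by
  rw [sigmaFF_apply]
  have e : toFullC M (Fermat.Agent.P2.helper29.jElt M)
      = ⟨jqModC Kb, jqModC_mem_full Kb M⟩ := by
    apply Subtype.ext
    rw [coe_toFullC]
    rfl
  rw [e]
  exact sigma_jBar (conjX M) SK rK (zetaC_mem_SK M) (natCast_inv_mem_SK M) rK_surjective i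

theorem isRatioEv_sigmaFF (A : ValuationSubring Kb) (i : IX M) (y : FF M) :
    IsRatioEv A (sigmaFF M i y) :=
  isRatioEv_sigmaK M A i (toFullC M y)

/-- **the DISC package of all the cusps of `X₀(M)`** -/
theorem discPack_sigmaFF (A : ValuationSubring Kb) : DiscPack A (sigmaFF M) :=
  DiscPack.of_jqN (sigmaFF_algebraMap M) (isRatioEv_sigmaFF M A) (fun _ => M)
    (fun _ => NeZero.ne M) (fun i _ => sigmaFF_jElt M i)

/-- **DISC at all the cusps of `X₀(M)`** -/
theorem disc_sigmaFF (A : ValuationSubring Kb) (n : ℕ) (hn : IsUnit ((n : ℕ) : A)) (H : FF M)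
    (hdiv : ∀ P : Place Kb (FF M), (n : ℤ) ∣ P.ord H)
    (hreg : ∀ P : Place Kb (FF M), 0 ≤ P.ord (Fermat.Agent.P2.helper29.jElt M) → 0 ≤ P.ord H)
    (hint : ∀ i : IX M, ∃ Y : LaurentSeries A, coeffMap A.subtype Y = sigmaFF M i H ∧
      coeffMap (IsLocalRing.residue A) Y = 1) :
    ∀ i : IX M, ∃ Z : LaurentSeries A, (coeffMap A.subtype Z) ^ n = sigmaFF M i H ∧
      coeffMap (IsLocalRing.residue A) Z = 1 :=
  disc_all (discPack_sigmaFF M A) n hn H hdiv hreg hint

/-- the DISC package of a family of expansions each of which is a coset expansion -/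
theorem discPack_of_eq_sigmaFF (A : ValuationSubring Kb) {ι : Type*}
    (E : ι → FF M →+* LaurentSeries Kb) (hE : ∀ J : ι, ∃ i : IX M, E J = sigmaFF M i) :
    DiscPack A E where
  alg := fun J c => by
    obtain ⟨i, hi⟩ := hE J
    rw [hi]
    exact sigmaFF_algebraMap M i c
  ratio := fun J y => by
    obtain ⟨i, hi⟩ := hE J
    rw [hi]
    exact isRatioEv_sigmaFF M A i y
  jlead := fun J => by
    obtain ⟨i, hi⟩ := hE J
    rw [hi]
    exact (discPack_sigmaFF M A).jlead i

/-- **DISC** for a family of expansions each of which is a coset expansion -/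
theorem disc_of_eq_sigmaFF (A : ValuationSubring Kb) {ι : Type*}
    (E : ι → FF M →+* LaurentSeries Kb) (hE : ∀ J : ι, ∃ i : IX M, E J = sigmaFF M i)
    (n : ℕ) (hn : IsUnit ((n : ℕ) : A)) (H : FF M)
    (hdiv : ∀ P : Place Kb (FF M), (n : ℤ) ∣ P.ord H)
    (hreg : ∀ P : Place Kb (FF M), 0 ≤ P.ord (Fermat.Agent.P2.helper29.jElt M) → 0 ≤ P.ord H)
    (hint : ∀ J : ι, ∃ Y : LaurentSeries A, coeffMap A.subtype Y = E J H ∧
      coeffMap (IsLocalRing.residue A) Y = 1) :
    ∀ J : ι, ∃ Z : LaurentSeries A, (coeffMap A.subtype Z) ^ n = E J H ∧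
      coeffMap (IsLocalRing.residue A) Z = 1 :=
  disc_all (discPack_of_eq_sigmaFF M A E hE) n hn H hdiv hreg hint

end SigmaFF

end Fermat.Agent.T3.helper23

end
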