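/-
T3 (S36), helper20, [T3-GAUSS-ALL] wiring (row 1090):

* `gaussAll_sigmaFF` : **[GAUSS-ALL] at ALL the cosets of `Γ₀(N q²)`**, unconditionally: an
  inertia-fixed function `H`, regular where `j` is finite, with reduction `1` at the three cusps
  over `∞_N`, has `A`-integral expansions with reduction `1` at every coset expansion
  `helper23.sigmaFF (N q q) I`;
* `gaussAll_of_eq_sigmaFF` : the same for any family of expansions each member of which is a
  coset expansion;
* `disc_all_red3` : **DISC at all indices** from the reductions at the three cusps over `∞_N`;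
* `root3_all_red3` : **ROOT3 for the functions regular off all cusps** (`helper27.root3_all`)
  with the hypothesis `hint` replaced by `∀ i : Fin 3, Red3 i H 1`.
-/
import Mathlib
import Fermat.Agent.T3.helper20_GaussAll
import Fermat.Agent.T3.helper23_DiscSigma
import Fermat.Agent.T3.helper27_FinAll

set_option autoImplicit false
set_option synthInstance.maxHeartbeats 400000
set_option maxHeartbeats 1000000
set_option linter.style.haveILetI false
set_option linter.unusedSectionVars false
set_option linter.unusedVariables false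
set_option linter.style.longLine false

noncomputable section

open HahnSeries IntermediateField AlgebraicCurve ModularCurve
open Fermat.Agent.S18.helper19 Fermat.Agent.P2.helper29

namespace Fermat.Agent.T3.helper20

open Fermat.Agent.T3.helper36 (RhoQ)
open Fermat.Agent.T3.helper98 (IsRegJ)
open Fermat.Agent.T3.helper74 (ex3 IsFixI)
open Fermat.Agent.T3.helper72 (Red3)
open Fermat.Agent.T3.helper23 (DiscPack sigmaFF)
open Fermat.Agent.T3.helper27 (FixStatementE SatStatementE CoverStatementE)

section Wire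

variable {N q : ℕ} [NeZero N] [NeZero q] {hq : q.Prime} {hqN : ¬ q ∣ N}
variable {A : ValuationSubring Kb} {ζ : Kb}

/-- **[GAUSS-ALL] at all the cosets of `Γ₀(N q²)`**, unconditionally. -/
theorem gaussAll_sigmaFF (hA : A.LiesOverPrime q) (hζ : IsPrimitiveRoot ζ q)
    {H : FF (N * q * q)} (hreg : IsRegJ (N * q * q) H) (hfix : IsFixI A (N * q * q) H)
    (hred : ∀ i, Red3 N q hq hqN A hζ i H 1) :
    ∀ I : Fermat.Agent.S28.IX (N * q * q),
      ∃ Y : LaurentSeries A, incl A Y = sigmaFF (N * q * q) I H ∧ red A Y = 1 :=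
  gaussAll_family (hq := hq) (hqN := hqN) hA hζ (sigmaFF (N * q * q))
    (Fermat.Agent.T3.helper23.discPack_sigmaFF (N * q * q) A) hreg hfix hred

/-- **[GAUSS-ALL]** for a family of expansions each of which is a coset expansion. -/
theorem gaussAll_of_eq_sigmaFF (hA : A.LiesOverPrime q) (hζ : IsPrimitiveRoot ζ q) {ι : Type*}
    (E : ι → FF (N * q * q) →+* LaurentSeries Kb)
    (hE : ∀ J : ι, ∃ I : Fermat.Agent.S28.IX (N * q * q), E J = sigmaFF (N * q * q) I)
    {H : FF (N * q * q)} (hreg : IsRegJ (N * q * q) H) (hfix : IsFixI A (N * q * q) H)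
    (hred : ∀ i, Red3 N q hq hqN A hζ i H 1) :
    ∀ J : ι, ∃ Y : LaurentSeries A, incl A Y = E J H ∧ red A Y = 1 :=
  gaussAll_family (hq := hq) (hqN := hqN) hA hζ E
    (Fermat.Agent.T3.helper23.discPack_of_eq_sigmaFF (N * q * q) A E hE) hreg hfix hred

/-- **DISC at all indices** from the reductions at the three cusps over `∞_N`: every expansion
`E i H` has an `A`-integral formal `n`-th root with reduction `1`. -/
theorem disc_all_red3 (hA : A.LiesOverPrime q) (hζ : IsPrimitiveRoot ζ q) {ι : Type*}
    (E : ι → FF (N * q * q) →+* LaurentSeries Kb) (hD : DiscPack A E)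
    (n : ℕ) (hn : IsUnit ((n : ℕ) : A)) {H : FF (N * q * q)}
    (hdiv : ∀ P : Place Kb (FF (N * q * q)), (n : ℤ) ∣ P.ord H)
    (hreg : IsRegJ (N * q * q) H) (hfix : IsFixI A (N * q * q) H)
    (hred : ∀ i, Red3 N q hq hqN A hζ i H 1) :
    ∀ i : ι, ∃ Z : LaurentSeries A, (incl A Z) ^ n = E i H ∧ red A Z = 1 :=
  Fermat.Agent.T3.helper23.disc_all hD n hn H hdiv hreg
    (gaussAll_family (hq := hq) (hqN := hqN) hA hζ E hD hreg hfix hred)

/-- **ROOT3 for the functions regular off all cusps**, with the integrality hypothesis replaced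
by the reductions at the three cusps over `∞_N`. -/
theorem root3_all_red3 (hA : A.LiesOverPrime q) (hζ : IsPrimitiveRoot ζ q) {ι : Type*}
    (E : ι → FF (N * q * q) →+* LaurentSeries Kb) (ω : ι → ℕ) [Finite ι] [Nonempty ι]
    (hω : ∀ i, 0 < ω i) (hD : DiscPack A E)
    (hEfix : FixStatementE A ζ E) (hcover : CoverStatementE A E)
    (B : Subalgebra Kb (FF (N * q * q)))
    (hB : ∀ f ∈ B, ∀ P : Place Kb (FF (N * q * q)), 0 ≤ P.ord (jElt (N * q * q)) → 0 ≤ P.ord f)
    (L₀ : ℤ) (hSat : SatStatementE q A E ω B L₀)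
    (n : ℕ) (hn : ¬ q ∣ n) (H : FF (N * q * q)) (hHB : H ∈ B) (hHI : IsFixI A (N * q * q) H)
    (hdiv : ∀ P : Place Kb (FF (N * q * q)), (n : ℤ) ∣ P.ord H)
    (hred : ∀ i, Red3 N q hq hqN A hζ i H 1) :
    ∃ v : FF (N * q * q), IsFixI A (N * q * q) v ∧ IsRegJ (N * q * q) v ∧ H = v ^ n :=
  Fermat.Agent.T3.helper27.root3_all hq A hA hζ E ω hω hD hEfix hcover B hB L₀ hSat n hn H hHB
    hHI hdiv
    (gaussAll_family (hq := hq) (hqN := hqN) hA hζ E hD (hB H hHB) hHI hred)

end Wire

end Fermat.Agent.T3.helper20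

end
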