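import Mathlib
import Fermat.Agent.T3.helper23_DiscSigma
import Fermat.Agent.T3.helper90_Unsub

/-!
# T3 [DISC-ALL] / [CUSP-Q] (helper23): DISC for UN-SUBSTITUTED expansions

The coset expansions `sigmaFF M i` are series in `T = t^{1/M}`; at a cusp of width `w` they lie in
`ℚ̄((T^d))`, `d = M / w`, and [CUSP-Q] reads them in the local parameter `T^d`
(`helper90.unsub`).  This file transports the DISC package to such un-substituted expansions.

* `qContract_qExpand_mul_left` : `qContract d (X(T^d) · Z) = X · qContract d Z`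
  (the contraction is `R((T^d))`-linear);
* `isRatio_of_qExpand`, `isRatioEv_of_qExpand` : if `Y(T^d)` is a quotient of `A`-integral power
  series then so is `Y`;
* `isRatioEv_qContract` : the same for `qContract d X`, `X ∈ ℚ̄((T^d))`;
* `isRatioEv_of_rot` : the same for rotations by units of `A`;
* `discPack_of_qExpand_sigmaFF` : `DiscPack A E` for every family `E` with
  `(E J y)(T^{d J}) = sigmaFF M (I J) y`;
* `discPack_unsub_sigmaFF` : the instance `E J = helper90.unsub (d J) (sigmaFF M (I J)) _`;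
* `disc_of_qExpand_sigmaFF` : DISC (`= hroot` of `helper27.root_of_pack`) for such families.
-/

set_option autoImplicit false
set_option synthInstance.maxHeartbeats 400000
set_option linter.unusedSectionVars false
set_option linter.unusedVariables false
set_option linter.style.longLine false

noncomputable section

open HahnSeries IntermediateField AlgebraicCurve ModularCurve

namespace Fermat.Agent.T3.helper23

open Fermat.Agent.P2.helper23 Fermat.Agent.P2.helper73
open Fermat.Agent.P2.helper28 Fermat.Agent.S28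
open Fermat.Agent.T3.helper90

/-! ### The contraction is linear over `R((T^d))` -/

section Glue

variable {R : Type*} [CommRing R] (d : ℕ) [NeZero d]

/-- the `r`-th component of `X` in the basis `1, T, …, T^(d-1)` of `R((T))` over `R((T^d))` -/
def compContract (r : ℕ) (X : LaurentSeries R) : LaurentSeries R :=
  qContract d (HahnSeries.single (-(r : ℤ)) (1 : R) * X)

theorem compContract_coeff (r : ℕ) (X : LaurentSeries R) (n : ℤ) :
    (compContract d r X).coeff n = X.coeff ((d : ℤ) * n + r) := by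
  unfold compContract
  rw [qContract_coeff, HahnSeries.coeff_single_mul, one_mul, sub_neg_eq_add]

theorem compContract_zero (X : LaurentSeries R) : compContract d 0 X = qContract d X := by
  ext n
  rw [compContract_coeff, qContract_coeff]
  simp

/-- the decomposition of a Laurent series in the basis `1, T, …, T^(d-1)` -/
theorem glue_compContract (X : LaurentSeries R) :
    X = ∑ r ∈ Finset.range d,
      HahnSeries.single (r : ℤ) (1 : R) * qExpand R d (compContract d r X) := by
  have hd0 : (0 : ℤ) < d := by exact_mod_cast Nat.pos_of_ne_zero (NeZero.ne d)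
  ext n
  rw [HahnSeries.coeff_sum]
  have hr0 : 0 ≤ n % (d : ℤ) := Int.emod_nonneg n hd0.ne'
  have hr1 : n % (d : ℤ) < d := Int.emod_lt_of_pos n hd0
  obtain ⟨r₀, hr₀⟩ := Int.eq_ofNat_of_zero_le hr0
  have hr₀d : r₀ < d := by
    have : (r₀ : ℤ) < d := by rw [← hr₀]; exact hr1
    exact_mod_cast this
  have hn : n = (d : ℤ) * (n / d) + r₀ := by
    rw [← hr₀]
    exact (Int.mul_ediv_add_emod n d).symm
  rw [Finset.sum_eq_single r₀]
  · rw [HahnSeries.coeff_single_mul, one_mul]
    have e : n - (r₀ : ℤ) = (d : ℤ) * (n / d) := by omega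
    rw [e, qExpand_coeff_mul, compContract_coeff, ← hn]
  · intro r hr hne
    rw [HahnSeries.coeff_single_mul, one_mul]
    apply qExpand_coeff_of_not_dvd
    rintro ⟨k, hk⟩
    have hrd : r < d := Finset.mem_range.mp hr
    have hrd' : (r : ℤ) < d := by exact_mod_cast hrd
    have h1 : n % (d : ℤ) = r := by
      have : n = r + (d : ℤ) * k := by omega
      rw [this, Int.add_mul_emod_self_left]
      exact Int.emod_eq_of_lt (by positivity) hrd'
    rw [hr₀] at h1
    exact hne (by exact_mod_cast h1.symm)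
  · intro h
    exact absurd (Finset.mem_range.mpr hr₀d) h

/-- the contraction of a glued sum is its `0`-th component -/
theorem qContract_glue (V : ℕ → LaurentSeries R) :
    qContract d (∑ r ∈ Finset.range d,
      HahnSeries.single (r : ℤ) (1 : R) * qExpand R d (V r)) = V 0 := by
  have hd0 : (0 : ℤ) < d := by exact_mod_cast Nat.pos_of_ne_zero (NeZero.ne d)
  ext n
  rw [qContract_coeff, HahnSeries.coeff_sum]
  rw [Finset.sum_eq_single 0]
  · rw [HahnSeries.coeff_single_mul, one_mul]
    simp only [Nat.cast_zero, sub_zero]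
    rw [qExpand_coeff_mul]
  · intro r hr hne
    rw [HahnSeries.coeff_single_mul, one_mul]
    apply qExpand_coeff_of_not_dvd
    rintro ⟨k, hk⟩
    have hrd : r < d := Finset.mem_range.mp hr
    have hrd' : (r : ℤ) < d := by exact_mod_cast hrd
    have hr0 : (0 : ℤ) < r := by
      have : 0 < r := Nat.pos_of_ne_zero hne
      exact_mod_cast this
    have h1 : (d : ℤ) ∣ r := ⟨n - k, by rw [mul_sub]; omega⟩
    exact absurd (Int.le_of_dvd hr0 h1) (not_le.mpr hrd')
  · intro h
    exact absurd (Finset.mem_range.mpr (Nat.pos_of_ne_zero (NeZero.ne d))) h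

/-- **the contraction is `R((T^d))`-linear** -/
theorem qContract_qExpand_mul_left (Y X : LaurentSeries R) :
    qContract d (qExpand R d Y * X) = Y * qContract d X := by
  have h1 : qExpand R d Y * X = ∑ r ∈ Finset.range d,
      HahnSeries.single (r : ℤ) (1 : R) * qExpand R d (Y * compContract d r X) := by
    conv_lhs => rw [glue_compContract d X]
    rw [Finset.mul_sum]
    refine Finset.sum_congr rfl fun r _ => ?_
    rw [map_mul]
    ring
  rw [h1, qContract_glue, compContract_zero]

/-- the shifted contraction is `R((T^d))`-linear -/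
theorem compContract_qExpand_mul_left (r : ℕ) (Y X : LaurentSeries R) :
    compContract d r (qExpand R d Y * X) = Y * compContract d r X := by
  unfold compContract
  rw [← qContract_qExpand_mul_left, mul_left_comm]

end Glue

/-! ### Ratios -/

section Ratio

variable (d : ℕ) [NeZero d]

theorem phi_coeff_mem (R₀ : Subring Kb) (G : PowerSeries R₀) (n : ℤ) :
    (phi R₀ G).coeff n ∈ R₀ := by
  rcases lt_or_ge n 0 with hn | hn
  · rw [phi_apply, ofPowerSeries_coeff_of_neg _ hn]
    exact R₀.zero_mem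
  · obtain ⟨k, rfl⟩ := Int.eq_ofNat_of_zero_le hn
    rw [phi_coeff_natCast]
    exact (PowerSeries.coeff k G).2

/-- if `f Z₂ = Z₁` with `Z₁, Z₂` Laurent series with coefficients in `R₀`, `Z₂ ≠ 0`, then `f` is a
ratio over `R₀` -/
theorem isRatio_of_mul_eq (R₀ : Subring Kb) (f Z₁ Z₂ : LaurentSeries Kb)
    (h₁ : ∀ n : ℤ, Z₁.coeff n ∈ R₀) (h₂ : ∀ n : ℤ, Z₂.coeff n ∈ R₀) (hZ₂ : Z₂ ≠ 0)
    (h : f * Z₂ = Z₁) : IsRatio R₀ f := by
  have e : f = Z₁ * Z₂⁻¹ := by
    rw [← h, mul_assoc, mul_inv_cancel₀ hZ₂, mul_one]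
  rw [e]
  exact IsRatio.mul (isRatio_of_coeff_mem R₀ Z₁ h₁) (IsRatio.inv (isRatio_of_coeff_mem R₀ Z₂ h₂))

/-- **un-substitution of ratios** -/
theorem isRatio_of_qExpand (R₀ : Subring Kb) {Y : LaurentSeries Kb}
    (hY : IsRatio R₀ (qExpand Kb d Y)) : IsRatio R₀ Y := by
  have hd0 : (0 : ℤ) < d := by exact_mod_cast Nat.pos_of_ne_zero (NeZero.ne d)
  obtain ⟨G₁, G₂, hG₂, hG⟩ := hY
  have hZ : phi R₀ G₂ ≠ 0 := phi_ne_zero R₀ hG₂
  obtain ⟨n₀, hn₀⟩ : ∃ n₀ : ℤ, (phi R₀ G₂).coeff n₀ ≠ 0 := by
    by_contra hcon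
    push_neg at hcon
    exact hZ (HahnSeries.ext (funext fun n => by rw [hcon n, HahnSeries.coeff_zero]))
  -- `n₀ = d * k + r`
  have hr0 : 0 ≤ n₀ % (d : ℤ) := Int.emod_nonneg n₀ hd0.ne'
  obtain ⟨r, hr⟩ := Int.eq_ofNat_of_zero_le hr0
  have hn : n₀ = (d : ℤ) * (n₀ / d) + r := by
    rw [← hr]
    exact (Int.mul_ediv_add_emod n₀ d).symm
  refine isRatio_of_mul_eq R₀ Y (compContract d r (phi R₀ G₁)) (compContract d r (phi R₀ G₂))
    (fun n => ?_) (fun n => ?_) ?_ ?_
  · rw [compContract_coeff]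
    exact phi_coeff_mem R₀ G₁ _
  · rw [compContract_coeff]
    exact phi_coeff_mem R₀ G₂ _
  · intro h0
    apply hn₀
    have h1 := congrArg (fun Z : LaurentSeries Kb => Z.coeff (n₀ / d)) h0
    simp only [compContract_coeff, HahnSeries.coeff_zero] at h1
    rw [hn]
    exact h1
  · rw [← compContract_qExpand_mul_left, hG]

/-- **un-substitution of ratios** : if `Y(T^d)` is a quotient of `A`-integral power series over a
number field then so is `Y`. -/
theorem isRatioEv_of_qExpand (A : ValuationSubring Kb) {Y : LaurentSeries Kb}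
    (hY : IsRatioEv A (qExpand Kb d Y)) : IsRatioEv A Y := by
  obtain ⟨S, hS⟩ := hY
  exact ⟨S, fun K₀ h => isRatio_of_qExpand d _ (hS K₀ h)⟩

theorem isRatioEv_qExpand_iff (A : ValuationSubring Kb) (Y : LaurentSeries Kb) :
    IsRatioEv A (qExpand Kb d Y) ↔ IsRatioEv A Y :=
  ⟨isRatioEv_of_qExpand d A, isRatioEv_qExpand d A⟩

/-- the contraction of a ratio with exponents divisible by `d` is a ratio -/
theorem isRatioEv_qContract (A : ValuationSubring Kb) {X : LaurentSeries Kb}
    (hX : IsRatioEv A X) (h : ∀ n : ℤ, ¬ (d : ℤ) ∣ n → X.coeff n = 0) :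
    IsRatioEv A (qContract d X) := by
  apply isRatioEv_of_qExpand d A
  rw [qExpand_qContract d h]
  exact hX

/-- rotations by units of `A` reflect ratios -/
theorem isRatioEv_of_rot (A : ValuationSubring Kb) (u : Kbˣ) (hu : ((u⁻¹ : Kbˣ) : Kb) ∈ A)
    {f : LaurentSeries Kb} (hf : IsRatioEv A (Fermat.Agent.P2.helper94.rot u f)) :
    IsRatioEv A f := by
  have h := isRatioEv_rot A u⁻¹ hu hf
  have e : Fermat.Agent.P2.helper94.rot u⁻¹ (Fermat.Agent.P2.helper94.rot u f) = f := by
    ext n
    rw [Fermat.Agent.P2.helper94.rot_coeff, Fermat.Agent.P2.helper94.rot_coeff, ← mul_assoc,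
      ← Units.val_mul, ← mul_zpow, inv_mul_cancel, one_zpow, Units.val_one, one_mul]
  rwa [e] at h

end Ratio

/-! ### The DISC package of un-substituted coset expansions -/

section Pack

variable (M : ℕ) [NeZero M]

/-- if `Y(T^d) = j(T^M)` then `d ∣ M` and `Y = j(t^(M/d))` -/
theorem eq_jqN_of_qExpand_eq (d : ℕ) [NeZero d] (Y : LaurentSeries Kb)
    (h : qExpand Kb d Y = jqNModC Kb M) :
    ∃ e : ℕ, e ≠ 0 ∧ ∀ _ : NeZero e, Y = jqNModC Kb e := by
  have hdvd : (d : ℤ) ∣ -(M : ℤ) := by
    by_contra hnd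
    have h1 := qExpand_coeff_of_not_dvd (R := Kb) d Y hnd
    rw [h] at h1
    have h2 : (jqNModC Kb M).coeff (-(M : ℤ)) = 1 := by
      unfold jqNModC
      have : -(M : ℤ) = (M : ℤ) * (-1) := by ring
      rw [this, qExpand_coeff_mul, coeff_jqModC_neg_one]
    rw [h2] at h1
    exact one_ne_zero h1
  have hdvd' : d ∣ M := by
    have : (d : ℤ) ∣ (M : ℤ) := (dvd_neg).mp hdvd
    exact_mod_cast this
  obtain ⟨e, he⟩ := hdvd'
  have he0 : e ≠ 0 := by
    rintro rfl
    rw [mul_zero] at he
    exact NeZero.ne M he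
  refine ⟨e, he0, fun _ => ?_⟩
  apply qExpand_injective (R := Kb) d
  rw [h]
  unfold jqNModC
  subst he
  rw [qExpand_qExpand]

variable {ι : Type*}

/-- **the DISC package of a family of un-substituted coset expansions** :
`(E J y)(T^(d J)) = sigmaFF M (I J) y`. -/
theorem discPack_of_qExpand_sigmaFF (A : ValuationSubring Kb)
    (E : ι → FF M →+* LaurentSeries Kb) (I : ι → IX M) (d : ι → ℕ) (hd : ∀ J, d J ≠ 0)
    (hE : ∀ (J : ι) (y : FF M), ∀ _ : NeZero (d J),
      qExpand Kb (d J) (E J y) = sigmaFF M (I J) y) :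
    DiscPack A E where
  alg := fun J c => by
    haveI : NeZero (d J) := ⟨hd J⟩
    apply qExpand_injective (R := Kb) (d J)
    rw [hE J _ inferInstance, sigmaFF_algebraMap,
      Fermat.Agent.S28.helper93.algebraMap_laurent_eq_C, qExpand_C]
  ratio := fun J y => by
    haveI : NeZero (d J) := ⟨hd J⟩
    apply isRatioEv_of_qExpand (d J) A
    rw [hE J y inferInstance]
    exact isRatioEv_sigmaFF M A (I J) y
  jlead := fun J => by
    haveI : NeZero (d J) := ⟨hd J⟩
    have h1 : qExpand Kb (d J) (E J (Fermat.Agent.P2.helper29.jElt M)) = jqNModC Kb M := by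
      rw [hE J _ inferInstance, sigmaFF_jElt]
    obtain ⟨e, he0, he⟩ := eq_jqN_of_qExpand_eq M (d J) _ h1
    haveI : NeZero e := ⟨he0⟩
    obtain ⟨Yx, hYx, hu⟩ := exists_unit_lead_jqN A e
    exact ⟨Yx, by rw [hYx, he inferInstance], hu⟩

/-- the instance `E J = unsub (d J) (sigmaFF M (I J))` -/
theorem discPack_unsub_sigmaFF (A : ValuationSubring Kb) (I : ι → IX M) (d : ι → ℕ)
    (hd : ∀ J, NeZero (d J))
    (h : ∀ (J : ι) (y : FF M) (n : ℤ), ¬ ((d J : ℕ) : ℤ) ∣ n → (sigmaFF M (I J) y).coeff n = 0) :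
    DiscPack A (fun J => haveI := hd J; unsub (d J) (sigmaFF M (I J)) (h J)) :=
  discPack_of_qExpand_sigmaFF M A _ I d (fun J => (hd J).out) fun J y _ => by
    haveI := hd J
    exact qExpand_unsub (d J) (sigmaFF M (I J)) (h J) y

/-- **DISC for un-substituted coset expansions** (`= hroot` of `helper27.root_of_pack`) -/
theorem disc_of_qExpand_sigmaFF (A : ValuationSubring Kb)
    (E : ι → FF M →+* LaurentSeries Kb) (I : ι → IX M) (d : ι → ℕ) (hd : ∀ J, d J ≠ 0)
    (hE : ∀ (J : ι) (y : FF M), ∀ _ : NeZero (d J),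
      qExpand Kb (d J) (E J y) = sigmaFF M (I J) y)
    (n : ℕ) (hn : IsUnit ((n : ℕ) : A)) (H : FF M)
    (hdiv : ∀ P : Place Kb (FF M), (n : ℤ) ∣ P.ord H)
    (hreg : ∀ P : Place Kb (FF M), 0 ≤ P.ord (Fermat.Agent.P2.helper29.jElt M) → 0 ≤ P.ord H)
    (hint : ∀ J : ι, ∃ Y : LaurentSeries A, coeffMap A.subtype Y = E J H ∧
      coeffMap (IsLocalRing.residue A) Y = 1) :
    ∀ J : ι, ∃ Z : LaurentSeries A, (coeffMap A.subtype Z) ^ n = E J H ∧
      coeffMap (IsLocalRing.residue A) Z = 1 :=
  disc_all (discPack_of_qExpand_sigmaFF M A E I d hd hE) n hn H hdiv hreg hint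

end Pack

end Fermat.Agent.T3.helper23

end
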