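import Mathlib
import Fermat.Agent.T3.helper23_DiscUnsub
import Fermat.Agent.T3.helper87_CuspQFam

/-!
# T3 [DISC-ALL] (helper23): the DISC package of THE FAMILY `helper87.ex3c` ([CUSP-Q])

* `discPack_exLoc`  : `DiscPack A (fun J => helper87.exLoc M (I J))` for every level `M`, every
  valuation ring `A` of `ℚ̄` and every family of cosets `I`;
* `discPack_ex3c`   : **`DiscPack A (helper87.ex3c N q ζ)`** — the field `DiscPack` of
  `helper72.Root3Pack`, the input `hD` of `helper27.torRoot_all`, `helper74.torRoot_of_tableD`,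
  `helper20.gaussAll_family`;
* `discPack_ENc`    : `DiscPack A (helper87.ENc N)` (level `N`);
* `disc_ex3c`       : DISC for the family (`= hroot` of `helper27.root_of_pack`);
* `isRatioEv_exLoc`, `isRatioEv_ex3c`, `isRatioEv_ENc` : all local expansions are quotients of
  `A`-integral power series over a number field;
* `exLoc_jElt`, `ex3c_jElt` : `E j = j(t^w)`, `w = wd` the width.
No hypothesis on `N`, `q`, `ζ`, `A`.
-/

set_option autoImplicit false
set_option synthInstance.maxHeartbeats 400000
set_option linter.unusedSectionVars false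
set_option linter.unusedVariables false
set_option linter.style.longLine false

noncomputable section

open HahnSeries IntermediateField AlgebraicCurve ModularCurve

namespace Fermat.Agent.T3.helper23

open Fermat.Agent.P2.helper23 Fermat.Agent.P2.helper73
open Fermat.Agent.P2.helper28 Fermat.Agent.S28
open Fermat.Agent.T3.helper87 (exLoc qExpand_exLoc dloc wd dloc_mul_wd ex3c IQ DQ qExpand_ex3c
  ENc Cusp crep)

section Loc

variable (M : ℕ) [NeZero M] (A : ValuationSubring Kb)

/-- all local expansions are ratios -/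
theorem isRatioEv_exLoc (I : IX M) (y : FF M) : IsRatioEv A (exLoc M I y) := by
  apply isRatioEv_of_qExpand (dloc M I) A
  rw [qExpand_exLoc]
  exact isRatioEv_sigmaFF M A I y

/-- **the DISC package of a family of local expansions** -/
theorem discPack_exLoc {ι : Type*} (I : ι → IX M) : DiscPack A (fun J => exLoc M (I J)) :=
  discPack_of_qExpand_sigmaFF M A (fun J => exLoc M (I J)) I (fun J => dloc M (I J))
    (fun J => NeZero.ne _) (fun J y _ => qExpand_exLoc M (I J) y)

/-- the local expansion of `j` is `j(t^w)`, `w` the width -/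
theorem exLoc_jElt (I : IX M) :
    ∃ e : ℕ, e ≠ 0 ∧ ∀ _ : NeZero e,
      exLoc M I (Fermat.Agent.P2.helper29.jElt M) = jqNModC Kb e :=
  eq_jqN_of_qExpand_eq M (dloc M I) _ (by rw [qExpand_exLoc, sigmaFF_jElt])

end Loc

section Fam

variable (N q : ℕ) [NeZero N] [NeZero q] (ζ : Kb) (A : ValuationSubring Kb)

/-- **the DISC package of THE FAMILY of [CUSP-Q]** -/
theorem discPack_ex3c : DiscPack A (ex3c N q ζ) :=
  discPack_exLoc (N * q * q) A (IQ N q ζ)

/-- the DISC package of the expansions of level `N` at all cusps -/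
theorem discPack_ENc : DiscPack A (ENc N) :=
  discPack_exLoc N A (crep N)

theorem isRatioEv_ex3c (J : Cusp N × Fin 3) (y : FF (N * q * q)) :
    IsRatioEv A (ex3c N q ζ J y) :=
  isRatioEv_exLoc (N * q * q) A (IQ N q ζ J) y

theorem isRatioEv_ENc (c : Cusp N) (y : FF N) : IsRatioEv A (ENc N c y) :=
  isRatioEv_exLoc N A (crep N c) y

theorem ex3c_jElt (J : Cusp N × Fin 3) :
    ∃ e : ℕ, e ≠ 0 ∧ ∀ _ : NeZero e,
      ex3c N q ζ J (Fermat.Agent.P2.helper29.jElt (N * q * q)) = jqNModC Kb e :=
  exLoc_jElt (N * q * q) (IQ N q ζ J)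

/-- **DISC for THE FAMILY** : `hroot` of `helper27.root_of_pack` -/
theorem disc_ex3c (n : ℕ) (hn : IsUnit ((n : ℕ) : A)) (H : FF (N * q * q))
    (hdiv : ∀ P : Place Kb (FF (N * q * q)), (n : ℤ) ∣ P.ord H)
    (hreg : ∀ P : Place Kb (FF (N * q * q)),
      0 ≤ P.ord (Fermat.Agent.P2.helper29.jElt (N * q * q)) → 0 ≤ P.ord H)
    (hint : ∀ J : Cusp N × Fin 3, ∃ Y : LaurentSeries A,
      coeffMap A.subtype Y = ex3c N q ζ J H ∧ coeffMap (IsLocalRing.residue A) Y = 1) :
    ∀ J : Cusp N × Fin 3, ∃ Z : LaurentSeries A, (coeffMap A.subtype Z) ^ n = ex3c N q ζ J H ∧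
      coeffMap (IsLocalRing.residue A) Z = 1 :=
  disc_all (discPack_ex3c N q ζ A) n hn H hdiv hreg hint

end Fam

end Fermat.Agent.T3.helper23

end
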