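/-
TIER 3 (S36), helper20, row 1018 [T3-APPROX3]: `helper72.Approx3Statement`, VERBATIM.

Level `N q q` (`q` prime, `q ∤ N`), `A` a valuation subring of `ℚ̄` over `q`, `I` its inertia
group.  Every triple of nonzero elements of the function field `FFb A N` of the special fibre is
the triple of Gauss reductions (at the cusps `∞`, `0`, `1/q`) of an `I`-fixed function of level
`N q q`.

* `RedQ A s x`          : Gauss reduction in quotient form of a series, with its calculus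
                          (`of_int`, `mul`, `add`, `neg`, `sub`, `pow`, `inv`, `qExpand`, `twist`);
* `red3_dg0_*`, `red3_dg1`, `red3_dg2_*` : the `dg`-table in quotient form;
* `exists_fix_lift`     : every element of `FFb A N` is the reduction of an `I`-fixed function
                          of level `N`;
* `sepOne`, `sepTwo`, `sepThree` : the separating elements
    `(dg2 j)^q - dg1 j ↦ (s, 0, 0)`, `(dg0 j)^q - dg1 j ↦ (0, s, 0)`,
    `(dg0 j - (dg2 j)^(q²)) (dg2 j - (dg0 j)^(q²)) ↦ (0, 0, s')`;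
* `approx3`             : **[APPROX3]**.
-/
import Mathlib
import Fermat.Agent.T3.helper72_Interface3
import Fermat.Agent.T3.helper98_DgTable
import Fermat.Agent.T3.helper84_K0Basic
import Fermat.Agent.T2.helper96_ValBase
import Fermat.Agent.T2.helper87_RegRed2
import Fermat.Agent.T2.helper58_ScaleCore

set_option autoImplicit false
set_option synthInstance.maxHeartbeats 400000
set_option linter.unusedSectionVars false
set_option linter.unusedVariables false
set_option linter.style.haveILetI false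
set_option linter.style.longLine false

noncomputable section

open HahnSeries IntermediateField AlgebraicCurve ModularCurve
open Fermat.Agent.S18.helper19 Fermat.Agent.P2.helper29

namespace Fermat.Agent.T3.helper20

open Fermat.Agent.P2.helper93 (twistL)
open Fermat.Agent.T3.helper74 (ex3 IsFixI dg0 dg1 dg2)
open Fermat.Agent.T3.helper72 (Red3 Approx3Statement)

/-! ### Gauss reduction in quotient form -/

section Calculus

variable (A : ValuationSubring Kb)

/-- **Gauss reduction in quotient form**: `s · Y₂ = Y₁` with integral series `Y₁`, `Y₂`,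
`red Y₂ ≠ 0` and `red Y₁ = x · red Y₂`. -/
def RedQ (s : LaurentSeries Kb) (x : LaurentSeries (kA A)) : Prop :=
  ∃ Y₁ Y₂ : LaurentSeries A, red A Y₂ ≠ 0 ∧ incl A Y₁ = s * incl A Y₂ ∧ red A Y₁ = x * red A Y₂

variable {A}

theorem RedQ.of_int (Y : LaurentSeries A) : RedQ A (incl A Y) (red A Y) :=
  ⟨Y, 1, by rw [map_one]; exact one_ne_zero, by rw [map_one, mul_one], by rw [map_one, mul_one]⟩

theorem RedQ.zero : RedQ A 0 0 := by
  have h := RedQ.of_int (A := A) 0
  rwa [map_zero, map_zero] at h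

theorem RedQ.one : RedQ A 1 1 := by
  have h := RedQ.of_int (A := A) 1
  rwa [map_one, map_one] at h

theorem RedQ.mul {s t : LaurentSeries Kb} {x y : LaurentSeries (kA A)} (h : RedQ A s x)
    (h' : RedQ A t y) : RedQ A (s * t) (x * y) := by
  obtain ⟨Y₁, Y₂, h0, hi, hr⟩ := h
  obtain ⟨Z₁, Z₂, h0', hi', hr'⟩ := h'
  refine ⟨Y₁ * Z₁, Y₂ * Z₂, ?_, ?_, ?_⟩
  · rw [map_mul]; exact mul_ne_zero h0 h0'
  · rw [map_mul, map_mul, hi, hi']; ring
  · rw [map_mul, map_mul, hr, hr']; ring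

theorem RedQ.add {s t : LaurentSeries Kb} {x y : LaurentSeries (kA A)} (h : RedQ A s x)
    (h' : RedQ A t y) : RedQ A (s + t) (x + y) := by
  obtain ⟨Y₁, Y₂, h0, hi, hr⟩ := h
  obtain ⟨Z₁, Z₂, h0', hi', hr'⟩ := h'
  refine ⟨Y₁ * Z₂ + Z₁ * Y₂, Y₂ * Z₂, ?_, ?_, ?_⟩
  · rw [map_mul]; exact mul_ne_zero h0 h0'
  · rw [map_add, map_mul, map_mul, map_mul, hi, hi']; ring
  · rw [map_add, map_mul, map_mul, map_mul, hr, hr']; ring

theorem RedQ.neg {s : LaurentSeries Kb} {x : LaurentSeries (kA A)} (h : RedQ A s x) :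
    RedQ A (-s) (-x) := by
  obtain ⟨Y₁, Y₂, h0, hi, hr⟩ := h
  refine ⟨-Y₁, Y₂, h0, ?_, ?_⟩
  · rw [map_neg, hi]; ring
  · rw [map_neg, hr]; ring

theorem RedQ.sub {s t : LaurentSeries Kb} {x y : LaurentSeries (kA A)} (h : RedQ A s x)
    (h' : RedQ A t y) : RedQ A (s - t) (x - y) := by
  rw [sub_eq_add_neg, sub_eq_add_neg]
  exact h.add h'.neg

theorem RedQ.pow {s : LaurentSeries Kb} {x : LaurentSeries (kA A)} (h : RedQ A s x) (n : ℕ) :
    RedQ A (s ^ n) (x ^ n) := by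
  induction n with
  | zero => rw [pow_zero, pow_zero]; exact RedQ.one
  | succ n ih => rw [pow_succ, pow_succ]; exact ih.mul h

theorem RedQ.ne_zero {s : LaurentSeries Kb} {x : LaurentSeries (kA A)} (h : RedQ A s x)
    (hx : x ≠ 0) : s ≠ 0 := by
  obtain ⟨Y₁, Y₂, h0, hi, hr⟩ := h
  rintro rfl
  rw [zero_mul] at hi
  have hY : Y₁ = 0 := Fermat.Agent.T2.helper58.incl_injective (by rw [hi, map_zero])
  rw [hY, map_zero] at hr
  exact mul_ne_zero hx h0 hr.symm

theorem RedQ.inv {s : LaurentSeries Kb} {x : LaurentSeries (kA A)} (h : RedQ A s x)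
    (hx : x ≠ 0) : RedQ A s⁻¹ x⁻¹ := by
  have hs : s ≠ 0 := h.ne_zero hx
  obtain ⟨Y₁, Y₂, h0, hi, hr⟩ := h
  refine ⟨Y₂, Y₁, ?_, ?_, ?_⟩
  · rw [hr]; exact mul_ne_zero hx h0
  · rw [hi, ← mul_assoc, inv_mul_cancel₀ hs, one_mul]
  · rw [hr, ← mul_assoc, inv_mul_cancel₀ hx, one_mul]

theorem RedQ.congr {s t : LaurentSeries Kb} {x y : LaurentSeries (kA A)} (h : RedQ A s x)
    (hs : s = t) (hx : x = y) : RedQ A t y := by
  subst hs; subst hx; exact h

theorem RedQ.qExpand (q : ℕ) [NeZero q] {s : LaurentSeries Kb} {x : LaurentSeries (kA A)}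
    (h : RedQ A s x) : RedQ A (qExpand Kb q s) (qExpand (kA A) q x) := by
  obtain ⟨Y₁, Y₂, h0, hi, hr⟩ := h
  refine ⟨ModularCurve.qExpand ↥A q Y₁, ModularCurve.qExpand ↥A q Y₂, ?_, ?_, ?_⟩
  · show coeffMap _ (ModularCurve.qExpand ↥A q Y₂) ≠ 0
    rw [Fermat.Agent.P2.helper94.coeffMap_qExpand]
    intro h1
    apply h0
    apply Fermat.Agent.P2.helper94.qExpand_injective q
    rw [h1, map_zero]
  · show coeffMap _ (ModularCurve.qExpand ↥A q Y₁) = _ * coeffMap _ (ModularCurve.qExpand ↥A q Y₂)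
    rw [Fermat.Agent.P2.helper94.coeffMap_qExpand, Fermat.Agent.P2.helper94.coeffMap_qExpand,
      ← map_mul]
    exact congrArg _ hi
  · show coeffMap _ (ModularCurve.qExpand ↥A q Y₁) = _ * coeffMap _ (ModularCurve.qExpand ↥A q Y₂)
    rw [Fermat.Agent.P2.helper94.coeffMap_qExpand, Fermat.Agent.P2.helper94.coeffMap_qExpand,
      ← map_mul]
    exact congrArg _ hr

theorem RedQ.twist {q : ℕ} [NeZero q] (hq : q.Prime) (hA : A.LiesOverPrime q) {ζ : Kb}
    (hζ1 : ζ ^ q = 1) (k : ℕ) {s : LaurentSeries Kb} {x : LaurentSeries (kA A)}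
    (h : RedQ A s x) : RedQ A (twistL (ζ ^ k) s) x := by
  obtain ⟨Y₁, Y₂, h0, hi, hr⟩ := h
  obtain ⟨Z₁, hZ₁, hZ₁r⟩ :=
    Fermat.Agent.T3.helper98.exists_model_twist A hq hA hζ1 k (incl A Y₁) Y₁ rfl
  obtain ⟨Z₂, hZ₂, hZ₂r⟩ :=
    Fermat.Agent.T3.helper98.exists_model_twist A hq hA hζ1 k (incl A Y₂) Y₂ rfl
  have hζ0 : ζ ^ k ≠ 0 := by
    apply pow_ne_zero
    rintro rfl
    rw [zero_pow hq.ne_zero] at hζ1
    exact zero_ne_one hζ1
  refine ⟨Z₁, Z₂, by rw [hZ₂r]; exact h0, ?_, by rw [hZ₁r, hZ₂r]; exact hr⟩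
  rw [hZ₁, hZ₂, hi, Fermat.Agent.T2.helper87.twistL_mul hζ0]

theorem RedQ.const (a : A) :
    RedQ A (algebraMap Kb (LaurentSeries Kb) (a : Kb))
      (algebraMap (kA A) (LaurentSeries (kA A)) (IsLocalRing.residue A a)) := by
  have h := RedQ.of_int (A := A) (constA a)
  have e1 : incl A (constA a) = algebraMap Kb (LaurentSeries Kb) (a : Kb) :=
    coeffMap_subtype_constA a
  have e2 : red A (constA a) =
      algebraMap (kA A) (LaurentSeries (kA A)) (IsLocalRing.residue A a) :=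
    coeffMap_residue_constA a
  rwa [e1, e2] at h

end Calculus

/-! ### The `dg`-table in quotient form -/

section Table

variable {N q : ℕ} [NeZero N] [NeZero q] {hq : q.Prime} {hqN : ¬ q ∣ N}
variable {A : ValuationSubring Kb} {ζ : Kb} (hζ : IsPrimitiveRoot ζ q)

theorem red3_iff (i : Fin 3) (f : FF (N * q * q)) (x : LaurentSeries (kA A)) :
    Red3 N q hq hqN A hζ i f x ↔ RedQ A (ex3 N q hq hqN hζ i f) x := Iff.rfl

theorem red3_dg0_zero {f : FF N} {x : LaurentSeries (kA A)}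
    (h : RedQ A (f : LaurentSeries Kb) x) : Red3 N q hq hqN A hζ 0 (dg0 N q f) x := by
  rw [red3_iff, Fermat.Agent.T3.helper98.ex3_zero_dg0]
  exact h

theorem red3_dg0_one {f : FF N} {x : LaurentSeries (kA A)}
    (h : RedQ A (f : LaurentSeries Kb) x) :
    Red3 N q hq hqN A hζ 1 (dg0 N q f) (qExpand (kA A) q (qExpand (kA A) q x)) := by
  rw [red3_iff, Fermat.Agent.T3.helper98.ex3_one_dg0]
  exact (h.qExpand q).qExpand q

theorem red3_dg0_two {f : FF N} {x : LaurentSeries (kA A)}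
    (h : RedQ A (f : LaurentSeries Kb) x) : Red3 N q hq hqN A hζ 2 (dg0 N q f) x := by
  rw [red3_iff, Fermat.Agent.T3.helper98.ex3_two_dg0]
  exact h

theorem red3_dg1 (i : Fin 3) {f : FF N} {x : LaurentSeries (kA A)}
    (h : RedQ A (f : LaurentSeries Kb) x) :
    Red3 N q hq hqN A hζ i (dg1 N q f) (qExpand (kA A) q x) := by
  rw [red3_iff]
  fin_cases i
  · show RedQ A (ex3 N q hq hqN hζ 0 (dg1 N q f)) _
    rw [Fermat.Agent.T3.helper98.ex3_zero_dg1]
    exact h.qExpand q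
  · show RedQ A (ex3 N q hq hqN hζ 1 (dg1 N q f)) _
    rw [Fermat.Agent.T3.helper98.ex3_one_dg1]
    exact h.qExpand q
  · show RedQ A (ex3 N q hq hqN hζ 2 (dg1 N q f)) _
    rw [Fermat.Agent.T3.helper98.ex3_two_dg1]
    exact h.qExpand q

theorem red3_dg2_zero {f : FF N} {x : LaurentSeries (kA A)}
    (h : RedQ A (f : LaurentSeries Kb) x) :
    Red3 N q hq hqN A hζ 0 (dg2 N q f) (qExpand (kA A) q (qExpand (kA A) q x)) := by
  rw [red3_iff, Fermat.Agent.T3.helper98.ex3_zero_dg2]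
  exact (h.qExpand q).qExpand q

theorem red3_dg2_one {f : FF N} {x : LaurentSeries (kA A)}
    (h : RedQ A (f : LaurentSeries Kb) x) : Red3 N q hq hqN A hζ 1 (dg2 N q f) x := by
  rw [red3_iff, Fermat.Agent.T3.helper98.ex3_one_dg2]
  exact h

theorem red3_dg2_two (hA : A.LiesOverPrime q) {f : FF N} {x : LaurentSeries (kA A)}
    (h : RedQ A (f : LaurentSeries Kb) x) : Red3 N q hq hqN A hζ 2 (dg2 N q f) x := by
  rw [red3_iff, Fermat.Agent.T3.helper98.ex3_two_dg2]
  exact h.twist hq hA hζ.pow_eq_one 1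

/-- the ring-hom calculus for `Red3` -/
theorem red3_mul {i : Fin 3} {f g : FF (N * q * q)} {x y : LaurentSeries (kA A)}
    (h : Red3 N q hq hqN A hζ i f x) (h' : Red3 N q hq hqN A hζ i g y) :
    Red3 N q hq hqN A hζ i (f * g) (x * y) := by
  rw [red3_iff] at h h' ⊢
  rw [map_mul]
  exact h.mul h'

theorem red3_add {i : Fin 3} {f g : FF (N * q * q)} {x y : LaurentSeries (kA A)}
    (h : Red3 N q hq hqN A hζ i f x) (h' : Red3 N q hq hqN A hζ i g y) :
    Red3 N q hq hqN A hζ i (f + g) (x + y) := by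
  rw [red3_iff] at h h' ⊢
  rw [map_add]
  exact h.add h'

theorem red3_sub {i : Fin 3} {f g : FF (N * q * q)} {x y : LaurentSeries (kA A)}
    (h : Red3 N q hq hqN A hζ i f x) (h' : Red3 N q hq hqN A hζ i g y) :
    Red3 N q hq hqN A hζ i (f - g) (x - y) := by
  rw [red3_iff] at h h' ⊢
  rw [map_sub]
  exact h.sub h'

theorem red3_pow {i : Fin 3} {f : FF (N * q * q)} {x : LaurentSeries (kA A)}
    (h : Red3 N q hq hqN A hζ i f x) (n : ℕ) :
    Red3 N q hq hqN A hζ i (f ^ n) (x ^ n) := by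
  rw [red3_iff] at h ⊢
  rw [map_pow]
  exact h.pow n

theorem red3_congr {i : Fin 3} {f : FF (N * q * q)} {x y : LaurentSeries (kA A)}
    (h : Red3 N q hq hqN A hζ i f x) (hxy : x = y) : Red3 N q hq hqN A hζ i f y := hxy ▸ h

theorem red3_ne_zero {i : Fin 3} {f : FF (N * q * q)} {x : LaurentSeries (kA A)}
    (h : Red3 N q hq hqN A hζ i f x) (hx : x ≠ 0) : f ≠ 0 := by
  rw [red3_iff] at h
  rintro rfl
  exact h.ne_zero hx (map_zero _)

end Table

/-! ### `I`-fixed lifts from the special fibre -/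

section Lift

variable {N : ℕ} [NeZero N] {A : ValuationSubring Kb}

theorem isFixI_of_coeffMap {f : FF N}
    (h : ∀ σ ∈ A.inertiaSubgroupIn ℚ,
      coeffMap ((σ : Kb ≃ₐ[ℚ] Kb) : Kb →+* Kb) (f : LaurentSeries Kb) = f) :
    IsFixI A N f := fun σ hσ => Subtype.ext (h σ hσ)

theorem isFixI_zero : IsFixI A N (0 : FF N) := fun σ _ => map_zero _

theorem isFixI_algebraMap {a : Kb} (ha : ∀ σ ∈ A.inertiaSubgroupIn ℚ, σ a = a) :
    IsFixI A N (algebraMap Kb (FF N) a) := by
  intro σ hσ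
  have h := arithmeticRingAut_algebraMap (modularFunctionFieldFull N) σ a
  rw [ha σ hσ] at h
  exact h

theorem isFixI_gen {d : ℕ} [NeZero d] (hd : d ∣ N) :
    IsFixI A N (⟨jqNModC Kb d, jqNModC_mem_FF hd⟩ : FF N) :=
  isFixI_of_coeffMap fun σ _ => coeffMap_jqNModC ((σ : Kb ≃ₐ[ℚ] Kb) : Kb →+* Kb) d

/-- **`I`-fixed lifts**: every element of the function field of the special fibre is the Gauss
reduction (in quotient form) of an `I`-fixed function of level `N`. -/
theorem exists_fix_lift {q : ℕ} (hq : q.Prime) (hA : A.LiesOverPrime q)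
    {x : LaurentSeries (kA A)} (hx : x ∈ FFb A N) :
    ∃ g : FF N, IsFixI A N g ∧ RedQ A (g : LaurentSeries Kb) x := by
  induction hx using IntermediateField.adjoin_induction with
  | mem x hx =>
    obtain ⟨d, hd0, hd, rfl⟩ := hx
    haveI := hd0
    refine ⟨⟨jqNModC Kb d, jqNModC_mem_FF hd⟩, isFixI_gen hd, ?_⟩
    have h := RedQ.of_int (A := A) (jqNModC A d)
    have e1 : incl A (jqNModC A d) = jqNModC Kb d := coeffMap_jqNModC _ d
    have e2 : red A (jqNModC A d) = jqNModC (kA A) d := coeffMap_jqNModC _ d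
    rw [e1, e2] at h
    exact h
  | algebraMap c =>
    obtain ⟨a, rfl⟩ := IsLocalRing.residue_surjective c
    obtain ⟨b, hbA, hbfix, hlt⟩ := Fermat.Agent.T3.helper84.k0_res hq A hA a.2
    refine ⟨algebraMap Kb (FF N) b, isFixI_algebraMap hbfix, ?_⟩
    have h := RedQ.const (A := A) ⟨b, hbA⟩
    have e : IsLocalRing.residue A ⟨b, hbA⟩ = IsLocalRing.residue A a := by
      rw [← sub_eq_zero, ← map_sub, IsLocalRing.residue_eq_zero_iff, A.valuation_lt_one_iff]
      have : ((⟨b, hbA⟩ - a : A) : Kb) = -((a : Kb) - b) := by simp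
      rw [this, Valuation.map_neg]
      exact hlt
    rw [e] at h
    exact h
  | add x y _ _ hx hy =>
    obtain ⟨g, hg, hgr⟩ := hx
    obtain ⟨g', hg', hgr'⟩ := hy
    exact ⟨g + g', Fermat.Agent.T3.helper98.isFixI_add A hg hg', hgr.add hgr'⟩
  | inv x _ hx =>
    obtain ⟨g, hg, hgr⟩ := hx
    by_cases hx0 : x = 0
    · refine ⟨0, isFixI_zero, ?_⟩
      rw [hx0, inv_zero]
      exact RedQ.zero
    · exact ⟨g⁻¹, Fermat.Agent.T3.helper98.isFixI_inv A hg, hgr.inv hx0⟩
  | mul x y _ _ hx hy =>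
    obtain ⟨g, hg, hgr⟩ := hx
    obtain ⟨g', hg', hgr'⟩ := hy
    exact ⟨g * g', Fermat.Agent.T3.helper98.isFixI_mul A hg hg', hgr.mul hgr'⟩

end Lift

/-! ### The separating elements -/

section Sep

variable (N q : ℕ) [NeZero N] [NeZero q]

/-- `j` at level `N` -/
def jF : FF N := ⟨jqNModC Kb 1, jqNModC_mem_FF (one_dvd N)⟩

/-- `(dg2 j)^q - dg1 j`, with reductions `(s, 0, 0)` -/
def sepOne : FF (N * q * q) := (dg2 N q (jF N)) ^ q - dg1 N q (jF N)

/-- `(dg0 j)^q - dg1 j`, with reductions `(0, s, 0)` -/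
def sepTwo : FF (N * q * q) := (dg0 N q (jF N)) ^ q - dg1 N q (jF N)

/-- `(dg0 j - (dg2 j)^(q²)) (dg2 j - (dg0 j)^(q²))`, with reductions `(0, 0, s')` -/
def sepThree : FF (N * q * q) :=
  (dg0 N q (jF N) - (dg2 N q (jF N)) ^ (q * q)) * (dg2 N q (jF N) - (dg0 N q (jF N)) ^ (q * q))

variable (A : ValuationSubring Kb)

/-- the reduction `s` of `sepOne` at `∞` and of `sepTwo` at `0` -/
def sepRed : LaurentSeries (kA A) := (jqModC (kA A) ^ (q * q)) ^ q - jqModC (kA A) ^ q

/-- the reduction `s'` of `sepThree` at the middle cusp -/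
def sepRed' : LaurentSeries (kA A) :=
  (jqModC (kA A) - jqModC (kA A) ^ (q * q)) * (jqModC (kA A) - jqModC (kA A) ^ (q * q))

variable {N q} {A}

theorem isFixI_jF : IsFixI A N (jF N) := isFixI_gen (one_dvd N)

theorem redQ_jF : RedQ A ((jF N : FF N) : LaurentSeries Kb) (jqModC (kA A)) := by
  have h := RedQ.of_int (A := A) (jqNModC A 1)
  have e1 : incl A (jqNModC A 1) = jqNModC Kb 1 := coeffMap_jqNModC _ 1
  have e2 : red A (jqNModC A 1) = jqNModC (kA A) 1 := coeffMap_jqNModC _ 1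
  have e3 : jqNModC (kA A) 1 = jqModC (kA A) := jqNModC_one (kA A)
  rw [e1, e2, e3] at h
  exact h

theorem isFixI_sepOne : IsFixI A (N * q * q) (sepOne N q) := by
  unfold sepOne
  rw [sub_eq_add_neg]
  exact Fermat.Agent.T3.helper98.isFixI_add A
    (Fermat.Agent.T3.helper98.isFixI_pow A (Fermat.Agent.T3.helper98.isFixI_dg2 A isFixI_jF) q)
    (Fermat.Agent.T3.helper98.isFixI_neg A (Fermat.Agent.T3.helper98.isFixI_dg1 A isFixI_jF))

theorem isFixI_sepTwo : IsFixI A (N * q * q) (sepTwo N q) := by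
  unfold sepTwo
  rw [sub_eq_add_neg]
  exact Fermat.Agent.T3.helper98.isFixI_add A
    (Fermat.Agent.T3.helper98.isFixI_pow A (Fermat.Agent.T3.helper98.isFixI_dg0 A isFixI_jF) q)
    (Fermat.Agent.T3.helper98.isFixI_neg A (Fermat.Agent.T3.helper98.isFixI_dg1 A isFixI_jF))

theorem isFixI_sepThree : IsFixI A (N * q * q) (sepThree N q) := by
  unfold sepThree
  rw [sub_eq_add_neg, sub_eq_add_neg]
  exact Fermat.Agent.T3.helper98.isFixI_mul A
    (Fermat.Agent.T3.helper98.isFixI_add A (Fermat.Agent.T3.helper98.isFixI_dg0 A isFixI_jF)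
      (Fermat.Agent.T3.helper98.isFixI_neg A
        (Fermat.Agent.T3.helper98.isFixI_pow A
          (Fermat.Agent.T3.helper98.isFixI_dg2 A isFixI_jF) _)))
    (Fermat.Agent.T3.helper98.isFixI_add A (Fermat.Agent.T3.helper98.isFixI_dg2 A isFixI_jF)
      (Fermat.Agent.T3.helper98.isFixI_neg A
        (Fermat.Agent.T3.helper98.isFixI_pow A
          (Fermat.Agent.T3.helper98.isFixI_dg0 A isFixI_jF) _)))

variable {hq : q.Prime} {hqN : ¬ q ∣ N} {ζ : Kb} (hζ : IsPrimitiveRoot ζ q)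

section Char

variable (hA : A.LiesOverPrime q)

include hA in
theorem frJ (hq : q.Prime) : qExpand (kA A) q (jqModC (kA A)) = jqModC (kA A) ^ q := by
  haveI : Fact q.Prime := ⟨hq⟩
  haveI : CharP (kA A) q := Fermat.Agent.P2.helper93.charP_residueField hq hA
  exact Fermat.Agent.T2.helper96.jqNModC_char (kA A) q

include hA in
theorem frJ2 (hq : q.Prime) :
    qExpand (kA A) q (qExpand (kA A) q (jqModC (kA A))) = jqModC (kA A) ^ (q * q) := by
  rw [frJ hA hq, map_pow, frJ hA hq, ← pow_mul]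

include hA in
/-- reductions of `dg0 j` : `(j̄, j̄^(q²), j̄)` -/
theorem red3_dg0_jF (i : Fin 3) :
    Red3 N q hq hqN A hζ i (dg0 N q (jF N))
      (if i = 1 then jqModC (kA A) ^ (q * q) else jqModC (kA A)) := by
  fin_cases i
  · exact red3_dg0_zero hζ redQ_jF
  · have h := red3_dg0_one (hq := hq) (hqN := hqN) hζ (redQ_jF (N := N) (A := A))
    rw [frJ2 hA hq] at h
    exact h
  · exact red3_dg0_two hζ redQ_jF

include hA in
/-- reductions of `dg1 j` : `(j̄^q, j̄^q, j̄^q)` -/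
theorem red3_dg1_jF (i : Fin 3) :
    Red3 N q hq hqN A hζ i (dg1 N q (jF N)) (jqModC (kA A) ^ q) := by
  have h := red3_dg1 (hq := hq) (hqN := hqN) hζ i (redQ_jF (N := N) (A := A))
  rw [frJ hA hq] at h
  exact h

include hA in
/-- reductions of `dg2 j` : `(j̄^(q²), j̄, j̄)` -/
theorem red3_dg2_jF (i : Fin 3) :
    Red3 N q hq hqN A hζ i (dg2 N q (jF N))
      (if i = 0 then jqModC (kA A) ^ (q * q) else jqModC (kA A)) := by
  fin_cases i
  · have h := red3_dg2_zero (hq := hq) (hqN := hqN) hζ (redQ_jF (N := N) (A := A))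
    rw [frJ2 hA hq] at h
    exact h
  · exact red3_dg2_one hζ redQ_jF
  · exact red3_dg2_two hζ hA redQ_jF

include hA in
theorem red3_sepOne (i : Fin 3) :
    Red3 N q hq hqN A hζ i (sepOne N q) (if i = 0 then sepRed q A else 0) := by
  have h := red3_sub hζ (red3_pow hζ (red3_dg2_jF (hq := hq) (hqN := hqN) hζ hA i) q)
    (red3_dg1_jF (hq := hq) (hqN := hqN) hζ hA i)
  refine red3_congr hζ h ?_
  fin_cases i
  · rfl
  · show jqModC (kA A) ^ q - jqModC (kA A) ^ q = 0
    exact sub_self _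
  · show jqModC (kA A) ^ q - jqModC (kA A) ^ q = 0
    exact sub_self _

include hA in
theorem red3_sepTwo (i : Fin 3) :
    Red3 N q hq hqN A hζ i (sepTwo N q) (if i = 1 then sepRed q A else 0) := by
  have h := red3_sub hζ (red3_pow hζ (red3_dg0_jF (hq := hq) (hqN := hqN) hζ hA i) q)
    (red3_dg1_jF (hq := hq) (hqN := hqN) hζ hA i)
  refine red3_congr hζ h ?_
  fin_cases i
  · show jqModC (kA A) ^ q - jqModC (kA A) ^ q = 0
    exact sub_self _
  · rfl
  · show jqModC (kA A) ^ q - jqModC (kA A) ^ q = 0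
    exact sub_self _

include hA in
theorem red3_sepThree (i : Fin 3) :
    Red3 N q hq hqN A hζ i (sepThree N q) (if i = 2 then sepRed' q A else 0) := by
  have h := red3_mul hζ
    (red3_sub hζ (red3_dg0_jF (hq := hq) (hqN := hqN) hζ hA i)
      (red3_pow hζ (red3_dg2_jF (hq := hq) (hqN := hqN) hζ hA i) (q * q)))
    (red3_sub hζ (red3_dg2_jF (hq := hq) (hqN := hqN) hζ hA i)
      (red3_pow hζ (red3_dg0_jF (hq := hq) (hqN := hqN) hζ hA i) (q * q)))
  refine red3_congr hζ h ?_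
  fin_cases i
  · show (jqModC (kA A) - (jqModC (kA A) ^ (q * q)) ^ (q * q)) *
      (jqModC (kA A) ^ (q * q) - jqModC (kA A) ^ (q * q)) = 0
    rw [sub_self, mul_zero]
  · show (jqModC (kA A) ^ (q * q) - jqModC (kA A) ^ (q * q)) *
      (jqModC (kA A) - (jqModC (kA A) ^ (q * q)) ^ (q * q)) = 0
    rw [sub_self, zero_mul]
  · rfl

end Char

theorem sepRed_ne_zero (hq : q.Prime) : sepRed q A ≠ 0 := by
  intro h
  have h1 : (sepRed q A).coeff (-((q * q * q : ℕ) : ℤ)) = 1 := by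
    unfold sepRed
    rw [← pow_mul, HahnSeries.coeff_sub, ModularCurve.coeff_jqModC_pow_self,
      ModularCurve.coeff_jqModC_pow_of_lt, sub_zero]
    have h2 : 2 ≤ q := hq.two_le
    have h3 : q < q * q * q := by nlinarith
    exact_mod_cast neg_lt_neg (by exact_mod_cast h3)
  rw [h, HahnSeries.coeff_zero] at h1
  exact zero_ne_one h1

theorem sepRed'_ne_zero (hq : q.Prime) : sepRed' q A ≠ 0 := by
  have h0 : jqModC (kA A) - jqModC (kA A) ^ (q * q) ≠ 0 := by
    intro h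
    have h1 : (jqModC (kA A) - jqModC (kA A) ^ (q * q)).coeff (-((q * q : ℕ) : ℤ)) = -1 := by
      rw [HahnSeries.coeff_sub, ModularCurve.coeff_jqModC_pow_self, coeff_jqModC_of_lt, zero_sub]
      have h2 : 2 ≤ q := hq.two_le
      have h3 : 1 < q * q := by nlinarith
      have h4 : (1 : ℤ) < ((q * q : ℕ) : ℤ) := by exact_mod_cast h3
      linarith
    rw [h, HahnSeries.coeff_zero] at h1
    exact one_ne_zero (neg_eq_zero.mp h1.symm)
  exact mul_ne_zero h0 h0

theorem jqModC_mem_FFb : jqModC (kA A) ∈ FFb A N := jqModC_mem_full (kA A) N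

theorem sepRed_mem : sepRed q A ∈ FFb A N :=
  sub_mem (pow_mem (pow_mem jqModC_mem_FFb _) _) (pow_mem jqModC_mem_FFb _)

theorem sepRed'_mem : sepRed' q A ∈ FFb A N :=
  mul_mem (sub_mem jqModC_mem_FFb (pow_mem jqModC_mem_FFb _))
    (sub_mem jqModC_mem_FFb (pow_mem jqModC_mem_FFb _))

end Sep

/-! ### [APPROX3] -/

section Main

variable (N q : ℕ) [NeZero N] [NeZero q] (hq : q.Prime) (hqN : ¬ q ∣ N)
variable (A : ValuationSubring Kb) {ζ : Kb} (hζ : IsPrimitiveRoot ζ q)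

/-- **[APPROX3]** every triple of nonzero elements of `FFb A N` is the reduction triple of an
`I`-fixed function of level `N q q`. -/
theorem approx3 (hA : A.LiesOverPrime q) : Approx3Statement N q hq hqN A hζ := by
  intro Y hY hY0
  have hs : sepRed q A ≠ 0 := sepRed_ne_zero hq
  have hs' : sepRed' q A ≠ 0 := sepRed'_ne_zero hq
  obtain ⟨g₁, hg₁, hr₁⟩ := exists_fix_lift (N := N) hq hA
    (mul_mem (hY 0) (inv_mem (sepRed_mem (N := N) (q := q) (A := A))))
  obtain ⟨g₂, hg₂, hr₂⟩ := exists_fix_lift (N := N) hq hA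
    (mul_mem (hY 1) (inv_mem (sepRed_mem (N := N) (q := q) (A := A))))
  obtain ⟨g₃, hg₃, hr₃⟩ := exists_fix_lift (N := N) hq hA
    (mul_mem (hY 2) (inv_mem (sepRed'_mem (N := N) (q := q) (A := A))))
  set G : FF (N * q * q) :=
    sepOne N q * dg0 N q g₁ + sepTwo N q * dg2 N q g₂ + sepThree N q * dg0 N q g₃ with hG
  have hfix : IsFixI A (N * q * q) G :=
    Fermat.Agent.T3.helper98.isFixI_add A
      (Fermat.Agent.T3.helper98.isFixI_add A
        (Fermat.Agent.T3.helper98.isFixI_mul A isFixI_sepOne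
          (Fermat.Agent.T3.helper98.isFixI_dg0 A hg₁))
        (Fermat.Agent.T3.helper98.isFixI_mul A isFixI_sepTwo
          (Fermat.Agent.T3.helper98.isFixI_dg2 A hg₂)))
      (Fermat.Agent.T3.helper98.isFixI_mul A isFixI_sepThree
        (Fermat.Agent.T3.helper98.isFixI_dg0 A hg₃))
  have h0 : Red3 N q hq hqN A hζ 0 G (Y 0) := by
    have h := red3_add hζ (red3_add hζ
      (red3_mul hζ (red3_sepOne (hq := hq) (hqN := hqN) hζ hA 0) (red3_dg0_zero hζ hr₁))
      (red3_mul hζ (red3_sepTwo (hq := hq) (hqN := hqN) hζ hA 0) (red3_dg2_zero hζ hr₂)))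
      (red3_mul hζ (red3_sepThree (hq := hq) (hqN := hqN) hζ hA 0) (red3_dg0_zero hζ hr₃))
    refine red3_congr hζ h ?_
    show sepRed q A * (Y 0 * (sepRed q A)⁻¹) + 0 * _ + 0 * _ = Y 0
    rw [zero_mul, zero_mul, add_zero, add_zero, mul_comm (Y 0), ← mul_assoc,
      mul_inv_cancel₀ hs, one_mul]
  have h1 : Red3 N q hq hqN A hζ 1 G (Y 1) := by
    have h := red3_add hζ (red3_add hζ
      (red3_mul hζ (red3_sepOne (hq := hq) (hqN := hqN) hζ hA 1) (red3_dg0_one hζ hr₁))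
      (red3_mul hζ (red3_sepTwo (hq := hq) (hqN := hqN) hζ hA 1) (red3_dg2_one hζ hr₂)))
      (red3_mul hζ (red3_sepThree (hq := hq) (hqN := hqN) hζ hA 1) (red3_dg0_one hζ hr₃))
    refine red3_congr hζ h ?_
    show 0 * _ + sepRed q A * (Y 1 * (sepRed q A)⁻¹) + 0 * _ = Y 1
    rw [zero_mul, zero_mul, add_zero, zero_add, mul_comm (Y 1), ← mul_assoc,
      mul_inv_cancel₀ hs, one_mul]
  have h2 : Red3 N q hq hqN A hζ 2 G (Y 2) := by
    have h := red3_add hζ (red3_add hζ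
      (red3_mul hζ (red3_sepOne (hq := hq) (hqN := hqN) hζ hA 2) (red3_dg0_two hζ hr₁))
      (red3_mul hζ (red3_sepTwo (hq := hq) (hqN := hqN) hζ hA 2) (red3_dg2_two hζ hA hr₂)))
      (red3_mul hζ (red3_sepThree (hq := hq) (hqN := hqN) hζ hA 2) (red3_dg0_two hζ hr₃))
    refine red3_congr hζ h ?_
    show 0 * _ + 0 * _ + sepRed' q A * (Y 2 * (sepRed' q A)⁻¹) = Y 2
    rw [zero_mul, zero_mul, add_zero, zero_add, mul_comm (Y 2), ← mul_assoc,
      mul_inv_cancel₀ hs', one_mul]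
  refine ⟨G, red3_ne_zero hζ h0 (hY0 0), hfix, ?_⟩
  intro i
  fin_cases i
  · exact h0
  · exact h1
  · exact h2

end Main

end Fermat.Agent.T3.helper20

end
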