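import Mathlib
import Fermat.Agent.T3.helper72_Interface3
import Fermat.Agent.T2.helper58_ScaleBad

/-!
# Tier 3, [T3-NORMPOW3] (helper87): `helper72.NormPow3Statement`

Setting of `helper72_Interface3`: `q` prime, `q ∤ N`, level `N q q`, `A` a valuation subring of
`ℚ̄` over `q`, `I` its inertia group, `h` an `I`-fixed function with Gauss reductions
`X = (x₁, x₂, x₃)` at the cusps `∞`, `0`, `1/q` (quotient form `Red3`), whose two norms
`N_α h`, `N_β h` are constants times `n`-th powers in `F_{Nq}`.  Then `X i ^ (q (q - 1))` are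
`n`-th powers of nonzero elements of the function field `FFb A N` of the special fibre.

Proof.  Norm table in quotient form:
* `(N_α h)(t) = h(t) ∏_{k ≠ 0} (E_k h)(t)` has the reduction `x₁ x₃^(q-1)` (the middle
  expansions of an `I`-fixed function are conjugate under `I`, which acts trivially on the
  residue field);
* `(N_β h)(t^q) = ∏_{k < q} h(ζ^k t)` has the reduction `x₁^q`; the same for `W₂ h`:
  `(W₁ N_α h)(t^q) = (N_β W₂ h)(t^q)` has the reduction `x₂^q`.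
On the other hand the Gauss reduction of `c w^n`, `w ∈ F_{Nq}`, is a constant times the `n`-th
power of an element of `FFb A (N q) = FFb A N` (`ScaleStatement (N q) A` of T2), and the constants
are `n`-th powers (the residue field is algebraically closed).  Hence `x₁ x₃^(q-1) = a^n`,
`x₁^q = b^n`, `x₂^q = b₂^n` and
`x₁^(q(q-1)) = (b^(q-1))^n`, `x₂^(q(q-1)) = (b₂^(q-1))^n`, `x₃^(q(q-1)) = (a^q / b)^n`.

Main results: `QuotRed` (calculus of quotient reductions), `quotRed_normAlpha`,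
`quotRed_normBeta`, **`normPow3`** (`n ≠ 0`; for `n = 0` the statement is false).
-/

set_option autoImplicit false
set_option synthInstance.maxHeartbeats 400000
set_option maxHeartbeats 1000000
set_option linter.style.haveILetI false
set_option linter.unusedSectionVars false
set_option linter.unusedVariables false
set_option linter.style.longLine false

noncomputable section

open HahnSeries IntermediateField AlgebraicCurve ModularCurve
open Fermat.Agent.S18.helper19 Fermat.Agent.P2.helper29 Fermat.Agent.T2.helper36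

namespace Fermat.Agent.T3.helper87

open Fermat.Agent.P2.helper93 (twistL twistL_coeff rootUnit coeffMap_subtype_rot
  rootUnit_sub_one_mem actA coeffMap_subtype_actA coeffMap_residue_actA
  decK_eq_id_of_mem_inertia coeffMap_subtype_injective)
open Fermat.Agent.T3.helper48 (atkinLehnerSq)
open Fermat.Agent.T3.helper74 (ex3 IsFixI midOne midOne_ne)
open Fermat.Agent.T3.helper72 (nA nB NormPow Red3 NormPow3Statement)
open Fermat.Agent.P3.helper94 (normAlong)

/-! ### Quotient reductions -/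

section Quot

variable (A : ValuationSubring Kb)

/-- **quotient form of the Gauss reduction**: `E = Y₁ / Y₂` with integral series `Y₁`, `Y₂`,
`red Y₂ ≠ 0` and `red Y₁ = x · red Y₂`. -/
def QuotRed (E : LaurentSeries Kb) (x : LaurentSeries (kA A)) : Prop :=
  ∃ Y₁ Y₂ : LaurentSeries A, red A Y₂ ≠ 0 ∧ incl A Y₁ = E * incl A Y₂ ∧
    red A Y₁ = x * red A Y₂

variable {A}

theorem quotRed_one : QuotRed A 1 1 := by
  refine ⟨1, 1, ?_, ?_, ?_⟩
  · rw [map_one]
    exact one_ne_zero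
  · rw [map_one, mul_one]
  · rw [map_one, mul_one]

theorem QuotRed.mul {E E' : LaurentSeries Kb} {x x' : LaurentSeries (kA A)}
    (h : QuotRed A E x) (h' : QuotRed A E' x') : QuotRed A (E * E') (x * x') := by
  obtain ⟨Y₁, Y₂, h0, h1, h2⟩ := h
  obtain ⟨Z₁, Z₂, g0, g1, g2⟩ := h'
  refine ⟨Y₁ * Z₁, Y₂ * Z₂, ?_, ?_, ?_⟩
  · rw [map_mul]
    exact mul_ne_zero h0 g0
  · rw [map_mul, map_mul, h1, g1]
    ring
  · rw [map_mul, map_mul, h2, g2]
    ring

theorem QuotRed.pow {E : LaurentSeries Kb} {x : LaurentSeries (kA A)} (h : QuotRed A E x)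
    (m : ℕ) : QuotRed A (E ^ m) (x ^ m) := by
  induction m with
  | zero =>
    rw [pow_zero, pow_zero]
    exact quotRed_one
  | succ k ih =>
    rw [pow_succ, pow_succ]
    exact ih.mul h

theorem quotRed_prod {ι : Type*} (s : Finset ι) (E : ι → LaurentSeries Kb)
    (x : ι → LaurentSeries (kA A)) (h : ∀ i ∈ s, QuotRed A (E i) (x i)) :
    QuotRed A (∏ i ∈ s, E i) (∏ i ∈ s, x i) := by
  classical
  induction s using Finset.induction_on with
  | empty =>
    rw [Finset.prod_empty, Finset.prod_empty]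
    exact quotRed_one
  | insert a s ha ih =>
    rw [Finset.prod_insert ha, Finset.prod_insert ha]
    exact (h a (Finset.mem_insert_self a s)).mul
      (ih fun i hi => h i (Finset.mem_insert_of_mem hi))

theorem QuotRed.ne_zero {E : LaurentSeries Kb} {x : LaurentSeries (kA A)} (h : QuotRed A E x)
    (hx : x ≠ 0) : E ≠ 0 := by
  rintro rfl
  obtain ⟨Y₁, Y₂, h0, h1, h2⟩ := h
  rw [zero_mul] at h1
  have hY : Y₁ = 0 := coeffMap_subtype_injective (h1.trans (map_zero _).symm)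
  rw [hY, map_zero] at h2
  exact mul_ne_zero hx h0 h2.symm

/-- twists by `q`-th roots of unity do not change the reduction (`A` over `q`). -/
theorem QuotRed.twist {q : ℕ} [NeZero q] (hq : q.Prime) (hA : A.LiesOverPrime q) {ζ : Kb}
    (hζ : IsPrimitiveRoot ζ q) (k : ℕ) {E : LaurentSeries Kb} {x : LaurentSeries (kA A)}
    (h : QuotRed A E x) : QuotRed A (twistL (ζ ^ k) E) x := by
  obtain ⟨Y₁, Y₂, h0, h1, h2⟩ := h
  obtain ⟨Z₁, hZ₁, hr₁⟩ :=
    Fermat.Agent.T3.helper98.exists_model_twist A hq hA hζ.pow_eq_one k _ Y₁ rfl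
  obtain ⟨Z₂, hZ₂, hr₂⟩ :=
    Fermat.Agent.T3.helper98.exists_model_twist A hq hA hζ.pow_eq_one k _ Y₂ rfl
  refine ⟨Z₁, Z₂, ?_, ?_, ?_⟩
  · rw [hr₂]
    exact h0
  · rw [hZ₁, hZ₂, h1]
    exact Fermat.Agent.T2.helper87.twistL_mul (pow_ne_zero _ (hζ.ne_zero hq.ne_zero)) _ _
  · rw [hr₁, hr₂]
    exact h2

/-- the inertia group does not change the reduction. -/
theorem QuotRed.gal {σ : Kb ≃ₐ[ℚ] Kb} (hσ : σ ∈ A.inertiaSubgroupIn ℚ)
    {E : LaurentSeries Kb} {x : LaurentSeries (kA A)} (h : QuotRed A E x) :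
    QuotRed A (coeffMap (σ : Kb →+* Kb) E) x := by
  obtain ⟨Y₁, Y₂, h0, h1, h2⟩ := h
  obtain ⟨hσD, hid⟩ := decK_eq_id_of_mem_inertia hσ
  have hred : ∀ Y : LaurentSeries A, red A (actA σ hσD Y) = red A Y := by
    intro Y
    show coeffMap (IsLocalRing.residue ↥A) _ = _
    rw [coeffMap_residue_actA, hid, coeffMap_id]
  have hincl : ∀ Y : LaurentSeries A,
      incl A (actA σ hσD Y) = coeffMap (σ : Kb →+* Kb) (incl A Y) := fun Y =>
    coeffMap_subtype_actA σ hσD Y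
  refine ⟨actA σ hσD Y₁, actA σ hσD Y₂, ?_, ?_, ?_⟩
  · rw [hred]
    exact h0
  · rw [hincl, hincl, h1, map_mul]
  · rw [hred, hred]
    exact h2

/-- **uniqueness of the Gauss reduction up to a unit constant**: if `E = Y₁ / Y₂` has the
reduction `x ≠ 0` and `c · Z₁ = E · Z₂` with `red Z₁, red Z₂ ≠ 0`, then `c` is a unit and
`x · red Z₂ = c̄ · red Z₁`. -/
theorem QuotRed.scale {E : LaurentSeries Kb} {x : LaurentSeries (kA A)} (h : QuotRed A E x)
    (hx : x ≠ 0) {c : Kb} (hc : c ≠ 0) {Z₁ Z₂ : LaurentSeries A} (hZ₁ : red A Z₁ ≠ 0)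
    (hZ₂ : red A Z₂ ≠ 0)
    (hZ : algebraMap Kb (LaurentSeries Kb) c * incl A Z₁ = E * incl A Z₂) :
    ∃ u : kA A, u ≠ 0 ∧
      x * red A Z₂ = algebraMap (kA A) (LaurentSeries (kA A)) u * red A Z₁ := by
  obtain ⟨Y₁, Y₂, h0, h1, h2⟩ := h
  have hY₁ : red A Y₁ ≠ 0 := by
    rw [h2]
    exact mul_ne_zero hx h0
  -- `c · Z₁ Y₂ = Y₁ Z₂`
  have key : algebraMap Kb (LaurentSeries Kb) c * incl A (Z₁ * Y₂) = incl A (Y₁ * Z₂) := by
    rw [map_mul, map_mul, ← mul_assoc, hZ, h1]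
    ring
  by_cases hcA : c ∈ A
  · have e : constA (⟨c, hcA⟩ : A) * (Z₁ * Y₂) = Y₁ * Z₂ := by
      apply coeffMap_subtype_injective
      rw [map_mul, coeffMap_subtype_constA]
      exact key
    have e' := congrArg (red A) e
    rw [map_mul, map_mul, map_mul, coeffMap_residue_constA, h2] at e'
    refine ⟨IsLocalRing.residue A ⟨c, hcA⟩, ?_, ?_⟩
    · intro hu
      rw [hu, map_zero, zero_mul] at e'
      exact mul_ne_zero (mul_ne_zero hx h0) hZ₂ e'.symm
    · have e2 : (x * red A Z₂) * red A Y₂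
          = (algebraMap (kA A) (LaurentSeries (kA A)) (IsLocalRing.residue A ⟨c, hcA⟩)
            * red A Z₁) * red A Y₂ := by
        have e3 : x * red A Z₂ * red A Y₂ = x * red A Y₂ * red A Z₂ := by ring
        rw [e3, ← e']
        ring
      exact mul_right_cancel₀ h0 e2
  · exfalso
    have hinv : c⁻¹ ∈ A := (A.mem_or_inv_mem c).resolve_left hcA
    have hres := Fermat.Agent.T2.helper58.residue_inv_eq_zero A hcA hinv
    have e : constA (⟨c⁻¹, hinv⟩ : A) * (Y₁ * Z₂) = Z₁ * Y₂ := by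
      apply coeffMap_subtype_injective
      rw [map_mul, coeffMap_subtype_constA, ← key, ← mul_assoc, ← map_mul]
      show algebraMap Kb (LaurentSeries Kb) (c⁻¹ * c) * _ = _
      rw [inv_mul_cancel₀ hc, map_one, one_mul]
    have e' := congrArg (red A) e
    rw [map_mul, map_mul, map_mul, coeffMap_residue_constA, hres, map_zero, zero_mul] at e'
    exact mul_ne_zero hZ₁ h0 e'.symm

/-- **`n`-th powers**: if `E = c · W^n` has the reduction `x ≠ 0` and `W = γ · Z₁ / Z₂` with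
`red Z₁, red Z₂ ≠ 0`, then `x = (v · red Z₁ / red Z₂)^n` for a constant `v ≠ 0`. -/
theorem QuotRed.exists_pow {n : ℕ} (hn : n ≠ 0) {E W : LaurentSeries Kb}
    {x : LaurentSeries (kA A)} (h : QuotRed A E x) (hx : x ≠ 0) {c : Kb}
    (hEW : E = algebraMap Kb (LaurentSeries Kb) c * W ^ n) {γ : Kb} (hγ : γ ≠ 0)
    {Z₁ Z₂ : LaurentSeries A} (hZ₁ : red A Z₁ ≠ 0) (hZ₂ : red A Z₂ ≠ 0)
    (hZ : algebraMap Kb (LaurentSeries Kb) γ * incl A Z₁ = W * incl A Z₂) :
    ∃ v : kA A, v ≠ 0 ∧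
      x = (algebraMap (kA A) (LaurentSeries (kA A)) v * red A Z₁ * (red A Z₂)⁻¹) ^ n := by
  haveI : IsAlgClosed (kA A) := Fermat.Agent.P2.helper95.isAlgClosed_residueField A
  have hE0 : E ≠ 0 := h.ne_zero hx
  have hc : c ≠ 0 := by
    rintro rfl
    rw [map_zero, zero_mul] at hEW
    exact hE0 hEW
  have hcγ : c * γ ^ n ≠ 0 := mul_ne_zero hc (pow_ne_zero _ hγ)
  have hZn : algebraMap Kb (LaurentSeries Kb) (c * γ ^ n) * incl A (Z₁ ^ n)
      = E * incl A (Z₂ ^ n) := by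
    rw [map_mul, map_pow, map_pow, map_pow, hEW, mul_assoc, ← mul_pow, hZ, mul_pow]
    ring
  obtain ⟨u, hu, hux⟩ := h.scale hx hcγ (by rw [map_pow]; exact pow_ne_zero _ hZ₁)
    (by rw [map_pow]; exact pow_ne_zero _ hZ₂) hZn
  obtain ⟨v, hv⟩ := IsAlgClosed.exists_pow_nat_eq u (Nat.pos_of_ne_zero hn)
  have hv0 : v ≠ 0 := by
    rintro rfl
    rw [zero_pow hn] at hv
    exact hu hv.symm
  refine ⟨v, hv0, ?_⟩
  rw [map_pow, map_pow] at hux
  rw [mul_pow, mul_pow, inv_pow, ← map_pow, hv, ← hux, mul_assoc,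
    mul_inv_cancel₀ (pow_ne_zero _ hZ₂), mul_one]

end Quot

/-! ### The norm table in quotient form -/

section Norm

variable {N q : ℕ} [NeZero N] [NeZero q] {hq : q.Prime} {hqN : ¬ q ∣ N}
variable {A : ValuationSubring Kb}

/-- the middle expansions of an `I`-fixed function are conjugate under the inertia group. -/
theorem exists_gal_embMid (hA : A.LiesOverPrime q) {ζ : Kb} (hζ : IsPrimitiveRoot ζ q)
    (g : FF (N * q * q)) (hg : IsFixI A (N * q * q) g) (k₀ : Fin q) (hk₀ : (k₀ : ℕ) ≠ 0)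
    (k : Fin q) (hk : (k : ℕ) ≠ 0) :
    ∃ σ ∈ A.inertiaSubgroupIn ℚ,
      coeffMap (σ : Kb →+* Kb) (embMid N q hq hqN hζ k₀ hk₀ g)
        = embMid N q hq hqN hζ k hk g := by
  have hcop₀ : Nat.Coprime (k₀ : ℕ) q := by
    rw [Nat.coprime_comm, Nat.Prime.coprime_iff_not_dvd hq]
    intro hd
    exact hk₀ (Nat.eq_zero_of_dvd_of_lt hd k₀.2)
  have hζ₀ : IsPrimitiveRoot (ζ ^ (k₀ : ℕ)) q := hζ.pow_of_coprime _ hcop₀
  have hζk1 : (ζ ^ (k : ℕ)) ^ q = 1 := by
    rw [← pow_mul, mul_comm, pow_mul, hζ.pow_eq_one, one_pow]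
  obtain ⟨i, -, hik⟩ := hζ₀.eq_pow_of_pow_eq_one hζk1
  have hqi : ¬ q ∣ i := by
    intro hd
    obtain ⟨c, rfl⟩ := hd
    rw [pow_mul, hζ₀.pow_eq_one, one_pow] at hik
    have h0 : (k : ℕ) = 0 := hζ.pow_inj k.2 hq.pos (hik.symm.trans (pow_zero ζ).symm)
    exact hk h0
  obtain ⟨σ, hσI, hσ⟩ := Fermat.Agent.T3.helper84.k0_zeta_trans hq A hA hζ₀ hqi
  refine ⟨σ, hσI, ?_⟩
  rw [coeffMap_embMid, hg σ hσI]
  have hc := embMid_congr (N := N) (hq := hq) (hqN := hqN) hζ
    (hζ.map_of_injective (f := σ) σ.injective) k k₀ hk hk₀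
    (by rw [← map_pow, hσ, hik])
  rw [hc]

/-- **the norm along `α` in quotient form**: the reduction of `N_α h` at `∞` is
`x₁ x₃^(q-1)`. -/
theorem quotRed_normAlpha (hA : A.LiesOverPrime q) {ζ : Kb} (hζ : IsPrimitiveRoot ζ q)
    (h : FF (N * q * q)) (hfix : IsFixI A (N * q * q) h) {x₁ x₃ : LaurentSeries (kA A)}
    (h1 : QuotRed A (h : LaurentSeries Kb) x₁) (k₀ : Fin q) (hk₀ : (k₀ : ℕ) ≠ 0)
    (h3 : QuotRed A (embMid N q hq hqN hζ k₀ hk₀ h) x₃) :
    QuotRed A ((normAlong (heckeAlphaBar Kb (N * q) q) h : FF (N * q)) : LaurentSeries Kb)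
      (x₁ * x₃ ^ (q - 1)) := by
  rw [Fermat.Agent.T3.helper98.normAlpha_expand (hq := hq) (hqN := hqN) hζ h]
  refine h1.mul ?_
  have hp := quotRed_prod (A := A) (Finset.univ : Finset (MidIdx q))
    (fun k => embMid N q hq hqN hζ k.1 k.2 h) (fun _ => x₃) (fun k _ => by
      obtain ⟨σ, hσ, e⟩ := exists_gal_embMid (hq := hq) (hqN := hqN) hA hζ h hfix k₀ hk₀ k.1 k.2
      rw [← e]
      exact h3.gal hσ)
  rw [Finset.prod_const, Finset.card_univ, Fermat.Agent.T3.helper98.card_midIdx' hq] at hp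
  exact hp

/-- **the norm along `β` in quotient form**: the reduction of `(N_β g)(t^q)` is `x^q`
(`q ∣ M`). -/
theorem quotRed_normBeta (M : ℕ) [NeZero M] (hq : q.Prime) (hqM : q ∣ M)
    (hA : A.LiesOverPrime q) {ζ : Kb} (hζ : IsPrimitiveRoot ζ q) (g : FF (M * q))
    {x : LaurentSeries (kA A)} (hg : QuotRed A (g : LaurentSeries Kb) x) :
    QuotRed A (qExpand Kb q
      ((normAlong (heckeBetaBar Kb M q) g : FF M) : LaurentSeries Kb)) (x ^ q) := by
  rw [Fermat.Agent.T3.helper98.normBeta_expand M q hq hqM hζ g]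
  have hp := quotRed_prod (A := A) (Finset.range q)
    (fun k => twistL (ζ ^ k) (g : LaurentSeries Kb)) (fun _ => x)
    (fun k _ => hg.twist hq hA hζ k)
  rw [Finset.prod_const, Finset.card_range] at hp
  exact hp

end Norm

/-! ### Reductions of constants times `n`-th powers -/

section Pow

variable {A : ValuationSubring Kb}

/-- the Gauss reduction of `c · w^n`, `w ∈ F_M`, is the `n`-th power of an element of the
special fibre field. -/
theorem exists_pow_of_scale (M : ℕ) [NeZero M] (hS : ScaleStatement M A) {n : ℕ} (hn : n ≠ 0)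
    (c : Kb) (w : FF M) {x : LaurentSeries (kA A)}
    (h : QuotRed A ((algebraMap Kb (FF M) c * w ^ n : FF M) : LaurentSeries Kb) x)
    (hx : x ≠ 0) : ∃ a : LaurentSeries (kA A), a ∈ FFb A M ∧ a ≠ 0 ∧ x = a ^ n := by
  have hE : ((algebraMap Kb (FF M) c * w ^ n : FF M) : LaurentSeries Kb)
      = algebraMap Kb (LaurentSeries Kb) c * (w : LaurentSeries Kb) ^ n := rfl
  have hw : (w : LaurentSeries Kb) ≠ 0 := by
    intro h0
    apply h.ne_zero hx
    rw [hE, h0, zero_pow hn, mul_zero]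
  obtain ⟨γ, Z₁, Z₂, hγ, hZ₁, hZ₂, hZ⟩ := hS (w : LaurentSeries Kb) w.2 hw
  obtain ⟨v, hv, hxv⟩ := h.exists_pow hn hx hE hγ hZ₁.2.2 hZ₂.2.2 hZ
  refine ⟨_, ?_, ?_, hxv⟩
  · exact mul_mem (mul_mem ((FFb A M).algebraMap_mem v) hZ₁.2.1) (inv_mem hZ₂.2.1)
  · intro h0
    rw [h0, zero_pow hn] at hxv
    exact hx hxv

/-- the same for `(c · w^n)(t^q)`. -/
theorem exists_pow_of_scale_qExpand (M q : ℕ) [NeZero M] [NeZero q] (hS : ScaleStatement M A)
    {n : ℕ} (hn : n ≠ 0) (c : Kb) (w : FF M) {x : LaurentSeries (kA A)}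
    (h : QuotRed A
      (qExpand Kb q ((algebraMap Kb (FF M) c * w ^ n : FF M) : LaurentSeries Kb)) x)
    (hx : x ≠ 0) : ∃ a : LaurentSeries (kA A), a ∈ FFb A (M * q) ∧ a ≠ 0 ∧ x = a ^ n := by
  have hE : qExpand Kb q ((algebraMap Kb (FF M) c * w ^ n : FF M) : LaurentSeries Kb)
      = algebraMap Kb (LaurentSeries Kb) c * (qExpand Kb q (w : LaurentSeries Kb)) ^ n := by
    have e : ((algebraMap Kb (FF M) c * w ^ n : FF M) : LaurentSeries Kb)
        = algebraMap Kb (LaurentSeries Kb) c * (w : LaurentSeries Kb) ^ n := rfl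
    rw [e, Fermat.Agent.T2.helper58.qExpand_algebraMap_mul, map_pow]
  have hw : (w : LaurentSeries Kb) ≠ 0 := by
    intro h0
    apply h.ne_zero hx
    rw [hE, h0, map_zero, zero_pow hn, mul_zero]
  obtain ⟨γ, Z₁, Z₂, hγ, hZ₁, hZ₂, hZ⟩ := hS (w : LaurentSeries Kb) w.2 hw
  have hZq : algebraMap Kb (LaurentSeries Kb) γ * incl A (qExpand A q Z₁)
      = qExpand Kb q (w : LaurentSeries Kb) * incl A (qExpand A q Z₂) := by
    have e1 : incl A (qExpand A q Z₁) = qExpand Kb q (incl A Z₁) := coeffMap_qExpand _ q Z₁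
    have e2 : incl A (qExpand A q Z₂) = qExpand Kb q (incl A Z₂) := coeffMap_qExpand _ q Z₂
    rw [e1, e2, ← Fermat.Agent.T2.helper58.qExpand_algebraMap_mul, hZ, map_mul]
  have r1 : red A (qExpand A q Z₁) = qExpand (kA A) q (red A Z₁) := coeffMap_qExpand _ q Z₁
  have r2 : red A (qExpand A q Z₂) = qExpand (kA A) q (red A Z₂) := coeffMap_qExpand _ q Z₂
  have hn1 : red A (qExpand A q Z₁) ≠ 0 := by
    rw [r1]
    intro h0
    exact hZ₁.2.2 (qExpand_injective q (h0.trans (map_zero _).symm))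
  have hn2 : red A (qExpand A q Z₂) ≠ 0 := by
    rw [r2]
    intro h0
    exact hZ₂.2.2 (qExpand_injective q (h0.trans (map_zero _).symm))
  obtain ⟨v, hv, hxv⟩ := h.exists_pow hn hx hE hγ hn1 hn2 hZq
  refine ⟨_, ?_, ?_, hxv⟩
  · refine mul_mem (mul_mem ((FFb A (M * q)).algebraMap_mem v) ?_) (inv_mem ?_)
    · rw [r1]
      exact Fermat.Agent.T2.helper58.qExpand_mem_FFb q hZ₁.2.1
    · rw [r2]
      exact Fermat.Agent.T2.helper58.qExpand_mem_FFb q hZ₂.2.1
  · intro h0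
    rw [h0, zero_pow hn] at hxv
    exact hx hxv

end Pow

/-! ### [NORMPOW3] -/

section Main

variable {N q : ℕ} [NeZero N] [NeZero q] {hq : q.Prime} {hqN : ¬ q ∣ N}
variable {A : ValuationSubring Kb}

theorem red3_iff_quotRed {ζ : Kb} (hζ : IsPrimitiveRoot ζ q) (i : Fin 3) (f : FF (N * q * q))
    (x : LaurentSeries (kA A)) :
    Red3 N q hq hqN A hζ i f x ↔ QuotRed A (ex3 N q hq hqN hζ i f) x := Iff.rfl

/-- the three consequences of the norm conditions: `x₁ x₃^(q-1)`, `x₁^q`, `x₂^q` are `n`-th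
powers in the special fibre field. -/
theorem normPow3_aux (hA : A.LiesOverPrime q) {ζ : Kb} (hζ : IsPrimitiveRoot ζ q) {n : ℕ}
    (hn : n ≠ 0) (h : FF (N * q * q)) (X : Fin 3 → LaurentSeries (kA A))
    (hfix : IsFixI A (N * q * q) h) (hX : ∀ i, X i ≠ 0)
    (hred : ∀ i, Red3 N q hq hqN A hζ i h (X i)) (hnp : NormPow N q n h) :
    ∃ a b b₂ : LaurentSeries (kA A), a ∈ FFb A N ∧ b ∈ FFb A N ∧ b₂ ∈ FFb A N ∧
      a ≠ 0 ∧ b ≠ 0 ∧ b₂ ≠ 0 ∧
      X 0 * X 2 ^ (q - 1) = a ^ n ∧ X 0 ^ q = b ^ n ∧ X 1 ^ q = b₂ ^ n := by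
  obtain ⟨⟨c, w, hcw⟩, ⟨c', w', hcw'⟩⟩ := hnp
  have r0 : QuotRed A (h : LaurentSeries Kb) (X 0) := by
    have := hred 0
    rw [red3_iff_quotRed, Fermat.Agent.T3.helper98.ex3_zero] at this
    exact this
  have r1 : QuotRed A ((atkinLehnerSq N q hq hqN h : FF (N * q * q)) : LaurentSeries Kb)
      (X 1) := by
    have := hred 1
    rw [red3_iff_quotRed, Fermat.Agent.T3.helper98.ex3_one] at this
    exact this
  have r2 : QuotRed A (embMid N q hq hqN hζ (midOne q hq) (midOne_ne q hq) h) (X 2) := by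
    have := hred 2
    rw [red3_iff_quotRed, Fermat.Agent.T3.helper98.ex3_two] at this
    exact this
  have hS : ScaleStatement (N * q) A :=
    Fermat.Agent.T2.helper58.scaleStatement_bad N q hq hqN A hA
  have hFF : FFb A (N * q) = FFb A N := Fermat.Agent.T2.helper96.FFb_mul_eq N A hq hA
  have hFF2 : FFb A (N * q * q) = FFb A N :=
    (Fermat.Agent.T2.helper96.FFb_mul_eq (N * q) A hq hA).trans hFF
  have hnA : normAlong (heckeAlphaBar Kb (N * q) q) h
      = algebraMap Kb (FF (N * q)) c * w ^ n := hcw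
  have hnB : normAlong (heckeBetaBar Kb (N * q) q) h
      = algebraMap Kb (FF (N * q)) c' * w' ^ n := hcw'
  -- (a)
  have qa := quotRed_normAlpha (hq := hq) (hqN := hqN) hA hζ h hfix r0 _ _ r2
  rw [hnA] at qa
  obtain ⟨a, haF, ha, hax⟩ := exists_pow_of_scale (N * q) hS hn c w qa
    (mul_ne_zero (hX 0) (pow_ne_zero _ (hX 2)))
  -- (b)
  have qb := quotRed_normBeta (N * q) hq (Dvd.intro_left N rfl) hA hζ h r0
  rw [hnB] at qb
  obtain ⟨b, hbF, hb, hbx⟩ := exists_pow_of_scale_qExpand (N * q) q hS hn c' w' qb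
    (pow_ne_zero _ (hX 0))
  -- (c)
  have qc := quotRed_normBeta (N * q) hq (Dvd.intro_left N rfl) hA hζ
    (atkinLehnerSq N q hq hqN h) r1
  have hW : normAlong (heckeBetaBar Kb (N * q) q) (atkinLehnerSq N q hq hqN h)
      = algebraMap Kb (FF (N * q)) c * (atkinLehner N q hq hqN w) ^ n := by
    rw [← Fermat.Agent.T3.helper98.atkinLehner_normAlpha, hnA, map_mul, map_pow,
      AlgEquiv.commutes]
  rw [hW] at qc
  obtain ⟨b₂, hb₂F, hb₂, hb₂x⟩ := exists_pow_of_scale_qExpand (N * q) q hS hn c _ qc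
    (pow_ne_zero _ (hX 1))
  rw [hFF] at haF
  rw [hFF2] at hbF hb₂F
  exact ⟨a, b, b₂, haF, hbF, hb₂F, ha, hb, hb₂, hax, hbx, hb₂x⟩

/-- **[NORMPOW3]** `helper72.NormPow3Statement` for `A` over `q` and `n ≠ 0`. -/
theorem normPow3 (hA : A.LiesOverPrime q) {ζ : Kb} (hζ : IsPrimitiveRoot ζ q) (n : ℕ)
    (hn : n ≠ 0) : NormPow3Statement N q hq hqN A hζ n := by
  intro h X hh0 hfix hX hred hnp
  obtain ⟨a, b, b₂, haF, hbF, hb₂F, ha, hb, hb₂, hax, hbx, hb₂x⟩ :=
    normPow3_aux (hq := hq) (hqN := hqN) hA hζ hn h X hfix hX hred hnp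
  have e0 : X 0 ^ (q * (q - 1)) = (b ^ (q - 1)) ^ n := by
    rw [pow_mul, hbx, ← pow_mul, ← pow_mul, mul_comm]
  have e1 : X 1 ^ (q * (q - 1)) = (b₂ ^ (q - 1)) ^ n := by
    rw [pow_mul, hb₂x, ← pow_mul, ← pow_mul, mul_comm]
  have e2 : X 2 ^ (q * (q - 1)) = (a ^ q * b⁻¹) ^ n := by
    have h1 : X 2 ^ (q - 1) = a ^ n * (X 0)⁻¹ := by
      rw [← hax, mul_comm (X 0), mul_assoc, mul_inv_cancel₀ (hX 0), mul_one]
    rw [mul_comm q, pow_mul, h1, mul_pow, inv_pow, hbx, mul_pow, inv_pow, ← pow_mul, ← pow_mul,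
      mul_comm n q]
  refine ⟨fun i => if i = 0 then b ^ (q - 1) else if i = 1 then b₂ ^ (q - 1) else a ^ q * b⁻¹,
    ?_, ?_, ?_⟩
  · intro i
    fin_cases i
    · exact pow_mem hbF _
    · exact pow_mem hb₂F _
    · exact mul_mem (pow_mem haF _) (inv_mem hbF)
  · intro i
    fin_cases i
    · exact pow_ne_zero _ hb
    · exact pow_ne_zero _ hb₂
    · exact mul_ne_zero (pow_ne_zero _ ha) (inv_ne_zero hb)
  · intro i
    fin_cases i
    · exact e0
    · exact e1
    · exact e2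

end Main

end Fermat.Agent.T3.helper87

end
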