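/-
TIER 3 (S36), helper72: PRE-FINAL assembly.  The landed boxes [NORMPOW3] (helper87) and
[APPROX3] (helper20) are plugged in; S36 is reduced to [SCALE3] and the boxes under [TORIC]
(`helper49.TorBase` + `helper49.Ideal3Statement`).

* `newCore2_of_scale_toric` : `NewCoreAtAuxLevels2` from [SCALE3] + [TORIC] (Interface3 shapes).
* `newCore2_of_scale_torBase` : the same with [TORIC] replaced by `TorBase` + `Ideal3Statement`.
-/
import Fermat.Agent.T3.helper72_Asm36v2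
import Fermat.Agent.T3.helper87_NormPow3
import Fermat.Agent.T3.helper20_Approx3
import Fermat.Agent.T3.helper49_TorInst

set_option autoImplicit false
set_option linter.unusedSectionVars false
set_option linter.unusedVariables false
set_option linter.style.haveILetI false

noncomputable section

namespace Fermat.Agent.T3.helper72

open Fermat.Agent.P3 Fermat.Agent.S18.helper19

/-- the constant of [TORIC] -/
def cTor (q : ℕ) : ℕ := q * ((q - 1) * (q + 1))

theorem cTor_ne_zero {q : ℕ} (hq : q.Prime) : cTor q ≠ 0 := by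
  have := hq.two_le
  exact Nat.mul_ne_zero hq.ne_zero (Nat.mul_ne_zero (by omega) (by omega))

/-- **S36 from [SCALE3] + [TORIC]**: the boxes [NORMPOW3] and [APPROX3] are on main. -/
theorem newCore2_of_scale_toric (Cs C₂ : ℕ → ℕ) (hCs : ∀ q : ℕ, q.Prime → Cs q ≠ 0)
    (hC₂ : ∀ q : ℕ, q.Prime → C₂ q ≠ 0)
    (hS : ∀ (N' q : ℕ) [NeZero N'] [NeZero q] (hq : q.Prime) (hqN : ¬ q ∣ N') (p : ℕ),
      p.Prime → p ≠ q → p ≠ 2 → AuxOK q N' → ∀ A : ValuationSubring Kb, A.LiesOverPrime q →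
        ∀ (ζ : Kb) (hζ : IsPrimitiveRoot ζ q) (k : ℕ),
          Scale3Statement N' q hq hqN A hζ (p ^ k) (Cs q))
    (hT : ∀ (N' q : ℕ) [NeZero N'] [NeZero q] (hq : q.Prime) (hqN : ¬ q ∣ N') (p : ℕ),
      p.Prime → p ≠ q → p ≠ 2 → AuxOK q N' → ∀ A : ValuationSubring Kb, A.LiesOverPrime q →
        ∀ (ζ : Kb) (hζ : IsPrimitiveRoot ζ q) (k : ℕ),
          ToricStatement N' q hq hqN A hζ (p ^ k) (C₂ q)) :
    NewCoreAtAuxLevels2 :=
  newCoreAtAuxLevels2_of_boxes Cs C₂ hCs hC₂ hS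
    (fun N' q _ _ hq hqN p hp _ _ _ A hA ζ hζ k =>
      Fermat.Agent.T3.helper87.normPow3 hA hζ (p ^ k) (pow_ne_zero k hp.ne_zero))
    (fun N' q _ _ hq hqN _ A hA ζ hζ => Fermat.Agent.T3.helper20.approx3 N' q hq hqN A hζ hA)
    hT

/-- **S36 from [SCALE3] + the boxes under [TORIC]** (`TorBase` = Reg, Bt, J, [PB3], [REAL3],
[ROOT3]; `Ideal3Statement` = [IDEAL3]). -/
theorem newCore2_of_scale_torBase (Cs : ℕ → ℕ) (hCs : ∀ q : ℕ, q.Prime → Cs q ≠ 0)
    (hS : ∀ (N' q : ℕ) [NeZero N'] [NeZero q] (hq : q.Prime) (hqN : ¬ q ∣ N') (p : ℕ),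
      p.Prime → p ≠ q → p ≠ 2 → AuxOK q N' → ∀ A : ValuationSubring Kb, A.LiesOverPrime q →
        ∀ (ζ : Kb) (hζ : IsPrimitiveRoot ζ q) (k : ℕ),
          Scale3Statement N' q hq hqN A hζ (p ^ k) (Cs q))
    (hB : ∀ (N' q : ℕ) [NeZero N'] [NeZero q] (hq : q.Prime) (hqN : ¬ q ∣ N') (p : ℕ),
      p.Prime → p ≠ q → p ≠ 2 → AuxOK q N' → ∀ (A : ValuationSubring Kb)
        (hA : A.LiesOverPrime q) (ζ : Kb) (hζ : IsPrimitiveRoot ζ q) (k : ℕ),
          ∃ B : Fermat.Agent.T3.helper49.TorBase N' q hq hqN A hζ (p ^ k),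
            Fermat.Agent.T3.helper49.Ideal3Statement B hA) :
    NewCoreAtAuxLevels2 :=
  newCore2_of_scale_toric Cs cTor hCs (fun _ hq => cTor_ne_zero hq) hS
    (fun N' q _ _ hq hqN p hp hpq hp2 hN' A hA ζ hζ k => by
      obtain ⟨B, hI⟩ := hB N' q hq hqN p hp hpq hp2 hN' A hA ζ hζ k
      exact Fermat.Agent.T3.helper49.toricStatement_of (pow_ne_zero k hp.ne_zero) B hA hI)

end Fermat.Agent.T3.helper72

end
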