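/-
TIER 3 (S36), helper72: the CONCRETE base of [TORIC] for the functions regular off ALL cusps
(architect decision [G5]) and the final reduction of S36 to the open boxes.

Concrete data at level `N q q` (`q ∤ N`, `A` over `q`, `h : IsUnit0 hq hqN b0 B ε` the
weight-one unit of helper16):
  `Reg = helper98.regJRing (N q q)`, `Bt = (helper95.BtAll N A).toSubring`,
  `ν = Fermat.Agent.P2.helper66.iota (kA A) B`, `J = helper49.nuJ Bt ν`.

OPEN BOXES (consumer shapes; every box is a `Prop` below):
* `SurjAllStatement`  : **[SURJ-ALL]** every element of `Bt` is a `c`-th reduction of a regular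
                        function (shape of `helper16.IsUnit0.real3` and of `Ideal3Box.hsurj`).
* `Pb3Statement`      : **[PB3]** `TorBase.pb`.
* `Root3Pack`         : **[ROOT3-ALL]** the data of `helper27.root3_all` (expansions at all
                        cusps, DISC, FIX, COVER, SAT) together with **[GAUSS-ALL]**.
* `helper22.Ideal3Box`, `helper22.Ideal3Glue` for `T = (torBaseAll ..).calc hA` : **[IDEAL3]**.

RESULTS
* `root3All_of_pack`  : `Root3Pack → Root3AllStatement n` (`q ∤ n`).
* `torBaseAll`        : the concrete `helper49.TorBase`.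
* `toric_all`         : `helper72.ToricStatement` from the boxes.
-/
import Fermat.Agent.T3.helper72_S36Pre
import Fermat.Agent.T3.helper16_UnitReal
import Fermat.Agent.T3.helper95_BtDed
import Fermat.Agent.T3.helper27_FinAll
import Fermat.Agent.T3.helper22_Ideal3Tor

set_option autoImplicit false
set_option synthInstance.maxHeartbeats 400000
set_option linter.unusedSectionVars false
set_option linter.unusedVariables false
set_option linter.style.haveILetI false

noncomputable section

open HahnSeries IntermediateField AlgebraicCurve ModularCurve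
open Fermat.Agent.S18.helper19 Fermat.Agent.P2.helper29 Fermat.Agent.T2.helper36

namespace Fermat.Agent.T3.helper72

open Fermat.Agent.T3.helper74 (ex3 IsFixI)
open Fermat.Agent.T3.helper49 (Rho3 Dv3 TorBase nuJ)
open Fermat.Agent.T3.helper98 (regJRing regJ IsRegJ)
open Fermat.Agent.T3.helper95 (BtAll)
open Fermat.Agent.T3.helper16 (IsUnit0)

section Boxes

variable (N q : ℕ) [NeZero N] [NeZero q] (hq : q.Prime) (hqN : ¬ q ∣ N)
  (A : ValuationSubring Kb) {ζ : Kb} (hζ : IsPrimitiveRoot ζ q)

/-- the ring of the reductions: functions of the special fibre regular where `j̄` is finite -/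
def btAll : Subring (LaurentSeries (kA A)) := (BtAll N A).toSubring

/-- **[SURJ-ALL]**: every element of `Bt` is the `c`-th reduction of an `I`-fixed function
regular off the cusps. -/
def SurjAllStatement : Prop :=
  ∀ c : Fin 3, ∀ z ∈ btAll N A, ∃ S ∈ regJRing (N * q * q),
    ∃ X : Fin 3 → LaurentSeries (kA A), Rho3 N q hq hqN A hζ S X ∧ X c = z

/-- **[PB3]**: the pull back of `z` by `τ ↦ q τ`. -/
def Pb3Statement : Prop :=
  ∀ z ∈ btAll N A, ∃ R ∈ regJRing (N * q * q), Rho3 N q hq hqN A hζ R (fun _ => z ^ q)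

/-- **[ROOT3]** for the functions regular off all cusps. -/
def Root3AllStatement (n : ℕ) : Prop :=
  ∀ H : FF (N * q * q), H ∈ regJRing (N * q * q) → Rho3 N q hq hqN A hζ H 1 → Dv3 N q n H →
    ∃ (c : Kb) (v : FF (N * q * q)), H = algebraMap Kb (FF (N * q * q)) c * v ^ n

/-- **[GAUSS-ALL]** for a family of expansions `E`: a regular `I`-fixed function `≡ 1` at the
three valuations has integral expansions with reduction `1` at every index. -/
def GaussAllStatement {ι : Type} (E : ι → FF (N * q * q) →+* LaurentSeries Kb) : Prop :=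
  ∀ H : FF (N * q * q), IsRegJ (N * q * q) H → IsFixI A (N * q * q) H →
    (∀ i : Fin 3, Red3 N q hq hqN A hζ i H 1) →
    ∀ i : ι, ∃ Y : LaurentSeries A, incl A Y = E i H ∧ red A Y = 1

/-- **[ROOT3-ALL], the package**: a finite family of expansions (at all cusps) with (DISC),
(FIX), (COVER), (SAT_q) for the ring of the functions regular off the cusps, and [GAUSS-ALL]. -/
def Root3Pack : Prop :=
  ∃ (ι : Type) (_ : Finite ι) (_ : Nonempty ι) (E : ι → FF (N * q * q) →+* LaurentSeries Kb)
    (ω : ι → ℕ) (L₀ : ℤ), (∀ i, 0 < ω i) ∧ Fermat.Agent.T3.helper23.DiscPack A E ∧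
      Fermat.Agent.T3.helper27.FixStatementE A ζ E ∧
      Fermat.Agent.T3.helper27.CoverStatementE A E ∧
      Fermat.Agent.T3.helper27.SatStatementE q A E ω (regJ (N * q * q)) L₀ ∧
      GaussAllStatement N q hq hqN A hζ E

variable {N q hq hqN A hζ}

/-- [ROOT3] from the package. -/
theorem root3All_of_pack (hA : A.LiesOverPrime q) (hP : Root3Pack N q hq hqN A hζ) {n : ℕ}
    (hn : ¬ q ∣ n) : Root3AllStatement N q hq hqN A hζ n := by
  obtain ⟨ι, _, _, E, ω, L₀, hω, hD, hfix, hcover, hsat, hgauss⟩ := hP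
  intro H hH ρ hdv
  obtain ⟨v, -, -, hv⟩ := Fermat.Agent.T3.helper27.root3_all hq A hA hζ E ω hω hD hfix hcover
    (regJ (N * q * q)) (fun f hf => hf) L₀ hsat n hn H hH ρ.1 hdv (hgauss H hH ρ.1 ρ.2)
  exact ⟨1, v, by rw [map_one, one_mul]; exact hv⟩

/-- **the concrete base of [TORIC]** for the functions regular off all cusps. -/
def torBaseAll {n : ℕ} (hn : n ≠ 0) {b0 : FF (N * q)} {B : PowerSeries ℤ} {ε : ℤ}
    (h : IsUnit0 hq hqN b0 B ε) (hA : A.LiesOverPrime q)
    (hν : Fermat.Agent.P2.helper66.iota (kA A) B ∈ btAll N A)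
    (hsurj : SurjAllStatement N q hq hqN A hζ) (hpb : Pb3Statement N q hq hqN A hζ)
    (hroot : Root3AllStatement N q hq hqN A hζ n) : TorBase N q hq hqN A hζ n where
  Reg := regJRing (N * q * q)
  reg_of_pow := Fermat.Agent.T3.helper98.regJRing_of_pow hn
  normA_mem := Fermat.Agent.T3.helper98.normA_mem_regJRing
  normB_mem := Fermat.Agent.T3.helper98.normB_mem_regJRing hq hqN
  Bt := btAll N A
  J := nuJ (btAll N A) (Fermat.Agent.P2.helper66.iota (kA A) B)
  J_le := Fermat.Agent.T3.helper49.nuJ_le hν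
  J_mul := Fermat.Agent.T3.helper49.nuJ_mul
  pb := hpb
  real := h.real3 A hζ hA (btAll N A) hν hsurj
  root := hroot

/-- **[TORIC] from the boxes** at the concrete base. -/
theorem toric_all {n : ℕ} (hn : n ≠ 0) {b0 : FF (N * q)} {B : PowerSeries ℤ} {ε : ℤ}
    (h : IsUnit0 hq hqN b0 B ε) (hA : A.LiesOverPrime q)
    (hν : Fermat.Agent.P2.helper66.iota (kA A) B ∈ btAll N A)
    (hsurj : SurjAllStatement N q hq hqN A hζ) (hpb : Pb3Statement N q hq hqN A hζ)
    (hroot : Root3AllStatement N q hq hqN A hζ n)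
    (D : Fermat.Agent.T3.helper22.Ideal3Box ((torBaseAll hn h hA hν hsurj hpb hroot).calc hA))
    (G : Fermat.Agent.T3.helper22.Ideal3Glue ((torBaseAll hn h hA hν hsurj hpb hroot).calc hA)) :
    ToricStatement N q hq hqN A hζ n (cTor q) :=
  Fermat.Agent.T3.helper49.toricStatement_of hn (torBaseAll hn h hA hν hsurj hpb hroot) hA
    (fun u hu hdv => ⟨D.hasGenerator G hn hu hdv, D.hasPartition hn hu hdv⟩)

end Boxes

/-- **S36 from [SCALE3] and the boxes under [TORIC] at the concrete base** (weakest form: the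
unit and all boxes may depend on every parameter). -/
theorem newCore2_of_scale_all (Cs : ℕ → ℕ) (hCs : ∀ q : ℕ, q.Prime → Cs q ≠ 0)
    (hS : ∀ (N' q : ℕ) [NeZero N'] [NeZero q] (hq : q.Prime) (hqN : ¬ q ∣ N') (p : ℕ),
      p.Prime → p ≠ q → p ≠ 2 → AuxOK q N' → ∀ A : ValuationSubring Kb, A.LiesOverPrime q →
        ∀ (ζ : Kb) (hζ : IsPrimitiveRoot ζ q) (k : ℕ),
          Scale3Statement N' q hq hqN A hζ (p ^ k) (Cs q))
    (hT : ∀ (N' q : ℕ) [NeZero N'] [NeZero q] (hq : q.Prime) (hqN : ¬ q ∣ N') (p : ℕ)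
      (hp : p.Prime), p ≠ q → p ≠ 2 → AuxOK q N' → ∀ (A : ValuationSubring Kb)
        (hA : A.LiesOverPrime q) (ζ : Kb) (hζ : IsPrimitiveRoot ζ q) (k : ℕ),
          ∃ (b0 : FF (N' * q)) (B : PowerSeries ℤ) (ε : ℤ) (h : IsUnit0 hq hqN b0 B ε)
            (hν : Fermat.Agent.P2.helper66.iota (kA A) B ∈ btAll N' A)
            (hsurj : SurjAllStatement N' q hq hqN A hζ) (hpb : Pb3Statement N' q hq hqN A hζ)
            (hroot : Root3AllStatement N' q hq hqN A hζ (p ^ k)),
            Fermat.Agent.T3.helper22.Ideal3Box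
                ((torBaseAll (pow_ne_zero k hp.ne_zero) h hA hν hsurj hpb hroot).calc hA) ∧
              Fermat.Agent.T3.helper22.Ideal3Glue
                ((torBaseAll (pow_ne_zero k hp.ne_zero) h hA hν hsurj hpb hroot).calc hA)) :
    NewCoreAtAuxLevels2 :=
  newCore2_of_scale_toric Cs cTor hCs (fun _ hq => cTor_ne_zero hq) hS
    (fun N' q _ _ hq hqN p hp hpq hp2 hN' A hA ζ hζ k => by
      obtain ⟨b0, B, ε, h, hν, hsurj, hpb, hroot, D, G⟩ :=
        hT N' q hq hqN p hp hpq hp2 hN' A hA ζ hζ k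
      exact toric_all (pow_ne_zero k hp.ne_zero) h hA hν hsurj hpb hroot D G)

end Fermat.Agent.T3.helper72

end
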