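/-
TIER 3 (S36), helper72: wiring of the box `root` ([ROOT3-ALL]) for THE FAMILY of [CUSP-Q]
(helper87: `ex3c N q ζ`, `ENc N`, `kap N q ζ`).

Plugged in: `helper23.discPack_ex3c` (DISC), `helper87.constCompatTw_ex3c`,
`helper20.gaussAll_family` (GAUSS-ALL), `helper74.torRoot_of_tableD`.
Open inputs (hypotheses): injectivity of `kap`, the twisted table `TableTw`, the exact-pole
elements `XPoleAll`, `GalCompatTw`, `CoverStatementE`.
-/
import Fermat.Agent.T3.helper72_TorAll
import Fermat.Agent.T3.helper74_TorRootTw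
import Fermat.Agent.T3.helper23_DiscEx3c
import Fermat.Agent.T3.helper20_GaussAllWire

set_option autoImplicit false
set_option synthInstance.maxHeartbeats 400000
set_option linter.unusedSectionVars false
set_option linter.unusedVariables false
set_option linter.style.haveILetI false
set_option linter.style.longLine false

noncomputable section

open HahnSeries IntermediateField AlgebraicCurve ModularCurve
open Fermat.Agent.S18.helper19 Fermat.Agent.P2.helper29 Fermat.Agent.T2.helper36

namespace Fermat.Agent.T3.helper72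

open Fermat.Agent.T3.helper74 (ex3 IsFixI)
open Fermat.Agent.T3.helper49 (Rho3 Dv3)
open Fermat.Agent.T3.helper98 (regJRing regJ IsRegJ mem_regJRing)
open Fermat.Agent.T3.helper87 (Cusp ex3c ENc kap)

variable {N q : ℕ} [NeZero N] [NeZero q] {hq : q.Prime} {hqN : ¬ q ∣ N}
  {A : ValuationSubring Kb} {ζ : Kb}

/-- **[ROOT3-ALL] for the family of [CUSP-Q]**, from the twisted table, the exact-pole elements,
the Galois compatibility and (COVER). -/
theorem root3All_of_cuspQ (hA : A.LiesOverPrime q) (hζ : IsPrimitiveRoot ζ q)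
    (hκ : ∀ i e, Function.Injective (kap N q ζ i e))
    (hT : Fermat.Agent.T3.helper74.TableTw (q := q) A (ENc N) (ex3c N q ζ) ζ (kap N q ζ))
    {m₀ : ℕ}
    (hX : Fermat.Agent.T3.helper74.XPoleAll (q := q) A (ENc N) (regJ (N * q * q)) m₀)
    (hG : Fermat.Agent.T3.helper74.GalCompatTw A (fun p : Cusp N × Fin 3 => p.2)
      (ex3c N q ζ) ζ)
    (hcover : Fermat.Agent.T3.helper27.CoverStatementE A (ex3c N q ζ))
    {n : ℕ} (hn : ¬ q ∣ n) : Root3AllStatement N q hq hqN A hζ n := by
  have hD := Fermat.Agent.T3.helper23.discPack_ex3c N q ζ A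
  refine Fermat.Agent.T3.helper74.torRoot_of_tableD N q hq hqN A hA hζ (ENc N) (ex3c N q ζ)
    hκ (d := fun _ => 1) (Fermat.Agent.T3.helper74.tableTwD_one hT) (m₀ := m₀) ?_
    (Fermat.Agent.T3.helper87.constCompatTw_ex3c ζ) hG hD hcover ?_ n hn
  · intro c₀ m hm
    obtain ⟨x, X, h1, h2, h3, h4, h5, h6, h7⟩ := hX c₀ m hm
    refine ⟨x, X, h1, h2, h3, ?_, ?_, ?_, h7⟩
    · simpa using h4
    · simpa using h5
    · simpa using h6
  · intro H hreg ρ J
    exact Fermat.Agent.T3.helper20.gaussAll_family (hq := hq) (hqN := hqN) hA hζ (ex3c N q ζ) hD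
      hreg ρ.1 ρ.2 J

end Fermat.Agent.T3.helper72

end
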