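import Mathlib
import Fermat.Agent.T3.helper16_UnitReal
import Fermat.Agent.T3.helper22_Ideal3Tor
import Fermat.Agent.T3.helper5_Gauss3CGauss

/-!
# T3 / [IDEAL3], box (12) [GLUE] (helper15)

`helper22.Ideal3Glue T` for the concrete toric calculus `T = B.calc hA`
(`B : helper49.TorBase`, level `N q q`), with `J = ν · Bt`, `ν = B̄` the reduction at `∞` of the
weight-one unit `b₀` (`helper16.IsUnit0`).

* `glue_abs` : the abstract statement, for any `TorCalc`: if `b` is a unit of `Reg` with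
  reduction triple in `J³` which divides every integral function vanishing on the component `0`
  and `h ∈ Reg` has a reduction triple in `J³` with `X_h 0 = ν`, `J = ν · Bt`, then the
  reductions of the regular integral functions are glued along `J`:
  `X 0 ≡ 1 mod J ⟹ X c ≡ 1 mod J`.
* `gaussIs_lt_one`, `gaussIs_rhoQ_of_mem` : two lemmas on Gauss values.
* `IsUnit0.div_beta_al` : **divisibility** - an `I`-fixed function which is integral at the three
  cusps with reduction `0` at `∞` is divisible by `β₂ (W₁ b₀) = ε q / β₂ b₀` (reduction triple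
  `(0, ν, ν)`) in the ring of the `I`-fixed functions integral at the three cusps (discreteness
  of the Gauss valuation at `∞` on the `I`-fixed functions, `helper5.gaussIs_ex3_zero`).
* `hglue_of`, `hJ_of`, `ideal3Glue_of`, `ideal3Glue_of_box` : the box.
-/

set_option autoImplicit false
set_option synthInstance.maxHeartbeats 400000
set_option linter.style.haveILetI false
set_option linter.unusedSectionVars false
set_option linter.unusedVariables false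
set_option linter.style.longLine false

noncomputable section

open HahnSeries IntermediateField AlgebraicCurve ModularCurve
open Fermat.Agent.S18.helper19 Fermat.Agent.P2.helper29 Fermat.Agent.T2.helper36

namespace Fermat.Agent.T3.helper15

open Fermat.Agent.T3.helper49 (TorCalc TorBase Rho3 nuJ)
open Fermat.Agent.T3.helper22 (Ideal3Box Ideal3Glue)
open Fermat.Agent.T3.helper36 (RhoQ GaussIs)
open Fermat.Agent.T3.helper74 (ex3 IsFixI)
open Fermat.Agent.T3.helper72 (Red3)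
open Fermat.Agent.T3.helper16 (IsUnit0)
open Fermat.Agent.P2.helper66 (iota)

/-! ### The abstract statement -/

section Abstract

variable {F B : Type*} [Field F] [CommRing B] {n r : ℕ} (T : TorCalc F B n r)

/-- **[GLUE], abstract form.** -/
theorem glue_abs
    (huniq : ∀ (f : F) (X Y : Fin 3 → B), T.Rho f X → T.Rho f Y → X = Y)
    (hres : ∀ (f : F) (X : Fin 3 → B), f ∈ T.Reg → T.Rho f X → ∀ c, X c ∈ T.Bt)
    (hsurj : ∀ z ∈ T.Bt, ∃ f ∈ T.Reg, ∃ X, T.Rho f X ∧ X 0 = z)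
    {ν : B} (hJ : ∀ e ∈ T.J, ∃ a ∈ T.Bt, e = ν * a)
    {b h : F} {Xb Xh : Fin 3 → B}
    (hb0 : b ≠ 0) (hbinv : b⁻¹ ∈ T.Reg) (ρb : T.Rho b Xb) (hXb : ∀ c, Xb c ∈ T.J)
    (hdiv : ∀ (g : F) (X : Fin 3 → B), T.Rho g X → X 0 = 0 → ∃ X', T.Rho (g * b⁻¹) X')
    (hh : h ∈ T.Reg) (ρh : T.Rho h Xh) (hXh0 : Xh 0 = ν) (hXh : ∀ c, Xh c ∈ T.J)
    (f : F) (X : Fin 3 → B) (hf : f ∈ T.Reg) (ρ : T.Rho f X) (h0 : X 0 - 1 ∈ T.J)
    (c : Fin 3) : X c - 1 ∈ T.J := by
  obtain ⟨a, ha, ea⟩ := hJ _ h0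
  obtain ⟨S, hS, Y, ρS, hY⟩ := hsurj a ha
  have ρg : T.Rho (f + -1 + -(h * S)) (X + -1 + -(Xh * Y)) :=
    T.rho_add _ _ _ _ (T.rho_add _ _ _ _ ρ (T.rho_neg _ _ T.rho_one))
      (T.rho_neg _ _ (T.rho_mul _ _ _ _ ρh ρS))
  have hg : f + -1 + -(h * S) ∈ T.Reg :=
    T.Reg.add_mem (T.Reg.add_mem hf (T.Reg.neg_mem T.Reg.one_mem))
      (T.Reg.neg_mem (T.Reg.mul_mem hh hS))
  have hg0 : (X + -1 + -(Xh * Y)) 0 = 0 := by
    show X 0 + -1 + -(Xh 0 * Y 0) = 0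
    rw [hXh0, hY, ← ea]
    ring
  obtain ⟨X', ρ'⟩ := hdiv _ _ ρg hg0
  have hX' := hres _ _ (T.Reg.mul_mem hg hbinv) ρ'
  have ρ'' := T.rho_mul _ _ _ _ ρ' ρb
  rw [mul_assoc, inv_mul_cancel₀ hb0, mul_one] at ρ''
  have e := congrFun (huniq _ _ _ ρg ρ'') c
  have e' : X c + -1 + -(Xh c * Y c) = X' c * Xb c := e
  have e'' : X c - 1 = Y c * Xh c + X' c * Xb c := by
    rw [← e']
    ring
  rw [e'']
  exact T.J.add_mem (T.J_mul _ (hres S Y hS ρS c) _ (hXh c)) (T.J_mul _ (hX' c) _ (hXb c))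

end Abstract

/-! ### Two lemmas on Gauss values -/

section Gauss

variable {A : ValuationSubring Kb}

/-- a function of Gauss value `v(c)` with reduction `0` has `v(c) < 1` -/
theorem gaussIs_lt_one {g : LaurentSeries Kb} {c : Kb} (hc : GaussIs A g c)
    (h0 : RhoQ A g 0) : A.valuation c < 1 := by
  obtain ⟨hc0, r, hr, hg⟩ := hc
  by_contra hlt
  have hle : 1 ≤ A.valuation c := not_lt.mp hlt
  have hinv : c⁻¹ ∈ A := by
    rw [← A.valuation_le_one_iff, map_inv₀]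
    exact inv_le_one_of_one_le₀ hle
  have h1 := (Fermat.Agent.T3.helper36.rhoQ_algebraMap (⟨c⁻¹, hinv⟩ : A)).mul h0
  rw [mul_zero] at h1
  exact hr (hg.unique h1)

/-- a function of Gauss value `v(c)`, `c ∈ A`, is Gauss-integral -/
theorem gaussIs_rhoQ_of_mem {g : LaurentSeries Kb} {c : Kb} (hc : GaussIs A g c)
    (hcA : c ∈ A) : ∃ r : LaurentSeries (kA A), RhoQ A g r := by
  obtain ⟨hc0, r, hr, hg⟩ := hc
  have h1 := (Fermat.Agent.T3.helper36.rhoQ_algebraMap (⟨c, hcA⟩ : A)).mul hg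
  have e : algebraMap Kb (LaurentSeries Kb) ((⟨c, hcA⟩ : A) : Kb) *
      (algebraMap Kb (LaurentSeries Kb) c⁻¹ * g) = g := by
    rw [← mul_assoc, ← map_mul]
    show algebraMap Kb (LaurentSeries Kb) (c * c⁻¹) * g = g
    rw [mul_inv_cancel₀ hc0, map_one, one_mul]
  rw [e] at h1
  exact ⟨_, h1⟩

end Gauss

/-! ### Divisibility by `β₂ (W₁ b₀)` -/

section Units

variable {N q : ℕ} [NeZero N] [NeZero q] {hq : q.Prime} {hqN : ¬ q ∣ N}
variable {b0 : FF (N * q)} {Bs : PowerSeries ℤ} {ε : ℤ}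
variable (A : ValuationSubring Kb) {ζ : Kb} (hζ : IsPrimitiveRoot ζ q)

/-- `ν = B̄ ≠ 0` -/
theorem nu_ne_zero (h : IsUnit0 hq hqN b0 Bs ε) : iota (kA A) Bs ≠ 0 :=
  Fermat.Agent.T3.helper16.iota_ne_zero_of_coeff (R := kA A) h.const

/-- `β₂ (W₁ b₀) ≠ 0` -/
theorem beta_al_ne_zero (h : IsUnit0 hq hqN b0 Bs ε) :
    heckeBetaBar Kb (N * q) q (atkinLehner N q hq hqN b0) ≠ 0 := by
  intro h0
  have := h.beta_mul
  rw [h0, zero_mul] at this
  exact h.eps_q_ne_zero ((map_eq_zero _).mp this.symm)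

/-- **divisibility at `∞`**: an `I`-fixed function with reduction `0` at `∞` is divisible by
`β₂ (W₁ b₀)` at the three cusps. -/
theorem div_beta_al (h : IsUnit0 hq hqN b0 Bs ε) (hA : A.LiesOverPrime q)
    {g : FF (N * q * q)} {X : Fin 3 → LaurentSeries (kA A)}
    (ρ : Rho3 N q hq hqN A hζ g X) (h0 : X 0 = 0) :
    ∃ X' : Fin 3 → LaurentSeries (kA A),
      Rho3 N q hq hqN A hζ
        (g * (heckeBetaBar Kb (N * q) q (atkinLehner N q hq hqN b0))⁻¹) X' := by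
  set b := heckeBetaBar Kb (N * q) q (atkinLehner N q hq hqN b0) with hb
  set u := heckeBetaBar Kb (N * q) q b0 with hu
  have hb0 : b ≠ 0 := beta_al_ne_zero h
  have ρb := h.rho3_beta_al A hζ hA
  have hν := nu_ne_zero A h
  have hfix : IsFixI A (N * q * q) (g * b⁻¹) :=
    Fermat.Agent.T3.helper98.isFixI_mul A ρ.1 (Fermat.Agent.T3.helper98.isFixI_inv A ρb.1)
  -- the cusps `0` and `1/q`: `b` is a unit there
  have hunit : ∀ i : Fin 3, i ≠ 0 → ∃ x, Red3 N q hq hqN A hζ i (g * b⁻¹) x := by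
    intro i hi
    have hbi : Red3 N q hq hqN A hζ i b (iota (kA A) Bs) := by
      have := ρb.2 i
      fin_cases i
      · exact absurd rfl hi
      · exact this
      · exact this
    have h1 : RhoQ A (ex3 N q hq hqN hζ i g) (X i) := ρ.2 i
    have h2 : RhoQ A (ex3 N q hq hqN hζ i b) (iota (kA A) Bs) := hbi
    have h3 := h1.mul (h2.inv hν)
    refine ⟨X i * (iota (kA A) Bs)⁻¹, ?_⟩
    show RhoQ A (ex3 N q hq hqN hζ i (g * b⁻¹)) _
    rw [map_mul, map_inv₀]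
    exact h3
  -- the cusp `∞`
  have hinf : ∃ x, Red3 N q hq hqN A hζ 0 (g * b⁻¹) x := by
    rcases eq_or_ne g 0 with rfl | hg0
    · refine ⟨0, ?_⟩
      show RhoQ A (ex3 N q hq hqN hζ 0 (0 * b⁻¹)) 0
      rw [zero_mul, map_zero]
      exact Fermat.Agent.T3.helper36.rhoQ_zero
    obtain ⟨m, G⟩ := Fermat.Agent.T3.helper5.gaussIs_ex3_zero (hq := hq) (hqN := hqN) hA hζ hg0 ρ.1
    have hρ0 : RhoQ A (ex3 N q hq hqN hζ 0 g) 0 := by
      have := ρ.2 0
      rw [h0] at this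
      exact this
    have hlt := gaussIs_lt_one G hρ0
    have hq0 : (q : Kb) ≠ 0 := h.q_ne_zero
    have hqv : A.valuation (q : Kb) < 1 := hA
    -- `m ≥ 1`
    have hm : 1 ≤ m := by
      by_contra hm
      have hm' : m ≤ 0 := by omega
      obtain ⟨k, hk⟩ : ∃ k : ℕ, m = -(k : ℤ) := ⟨(-m).toNat, by omega⟩
      rw [hk, zpow_neg, zpow_natCast, map_inv₀, map_pow] at hlt
      have h1 : A.valuation (q : Kb) ^ k ≤ 1 := pow_le_one₀ zero_le hqv.le
      have h2 : A.valuation (q : Kb) ^ k ≠ 0 :=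
        pow_ne_zero _ ((Valuation.ne_zero_iff _).2 hq0)
      have h3 : 1 ≤ (A.valuation (q : Kb) ^ k)⁻¹ := (one_le_inv₀ (zero_lt_iff.mpr h2)).mpr h1
      exact absurd hlt (not_lt.mpr h3)
    obtain ⟨k, hk⟩ : ∃ k : ℕ, m = (k : ℤ) + 1 := ⟨(m - 1).toNat, by omega⟩
    -- the Gauss value of `b` at `∞`
    have Gu : GaussIs A (ex3 N q hq hqN hζ 0 u) 1 := h.gaussIs_beta0 A hζ
    have e1 : ex3 N q hq hqN hζ 0 b * ex3 N q hq hqN hζ 0 u =
        algebraMap Kb (LaurentSeries Kb) ((ε : Kb) * (q : Kb)) := by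
      rw [← map_mul, h.beta_mul, Fermat.Agent.T3.helper5.ex3_zero_apply]
      rfl
    have hu0 : ex3 N q hq hqN hζ 0 u ≠ 0 := Gu.ne_zero
    have e2 : ex3 N q hq hqN hζ 0 b =
        algebraMap Kb (LaurentSeries Kb) ((ε : Kb) * (q : Kb)) * (ex3 N q hq hqN hζ 0 u)⁻¹ :=
      (eq_mul_inv_iff_mul_eq₀ hu0).mpr e1
    have Gb : GaussIs A (ex3 N q hq hqN hζ 0 b) ((ε : Kb) * (q : Kb) * (1 : Kb)⁻¹) := by
      rw [e2]
      exact (Fermat.Agent.T3.helper36.gaussIs_const h.eps_q_ne_zero).mul Gu.inv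
    have Gq : GaussIs A (ex3 N q hq hqN hζ 0 (g * b⁻¹))
        ((q : Kb) ^ m * ((ε : Kb) * (q : Kb) * (1 : Kb)⁻¹)⁻¹) := by
      rw [map_mul, map_inv₀]
      exact G.mul Gb.inv
    have hε : (ε : Kb) ≠ 0 := Fermat.Agent.T3.helper16.sgn_ne_zero Kb h.sign
    have hεA : ((ε : Kb))⁻¹ ∈ A := by
      rcases h.sign with rfl | rfl
      · simp
      · have : ((((-1 : ℤ)) : Kb))⁻¹ = -1 := by norm_num
        rw [this]
        exact A.neg_mem _ A.one_mem
    have hval : (q : Kb) ^ m * ((ε : Kb) * (q : Kb) * (1 : Kb)⁻¹)⁻¹ = (ε : Kb)⁻¹ * (q : Kb) ^ k := by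
      rw [hk, zpow_add_one₀ hq0, zpow_natCast]
      field_simp
    have hqA : (q : Kb) ∈ A := natCast_mem A q
    have hmem : (q : Kb) ^ m * ((ε : Kb) * (q : Kb) * (1 : Kb)⁻¹)⁻¹ ∈ A := by
      rw [hval]
      exact A.mul_mem _ _ hεA (A.pow_mem hqA k)
    obtain ⟨x, hx⟩ := gaussIs_rhoQ_of_mem Gq hmem
    exact ⟨x, hx⟩
  have hall : ∀ i : Fin 3, ∃ x, Red3 N q hq hqN A hζ i (g * b⁻¹) x := by
    intro i
    by_cases hi : i = 0
    · subst hi; exact hinf
    · exact hunit i hi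
  choose X' hX' using hall
  exact ⟨X', hfix, hX'⟩

end Units

/-! ### The box -/

section Box

variable {N q : ℕ} [NeZero N] [NeZero q] {hq : q.Prime} {hqN : ¬ q ∣ N}
variable {b0 : FF (N * q)} {Bs : PowerSeries ℤ} {ε : ℤ}
variable {A : ValuationSubring Kb} {ζ : Kb} {hζ : IsPrimitiveRoot ζ q} {n : ℕ}

/-- the reduction triple of an `I`-fixed function is unique -/
theorem rho3_unique {f : FF (N * q * q)} {X Y : Fin 3 → LaurentSeries (kA A)}
    (hX : Rho3 N q hq hqN A hζ f X) (hY : Rho3 N q hq hqN A hζ f Y) : X = Y := by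
  funext i
  have h1 : RhoQ A (ex3 N q hq hqN hζ i f) (X i) := hX.2 i
  have h2 : RhoQ A (ex3 N q hq hqN hζ i f) (Y i) := hY.2 i
  exact h1.unique h2

/-- `ν ∈ J = ν · Bt` -/
theorem nu_mem_nuJ (Bt : Subring (LaurentSeries (kA A))) (ν : LaurentSeries (kA A)) :
    ν ∈ nuJ Bt ν :=
  ⟨1, Bt.one_mem, (mul_one ν).symm⟩

/-- **[GLUE]** for `T = B.calc hA`, `J = ν · Bt`: the field `hglue` of `helper22.Ideal3Glue`,
from [RES] and [SURJ3] at the component `∞`. -/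
theorem hglue_of (B : TorBase N q hq hqN A hζ n) (hA : A.LiesOverPrime q)
    (h : IsUnit0 hq hqN b0 Bs ε)
    (hJ : B.J = nuJ B.Bt (iota (kA A) Bs))
    (hReg₁ : (heckeBetaBar Kb (N * q) q (atkinLehner N q hq hqN b0))⁻¹ ∈ B.Reg)
    (hReg₂ : heckeAlphaBar Kb (N * q) q b0 ∈ B.Reg)
    (hres : ∀ (f : FF (N * q * q)) (X : Fin 3 → LaurentSeries (kA A)), f ∈ B.Reg →
      Rho3 N q hq hqN A hζ f X → ∀ c, X c ∈ B.Bt)
    (hsurj : ∀ z ∈ B.Bt, ∃ f ∈ B.Reg, ∃ X : Fin 3 → LaurentSeries (kA A),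
      Rho3 N q hq hqN A hζ f X ∧ X 0 = z)
    (f : FF (N * q * q)) (X : Fin 3 → LaurentSeries (kA A)) (hf : f ∈ B.Reg)
    (ρ : Rho3 N q hq hqN A hζ f X) (h0 : X 0 - 1 ∈ B.J) (c : Fin 3) : X c - 1 ∈ B.J := by
  have hνJ : iota (kA A) Bs ∈ B.J := by rw [hJ]; exact nu_mem_nuJ _ _
  refine glue_abs (B.calc hA) (fun f X Y hX hY => rho3_unique hX hY) hres hsurj
    (ν := iota (kA A) Bs) (fun e he => ?_) (beta_al_ne_zero h) hReg₁
    (h.rho3_beta_al A hζ hA) (fun c => ?_)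
    (fun g X ρg hg0 => div_beta_al A hζ h hA ρg hg0) hReg₂ (h.rho3_alpha A hζ hA) rfl
    (fun c => ?_) f X hf ρ h0 c
  · have he' : e ∈ B.J := he
    rw [hJ] at he'
    exact he'
  · show (![0, iota (kA A) Bs, iota (kA A) Bs] : Fin 3 → LaurentSeries (kA A)) c ∈ B.J
    fin_cases c
    · exact B.J.zero_mem
    · exact hνJ
    · exact hνJ
  · show (![iota (kA A) Bs, 0, iota (kA A) Bs] : Fin 3 → LaurentSeries (kA A)) c ∈ B.J
    fin_cases c
    · exact hνJ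
    · exact B.J.zero_mem
    · exact hνJ

/-- the supersingular ideal `J = ν · Bt` is not zero -/
theorem hJ_of (B : TorBase N q hq hqN A hζ n) (h : IsUnit0 hq hqN b0 Bs ε)
    (hJ : B.J = nuJ B.Bt (iota (kA A) Bs)) : ∃ e ∈ B.J, e ≠ 0 :=
  ⟨iota (kA A) Bs, by rw [hJ]; exact nu_mem_nuJ _ _, nu_ne_zero A h⟩

/-- **the box [GLUE]** = `helper22.Ideal3Glue (B.calc hA)`. -/
theorem ideal3Glue_of (B : TorBase N q hq hqN A hζ n) (hA : A.LiesOverPrime q)
    (h : IsUnit0 hq hqN b0 Bs ε)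
    (hJ : B.J = nuJ B.Bt (iota (kA A) Bs))
    (hReg₁ : (heckeBetaBar Kb (N * q) q (atkinLehner N q hq hqN b0))⁻¹ ∈ B.Reg)
    (hReg₂ : heckeAlphaBar Kb (N * q) q b0 ∈ B.Reg)
    (hres : ∀ (f : FF (N * q * q)) (X : Fin 3 → LaurentSeries (kA A)), f ∈ B.Reg →
      Rho3 N q hq hqN A hζ f X → ∀ c, X c ∈ B.Bt)
    (hsurj : ∀ z ∈ B.Bt, ∃ f ∈ B.Reg, ∃ X : Fin 3 → LaurentSeries (kA A),
      Rho3 N q hq hqN A hζ f X ∧ X 0 = z) :
    Ideal3Glue (B.calc hA) where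
  hglue := fun f X hf ρ h0 c => hglue_of B hA h hJ hReg₁ hReg₂ hres hsurj f X hf ρ h0 c
  hJ := hJ_of B h hJ

/-- **the box [GLUE]** for `Reg = regJRing (N q q)` (regular off ALL cusps), from the boxes
[RES] and [SURJ3] of `helper22.Ideal3Box`. -/
theorem ideal3Glue_of_box (B : TorBase N q hq hqN A hζ n) (hA : A.LiesOverPrime q)
    (h : IsUnit0 hq hqN b0 Bs ε)
    (hJ : B.J = nuJ B.Bt (iota (kA A) Bs))
    (hReg : B.Reg = Fermat.Agent.T3.helper98.regJRing (N * q * q))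
    (D : Ideal3Box (B.calc hA)) : Ideal3Glue (B.calc hA) :=
  ideal3Glue_of B hA h hJ (by rw [hReg]; exact h.mem_regJ_beta_al_inv)
    (by rw [hReg]; exact h.mem_regJ_alpha) D.hres (D.hsurj 0)

/-- the same, with the existence of the unit (`4 ∣ N` or `9 ∣ N`) discharged: there is an
integral power series `Bs ∈ 1 + t ℤ[[t]]` such that [GLUE] holds for every base with
`J = B̄s · Bt` and `Reg = regJRing (N q q)`. -/
theorem exists_ideal3Glue (hq : q.Prime) (hqN : ¬ q ∣ N) (hN : 4 ∣ N ∨ 9 ∣ N) :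
    ∃ Bs : PowerSeries ℤ, PowerSeries.constantCoeff Bs = 1 ∧
      ∀ (A : ValuationSubring Kb) (ζ : Kb) (hζ : IsPrimitiveRoot ζ q) (n : ℕ)
        (B : TorBase N q hq hqN A hζ n) (hA : A.LiesOverPrime q),
        B.J = nuJ B.Bt (iota (kA A) Bs) →
        B.Reg = Fermat.Agent.T3.helper98.regJRing (N * q * q) →
        Ideal3Box (B.calc hA) → Ideal3Glue (B.calc hA) := by
  obtain ⟨b0, Bs, ε, h⟩ := Fermat.Agent.T3.helper16.exists_isUnit0 hq hqN hN
  exact ⟨Bs, h.const, fun A ζ hζ n B hA hJ hReg D => ideal3Glue_of_box B hA h hJ hReg D⟩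

end Box

end Fermat.Agent.T3.helper15

end
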