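/-
TIER 3 (S36), helper72: the box [KER] at the MIDDLE component for `q = 2`
(`OpenBoxes.ker2` = `helper22.Ideal3Rest.hker 2`).

For `q = 2` the middle component is reduced: `1 - ζ = 2 = q`, and `b = β₂ b₀ / α₂ b₀` (`b₀` the
weight-one unit of helper16) is a unit of the ring of the functions regular off the cusps with
Gauss values `(1, 1, q)`; so `(b, s) = (b, 1)` generates the vertical prime of the middle
component everywhere.
-/
import Fermat.Agent.T3.helper72_S36Asm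

set_option autoImplicit false
set_option synthInstance.maxHeartbeats 400000
set_option linter.unusedSectionVars false
set_option linter.unusedVariables false
set_option linter.style.haveILetI false
set_option linter.style.longLine false

noncomputable section

open HahnSeries IntermediateField AlgebraicCurve ModularCurve
open Fermat.Agent.S18.helper19 Fermat.Agent.P2.helper29 Fermat.Agent.T2.helper36

namespace Fermat.Agent.T3.helper72

open Fermat.Agent.T3.helper74 (ex3 IsFixI)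
open Fermat.Agent.T3.helper36 (RhoQ GaussIs)
open Fermat.Agent.T3.helper49 (Rho3 Dv3 TorBase nuJ)
open Fermat.Agent.T3.helper98 (regJRing regJ IsRegJ mem_regJRing)
open Fermat.Agent.T3.helper95 (BtAll mem_BtAll)
open Fermat.Agent.T3.helper16 (IsUnit0)
open Fermat.Agent.P2.helper66 (iota)

section Gauss

variable {A : ValuationSubring Kb}

/-- a series of Gauss value `q` (`A` over `q`) has reduction `0` -/
theorem rhoQ_zero_of_gaussIs_q {q : ℕ} (hq : q.Prime) (hA : A.LiesOverPrime q)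
    {g : LaurentSeries Kb} (h : GaussIs A g (q : Kb)) : RhoQ A g 0 := by
  obtain ⟨hc, r, -, hr⟩ := h
  have hmem : (q : Kb) ∈ A := Fermat.Agent.T3.helper16.natCast_mem A q
  have h1 := (Fermat.Agent.T3.helper36.rhoQ_algebraMap (A := A) ⟨(q : Kb), hmem⟩).mul hr
  have e : algebraMap Kb (LaurentSeries Kb) (((⟨(q : Kb), hmem⟩ : A) : Kb)) *
      (algebraMap Kb (LaurentSeries Kb) ((q : Kb))⁻¹ * g) = g := by
    rw [← mul_assoc, ← map_mul]
    show algebraMap Kb (LaurentSeries Kb) ((q : Kb) * ((q : Kb))⁻¹) * g = g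
    rw [mul_inv_cancel₀ hc, map_one, one_mul]
  rw [e] at h1
  haveI : CharP (kA A) q := Fermat.Agent.P2.helper93.charP_residueField hq hA
  have hres : IsLocalRing.residue A (⟨(q : Kb), hmem⟩ : A) = 0 := by
    have e2 : (⟨(q : Kb), hmem⟩ : A) = ((q : ℕ) : A) := Subtype.ext (by simp)
    rw [e2, map_natCast]
    exact CharP.cast_eq_zero (kA A) q
  rw [hres, map_zero, zero_mul] at h1
  exact h1

end Gauss

section Ker

variable {N q : ℕ} [NeZero N] [NeZero q] {hq : q.Prime} {hqN : ¬ q ∣ N}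
  {A : ValuationSubring Kb} {ζ : Kb}
  {b0 : FF (N * q)} {B : PowerSeries ℤ} {ε : ℤ}

/-- `1 - ζ = q` for `q = 2` -/
theorem one_sub_zeta_of_two (hζ : IsPrimitiveRoot ζ q) (hq2 : q = 2) : (1 - ζ : Kb) = (q : Kb) := by
  subst hq2
  have h : ζ = -1 := hζ.eq_neg_one_of_two_right
  rw [h]
  norm_num

/-- the Gauss values of `b = β₂ b₀ / α₂ b₀` are `(1, 1, q)` -/
theorem gaussIs_quot (h : IsUnit0 hq hqN b0 B ε) (hA : A.LiesOverPrime q)
    (hζ : IsPrimitiveRoot ζ q) :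
    GaussIs A (ex3 N q hq hqN hζ 0
      (heckeBetaBar Kb (N * q) q b0 * (heckeAlphaBar Kb (N * q) q b0)⁻¹)) 1 ∧
    GaussIs A (ex3 N q hq hqN hζ 1
      (heckeBetaBar Kb (N * q) q b0 * (heckeAlphaBar Kb (N * q) q b0)⁻¹)) 1 ∧
    GaussIs A (ex3 N q hq hqN hζ 2
      (heckeBetaBar Kb (N * q) q b0 * (heckeAlphaBar Kb (N * q) q b0)⁻¹)) (q : Kb) := by
  refine ⟨?_, ?_, ?_⟩
  · have h1 := (h.gaussIs_beta0 A hζ).mul (h.gaussIs_alpha0 A hζ).inv
    rw [inv_one, mul_one] at h1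
    rw [map_mul, map_inv₀]
    exact h1
  · have h1 := (h.gaussIs_beta1 A hζ).mul (h.gaussIs_alpha1 A hζ).inv
    rw [mul_inv_cancel₀ h.q_ne_zero] at h1
    rw [map_mul, map_inv₀]
    exact h1
  · have h1 := (h.gaussIs_beta2 A hζ hA).mul (h.gaussIs_alpha2 A hζ).inv
    rw [inv_one, mul_one] at h1
    rw [map_mul, map_inv₀]
    exact h1

/-- **[KER] at the middle component for `q = 2`**, in the shape of `OpenBoxes.ker2`. -/
theorem ker2_of_two (h : IsUnit0 hq hqN b0 B ε) (hA : A.LiesOverPrime q)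
    (hζ : IsPrimitiveRoot ζ q) (hq2 : q = 2) :
    ∃ (b s : FF (N * q * q)) (Xb Xs : Fin 3 → LaurentSeries (kA A)),
      IsRegJ (N * q * q) b ∧ IsRegJ (N * q * q) s ∧ b ≠ 0 ∧ IsRegJ (N * q * q) (s * b⁻¹) ∧
      Rho3 N q hq hqN A hζ b Xb ∧ Rho3 N q hq hqN A hζ s Xs ∧ Xb 2 = 0 ∧
      (∃ z ∈ BtAll N A, Xs 2 * z = 1) ∧
      ∀ (g : FF (N * q * q)) (X : Fin 3 → LaurentSeries (kA A)), Rho3 N q hq hqN A hζ g X →
        X 2 = 0 → ∃ X', Rho3 N q hq hqN A hζ (g * (s * b⁻¹)) X' := by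
  set a : FF (N * q * q) := heckeAlphaBar Kb (N * q) q b0 with ha
  set bb : FF (N * q * q) := heckeBetaBar Kb (N * q) q b0 with hbb
  have ha0 : a ≠ 0 := h.alpha_ne_zero
  have hbb0 : bb ≠ 0 :=
    (map_ne_zero_iff _ (heckeBetaBar Kb (N * q) q).toRingHom.injective).mpr h.ne_zero
  obtain ⟨g0, g1, g2⟩ := gaussIs_quot h hA hζ
  rw [← ha, ← hbb] at g0 g1 g2
  obtain ⟨r0, hr0, hR0⟩ := g0.rhoQ_one
  obtain ⟨r1, hr1, hR1⟩ := g1.rhoQ_one
  have hR2 : RhoQ A (ex3 N q hq hqN hζ 2 (bb * a⁻¹)) 0 := rhoQ_zero_of_gaussIs_q hq hA g2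
  have hfix : IsFixI A (N * q * q) (bb * a⁻¹) :=
    Fermat.Agent.T3.helper98.isFixI_mul A (h.isFixI_beta A)
      (Fermat.Agent.T3.helper98.isFixI_inv A (h.isFixI_alpha A))
  have hinv : (bb * a⁻¹)⁻¹ = a * bb⁻¹ := by
    rw [mul_inv, inv_inv]
    exact mul_comm _ _
  have hfix' : IsFixI A (N * q * q) (bb * a⁻¹)⁻¹ := Fermat.Agent.T3.helper98.isFixI_inv A hfix
  refine ⟨bb * a⁻¹, 1, ![r0, r1, 0], 1,
    mem_regJRing.mp (Subring.mul_mem _ h.mem_regJ_beta h.mem_regJ_alpha_inv),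
    Fermat.Agent.T3.helper98.isRegJ_one, mul_ne_zero hbb0 (inv_ne_zero ha0), ?_, ⟨hfix, ?_⟩,
    Fermat.Agent.T3.helper49.rho3_one, rfl, ⟨1, (BtAll N A).one_mem, by simp⟩, ?_⟩
  · rw [one_mul, hinv]
    exact mem_regJRing.mp (Subring.mul_mem _ h.mem_regJ_alpha h.mem_regJ_beta_inv)
  · intro i
    rw [Fermat.Agent.T3.helper16.red3_iff_rhoQ]
    fin_cases i
    · exact hR0
    · exact hR1
    · exact hR2
  · intro g X ρ hX
    rcases eq_or_ne g 0 with rfl | hg0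
    · refine ⟨0, ?_⟩
      rw [zero_mul]
      exact ⟨fun σ _ => map_zero _, fun i => by
        rw [Fermat.Agent.T3.helper16.red3_iff_rhoQ, map_zero]
        exact Fermat.Agent.T3.helper36.rhoQ_zero⟩
    obtain ⟨hgfix, hgred⟩ := ρ
    obtain ⟨m, hm⟩ :=
      Fermat.Agent.T3.helper5.gaussIs_ex3_two (hq := hq) (hqN := hqN) hA hζ hg0 hgfix
    rw [one_sub_zeta_of_two hζ hq2] at hm
    have h0 : RhoQ A (ex3 N q hq hqN hζ 2 g) 0 := by
      have := (Fermat.Agent.T3.helper16.red3_iff_rhoQ A hζ 2 _ _).mp (hgred 2)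
      rwa [hX] at this
    obtain ⟨r2, hr2⟩ := Fermat.Agent.T3.helper16.exists_rhoQ_div A hm h0 g2
    refine ⟨![X 0 * r0⁻¹, X 1 * r1⁻¹, r2],
      Fermat.Agent.T3.helper98.isFixI_mul A hgfix
        (Fermat.Agent.T3.helper98.isFixI_mul A (Fermat.Agent.T3.helper98.isFixI_one A) hfix'), ?_⟩
    intro i
    rw [Fermat.Agent.T3.helper16.red3_iff_rhoQ, one_mul, map_mul, map_inv₀]
    fin_cases i
    · exact ((Fermat.Agent.T3.helper16.red3_iff_rhoQ A hζ 0 _ _).mp (hgred 0)).mul (hR0.inv hr0)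
    · exact ((Fermat.Agent.T3.helper16.red3_iff_rhoQ A hζ 1 _ _).mp (hgred 1)).mul (hR1.inv hr1)
    · exact hr2

end Ker

end Fermat.Agent.T3.helper72

end
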