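/-
TIER 3 (S36), helper72: ASSEMBLY, second stage.  With [SURJ-ALL] (helper95.openBoxes_surj),
[GLUE] (helper15.hglue_of) and [KER] at the middle component for `q = 2`
(`helper72.ker2_of_two`) plugged in, S36 is reduced to THREE open boxes (`OpenBoxes3`):

* `root` : **[ROOT3-ALL]** (`Root3AllStatement n`);
* `ker2` : **[KER]** at the middle component for ODD `q`;
* `hor`  : **[HOR]**.
-/
import Fermat.Agent.T3.helper72_Ker2Two
import Fermat.Agent.T3.helper95_SurjBox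
import Fermat.Agent.T3.helper15_Glue

set_option autoImplicit false
set_option synthInstance.maxHeartbeats 400000
set_option linter.unusedSectionVars false
set_option linter.unusedVariables false
set_option linter.style.haveILetI false
set_option linter.style.longLine false

noncomputable section

open HahnSeries IntermediateField AlgebraicCurve ModularCurve
open Fermat.Agent.S18.helper19 Fermat.Agent.P2.helper29 Fermat.Agent.T2.helper36

namespace Fermat.Agent.T3.helper72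

open Fermat.Agent.T3.helper74 (ex3 IsFixI)
open Fermat.Agent.T3.helper49 (Rho3 Dv3 TorBase nuJ)
open Fermat.Agent.T3.helper98 (regJRing regJ IsRegJ mem_regJRing)
open Fermat.Agent.T3.helper95 (BtAll mem_BtAll)
open Fermat.Agent.T3.helper16 (IsUnit0)
open Fermat.Agent.P2.helper66 (iota)

section Asm

variable {N q : ℕ} [NeZero N] [NeZero q] {hq : q.Prime} {hqN : ¬ q ∣ N}
  {A : ValuationSubring Kb} {ζ : Kb} {hζ : IsPrimitiveRoot ζ q}
  {b0 : FF (N * q)} {B : PowerSeries ℤ} {ε : ℤ}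

variable (N q hq hqN A hζ) in
/-- **the three open boxes of S36** at the datum `(N, q, A, ζ, n)`. -/
structure OpenBoxes3 (n : ℕ) : Prop where
  /-- **[ROOT3-ALL]** -/
  root : Root3AllStatement N q hq hqN A hζ n
  /-- **[KER]** at the middle component, `q` odd -/
  ker2 : q ≠ 2 → ∃ (b s : FF (N * q * q)) (Xb Xs : Fin 3 → LaurentSeries (kA A)),
    IsRegJ (N * q * q) b ∧ IsRegJ (N * q * q) s ∧ b ≠ 0 ∧ IsRegJ (N * q * q) (s * b⁻¹) ∧
    Rho3 N q hq hqN A hζ b Xb ∧ Rho3 N q hq hqN A hζ s Xs ∧ Xb 2 = 0 ∧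
    (∃ z ∈ BtAll N A, Xs 2 * z = 1) ∧
    ∀ (g : FF (N * q * q)) (X : Fin 3 → LaurentSeries (kA A)), Rho3 N q hq hqN A hζ g X →
      X 2 = 0 → ∃ X', Rho3 N q hq hqN A hζ (g * (s * b⁻¹)) X'
  /-- **[HOR]** -/
  hor : ∀ u f : FF (N * q * q), Rho3 N q hq hqN A hζ u 1 →
    (∀ P : Place Kb (FF (N * q * q)), (n : ℤ) ∣ P.ord u) →
    (∀ G G' : FF (N * q * q), IsRegJ (N * q * q) (G ^ n * u⁻¹) →
      IsRegJ (N * q * q) (G' ^ n * u⁻¹⁻¹) → (∃ X, Rho3 N q hq hqN A hζ G X) →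
      (∃ X, Rho3 N q hq hqN A hζ G' X) → IsRegJ (N * q * q) (f * (G * G'))) →
    IsRegJ (N * q * q) f

/-- **[GLUE]** in the shape of `OpenBoxes.glue`, from [SURJ-ALL] and [RES]. -/
theorem glue_of_surj {n : ℕ} (hn : n ≠ 0) (h : IsUnit0 hq hqN b0 B ε) (hA : A.LiesOverPrime q)
    (hS : Fermat.Agent.T3.helper49.SurjAllStatement N A (btAll N A))
    (hroot : Root3AllStatement N q hq hqN A hζ n) :
    ∀ (f : FF (N * q * q)) (X : Fin 3 → LaurentSeries (kA A)), IsRegJ (N * q * q) f →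
      Rho3 N q hq hqN A hζ f X → X 0 - 1 ∈ nuJ (btAll N A) (iota (kA A) B) →
      ∀ c, X c - 1 ∈ nuJ (btAll N A) (iota (kA A) B) := by
  intro f X hf ρ h0 c
  have hsurj := Fermat.Agent.T3.helper49.hsurj_of_surjAll (hζ := hζ) hq hqN hA hS
  let B₀ : TorBase N q hq hqN A hζ n :=
    torBaseAll hn h hA (nu_mem_btAll h hA hζ) hsurj
      (Fermat.Agent.T3.helper49.pb_of_surjAll hq hqN hA hS) hroot
  have H : Fermat.Agent.T3.helper22.IsAllCusps B₀ := ⟨rfl, rfl⟩
  exact Fermat.Agent.T3.helper15.hglue_of B₀ hA h rfl h.mem_regJ_beta_al_inv h.mem_regJ_alpha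
    (fun f X hf ρ c => Fermat.Agent.T3.helper22.box_hres hA H f X hf ρ c)
    (fun z hz => hsurj 0 z hz) f X (mem_regJRing.mpr hf) ρ h0 c

/-- the five boxes from the three -/
theorem openBoxes_of_three {n : ℕ} (hn : n ≠ 0) (h : IsUnit0 hq hqN b0 B ε)
    (hA : A.LiesOverPrime q) (hN : 4 ∣ N ∨ 9 ∣ N) (O : OpenBoxes3 N q hq hqN A hζ n) :
    OpenBoxes N q hq hqN A hζ n B where
  surj := Fermat.Agent.T3.helper95.openBoxes_surj hq hA hqN hN
  root := O.root
  ker2 := by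
    by_cases hq2 : q = 2
    · exact ker2_of_two h hA hζ hq2
    · exact O.ker2 hq2
  hor := O.hor
  glue := glue_of_surj hn h hA (Fermat.Agent.T3.helper95.openBoxes_surj hq hA hqN hN) O.root

end Asm

/-- **S36 from the three open boxes** (weakest form: the place and the root of unity may be
chosen; only `k` is universal). -/
theorem newCore2_of_three
    (hO : ∀ (N' q : ℕ) [NeZero N'] [NeZero q] (hq : q.Prime) (hqN : ¬ q ∣ N') (p : ℕ),
      p.Prime → p ≠ q → p ≠ 2 → AuxOK q N' →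
        ∃ (A : ValuationSubring Kb) (ζ : Kb) (hζ : IsPrimitiveRoot ζ q), A.LiesOverPrime q ∧
          ∀ k : ℕ, OpenBoxes3 N' q hq hqN A hζ (p ^ k)) :
    NewCoreAtAuxLevels2 :=
  newCore2_of_open fun N' q _ _ hq hqN p hp hpq hp2 hN' => by
    obtain ⟨A, ζ, hζ, hA, hO'⟩ := hO N' q hq hqN p hp hpq hp2 hN'
    obtain ⟨b0, B, ε, h⟩ := Fermat.Agent.T3.helper16.exists_isUnit0 hq hqN hN'.good
    exact ⟨A, ζ, hζ, b0, B, ε, hA, h, fun k =>
      openBoxes_of_three (pow_ne_zero k hp.ne_zero) h hA hN'.good (hO' k)⟩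

/-- **S36 from the three open boxes**, universal form. -/
theorem newCore2_of_three_forall
    (hO : ∀ (N' q : ℕ) [NeZero N'] [NeZero q] (hq : q.Prime) (hqN : ¬ q ∣ N') (p : ℕ),
      p.Prime → p ≠ q → p ≠ 2 → AuxOK q N' → ∀ (A : ValuationSubring Kb), A.LiesOverPrime q →
        ∀ (ζ : Kb) (hζ : IsPrimitiveRoot ζ q) (k : ℕ), OpenBoxes3 N' q hq hqN A hζ (p ^ k)) :
    NewCoreAtAuxLevels2 :=
  newCore2_of_three fun N' q _ _ hq hqN p hp hpq hp2 hN' => by
    obtain ⟨A, hA⟩ := Fermat.Agent.S54.helper91.exists_valuationSubring_liesOver hq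
    obtain ⟨ζ, hζ⟩ := HasEnoughRootsOfUnity.exists_primitiveRoot Kb q
    exact ⟨A, ζ, hζ, hA, hO N' q hq hqN p hp hpq hp2 hN' A hA ζ hζ⟩

end Fermat.Agent.T3.helper72

end
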