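/-
T3 (S36), helper74: the contract `PeelSrcTw` of the architect (#2517, ORDER FORM: the leading
coefficients are inertia-fixed UNITS of `A`) implies the factor sources of `helper74_Sat3Tw`,
hence (SAT_q) and ROOT3 for the family.

* `PeelSrcTw … J m₀` : for `m ≥ m₀` and `e : Fin 3` an inertia-fixed `G ∈ B` with integral
  expansions at every index; at `J` the coefficients below `-(sc3 q (τ J) e * m)` vanish and the
  one at `-(sc3 q (τ J) e * m)` is `u` (resp. `u ζ^(-m)` for the middle type and `e = 2`), `u` a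
  unit of `A` fixed by the inertia group; at `J' ≠ J` of the same type there is no pole; at `J'`
  of another type the coefficients below `-(sc3 q (τ J') e * m)` vanish.
* `factorSource_of_peelSrcTw`, `satStatementE_of_peelSrcTw`, `root_of_peelSrcTw`.
-/
import Mathlib
import Fermat.Agent.T3.helper74_Sat3Tw

set_option autoImplicit false
set_option synthInstance.maxHeartbeats 400000
set_option maxHeartbeats 1000000
set_option linter.unusedSectionVars false
set_option linter.style.haveILetI false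

noncomputable section

open HahnSeries IntermediateField AlgebraicCurve ModularCurve
open Fermat.Agent.S18.helper19 Fermat.Agent.P2.helper29 Fermat.Agent.T2.helper36
open Fermat.Agent.T2.helper96

namespace Fermat.Agent.T3.helper74

section TwU

variable {Lv : ℕ} [NeZero Lv] (q : ℕ) (A : ValuationSubring Kb)
variable {ι : Type*} (τ : ι → Fin 3) (E : ι → (FF Lv →+* LaurentSeries Kb))

/-- **the contract of the producers** (order form): as `FactorSource`, with leading coefficient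
an inertia-fixed unit of `A`. -/
def PeelSrcTw (B : Subalgebra Kb (FF Lv)) (ζ : Kb) (J : ι) (m₀ : ℕ) : Prop :=
  ∀ m : ℕ, m₀ ≤ m → ∀ e : Fin 3, ∃ (G : FF Lv) (Y : ι → LaurentSeries A) (u : A),
    G ∈ B ∧ IsFixI A Lv G ∧ (∀ J', incl A (Y J') = E J' G) ∧
    IsUnit u ∧ (∀ σ ∈ A.inertiaSubgroupIn ℚ, σ (u : Kb) = (u : Kb)) ∧
    (((Y J).coeff (-((sc3 q (τ J) e * m : ℕ) : ℤ)) : A) : Kb)
      = (u : Kb) * leadTw ζ (τ J) e m ∧
    (∀ k : ℤ, k < -((sc3 q (τ J) e * m : ℕ) : ℤ) → (Y J).coeff k = 0) ∧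
    (∀ J', J' ≠ J → τ J' = τ J → ∀ k : ℤ, k < 0 → (Y J').coeff k = 0) ∧
    (∀ J', τ J' ≠ τ J → ∀ k : ℤ, k < -((sc3 q (τ J') e * m : ℕ) : ℤ) → (Y J').coeff k = 0)

variable {q A τ E}

/-- the leading units are removed by inertia-fixed unit constants. -/
theorem factorSource_of_peelSrcTw (hE : ConstCompatTw E) (B : Subalgebra Kb (FF Lv)) {ζ : Kb}
    {J : ι} {m₀ : ℕ} (hS : PeelSrcTw q A τ E B ζ J m₀) (e : Fin 3) :
    FactorSource q A τ E B ζ J e m₀ := by
  intro m hm
  obtain ⟨G, Y, u, hGB, hGI, hY, hu, huI, hlead, hbelow, hsame, hother⟩ := hS m hm e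
  obtain ⟨v, hv⟩ := hu.exists_right_inv
  have hvK : (u : Kb) * (v : Kb) = 1 := by
    have := congrArg (fun x : A => (x : Kb)) hv
    simpa using this
  have hu0 : (u : Kb) ≠ 0 := left_ne_zero_of_mul_eq_one hvK
  have hvI : ∀ σ ∈ A.inertiaSubgroupIn ℚ, σ (v : Kb) = (v : Kb) := by
    intro σ hσ
    have h1 : σ (u : Kb) * σ (v : Kb) = 1 := by rw [← map_mul, hvK, map_one]
    rw [huI σ hσ] at h1
    exact mul_left_cancel₀ hu0 (h1.trans hvK.symm)
  have hcoef : ∀ (J' : ι) (k : ℤ), (HahnSeries.C v * Y J').coeff k = v * (Y J').coeff k :=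
    fun J' k => coeff_C_mul _ _ _
  refine ⟨algebraMap Kb (FF Lv) (v : Kb) * G, fun J' => HahnSeries.C v * Y J',
    B.mul_mem (B.algebraMap_mem _) hGB, fun σ hσ => ?_, fun J' => ?_, ?_, ?_, ?_, ?_⟩
  · rw [map_mul, arithmeticRingAut_algebraMap, hvI σ hσ, hGI σ hσ]
  · rw [map_mul, map_mul, incl_C3, hE, hY]
  · show ((((HahnSeries.C v * Y J).coeff _ : A)) : Kb) = _
    rw [hcoef]
    show (v : Kb) * (((Y J).coeff _ : A) : Kb) = _
    rw [hlead, ← mul_assoc, mul_comm (v : Kb), hvK, one_mul]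
  · intro k hk
    show (HahnSeries.C v * Y J).coeff k = 0
    rw [hcoef, hbelow k hk, mul_zero]
  · intro J' hJ' ht k hk
    show (HahnSeries.C v * Y J').coeff k = 0
    rw [hcoef, hsame J' hJ' ht k hk, mul_zero]
  · intro J' ht k hk
    show (HahnSeries.C v * Y J').coeff k = 0
    rw [hcoef, hother J' ht k hk, mul_zero]

/-- **(SAT_q)** from the contract of the producers. -/
theorem satStatementE_of_peelSrcTw [Fintype ι] [DecidableEq ι] (hq : q.Prime)
    (B : Subalgebra Kb (FF Lv)) {ζ : Kb} (hE : ConstCompatTw E)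
    (hG : GalCompatTw A τ E ζ) {m₀ : ℕ} (hS : ∀ J, PeelSrcTw q A τ E B ζ J m₀)
    (hK : CycloDecompStatement q A ζ) :
    Fermat.Agent.T3.helper27.SatStatementE q A E (fun J => wt3 q (τ J)) B
      (lev3 q m₀ : ℤ) :=
  satStatementE_tw hq B hE hG (fun J e => factorSource_of_peelSrcTw hE B (hS J) e) hK

/-- (SAT_q) from the contract, with the cyclotomic decomposition discharged. -/
theorem satStatementE_of_peelSrcTw' [Fintype ι] [DecidableEq ι] (hq : q.Prime)
    (hA : A.LiesOverPrime q) (B : Subalgebra Kb (FF Lv)) {ζ : Kb}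
    (hζ : IsPrimitiveRoot ζ q) (hE : ConstCompatTw E)
    (hG : GalCompatTw A τ E ζ) {m₀ : ℕ} (hS : ∀ J, PeelSrcTw q A τ E B ζ J m₀) :
    Fermat.Agent.T3.helper27.SatStatementE q A E (fun J => wt3 q (τ J)) B
      (lev3 q m₀ : ℤ) := by
  haveI : NeZero q := ⟨hq.ne_zero⟩
  exact satStatementE_of_peelSrcTw hq B hE hG hS (cycloDecomp hq A hA hζ)

/-- **ROOT3 from the contract of the producers**. -/
theorem root_of_peelSrcTw [Fintype ι] [DecidableEq ι] [Nonempty ι] (hq : q.Prime)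
    (hA : A.LiesOverPrime q) (B : Subalgebra Kb (FF Lv)) {ζ : Kb}
    (hζ : IsPrimitiveRoot ζ q) (hE : ConstCompatTw E)
    (hG : GalCompatTw A τ E ζ) {m₀ : ℕ} (hS : ∀ J, PeelSrcTw q A τ E B ζ J m₀)
    (hBfin : Fermat.Agent.T3.helper27.FinStatementE A E (fun J => wt3 q (τ J)) B)
    (n : ℕ) (hn : ¬ q ∣ n) (H : FF Lv) (hHB : H ∈ B) (hHI : IsFixI A Lv H)
    (hroot : ∀ J : ι, ∃ Z : LaurentSeries A, (incl A Z) ^ n = E J H ∧ red A Z = 1) :
    ∃ v : FF Lv, IsFixI A Lv v ∧ H = v ^ n :=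
  root_tw hq hA B hζ hE hG (fun J e => factorSource_of_peelSrcTw hE B (hS J) e) hBfin n hn H
    hHB hHI hroot

end TwU

end Fermat.Agent.T3.helper74

end
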