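/-
T3 (S36), helper74: the contract `PeelSrcTw` (hence (SAT_q) and ROOT3 for all cusps) from
* a TWISTED dg-TABLE in order form (`TableTw`, output of [CUSP-Q]) and
* exact-pole elements at every cusp of level `N` (`XPoleAll`, output of [XPOLE-c]).

`𝒞` : the cusps of level `N`, `EN c : F_N →+* ℚ̄((t))` the expansions at level `N`,
`E (c, i) : F_{Nqq} →+* ℚ̄((t))` the expansions at level `N q q` (`i` = type `∞`, `0`, middle),
`κ i e : 𝒞 → 𝒞` the cusp of level `N` seen by `x(q^e τ)` at the index `(c, i)` (injective).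

* `TableEntry … i e X Y` : `Y` is obtained from `X` by an operation multiplying the pole orders by
  `sc3 q i e` and the leading coefficient by an inertia-fixed unit (times `ζ^(-m)` for
  `(i, e) = (2, 2)`).
* `tableEntry_rot_id`, `tableEntry_rot_qExpand`, `tableEntry_rot_qExpand2`,
  `tableEntry_rot_twist` : the four shapes `rot ε (S X)` of the table.
* `peelSrcTw_of_table` : `TableTw → XPoleAll → PeelSrcTw`.
* `satStatementE_of_table`, `root_of_table`.
-/
import Mathlib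
import Fermat.Agent.T3.helper74_Sat3TwU

set_option autoImplicit false
set_option synthInstance.maxHeartbeats 400000
set_option maxHeartbeats 1000000
set_option linter.unusedSectionVars false
set_option linter.style.haveILetI false

noncomputable section

open HahnSeries IntermediateField AlgebraicCurve ModularCurve
open Fermat.Agent.S18.helper19 Fermat.Agent.P2.helper29 Fermat.Agent.T2.helper36
open Fermat.Agent.T2.helper96

namespace Fermat.Agent.T3.helper74

/-! ### The degeneracy maps -/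

section Dg

variable {N q : ℕ} [NeZero N] [NeZero q]

/-- the three degeneracy maps `x(τ)`, `x(q τ)`, `x(q² τ)` -/
def dgF (N q : ℕ) [NeZero N] [NeZero q] (e : Fin 3) : FF N →ₐ[Kb] FF (N * q * q) :=
  if e = 0 then dg0 N q else if e = 1 then dg1 N q else dg2 N q

theorem dgF_zero : dgF N q 0 = dg0 N q := rfl

theorem dgF_one : dgF N q 1 = dg1 N q := rfl

theorem dgF_two : dgF N q 2 = dg2 N q := rfl

theorem galF_dgF (e : Fin 3) (σ : Kb ≃ₐ[ℚ] Kb) (f : FF N) :
    arithmeticRingAut (modularFunctionFieldFull (N * q * q)) σ (dgF N q e f)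
      = dgF N q e (arithmeticRingAut (modularFunctionFieldFull N) σ f) := by
  rcases fin3_cases e with rfl | rfl | rfl
  · rw [dgF_zero, galF_dg0]
  · rw [dgF_one, galF_dg1]
  · rw [dgF_two, galF_dg2]

theorem isFixI_dgF (A : ValuationSubring Kb) {x : FF N} (hx : IsFixI A N x) (e : Fin 3) :
    IsFixI A (N * q * q) (dgF N q e x) := fun σ hσ => by
  rw [galF_dgF, hx σ hσ]

end Dg

/-! ### Table entries in order form -/

section Entry

variable (q : ℕ) (A : ValuationSubring Kb)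

/-- `Y` is obtained from `X` by an operation multiplying the pole orders by `sc3 q i e` and the
leading coefficient by an inertia-fixed unit of `A` (times `ζ^(-m)` for `(i, e) = (2, 2)`). -/
def TableEntry (ζ : Kb) (i e : Fin 3) (X Y : LaurentSeries A) : Prop :=
  ∀ m : ℕ, (∀ k : ℤ, k < -(m : ℤ) → X.coeff k = 0) →
    (∀ k : ℤ, k < -((sc3 q i e * m : ℕ) : ℤ) → Y.coeff k = 0) ∧
    ∃ u : A, IsUnit u ∧ (∀ σ ∈ A.inertiaSubgroupIn ℚ, σ (u : Kb) = (u : Kb)) ∧
      (((Y.coeff (-((sc3 q i e * m : ℕ) : ℤ)) : A)) : Kb)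
        = (u : Kb) * leadTw ζ i e m * (((X.coeff (-(m : ℤ)) : A)) : Kb)

variable {q A}

/-- integral powers of an inertia-fixed element of valuation one are inertia-fixed units -/
theorem exists_unit_zpow {ε : Kb} (hε : A.valuation ε = 1)
    (hεI : ∀ σ ∈ A.inertiaSubgroupIn ℚ, σ ε = ε) (k : ℤ) :
    ∃ u : A, IsUnit u ∧ (∀ σ ∈ A.inertiaSubgroupIn ℚ, σ (u : Kb) = (u : Kb)) ∧
      (u : Kb) = ε ^ k := by
  have hmem : ∀ j : ℤ, ε ^ j ∈ A := fun j =>
    (A.valuation_le_one_iff _).mp (by rw [map_zpow₀, hε, one_zpow])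
  have hε0 : ε ≠ 0 := by
    intro h0
    rw [h0, map_zero] at hε
    exact zero_ne_one hε
  refine ⟨⟨ε ^ k, hmem k⟩, ?_, fun σ hσ => ?_, rfl⟩
  · refine IsUnit.of_mul_eq_one (⟨ε ^ (-k), hmem (-k)⟩ : A) (Subtype.ext ?_)
    show ε ^ k * ε ^ (-k) = 1
    rw [← zpow_add₀ hε0, add_neg_cancel, zpow_zero]
  · show σ (ε ^ k) = ε ^ k
    rw [map_zpow₀, hεI σ hσ]

/-- the rotation `t ↦ ε t` preserves the pole orders -/
theorem twistA_coeff_eq_zero {ε : Kb} (hε : A.valuation ε = 1) {X : LaurentSeries A} {k : ℤ}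
    (h : X.coeff k = 0) : (twistA A ε hε X).coeff k = 0 := by
  apply Subtype.ext
  rw [twistA_coeff, h]
  simp

/-- shape `rot ε X` (scaling `1`) -/
theorem tableEntry_rot_id (ζ : Kb) {i e : Fin 3} (hs : sc3 q i e = 1) (hie : ¬ (i = 2 ∧ e = 2))
    {ε : Kb} (hε : A.valuation ε = 1) (hεI : ∀ σ ∈ A.inertiaSubgroupIn ℚ, σ ε = ε)
    (X : LaurentSeries A) : TableEntry q A ζ i e X (twistA A ε hε X) := by
  intro m hX
  rw [hs, one_mul]
  refine ⟨fun k hk => twistA_coeff_eq_zero hε (hX k hk), ?_⟩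
  obtain ⟨u, hu, huI, hu'⟩ := exists_unit_zpow hε hεI (-(m : ℤ))
  refine ⟨u, hu, huI, ?_⟩
  rw [twistA_coeff, hu', leadTw_of_ne ζ hie, mul_one]

/-- shape `rot ε (X(t^n))` (scaling `n`) -/
theorem tableEntry_rot_qExpand (ζ : Kb) {i e : Fin 3} (n : ℕ) [NeZero n] (hs : sc3 q i e = n)
    (hie : ¬ (i = 2 ∧ e = 2))
    {ε : Kb} (hε : A.valuation ε = 1) (hεI : ∀ σ ∈ A.inertiaSubgroupIn ℚ, σ ε = ε)
    (X : LaurentSeries A) : TableEntry q A ζ i e X (twistA A ε hε (qExpand A n X)) := by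
  intro m hX
  rw [hs]
  have hn0 : (0 : ℤ) < (n : ℤ) := by exact_mod_cast Nat.pos_of_ne_zero (NeZero.ne n)
  have hidx : -((n * m : ℕ) : ℤ) = (n : ℤ) * (-(m : ℤ)) := by
    push_cast
    ring
  refine ⟨fun k hk => twistA_coeff_eq_zero hε ?_, ?_⟩
  · by_cases hd : (n : ℤ) ∣ k
    · obtain ⟨k', rfl⟩ := hd
      rw [qExpand_coeff_mul]
      apply hX
      rw [hidx] at hk
      exact lt_of_mul_lt_mul_left hk hn0.le
    · exact qExpand_coeff_of_not_dvd n X hd
  · obtain ⟨u, hu, huI, hu'⟩ := exists_unit_zpow hε hεI (-((n * m : ℕ) : ℤ))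
    refine ⟨u, hu, huI, ?_⟩
    rw [twistA_coeff, hu', leadTw_of_ne ζ hie, mul_one]
    congr 2
    rw [hidx, qExpand_coeff_mul]

/-- shape `rot ε (X(t^(q²)))`, written with two substitutions -/
theorem tableEntry_rot_qExpand2 [NeZero q] (ζ : Kb) {i e : Fin 3} (hs : sc3 q i e = q * q)
    (hie : ¬ (i = 2 ∧ e = 2))
    {ε : Kb} (hε : A.valuation ε = 1) (hεI : ∀ σ ∈ A.inertiaSubgroupIn ℚ, σ ε = ε)
    (X : LaurentSeries A) :
    TableEntry q A ζ i e X (twistA A ε hε (qExpand A q (qExpand A q X))) := by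
  rw [qExpand_qExpand]
  exact tableEntry_rot_qExpand ζ (q * q) hs hie hε hεI X

/-- shape `rot ε (twist_ζ X)` (the middle type, `e = 2`) -/
theorem tableEntry_rot_twist {ζ : Kb} (hζ : A.valuation ζ = 1)
    {ε : Kb} (hε : A.valuation ε = 1) (hεI : ∀ σ ∈ A.inertiaSubgroupIn ℚ, σ ε = ε)
    (X : LaurentSeries A) :
    TableEntry q A ζ 2 2 X (twistA A ε hε (twistA A ζ hζ X)) := by
  intro m hX
  rw [sc3_22, one_mul]
  refine ⟨fun k hk => twistA_coeff_eq_zero hε (twistA_coeff_eq_zero hζ (hX k hk)), ?_⟩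
  obtain ⟨u, hu, huI, hu'⟩ := exists_unit_zpow hε hεI (-(m : ℤ))
  refine ⟨u, hu, huI, ?_⟩
  rw [twistA_coeff, twistA_coeff, hu', leadTw_22, mul_assoc]

end Entry

/-! ### The contract from the table and the exact-pole elements -/

section Inst

variable {N q : ℕ} [NeZero N] [NeZero q] (A : ValuationSubring Kb)
variable {𝒞 : Type*} (EN : 𝒞 → (FF N →+* LaurentSeries Kb))
  (E : 𝒞 × Fin 3 → (FF (N * q * q) →+* LaurentSeries Kb))

/-- **the twisted dg-table in order form** ([CUSP-Q]): the expansion of `x(q^e τ)` at the index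
`(c, i)` is a table entry of the expansion of `x` at the cusp `κ i e c` of level `N`. -/
def TableTw (ζ : Kb) (κ : Fin 3 → Fin 3 → 𝒞 → 𝒞) : Prop :=
  ∀ (c : 𝒞) (i e : Fin 3) (x : FF N) (X : LaurentSeries A), incl A X = EN (κ i e c) x →
    ∃ Y : LaurentSeries A, incl A Y = E (c, i) (dgF N q e x) ∧ TableEntry q A ζ i e X Y

/-- **exact-pole elements at every cusp of level `N`** ([XPOLE-c]): for `m ≥ m₀` an
inertia-fixed `x` with integral expansions at all cusps, a pole of exact order `m` with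
inertia-fixed unit leading coefficient at `c₀`, and no other pole; its three pull-backs lie in
`B`. -/
def XPoleAll (B : Subalgebra Kb (FF (N * q * q))) (m₀ : ℕ) : Prop :=
  ∀ (c₀ : 𝒞) (m : ℕ), m₀ ≤ m → ∃ (x : FF N) (X : 𝒞 → LaurentSeries A),
    IsFixI A N x ∧ (∀ e, dgF N q e x ∈ B) ∧ (∀ c, incl A (X c) = EN c x) ∧
    IsUnit ((X c₀).coeff (-(m : ℤ))) ∧
    (∀ σ ∈ A.inertiaSubgroupIn ℚ,
      σ (((X c₀).coeff (-(m : ℤ)) : A) : Kb) = (((X c₀).coeff (-(m : ℤ)) : A) : Kb)) ∧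
    (∀ k : ℤ, k < -(m : ℤ) → (X c₀).coeff k = 0) ∧
    ∀ c, c ≠ c₀ → ∀ k : ℤ, k < 0 → (X c).coeff k = 0

variable {A EN E}

/-- **the contract of the producers** from the table and the exact-pole elements. -/
theorem peelSrcTw_of_table {ζ : Kb} {κ : Fin 3 → Fin 3 → 𝒞 → 𝒞}
    (hκ : ∀ i e, Function.Injective (κ i e)) (hT : TableTw A EN E ζ κ)
    {B : Subalgebra Kb (FF (N * q * q))} {m₀ : ℕ} (hX : XPoleAll A EN B m₀)
    (J : 𝒞 × Fin 3) : PeelSrcTw q A (fun p : 𝒞 × Fin 3 => p.2) E B ζ J m₀ := by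
  obtain ⟨c, i⟩ := J
  intro m hm e
  obtain ⟨x, X, hxI, hxB, hXE, hu, huI, hbelow, hother⟩ := hX (κ i e c) m hm
  -- pole order `≤ m` at every cusp
  have hle : ∀ c' : 𝒞, ∀ k : ℤ, k < -(m : ℤ) → (X c').coeff k = 0 := by
    intro c' k hk
    by_cases hc' : c' = κ i e c
    · rw [hc']
      exact hbelow k hk
    · exact hother c' hc' k (lt_of_lt_of_le hk (by simp))
  have key : ∀ p : 𝒞 × Fin 3, ∃ Y : LaurentSeries A, incl A Y = E p (dgF N q e x) ∧
      TableEntry q A ζ p.2 e (X (κ p.2 e p.1)) Y := fun p =>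
    hT p.1 p.2 e x (X (κ p.2 e p.1)) (hXE _)
  choose Y hY hYT using key
  obtain ⟨h1, u, hu1, hu2, hu3⟩ := hYT (c, i) m hbelow
  have huu : IsUnit (u * (X (κ i e c)).coeff (-(m : ℤ))) := hu1.mul hu
  refine ⟨dgF N q e x, Y, u * (X (κ i e c)).coeff (-(m : ℤ)), hxB e, isFixI_dgF A hxI e, hY,
    huu, fun σ hσ => ?_, ?_, h1, ?_, ?_⟩
  · show σ ((u : Kb) * (((X (κ i e c)).coeff (-(m : ℤ)) : A) : Kb)) = _
    rw [map_mul, hu2 σ hσ, huI σ hσ]
    rfl
  · show (((Y (c, i)).coeff _ : A) : Kb) = _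
    rw [hu3]
    show _ = (u : Kb) * (((X (κ i e c)).coeff (-(m : ℤ)) : A) : Kb) * _
    ring
  · rintro ⟨c', i'⟩ hJ' ht k hk
    have hi : i' = i := ht
    subst hi
    have hc' : c' ≠ c := fun h => hJ' (by rw [h])
    have hκc : κ i' e c' ≠ κ i' e c := fun h => hc' (hκ i' e h)
    have h0 := (hYT (c', i') 0 (fun k hk => hother _ hκc k (by simpa using hk))).1
    apply h0 k
    simpa using hk
  · rintro ⟨c', i'⟩ ht k hk
    exact (hYT (c', i') m (hle _)).1 k hk

/-- **(SAT_q) for all cusps** from the table and the exact-pole elements. -/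
theorem satStatementE_of_table [Fintype 𝒞] [DecidableEq 𝒞] (hq : q.Prime)
    (hA : A.LiesOverPrime q) {ζ : Kb} (hζ : IsPrimitiveRoot ζ q)
    {κ : Fin 3 → Fin 3 → 𝒞 → 𝒞} (hκ : ∀ i e, Function.Injective (κ i e))
    (hT : TableTw A EN E ζ κ) (B : Subalgebra Kb (FF (N * q * q))) {m₀ : ℕ}
    (hX : XPoleAll A EN B m₀) (hE : ConstCompatTw E)
    (hG : GalCompatTw A (fun p : 𝒞 × Fin 3 => p.2) E ζ) :
    Fermat.Agent.T3.helper27.SatStatementE q A E (fun p : 𝒞 × Fin 3 => wt3 q p.2) B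
      (lev3 q m₀ : ℤ) :=
  satStatementE_of_peelSrcTw' hq hA B hζ hE hG (fun J => peelSrcTw_of_table hκ hT hX J)

/-- **ROOT3 for all cusps** from the table and the exact-pole elements. -/
theorem root_of_table [Fintype 𝒞] [DecidableEq 𝒞] [Nonempty 𝒞] (hq : q.Prime)
    (hA : A.LiesOverPrime q) {ζ : Kb} (hζ : IsPrimitiveRoot ζ q)
    {κ : Fin 3 → Fin 3 → 𝒞 → 𝒞} (hκ : ∀ i e, Function.Injective (κ i e))
    (hT : TableTw A EN E ζ κ) (B : Subalgebra Kb (FF (N * q * q))) {m₀ : ℕ}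
    (hX : XPoleAll A EN B m₀) (hE : ConstCompatTw E)
    (hG : GalCompatTw A (fun p : 𝒞 × Fin 3 => p.2) E ζ)
    (hBfin : Fermat.Agent.T3.helper27.FinStatementE A E (fun p : 𝒞 × Fin 3 => wt3 q p.2) B)
    (n : ℕ) (hn : ¬ q ∣ n) (H : FF (N * q * q)) (hHB : H ∈ B)
    (hHI : IsFixI A (N * q * q) H)
    (hroot : ∀ J : 𝒞 × Fin 3, ∃ Z : LaurentSeries A, (incl A Z) ^ n = E J H ∧ red A Z = 1) :
    ∃ v : FF (N * q * q), IsFixI A (N * q * q) v ∧ H = v ^ n :=
  root_of_peelSrcTw hq hA B hζ hE hG (fun J => peelSrcTw_of_table hκ hT hX J) hBfin n hn H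
    hHB hHI hroot

end Inst

/-! ### The table over `∞` (sanity check and template) -/

section Infty

variable {N q : ℕ} [NeZero N] [NeZero q] {hq : q.Prime} {hqN : ¬ q ∣ N}
variable {A : ValuationSubring Kb}

theorem twistA_one (h1 : A.valuation (1 : Kb) = 1) (X : LaurentSeries A) :
    twistA A 1 h1 X = X := by
  ext k
  rw [twistA_coeff, one_zpow, one_mul]

theorem tableEntry_id (ζ : Kb) {i e : Fin 3} (hs : sc3 q i e = 1) (hie : ¬ (i = 2 ∧ e = 2))
    (X : LaurentSeries A) : TableEntry q A ζ i e X X := by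
  have h := tableEntry_rot_id (q := q) (A := A) ζ hs hie (ε := 1) (map_one _)
    (fun σ _ => map_one σ) X
  rwa [twistA_one] at h

theorem tableEntry_qExpand (ζ : Kb) {i e : Fin 3} (n : ℕ) [NeZero n] (hs : sc3 q i e = n)
    (hie : ¬ (i = 2 ∧ e = 2)) (X : LaurentSeries A) :
    TableEntry q A ζ i e X (qExpand A n X) := by
  have h := tableEntry_rot_qExpand (q := q) (A := A) ζ n hs hie (ε := 1) (map_one _)
    (fun σ _ => map_one σ) X
  rwa [twistA_one] at h

theorem tableEntry_qExpand2 (ζ : Kb) {i e : Fin 3} (hs : sc3 q i e = q * q)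
    (hie : ¬ (i = 2 ∧ e = 2)) (X : LaurentSeries A) :
    TableEntry q A ζ i e X (qExpand A q (qExpand A q X)) := by
  have h := tableEntry_rot_qExpand2 (q := q) (A := A) ζ hs hie (ε := 1) (map_one _)
    (fun σ _ => map_one σ) X
  rwa [twistA_one] at h

theorem tableEntry_twist {ζ : Kb} (hζ : A.valuation ζ = 1) (X : LaurentSeries A) :
    TableEntry q A ζ 2 2 X (twistA A ζ hζ X) := by
  have h := tableEntry_rot_twist (q := q) (A := A) hζ (ε := 1) (map_one _)
    (fun σ _ => map_one σ) X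
  rwa [twistA_one] at h

/-- the (untwisted) table over `∞_N` : `𝒞 = Unit`, `E = ex3`. -/
theorem tableTw_infty {ζ : Kb} (hζ : IsPrimitiveRoot ζ q) :
    TableTw A (fun _ : Unit => (FF N).val.toRingHom)
      (fun p : Unit × Fin 3 => ex3 N q hq hqN hζ p.2) ζ (fun _ _ => id) := by
  intro c i e x X hX
  have hX' : incl A X = (x : LaurentSeries Kb) := hX
  have hζv := valuation_zeta_eq_one q A hζ
  rcases fin3_cases i with rfl | rfl | rfl <;> rcases fin3_cases e with rfl | rfl | rfl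
  · refine ⟨X, ?_, tableEntry_id ζ rfl (by decide) X⟩
    show _ = ex3 N q hq hqN hζ 0 (dg0 N q x)
    rw [ex3_zero, coe_dg0, hX']
  · refine ⟨qExpand A q X, ?_, tableEntry_qExpand ζ q rfl (by decide) X⟩
    show _ = ex3 N q hq hqN hζ 0 (dg1 N q x)
    rw [ex3_zero, coe_dg1, incl_qExpand, hX']
  · refine ⟨qExpand A q (qExpand A q X), ?_, tableEntry_qExpand2 ζ rfl (by decide) X⟩
    show _ = ex3 N q hq hqN hζ 0 (dg2 N q x)
    rw [ex3_zero, coe_dg2, incl_qExpand, incl_qExpand, hX']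
  · refine ⟨qExpand A q (qExpand A q X), ?_, tableEntry_qExpand2 ζ rfl (by decide) X⟩
    show _ = ex3 N q hq hqN hζ 1 (dg0 N q x)
    rw [ex3_one, atkinLehnerSq_dg0, coe_dg2, incl_qExpand, incl_qExpand, hX']
  · refine ⟨qExpand A q X, ?_, tableEntry_qExpand ζ q rfl (by decide) X⟩
    show _ = ex3 N q hq hqN hζ 1 (dg1 N q x)
    rw [ex3_one, atkinLehnerSq_dg1, coe_dg1, incl_qExpand, hX']
  · refine ⟨X, ?_, tableEntry_id ζ rfl (by decide) X⟩
    show _ = ex3 N q hq hqN hζ 1 (dg2 N q x)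
    rw [ex3_one, atkinLehnerSq_dg2, coe_dg0, hX']
  · refine ⟨X, ?_, tableEntry_id ζ rfl (by decide) X⟩
    show _ = ex3 N q hq hqN hζ 2 (dg0 N q x)
    rw [ex3_two, embMid_dg0, hX']
  · refine ⟨qExpand A q X, ?_, tableEntry_qExpand ζ q rfl (by decide) X⟩
    show _ = ex3 N q hq hqN hζ 2 (dg1 N q x)
    rw [ex3_two, embMid_dg1, incl_qExpand, hX']
  · refine ⟨twistA A ζ hζv X, ?_, tableEntry_twist hζv X⟩
    show _ = ex3 N q hq hqN hζ 2 (dg2 N q x)
    rw [ex3_two, embMid_dg2, incl_twistA, hX']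
    have : ζ ^ ((midOne q hq : Fin q) : ℕ) = ζ := pow_one ζ
    rw [this]

/-- the exact-pole elements over `∞_N` from `ExactPoleFix`. -/
theorem xPoleAll_infty (B : Subalgebra Kb (FF (N * q * q)))
    (hB : ∀ (m : ℕ) (f : FF N), InL (FF N) m (f : LaurentSeries Kb) →
      dg0 N q f ∈ B ∧ dg1 N q f ∈ B ∧ dg2 N q f ∈ B)
    {m₀ : ℕ} (hX : ExactPoleFix N A m₀) :
    XPoleAll (q := q) A (fun _ : Unit => (FF N).val.toRingHom) B m₀ := by
  intro c₀ m hm
  obtain ⟨X, hX1, hX2, hX3⟩ := hX m hm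
  set x : FF N := ⟨incl A X, hX1.1⟩ with hx
  have hxI : IsFixI A N x := isFixI_of_coeffFix A N hX1.1 hX3
  have hxB := hB m x hX1
  have hmon := isMonicAt_of_inL hX1 hX2
  refine ⟨x, fun _ => X, hxI, fun e => ?_, fun _ => rfl, ?_, fun σ hσ => hX3 σ hσ _, hmon.2,
    fun c hc => absurd (Subsingleton.elim c c₀) hc⟩
  · rcases fin3_cases e with rfl | rfl | rfl
    · exact hxB.1
    · exact hxB.2.1
    · exact hxB.2.2
  · rw [hX2]
    exact isUnit_one

end Infty

end Fermat.Agent.T3.helper74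

end
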