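/-
T3 (S36), helper74: table entries (`helper74_Sat3TwInst.TableEntry`) in COEFFICIENT FORM, for
the producers of the twisted dg-table ([CUSP-Q]).

If `Z : ℚ̄((t))` satisfies `Z_{n k} = w_k X_k`, `Z_k = 0` for `n ∤ k`, with multipliers
`w_k ∈ A` such that `w_{-m} = u · leadTw` for an inertia-fixed unit `u` (`m ≥ 0`), then `Z` is the
image of an `A`-integral table entry of `X`.

* `exists_tableEntry_of_coeff`      : the coefficient form;
* `exists_tableEntry_qExpand_twistL`: `Z = (rot_ε X)(t^n)` (`qExpand n ∘ twistL ε`);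
* `exists_tableEntry_twistL_qExpand`: `Z = rot_ε (X(t^n))`;
* `exists_tableEntry_twistL_zeta`   : `Z = rot_{ε ζ} X` (middle type, `e = 2`);
* `exists_tableEntry_qExpand_rot`, `exists_tableEntry_rot_zeta` : the same with `helper94.rot`.
-/
import Mathlib
import Fermat.Agent.T3.helper74_Sat3TwInst
import Fermat.Agent.P2.helper93_ESRed

set_option autoImplicit false
set_option synthInstance.maxHeartbeats 400000
set_option maxHeartbeats 1000000
set_option linter.unusedSectionVars false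
set_option linter.style.haveILetI false

noncomputable section

open HahnSeries IntermediateField AlgebraicCurve ModularCurve
open Fermat.Agent.S18.helper19 Fermat.Agent.P2.helper29 Fermat.Agent.T2.helper36
open Fermat.Agent.T2.helper96

namespace Fermat.Agent.T3.helper74

section Shapes

variable {q : ℕ} {A : ValuationSubring Kb}

/-- **table entries in coefficient form**. -/
theorem exists_tableEntry_of_coeff (ζ : Kb) {i e : Fin 3} (n : ℕ) (hn : 0 < n)
    (hs : sc3 q i e = n) (X : LaurentSeries A) (Z : LaurentSeries Kb) (w : ℤ → Kb)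
    (hwA : ∀ k, w k ∈ A)
    (hw : ∀ m : ℕ, ∃ u : A, IsUnit u ∧ (∀ σ ∈ A.inertiaSubgroupIn ℚ, σ (u : Kb) = (u : Kb)) ∧
      w (-(m : ℤ)) = (u : Kb) * leadTw ζ i e m)
    (hZ : ∀ k : ℤ, Z.coeff ((n : ℤ) * k) = w k * ((X.coeff k : A) : Kb))
    (hZ0 : ∀ k : ℤ, ¬ (n : ℤ) ∣ k → Z.coeff k = 0) :
    ∃ Y : LaurentSeries A, incl A Y = Z ∧ TableEntry q A ζ i e X Y := by
  have hmem : ∀ k, Z.coeff k ∈ A := by
    intro k
    by_cases hd : (n : ℤ) ∣ k
    · obtain ⟨k', rfl⟩ := hd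
      rw [hZ]
      exact A.mul_mem _ _ (hwA k') (X.coeff k').2
    · rw [hZ0 k hd]
      exact A.zero_mem
  have hn0 : (0 : ℤ) < (n : ℤ) := by exact_mod_cast hn
  refine ⟨Fermat.Agent.P2.helper93.liftA Z hmem,
    Fermat.Agent.P2.helper93.coeffMap_subtype_liftA Z hmem, ?_⟩
  intro m hX
  rw [hs]
  have hidx : -((n * m : ℕ) : ℤ) = (n : ℤ) * (-(m : ℤ)) := by
    push_cast
    ring
  have hco : ∀ k, (((Fermat.Agent.P2.helper93.liftA Z hmem).coeff k : A) : Kb) = Z.coeff k :=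
    fun k => rfl
  refine ⟨fun k hk => ?_, ?_⟩
  · apply Subtype.ext
    rw [hco]
    by_cases hd : (n : ℤ) ∣ k
    · obtain ⟨k', rfl⟩ := hd
      rw [hZ, hX k' ?_]
      · simp
      · rw [hidx] at hk
        exact lt_of_mul_lt_mul_left hk hn0.le
    · rw [hZ0 k hd]
      rfl
  · obtain ⟨u, hu, huI, hu'⟩ := hw m
    refine ⟨u, hu, huI, ?_⟩
    rw [hco, hidx, hZ, hu']

/-- integral powers of an element of valuation one -/
theorem zpow_mem_of_valuation_eq_one {ε : Kb} (hε : A.valuation ε = 1) (k : ℤ) : ε ^ k ∈ A :=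
  (A.valuation_le_one_iff _).mp (by rw [map_zpow₀, hε, one_zpow])

/-- shape `(rot_ε X)(t^n)` -/
theorem exists_tableEntry_qExpand_twistL (ζ : Kb) {i e : Fin 3} (n : ℕ) [NeZero n]
    (hs : sc3 q i e = n) (hie : ¬ (i = 2 ∧ e = 2))
    {ε : Kb} (hε : A.valuation ε = 1) (hεI : ∀ σ ∈ A.inertiaSubgroupIn ℚ, σ ε = ε)
    (X : LaurentSeries A) :
    ∃ Y : LaurentSeries A,
      incl A Y = qExpand Kb n (Fermat.Agent.P2.helper93.twistL ε (incl A X)) ∧
      TableEntry q A ζ i e X Y := by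
  refine exists_tableEntry_of_coeff ζ n (Nat.pos_of_ne_zero (NeZero.ne n)) hs X _
    (fun k => ε ^ k) (zpow_mem_of_valuation_eq_one hε) (fun m => ?_) (fun k => ?_)
    (fun k hk => qExpand_coeff_of_not_dvd n _ hk)
  · obtain ⟨u, hu, huI, hu'⟩ := exists_unit_zpow hε hεI (-(m : ℤ))
    exact ⟨u, hu, huI, by rw [hu', leadTw_of_ne ζ hie, mul_one]⟩
  · rw [qExpand_coeff_mul, Fermat.Agent.P2.helper93.twistL_coeff, coeffMap_coeff]
    rfl

/-- shape `rot_ε (X(t^n))` -/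
theorem exists_tableEntry_twistL_qExpand (ζ : Kb) {i e : Fin 3} (n : ℕ) [NeZero n]
    (hs : sc3 q i e = n) (hie : ¬ (i = 2 ∧ e = 2))
    {ε : Kb} (hε : A.valuation ε = 1) (hεI : ∀ σ ∈ A.inertiaSubgroupIn ℚ, σ ε = ε)
    (X : LaurentSeries A) :
    ∃ Y : LaurentSeries A,
      incl A Y = Fermat.Agent.P2.helper93.twistL ε (qExpand Kb n (incl A X)) ∧
      TableEntry q A ζ i e X Y := by
  refine exists_tableEntry_of_coeff ζ n (Nat.pos_of_ne_zero (NeZero.ne n)) hs X _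
    (fun k => ε ^ ((n : ℤ) * k)) (fun k => zpow_mem_of_valuation_eq_one hε _) (fun m => ?_)
    (fun k => ?_) (fun k hk => ?_)
  · obtain ⟨u, hu, huI, hu'⟩ := exists_unit_zpow hε hεI ((n : ℤ) * (-(m : ℤ)))
    exact ⟨u, hu, huI, by rw [hu', leadTw_of_ne ζ hie, mul_one]⟩
  · rw [Fermat.Agent.P2.helper93.twistL_coeff, qExpand_coeff_mul, coeffMap_coeff]
    rfl
  · rw [Fermat.Agent.P2.helper93.twistL_coeff, qExpand_coeff_of_not_dvd n _ hk, mul_zero]

/-- shape `rot_{ε ζ} X` (the middle type, `e = 2`) -/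
theorem exists_tableEntry_twistL_zeta {ζ : Kb} (hζ : A.valuation ζ = 1)
    {ε : Kb} (hε : A.valuation ε = 1) (hεI : ∀ σ ∈ A.inertiaSubgroupIn ℚ, σ ε = ε)
    (X : LaurentSeries A) :
    ∃ Y : LaurentSeries A,
      incl A Y = Fermat.Agent.P2.helper93.twistL (ε * ζ) (incl A X) ∧
      TableEntry q A ζ 2 2 X Y := by
  have hεζ : A.valuation (ε * ζ) = 1 := by rw [map_mul, hε, hζ, one_mul]
  refine exists_tableEntry_of_coeff ζ 1 Nat.one_pos (sc3_22 q) X _
    (fun k => (ε * ζ) ^ k) (zpow_mem_of_valuation_eq_one hεζ) (fun m => ?_)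
    (fun k => ?_) (fun k hk => absurd (by simp) hk)
  · obtain ⟨u, hu, huI, hu'⟩ := exists_unit_zpow hε hεI (-(m : ℤ))
    exact ⟨u, hu, huI, by rw [hu', leadTw_22, mul_zpow]⟩
  · rw [Nat.cast_one, one_mul, Fermat.Agent.P2.helper93.twistL_coeff, coeffMap_coeff]
    rfl

/-- `helper94.rot` is `twistL` -/
theorem rot_eq_twistL (u : Kbˣ) (Z : LaurentSeries Kb) :
    Fermat.Agent.P2.helper94.rot u Z = Fermat.Agent.P2.helper93.twistL (u : Kb) Z := by
  ext k
  rw [Fermat.Agent.P2.helper94.rot_coeff, Fermat.Agent.P2.helper93.twistL_coeff,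
    Units.val_zpow_eq_zpow_val]

/-- shape `(rot u X)(t^n)` with `helper94.rot` -/
theorem exists_tableEntry_qExpand_rot (ζ : Kb) {i e : Fin 3} (n : ℕ) [NeZero n]
    (hs : sc3 q i e = n) (hie : ¬ (i = 2 ∧ e = 2))
    (u : Kbˣ) (hu : A.valuation (u : Kb) = 1)
    (huI : ∀ σ ∈ A.inertiaSubgroupIn ℚ, σ (u : Kb) = (u : Kb)) (X : LaurentSeries A) :
    ∃ Y : LaurentSeries A,
      incl A Y = qExpand Kb n (Fermat.Agent.P2.helper94.rot u (incl A X)) ∧
      TableEntry q A ζ i e X Y := by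
  rw [rot_eq_twistL]
  exact exists_tableEntry_qExpand_twistL ζ n hs hie hu huI X

/-- shape `rot (u ζ) X` with `helper94.rot` (the middle type, `e = 2`) -/
theorem exists_tableEntry_rot_zeta {ζ : Kb} (hζ : A.valuation ζ = 1)
    (v : Kbˣ) {ε : Kb} (hv : (v : Kb) = ε * ζ) (hε : A.valuation ε = 1)
    (hεI : ∀ σ ∈ A.inertiaSubgroupIn ℚ, σ ε = ε) (X : LaurentSeries A) :
    ∃ Y : LaurentSeries A,
      incl A Y = Fermat.Agent.P2.helper94.rot v (incl A X) ∧ TableEntry q A ζ 2 2 X Y := by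
  rw [rot_eq_twistL, hv]
  exact exists_tableEntry_twistL_zeta hζ hε hεI X

end Shapes

end Fermat.Agent.T3.helper74

end
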