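/-
T3 (S36), [CUSP-Q] (helper87), part 5: **the twisted table** `TableTw` for the family `ex3c`.

* `sigmaFF_permT_zpow` : rotation along a `T`-orbit, integer powers;
* `wd_cosetOf_of_isTy` : the width at level `N q q` of a matrix of type `i` is `tw i` times the
                         width at level `N` of its Hermite partner (`tw = (1, q², 1)`);
* `dloc_mul_sc3`       : the numerical identity `DQ · sc3 = pM · d'`;
* `coeff_table`        : the coefficients of `(rot V (X(t^d')))(T^m)`;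
* `tableTw_ex3c`       : `helper74.TableTw A (ENc N) (ex3c N q ζ) ζ (kap N q ζ)`.
-/
import Mathlib
import Fermat.Agent.T3.helper87_CuspQFam
import Fermat.Agent.T3.helper74_Sat3TwShapes
import Fermat.Agent.T3.helper84_K0Basic

set_option autoImplicit false
set_option synthInstance.maxHeartbeats 400000
set_option linter.unusedSectionVars false
set_option linter.unusedVariables false
set_option linter.style.haveILetI false
set_option linter.style.longLine false

noncomputable section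

open HahnSeries ModularCurve
open Fermat.Agent.S18.helper19
open Fermat.Agent.S28 (IX rep)
open Fermat.Agent.P2.helper28
open Fermat.Agent.P2.helper29 (incl)
open Fermat.Agent.T3.helper23 (sigmaFF sigmaFF_apply)
open Fermat.Agent.T3.helper90 (cosetOf cosetOf_rep uK iotaK_uK)
open Fermat.Agent.T3.helper74 (dgF sc3)
open Fermat.Agent.S24.helper37 (mem_Gamma0_iff_dvd det_eq_one')
open scoped MatrixGroups
open CongruenceSubgroup

namespace Fermat.Agent.T3.helper87

/-! ### Rotation along an orbit, integer powers -/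

section Zpow

variable (M : ℕ) [NeZero M]

theorem permT_zpow_emod (z : ℤ) : permT M ^ z = permT M ^ (z % (M : ℤ)).toNat := by
  have hM : (0 : ℤ) < (M : ℤ) := by exact_mod_cast Nat.pos_of_ne_zero (NeZero.ne M)
  have h1 : z = (M : ℤ) * (z / M) + z % M := (Int.mul_ediv_add_emod z M).symm
  have h2 : ((z % (M : ℤ)).toNat : ℤ) = z % M := Int.toNat_of_nonneg (Int.emod_nonneg z hM.ne')
  conv_lhs => rw [h1]
  rw [zpow_add, zpow_mul, zpow_natCast, permT_pow_level, one_zpow, one_mul, ← h2, zpow_natCast,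
    h2]

theorem zK_zpow_emod (z : ℤ) : zK M ^ z = zK M ^ (z % (M : ℤ)).toNat := by
  have hM : (0 : ℤ) < (M : ℤ) := by exact_mod_cast Nat.pos_of_ne_zero (NeZero.ne M)
  have h1 : z = (M : ℤ) * (z / M) + z % M := (Int.mul_ediv_add_emod z M).symm
  have h2 : ((z % (M : ℤ)).toNat : ℤ) = z % M := Int.toNat_of_nonneg (Int.emod_nonneg z hM.ne')
  conv_lhs => rw [h1]
  rw [zpow_add, zpow_mul, zpow_natCast, zK_pow, one_zpow, one_mul, ← h2, zpow_natCast, h2]

/-- the expansions at the cosets of one `T`-orbit differ by rotations -/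
theorem sigmaFF_permT_zpow (z : ℤ) (I : IX M) (y : FF M) :
    sigmaFF M ((permT M ^ z) I) y =
      Fermat.Agent.P2.helper94.rot (zK M ^ z) (sigmaFF M I y) := by
  rw [permT_zpow_emod, zK_zpow_emod, sigmaFF_permT_pow]

end Zpow

/-! ### A coefficient computation -/

section Coeff

/-- the coefficients of `(rot V (X(t^d)))(T^m)` in the parameter `T^D`, `D n = m d`. -/
theorem coeff_table_mul (V : Kbˣ) (m d D n : ℕ) [NeZero m] [NeZero d] (hD : 0 < D)
    (h : D * n = m * d) (X : LaurentSeries Kb) (k : ℤ) :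
    (qExpand Kb m (Fermat.Agent.P2.helper94.rot V (qExpand Kb d X))).coeff
        ((D : ℤ) * ((n : ℤ) * k)) = ((V ^ ((d : ℤ) * k) : Kbˣ) : Kb) * X.coeff k := by
  have e : (D : ℤ) * ((n : ℤ) * k) = (m : ℤ) * ((d : ℤ) * k) := by
    have : ((D * n : ℕ) : ℤ) = ((m * d : ℕ) : ℤ) := by rw [h]
    push_cast at this
    linear_combination k * this
  rw [e, qExpand_coeff_mul, Fermat.Agent.P2.helper94.rot_coeff, qExpand_coeff_mul]

theorem coeff_table_of_not_dvd (V : Kbˣ) (m d D n : ℕ) [NeZero m] [NeZero d] (hD : 0 < D)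
    (h : D * n = m * d) (X : LaurentSeries Kb) (j : ℤ) (hj : ¬ (n : ℤ) ∣ j) :
    (qExpand Kb m (Fermat.Agent.P2.helper94.rot V (qExpand Kb d X))).coeff ((D : ℤ) * j) = 0 := by
  have hD0 : (D : ℤ) ≠ 0 := by exact_mod_cast hD.ne'
  by_cases h1 : (m : ℤ) ∣ (D : ℤ) * j
  · obtain ⟨j', hj'⟩ := h1
    rw [hj', qExpand_coeff_mul, Fermat.Agent.P2.helper94.rot_coeff]
    by_cases h2 : (d : ℤ) ∣ j'
    · exfalso
      obtain ⟨k, rfl⟩ := h2
      apply hj
      refine ⟨k, ?_⟩
      have : ((D * n : ℕ) : ℤ) = ((m * d : ℕ) : ℤ) := by rw [h]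
      push_cast at this
      have h3 : (D : ℤ) * j = (D : ℤ) * ((n : ℤ) * k) := by
        rw [hj']
        linear_combination (-k) * this
      exact mul_left_cancel₀ hD0 h3
    · rw [qExpand_coeff_of_not_dvd d _ h2, mul_zero]
  · exact qExpand_coeff_of_not_dvd m _ h1

end Coeff

/-! ### Widths -/

section Width

variable {N q : ℕ} [NeZero N] [NeZero q]

/-- the ratio of the widths at the levels `N q q` and `N` : `1`, `q²`, `1` -/
def tw (q : ℕ) (i : Fin 3) : ℕ := if i = 1 then q * q else 1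

theorem tq_mul_tw (i : Fin 3) : tq q i * tw q i = q * q := by
  unfold tq tw
  split_ifs <;> ring

theorem tw_pos (i : Fin 3) : 0 < tw q i := by
  have hq0 : 0 < q := Nat.pos_of_ne_zero (NeZero.ne q)
  unfold tw
  split_ifs
  · exact Nat.mul_pos hq0 hq0
  · exact Nat.one_pos

theorem isCoprime_q_N (hq : q.Prime) (hqN : ¬ q ∣ N) : IsCoprime (q : ℤ) (N : ℤ) :=
  Nat.isCoprime_iff_coprime.mpr ((Nat.Prime.coprime_iff_not_dvd hq).mpr hqN)

theorem isCoprime_N_pA (hq : q.Prime) (hqN : ¬ q ∣ N) (i e : Fin 3) :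
    IsCoprime (N : ℤ) ((pA q i e : ℕ) : ℤ) := by
  have h : (pA q i e : ℕ) ∣ q ^ (e : ℕ) := ⟨pD q i e, (pA_mul_pD i e).symm⟩
  have h1 : IsCoprime (N : ℤ) (((q ^ (e : ℕ) : ℕ) : ℕ) : ℤ) := by
    push_cast
    exact (isCoprime_q_N hq hqN).symm.pow_right
  exact h1.of_isCoprime_of_dvd_right (Int.natCast_dvd_natCast.mpr h)

theorem isCoprime_N_pD (hq : q.Prime) (hqN : ¬ q ∣ N) (i e : Fin 3) :
    IsCoprime (N : ℤ) ((pD q i e : ℕ) : ℤ) := by
  have h : (pD q i e : ℕ) ∣ q ^ (e : ℕ) := ⟨pA q i e, by rw [mul_comm]; exact (pA_mul_pD i e).symm⟩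
  have h1 : IsCoprime (N : ℤ) (((q ^ (e : ℕ) : ℕ) : ℕ) : ℤ) := by
    push_cast
    exact (isCoprime_q_N hq hqN).symm.pow_right
  exact h1.of_isCoprime_of_dvd_right (Int.natCast_dvd_natCast.mpr h)

theorem dvd_lower_of_isTy (hq : q.Prime) (hqN : ¬ q ∣ N) {k : ℤ} (hk : ¬ (q : ℤ) ∣ k)
    {γ : SL(2, ℤ)} {i : Fin 3} (hi : i ≠ 1) (h : IsTy N q i k γ) : (q : ℤ) ∣ γ 1 0 := by
  rcases Fermat.Agent.T3.helper74.fin3_cases i with rfl | rfl | rfl
  · exact (dvd_mul_right _ _).trans ((isTy_zero_iff N q k γ).mp h)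
  · exact absurd rfl hi
  · exact dvd_of_isTy_two hq hqN hk h

theorem not_dvd_lower_of_isTy_one (hq : q.Prime) {k : ℤ} {γ : SL(2, ℤ)}
    (h : IsTy N q 1 k γ) : ¬ (q : ℤ) ∣ γ 1 0 := by
  intro h0
  have hqp : Prime (q : ℤ) := Nat.prime_iff_prime_int.mp hq
  have h1 : (q : ℤ) ∣ γ 1 1 := (dvd_mul_right _ _).trans ((isTy_one_iff N q k γ).mp h)
  have hdet := det_eq_one' γ
  have h2 : (q : ℤ) ∣ γ 0 0 * γ 1 1 - γ 0 1 * γ 1 0 :=
    dvd_sub (dvd_mul_of_dvd_right h1 _) (dvd_mul_of_dvd_right h0 _)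
  rw [hdet] at h2
  exact hqp.not_isUnit (isUnit_of_dvd_one h2)

/-- divisibility by `N q q` is divisibility by `N` and by `q q` -/
theorem Nqq_dvd_iff (hq : q.Prime) (hqN : ¬ q ∣ N) (z : ℤ) :
    (((N * q * q : ℕ) : ℕ) : ℤ) ∣ z ↔ (N : ℤ) ∣ z ∧ ((q : ℤ) * q) ∣ z := by
  have e : (((N * q * q : ℕ) : ℕ) : ℤ) = (N : ℤ) * ((q : ℤ) * q) := by
    push_cast
    ring
  rw [e]
  constructor
  · intro h
    exact ⟨(dvd_mul_right _ _).trans h, (dvd_mul_left _ _).trans h⟩
  · rintro ⟨h1, h2⟩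
    have hc : IsCoprime (N : ℤ) ((q : ℤ) * q) :=
      IsCoprime.mul_right (isCoprime_q_N hq hqN).symm (isCoprime_q_N hq hqN).symm
    exact hc.mul_dvd h1 h2

/-- **the widths**: the width at level `N q q` of a matrix of type `i` is `tw i` times the width
at level `N` of its Hermite partner. -/
theorem wd_cosetOf_of_isTy (hq : q.Prime) (hqN : ¬ q ∣ N) {k : ℤ} (hk : ¬ (q : ℤ) ∣ k)
    {γ : SL(2, ℤ)} {i : Fin 3} (h : IsTy N q i k γ) (e : Fin 3) :
    wd (N * q * q) (cosetOf (N * q * q) γ)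
      = tw q i * wd N (cosetOf N (partner N q γ i e k)) := by
  have hqp : Prime (q : ℤ) := Nat.prime_iff_prime_int.mp hq
  have hOK := partOK_of_isTy hq hqN hk h e
  have hδ : partner N q γ i e k 1 0 = pC q γ i e := partner_one_zero hOK
  have hγ : γ 1 0 = pC q γ i e * (pA q i e : ℤ) := hOK.1
  -- divisibility by `N`
  have F1 : ∀ n : ℕ, (N : ℤ) ∣ (n : ℤ) * (γ 1 0) ^ 2 ↔
      wd N (cosetOf N (partner N q γ i e k)) ∣ n := by
    intro n
    rw [wd_dvd_iff, hδ, hγ]
    have hc : IsCoprime (N : ℤ) (((pA q i e : ℕ) : ℤ) ^ 2) := (isCoprime_N_pA hq hqN i e).pow_right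
    constructor
    · intro h1
      have e1 : (n : ℤ) * (pC q γ i e * (pA q i e : ℤ)) ^ 2
          = ((pA q i e : ℕ) : ℤ) ^ 2 * ((n : ℤ) * pC q γ i e ^ 2) := by ring
      rw [e1] at h1
      exact hc.dvd_of_dvd_mul_left h1
    · intro h1
      have e1 : (n : ℤ) * (pC q γ i e * (pA q i e : ℤ)) ^ 2
          = ((n : ℤ) * pC q γ i e ^ 2) * ((pA q i e : ℕ) : ℤ) ^ 2 := by ring
      rw [e1]
      exact dvd_mul_of_dvd_left h1 _
  have key : ∀ n : ℕ, wd (N * q * q) (cosetOf (N * q * q) γ) ∣ n ↔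
      tw q i * wd N (cosetOf N (partner N q γ i e k)) ∣ n := by
    intro n
    rw [wd_dvd_iff, Nqq_dvd_iff hq hqN, F1]
    by_cases hi : i = 1
    · subst hi
      have hnd := not_dvd_lower_of_isTy_one hq h
      have hc : IsCoprime ((q : ℤ) * q) ((γ 1 0) ^ 2) := by
        have h1 : IsCoprime (q : ℤ) (γ 1 0) := (Prime.coprime_iff_not_dvd hqp).mpr hnd
        exact IsCoprime.mul_left h1.pow_right h1.pow_right
      have F4 : ((q : ℤ) * q) ∣ (n : ℤ) * (γ 1 0) ^ 2 ↔ q * q ∣ n := by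
        constructor
        · intro h1
          rw [mul_comm (n : ℤ)] at h1
          have := hc.dvd_of_dvd_mul_left h1
          exact_mod_cast this
        · intro h1
          have : ((q : ℤ) * q) ∣ (n : ℤ) := by exact_mod_cast h1
          exact dvd_mul_of_dvd_left this _
      rw [F4]
      have htw : tw q 1 = q * q := rfl
      rw [htw]
      have hcop : Nat.Coprime (q * q) (wd N (cosetOf N (partner N q γ 1 e k))) := by
        have h1 : Nat.Coprime q N := (Nat.Prime.coprime_iff_not_dvd hq).mpr hqN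
        exact Nat.Coprime.coprime_dvd_right (wd_dvd N _) (Nat.Coprime.mul_left h1 h1)
      constructor
      · rintro ⟨h1, h2⟩
        exact hcop.mul_dvd_of_dvd_of_dvd h2 h1
      · intro h1
        exact ⟨(dvd_mul_left _ _).trans h1, (dvd_mul_right _ _).trans h1⟩
    · have hd := dvd_lower_of_isTy hq hqN hk hi h
      have F3 : ((q : ℤ) * q) ∣ (n : ℤ) * (γ 1 0) ^ 2 := by
        rw [sq]
        exact dvd_mul_of_dvd_right (mul_dvd_mul hd hd) _
      have htw : tw q i = 1 := by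
        unfold tw
        rw [if_neg hi]
      rw [htw, one_mul]
      exact ⟨fun h1 => h1.1, fun h1 => ⟨h1, F3⟩⟩
  exact Nat.dvd_antisymm ((key _).mpr dvd_rfl) ((key _).mp dvd_rfl)

/-- **the local parameters**: `dloc` at level `N q q` is `tq i` times `dloc` at level `N`. -/
theorem dloc_cosetOf_of_isTy (hq : q.Prime) (hqN : ¬ q ∣ N) {k : ℤ} (hk : ¬ (q : ℤ) ∣ k)
    {γ : SL(2, ℤ)} {i : Fin 3} (h : IsTy N q i k γ) (e : Fin 3) :
    dloc (N * q * q) (cosetOf (N * q * q) γ)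
      = tq q i * dloc N (cosetOf N (partner N q γ i e k)) := by
  have h1 := dloc_mul_wd (N * q * q) (cosetOf (N * q * q) γ)
  have h2 := dloc_mul_wd N (cosetOf N (partner N q γ i e k))
  rw [wd_cosetOf_of_isTy hq hqN hk h e] at h1
  have hw := wd_pos N (cosetOf N (partner N q γ i e k))
  have htw := tw_pos (q := q) i
  have h3 : dloc (N * q * q) (cosetOf (N * q * q) γ) *
      (tw q i * wd N (cosetOf N (partner N q γ i e k)))
      = (tq q i * dloc N (cosetOf N (partner N q γ i e k))) *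
        (tw q i * wd N (cosetOf N (partner N q γ i e k))) := by
    rw [h1]
    calc N * q * q = (dloc N (cosetOf N (partner N q γ i e k)) *
          wd N (cosetOf N (partner N q γ i e k))) * (q * q) := by rw [h2]; ring
      _ = (dloc N (cosetOf N (partner N q γ i e k)) *
          wd N (cosetOf N (partner N q γ i e k))) * (tq q i * tw q i) := by rw [tq_mul_tw]
      _ = _ := by ring
  exact Nat.eq_of_mul_eq_mul_right (Nat.mul_pos htw hw) h3

/-- the numerical identity of the table -/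
theorem dloc_mul_sc3 (hq : q.Prime) (hqN : ¬ q ∣ N) {k : ℤ} (hk : ¬ (q : ℤ) ∣ k)
    {γ : SL(2, ℤ)} {i : Fin 3} (h : IsTy N q i k γ) (e : Fin 3) :
    dloc (N * q * q) (cosetOf (N * q * q) γ) * sc3 q i e
      = pM q i e * dloc N (cosetOf N (partner N q γ i e k)) := by
  rw [dloc_cosetOf_of_isTy hq hqN hk h e]
  unfold pM
  ring

end Width

/-! ### The twists -/

section Twist

variable {N q : ℕ} [NeZero N] [NeZero q]

/-- the twist of the raw table is trivial away from `(i, e) = (2, 2)` -/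
theorem uK_pB_of_ne {i e : Fin 3} (h : ¬ (i = 2 ∧ e = 2)) (k : ℤ) :
    uK (pD q i e * N) (pDN_pos i e) (pB N i e k) = 1 := by
  symm
  apply Fermat.Agent.T3.helper90.uK_unique
  unfold pB
  rw [if_neg h]
  unfold Fermat.Agent.S23.helper74.xi
  simp

/-- the twist of the raw table at `(i, e) = (2, 2)` is the middle twist -/
theorem uK_pB_22 (k : ℤ) :
    uK (pD q 2 2 * N) (pDN_pos 2 2) (pB N 2 2 k) = uMid N q k := by
  symm
  apply Fermat.Agent.T3.helper90.uK_unique
  rw [iotaK_uMid]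
  unfold Fermat.Agent.S23.helper74.xi
  have hD : pD q 2 2 = q := rfl
  have hB : pB N 2 2 k = (N : ℤ) * k := rfl
  rw [hD, hB]
  congr 1
  have hN0 : (N : ℂ) ≠ 0 := by exact_mod_cast NeZero.ne N
  have hq0 : (q : ℂ) ≠ 0 := by exact_mod_cast NeZero.ne q
  push_cast
  field_simp

/-- roots of unity have valuation one -/
theorem valuation_unit_of_pow (A : ValuationSubring Kb) (V : Kbˣ) {n : ℕ} (hn : n ≠ 0)
    (h : V ^ n = 1) : A.valuation (V : Kb) = 1 :=
  Fermat.Agent.T3.helper84.k0_valuation_eq_one_of_pow A hn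
    (by rw [← Units.val_pow_eq_pow_val, h, Units.val_one, map_one])

/-- roots of unity of order prime to `q` are inertia-fixed -/
theorem fix_unit_of_pow (hq : q.Prime) (A : ValuationSubring Kb) (hA : A.LiesOverPrime q)
    {n : ℕ} (hn : ¬ q ∣ n) (V : Kbˣ) (h : V ^ n = 1) :
    ∀ σ ∈ A.inertiaSubgroupIn ℚ, σ (V : Kb) = (V : Kb) :=
  Fermat.Agent.T3.helper84.k0_root hq A hA hn (u := 1) (w := (V : Kb)) (map_one _)
    (fun σ _ => map_one σ) (by rw [← Units.val_pow_eq_pow_val, h, Units.val_one])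

theorem zK_zpow_pow (z : ℤ) : (zK N ^ z) ^ N = 1 := by
  rw [← zpow_natCast, ← zpow_mul, mul_comm, zpow_mul, zpow_natCast, zK_pow, one_zpow]

/-- the Hermite partner of a middle matrix along `dg2` lies in the same coset of level `N` -/
theorem cosetOf_partner_22 {γ : SL(2, ℤ)} {k : ℤ} (h : PartOK N q γ 2 2 k) :
    cosetOf N (partner N q γ 2 2 k) = cosetOf N γ := by
  rw [cosetOf_eq_iff, partner_one_zero h, partner_one_one h]
  have h1 := h.1
  have h2 := h.2
  have hA : ((pA q 2 2 : ℕ) : ℤ) = q := rfl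
  have hD : ((pD q 2 2 : ℕ) : ℤ) = q := rfl
  have hB : pB N 2 2 k = (N : ℤ) * k := rfl
  rw [hA] at h1
  rw [hD, hB] at h2
  rw [h1, h2]
  refine ⟨-(pC q γ 2 2 * pC q γ 2 2 * k), ?_⟩
  ring

end Twist

/-! ### The table -/

section Table

variable {N q : ℕ} [NeZero N] [NeZero q]

/-- **the table entry of a matrix of type `i`** : the expansion of `x(q^e τ)` at the coset of
`γ` (level `N q q`, local parameter) is a table entry of the expansion of `x` at the cusp `c'` of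
the Hermite partner of `γ` (level `N`, local parameter), provided that for `(i, e) = (2, 2)` the
middle twist is `ζ` in the local parameter. -/
theorem exists_tableEntry_exLoc (hq : q.Prime) (hqN : ¬ q ∣ N) (A : ValuationSubring Kb)
    (hA : A.LiesOverPrime q) (ζ : Kb) {k : ℤ} (hk : ¬ (q : ℤ) ∣ k) {γ : SL(2, ℤ)} {i : Fin 3}
    (hTy : IsTy N q i k γ) (e : Fin 3) (c' : Cusp N)
    (hc' : cuspOf N (cosetOf N (partner N q γ i e k)) = c')
    (hmid : i = 2 → e = 2 → ((uMid N q k : Kbˣ) : Kb) ^ (dloc N (crep N c')) = ζ)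
    (x : FF N) (X : LaurentSeries A) (hX : incl A X = ENc N c' x) :
    ∃ Y : LaurentSeries A,
      incl A Y = exLoc (N * q * q) (cosetOf (N * q * q) γ) (dgF N q e x) ∧
      Fermat.Agent.T3.helper74.TableEntry q A ζ i e X Y := by
  have h1 : cuspOf N (cosetOf N (partner N q γ i e k)) = cuspOf N (crep N c') := by
    rw [cuspOf_crep, hc']
  obtain ⟨z, hz⟩ := (cuspOf_eq_iff_zpow N _ _).mp h1
  have hd : dloc N (cosetOf N (partner N q γ i e k)) = dloc N (crep N c') :=
    dloc_eq_of_cuspOf_eq N h1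
  have hnum := dloc_mul_sc3 hq hqN hk hTy e
  rw [hd] at hnum
  have hraw : sigmaFF (N * q * q) (cosetOf (N * q * q) γ) (dgF N q e x) =
      qExpand Kb (pM q i e) (Fermat.Agent.P2.helper94.rot
        (uK (pD q i e * N) (pDN_pos i e) (pB N i e k) * zK N ^ z)
        (qExpand Kb (dloc N (crep N c')) (incl A X))) := by
    rw [raw_table_of_isTy hq hqN hk hTy e x, ← hz, sigmaFF_permT_zpow,
      Fermat.Agent.P2.helper94.rot_rot, hX, qExpand_ENc]
  have hn : 0 < sc3 q i e := by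
    rcases Nat.eq_zero_or_pos (sc3 q i e) with h0 | h0
    · exfalso
      have := pM_pos (q := q) i e
      unfold pM at this
      rw [h0, mul_zero] at this
      exact lt_irrefl _ this
    · exact h0
  have hD : 0 < dloc (N * q * q) (cosetOf (N * q * q) γ) := dloc_pos _ _
  -- the root of unity
  have hV1 : (uK (pD q i e * N) (pDN_pos i e) (pB N i e k) * zK N ^ z) ^ (pD q i e * N) = 1 := by
    rw [mul_pow, Fermat.Agent.T3.helper90.uK_pow, one_mul, mul_comm, pow_mul, zK_zpow_pow,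
      one_pow]
  have hVv : A.valuation
      (((uK (pD q i e * N) (pDN_pos i e) (pB N i e k) * zK N ^ z : Kbˣ) : Kbˣ) : Kb) = 1 :=
    valuation_unit_of_pow A _ (pDN_pos i e).ne' hV1
  -- the inertia-fixed part
  have hεv : A.valuation ((((zK N ^ z) ^ (dloc N (crep N c')) : Kbˣ) : Kbˣ) : Kb) = 1 :=
    valuation_unit_of_pow A _ (NeZero.ne N) (by rw [← pow_mul, mul_comm, pow_mul, zK_zpow_pow,
      one_pow])
  have hεI : ∀ σ ∈ A.inertiaSubgroupIn ℚ,
      σ ((((zK N ^ z) ^ (dloc N (crep N c')) : Kbˣ) : Kbˣ) : Kb)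
        = ((((zK N ^ z) ^ (dloc N (crep N c')) : Kbˣ) : Kbˣ) : Kb) :=
    fix_unit_of_pow hq A hA hqN _ (by rw [← pow_mul, mul_comm, pow_mul, zK_zpow_pow, one_pow])
  refine Fermat.Agent.T3.helper74.exists_tableEntry_of_coeff ζ (sc3 q i e) hn rfl X
    (exLoc (N * q * q) (cosetOf (N * q * q) γ) (dgF N q e x))
    (fun j => (((uK (pD q i e * N) (pDN_pos i e) (pB N i e k) * zK N ^ z) ^
      ((dloc N (crep N c') : ℤ) * j) : Kbˣ) : Kb)) ?_ ?_ ?_ ?_
  · intro j
    show (((uK (pD q i e * N) (pDN_pos i e) (pB N i e k) * zK N ^ z) ^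
      ((dloc N (crep N c') : ℤ) * j) : Kbˣ) : Kb) ∈ A
    rw [Units.val_zpow_eq_zpow_val]
    exact Fermat.Agent.T3.helper74.zpow_mem_of_valuation_eq_one hVv _
  · intro m
    show ∃ u : A, IsUnit u ∧ (∀ σ ∈ A.inertiaSubgroupIn ℚ, σ (u : Kb) = (u : Kb)) ∧
      (((uK (pD q i e * N) (pDN_pos i e) (pB N i e k) * zK N ^ z) ^
        ((dloc N (crep N c') : ℤ) * (-(m : ℤ))) : Kbˣ) : Kb)
        = (u : Kb) * Fermat.Agent.T3.helper74.leadTw ζ i e m
    obtain ⟨u', hu', hu'I, hu'e⟩ :=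
      Fermat.Agent.T3.helper74.exists_unit_zpow hεv hεI (-(m : ℤ))
    refine ⟨u', hu', hu'I, ?_⟩
    rw [hu'e]
    by_cases hie : i = 2 ∧ e = 2
    · obtain ⟨rfl, rfl⟩ := hie
      rw [uK_pB_22, Fermat.Agent.T3.helper74.leadTw_22, ← hmid rfl rfl, zpow_mul, zpow_natCast,
        mul_pow, Units.val_zpow_eq_zpow_val, Units.val_mul, Units.val_pow_eq_pow_val,
        mul_zpow, mul_comm]
    · rw [uK_pB_of_ne hie, one_mul, Fermat.Agent.T3.helper74.leadTw_of_ne ζ hie, mul_one,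
        zpow_mul, zpow_natCast, Units.val_zpow_eq_zpow_val]
  · intro j
    rw [exLoc_coeff, hraw]
    exact coeff_table_mul _ (pM q i e) (dloc N (crep N c'))
      (dloc (N * q * q) (cosetOf (N * q * q) γ)) (sc3 q i e) hD hnum (incl A X) j
  · intro j hj
    rw [exLoc_coeff, hraw]
    exact coeff_table_of_not_dvd _ (pM q i e) (dloc N (crep N c'))
      (dloc (N * q * q) (cosetOf (N * q * q) γ)) (sc3 q i e) hD hnum (incl A X) j hj

/-- along `dg2` the middle index lies over its own cusp -/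
theorem kap_22 (hq : q.Prime) (hqN : ¬ q ∣ N) {ζ : Kb} (hζ : IsPrimitiveRoot ζ q)
    (c : Cusp N) : kap N q ζ 2 2 c = c := by
  obtain ⟨hk, -⟩ := kmid_spec hq hqN c hζ
  unfold kap
  rw [cosetOf_partner_22 (partOK_of_isTy hq hqN hk (isTy_gQ N q hq hqN c 2 hk) 2), cosetOf_gQ,
    cuspOf_crep]

/-- **THE TWISTED TABLE** of the family `ex3c`. -/
theorem tableTw_ex3c (hq : q.Prime) (hqN : ¬ q ∣ N) (A : ValuationSubring Kb)
    (hA : A.LiesOverPrime q) {ζ : Kb} (hζ : IsPrimitiveRoot ζ q) :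
    Fermat.Agent.T3.helper74.TableTw A (ENc N) (ex3c N q ζ) ζ (kap N q ζ) := by
  intro c i e x X hX
  obtain ⟨hk, hkζ⟩ := kmid_spec hq hqN c hζ
  refine exists_tableEntry_exLoc hq hqN A hA ζ hk (isTy_gQ N q hq hqN c i hk) e
    (kap N q ζ i e c) rfl ?_ x X hX
  rintro rfl rfl
  rw [kap_22 hq hqN hζ]
  exact hkζ

/-- the cusp of level `N` of a matrix is determined by the cusp of its Hermite partner -/
theorem cuspOf_eq_of_partner (hq : q.Prime) (hqN : ¬ q ∣ N) {γ₁ γ₂ : SL(2, ℤ)} {i e : Fin 3}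
    {k₁ k₂ : ℤ} (h₁ : PartOK N q γ₁ i e k₁) (h₂ : PartOK N q γ₂ i e k₂)
    (h : cuspOf N (cosetOf N (partner N q γ₁ i e k₁))
      = cuspOf N (cosetOf N (partner N q γ₂ i e k₂))) :
    cuspOf N (cosetOf N γ₁) = cuspOf N (cosetOf N γ₂) := by
  rw [cuspOf_cosetOf_eq_iff] at h ⊢
  obtain ⟨z, hz⟩ := h
  rw [partner_one_zero h₁, partner_one_one h₁, partner_one_zero h₂, partner_one_one h₂] at hz
  obtain ⟨s, t, hst⟩ := isCoprime_N_pA hq hqN i e
  obtain ⟨b₁, hb₁⟩ := dvd_pB (N := N) i e k₁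
  obtain ⟨b₂, hb₂⟩ := dvd_pB (N := N) i e k₂
  obtain ⟨w, hw⟩ := hz
  refine ⟨z * (pD q i e : ℤ) * t, ?_⟩
  have e1 := h₁.1
  have e2 := h₁.2
  have e3 := h₂.1
  have e4 := h₂.2
  rw [e1, e2, e3, e4, hb₁, hb₂]
  refine ⟨(pA q i e : ℤ) * pC q γ₁ i e * pC q γ₂ i e * (b₂ - b₁)
    + (pA q i e : ℤ) * (pD q i e : ℤ) * w
    - (pA q i e : ℤ) * (pD q i e : ℤ) * z * pC q γ₁ i e * pC q γ₂ i e * s, ?_⟩
  linear_combination ((pA q i e : ℤ) * (pD q i e : ℤ)) * hw
    + ((pA q i e : ℤ) * (pD q i e : ℤ) * z * pC q γ₁ i e * pC q γ₂ i e) * hst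

/-- **the maps `κ i e` are injective** (the hypothesis `hκ` of `helper74.satStatementE_of_table`) -/
theorem kap_injective (hq : q.Prime) (hqN : ¬ q ∣ N) {ζ : Kb} (hζ : IsPrimitiveRoot ζ q)
    (i e : Fin 3) : Function.Injective (kap N q ζ i e) := by
  intro c₁ c₂ h
  obtain ⟨hk₁, -⟩ := kmid_spec hq hqN c₁ hζ
  obtain ⟨hk₂, -⟩ := kmid_spec hq hqN c₂ hζ
  unfold kap at h
  have h' := cuspOf_eq_of_partner hq hqN
    (partOK_of_isTy hq hqN hk₁ (isTy_gQ N q hq hqN c₁ i hk₁) e)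
    (partOK_of_isTy hq hqN hk₂ (isTy_gQ N q hq hqN c₂ i hk₂) e) h
  rw [cosetOf_gQ, cosetOf_gQ, cuspOf_crep, cuspOf_crep] at h'
  exact h'

end Table

end Fermat.Agent.T3.helper87

end
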