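/-
T3 (S36), helper74: the instance layer of `helper74_Sat3TwInst` with RAW expansions at level `N`.

The expansions `EN c` at level `N` may be written in a parameter `T` with `T^(d c) = t_c`
(`t_c` the local parameter at the cusp `c`, e.g. `T = q^(1/N)` and `d c = N / width`): then the
pole orders at `c` in `T` are the multiples `d c * m`.  The expansions `E (c, i)` at level `N q q`
are in the local parameters.

* `TableEntryD … i e d X Y` : `Y_{sc3 m} = u · leadTw · X_{d m}`, and pole order `≤ d m` of `X`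
                              implies pole order `≤ sc3 q i e * m` of `Y`;
* `exists_tableEntryD_of_coeff` : the coefficient form (`Z_{n k} = w_k X_{d k}`);
* `TableTwD`, `XPoleAllD`, `peelSrcTw_of_tableD`, `satStatementE_of_tableD`, `root_of_tableD`.
-/
import Mathlib
import Fermat.Agent.T3.helper74_Sat3TwShapes

set_option autoImplicit false
set_option synthInstance.maxHeartbeats 400000
set_option maxHeartbeats 1000000
set_option linter.unusedSectionVars false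
set_option linter.style.haveILetI false

noncomputable section

open HahnSeries IntermediateField AlgebraicCurve ModularCurve
open Fermat.Agent.S18.helper19 Fermat.Agent.P2.helper29 Fermat.Agent.T2.helper36
open Fermat.Agent.T2.helper96

namespace Fermat.Agent.T3.helper74

section EntryD

variable (q : ℕ) (A : ValuationSubring Kb)

/-- table entries for a raw expansion `X` (pole orders in units of `d`). -/
def TableEntryD (ζ : Kb) (i e : Fin 3) (d : ℕ) (X Y : LaurentSeries A) : Prop :=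
  ∀ m : ℕ, (∀ k : ℤ, k < -((d * m : ℕ) : ℤ) → X.coeff k = 0) →
    (∀ k : ℤ, k < -((sc3 q i e * m : ℕ) : ℤ) → Y.coeff k = 0) ∧
    ∃ u : A, IsUnit u ∧ (∀ σ ∈ A.inertiaSubgroupIn ℚ, σ (u : Kb) = (u : Kb)) ∧
      (((Y.coeff (-((sc3 q i e * m : ℕ) : ℤ)) : A)) : Kb)
        = (u : Kb) * leadTw ζ i e m * (((X.coeff (-((d * m : ℕ) : ℤ)) : A)) : Kb)

variable {q A}

theorem tableEntryD_one {ζ : Kb} {i e : Fin 3} {X Y : LaurentSeries A}
    (h : TableEntry q A ζ i e X Y) : TableEntryD q A ζ i e 1 X Y := by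
  intro m hX
  simp only [one_mul] at hX ⊢
  exact h m hX

/-- **raw table entries in coefficient form**: `Z_{n k} = w_k X_{d k}`, `Z_k = 0` for `n ∤ k`. -/
theorem exists_tableEntryD_of_coeff (ζ : Kb) {i e : Fin 3} (n : ℕ) (hn : 0 < n)
    (hs : sc3 q i e = n) (d : ℕ) (hd : 0 < d) (X : LaurentSeries A) (Z : LaurentSeries Kb)
    (w : ℤ → Kb) (hwA : ∀ k, w k ∈ A)
    (hw : ∀ m : ℕ, ∃ u : A, IsUnit u ∧ (∀ σ ∈ A.inertiaSubgroupIn ℚ, σ (u : Kb) = (u : Kb)) ∧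
      w (-(m : ℤ)) = (u : Kb) * leadTw ζ i e m)
    (hZ : ∀ k : ℤ, Z.coeff ((n : ℤ) * k) = w k * ((X.coeff ((d : ℤ) * k) : A) : Kb))
    (hZ0 : ∀ k : ℤ, ¬ (n : ℤ) ∣ k → Z.coeff k = 0) :
    ∃ Y : LaurentSeries A, incl A Y = Z ∧ TableEntryD q A ζ i e d X Y := by
  have hmem : ∀ k, Z.coeff k ∈ A := by
    intro k
    by_cases hdv : (n : ℤ) ∣ k
    · obtain ⟨k', rfl⟩ := hdv
      rw [hZ]
      exact A.mul_mem _ _ (hwA k') (X.coeff _).2
    · rw [hZ0 k hdv]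
      exact A.zero_mem
  have hn0 : (0 : ℤ) < (n : ℤ) := by exact_mod_cast hn
  have hd1 : (0 : ℤ) < (d : ℤ) := by exact_mod_cast hd
  refine ⟨Fermat.Agent.P2.helper93.liftA Z hmem,
    Fermat.Agent.P2.helper93.coeffMap_subtype_liftA Z hmem, ?_⟩
  intro m hX
  rw [hs]
  have hidx : -((n * m : ℕ) : ℤ) = (n : ℤ) * (-(m : ℤ)) := by
    push_cast
    ring
  have hidx' : -((d * m : ℕ) : ℤ) = (d : ℤ) * (-(m : ℤ)) := by
    push_cast
    ring
  have hco : ∀ k, (((Fermat.Agent.P2.helper93.liftA Z hmem).coeff k : A) : Kb) = Z.coeff k :=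
    fun k => rfl
  refine ⟨fun k hk => ?_, ?_⟩
  · apply Subtype.ext
    rw [hco]
    by_cases hdv : (n : ℤ) ∣ k
    · obtain ⟨k', rfl⟩ := hdv
      have hk' : k' < -(m : ℤ) := by
        rw [hidx] at hk
        exact lt_of_mul_lt_mul_left hk hn0.le
      rw [hZ, hX _ ?_]
      · simp
      · rw [hidx']
        exact mul_lt_mul_of_pos_left hk' hd1
    · rw [hZ0 k hdv]
      rfl
  · obtain ⟨u, hu, huI, hu'⟩ := hw m
    refine ⟨u, hu, huI, ?_⟩
    rw [hco, hidx, hZ, hu', hidx']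

end EntryD

/-! ### The contract from the raw table and the raw exact-pole elements -/

section InstD

variable {N q : ℕ} [NeZero N] [NeZero q] (A : ValuationSubring Kb)
variable {𝒞 : Type*} (EN : 𝒞 → (FF N →+* LaurentSeries Kb))
  (E : 𝒞 × Fin 3 → (FF (N * q * q) →+* LaurentSeries Kb))

/-- **the twisted dg-table, raw at level `N`** ([CUSP-Q]). -/
def TableTwD (ζ : Kb) (κ : Fin 3 → Fin 3 → 𝒞 → 𝒞) (d : 𝒞 → ℕ) : Prop :=
  ∀ (c : 𝒞) (i e : Fin 3) (x : FF N) (X : LaurentSeries A), incl A X = EN (κ i e c) x →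
    ∃ Y : LaurentSeries A, incl A Y = E (c, i) (dgF N q e x) ∧
      TableEntryD q A ζ i e (d (κ i e c)) X Y

/-- **exact-pole elements at every cusp of level `N`, raw form** ([XPOLE-c]): pole of exact order
`d c₀ * m` in the raw parameter at `c₀`. -/
def XPoleAllD (B : Subalgebra Kb (FF (N * q * q))) (d : 𝒞 → ℕ) (m₀ : ℕ) : Prop :=
  ∀ (c₀ : 𝒞) (m : ℕ), m₀ ≤ m → ∃ (x : FF N) (X : 𝒞 → LaurentSeries A),
    IsFixI A N x ∧ (∀ e, dgF N q e x ∈ B) ∧ (∀ c, incl A (X c) = EN c x) ∧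
    IsUnit ((X c₀).coeff (-((d c₀ * m : ℕ) : ℤ))) ∧
    (∀ σ ∈ A.inertiaSubgroupIn ℚ,
      σ (((X c₀).coeff (-((d c₀ * m : ℕ) : ℤ)) : A) : Kb)
        = (((X c₀).coeff (-((d c₀ * m : ℕ) : ℤ)) : A) : Kb)) ∧
    (∀ k : ℤ, k < -((d c₀ * m : ℕ) : ℤ) → (X c₀).coeff k = 0) ∧
    ∀ c, c ≠ c₀ → ∀ k : ℤ, k < 0 → (X c).coeff k = 0

variable {A EN E}

theorem tableTwD_one {ζ : Kb} {κ : Fin 3 → Fin 3 → 𝒞 → 𝒞} (hT : TableTw A EN E ζ κ) :
    TableTwD A EN E ζ κ (fun _ => 1) := by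
  intro c i e x X hX
  obtain ⟨Y, hY, hYT⟩ := hT c i e x X hX
  exact ⟨Y, hY, tableEntryD_one hYT⟩

/-- **the contract of the producers** from the raw table and the raw exact-pole elements. -/
theorem peelSrcTw_of_tableD {ζ : Kb} {κ : Fin 3 → Fin 3 → 𝒞 → 𝒞}
    (hκ : ∀ i e, Function.Injective (κ i e)) {d : 𝒞 → ℕ} (hT : TableTwD A EN E ζ κ d)
    {B : Subalgebra Kb (FF (N * q * q))} {m₀ : ℕ} (hX : XPoleAllD A EN B d m₀)
    (J : 𝒞 × Fin 3) : PeelSrcTw q A (fun p : 𝒞 × Fin 3 => p.2) E B ζ J m₀ := by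
  obtain ⟨c, i⟩ := J
  intro m hm e
  obtain ⟨x, X, hxI, hxB, hXE, hu, huI, hbelow, hother⟩ := hX (κ i e c) m hm
  -- pole order `≤ d m` at every cusp
  have hle : ∀ c' : 𝒞, ∀ k : ℤ, k < -((d c' * m : ℕ) : ℤ) → (X c').coeff k = 0 := by
    intro c' k hk
    by_cases hc' : c' = κ i e c
    · subst hc'
      exact hbelow k hk
    · exact hother c' hc' k (lt_of_lt_of_le hk
        (neg_nonpos.mpr (Int.natCast_nonneg _)))
  have key : ∀ p : 𝒞 × Fin 3, ∃ Y : LaurentSeries A, incl A Y = E p (dgF N q e x) ∧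
      TableEntryD q A ζ p.2 e (d (κ p.2 e p.1)) (X (κ p.2 e p.1)) Y := fun p =>
    hT p.1 p.2 e x (X (κ p.2 e p.1)) (hXE _)
  choose Y hY hYT using key
  obtain ⟨h1, u, hu1, hu2, hu3⟩ := hYT (c, i) m hbelow
  have huu : IsUnit (u * (X (κ i e c)).coeff (-((d (κ i e c) * m : ℕ) : ℤ))) := hu1.mul hu
  refine ⟨dgF N q e x, Y, u * (X (κ i e c)).coeff (-((d (κ i e c) * m : ℕ) : ℤ)), hxB e,
    isFixI_dgF A hxI e, hY, huu, fun σ hσ => ?_, ?_, h1, ?_, ?_⟩
  · show σ ((u : Kb) * (((X (κ i e c)).coeff (-((d (κ i e c) * m : ℕ) : ℤ)) : A) : Kb)) = _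
    rw [map_mul, hu2 σ hσ, huI σ hσ]
    rfl
  · show (((Y (c, i)).coeff _ : A) : Kb) = _
    rw [hu3]
    show _ = (u : Kb) * (((X (κ i e c)).coeff (-((d (κ i e c) * m : ℕ) : ℤ)) : A) : Kb) * _
    ring
  · rintro ⟨c', i'⟩ hJ' ht k hk
    have hi : i' = i := ht
    subst hi
    have hc' : c' ≠ c := fun h => hJ' (by rw [h])
    have hκc : κ i' e c' ≠ κ i' e c := fun h => hc' (hκ i' e h)
    have h0 := (hYT (c', i') 0 (fun k hk => hother _ hκc k (by simpa using hk))).1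
    apply h0 k
    simpa using hk
  · rintro ⟨c', i'⟩ ht k hk
    exact (hYT (c', i') m (hle _)).1 k hk

/-- **(SAT_q) for all cusps** from the raw table and the raw exact-pole elements. -/
theorem satStatementE_of_tableD [Fintype 𝒞] [DecidableEq 𝒞] (hq : q.Prime)
    (hA : A.LiesOverPrime q) {ζ : Kb} (hζ : IsPrimitiveRoot ζ q)
    {κ : Fin 3 → Fin 3 → 𝒞 → 𝒞} (hκ : ∀ i e, Function.Injective (κ i e)) {d : 𝒞 → ℕ}
    (hT : TableTwD A EN E ζ κ d) (B : Subalgebra Kb (FF (N * q * q))) {m₀ : ℕ}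
    (hX : XPoleAllD A EN B d m₀) (hE : ConstCompatTw E)
    (hG : GalCompatTw A (fun p : 𝒞 × Fin 3 => p.2) E ζ) :
    Fermat.Agent.T3.helper27.SatStatementE q A E (fun p : 𝒞 × Fin 3 => wt3 q p.2) B
      (lev3 q m₀ : ℤ) :=
  satStatementE_of_peelSrcTw' hq hA B hζ hE hG (fun J => peelSrcTw_of_tableD hκ hT hX J)

/-- **ROOT3 for all cusps** from the raw table and the raw exact-pole elements. -/
theorem root_of_tableD [Fintype 𝒞] [DecidableEq 𝒞] [Nonempty 𝒞] (hq : q.Prime)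
    (hA : A.LiesOverPrime q) {ζ : Kb} (hζ : IsPrimitiveRoot ζ q)
    {κ : Fin 3 → Fin 3 → 𝒞 → 𝒞} (hκ : ∀ i e, Function.Injective (κ i e)) {d : 𝒞 → ℕ}
    (hT : TableTwD A EN E ζ κ d) (B : Subalgebra Kb (FF (N * q * q))) {m₀ : ℕ}
    (hX : XPoleAllD A EN B d m₀) (hE : ConstCompatTw E)
    (hG : GalCompatTw A (fun p : 𝒞 × Fin 3 => p.2) E ζ)
    (hBfin : Fermat.Agent.T3.helper27.FinStatementE A E (fun p : 𝒞 × Fin 3 => wt3 q p.2) B)
    (n : ℕ) (hn : ¬ q ∣ n) (H : FF (N * q * q)) (hHB : H ∈ B)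
    (hHI : IsFixI A (N * q * q) H)
    (hroot : ∀ J : 𝒞 × Fin 3, ∃ Z : LaurentSeries A, (incl A Z) ^ n = E J H ∧ red A Z = 1) :
    ∃ v : FF (N * q * q), IsFixI A (N * q * q) v ∧ H = v ^ n :=
  root_of_peelSrcTw hq hA B hζ hE hG (fun J => peelSrcTw_of_tableD hκ hT hX J) hBfin n hn H
    hHB hHI hroot

end InstD

end Fermat.Agent.T3.helper74

end
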