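/-
T3 (S36), helper96, row 1080 [XPOLE-c], abstract part: the *pivot calculus* for a pair of
finite-dimensional spaces of Laurent series

  `V ⊆ ℚ̄((t))`   (expansions at a cusp of the elements of a Riemann–Roch space), and
  `Vb ⊆ k((t))`   (the same on the special fibre),

related by
* `ScaleAbs A V`   : every nonzero `u ∈ V` has a scalar multiple which is `A`-integral with
                     nonzero reduction;
* `RegAbs A V Vb`  : the reduction of an integral element of `V` lies in `Vb`.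

Results (`G` any set of automorphisms of `ℚ̄` preserving `V` coefficientwise):
* `surjAbs_of_finrank_le` : if `dim Vb ≤ dim V` then every element of `Vb` is the reduction of an
                            integral element of `V`;
* `eq_zero_of_pivotsAbs`  : an element of `V` whose coefficients at the pivots (= orders of the
                            nonzero elements of `Vb`) vanish is `0`;
* `exists_pivotAbs_elt`   : integral elements of `V` with pivot coefficients `δ_{i i₀}`, whose
                            coefficients are fixed by `G`;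
* `exists_fixed_liftAbs`  : `G`-fixed integral lifts of the elements of `Vb`.

Nothing here depends on modular curves.
-/
import Mathlib
import Fermat.Agent.P2.helper29_Interface
import Fermat.Agent.P2.helper74_PivotLaurent

set_option autoImplicit false
set_option synthInstance.maxHeartbeats 400000
set_option maxHeartbeats 1000000
set_option linter.style.haveILetI false
set_option linter.unusedSectionVars false

noncomputable section

open HahnSeries ModularCurve
open Fermat.Agent.S18.helper19 Fermat.Agent.P2.helper29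

namespace Fermat.Agent.T3.helper96

/-! ### Generalities on coefficientwise maps -/

section Coeff

variable (A : ValuationSubring Kb)

theorem isUnit_of_residue_ne_zero' (x : A) (h : IsLocalRing.residue A x ≠ 0) : IsUnit x := by
  by_contra hx
  exact h ((IsLocalRing.residue_eq_zero_iff x).mpr ((IsLocalRing.mem_maximalIdeal x).mpr hx))

theorem incl_C_mul'' (a : A) (Z : LaurentSeries A) :
    incl A (HahnSeries.C a * Z) = (a : Kb) • incl A Z := by
  ext k
  rw [coeffMap_coeff, HahnSeries.C_mul_eq_smul, HahnSeries.coeff_smul, HahnSeries.coeff_smul,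
    coeffMap_coeff]
  rfl

theorem red_C_mul'' (a : A) (Z : LaurentSeries A) :
    red A (HahnSeries.C a * Z) = IsLocalRing.residue A a • red A Z := by
  ext k
  rw [coeffMap_coeff, HahnSeries.C_mul_eq_smul, HahnSeries.coeff_smul, HahnSeries.coeff_smul,
    coeffMap_coeff, smul_eq_mul, smul_eq_mul, map_mul]

theorem coeff_C_mul'' (a : A) (Z : LaurentSeries A) (k : ℤ) :
    (HahnSeries.C a * Z).coeff k = a * Z.coeff k := by
  rw [HahnSeries.C_mul_eq_smul, HahnSeries.coeff_smul, smul_eq_mul]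

theorem incl_injective' : Function.Injective (incl A) :=
  Fermat.Agent.P2.helper74.coeffMap_subtype_injective A

/-- **uniqueness of the Gauss normalisation**: if `Y'= c Y` with `Y, Y'` integral with nonzero
reductions, then `c` is a unit of `A`. -/
theorem exists_unit_of_red_ne_zero {c : Kb} {Y Y' : LaurentSeries A}
    (e : incl A Y' = c • incl A Y) (hY : red A Y ≠ 0) (hY' : red A Y' ≠ 0) :
    ∃ a : A, IsUnit a ∧ (a : Kb) = c := by
  have hc0 : c ≠ 0 := by
    rintro rfl
    rw [zero_smul] at e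
    have : Y' = 0 := incl_injective' A (by rw [e, map_zero])
    exact hY' (by rw [this, map_zero])
  have hmem : ∀ {d : Kb} {Z Z' : LaurentSeries A}, incl A Z' = d • incl A Z → red A Z ≠ 0 →
      d ∈ A := by
    intro d Z Z' e hZ
    obtain ⟨k, hk⟩ : ∃ k : ℤ, IsLocalRing.residue A (Z.coeff k) ≠ 0 := by
      by_contra hcon
      push Not at hcon
      apply hZ
      ext k
      rw [coeffMap_coeff, hcon k]
      rfl
    obtain ⟨u, hu⟩ := isUnit_of_residue_ne_zero' A _ hk
    have h1 := congrArg (fun z : LaurentSeries Kb => z.coeff k) e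
    simp only [coeffMap_coeff, HahnSeries.coeff_smul, smul_eq_mul] at h1
    have h2 : d = ((Z'.coeff k * ((u⁻¹ : Aˣ) : A) : A) : Kb) := by
      have hu' : ((Z.coeff k : A) : Kb) * ((((u⁻¹ : Aˣ) : A) : A) : Kb) = 1 := by
        rw [← hu]
        have := u.mul_inv
        exact_mod_cast congrArg (fun z : A => (z : Kb)) this
      have h3 : (((Z'.coeff k * ((u⁻¹ : Aˣ) : A) : A)) : Kb) =
          ((Z'.coeff k : A) : Kb) * ((((u⁻¹ : Aˣ) : A) : A) : Kb) := rfl
      rw [h3]
      have h1' : ((Z'.coeff k : A) : Kb) = d * ((Z.coeff k : A) : Kb) := h1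
      rw [h1', mul_assoc, hu', mul_one]
    rw [h2]
    exact (Z'.coeff k * ((u⁻¹ : Aˣ) : A) : A).2
  have h1 : c ∈ A := hmem e hY
  have e' : incl A Y = c⁻¹ • incl A Y' := by
    rw [e, smul_smul, inv_mul_cancel₀ hc0, one_smul]
  have h2 : c⁻¹ ∈ A := hmem e' hY'
  refine ⟨⟨c, h1⟩, ?_, rfl⟩
  refine IsUnit.of_mul_eq_one (⟨c⁻¹, h2⟩ : A) ?_
  apply Subtype.ext
  show c * c⁻¹ = 1
  exact mul_inv_cancel₀ hc0

end Coeff

/-! ### The abstract statements -/

section Abs

variable (A : ValuationSubring Kb)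
variable (V : Submodule Kb (LaurentSeries Kb)) (Vb : Submodule (kA A) (LaurentSeries (kA A)))

/-- **(Scale)** every nonzero element of `V` has a scalar multiple which is `A`-integral with
nonzero reduction. -/
def ScaleAbs : Prop :=
  ∀ u ∈ V, u ≠ 0 → ∃ c : Kb, c ≠ 0 ∧ ∃ Y : LaurentSeries A,
    incl A Y = c • u ∧ red A Y ≠ 0

/-- **(Reg)** the reduction of an integral element of `V` lies in `Vb`. -/
def RegAbs : Prop := ∀ Y : LaurentSeries A, incl A Y ∈ V → red A Y ∈ Vb

/-- **(Surj)** every element of `Vb` is the reduction of an integral element of `V`. -/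
def SurjAbs : Prop := ∀ y ∈ Vb, ∃ Y : LaurentSeries A, incl A Y ∈ V ∧ red A Y = y

/-- **(Scale + Reg)** in one statement: every nonzero element of `V` has a scalar multiple which
is `A`-integral with nonzero reduction in `Vb`. -/
def ScaleRegAbs : Prop :=
  ∀ u ∈ V, u ≠ 0 → ∃ c : Kb, c ≠ 0 ∧ ∃ Y : LaurentSeries A,
    incl A Y = c • u ∧ red A Y ≠ 0 ∧ red A Y ∈ Vb

variable {A V Vb}

theorem ScaleRegAbs.scale (h : ScaleRegAbs A V Vb) : ScaleAbs A V := by
  intro u hu hu0
  obtain ⟨c, hc, Y, hY, hY0, -⟩ := h u hu hu0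
  exact ⟨c, hc, Y, hY, hY0⟩

theorem ScaleRegAbs.reg (h : ScaleRegAbs A V Vb) : RegAbs A V Vb := by
  intro Y hY
  by_cases hY0 : red A Y = 0
  · rw [hY0]
    exact Vb.zero_mem
  have hne : incl A Y ≠ 0 := by
    intro h0
    have : Y = 0 := incl_injective' A (by rw [h0, map_zero])
    exact hY0 (by rw [this, map_zero])
  obtain ⟨c, hc, Y', hY', hY'0, hY'b⟩ := h _ hY hne
  obtain ⟨a, ha, hac⟩ := exists_unit_of_red_ne_zero A hY' hY0 hY'0
  have e : Y' = HahnSeries.C a * Y := by
    apply incl_injective' A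
    rw [hY', incl_C_mul'', hac]
  have e2 : red A Y' = IsLocalRing.residue A a • red A Y := by
    rw [e, red_C_mul'']
  have hres : IsLocalRing.residue A a ≠ 0 := by
    intro h0
    exact ((IsLocalRing.residue_eq_zero_iff a).mp h0) ha
  have e3 : red A Y = (IsLocalRing.residue A a)⁻¹ • red A Y' := by
    rw [e2, smul_smul, inv_mul_cancel₀ hres, one_smul]
  rw [e3]
  exact Vb.smul_mem _ hY'b

theorem scaleRegAbs_of (hSc : ScaleAbs A V) (hReg : RegAbs A V Vb) : ScaleRegAbs A V Vb := by
  intro u hu hu0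
  obtain ⟨c, hc, Y, hY, hY0⟩ := hSc u hu hu0
  refine ⟨c, hc, Y, hY, hY0, hReg Y ?_⟩
  rw [hY]
  exact V.smul_mem _ hu

/-! ### Surjectivity of the reduction from a dimension count -/

/-- **(Surj)** from `dim Vb ≤ dim V`. -/
theorem surjAbs_of_finrank_le [FiniteDimensional Kb V] [FiniteDimensional (kA A) Vb]
    (hSc : ScaleAbs A V) (hReg : RegAbs A V Vb)
    (hdim : Module.finrank (kA A) Vb ≤ Module.finrank Kb V) : SurjAbs A V Vb := by
  obtain ⟨Y, hYV, -, -, hYred⟩ := Fermat.Agent.P2.helper74.exists_integral_basis A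
    (IsLocalRing.residue A) (isUnit_of_residue_ne_zero' A) V hSc
  have hli : LinearIndependent (kA A) (fun i => red A (Y i)) :=
    Fermat.Agent.P2.helper74.linearIndependent_coeffMap_of_forall A _
      IsLocalRing.residue_surjective Y hYred
  have hmem : ∀ i, red A (Y i) ∈ Vb := fun i => hReg _ (hYV i)
  have hspan : Submodule.span (kA A) (Set.range fun i => red A (Y i)) = Vb := by
    apply Submodule.eq_of_le_of_finrank_le
      (Submodule.span_le.mpr (by rintro _ ⟨i, rfl⟩; exact hmem i))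
    rw [finrank_span_eq_card hli, Fintype.card_fin]
    exact hdim
  intro y hy
  have hy' : y ∈ Submodule.span (kA A) (Set.range fun i => red A (Y i)) := by
    rw [hspan]
    exact hy
  obtain ⟨cf, hcf⟩ := (Submodule.mem_span_range_iff_exists_fun _).mp hy'
  choose a ha using fun i => IsLocalRing.residue_surjective (cf i)
  refine ⟨∑ i, a i • Y i, ?_, ?_⟩
  · rw [show incl A (∑ i, a i • Y i) = ∑ i, (a i : Kb) • incl A (Y i) from
      Fermat.Agent.P2.helper74.coeffMap_subtype_sum A a Y]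
    exact Submodule.sum_mem _ (fun i _ => Submodule.smul_mem _ _ (hYV i))
  · rw [← hcf, map_sum]
    refine Finset.sum_congr rfl fun i _ => ?_
    ext m
    simp [ha]

/-- the dimension of `V` is at most the dimension of `Vb` (semicontinuity) -/
theorem finrank_le_of_scaleReg [FiniteDimensional Kb V] [FiniteDimensional (kA A) Vb]
    (hSc : ScaleAbs A V) (hReg : RegAbs A V Vb) :
    Module.finrank Kb V ≤ Module.finrank (kA A) Vb := by
  obtain ⟨Y, hYV, -, -, hYred⟩ := Fermat.Agent.P2.helper74.exists_integral_basis A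
    (IsLocalRing.residue A) (isUnit_of_residue_ne_zero' A) V hSc
  have hli : LinearIndependent (kA A) (fun i => red A (Y i)) :=
    Fermat.Agent.P2.helper74.linearIndependent_coeffMap_of_forall A _
      IsLocalRing.residue_surjective Y hYred
  have hspan : Submodule.span (kA A) (Set.range fun i => red A (Y i)) ≤ Vb :=
    Submodule.span_le.mpr (by rintro _ ⟨i, rfl⟩; exact hReg _ (hYV i))
  have h1 := Submodule.finrank_mono hspan
  rw [finrank_span_eq_card hli, Fintype.card_fin] at h1
  exact h1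

/-! ### Pivots -/

variable (A Vb)

/-- `i` is the order of a (normalised) element of `Vb` -/
def IsPivotAbs (i : ℤ) : Prop :=
  ∃ y ∈ Vb, y.coeff i = 1 ∧ ∀ k : ℤ, k < i → y.coeff k = 0

variable {A Vb}

/-- the order of a nonzero element of `Vb` is a pivot -/
theorem isPivotAbs_of_ne_zero {y : LaurentSeries (kA A)} (hy : y ∈ Vb) (hy0 : y ≠ 0) :
    IsPivotAbs A Vb y.order := by
  have hc : y.coeff y.order ≠ 0 := fun h => hy0 (HahnSeries.coeff_order_eq_zero.mp h)
  refine ⟨(y.coeff y.order)⁻¹ • y, Vb.smul_mem _ hy, ?_, ?_⟩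
  · rw [HahnSeries.coeff_smul, smul_eq_mul, inv_mul_cancel₀ hc]
  · intro k hk
    rw [HahnSeries.coeff_smul, HahnSeries.coeff_eq_zero_of_lt_order hk, smul_zero]

/-- elements with distinct orders are linearly independent -/
theorem linearIndependent_of_orders {k : Type*} [Field k] {ι : Type*} (o : ι → ℤ)
    (ho : Function.Injective o) (y : ι → LaurentSeries k)
    (h1 : ∀ i, (y i).coeff (o i) = 1) (h2 : ∀ i, ∀ j : ℤ, j < o i → (y i).coeff j = 0) :
    LinearIndependent k y := by
  classical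
  rw [linearIndependent_iff']
  intro s g hg
  by_contra hcon
  push Not at hcon
  obtain ⟨i₁, hi₁, hg₁⟩ := hcon
  have hne : (s.filter fun i => g i ≠ 0).Nonempty := ⟨i₁, Finset.mem_filter.mpr ⟨hi₁, hg₁⟩⟩
  obtain ⟨i₀, hi₀, hmin⟩ := Finset.exists_min_image _ o hne
  rw [Finset.mem_filter] at hi₀
  have h3 := congrArg (fun z : LaurentSeries k => z.coeff (o i₀)) hg
  simp only [HahnSeries.coeff_sum, HahnSeries.coeff_smul, HahnSeries.coeff_zero, smul_eq_mul]
    at h3
  rw [Finset.sum_eq_single i₀] at h3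
  · rw [h1, mul_one] at h3
    exact hi₀.2 h3
  · intro i hi hii₀
    by_cases hgi : g i = 0
    · rw [hgi, zero_mul]
    · have hle := hmin i (Finset.mem_filter.mpr ⟨hi, hgi⟩)
      have hlt : o i₀ < o i := lt_of_le_of_ne hle (fun h => hii₀ (ho h.symm))
      rw [h2 i _ hlt, mul_zero]
  · intro h
    exact absurd hi₀.1 h

variable (A Vb)

/-- the set of pivots of a finite-dimensional space is finite -/
theorem finite_pivotsAbs [FiniteDimensional (kA A) Vb] : {i : ℤ | IsPivotAbs A Vb i}.Finite := by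
  classical
  have hex : ∀ i : {i : ℤ // IsPivotAbs A Vb i}, ∃ y : Vb,
      (y : LaurentSeries (kA A)).coeff (i : ℤ) = 1 ∧
        ∀ k : ℤ, k < (i : ℤ) → (y : LaurentSeries (kA A)).coeff k = 0 := by
    rintro ⟨i, y, hy, h1, h2⟩
    exact ⟨⟨y, hy⟩, h1, h2⟩
  choose y hy1 hy2 using hex
  have hli : LinearIndependent (kA A) (fun i => ((y i : Vb) : LaurentSeries (kA A))) :=
    linearIndependent_of_orders (fun i : {i : ℤ // IsPivotAbs A Vb i} => (i : ℤ))
      Subtype.val_injective _ hy1 hy2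
  have hli' : LinearIndependent (kA A) y := by
    apply LinearIndependent.of_comp Vb.subtype
    exact hli
  have hfin : Finite {i : ℤ // IsPivotAbs A Vb i} := hli'.finite
  exact Set.finite_coe_iff.mp hfin

/-- the finite set of pivots -/
def pivotsAbs [FiniteDimensional (kA A) Vb] : Finset ℤ := (finite_pivotsAbs A Vb).toFinset

variable {A Vb}

theorem mem_pivotsAbs [FiniteDimensional (kA A) Vb] {i : ℤ} :
    i ∈ pivotsAbs A Vb ↔ IsPivotAbs A Vb i := by
  unfold pivotsAbs
  rw [Set.Finite.mem_toFinset]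
  rfl

/-- pivot uniqueness on the special fibre -/
theorem eq_zero_of_pivotsAbs_bar {z : LaurentSeries (kA A)} (hz : z ∈ Vb)
    (h0 : ∀ i : ℤ, IsPivotAbs A Vb i → z.coeff i = 0) : z = 0 := by
  by_contra hz0
  have h1 := h0 _ (isPivotAbs_of_ne_zero hz hz0)
  exact hz0 (HahnSeries.coeff_order_eq_zero.mp h1)

/-- **(B) pivot uniqueness**: an element of `V` all of whose pivot coefficients vanish is
zero. -/
theorem eq_zero_of_pivotsAbs (hSR : ScaleRegAbs A V Vb) {f : LaurentSeries Kb} (hf : f ∈ V)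
    (h0 : ∀ i : ℤ, IsPivotAbs A Vb i → f.coeff i = 0) : f = 0 := by
  by_contra hf0
  obtain ⟨c, hc, Y, hY, hYred, hYb⟩ := hSR f hf hf0
  have hpiv := isPivotAbs_of_ne_zero hYb hYred
  have h1 := h0 _ hpiv
  have h2 : (incl A Y).coeff (red A Y).order = 0 := by
    rw [hY, HahnSeries.coeff_smul, h1, smul_zero]
  have h3 : Y.coeff (red A Y).order = 0 := by
    rw [coeffMap_coeff] at h2
    exact Subtype.ext h2
  have h4 : (red A Y).coeff (red A Y).order = 0 := by
    rw [coeffMap_coeff, h3, map_zero]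
  exact hYred (HahnSeries.coeff_order_eq_zero.mp h4)

/-! ### Existence of the pivot elements -/

/-- **(A) existence**: integral elements of `V` with prescribed pivot coefficients
`δ_{i i₀}`. -/
theorem exists_pivotAbs_elt [FiniteDimensional (kA A) Vb] (hS : SurjAbs A V Vb)
    {i₀ : ℤ} (hi₀ : IsPivotAbs A Vb i₀) :
    ∃ X : LaurentSeries A, incl A X ∈ V ∧ X.coeff i₀ = 1 ∧
      ∀ i : ℤ, IsPivotAbs A Vb i → i ≠ i₀ → X.coeff i = 0 := by
  classical
  have hex : ∀ i : {i : ℤ // i ∈ pivotsAbs A Vb}, ∃ Z : LaurentSeries A,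
      incl A Z ∈ V ∧ (red A Z).coeff (i : ℤ) = 1 ∧
        ∀ k : ℤ, k < (i : ℤ) → (red A Z).coeff k = 0 := by
    intro i
    obtain ⟨y, hy, h1, h2⟩ := mem_pivotsAbs.mp i.2
    obtain ⟨Z, hZ, hZy⟩ := hS y hy
    exact ⟨Z, hZ, by rw [hZy]; exact h1, by rw [hZy]; exact h2⟩
  choose Z hZL hZ1 hZ2 using hex
  let M : Matrix {i : ℤ // i ∈ pivotsAbs A Vb} {i : ℤ // i ∈ pivotsAbs A Vb} A :=
    fun i j => (Z i).coeff (j : ℤ)
  have hMbar : ∀ i j, (IsLocalRing.residue A).mapMatrix M i j = (red A (Z i)).coeff (j : ℤ) := by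
    intro i j
    rw [coeffMap_coeff]
    rfl
  have htri : ((IsLocalRing.residue A).mapMatrix M).IsUpperTriangular := by
    intro i j hij
    rw [hMbar]
    apply hZ2
    exact hij
  have hdet : ((IsLocalRing.residue A).mapMatrix M).det = 1 := by
    rw [Matrix.det_of_isUpperTriangular htri]
    apply Finset.prod_eq_one
    intro i _
    rw [hMbar]
    exact hZ1 i
  have hunit : IsUnit M.det := by
    apply isUnit_of_residue_ne_zero' A
    rw [RingHom.map_det, hdet]
    exact one_ne_zero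
  have hinv : M⁻¹ * M = 1 := Matrix.nonsing_inv_mul M hunit
  set j₀ : {i : ℤ // i ∈ pivotsAbs A Vb} := ⟨i₀, mem_pivotsAbs.mpr hi₀⟩ with hj₀
  have hcoef : ∀ j : {i : ℤ // i ∈ pivotsAbs A Vb},
      (∑ l, HahnSeries.C (M⁻¹ j₀ l) * Z l).coeff (j : ℤ) = (1 : Matrix _ _ A) j₀ j := by
    intro j
    rw [HahnSeries.coeff_sum, ← hinv, Matrix.mul_apply]
    apply Finset.sum_congr rfl
    intro l _
    rw [coeff_C_mul'']
  refine ⟨∑ l, HahnSeries.C (M⁻¹ j₀ l) * Z l, ?_, ?_, ?_⟩
  · rw [map_sum]
    apply Submodule.sum_mem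
    intro l _
    rw [incl_C_mul'']
    exact V.smul_mem _ (hZL l)
  · have := hcoef j₀
    rw [Matrix.one_apply_eq] at this
    exact this
  · intro i hi hne
    have := hcoef ⟨i, mem_pivotsAbs.mpr hi⟩
    rw [Matrix.one_apply_ne] at this
    · exact this
    · intro h
      exact hne (congrArg Subtype.val h).symm

/-- **pivot elements with `G`-fixed coefficients**, for any set `G` of automorphisms of `ℚ̄`
which preserves `V` coefficientwise. -/
theorem exists_pivotAbs_elt_fix [FiniteDimensional (kA A) Vb] (hSR : ScaleRegAbs A V Vb)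
    (hS : SurjAbs A V Vb) (G : Set (Kb ≃ₐ[ℚ] Kb))
    (hG : ∀ σ ∈ G, ∀ u ∈ V, coeffMap ((σ : Kb ≃ₐ[ℚ] Kb) : Kb →+* Kb) u ∈ V)
    {i₀ : ℤ} (hi₀ : IsPivotAbs A Vb i₀) :
    ∃ X : LaurentSeries A, incl A X ∈ V ∧ X.coeff i₀ = 1 ∧
      (∀ i : ℤ, IsPivotAbs A Vb i → i ≠ i₀ → X.coeff i = 0) ∧
      ∀ σ ∈ G, ∀ k : ℤ, σ ((X.coeff k : A) : Kb) = ((X.coeff k : A) : Kb) := by
  obtain ⟨X, hXL, hX1, hX0⟩ := exists_pivotAbs_elt hS hi₀
  refine ⟨X, hXL, hX1, hX0, fun σ hσ k => ?_⟩
  have hdiff : coeffMap ((σ : Kb ≃ₐ[ℚ] Kb) : Kb →+* Kb) (incl A X) - incl A X = 0 := by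
    apply eq_zero_of_pivotsAbs hSR (V.sub_mem (hG σ hσ _ hXL) hXL)
    intro i hi
    rw [HahnSeries.coeff_sub, coeffMap_coeff, coeffMap_coeff]
    by_cases him : i = i₀
    · rw [him, hX1]
      simp
    · rw [hX0 i hi him]
      simp
  have := congrArg (fun z : LaurentSeries Kb => z.coeff k) hdiff
  simp only [HahnSeries.coeff_sub, coeffMap_coeff, HahnSeries.coeff_zero] at this
  exact sub_eq_zero.mp this

/-- **`G`-fixed integral lifts**: if every residue class has a `G`-fixed lift, every element of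
`Vb` is the reduction of an integral element of `V` with `G`-fixed coefficients. -/
theorem exists_fixed_liftAbs [FiniteDimensional (kA A) Vb] (hSR : ScaleRegAbs A V Vb)
    (hS : SurjAbs A V Vb) (G : Set (Kb ≃ₐ[ℚ] Kb))
    (hG : ∀ σ ∈ G, ∀ u ∈ V, coeffMap ((σ : Kb ≃ₐ[ℚ] Kb) : Kb →+* Kb) u ∈ V)
    (hres : ∀ c : kA A, ∃ b : A, IsLocalRing.residue A b = c ∧
      ∀ σ ∈ G, σ ((b : A) : Kb) = ((b : A) : Kb))
    {y : LaurentSeries (kA A)} (hy : y ∈ Vb) :
    ∃ Y : LaurentSeries A, incl A Y ∈ V ∧ red A Y = y ∧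
      ∀ σ ∈ G, ∀ k : ℤ, σ ((Y.coeff k : A) : Kb) = ((Y.coeff k : A) : Kb) := by
  classical
  have hex : ∀ i : {i : ℤ // i ∈ pivotsAbs A Vb}, ∃ X : LaurentSeries A,
      incl A X ∈ V ∧ X.coeff (i : ℤ) = 1 ∧
      (∀ j : ℤ, IsPivotAbs A Vb j → j ≠ (i : ℤ) → X.coeff j = 0) ∧
      ∀ σ ∈ G, ∀ k : ℤ, σ ((X.coeff k : A) : Kb) = ((X.coeff k : A) : Kb) :=
    fun i => exists_pivotAbs_elt_fix hSR hS G hG (mem_pivotsAbs.mp i.2)
  choose X hXL hX1 hX0 hXfix using hex
  have hb : ∀ i : {i : ℤ // i ∈ pivotsAbs A Vb}, ∃ b : A,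
      IsLocalRing.residue A b = y.coeff (i : ℤ) ∧
      ∀ σ ∈ G, σ ((b : A) : Kb) = ((b : A) : Kb) :=
    fun i => hres _
  choose b hbres hbfix using hb
  have hcoeff : ∀ k : ℤ, (∑ i, HahnSeries.C (b i) * X i).coeff k
      = ∑ i, b i * (X i).coeff k := by
    intro k
    rw [HahnSeries.coeff_sum]
    exact Finset.sum_congr rfl fun i _ => coeff_C_mul'' A _ _ _
  have hYL : incl A (∑ i, HahnSeries.C (b i) * X i) ∈ V := by
    rw [map_sum]
    apply Submodule.sum_mem
    intro i _
    rw [incl_C_mul'']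
    exact V.smul_mem _ (hXL i)
  refine ⟨∑ i, HahnSeries.C (b i) * X i, hYL, ?_, ?_⟩
  · have hz : red A (∑ i, HahnSeries.C (b i) * X i) - y = 0 := by
      apply eq_zero_of_pivotsAbs_bar (Vb.sub_mem (hSR.reg _ hYL) hy)
      intro j hj
      rw [HahnSeries.coeff_sub, coeffMap_coeff, hcoeff, map_sum]
      have hsum : ∑ i, IsLocalRing.residue A (b i * (X i).coeff j)
          = IsLocalRing.residue A (b ⟨j, mem_pivotsAbs.mpr hj⟩) := by
        rw [Finset.sum_eq_single (⟨j, mem_pivotsAbs.mpr hj⟩ : {i : ℤ // i ∈ pivotsAbs A Vb})]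
        · rw [hX1 ⟨j, mem_pivotsAbs.mpr hj⟩, mul_one]
        · intro i _ hij
          have hne : j ≠ (i : ℤ) := fun h => hij (Subtype.ext h.symm)
          rw [hX0 i j hj hne, mul_zero, map_zero]
        · intro h
          exact absurd (Finset.mem_univ _) h
      rw [hsum, hbres]
      exact sub_self _
    exact sub_eq_zero.mp hz
  · intro σ hσ k
    rw [hcoeff]
    have e : (((∑ i, b i * (X i).coeff k : A)) : Kb)
        = ∑ i, ((b i : A) : Kb) * (((X i).coeff k : A) : Kb) := by
      rw [← A.subtype_apply, map_sum]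
      rfl
    rw [e, map_sum]
    apply Finset.sum_congr rfl
    intro i _
    rw [map_mul, hbfix i σ hσ, hXfix i σ hσ k]

end Abs

end Fermat.Agent.T3.helper96

end
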