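/-
T3 (S36), helper96, row 1080 [XPOLE-c], function-field form: **exact-pole elements at an
arbitrary place**.

`F / ℚ̄` and `Fb / k` (`k` the residue field of `A`) are function fields with a Riemann theorem of
the SAME genus, `P` (resp. `Q`) a place of `F` (resp. `Fb`), and
`E : F →ₐ ℚ̄((t))`, `Eb : Fb →ₐ k((t))` expansions at `P`, `Q` with
`order (E f) = d * ord_P f`, `order (Eb f) = d * ord_Q f`.

* `VC E P m`            : the expansions of the elements of `L(m P)`;
* `ScaleRegC`           : function-field form of (Scale + Reg);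
* `exists_exact_at`     : Riemann ⇒ functions of exact pole order `m` at `P`, regular elsewhere;
* `surjRed_at`          : every element of `L̄(m Q)` lifts to an integral element of `L(m P)`;
* `exists_exactPole_at` : for `m ≥ m₀` an `x ∈ L(m P)` with `E x = t^(-d m) + …` integral, with
                          coefficients fixed by `G`;
* `surjRedFix_at`       : `G`-fixed lifts.
-/
import Mathlib
import Fermat.Agent.T3.helper96_XPoleAbs
import Fermat.Agent.P2.helper74_RiemannSep

set_option autoImplicit false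
set_option synthInstance.maxHeartbeats 400000
set_option maxHeartbeats 1000000
set_option linter.style.haveILetI false
set_option linter.unusedSectionVars false

noncomputable section

open HahnSeries ModularCurve AlgebraicCurve
open Fermat.Agent.S18.helper19 Fermat.Agent.P2.helper29

namespace Fermat.Agent.T3.helper96

/-! ### Expansions of Riemann–Roch spaces -/

section Generic

variable {K : Type*} [Field K] {F : Type*} [Field F] [Algebra K F]

/-- an expansion as a linear map (for the Hahn series module structure) -/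
def expLin (E : F →ₐ[K] LaurentSeries K) : F →ₗ[K] LaurentSeries K where
  toFun x := E x
  map_add' x y := map_add E x y
  map_smul' c x := by
    rw [RingHom.id_apply, ← HahnSeries.C_mul_eq_smul, Algebra.smul_def, map_mul,
      AlgHom.commutes, algebraMap_laurentSeries_eq_single]
    rfl

@[simp] theorem expLin_apply (E : F →ₐ[K] LaurentSeries K) (x : F) : expLin E x = E x := rfl

theorem expLin_injective (E : F →ₐ[K] LaurentSeries K) : Function.Injective (expLin E) :=
  fun _ _ h => E.toRingHom.injective h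

/-- the expansions of the elements of `L(m P)` -/
def VC (E : F →ₐ[K] LaurentSeries K) (P : Place K F) (m : ℤ) :
    Submodule K (LaurentSeries K) :=
  (riemannRochSpace (Finsupp.single P m)).map (expLin E)

theorem mem_VC_iff {E : F →ₐ[K] LaurentSeries K} {P : Place K F} {m : ℤ}
    {u : LaurentSeries K} :
    u ∈ VC E P m ↔ ∃ f : F, f ∈ riemannRochSpace (Finsupp.single P m) ∧ E f = u := by
  rw [VC, Submodule.mem_map]
  rfl

theorem mem_VC {E : F →ₐ[K] LaurentSeries K} {P : Place K F} {m : ℤ} {f : F}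
    (hf : f ∈ riemannRochSpace (Finsupp.single P m)) : E f ∈ VC E P m :=
  mem_VC_iff.mpr ⟨f, hf, rfl⟩

/-- the linear equivalence `L(m P) ≃ VC E P m` -/
def equivVC (E : F →ₐ[K] LaurentSeries K) (P : Place K F) (m : ℤ) :
    riemannRochSpace (Finsupp.single P m) ≃ₗ[K] VC E P m :=
  Submodule.equivMapOfInjective (expLin E) (expLin_injective E) _

theorem finrank_VC (E : F →ₐ[K] LaurentSeries K) (P : Place K F) (m : ℤ) :
    Module.finrank K (VC E P m) = Fermat.Agent.P2.helper74.ell (Finsupp.single P m) :=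
  (equivVC E P m).finrank_eq.symm

theorem finite_VC (hS : Fermat.Agent.P2.helper74.RiemannSetting K F)
    (E : F →ₐ[K] LaurentSeries K) (P : Place K F) (m : ℤ) : Module.Finite K (VC E P m) :=
  haveI := Fermat.Agent.P2.helper74.finiteDimensional_L hS (Finsupp.single P m)
  Module.Finite.equiv (equivVC E P m)

/-- the dimension of `L(m P)` for large `m` -/
theorem exists_finrank_VC (hS : Fermat.Agent.P2.helper74.RiemannSetting K F) {g : ℕ}
    (hg : Fermat.Agent.P2.helper74.HasRiemannGenus K F g) (E : F →ₐ[K] LaurentSeries K)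
    (P : Place K F) :
    ∃ c : ℤ, ∀ n : ℤ, c ≤ n → (Module.finrank K (VC E P n) : ℤ) + g = n + 1 := by
  obtain ⟨c, hc⟩ := hg
  refine ⟨c, fun n hn => ?_⟩
  have hdeg : Divisor.degree (Finsupp.single P n) = n := by
    rw [Divisor.degree_single, hS.deg_one P]
    simp
  rw [finrank_VC]
  have := hc (Finsupp.single P n) (by rw [hdeg]; exact hn)
  rw [hdeg] at this
  exact this

/-- membership in `L(m P)` -/
theorem mem_L_single_iff {P : Place K F} {m : ℤ} {f : F} (hf : f ≠ 0) :
    f ∈ riemannRochSpace (Finsupp.single P m) ↔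
      -m ≤ P.ord f ∧ ∀ v : Place K F, v ≠ P → 0 ≤ v.ord f := by
  classical
  rw [Fermat.Agent.P2.helper74.mem_L_iff' hf]
  constructor
  · intro h
    refine ⟨?_, fun v hv => ?_⟩
    · have := h P
      rwa [Finsupp.single_eq_same] at this
    · have := h v
      rwa [Finsupp.single_apply, if_neg (Ne.symm hv), neg_zero] at this
  · rintro ⟨h1, h2⟩ v
    by_cases hv : v = P
    · subst hv
      rwa [Finsupp.single_eq_same]
    · rw [Finsupp.single_apply, if_neg (Ne.symm hv), neg_zero]
      exact h2 v hv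

/-- **Riemann**: for large `m` there is a function with a pole of exact order `m` at `P` which
is regular at all other places. -/
theorem exists_exact_at (hS : Fermat.Agent.P2.helper74.RiemannSetting K F) {g : ℕ}
    (hg : Fermat.Agent.P2.helper74.HasRiemannGenus K F g) (P : Place K F) :
    ∃ c : ℤ, ∀ m : ℤ, c ≤ m → ∃ y : F, y ∈ riemannRochSpace (Finsupp.single P m) ∧ y ≠ 0 ∧
      P.ord y = -m := by
  classical
  obtain ⟨c, hc⟩ := hg
  refine ⟨c + 1, fun m hm => ?_⟩
  by_contra hcon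
  push Not at hcon
  have hdeg : ∀ n : ℤ, Divisor.degree (Finsupp.single P n) = n := by
    intro n
    rw [Divisor.degree_single, hS.deg_one P]
    simp
  have h1 := hc (Finsupp.single P m) (by rw [hdeg]; omega)
  have h2 := hc (Finsupp.single P (m - 1)) (by rw [hdeg]; omega)
  rw [hdeg] at h1 h2
  have hle : riemannRochSpace (Finsupp.single P m) ≤
      riemannRochSpace (Finsupp.single P (m - 1)) := by
    intro y hy
    by_cases hy0 : y = 0
    · rw [hy0]
      exact Submodule.zero_mem _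
    have h3 := (mem_L_single_iff hy0).mp hy
    rw [mem_L_single_iff hy0]
    refine ⟨?_, h3.2⟩
    have h4 := hcon y hy hy0
    have h5 := h3.1
    omega
  haveI := Fermat.Agent.P2.helper74.finiteDimensional_L hS (Finsupp.single P (m - 1))
  have hfr := Submodule.finrank_mono hle
  unfold Fermat.Agent.P2.helper74.ell at h1 h2
  omega

end Generic

/-! ### The function-field form of the hypotheses -/

section Hyp

variable (A : ValuationSubring Kb)
variable {F : Type*} [Field F] [Algebra Kb F] {Fb : Type*} [Field Fb] [Algebra (kA A) Fb]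
variable (E : F →ₐ[Kb] LaurentSeries Kb) (Eb : Fb →ₐ[kA A] LaurentSeries (kA A))
variable (P : Place Kb F) (Q : Place (kA A) Fb)

/-- **(Scale + Reg) at the pair of places `(P, Q)`**: every nonzero `f ∈ L(m P)` has a scalar
multiple whose expansion is `A`-integral and reduces to the expansion of a nonzero element of
`L̄(m Q)`. -/
def ScaleRegC : Prop :=
  ∀ (m : ℤ) (f : F), f ∈ riemannRochSpace (Finsupp.single P m) → f ≠ 0 →
    ∃ (c : Kb) (Y : LaurentSeries A) (fb : Fb), c ≠ 0 ∧ incl A Y = c • E f ∧ fb ≠ 0 ∧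
      fb ∈ riemannRochSpace (Finsupp.single Q m) ∧ Eb fb = red A Y

/-- **(Gal) at the place `P`**: the coefficientwise action of `G` preserves the expansions of
`L(m P)`. -/
def GalC (G : Set (Kb ≃ₐ[ℚ] Kb)) : Prop :=
  ∀ σ ∈ G, ∀ (m : ℤ) (f : F), f ∈ riemannRochSpace (Finsupp.single P m) →
    ∃ f' : F, f' ∈ riemannRochSpace (Finsupp.single P m) ∧
      E f' = coeffMap ((σ : Kb ≃ₐ[ℚ] Kb) : Kb →+* Kb) (E f)

variable {A E Eb P Q}

theorem ScaleRegC.abs (h : ScaleRegC A E Eb P Q) (m : ℤ) :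
    ScaleRegAbs A (VC E P m) (VC Eb Q m) := by
  intro u hu hu0
  obtain ⟨f, hf, rfl⟩ := mem_VC_iff.mp hu
  have hf0 : f ≠ 0 := by
    rintro rfl
    exact hu0 (map_zero E)
  obtain ⟨c, Y, fb, hc, hY, hfb0, hfb, hEb⟩ := h m f hf hf0
  refine ⟨c, hc, Y, hY, ?_, ?_⟩
  · rw [← hEb]
    intro h0
    exact hfb0 (Eb.toRingHom.injective (by rw [AlgHom.toRingHom_eq_coe, RingHom.coe_coe, h0,
      map_zero]))
  · rw [← hEb]
    exact mem_VC hfb

theorem GalC.abs {G : Set (Kb ≃ₐ[ℚ] Kb)} (h : GalC E P G) (m : ℤ) :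
    ∀ σ ∈ G, ∀ u ∈ VC E P m, coeffMap ((σ : Kb ≃ₐ[ℚ] Kb) : Kb →+* Kb) u ∈ VC E P m := by
  intro σ hσ u hu
  obtain ⟨f, hf, rfl⟩ := mem_VC_iff.mp hu
  obtain ⟨f', hf', e⟩ := h σ hσ m f hf
  rw [← e]
  exact mem_VC hf'

end Hyp

/-! ### The main theorems -/

section Main

variable {A : ValuationSubring Kb}
variable {F : Type*} [Field F] [Algebra Kb F] {Fb : Type*} [Field Fb] [Algebra (kA A) Fb]
variable {E : F →ₐ[Kb] LaurentSeries Kb} {Eb : Fb →ₐ[kA A] LaurentSeries (kA A)}
variable {P : Place Kb F} {Q : Place (kA A) Fb}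

/-- **[SURJ] at `(P, Q)`**: for large `m` every element of `L̄(m Q)` is the reduction of an
integral element of `L(m P)`. -/
theorem surjRed_at (hS : Fermat.Agent.P2.helper74.RiemannSetting Kb F)
    (hSb : Fermat.Agent.P2.helper74.RiemannSetting (kA A) Fb) {g : ℕ}
    (hg : Fermat.Agent.P2.helper74.HasRiemannGenus Kb F g)
    (hgb : Fermat.Agent.P2.helper74.HasRiemannGenus (kA A) Fb g)
    (hSR : ScaleRegC A E Eb P Q) :
    ∃ c : ℤ, ∀ m : ℤ, c ≤ m → SurjAbs A (VC E P m) (VC Eb Q m) := by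
  obtain ⟨c, hc⟩ := exists_finrank_VC hS hg E P
  obtain ⟨cb, hcb⟩ := exists_finrank_VC hSb hgb Eb Q
  refine ⟨max c cb, fun m hm => ?_⟩
  have h1 := hc m (le_trans (le_max_left _ _) hm)
  have h2 := hcb m (le_trans (le_max_right _ _) hm)
  haveI := finite_VC hS E P m
  haveI := finite_VC hSb Eb Q m
  apply surjAbs_of_finrank_le (hSR.abs m).scale (hSR.abs m).reg
  have : (Module.finrank (kA A) (VC Eb Q m) : ℤ) = (Module.finrank Kb (VC E P m) : ℤ) := by
    omega
  exact le_of_eq (by exact_mod_cast this)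

/-- **[XPOLE] at `(P, Q)`**: for `m ≥ m₀` there is `x ∈ L(m P)` whose expansion is integral,
of the form `t^(-d m) + …`, with coefficients fixed by `G`. -/
theorem exists_exactPole_at (hS : Fermat.Agent.P2.helper74.RiemannSetting Kb F)
    (hSb : Fermat.Agent.P2.helper74.RiemannSetting (kA A) Fb) {g : ℕ}
    (hg : Fermat.Agent.P2.helper74.HasRiemannGenus Kb F g)
    (hgb : Fermat.Agent.P2.helper74.HasRiemannGenus (kA A) Fb g)
    (d : ℕ) (hord : ∀ f : F, f ≠ 0 → (E f).order = (d : ℤ) * P.ord f)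
    (hordb : ∀ f : Fb, f ≠ 0 → (Eb f).order = (d : ℤ) * Q.ord f)
    (hSR : ScaleRegC A E Eb P Q) (G : Set (Kb ≃ₐ[ℚ] Kb)) (hG : GalC E P G) :
    ∃ m₀ : ℕ, ∀ m : ℕ, m₀ ≤ m → ∃ (x : F) (X : LaurentSeries A),
      x ∈ riemannRochSpace (Finsupp.single P (m : ℤ)) ∧ E x = incl A X ∧
      X.coeff (-((d : ℤ) * m)) = 1 ∧ (∀ k : ℤ, k < -((d : ℤ) * m) → X.coeff k = 0) ∧
      ∀ σ ∈ G, ∀ k : ℤ, σ ((X.coeff k : A) : Kb) = ((X.coeff k : A) : Kb) := by
  obtain ⟨c, hc⟩ := surjRed_at hS hSb hg hgb hSR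
  obtain ⟨cb, hcb⟩ := exists_exact_at hSb hgb Q
  refine ⟨(max c cb).toNat, fun m hm => ?_⟩
  have hm' : max c cb ≤ (m : ℤ) := by
    have := Int.self_le_toNat (max c cb)
    have h2 : ((max c cb).toNat : ℤ) ≤ (m : ℤ) := by exact_mod_cast hm
    omega
  haveI := finite_VC hSb Eb Q (m : ℤ)
  -- `-(d m)` is a pivot
  obtain ⟨y, hy, hy0, hyord⟩ := hcb m (le_trans (le_max_right _ _) hm')
  have hEy0 : Eb y ≠ 0 := fun h0 => hy0 (Eb.toRingHom.injective (by
    rw [AlgHom.toRingHom_eq_coe, RingHom.coe_coe, h0, map_zero]))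
  have hpiv : IsPivotAbs A (VC Eb Q (m : ℤ)) (-((d : ℤ) * m)) := by
    have := isPivotAbs_of_ne_zero (A := A) (mem_VC hy) hEy0
    rw [hordb y hy0, hyord] at this
    rw [show -((d : ℤ) * m) = (d : ℤ) * -(m : ℤ) by ring]
    exact this
  obtain ⟨X, hXV, hX1, -, hXfix⟩ := exists_pivotAbs_elt_fix (hSR.abs m)
    (hc m (le_trans (le_max_left _ _) hm')) G (hG.abs m) hpiv
  obtain ⟨x, hx, hxE⟩ := mem_VC_iff.mp hXV
  refine ⟨x, X, hx, hxE, hX1, fun k hk => ?_, hXfix⟩
  have hx0 : x ≠ 0 := by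
    rintro rfl
    rw [map_zero] at hxE
    have : X = 0 := incl_injective' A (by rw [← hxE, map_zero])
    rw [this] at hX1
    simp at hX1
  have h1 := ((mem_L_single_iff hx0).mp hx).1
  have h2 := hord x hx0
  have h3 : (incl A X).coeff k = 0 := by
    apply HahnSeries.coeff_eq_zero_of_lt_order
    rw [← hxE, h2]
    have : (d : ℤ) * -(m : ℤ) ≤ (d : ℤ) * P.ord x :=
      mul_le_mul_of_nonneg_left h1 (Int.natCast_nonneg d)
    linarith
  rw [coeffMap_coeff] at h3
  exact Subtype.ext h3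

/-- **[SURJ-FIX] at `(P, Q)`**: for large `m` every element of `L̄(m Q)` is the reduction of an
integral element of `L(m P)` with `G`-fixed coefficients, provided residue classes have `G`-fixed
lifts. -/
theorem surjRedFix_at (hS : Fermat.Agent.P2.helper74.RiemannSetting Kb F)
    (hSb : Fermat.Agent.P2.helper74.RiemannSetting (kA A) Fb) {g : ℕ}
    (hg : Fermat.Agent.P2.helper74.HasRiemannGenus Kb F g)
    (hgb : Fermat.Agent.P2.helper74.HasRiemannGenus (kA A) Fb g)
    (hSR : ScaleRegC A E Eb P Q) (G : Set (Kb ≃ₐ[ℚ] Kb)) (hG : GalC E P G)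
    (hres : ∀ c : kA A, ∃ b : A, IsLocalRing.residue A b = c ∧
      ∀ σ ∈ G, σ ((b : A) : Kb) = ((b : A) : Kb)) :
    ∃ c : ℤ, ∀ m : ℤ, c ≤ m → ∀ y : Fb, y ∈ riemannRochSpace (Finsupp.single Q m) →
      ∃ (x : F) (X : LaurentSeries A), x ∈ riemannRochSpace (Finsupp.single P m) ∧
        E x = incl A X ∧ red A X = Eb y ∧
        ∀ σ ∈ G, ∀ k : ℤ, σ ((X.coeff k : A) : Kb) = ((X.coeff k : A) : Kb) := by
  obtain ⟨c, hc⟩ := surjRed_at hS hSb hg hgb hSR
  refine ⟨c, fun m hm y hy => ?_⟩
  haveI := finite_VC hSb Eb Q m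
  obtain ⟨X, hXV, hXy, hXfix⟩ := exists_fixed_liftAbs (hSR.abs m) (hc m hm) G (hG.abs m) hres
    (mem_VC hy)
  obtain ⟨x, hx, hxE⟩ := mem_VC_iff.mp hXV
  exact ⟨x, X, hx, hxE, hXy, hXfix⟩

end Main

end Fermat.Agent.T3.helper96

end
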