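/-
T3 (S36), helper96, row 1080 [XPOLE-c], family form: **exact-pole elements at every cusp from
ONE key statement**.

`ι` indexes the cusp expansions (cosets) of a function field `F / ℚ̄` and of its reduction
`Fb / k`: `E i : F →ₐ ℚ̄((t))`, `Eb i : Fb →ₐ k((t))`, places `P i`, `Q i` with
`order (E i f) = d i * ord_{P i} f`, `order (Eb i f) = d i * ord_{Q i} f`.

* `KeyFam`  : every nonzero function regular off the cusps `P i` has a scalar multiple whose
              expansions at ALL `i` are `A`-integral and reduce to the expansions of ONE nonzero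
              function of `Fb` regular off the cusps `Q i`  (= Scale at one cusp + compatibility of
              the coset expansions with reduction).
* `KeyFam.scaleRegC`      : (Scale + Reg) at every `i`.
* `galC_of_fam`           : (Gal) at every `i` from an action of `G` on `F` compatible with the
                            expansions.
* `exists_exactPole_fam`  : for every `i` and `m ≥ m₀` an `x ∈ L(m P_i)`, fixed by `G`, integral at
                            every `i'`, with `E i x = t^(-d_i m) + …`, without pole at the other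
                            cusps.
-/
import Mathlib
import Fermat.Agent.T3.helper96_XPoleC

set_option autoImplicit false
set_option synthInstance.maxHeartbeats 400000
set_option maxHeartbeats 1000000
set_option linter.style.haveILetI false
set_option linter.unusedSectionVars false

noncomputable section

open HahnSeries ModularCurve AlgebraicCurve
open Fermat.Agent.S18.helper19 Fermat.Agent.P2.helper29

namespace Fermat.Agent.T3.helper96

/-! ### Orders and reduction -/

section Order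

variable (A : ValuationSubring Kb)

/-- a lower bound for the order passes to the reduction of an integral scalar multiple -/
theorem le_order_red_of_incl {c : Kb} {u : LaurentSeries Kb} {Y : LaurentSeries A}
    (hY : incl A Y = c • u) {n : ℤ} (hn : ∀ k : ℤ, k < n → u.coeff k = 0)
    (h0 : red A Y ≠ 0) : n ≤ (red A Y).order := by
  by_contra hlt
  push Not at hlt
  have h1 : (incl A Y).coeff (red A Y).order = 0 := by
    rw [hY, HahnSeries.coeff_smul, hn _ hlt, smul_zero]
  have h2 : Y.coeff (red A Y).order = 0 := by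
    rw [coeffMap_coeff] at h1
    exact Subtype.ext h1
  have h3 : (red A Y).coeff (red A Y).order = 0 := by
    rw [coeffMap_coeff, h2, map_zero]
  exact h0 (HahnSeries.coeff_order_eq_zero.mp h3)

theorem coeff_eq_zero_of_incl {c : Kb} {u : LaurentSeries Kb}
    {Y : LaurentSeries A} (hY : incl A Y = c • u) {n : ℤ}
    (hn : ∀ k : ℤ, k < n → u.coeff k = 0) : ∀ k : ℤ, k < n → Y.coeff k = 0 := by
  intro k hk
  have h1 : (incl A Y).coeff k = 0 := by
    rw [hY, HahnSeries.coeff_smul, hn _ hk, smul_zero]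
  rw [coeffMap_coeff] at h1
  exact Subtype.ext h1

end Order

/-! ### The key statement -/

section Fam

variable (A : ValuationSubring Kb)
variable {F : Type*} [Field F] [Algebra Kb F] {Fb : Type*} [Field Fb] [Algebra (kA A) Fb]
variable {ι : Type*}
variable (E : ι → F →ₐ[Kb] LaurentSeries Kb) (Eb : ι → Fb →ₐ[kA A] LaurentSeries (kA A))
variable (P : ι → Place Kb F) (Q : ι → Place (kA A) Fb)

/-- **[KEY]** every nonzero function which is regular off the cusps has a scalar multiple whose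
expansions at all cusps are `A`-integral and reduce to the expansions of one nonzero function on
the special fibre which is regular off the cusps. -/
def KeyFam : Prop :=
  ∀ f : F, f ≠ 0 → (∀ v : Place Kb F, (∀ i, v ≠ P i) → 0 ≤ v.ord f) →
    ∃ (c : Kb) (fb : Fb), c ≠ 0 ∧ fb ≠ 0 ∧
      (∀ w : Place (kA A) Fb, (∀ i, w ≠ Q i) → 0 ≤ w.ord fb) ∧
      ∀ i, ∃ Y : LaurentSeries A, incl A Y = c • E i f ∧ red A Y = Eb i fb

variable {A E Eb P Q}
variable (d : ι → ℕ)

theorem order_nonneg_of_ord {i : ι} (hord : ∀ i (f : F), f ≠ 0 → (E i f).order = (d i : ℤ) *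
    (P i).ord f) {f : F} {n : ℤ} (hf : n ≤ (P i).ord f) :
    ∀ k : ℤ, k < (d i : ℤ) * n → (E i f).coeff k = 0 := by
  intro k hk
  by_cases hf0 : f = 0
  · rw [hf0, map_zero]
    rfl
  apply HahnSeries.coeff_eq_zero_of_lt_order
  rw [hord i f hf0]
  have : (d i : ℤ) * n ≤ (d i : ℤ) * (P i).ord f :=
    mul_le_mul_of_nonneg_left hf (Int.natCast_nonneg _)
  omega

/-- **(Scale + Reg) at every cusp** from the key statement. -/
theorem KeyFam.scaleRegC (hK : KeyFam A E Eb P Q) (hd : ∀ i, 0 < d i)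
    (hord : ∀ i (f : F), f ≠ 0 → (E i f).order = (d i : ℤ) * (P i).ord f)
    (hordb : ∀ i (f : Fb), f ≠ 0 → (Eb i f).order = (d i : ℤ) * (Q i).ord f)
    (hPQ : ∀ i i', P i = P i' → Q i = Q i') (i : ι) :
    ScaleRegC A (E i) (Eb i) (P i) (Q i) := by
  intro m f hf hf0
  have hfL := (mem_L_single_iff hf0).mp hf
  have hreg : ∀ v : Place Kb F, (∀ i, v ≠ P i) → 0 ≤ v.ord f := fun v hv => hfL.2 v (hv i)
  obtain ⟨c, fb, hc, hfb0, hfbreg, hY⟩ := hK f hf0 hreg
  have hEb0 : ∀ i', Eb i' fb ≠ 0 := fun i' h0 => hfb0 ((Eb i').toRingHom.injective (by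
    rw [AlgHom.toRingHom_eq_coe, RingHom.coe_coe, h0, map_zero]))
  -- the order of `fb` at `Q i'` from the order of `f` at `P i'`
  have hkey : ∀ (i' : ι) (n : ℤ), n ≤ (P i').ord f → n ≤ (Q i').ord fb := by
    intro i' n hn
    obtain ⟨Y', hY'1, hY'2⟩ := hY i'
    have h1 := le_order_red_of_incl A hY'1 (order_nonneg_of_ord d hord hn)
      (by rw [hY'2]; exact hEb0 i')
    rw [hY'2, hordb i' fb hfb0] at h1
    have hdpos : (0 : ℤ) < (d i' : ℤ) := by exact_mod_cast hd i'
    exact le_of_mul_le_mul_left h1 hdpos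
  obtain ⟨Y, hY1, hY2⟩ := hY i
  refine ⟨c, Y, fb, hc, hY1, hfb0, ?_, hY2.symm⟩
  rw [mem_L_single_iff hfb0]
  refine ⟨hkey i _ hfL.1, fun w hw => ?_⟩
  by_cases hex : ∃ i', w = Q i'
  · obtain ⟨i', rfl⟩ := hex
    have hne : P i' ≠ P i := fun h => hw (hPQ i' i h)
    exact hkey i' 0 (hfL.2 _ hne)
  · push Not at hex
    exact hfbreg w hex

end Fam

/-! ### Galois stability -/

section Gal

variable {F : Type*} [Field F] [Algebra Kb F] {ι : Type*}
variable {E : ι → F →ₐ[Kb] LaurentSeries Kb} {P : ι → Place Kb F} (d : ι → ℕ)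

theorem order_coeffMap_aut (σ : Kb ≃ₐ[ℚ] Kb) (u : LaurentSeries Kb) {n : ℤ}
    (hn : ∀ k : ℤ, k < n → u.coeff k = 0) :
    ∀ k : ℤ, k < n → (coeffMap ((σ : Kb ≃ₐ[ℚ] Kb) : Kb →+* Kb) u).coeff k = 0 := by
  intro k hk
  rw [coeffMap_coeff, hn k hk, map_zero]

/-- **(Gal) at every cusp** from an action of `G` on `F` which is compatible with the
expansions and preserves the functions regular off the cusps. -/
theorem galC_of_fam (hd : ∀ i, 0 < d i)
    (hord : ∀ i (f : F), f ≠ 0 → (E i f).order = (d i : ℤ) * (P i).ord f)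
    (G : Set (Kb ≃ₐ[ℚ] Kb)) (gal : (Kb ≃ₐ[ℚ] Kb) → F → F)
    (hgal : ∀ σ ∈ G, ∀ i (f : F),
      E i (gal σ f) = coeffMap ((σ : Kb ≃ₐ[ℚ] Kb) : Kb →+* Kb) (E i f))
    (hreg : ∀ σ ∈ G, ∀ f : F, (∀ v : Place Kb F, (∀ i, v ≠ P i) → 0 ≤ v.ord f) →
      ∀ v : Place Kb F, (∀ i, v ≠ P i) → 0 ≤ v.ord (gal σ f)) (i : ι) :
    GalC (E i) (P i) G := by
  intro σ hσ m f hf
  refine ⟨gal σ f, ?_, hgal σ hσ i f⟩
  by_cases hf0 : f = 0
  · have h0 : gal σ f = 0 := by
      apply (E i).toRingHom.injective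
      rw [AlgHom.toRingHom_eq_coe, RingHom.coe_coe, hgal σ hσ i f, hf0]
      simp
    rw [h0]
    exact Submodule.zero_mem _
  have hg0 : gal σ f ≠ 0 := by
    intro h0
    have h1 := hgal σ hσ i f
    rw [h0, map_zero] at h1
    have h2 : E i f = 0 := by
      ext k
      have := congrArg (fun z : LaurentSeries Kb => z.coeff k) h1
      simp only [HahnSeries.coeff_zero, coeffMap_coeff] at this
      rw [HahnSeries.coeff_zero]
      exact (map_eq_zero_iff _ (σ : Kb →+* Kb).injective).mp this.symm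
    exact hf0 ((E i).toRingHom.injective (by
      rw [AlgHom.toRingHom_eq_coe, RingHom.coe_coe, h2, map_zero]))
  have hfL := (mem_L_single_iff hf0).mp hf
  -- orders at the cusps
  have hkey : ∀ (i' : ι) (n : ℤ), n ≤ (P i').ord f → n ≤ (P i').ord (gal σ f) := by
    intro i' n hn
    have h1 := order_coeffMap_aut σ _ (order_nonneg_of_ord d hord hn)
    rw [← hgal σ hσ i' f] at h1
    have hE0 : E i' (gal σ f) ≠ 0 := fun h0 => hg0 ((E i').toRingHom.injective (by
      rw [AlgHom.toRingHom_eq_coe, RingHom.coe_coe, h0, map_zero]))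
    have h2 : (d i' : ℤ) * n ≤ (E i' (gal σ f)).order := by
      by_contra hlt
      push Not at hlt
      exact hE0 (HahnSeries.coeff_order_eq_zero.mp (h1 _ hlt))
    rw [hord i' _ hg0] at h2
    have hdpos : (0 : ℤ) < (d i' : ℤ) := by exact_mod_cast hd i'
    exact le_of_mul_le_mul_left h2 hdpos
  rw [mem_L_single_iff hg0]
  refine ⟨hkey i _ hfL.1, fun v hv => ?_⟩
  by_cases hex : ∃ i', v = P i'
  · obtain ⟨i', rfl⟩ := hex
    exact hkey i' 0 (hfL.2 _ hv)
  · push Not at hex
    exact hreg σ hσ f (fun v hv => hfL.2 v (hv i)) v hex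

end Gal

/-! ### The exact-pole elements at every cusp -/

section MainFam

variable {A : ValuationSubring Kb}
variable {F : Type*} [Field F] [Algebra Kb F] {Fb : Type*} [Field Fb] [Algebra (kA A) Fb]
variable {ι : Type*}
variable {E : ι → F →ₐ[Kb] LaurentSeries Kb} {Eb : ι → Fb →ₐ[kA A] LaurentSeries (kA A)}
variable {P : ι → Place Kb F} {Q : ι → Place (kA A) Fb}

/-- **[XPOLE-c], family form.** For every index `i` and every `m ≥ m₀` there is a function
`x ∈ L(m P_i)`, fixed by `G`, whose expansions at ALL indices are `A`-integral, with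
`E i x = t^(-d_i m) + …` (coefficients fixed by `G`) and without pole at the indices `i'` with
`P i' ≠ P i`. -/
theorem exists_exactPole_fam (hS : Fermat.Agent.P2.helper74.RiemannSetting Kb F)
    (hSb : Fermat.Agent.P2.helper74.RiemannSetting (kA A) Fb) {g : ℕ}
    (hg : Fermat.Agent.P2.helper74.HasRiemannGenus Kb F g)
    (hgb : Fermat.Agent.P2.helper74.HasRiemannGenus (kA A) Fb g)
    (d : ι → ℕ) (hd : ∀ i, 0 < d i)
    (hord : ∀ i (f : F), f ≠ 0 → (E i f).order = (d i : ℤ) * (P i).ord f)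
    (hordb : ∀ i (f : Fb), f ≠ 0 → (Eb i f).order = (d i : ℤ) * (Q i).ord f)
    (hPQ : ∀ i i', P i = P i' → Q i = Q i')
    (hK : KeyFam A E Eb P Q)
    (G : Set (Kb ≃ₐ[ℚ] Kb)) (gal : (Kb ≃ₐ[ℚ] Kb) → F → F)
    (hgal : ∀ σ ∈ G, ∀ i (f : F),
      E i (gal σ f) = coeffMap ((σ : Kb ≃ₐ[ℚ] Kb) : Kb →+* Kb) (E i f))
    (hreg : ∀ σ ∈ G, ∀ f : F, (∀ v : Place Kb F, (∀ i, v ≠ P i) → 0 ≤ v.ord f) →
      ∀ v : Place Kb F, (∀ i, v ≠ P i) → 0 ≤ v.ord (gal σ f)) (i : ι) :
    ∃ m₀ : ℕ, ∀ m : ℕ, m₀ ≤ m → ∃ (x : F) (X : ι → LaurentSeries A),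
      x ∈ riemannRochSpace (Finsupp.single (P i) (m : ℤ)) ∧
      (∀ σ ∈ G, gal σ x = x) ∧
      (∀ i', E i' x = incl A (X i')) ∧
      (X i).coeff (-((d i : ℤ) * m)) = 1 ∧
      (∀ k : ℤ, k < -((d i : ℤ) * m) → (X i).coeff k = 0) ∧
      (∀ i', P i' ≠ P i → ∀ k : ℤ, k < 0 → (X i').coeff k = 0) ∧
      ∀ σ ∈ G, ∀ i' (k : ℤ), σ (((X i').coeff k : A) : Kb) = (((X i').coeff k : A) : Kb) := by
  classical
  have hSR := hK.scaleRegC d hd hord hordb hPQ i
  have hG := galC_of_fam d hd hord G gal hgal hreg i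
  obtain ⟨m₀, hm₀⟩ := exists_exactPole_at hS hSb hg hgb (d i) (hord i) (hordb i) hSR G hG
  refine ⟨m₀, fun m hm => ?_⟩
  obtain ⟨x, X, hx, hxE, hX1, hX0, hXfix⟩ := hm₀ m hm
  have hx0 : x ≠ 0 := by
    rintro rfl
    rw [map_zero] at hxE
    have : X = 0 := incl_injective' A (by rw [← hxE, map_zero])
    rw [this] at hX1
    simp at hX1
  have hxL := (mem_L_single_iff hx0).mp hx
  -- `x` is fixed by `G`
  have hxfix : ∀ σ ∈ G, gal σ x = x := by
    intro σ hσ
    apply (E i).toRingHom.injective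
    rw [AlgHom.toRingHom_eq_coe, RingHom.coe_coe, hgal σ hσ i x, hxE]
    ext k
    rw [coeffMap_coeff, coeffMap_coeff]
    exact hXfix σ hσ k
  -- integrality at all indices
  obtain ⟨c, fb, hc, hfb0, -, hY⟩ := hK x hx0 (fun v hv => hxL.2 v (hv i))
  have hEb0 : ∀ i', Eb i' fb ≠ 0 := fun i' h0 => hfb0 ((Eb i').toRingHom.injective (by
    rw [AlgHom.toRingHom_eq_coe, RingHom.coe_coe, h0, map_zero]))
  obtain ⟨Yi, hYi1, hYi2⟩ := hY i
  have hredX : red A X ≠ 0 := by
    intro h0
    have := congrArg (fun z : LaurentSeries (kA A) => z.coeff (-((d i : ℤ) * m))) h0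
    simp only [coeffMap_coeff, hX1, map_one, HahnSeries.coeff_zero] at this
    exact one_ne_zero this
  obtain ⟨a, ha, hac⟩ := exists_unit_of_red_ne_zero A (c := c) (Y := X) (Y' := Yi)
    (by rw [hYi1, hxE]) hredX (by rw [hYi2]; exact hEb0 i)
  obtain ⟨u, hu⟩ := ha
  have hint : ∀ i', ∃ Z : LaurentSeries A, E i' x = incl A Z := by
    intro i'
    obtain ⟨Y', hY'1, -⟩ := hY i'
    refine ⟨HahnSeries.C ((u⁻¹ : Aˣ) : A) * Y', ?_⟩
    rw [incl_C_mul'', hY'1, smul_smul]
    have : ((((u⁻¹ : Aˣ) : A) : A) : Kb) * c = 1 := by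
      rw [← hac, ← hu]
      have := u.inv_mul
      exact_mod_cast congrArg (fun z : A => (z : Kb)) this
    rw [this, one_smul]
  choose Z hZ using hint
  have hZi : Z i = X := incl_injective' A (by rw [← hZ i, hxE])
  refine ⟨x, Z, hx, hxfix, hZ, by rw [hZi]; exact hX1, by rw [hZi]; exact hX0, ?_, ?_⟩
  · intro i' hne k hk
    have h1 := order_nonneg_of_ord d hord (i := i') (f := x) (n := 0) (hxL.2 _ hne) k
      (by rw [mul_zero]; exact hk)
    rw [hZ i', coeffMap_coeff] at h1
    exact Subtype.ext h1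
  · intro σ hσ i' k
    have h1 := hgal σ hσ i' x
    rw [hxfix σ hσ, hZ i'] at h1
    have := congrArg (fun z : LaurentSeries Kb => z.coeff k) h1
    simp only [coeffMap_coeff] at this
    exact this.symm

end MainFam

end Fermat.Agent.T3.helper96

end
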