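/-
T3 (S36), helper74: bridge from the family form of [XPOLE-c]
(`helper96.exists_exactPole_fam`, all cosets, raw parameters) to the contract `XPoleAllD` of
`helper74_Sat3TwRaw` for the ring `B = regJ (N q q)` of the functions regular off ALL cusps.

* `isRegJ_dgF`        : the three pull-backs preserve "regular where `j` is finite";
* `isRegJ_of_mem_L`   : `L(m P) ⊆ regJ` for a pole `P` of `j`;
* `xPoleAllD_of_fam`  : the bridge (`𝒞 → ι` a choice of one coset per cusp).
-/
import Mathlib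
import Fermat.Agent.T3.helper74_Sat3TwRaw
import Fermat.Agent.T3.helper98_NormRegJ
import Fermat.Agent.T3.helper96_XPoleFam

set_option autoImplicit false
set_option synthInstance.maxHeartbeats 400000
set_option maxHeartbeats 1000000
set_option linter.unusedSectionVars false
set_option linter.style.haveILetI false

noncomputable section

open HahnSeries IntermediateField AlgebraicCurve ModularCurve
open Fermat.Agent.S18.helper19 Fermat.Agent.P2.helper29 Fermat.Agent.T2.helper36
open Fermat.Agent.T2.helper96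

namespace Fermat.Agent.T3.helper74

section Bridge

variable {N q : ℕ} [NeZero N] [NeZero q]

/-- the three pull-backs preserve "regular where `j` is finite" -/
theorem isRegJ_dgF (hq : q.Prime) (hqN : ¬ q ∣ N) {x : FF N}
    (hx : Fermat.Agent.T3.helper98.IsRegJ N x) (e : Fin 3) :
    Fermat.Agent.T3.helper98.IsRegJ (N * q * q) (dgF N q e x) := by
  have h0 : Fermat.Agent.T3.helper98.IsRegJ (N * q * q) (dg0 N q x) :=
    Fermat.Agent.T3.helper98.isRegJ_alpha_alpha hx
  rcases fin3_cases e with rfl | rfl | rfl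
  · exact h0
  · show Fermat.Agent.T3.helper98.IsRegJ (N * q * q) (dg1 N q x)
    have h1 : dg1 N q x = heckeBetaBar Kb (N * q) q (heckeAlphaBar Kb N q x) := by
      rw [dg1, AlgHom.comp_apply]
      exact Fermat.Agent.T3.helper48.heckeAlphaBar_heckeBetaBar N q x
    rw [h1]
    exact Fermat.Agent.T3.helper98.isRegJ_beta hq hqN
      (Fermat.Agent.T3.helper98.isRegJ_alpha hx)
  · show Fermat.Agent.T3.helper98.IsRegJ (N * q * q) (dg2 N q x)
    rw [← atkinLehnerSq_dg0 (hq := hq) (hqN := hqN)]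
    exact Fermat.Agent.T3.helper98.isRegJ_atkinLehnerSq h0

/-- `L(m P) ⊆ regJ` for a pole `P` of `j` -/
theorem isRegJ_of_mem_L {P : Place Kb (FF N)} (hPj : P.ord (jElt N) < 0) {m : ℤ} {x : FF N}
    (hx : x ∈ riemannRochSpace (Finsupp.single P m)) :
    Fermat.Agent.T3.helper98.IsRegJ N x := by
  by_cases hx0 : x = 0
  · rw [hx0]
    exact Fermat.Agent.T3.helper98.isRegJ_zero
  · intro v hv
    refine ((Fermat.Agent.T3.helper96.mem_L_single_iff hx0).mp hx).2 v ?_
    rintro rfl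
    exact absurd hv (not_le.mpr hPj)

variable {A : ValuationSubring Kb}

/-- **bridge**: the family form of [XPOLE-c] gives the contract `XPoleAllD` for `B = regJ`. -/
theorem xPoleAllD_of_fam {ι 𝒞 : Type*} [Finite 𝒞] (hq : q.Prime) (hqN : ¬ q ∣ N)
    (E : ι → FF N →ₐ[Kb] LaurentSeries Kb) (P : ι → Place Kb (FF N)) (d : ι → ℕ)
    (s : 𝒞 → ι) (hs : Function.Injective (fun c => P (s c)))
    (hPj : ∀ c, (P (s c)).ord (jElt N) < 0)
    (h : ∀ i : ι, ∃ m₀ : ℕ, ∀ m : ℕ, m₀ ≤ m → ∃ (x : FF N) (X : ι → LaurentSeries A),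
      x ∈ riemannRochSpace (Finsupp.single (P i) (m : ℤ)) ∧
      (∀ σ ∈ A.inertiaSubgroupIn ℚ,
        arithmeticRingAut (modularFunctionFieldFull N) σ x = x) ∧
      (∀ i', E i' x = incl A (X i')) ∧
      (X i).coeff (-((d i : ℤ) * m)) = 1 ∧
      (∀ k : ℤ, k < -((d i : ℤ) * m) → (X i).coeff k = 0) ∧
      (∀ i', P i' ≠ P i → ∀ k : ℤ, k < 0 → (X i').coeff k = 0) ∧
      ∀ σ ∈ A.inertiaSubgroupIn ℚ, ∀ i' (k : ℤ),
        σ (((X i').coeff k : A) : Kb) = (((X i').coeff k : A) : Kb)) :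
    ∃ m₀ : ℕ, XPoleAllD (q := q) A
      (fun c => ((E (s c) : FF N →ₐ[Kb] LaurentSeries Kb) : FF N →+* LaurentSeries Kb))
      (Fermat.Agent.T3.helper98.regJ (N * q * q)) (fun c => d (s c)) m₀ := by
  choose m₁ hm₁ using h
  obtain ⟨M₀, hM₀⟩ := Finite.exists_le (fun c : 𝒞 => m₁ (s c))
  refine ⟨M₀, fun c₀ m hm => ?_⟩
  obtain ⟨x, X, hxL, hxI, hXE, hX1, hX0, hXo, hXfix⟩ := hm₁ (s c₀) m (le_trans (hM₀ c₀) hm)
  have hidx : -((d (s c₀) * m : ℕ) : ℤ) = -((d (s c₀) : ℤ) * m) := by push_cast; ring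
  have hxR : Fermat.Agent.T3.helper98.IsRegJ N x := isRegJ_of_mem_L (hPj c₀) hxL
  refine ⟨x, fun c => X (s c), hxI, fun e => isRegJ_dgF hq hqN hxR e, fun c => (hXE (s c)).symm,
    ?_, fun σ hσ => hXfix σ hσ _ _, ?_, fun c hc k hk => ?_⟩
  · rw [hidx, hX1]
    exact isUnit_one
  · intro k hk
    rw [hidx] at hk
    exact hX0 k hk
  · exact hXo (s c) (fun hP => hc (hs hP)) k hk

end Bridge

/-! ### The two compatibilities from the usual forms -/

section Compat

variable {Lv : ℕ} [NeZero Lv] {A : ValuationSubring Kb} {ι : Type*}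

/-- `ℚ̄`-algebra homomorphisms are compatible with the constants -/
theorem constCompatTw_of_algHom (E : ι → FF Lv →ₐ[Kb] LaurentSeries Kb) :
    ConstCompatTw (fun J => ((E J : FF Lv →ₐ[Kb] LaurentSeries Kb) :
      FF Lv →+* LaurentSeries Kb)) :=
  fun J a => (E J).commutes a

/-- equivariant expansions are compatible with the inertia group -/
theorem galCompatTw_of_equivariant (τ : ι → Fin 3) (E : ι → (FF Lv →+* LaurentSeries Kb))
    (ζ : Kb)
    (h : ∀ (J : ι) (f : FF Lv), ∀ σ ∈ A.inertiaSubgroupIn ℚ, (τ J = 2 → σ ζ = ζ) →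
      E J (arithmeticRingAut (modularFunctionFieldFull Lv) σ f)
        = coeffMap (σ : Kb →+* Kb) (E J f)) :
    GalCompatTw A τ E ζ := by
  intro J f hf σ hσ hσζ
  rw [← h J f σ hσ hσζ, hf σ hσ]

end Compat

end Fermat.Agent.T3.helper74

end
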