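/-
T3 (S36), helper96 [SURJ-ALL], generic family form: **every function on the special fibre which
is regular off the cusps has a `G`-fixed integral lift which is regular off the cusps**, with the
reduction compatible with the expansions at ALL cusps.

Setting of `helper96_XPoleFam`: `(E i, Eb i, P i, Q i, d i)`, `i : ι` (finite), `KeyFam`.

* `cuspDiv P m`        : the divisor `m * (sum of the cusps)`;
* `mem_L_cuspDiv_iff`  : `L(m * cusps)` = regular off the cusps, pole order `≤ m` at the cusps;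
* `surjAll_abs`        : for large `m` every `y ∈ L̄(m * cusps)` has a lift `x ∈ L(m * cusps)`,
                         fixed by `G`, with `E i x = incl (X i)`, `red (X i) = Eb i y` for ALL `i`;
* `surjAll_fam`        : the same for every `y` regular off the cusps.
-/
import Mathlib
import Fermat.Agent.T3.helper96_XPoleFam

set_option autoImplicit false
set_option synthInstance.maxHeartbeats 400000
set_option maxHeartbeats 1000000
set_option linter.style.haveILetI false
set_option linter.unusedSectionVars false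

noncomputable section

open HahnSeries ModularCurve AlgebraicCurve
open Fermat.Agent.S18.helper19 Fermat.Agent.P2.helper29

namespace Fermat.Agent.T3.helper96

/-! ### The divisor of the cusps -/

section CuspDiv

variable {K : Type*} [Field K] {F : Type*} [Field F] [Algebra K F]
variable {ι : Type*} [Fintype ι]

open Classical in
/-- the divisor `m * (sum of the cusps)` -/
def cuspDiv (P : ι → Place K F) (m : ℤ) : Divisor K F :=
  ∑ v ∈ Finset.univ.image P, Finsupp.single v m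

open Classical in
theorem cuspDiv_apply (P : ι → Place K F) (m : ℤ) (v : Place K F) :
    cuspDiv P m v = if ∃ i, v = P i then m else 0 := by
  unfold cuspDiv
  rw [Finsupp.finsetSum_apply]
  split_ifs with h
  · obtain ⟨i, rfl⟩ := h
    rw [Finset.sum_eq_single (P i)]
    · exact Finsupp.single_eq_same
    · intro w _ hw
      exact Finsupp.single_eq_of_ne' hw
    · intro h
      exact absurd (Finset.mem_image_of_mem P (Finset.mem_univ i)) h
  · apply Finset.sum_eq_zero
    intro w hw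
    obtain ⟨i, -, rfl⟩ := Finset.mem_image.mp hw
    apply Finsupp.single_eq_of_ne'
    intro h'
    exact h ⟨i, h'.symm⟩

theorem cuspDiv_apply_cusp (P : ι → Place K F) (m : ℤ) (i : ι) : cuspDiv P m (P i) = m := by
  rw [cuspDiv_apply, if_pos ⟨i, rfl⟩]

theorem cuspDiv_apply_of_ne (P : ι → Place K F) (m : ℤ) {v : Place K F}
    (hv : ∀ i, v ≠ P i) : cuspDiv P m v = 0 := by
  rw [cuspDiv_apply, if_neg]
  rintro ⟨i, hi⟩
  exact hv i hi

open Classical in
theorem degree_cuspDiv (hS : Fermat.Agent.P2.helper74.RiemannSetting K F) (P : ι → Place K F)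
    (m : ℤ) : Divisor.degree (cuspDiv P m) = m * ((Finset.univ.image P).card : ℤ) := by
  unfold cuspDiv
  rw [map_sum]
  have : ∀ v ∈ Finset.univ.image P, Divisor.degree (Finsupp.single v m) = m := by
    intro v _
    rw [Divisor.degree_single, hS.deg_one v]
    simp
  rw [Finset.sum_congr rfl this, Finset.sum_const, nsmul_eq_mul]
  ring

/-- membership in `L(m * cusps)` -/
theorem mem_L_cuspDiv_iff {P : ι → Place K F} {m : ℤ} {f : F} (hf : f ≠ 0) :
    f ∈ riemannRochSpace (cuspDiv P m) ↔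
      (∀ i, -m ≤ (P i).ord f) ∧ ∀ v : Place K F, (∀ i, v ≠ P i) → 0 ≤ v.ord f := by
  rw [Fermat.Agent.P2.helper74.mem_L_iff' hf]
  constructor
  · intro h
    refine ⟨fun i => ?_, fun v hv => ?_⟩
    · have := h (P i)
      rwa [cuspDiv_apply_cusp] at this
    · have := h v
      rwa [cuspDiv_apply_of_ne P m hv, neg_zero] at this
  · rintro ⟨h1, h2⟩ v
    by_cases hv : ∃ i, v = P i
    · obtain ⟨i, rfl⟩ := hv
      rw [cuspDiv_apply_cusp]
      exact h1 i
    · push Not at hv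
      rw [cuspDiv_apply_of_ne P m hv, neg_zero]
      exact h2 v hv

open Classical in
/-- the two fibres have the same number of cusps -/
theorem card_image_eq_of_iff {α β : Type*} (P : ι → α) (Q : ι → β)
    (h : ∀ i i', P i = P i' ↔ Q i = Q i') :
    (Finset.univ.image P).card = (Finset.univ.image Q).card := by
  have h1 : Finset.univ.image P = (Finset.univ.image fun i => (P i, Q i)).image Prod.fst := by
    rw [Finset.image_image]
    rfl
  have h2 : Finset.univ.image Q = (Finset.univ.image fun i => (P i, Q i)).image Prod.snd := by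
    rw [Finset.image_image]
    rfl
  have e1 : (Finset.univ.image P).card = (Finset.univ.image fun i => (P i, Q i)).card := by
    rw [h1]
    apply Finset.card_image_of_injOn
    intro a ha b hb hab
    obtain ⟨i, -, rfl⟩ := Finset.mem_image.mp (Finset.mem_coe.mp ha)
    obtain ⟨i', -, rfl⟩ := Finset.mem_image.mp (Finset.mem_coe.mp hb)
    have hP : P i = P i' := hab
    exact Prod.ext hP ((h i i').mp hP)
  have e2 : (Finset.univ.image Q).card = (Finset.univ.image fun i => (P i, Q i)).card := by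
    rw [h2]
    apply Finset.card_image_of_injOn
    intro a ha b hb hab
    obtain ⟨i, -, rfl⟩ := Finset.mem_image.mp (Finset.mem_coe.mp ha)
    obtain ⟨i', -, rfl⟩ := Finset.mem_image.mp (Finset.mem_coe.mp hb)
    have hQ : Q i = Q i' := hab
    exact Prod.ext ((h i i').mpr hQ) hQ
  exact e1.trans e2.symm

/-- the expansions of `L(m * cusps)` at a fixed index -/
def VAll (E : F →ₐ[K] LaurentSeries K) (P : ι → Place K F) (m : ℤ) :
    Submodule K (LaurentSeries K) :=
  (riemannRochSpace (cuspDiv P m)).map (expLin E)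

theorem mem_VAll_iff {E : F →ₐ[K] LaurentSeries K} {P : ι → Place K F} {m : ℤ}
    {u : LaurentSeries K} :
    u ∈ VAll E P m ↔ ∃ f : F, f ∈ riemannRochSpace (cuspDiv P m) ∧ E f = u := by
  rw [VAll, Submodule.mem_map]
  rfl

theorem mem_VAll {E : F →ₐ[K] LaurentSeries K} {P : ι → Place K F} {m : ℤ} {f : F}
    (hf : f ∈ riemannRochSpace (cuspDiv P m)) : E f ∈ VAll E P m :=
  mem_VAll_iff.mpr ⟨f, hf, rfl⟩

/-- the linear equivalence `L(m * cusps) ≃ VAll E P m` -/
def equivVAll (E : F →ₐ[K] LaurentSeries K) (P : ι → Place K F) (m : ℤ) :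
    riemannRochSpace (cuspDiv P m) ≃ₗ[K] VAll E P m :=
  Submodule.equivMapOfInjective (expLin E) (expLin_injective E) _

theorem finite_VAll (hS : Fermat.Agent.P2.helper74.RiemannSetting K F)
    (E : F →ₐ[K] LaurentSeries K) (P : ι → Place K F) (m : ℤ) :
    Module.Finite K (VAll E P m) :=
  haveI := Fermat.Agent.P2.helper74.finiteDimensional_L hS (cuspDiv P m)
  Module.Finite.equiv (equivVAll E P m)

open Classical in
/-- the dimension of `L(m * cusps)` for large `m` -/
theorem exists_finrank_VAll (hS : Fermat.Agent.P2.helper74.RiemannSetting K F) {g : ℕ}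
    (hg : Fermat.Agent.P2.helper74.HasRiemannGenus K F g) (E : F →ₐ[K] LaurentSeries K)
    (P : ι → Place K F) [Nonempty ι] :
    ∃ c : ℤ, ∀ n : ℤ, c ≤ n →
      (Module.finrank K (VAll E P n) : ℤ) + g = n * ((Finset.univ.image P).card : ℤ) + 1 := by
  obtain ⟨c, hc⟩ := hg
  refine ⟨max c 0, fun n hn => ?_⟩
  have hcard : (1 : ℤ) ≤ ((Finset.univ.image P).card : ℤ) := by
    have : 0 < (Finset.univ.image P).card :=
      Finset.card_pos.mpr ((Finset.univ_nonempty).image P)
    exact_mod_cast this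
  have hdeg := degree_cuspDiv hS P n
  have hn0 : 0 ≤ n := le_trans (le_max_right _ _) hn
  have hcn : c ≤ n := le_trans (le_max_left _ _) hn
  have hle : c ≤ Divisor.degree (cuspDiv P n) := by
    rw [hdeg]
    nlinarith
  have := hc (cuspDiv P n) hle
  rw [hdeg] at this
  rw [(equivVAll E P n).finrank_eq.symm]
  exact this

end CuspDiv

/-! ### Lifts of the functions regular off the cusps -/

section SurjAll

variable {A : ValuationSubring Kb}
variable {F : Type*} [Field F] [Algebra Kb F] {Fb : Type*} [Field Fb] [Algebra (kA A) Fb]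
variable {ι : Type*} [Fintype ι] [Nonempty ι]
variable {E : ι → F →ₐ[Kb] LaurentSeries Kb} {Eb : ι → Fb →ₐ[kA A] LaurentSeries (kA A)}
variable {P : ι → Place Kb F} {Q : ι → Place (kA A) Fb}

/-- (Scale + Reg) for `L(m * cusps)`, expanded at the index `i₀`. -/
theorem KeyFam.scaleRegAll (hK : KeyFam A E Eb P Q) (d : ι → ℕ) (hd : ∀ i, 0 < d i)
    (hord : ∀ i (f : F), f ≠ 0 → (E i f).order = (d i : ℤ) * (P i).ord f)
    (hordb : ∀ i (f : Fb), f ≠ 0 → (Eb i f).order = (d i : ℤ) * (Q i).ord f)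
    (i₀ : ι) (m : ℤ) :
    ScaleRegAbs A (VAll (E i₀) P m) (VAll (Eb i₀) Q m) := by
  intro u hu hu0
  obtain ⟨f, hf, rfl⟩ := mem_VAll_iff.mp hu
  have hf0 : f ≠ 0 := by
    rintro rfl
    exact hu0 (map_zero (E i₀))
  have hfL := (mem_L_cuspDiv_iff hf0).mp hf
  obtain ⟨c, fb, hc, hfb0, hfbreg, hY⟩ := hK f hf0 hfL.2
  have hEb0 : ∀ i', Eb i' fb ≠ 0 := fun i' h0 => hfb0 ((Eb i').toRingHom.injective (by
    rw [AlgHom.toRingHom_eq_coe, RingHom.coe_coe, h0, map_zero]))
  have hkey : ∀ (i' : ι) (n : ℤ), n ≤ (P i').ord f → n ≤ (Q i').ord fb := by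
    intro i' n hn
    obtain ⟨Y', hY'1, hY'2⟩ := hY i'
    have h1 := le_order_red_of_incl A hY'1 (order_nonneg_of_ord d hord hn)
      (by rw [hY'2]; exact hEb0 i')
    rw [hY'2, hordb i' fb hfb0] at h1
    have hdpos : (0 : ℤ) < (d i' : ℤ) := by exact_mod_cast hd i'
    exact le_of_mul_le_mul_left h1 hdpos
  obtain ⟨Y, hY1, hY2⟩ := hY i₀
  refine ⟨c, hc, Y, hY1, by rw [hY2]; exact hEb0 i₀, ?_⟩
  rw [hY2]
  apply mem_VAll
  rw [mem_L_cuspDiv_iff hfb0]
  exact ⟨fun i => hkey i _ (hfL.1 i), hfbreg⟩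

/-- `G` preserves the expansions of `L(m * cusps)`. -/
theorem galAll_of_fam (d : ι → ℕ) (hd : ∀ i, 0 < d i)
    (hord : ∀ i (f : F), f ≠ 0 → (E i f).order = (d i : ℤ) * (P i).ord f)
    (G : Set (Kb ≃ₐ[ℚ] Kb)) (gal : (Kb ≃ₐ[ℚ] Kb) → F → F)
    (hgal : ∀ σ ∈ G, ∀ i (f : F),
      E i (gal σ f) = coeffMap ((σ : Kb ≃ₐ[ℚ] Kb) : Kb →+* Kb) (E i f))
    (hreg : ∀ σ ∈ G, ∀ f : F, (∀ v : Place Kb F, (∀ i, v ≠ P i) → 0 ≤ v.ord f) →
      ∀ v : Place Kb F, (∀ i, v ≠ P i) → 0 ≤ v.ord (gal σ f)) (i₀ : ι) (m : ℤ) :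
    ∀ σ ∈ G, ∀ u ∈ VAll (E i₀) P m,
      coeffMap ((σ : Kb ≃ₐ[ℚ] Kb) : Kb →+* Kb) u ∈ VAll (E i₀) P m := by
  intro σ hσ u hu
  obtain ⟨f, hf, rfl⟩ := mem_VAll_iff.mp hu
  rw [← hgal σ hσ i₀ f]
  apply mem_VAll
  by_cases hf0 : f = 0
  · have h0 : gal σ f = 0 := by
      apply (E i₀).toRingHom.injective
      rw [AlgHom.toRingHom_eq_coe, RingHom.coe_coe, hgal σ hσ i₀ f, hf0]
      simp
    rw [h0]
    exact Submodule.zero_mem _
  have hg0 : gal σ f ≠ 0 := by
    intro h0
    have h1 := hgal σ hσ i₀ f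
    rw [h0, map_zero] at h1
    have h2 : E i₀ f = 0 := by
      ext k
      have := congrArg (fun z : LaurentSeries Kb => z.coeff k) h1
      simp only [HahnSeries.coeff_zero, coeffMap_coeff] at this
      rw [HahnSeries.coeff_zero]
      exact (map_eq_zero_iff _ (σ : Kb →+* Kb).injective).mp this.symm
    exact hf0 ((E i₀).toRingHom.injective (by
      rw [AlgHom.toRingHom_eq_coe, RingHom.coe_coe, h2, map_zero]))
  have hfL := (mem_L_cuspDiv_iff hf0).mp hf
  rw [mem_L_cuspDiv_iff hg0]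
  refine ⟨fun i' => ?_, hreg σ hσ f hfL.2⟩
  have h1 := order_coeffMap_aut σ _ (order_nonneg_of_ord d hord (hfL.1 i'))
  rw [← hgal σ hσ i' f] at h1
  have hE0 : E i' (gal σ f) ≠ 0 := fun h0 => hg0 ((E i').toRingHom.injective (by
    rw [AlgHom.toRingHom_eq_coe, RingHom.coe_coe, h0, map_zero]))
  have h2 : (d i' : ℤ) * -m ≤ (E i' (gal σ f)).order := by
    by_contra hlt
    push Not at hlt
    exact hE0 (HahnSeries.coeff_order_eq_zero.mp (h1 _ hlt))
  rw [hord i' _ hg0] at h2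
  have hdpos : (0 : ℤ) < (d i' : ℤ) := by exact_mod_cast hd i'
  exact le_of_mul_le_mul_left h2 hdpos

/-- **[SURJ-ALL], bounded form.** For large `m` every `y ∈ L̄(m * cusps)` has a lift
`x ∈ L(m * cusps)`, fixed by `G`, whose expansions at ALL indices are integral with reduction the
expansions of `y`. -/
theorem surjAll_abs (hS : Fermat.Agent.P2.helper74.RiemannSetting Kb F)
    (hSb : Fermat.Agent.P2.helper74.RiemannSetting (kA A) Fb) {g : ℕ}
    (hg : Fermat.Agent.P2.helper74.HasRiemannGenus Kb F g)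
    (hgb : Fermat.Agent.P2.helper74.HasRiemannGenus (kA A) Fb g)
    (d : ι → ℕ) (hd : ∀ i, 0 < d i)
    (hord : ∀ i (f : F), f ≠ 0 → (E i f).order = (d i : ℤ) * (P i).ord f)
    (hordb : ∀ i (f : Fb), f ≠ 0 → (Eb i f).order = (d i : ℤ) * (Q i).ord f)
    (hPQ : ∀ i i', P i = P i' ↔ Q i = Q i')
    (hK : KeyFam A E Eb P Q)
    (G : Set (Kb ≃ₐ[ℚ] Kb)) (gal : (Kb ≃ₐ[ℚ] Kb) → F → F)
    (hgal : ∀ σ ∈ G, ∀ i (f : F),
      E i (gal σ f) = coeffMap ((σ : Kb ≃ₐ[ℚ] Kb) : Kb →+* Kb) (E i f))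
    (hreg : ∀ σ ∈ G, ∀ f : F, (∀ v : Place Kb F, (∀ i, v ≠ P i) → 0 ≤ v.ord f) →
      ∀ v : Place Kb F, (∀ i, v ≠ P i) → 0 ≤ v.ord (gal σ f))
    (hres : ∀ c : kA A, ∃ b : A, IsLocalRing.residue A b = c ∧
      ∀ σ ∈ G, σ ((b : A) : Kb) = ((b : A) : Kb)) :
    ∃ c : ℤ, ∀ m : ℤ, c ≤ m → ∀ y : Fb, y ∈ riemannRochSpace (cuspDiv Q m) →
      ∃ (x : F) (X : ι → LaurentSeries A), x ∈ riemannRochSpace (cuspDiv P m) ∧
        (∀ σ ∈ G, gal σ x = x) ∧
        (∀ i, E i x = incl A (X i)) ∧ (∀ i, red A (X i) = Eb i y) ∧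
        ∀ σ ∈ G, ∀ i (k : ℤ), σ (((X i).coeff k : A) : Kb) = (((X i).coeff k : A) : Kb) := by
  classical
  obtain ⟨i₀⟩ := (inferInstance : Nonempty ι)
  obtain ⟨c, hc⟩ := exists_finrank_VAll hS hg (E i₀) P
  obtain ⟨cb, hcb⟩ := exists_finrank_VAll hSb hgb (Eb i₀) Q
  have hcard := card_image_eq_of_iff P Q hPQ
  refine ⟨max c cb, fun m hm y hy => ?_⟩
  have h1 := hc m (le_trans (le_max_left _ _) hm)
  have h2 := hcb m (le_trans (le_max_right _ _) hm)
  rw [← hcard] at h2
  haveI := finite_VAll hS (E i₀) P m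
  haveI := finite_VAll hSb (Eb i₀) Q m
  have hSR := hK.scaleRegAll d hd hord hordb i₀ m
  have hSurj : SurjAbs A (VAll (E i₀) P m) (VAll (Eb i₀) Q m) := by
    apply surjAbs_of_finrank_le hSR.scale hSR.reg
    have : (Module.finrank (kA A) (VAll (Eb i₀) Q m) : ℤ) =
        (Module.finrank Kb (VAll (E i₀) P m) : ℤ) := by omega
    exact le_of_eq (by exact_mod_cast this)
  have hGal := galAll_of_fam d hd hord G gal hgal hreg i₀ m
  obtain ⟨X₀, hXV, hXy, hXfix⟩ := exists_fixed_liftAbs hSR hSurj G hGal hres (mem_VAll hy)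
  obtain ⟨x, hx, hxE⟩ := mem_VAll_iff.mp hXV
  -- `x` is fixed by `G`
  have hxfix : ∀ σ ∈ G, gal σ x = x := by
    intro σ hσ
    apply (E i₀).toRingHom.injective
    rw [AlgHom.toRingHom_eq_coe, RingHom.coe_coe, hgal σ hσ i₀ x, hxE]
    ext k
    rw [coeffMap_coeff, coeffMap_coeff]
    exact hXfix σ hσ k
  have hfixall : ∀ (X : ι → LaurentSeries A), (∀ i, E i x = incl A (X i)) →
      ∀ σ ∈ G, ∀ i (k : ℤ), σ (((X i).coeff k : A) : Kb) = (((X i).coeff k : A) : Kb) := by
    intro X hX σ hσ i k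
    have h1 := hgal σ hσ i x
    rw [hxfix σ hσ, hX i] at h1
    have := congrArg (fun z : LaurentSeries Kb => z.coeff k) h1
    simp only [coeffMap_coeff] at this
    exact this.symm
  by_cases hy0 : y = 0
  · -- the zero function
    have hg0 : ∀ σ ∈ G, gal σ (0 : F) = 0 := by
      intro σ hσ
      apply (E i₀).toRingHom.injective
      rw [AlgHom.toRingHom_eq_coe, RingHom.coe_coe, hgal σ hσ i₀ 0]
      simp
    exact ⟨0, fun _ => 0, Submodule.zero_mem _, hg0, fun i => by simp,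
      fun i => by rw [hy0]; simp, fun σ _ i k => by simp⟩
  · have hx0 : x ≠ 0 := by
      rintro rfl
      rw [map_zero] at hxE
      have : X₀ = 0 := incl_injective' A (by rw [← hxE, map_zero])
      rw [this, map_zero] at hXy
      exact hy0 ((Eb i₀).toRingHom.injective (by
        rw [AlgHom.toRingHom_eq_coe, RingHom.coe_coe, ← hXy, map_zero]))
    have hxL := (mem_L_cuspDiv_iff hx0).mp hx
    obtain ⟨c', fb, hc', hfb0, -, hY⟩ := hK x hx0 hxL.2
    have hEb0 : ∀ i', Eb i' fb ≠ 0 := fun i' h0 => hfb0 ((Eb i').toRingHom.injective (by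
      rw [AlgHom.toRingHom_eq_coe, RingHom.coe_coe, h0, map_zero]))
    have hEy0 : Eb i₀ y ≠ 0 := fun h0 => hy0 ((Eb i₀).toRingHom.injective (by
      rw [AlgHom.toRingHom_eq_coe, RingHom.coe_coe, h0, map_zero]))
    obtain ⟨Y₀, hY01, hY02⟩ := hY i₀
    obtain ⟨a, ha, hac⟩ := exists_unit_of_red_ne_zero A (c := c') (Y := X₀) (Y' := Y₀)
      (by rw [hY01, hxE]) (by rw [hXy]; exact hEy0) (by rw [hY02]; exact hEb0 i₀)
    obtain ⟨u, hu⟩ := ha
    have huc : ((((u⁻¹ : Aˣ) : A) : A) : Kb) * c' = 1 := by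
      rw [← hac, ← hu]
      have := u.inv_mul
      exact_mod_cast congrArg (fun z : A => (z : Kb)) this
    -- `fb = ū y`
    have hY0X : Y₀ = HahnSeries.C (u : A) * X₀ := by
      apply incl_injective' A
      rw [hY01, hxE, incl_C_mul'', hu, hac]
    have hfb : fb = algebraMap (kA A) Fb (IsLocalRing.residue A (u : A)) * y := by
      apply (Eb i₀).toRingHom.injective
      rw [AlgHom.toRingHom_eq_coe, RingHom.coe_coe, map_mul, AlgHom.commutes, ← hY02, hY0X,
        red_C_mul'', hXy, algebraMap_laurentSeries_eq_single, ← HahnSeries.C_apply,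
        HahnSeries.C_mul_eq_smul]
    have hint : ∀ i', ∃ Z : LaurentSeries A, E i' x = incl A Z ∧ red A Z = Eb i' y := by
      intro i'
      obtain ⟨Y', hY'1, hY'2⟩ := hY i'
      refine ⟨HahnSeries.C ((u⁻¹ : Aˣ) : A) * Y', ?_, ?_⟩
      · rw [incl_C_mul'', hY'1, smul_smul, huc, one_smul]
      · rw [red_C_mul'', hY'2, hfb, map_mul, AlgHom.commutes,
          algebraMap_laurentSeries_eq_single, ← HahnSeries.C_apply, HahnSeries.C_mul_eq_smul,
          smul_smul, ← map_mul]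
        have : ((u⁻¹ : Aˣ) : A) * (u : A) = 1 := u.inv_mul
        rw [this, map_one, one_smul]
    choose Z hZ1 hZ2 using hint
    exact ⟨x, Z, hx, hxfix, hZ1, hZ2, hfixall Z hZ1⟩

/-- **[SURJ-ALL].** Every function on the special fibre which is regular off the cusps has a
lift which is regular off the cusps, fixed by `G`, whose expansions at ALL indices are integral
with reduction the expansions of `y`. -/
theorem surjAll_fam (hS : Fermat.Agent.P2.helper74.RiemannSetting Kb F)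
    (hSb : Fermat.Agent.P2.helper74.RiemannSetting (kA A) Fb) {g : ℕ}
    (hg : Fermat.Agent.P2.helper74.HasRiemannGenus Kb F g)
    (hgb : Fermat.Agent.P2.helper74.HasRiemannGenus (kA A) Fb g)
    (d : ι → ℕ) (hd : ∀ i, 0 < d i)
    (hord : ∀ i (f : F), f ≠ 0 → (E i f).order = (d i : ℤ) * (P i).ord f)
    (hordb : ∀ i (f : Fb), f ≠ 0 → (Eb i f).order = (d i : ℤ) * (Q i).ord f)
    (hPQ : ∀ i i', P i = P i' ↔ Q i = Q i')
    (hK : KeyFam A E Eb P Q)
    (G : Set (Kb ≃ₐ[ℚ] Kb)) (gal : (Kb ≃ₐ[ℚ] Kb) → F → F)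
    (hgal : ∀ σ ∈ G, ∀ i (f : F),
      E i (gal σ f) = coeffMap ((σ : Kb ≃ₐ[ℚ] Kb) : Kb →+* Kb) (E i f))
    (hreg : ∀ σ ∈ G, ∀ f : F, (∀ v : Place Kb F, (∀ i, v ≠ P i) → 0 ≤ v.ord f) →
      ∀ v : Place Kb F, (∀ i, v ≠ P i) → 0 ≤ v.ord (gal σ f))
    (hres : ∀ c : kA A, ∃ b : A, IsLocalRing.residue A b = c ∧
      ∀ σ ∈ G, σ ((b : A) : Kb) = ((b : A) : Kb))
    (y : Fb) (hy : ∀ w : Place (kA A) Fb, (∀ i, w ≠ Q i) → 0 ≤ w.ord y) :
    ∃ (x : F) (X : ι → LaurentSeries A),
      (∀ v : Place Kb F, (∀ i, v ≠ P i) → 0 ≤ v.ord x) ∧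
      (∀ σ ∈ G, gal σ x = x) ∧
      (∀ i, E i x = incl A (X i)) ∧ (∀ i, red A (X i) = Eb i y) ∧
      ∀ σ ∈ G, ∀ i (k : ℤ), σ (((X i).coeff k : A) : Kb) = (((X i).coeff k : A) : Kb) := by
  classical
  obtain ⟨c, hc⟩ := surjAll_abs hS hSb hg hgb d hd hord hordb hPQ hK G gal hgal hreg hres
  obtain ⟨m, hm⟩ := Finset.exists_le (insert c (Finset.univ.image fun i => -(Q i).ord y))
  have hcm : c ≤ m := hm c (Finset.mem_insert_self _ _)
  have hym : ∀ i, -m ≤ (Q i).ord y := by
    intro i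
    have := hm (-(Q i).ord y) (Finset.mem_insert_of_mem
      (Finset.mem_image_of_mem _ (Finset.mem_univ i)))
    omega
  have hyL : y ∈ riemannRochSpace (cuspDiv Q m) := by
    by_cases hy0 : y = 0
    · rw [hy0]
      exact Submodule.zero_mem _
    · exact (mem_L_cuspDiv_iff hy0).mpr ⟨hym, hy⟩
  obtain ⟨x, X, hx, h1, h2, h3, h4⟩ := hc m hcm y hyL
  refine ⟨x, X, ?_, h1, h2, h3, h4⟩
  by_cases hx0 : x = 0
  · intro v _
    rw [hx0]
    simp
  · exact ((mem_L_cuspDiv_iff hx0).mp hx).2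

end SurjAll

end Fermat.Agent.T3.helper96

end
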