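/-
T3 (S36), helper96, row 1080 [XPOLE-c], instance part 1: the **cusp dictionary of level `N` on
both fibres in ORDER form**, for the coset expansions `sigmaK N i` (characteristic `0`) and
`sigmaA i` (characteristic `q`) of P2 (`helper28`).

* `sigKa N i`, `sigAa hq hA hqN i` : the coset expansions as algebra homomorphisms;
* `exists_dictionary` : places `WK i`, `WA i` and ramification exponents `d i` with
  `order (sigmaK i f) = d i * ord_{WK i} f`, `order (sigmaA i f) = d i * ord_{WA i} f`,
  `WK i = WK i' ↔ i' ∈ orbit_T i ↔ WA i = WA i'`, and the places `W i` are exactly the poles of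
  `j`.
-/
import Mathlib
import Fermat.Agent.P2.helper28_CuspReg
import Fermat.Agent.S24.helper80_LocalEmb

set_option autoImplicit false
set_option synthInstance.maxHeartbeats 400000
set_option maxHeartbeats 1000000
set_option linter.style.haveILetI false
set_option linter.unusedSectionVars false

noncomputable section

open HahnSeries ModularCurve AlgebraicCurve
open Fermat.Agent.S18.helper19 Fermat.Agent.P2.helper29 Fermat.Agent.P2.helper28
open Fermat.Agent.S28

namespace Fermat.Agent.T3.helper96

section Dict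

variable (N : ℕ) [NeZero N]

/-- the coset expansions in characteristic `0` as algebra homomorphisms -/
def sigKa (i : IX N) : FbT Kb N →ₐ[Kb] LaurentSeries Kb :=
  { sigmaK N i with
    commutes' := fun c => by
      show sigmaK N i (algebraMap Kb _ c) = algebraMap Kb (LaurentSeries Kb) c
      have h := sigma_algebraMap (conjX N) SK rK (zetaC_mem_SK N) (natCast_inv_mem_SK N)
        rK_surjective i c
      refine h.trans ?_
      rw [algebraMap_laurentSeries_eq_single]
      rfl }

@[simp] theorem sigKa_apply (i : IX N) (f : FbT Kb N) : sigKa N i f = sigmaK N i f := rfl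

variable {N} {A : ValuationSubring Kb} {q : ℕ}

/-- the coset expansions in characteristic `q` as algebra homomorphisms -/
def sigAa (hq : q.Prime) (hA : A.LiesOverPrime q) (hqN : ¬ q ∣ N) (i : IX N) :
    FbT (kA A) N →ₐ[kA A] LaurentSeries (kA A) :=
  { sigmaA hq hA hqN i with
    commutes' := fun c => by
      show sigmaA hq hA hqN i (algebraMap (kA A) _ c) =
        algebraMap (kA A) (LaurentSeries (kA A)) c
      have h := sigma_algebraMap (conjX N) (SA A) (rA A) (zetaC_mem_SA A N)
        (natCast_inv_mem_SA A hq hA N hqN) (rA_surjective A) i c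
      refine h.trans ?_
      rw [algebraMap_laurentSeries_eq_single]
      rfl }

@[simp] theorem sigAa_apply (hq : q.Prime) (hA : A.LiesOverPrime q) (hqN : ¬ q ∣ N) (i : IX N)
    (f : FbT (kA A) N) : sigAa hq hA hqN i f = sigmaA hq hA hqN i f := rfl

open WithZero in
/-- from the valuation form of the dictionary to the order form -/
theorem order_eq_of_valued {k : Type*} [Field k] {u : LaurentSeries k} (hu : u ≠ 0) {n : ℤ}
    (h : (Valued.v u : ℤᵐ⁰) = exp (-n)) : u.order = n := by
  rw [Fermat.Agent.S24.helper80.laurent_valuation_eq_exp_neg_order hu] at h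
  have := WithZero.exp_injective h
  omega

variable (N)

/-- the `T`-orbit of a coset -/
abbrev orbT (i : IX N) : Set (IX N) := MulAction.orbit (Subgroup.zpowers (permT N)) i

variable {N}

/-- **the cusp dictionary of level `N` on both fibres, in order form.** -/
theorem exists_dictionary (hq : q.Prime) (hA : A.LiesOverPrime q) (hqN : ¬ q ∣ N) :
    ∃ (WK : IX N → Place Kb (FbT Kb N)) (WA : IX N → Place (kA A) (FbT (kA A) N))
      (d : IX N → ℕ),
      (∀ i, 0 < d i) ∧
      (∀ i, d i * Nat.card (orbT N i) = N) ∧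
      (∀ i (f : FbT Kb N), f ≠ 0 → (sigKa N i f).order = (d i : ℤ) * (WK i).ord f) ∧
      (∀ i (f : FbT (kA A) N), f ≠ 0 →
        (sigAa hq hA hqN i f).order = (d i : ℤ) * (WA i).ord f) ∧
      (∀ i i', WK i = WK i' ↔ i' ∈ orbT N i) ∧
      (∀ i i', WA i = WA i' ↔ i' ∈ orbT N i) ∧
      (∀ v : Place Kb (FbT Kb N), (∀ i, v ≠ WK i) ↔ 0 ≤ v.ord (jb Kb N)) ∧
      (∀ w : Place (kA A) (FbT (kA A) N), (∀ i, w ≠ WA i) ↔ 0 ≤ w.ord (jb (kA A) N)) := by
  obtain ⟨WK, dK, hK1, hK2, hK3, -, hK5, hK6, -, -⟩ :=
    cusp_dictionary (conjX N) SK rK (zetaC_mem_SK N) (natCast_inv_mem_SK N) rK_surjective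
      (permT N) (zetaU N) rfl (conjX_rot N)
  obtain ⟨WA, dA, hA1, hA2, hA3, -, hA5, hA6, -, -⟩ :=
    cusp_dictionary (conjX N) (SA A) (rA A) (zetaC_mem_SA A N)
      (natCast_inv_mem_SA A hq hA N hqN) (rA_surjective A) (permT N) (zetaU N) rfl
      (conjX_rot N)
  have hN0 : N ≠ 0 := NeZero.ne N
  have hdpos : ∀ i, 0 < dK i := fun i =>
    Nat.pos_of_ne_zero fun h => hN0 (by
      have := hK5 i
      rw [← this]
      exact Nat.mul_eq_zero.mpr (Or.inl h))
  have hcpos : ∀ i : IX N, 0 < Nat.card (orbT N i) := fun i =>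
    Nat.pos_of_ne_zero fun h => hN0 (by
      have := hK5 i
      rw [← this]
      exact Nat.mul_eq_zero.mpr (Or.inr h))
  have hdd : ∀ i, dA i = dK i := by
    intro i
    have h1 := hK5 i
    have h2 := hA5 i
    exact Nat.eq_of_mul_eq_mul_right (hcpos i) (h2.trans h1.symm)
  have hord_tbK : ∀ v : Place Kb (FbT Kb N), v.ord (tb Kb N) = -v.ord (jb Kb N) := fun v => by
    rw [tb, Place.ord_inv]
  have hord_tbA : ∀ w : Place (kA A) (FbT (kA A) N),
      w.ord (tb (kA A) N) = -w.ord (jb (kA A) N) := fun w => by
    rw [tb, Place.ord_inv]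
  refine ⟨WK, WA, dK, hdpos, hK5, ?_, ?_, hK3, hA3, ?_, ?_⟩
  · intro i f hf
    have hne : sigmaK N i f ≠ 0 := fun h0 =>
      hf ((sigmaK N i).injective (h0.trans (map_zero _).symm))
    exact order_eq_of_valued hne (hK6 i f hf)
  · intro i f hf
    have hne : sigmaA hq hA hqN i f ≠ 0 := fun h0 =>
      hf ((sigmaA hq hA hqN i).injective (h0.trans (map_zero _).symm))
    have := order_eq_of_valued hne (hA6 i f hf)
    rw [hdd i] at this
    exact this
  · intro v
    constructor
    · intro h
      by_contra hlt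
      push Not at hlt
      obtain ⟨i, hi⟩ := hK2 v (by rw [hord_tbK]; omega)
      exact h i hi.symm
    · intro h i hi
      have := hK1 i
      rw [← hi, hord_tbK] at this
      omega
  · intro w
    constructor
    · intro h
      by_contra hlt
      push Not at hlt
      obtain ⟨i, hi⟩ := hA2 w (by rw [hord_tbA]; omega)
      exact h i hi.symm
    · intro h i hi
      have := hA1 i
      rw [← hi, hord_tbA] at this
      omega

end Dict

end Fermat.Agent.T3.helper96

end
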