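/-
T3 (S36), helper96, row 1080 [XPOLE-c], instance part 2: **exact-pole elements at every coset of
level `N`** and **[SURJ-ALL]**, for the coset expansions `sigmaK N i` / `sigmaA i` of P2, from the
two statements

* `KeyStatement N A hq hA hqN` ([KEY]): a function regular where `j` is finite with `A`-integral
  `q`-expansion `Y` has `A`-integral coset expansions `Y_i`, the reduction `red Y` is a function on
  the special fibre regular where `j̄` is finite, and `red Y_i` is its `i`-th coset expansion;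
* `GalStatement N A` ([GAL]): the coset expansions commute with the coefficientwise action of the
  inertia group.

Everything else (Riemann, genus equality at good levels, scaling, dictionary) is on main.

* `keyFam_of_key`   : `KeyFam` for the coset expansions.
* `xpole_raw`       : the exact-pole elements (parameter `t = q^(1/N)`, pole order `d_i m`).
* `surjAll_raw`     : inertia-fixed integral lifts, regular where `j` is finite, of the functions
                      on the special fibre regular where `j̄` is finite.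
-/
import Mathlib
import Fermat.Agent.T3.helper96_SurjAll
import Fermat.Agent.T3.helper96_XPoleDict
import Fermat.Agent.T3.helper96_FixLift
import Fermat.Agent.S37.helper16_EffRedFinal
import Fermat.Agent.T2.helper45_Integrality

set_option autoImplicit false
set_option synthInstance.maxHeartbeats 400000
set_option maxHeartbeats 1000000
set_option linter.style.haveILetI false
set_option linter.unusedSectionVars false

noncomputable section

open HahnSeries ModularCurve AlgebraicCurve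
open Fermat.Agent.S18.helper19 Fermat.Agent.P2.helper29 Fermat.Agent.P2.helper28
open Fermat.Agent.S28

namespace Fermat.Agent.T3.helper96

/-! ### Transport between the two descriptions of the function field -/

section Transport

/-- transport of a regularity statement along an equality of subfields -/
theorem reg_transport {K : Type*} [Field K] {E E' : IntermediateField K (LaurentSeries K)}
    (h : E = E') {x f : LaurentSeries K} (hx : x ∈ E) (hf : f ∈ E) (hx' : x ∈ E')
    (hf' : f ∈ E')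
    (H : ∀ P : Place K E, 0 ≤ P.ord (⟨x, hx⟩ : E) → 0 ≤ P.ord (⟨f, hf⟩ : E)) :
    ∀ P : Place K E', 0 ≤ P.ord (⟨x, hx'⟩ : E') → 0 ≤ P.ord (⟨f, hf'⟩ : E') := by
  subst h
  exact H

variable (N : ℕ) [NeZero N]

theorem mem_fullC_of_mem_FF {x : LaurentSeries Kb} (h : x ∈ FF N) :
    x ∈ modularFunctionFieldFullC Kb N := FF_eq_fullC N ▸ h

theorem mem_FF_of_mem_fullC {x : LaurentSeries Kb} (h : x ∈ modularFunctionFieldFullC Kb N) :
    x ∈ FF N := (FF_eq_fullC N).symm ▸ h

/-- regular where `j` is finite (characteristic `0`, `fullC` description) -/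
def RegK (f : FbT Kb N) : Prop :=
  ∀ P : Place Kb (FbT Kb N), 0 ≤ P.ord (jb Kb N) → 0 ≤ P.ord f

/-- regular where `j̄` is finite (special fibre) -/
def RegA (A : ValuationSubring Kb) (f : FbT (kA A) N) : Prop :=
  ∀ Q : Place (kA A) (FbT (kA A) N), 0 ≤ Q.ord (jb (kA A) N) → 0 ≤ Q.ord f

variable {N}

theorem regK_iff_FF {x : LaurentSeries Kb} (hx : x ∈ modularFunctionFieldFullC Kb N) :
    RegK N ⟨x, hx⟩ ↔ ∀ P : Place Kb (FF N),
      0 ≤ P.ord (Fermat.Agent.S24.xJ N) → 0 ≤ P.ord (⟨x, mem_FF_of_mem_fullC N hx⟩ : FF N) := by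
  have hj : (Fermat.Agent.S24.xJ N : FF N) =
      ⟨jqModC Kb, mem_FF_of_mem_fullC N (jqModC_mem_full Kb N)⟩ :=
    Subtype.ext (Fermat.Agent.T2.helper45.coe_xJ N)
  rw [hj]
  constructor
  · intro h
    exact reg_transport (FF_eq_fullC N).symm (jqModC_mem_full Kb N) hx _ _ h
  · intro h
    exact reg_transport (FF_eq_fullC N) _ _ (jqModC_mem_full Kb N) hx h

end Transport

/-! ### The two statements -/

section Statements

variable (N : ℕ) [NeZero N] (A : ValuationSubring Kb) {q : ℕ}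

/-- **[KEY]** the coset expansions of an integral function regular where `j` is finite are
integral, and reduction commutes with the coset expansions. -/
def KeyStatement (hq : q.Prime) (hA : A.LiesOverPrime q) (hqN : ¬ q ∣ N) : Prop :=
  ∀ (Y : LaurentSeries A) (hY : incl A Y ∈ modularFunctionFieldFullC Kb N),
    RegK N ⟨incl A Y, hY⟩ →
    ∃ hb : red A Y ∈ modularFunctionFieldFullC (kA A) N, RegA N A ⟨red A Y, hb⟩ ∧
      ∀ i : IX N, ∃ Yi : LaurentSeries A,
        incl A Yi = sigmaK N i ⟨incl A Y, hY⟩ ∧ red A Yi = sigmaA hq hA hqN i ⟨red A Y, hb⟩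

/-- **[GAL]** the coset expansions commute with the coefficientwise action of the inertia
group. -/
def GalStatement : Prop :=
  ∀ σ ∈ A.inertiaSubgroupIn ℚ, ∀ (i : IX N) (f : FbT Kb N)
    (hσ : coeffMap ((σ : Kb ≃ₐ[ℚ] Kb) : Kb →+* Kb) (f : LaurentSeries Kb) ∈
      modularFunctionFieldFullC Kb N),
    sigmaK N i ⟨coeffMap ((σ : Kb ≃ₐ[ℚ] Kb) : Kb →+* Kb) (f : LaurentSeries Kb), hσ⟩ =
      coeffMap ((σ : Kb ≃ₐ[ℚ] Kb) : Kb →+* Kb) (sigmaK N i f)

end Statements

/-! ### Scaling of functions regular where `j` is finite -/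

section Scale

variable {N : ℕ} [NeZero N] {A : ValuationSubring Kb}

/-- scalar multiples of regular functions are regular -/
theorem RegK.smul {f : FbT Kb N} (hf : RegK N f) (c : Kb) :
    RegK N (algebraMap Kb (FbT Kb N) c * f) := by
  intro P hP
  rw [← Fermat.Agent.S24.helper82.mem_iff_ord_nonneg]
  apply mul_mem
  · exact P.algebraMap_mem' c
  · rw [Fermat.Agent.S24.helper82.mem_iff_ord_nonneg]
    exact hf P hP

/-- **Scale at `∞`** for functions regular where `j` is finite: a nonzero such function has a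
scalar multiple with integral `q`-expansion and nonzero reduction. -/
theorem exists_scaled_reg (hP : PrimeToLevel N A) {f : FbT Kb N} (hf0 : f ≠ 0)
    (hf : RegK N f) :
    ∃ (c : Kb) (Y : LaurentSeries A), c ≠ 0 ∧
      incl A Y = ((algebraMap Kb (FbT Kb N) c * f : FbT Kb N) : LaurentSeries Kb) ∧
      red A Y ≠ 0 := by
  have hfFF : (f : LaurentSeries Kb) ∈ FF N := mem_FF_of_mem_fullC N f.2
  have hf0' : (f : LaurentSeries Kb) ≠ 0 := fun h => hf0 (Subtype.ext h)
  obtain ⟨c, Y₁, Y₂, hc, hY₁, hY₂, e⟩ :=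
    Fermat.Agent.P2.helper81.scaleStatement N A hP (f : LaurentSeries Kb) hfFF hf0'
  set g : FbT Kb N := algebraMap Kb (FbT Kb N) c⁻¹ * f with hg
  have hgcoe : (g : LaurentSeries Kb) =
      algebraMap Kb (LaurentSeries Kb) c⁻¹ * (f : LaurentSeries Kb) := rfl
  have e' : incl A Y₁ = (g : LaurentSeries Kb) * incl A Y₂ := by
    rw [hgcoe, mul_assoc, ← e, ← mul_assoc, ← map_mul, inv_mul_cancel₀ hc, map_one, one_mul]
  have hgreg : RegK N g := hf.smul c⁻¹
  have hgFF : (g : LaurentSeries Kb) ∈ FF N := mem_FF_of_mem_fullC N g.2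
  obtain ⟨Y, hY⟩ := Fermat.Agent.T2.helper45.integrality_of_regular N A (g : LaurentSeries Kb)
    hgFF ((regK_iff_FF g.2).mp hgreg) ⟨Y₁, Y₂, hY₂.2.2, e'⟩
  refine ⟨c⁻¹, Y, inv_ne_zero hc, hY, ?_⟩
  intro h0
  have h1 : Y * Y₂ = Y₁ := by
    apply Fermat.Agent.P2.helper74.coeffMap_subtype_injective A
    rw [map_mul, hY]
    exact e'.symm
  have h2 := congrArg (coeffMap (IsLocalRing.residue A)) h1
  rw [map_mul, h0, zero_mul] at h2
  exact hY₁.2.2 h2.symm

end Scale

/-! ### The key statement in family form -/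

section Fam

variable {N : ℕ} [NeZero N] {A : ValuationSubring Kb} {q : ℕ}

theorem keyFam_of_key (hq : q.Prime) (hA : A.LiesOverPrime q) (hqN : ¬ q ∣ N)
    (hKey : KeyStatement N A hq hA hqN)
    {WK : IX N → Place Kb (FbT Kb N)} {WA : IX N → Place (kA A) (FbT (kA A) N)}
    (hWK : ∀ v : Place Kb (FbT Kb N), (∀ i, v ≠ WK i) ↔ 0 ≤ v.ord (jb Kb N))
    (hWA : ∀ w : Place (kA A) (FbT (kA A) N), (∀ i, w ≠ WA i) ↔ 0 ≤ w.ord (jb (kA A) N)) :
    KeyFam A (sigKa N) (sigAa hq hA hqN) WK WA := by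
  intro f hf0 hreg
  have hfreg : RegK N f := fun P hP => hreg P ((hWK P).mpr hP)
  obtain ⟨c, Y, hc, hY, hYred⟩ := exists_scaled_reg ⟨q, hq, hqN, hA⟩ hf0 hfreg
  have hYmem : incl A Y ∈ modularFunctionFieldFullC Kb N := by
    rw [hY]
    exact (algebraMap Kb (FbT Kb N) c * f).2
  have heq : (⟨incl A Y, hYmem⟩ : FbT Kb N) = algebraMap Kb (FbT Kb N) c * f :=
    Subtype.ext hY
  have hYreg : RegK N ⟨incl A Y, hYmem⟩ := by
    rw [heq]
    exact hfreg.smul c
  obtain ⟨hb, hbreg, hYi⟩ := hKey Y hYmem hYreg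
  refine ⟨c, ⟨red A Y, hb⟩, hc, fun h => hYred (congrArg Subtype.val h),
    fun w hw => hbreg w ((hWA w).mp hw), fun i => ?_⟩
  obtain ⟨Yi, h1, h2⟩ := hYi i
  refine ⟨Yi, ?_, h2⟩
  rw [h1, heq]
  show sigKa N i (algebraMap Kb (FbT Kb N) c * f) = c • sigKa N i f
  rw [map_mul, AlgHom.commutes, ← HahnSeries.C_mul_eq_smul, algebraMap_laurentSeries_eq_single]
  rfl

end Fam

/-! ### Riemann's theorem on both fibres -/

section Riemann

theorem riemannSetting_transport {K : Type*} [Field K]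
    {E E' : IntermediateField K (LaurentSeries K)} (h : E = E')
    (H : Fermat.Agent.P2.helper74.RiemannSetting K E) :
    Fermat.Agent.P2.helper74.RiemannSetting K E' := by
  subst h
  exact H

theorem hasRiemannGenus_transport {K : Type*} [Field K]
    {E E' : IntermediateField K (LaurentSeries K)} (h : E = E') {g : ℕ}
    (H : Fermat.Agent.P2.helper74.HasRiemannGenus K E g) :
    Fermat.Agent.P2.helper74.HasRiemannGenus K E' g := by
  subst h
  exact H

variable (N : ℕ) [NeZero N] (A : ValuationSubring Kb)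

theorem riemannSetting_fullC : Fermat.Agent.P2.helper74.RiemannSetting Kb (FbT Kb N) :=
  riemannSetting_transport (FF_eq_fullC N) (Fermat.Agent.P2.helper96.riemannSetting_FF N)

variable {N A}

theorem exists_genus_fullC {q : ℕ} (hq : q.Prime) (hA : A.LiesOverPrime q) (hqN : ¬ q ∣ N)
    (hN : 4 ∣ N ∨ 9 ∣ N) :
    ∃ g : ℕ, Fermat.Agent.P2.helper74.HasRiemannGenus Kb (FbT Kb N) g ∧
      Fermat.Agent.P2.helper74.HasRiemannGenus (kA A) (FbT (kA A) N) g := by
  obtain ⟨g, hg, hgb⟩ := Fermat.Agent.S37.helper16.genusEq_goodPair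
    (M := N) (A := A) ⟨hN, q, hq, hqN, hA⟩
  exact ⟨g, hasRiemannGenus_transport (FF_eq_fullC N) hg.2, hgb.2⟩

end Riemann

/-! ### The Galois action -/

section Galois

variable (N : ℕ) [NeZero N]

/-- the coefficientwise Galois action on the `fullC` description of the function field -/
def galC (σ : Kb ≃ₐ[ℚ] Kb) (f : FbT Kb N) : FbT Kb N :=
  ⟨coeffMap ((σ : Kb ≃ₐ[ℚ] Kb) : Kb →+* Kb) (f : LaurentSeries Kb),
    mem_fullC_of_mem_FF N
      (Fermat.Agent.P2.helper93.galF N σ ⟨(f : LaurentSeries Kb), mem_FF_of_mem_fullC N f.2⟩).2⟩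

@[simp] theorem coe_galC (σ : Kb ≃ₐ[ℚ] Kb) (f : FbT Kb N) :
    ((galC N σ f : FbT Kb N) : LaurentSeries Kb) =
      coeffMap ((σ : Kb ≃ₐ[ℚ] Kb) : Kb →+* Kb) (f : LaurentSeries Kb) := rfl

variable {N}

/-- the Galois action preserves the functions regular where `j` is finite -/
theorem regK_galC {f : FbT Kb N} (hf : RegK N f) (σ : Kb ≃ₐ[ℚ] Kb) : RegK N (galC N σ f) := by
  have h1 := (regK_iff_FF f.2).mp hf
  apply (regK_iff_FF (galC N σ f).2).mpr
  intro P hP
  have e : (⟨((galC N σ f : FbT Kb N) : LaurentSeries Kb),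
      mem_FF_of_mem_fullC N (galC N σ f).2⟩ : FF N) =
      Fermat.Agent.P2.helper93.galF N σ
        ⟨(f : LaurentSeries Kb), mem_FF_of_mem_fullC N f.2⟩ := rfl
  rw [e, Fermat.Agent.T2.helper49.fb_ord_galF]
  apply h1
  have hj : Fermat.Agent.P2.helper93.galF N σ (Fermat.Agent.S24.xJ N) =
      Fermat.Agent.S24.xJ N := by
    apply Subtype.ext
    rw [Fermat.Agent.P2.helper93.coe_galF, Fermat.Agent.T2.helper45.coe_xJ]
    exact coeffMap_jqModC _
  rw [← Fermat.Agent.T2.helper49.fb_ord_galF, hj]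
  exact hP

end Galois

/-! ### The main theorems -/

section Main

variable {N : ℕ} [NeZero N] {A : ValuationSubring Kb} {q : ℕ}

/-- **[XPOLE-c], raw form** (parameter `t = q^(1/N)`): at a good level `N` prime to `q`, for
every coset `i` and every `m ≥ m₀` there is a function `x` of level `N`, regular where `j` is
finite, with inertia-fixed `q`-expansion, whose coset expansions are all `A`-integral with
inertia-fixed coefficients, with `sigmaK i x = t^(-d_i m) + …` and without pole at the cosets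
outside the `T`-orbit of `i`. -/
theorem xpole_raw (hq : q.Prime) (hA : A.LiesOverPrime q) (hqN : ¬ q ∣ N)
    (hN : 4 ∣ N ∨ 9 ∣ N) (hKey : KeyStatement N A hq hA hqN) (hGal : GalStatement N A) :
    ∃ (d : IX N → ℕ) (m₀ : ℕ), (∀ i, 0 < d i) ∧ (∀ i, d i * Nat.card (orbT N i) = N) ∧
      ∀ (i : IX N) (m : ℕ), m₀ ≤ m → ∃ (x : FbT Kb N) (X : IX N → LaurentSeries A),
        RegK N x ∧
        (∀ σ ∈ A.inertiaSubgroupIn ℚ,
          coeffMap ((σ : Kb ≃ₐ[ℚ] Kb) : Kb →+* Kb) (x : LaurentSeries Kb) = x) ∧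
        (∀ i', sigmaK N i' x = incl A (X i')) ∧
        (X i).coeff (-((d i : ℤ) * m)) = 1 ∧
        (∀ k : ℤ, k < -((d i : ℤ) * m) → (X i).coeff k = 0) ∧
        (∀ i', i' ∉ orbT N i → ∀ k : ℤ, k < 0 → (X i').coeff k = 0) ∧
        ∀ σ ∈ A.inertiaSubgroupIn ℚ, ∀ i' (k : ℤ),
          σ (((X i').coeff k : A) : Kb) = (((X i').coeff k : A) : Kb) := by
  classical
  obtain ⟨WK, WA, d, hd, hdN, hordK, hordA, hWKorb, hWAorb, hWK, hWA⟩ :=
    exists_dictionary (N := N) (A := A) hq hA hqN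
  obtain ⟨g, hg, hgb⟩ := exists_genus_fullC (N := N) (A := A) hq hA hqN hN
  have hS := riemannSetting_fullC N
  have hSb : Fermat.Agent.P2.helper74.RiemannSetting (kA A) (FbT (kA A) N) :=
    Fermat.Agent.P2.helper95.riemannSetting_FFb N A
  have hPQ : ∀ i i', WK i = WK i' → WA i = WA i' := fun i i' h =>
    (hWAorb i i').mpr ((hWKorb i i').mp h)
  have hK := keyFam_of_key hq hA hqN hKey hWK hWA
  have hgal : ∀ σ ∈ (A.inertiaSubgroupIn ℚ : Set (Kb ≃ₐ[ℚ] Kb)), ∀ (i : IX N) (f : FbT Kb N),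
      sigKa N i (galC N σ f) = coeffMap ((σ : Kb ≃ₐ[ℚ] Kb) : Kb →+* Kb) (sigKa N i f) :=
    fun σ hσ i f => hGal σ hσ i f _
  have hreg : ∀ σ ∈ (A.inertiaSubgroupIn ℚ : Set (Kb ≃ₐ[ℚ] Kb)), ∀ f : FbT Kb N,
      (∀ v : Place Kb (FbT Kb N), (∀ i, v ≠ WK i) → 0 ≤ v.ord f) →
      ∀ v : Place Kb (FbT Kb N), (∀ i, v ≠ WK i) → 0 ≤ v.ord (galC N σ f) := by
    intro σ _ f hf v hv
    have h1 : RegK N f := fun P hP => hf P ((hWK P).mpr hP)
    exact regK_galC h1 σ v ((hWK v).mp hv)
  have hmain := fun i => exists_exactPole_fam hS hSb hg hgb d hd hordK hordA hPQ hK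
    (A.inertiaSubgroupIn ℚ : Set (Kb ≃ₐ[ℚ] Kb)) (galC N) hgal hreg i
  choose m₀ hm₀ using hmain
  refine ⟨d, Finset.univ.sup m₀, hd, hdN, fun i m hm => ?_⟩
  have hmi : m₀ i ≤ m := le_trans (Finset.le_sup (Finset.mem_univ i)) hm
  obtain ⟨x, X, hx, hxfix, hXE, hX1, hX0, hXno, hXfix⟩ := hm₀ i m hmi
  have hx0 : x ≠ 0 := by
    rintro rfl
    have h1 := hXE i
    rw [map_zero] at h1
    have : X i = 0 := incl_injective' A (by rw [← h1, map_zero])
    rw [this] at hX1
    simp at hX1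
  have hxL := (mem_L_single_iff hx0).mp hx
  refine ⟨x, X, fun P hP => hxL.2 P ((hWK P).mpr hP i), fun σ hσ => ?_, hXE, hX1, hX0,
    fun i' hi' => hXno i' (fun h => hi' ((hWKorb i i').mp h.symm)), hXfix⟩
  exact congrArg Subtype.val (hxfix σ hσ)

/-- **[SURJ-ALL], raw form**: at a good level `N` prime to `q`, every function on the special
fibre which is regular where `j̄` is finite has a lift of level `N`, regular where `j` is finite,
with inertia-fixed `q`-expansion, whose coset expansions are `A`-integral and reduce to the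
coset expansions of the given function. -/
theorem surjAll_raw (hq : q.Prime) (hA : A.LiesOverPrime q) (hqN : ¬ q ∣ N)
    (hN : 4 ∣ N ∨ 9 ∣ N) (hKey : KeyStatement N A hq hA hqN) (hGal : GalStatement N A)
    (y : FbT (kA A) N) (hy : RegA N A y) :
    ∃ (x : FbT Kb N) (X : IX N → LaurentSeries A),
      RegK N x ∧
      (∀ σ ∈ A.inertiaSubgroupIn ℚ,
        coeffMap ((σ : Kb ≃ₐ[ℚ] Kb) : Kb →+* Kb) (x : LaurentSeries Kb) = x) ∧
      (∀ i, sigmaK N i x = incl A (X i)) ∧
      (∀ i, red A (X i) = sigmaA hq hA hqN i y) ∧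
      ∀ σ ∈ A.inertiaSubgroupIn ℚ, ∀ i (k : ℤ),
        σ (((X i).coeff k : A) : Kb) = (((X i).coeff k : A) : Kb) := by
  classical
  obtain ⟨WK, WA, d, hd, hdN, hordK, hordA, hWKorb, hWAorb, hWK, hWA⟩ :=
    exists_dictionary (N := N) (A := A) hq hA hqN
  obtain ⟨g, hg, hgb⟩ := exists_genus_fullC (N := N) (A := A) hq hA hqN hN
  have hS := riemannSetting_fullC N
  have hSb : Fermat.Agent.P2.helper74.RiemannSetting (kA A) (FbT (kA A) N) :=
    Fermat.Agent.P2.helper95.riemannSetting_FFb N A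
  have hPQ : ∀ i i', WK i = WK i' ↔ WA i = WA i' := fun i i' =>
    ⟨fun h => (hWAorb i i').mpr ((hWKorb i i').mp h),
      fun h => (hWKorb i i').mpr ((hWAorb i i').mp h)⟩
  have hK := keyFam_of_key hq hA hqN hKey hWK hWA
  have hgal : ∀ σ ∈ (A.inertiaSubgroupIn ℚ : Set (Kb ≃ₐ[ℚ] Kb)), ∀ (i : IX N) (f : FbT Kb N),
      sigKa N i (galC N σ f) = coeffMap ((σ : Kb ≃ₐ[ℚ] Kb) : Kb →+* Kb) (sigKa N i f) :=
    fun σ hσ i f => hGal σ hσ i f _
  have hreg : ∀ σ ∈ (A.inertiaSubgroupIn ℚ : Set (Kb ≃ₐ[ℚ] Kb)), ∀ f : FbT Kb N,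
      (∀ v : Place Kb (FbT Kb N), (∀ i, v ≠ WK i) → 0 ≤ v.ord f) →
      ∀ v : Place Kb (FbT Kb N), (∀ i, v ≠ WK i) → 0 ≤ v.ord (galC N σ f) := by
    intro σ _ f hf v hv
    have h1 : RegK N f := fun P hP => hf P ((hWK P).mpr hP)
    exact regK_galC h1 σ v ((hWK v).mp hv)
  haveI : Nonempty (IX N) := ⟨i0 N⟩
  obtain ⟨x, X, hx, hxfix, hXE, hXred, hXfix⟩ := surjAll_fam hS hSb hg hgb d hd hordK hordA
    hPQ hK (A.inertiaSubgroupIn ℚ : Set (Kb ≃ₐ[ℚ] Kb)) (galC N) hgal hreg
    (fun c => exists_fixed_residue hq hA c) y (fun w hw => hy w ((hWA w).mp hw))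
  exact ⟨x, X, fun P hP => hx P ((hWK P).mpr hP),
    fun σ hσ => congrArg Subtype.val (hxfix σ hσ), hXE, hXred, hXfix⟩

end Main

end Fermat.Agent.T3.helper96

end
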