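/-
T3 (S36), helper96, row 1080 [XPOLE-c], final form: **`helper74.XPoleAll`** (the contract of
`helper74_Sat3TwInst`) for ANY family of expansions `EN c` of level `N` in LOCAL parameters,

  `sigmaK N (rep c) y = (EN c y)(t^(d_c))`,   `d_c * #(T-orbit of rep c) = N`,

indexed by a type `𝒞` of cusps with representatives `rep : 𝒞 → IX N` in pairwise different
`T`-orbits; from `KeyStatement` + `GalStatement` (`helper96_XPoleInst`).

* `xPoleAll_of_raw` : the conversion of the raw exact-pole elements (`xpole_raw`).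
* `xPoleAll_of_key` : `∃ m₀, XPoleAll A EN B m₀`.
-/
import Mathlib
import Fermat.Agent.T3.helper96_XPoleInst
import Fermat.Agent.T3.helper74_Sat3TwInst
import Fermat.Agent.P2.helper56_DiscCoeff

set_option autoImplicit false
set_option synthInstance.maxHeartbeats 400000
set_option maxHeartbeats 1000000
set_option linter.style.haveILetI false
set_option linter.unusedSectionVars false

noncomputable section

open HahnSeries ModularCurve AlgebraicCurve
open Fermat.Agent.S18.helper19 Fermat.Agent.P2.helper29 Fermat.Agent.P2.helper28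
open Fermat.Agent.S28

namespace Fermat.Agent.T3.helper96

section All

variable {N q : ℕ} [NeZero N] [NeZero q] {A : ValuationSubring Kb}

/-- un-substitution of an integral series: if `incl X = Z(t^d)` then `Z` is integral, with
coefficients `Z_n = X_{d n}`. -/
theorem exists_unsubst (d : ℕ) [NeZero d] {X : LaurentSeries A} {Z : LaurentSeries Kb}
    (h : incl A X = qExpand Kb d Z) :
    ∃ X' : LaurentSeries A, incl A X' = Z ∧ ∀ n : ℤ, X'.coeff n = X.coeff ((d : ℤ) * n) := by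
  have hco : ∀ n : ℤ, Z.coeff n = ((X.coeff ((d : ℤ) * n) : A) : Kb) := by
    intro n
    have := congrArg (fun z : LaurentSeries Kb => z.coeff ((d : ℤ) * n)) h
    simp only [coeffMap_coeff, qExpand_coeff_mul] at this
    exact this.symm
  obtain ⟨X', hX'⟩ := Fermat.Agent.P2.helper56.exists_coeffMap_eq A Z
    (fun n => by rw [hco n]; exact (X.coeff ((d : ℤ) * n)).2)
  refine ⟨X', hX', fun n => ?_⟩
  apply Subtype.ext
  have := congrArg (fun z : LaurentSeries Kb => z.coeff n) hX'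
  simp only [coeffMap_coeff] at this
  rw [← hco n]
  exact this

/-- **[XPOLE-c] in the contract form of `helper74`**, from the raw exact-pole elements. -/
theorem xPoleAll_of_raw {𝒞 : Type*} (rep : 𝒞 → IX N)
    (hrep : ∀ c c', rep c' ∈ orbT N (rep c) → c' = c)
    (EN : 𝒞 → (FF N →+* LaurentSeries Kb))
    (d : IX N → ℕ) (hd : ∀ i, 0 < d i)
    (hEN : ∀ (c : 𝒞) (y : FF N),
      sigmaK N (rep c) ⟨(y : LaurentSeries Kb), mem_fullC_of_mem_FF N y.2⟩ =
        @qExpand Kb _ (d (rep c)) ⟨(hd (rep c)).ne'⟩ (EN c y))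
    (B : Subalgebra Kb (FF (N * q * q)))
    (hB : ∀ x : FF N, (∀ P : Place Kb (FF N), 0 ≤ P.ord (Fermat.Agent.S24.xJ N) → 0 ≤ P.ord x) →
      ∀ e, Fermat.Agent.T3.helper74.dgF N q e x ∈ B)
    {m₀ : ℕ}
    (hraw : ∀ (i : IX N) (m : ℕ), m₀ ≤ m → ∃ (x : FbT Kb N) (X : IX N → LaurentSeries A),
        RegK N x ∧
        (∀ σ ∈ A.inertiaSubgroupIn ℚ,
          coeffMap ((σ : Kb ≃ₐ[ℚ] Kb) : Kb →+* Kb) (x : LaurentSeries Kb) = x) ∧
        (∀ i', sigmaK N i' x = incl A (X i')) ∧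
        (X i).coeff (-((d i : ℤ) * m)) = 1 ∧
        (∀ k : ℤ, k < -((d i : ℤ) * m) → (X i).coeff k = 0) ∧
        (∀ i', i' ∉ orbT N i → ∀ k : ℤ, k < 0 → (X i').coeff k = 0) ∧
        ∀ σ ∈ A.inertiaSubgroupIn ℚ, ∀ i' (k : ℤ),
          σ (((X i').coeff k : A) : Kb) = (((X i').coeff k : A) : Kb)) :
    Fermat.Agent.T3.helper74.XPoleAll (q := q) A EN B m₀ := by
  intro c₀ m hm
  obtain ⟨x, X, hxreg, hxfix, hXE, hX1, hX0, hXno, hXfix⟩ := hraw (rep c₀) m hm
  set x' : FF N := ⟨(x : LaurentSeries Kb), mem_FF_of_mem_fullC N x.2⟩ with hx'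
  have hxx : (⟨(x' : LaurentSeries Kb), mem_fullC_of_mem_FF N x'.2⟩ : FbT Kb N) = x := rfl
  -- the un-substituted expansions
  have hex : ∀ c : 𝒞, ∃ X' : LaurentSeries A, incl A X' = EN c x' ∧
      ∀ n : ℤ, X'.coeff n = (X (rep c)).coeff ((d (rep c) : ℤ) * n) := by
    intro c
    haveI : NeZero (d (rep c)) := ⟨(hd (rep c)).ne'⟩
    apply exists_unsubst (d (rep c))
    rw [← hXE (rep c), ← hEN c x']
  choose X' hX'E hX'co using hex
  refine ⟨x', X', ?_, ?_, fun c => hX'E c, ?_, ?_, ?_, ?_⟩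
  · -- inertia-fixed
    intro σ hσ
    apply Subtype.ext
    rw [coe_arithmeticRingAut_apply]
    exact hxfix σ hσ
  · exact hB x' ((regK_iff_FF x.2).mp hxreg)
  · rw [hX'co c₀, show (d (rep c₀) : ℤ) * -(m : ℤ) = -((d (rep c₀) : ℤ) * m) by ring, hX1]
    exact isUnit_one
  · intro σ hσ
    rw [hX'co c₀]
    exact hXfix σ hσ (rep c₀) _
  · intro k hk
    rw [hX'co c₀]
    apply hX0
    have hdpos : (0 : ℤ) < (d (rep c₀) : ℤ) := by exact_mod_cast hd (rep c₀)
    nlinarith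
  · intro c hc k hk
    rw [hX'co c]
    apply hXno (rep c) (fun h => hc (hrep c₀ c h))
    have hdpos : (0 : ℤ) < (d (rep c) : ℤ) := by exact_mod_cast hd (rep c)
    nlinarith

/-- **[XPOLE-c]**: `helper74.XPoleAll` at a good level `N` prime to `q`, from `KeyStatement` and
`GalStatement`, for any family of local expansions `EN`. -/
theorem xPoleAll_of_key (hq : q.Prime) (hA : A.LiesOverPrime q) (hqN : ¬ q ∣ N)
    (hN : 4 ∣ N ∨ 9 ∣ N) (hKey : KeyStatement N A hq hA hqN) (hGal : GalStatement N A)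
    {𝒞 : Type*} (rep : 𝒞 → IX N) (hrep : ∀ c c', rep c' ∈ orbT N (rep c) → c' = c)
    (EN : 𝒞 → (FF N →+* LaurentSeries Kb))
    (hEN : ∀ (c : 𝒞) (dc : ℕ) (hdc : NeZero dc), dc * Nat.card (orbT N (rep c)) = N →
      ∀ y : FF N, sigmaK N (rep c) ⟨(y : LaurentSeries Kb), mem_fullC_of_mem_FF N y.2⟩ =
        @qExpand Kb _ dc hdc (EN c y))
    (B : Subalgebra Kb (FF (N * q * q)))
    (hB : ∀ x : FF N, (∀ P : Place Kb (FF N), 0 ≤ P.ord (Fermat.Agent.S24.xJ N) → 0 ≤ P.ord x) →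
      ∀ e, Fermat.Agent.T3.helper74.dgF N q e x ∈ B) :
    ∃ m₀ : ℕ, Fermat.Agent.T3.helper74.XPoleAll (q := q) A EN B m₀ := by
  obtain ⟨d, m₀, hd, hdN, hraw⟩ := xpole_raw hq hA hqN hN hKey hGal
  exact ⟨m₀, xPoleAll_of_raw rep hrep EN d hd
    (fun c y => hEN c (d (rep c)) ⟨(hd (rep c)).ne'⟩ (hdN (rep c)) y) B hB hraw⟩

end All

end Fermat.Agent.T3.helper96

end
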