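/-
helper96 — T3 [XPOLE-c] / [SURJ-ALL], UNCONDITIONAL form.

`KeyStatement` and `GalStatement` of `helper96_XPoleInst` from the second prover of [CUSP-N]
(`helper28_CuspNKey.key`, `helper28_CuspNGal.EN_galF_of_inertia`), and the unconditional forms of
`xpole_raw`, `surjAll_raw`, `xPoleAll_of_key`.

* `keyStatement_h28` : `KeyStatement N A hq hA hqN`;
* `galStatement_h28` : `GalStatement N A` (for `q ∤ N`);
* `xpole_good`, `surjAll_good`, `xPoleAll_good`.
-/
import Mathlib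
import Fermat.Agent.T3.helper96_XPoleAll
import Fermat.Agent.T3.helper28_CuspNGal
import Fermat.Agent.P2.helper81_ValConv

set_option linter.unusedSectionVars false
set_option linter.unusedVariables false
set_option linter.style.longLine false

noncomputable section

open HahnSeries ModularCurve AlgebraicCurve
open Fermat.Agent.S18.helper19 Fermat.Agent.P2.helper29 Fermat.Agent.P2.helper28
open Fermat.Agent.S28

namespace Fermat.Agent.T3.helper96

section Good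

variable {N : ℕ} [NeZero N] {A : ValuationSubring Kb} {q : ℕ}

/-- **[KEY]**, from `helper28.key` and the finite-place half of [VAL-UE]. -/
theorem keyStatement_h28 (hq : q.Prime) (hA : A.LiesOverPrime q) (hqN : ¬ q ∣ N) :
    KeyStatement N A hq hA hqN := by
  intro Y hY hreg
  have hY' : incl A Y ∈ FF N := mem_FF_of_mem_fullC N hY
  have hreg' := (regK_iff_FF hY).mp hreg
  obtain ⟨hb, h⟩ := Fermat.Agent.T3.helper28.key A N hq hA hqN Y hY' hreg'
  refine ⟨hb, ?_, fun i => ?_⟩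
  · intro Q hQ
    have hint := Fermat.Agent.T3.helper28.exists_monic_of_reg N ⟨incl A Y, hY'⟩ hreg'
    have : Fact q.Prime := ⟨hq⟩
    exact Fermat.Agent.P2.helper81.ord_red_nonneg_of_ord_jBar_nonneg A hA N hqN Y hY' hint hb Q hQ
  · obtain ⟨Yi, h1, h2⟩ := h i
    exact ⟨Yi, h1, h2⟩

/-- **[GAL]**, from `helper28.EN_galF_of_inertia`. -/
theorem galStatement_h28 (hq : q.Prime) (hA : A.LiesOverPrime q) (hqN : ¬ q ∣ N) :
    GalStatement N A := by
  intro σ hσ i f hmem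
  have h := Fermat.Agent.T3.helper28.EN_galF_of_inertia N A hq hA hqN hσ i
    ⟨(f : LaurentSeries Kb), mem_FF_of_mem_fullC N f.2⟩
  rw [Fermat.Agent.T3.helper28.EN_apply, Fermat.Agent.T3.helper28.EN_apply] at h
  have e1 : (⟨((arithmeticRingAut (modularFunctionFieldFull N) σ
      (⟨(f : LaurentSeries Kb), mem_FF_of_mem_fullC N f.2⟩ : FF N) : FF N) : LaurentSeries Kb),
      Fermat.Agent.T3.helper28.mem_fullC_of_mem N
        (arithmeticRingAut (modularFunctionFieldFull N) σ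
          (⟨(f : LaurentSeries Kb), mem_FF_of_mem_fullC N f.2⟩ : FF N)).2⟩ : FbT Kb N) =
      ⟨coeffMap ((σ : Kb ≃ₐ[ℚ] Kb) : Kb →+* Kb) (f : LaurentSeries Kb), hmem⟩ := by
    apply Subtype.ext
    exact coe_arithmeticRingAut_apply _ σ _
  rw [e1] at h
  exact h

/-- **[XPOLE-c], raw form, unconditional.** -/
theorem xpole_good (hq : q.Prime) (hA : A.LiesOverPrime q) (hqN : ¬ q ∣ N)
    (hN : 4 ∣ N ∨ 9 ∣ N) :
    ∃ (d : IX N → ℕ) (m₀ : ℕ), (∀ i, 0 < d i) ∧ (∀ i, d i * Nat.card (orbT N i) = N) ∧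
      ∀ (i : IX N) (m : ℕ), m₀ ≤ m → ∃ (x : FbT Kb N) (X : IX N → LaurentSeries A),
        RegK N x ∧
        (∀ σ ∈ A.inertiaSubgroupIn ℚ,
          coeffMap ((σ : Kb ≃ₐ[ℚ] Kb) : Kb →+* Kb) (x : LaurentSeries Kb) = x) ∧
        (∀ i', sigmaK N i' x = incl A (X i')) ∧
        (X i).coeff (-((d i : ℤ) * m)) = 1 ∧
        (∀ k : ℤ, k < -((d i : ℤ) * m) → (X i).coeff k = 0) ∧
        (∀ i', i' ∉ orbT N i → ∀ k : ℤ, k < 0 → (X i').coeff k = 0) ∧
        ∀ σ ∈ A.inertiaSubgroupIn ℚ, ∀ i' (k : ℤ),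
          σ (((X i').coeff k : A) : Kb) = (((X i').coeff k : A) : Kb) :=
  xpole_raw hq hA hqN hN (keyStatement_h28 hq hA hqN) (galStatement_h28 hq hA hqN)

/-- **[SURJ-ALL], raw form, unconditional.** -/
theorem surjAll_good (hq : q.Prime) (hA : A.LiesOverPrime q) (hqN : ¬ q ∣ N)
    (hN : 4 ∣ N ∨ 9 ∣ N) (y : FbT (kA A) N) (hy : RegA N A y) :
    ∃ (x : FbT Kb N) (X : IX N → LaurentSeries A),
      RegK N x ∧
      (∀ σ ∈ A.inertiaSubgroupIn ℚ,
        coeffMap ((σ : Kb ≃ₐ[ℚ] Kb) : Kb →+* Kb) (x : LaurentSeries Kb) = x) ∧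
      (∀ i, sigmaK N i x = incl A (X i)) ∧
      (∀ i, red A (X i) = sigmaA hq hA hqN i y) ∧
      ∀ σ ∈ A.inertiaSubgroupIn ℚ, ∀ i (k : ℤ),
        σ (((X i).coeff k : A) : Kb) = (((X i).coeff k : A) : Kb) :=
  surjAll_raw hq hA hqN hN (keyStatement_h28 hq hA hqN) (galStatement_h28 hq hA hqN) y hy

/-- **[XPOLE-c]**: `helper74.XPoleAll` at a good level `N` prime to `q`, unconditional, for any
family of local expansions `EN` with `sigmaK N (rep c) y = (EN c y)(t^(d_c))`. -/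
theorem xPoleAll_good [NeZero q] (hq : q.Prime) (hA : A.LiesOverPrime q) (hqN : ¬ q ∣ N)
    (hN : 4 ∣ N ∨ 9 ∣ N)
    {𝒞 : Type*} (rep : 𝒞 → IX N) (hrep : ∀ c c', rep c' ∈ orbT N (rep c) → c' = c)
    (EN : 𝒞 → (FF N →+* LaurentSeries Kb))
    (hEN : ∀ (c : 𝒞) (dc : ℕ) (hdc : NeZero dc), dc * Nat.card (orbT N (rep c)) = N →
      ∀ y : FF N, sigmaK N (rep c) ⟨(y : LaurentSeries Kb), mem_fullC_of_mem_FF N y.2⟩ =
        @qExpand Kb _ dc hdc (EN c y))
    (B : Subalgebra Kb (FF (N * q * q)))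
    (hB : ∀ x : FF N, (∀ P : Place Kb (FF N), 0 ≤ P.ord (Fermat.Agent.S24.xJ N) → 0 ≤ P.ord x) →
      ∀ e, Fermat.Agent.T3.helper74.dgF N q e x ∈ B) :
    ∃ m₀ : ℕ, Fermat.Agent.T3.helper74.XPoleAll (q := q) A EN B m₀ :=
  xPoleAll_of_key hq hA hqN hN (keyStatement_h28 hq hA hqN) (galStatement_h28 hq hA hqN)
    rep hrep EN hEN B hB

end Good

end Fermat.Agent.T3.helper96

end
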