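/-
helper96 — T3 [XPOLE-c] for the family of [CUSP-Q] (`helper87_CuspQFam`).

`xPoleAll_ENc` : `helper74.XPoleAll A (helper87.ENc N) (helper98.regJ (N q q)) m₀` at the good
levels (`4 ∣ N` or `9 ∣ N`, `q ∤ N`), unconditional: the hypothesis `hX` of
`helper74.satStatementE_of_table` / `root_of_table` for `EN = ENc N`, `B = regJ (N q q)`.
-/
import Mathlib
import Fermat.Agent.T3.helper96_XPoleGood
import Fermat.Agent.T3.helper87_CuspQFam
import Fermat.Agent.T3.helper74_XPoleBridge

set_option linter.unusedSectionVars false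
set_option linter.unusedVariables false
set_option linter.style.longLine false

noncomputable section

open HahnSeries ModularCurve AlgebraicCurve
open Fermat.Agent.S18.helper19 Fermat.Agent.P2.helper29 Fermat.Agent.P2.helper28
open Fermat.Agent.S28

namespace Fermat.Agent.T3.helper96

section ENc

variable {N q : ℕ} [NeZero N] [NeZero q] {A : ValuationSubring Kb}

/-- the defining identity of `helper87.ENc` in the shape `hEN` of `xPoleAll_good` -/
theorem hEN_ENc (c : Fermat.Agent.T3.helper87.Cusp N) (dc : ℕ) (hdc : NeZero dc)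
    (h : dc * Nat.card (orbT N (Fermat.Agent.T3.helper87.crep N c)) = N) (y : FF N) :
    sigmaK N (Fermat.Agent.T3.helper87.crep N c)
        ⟨(y : LaurentSeries Kb), mem_fullC_of_mem_FF N y.2⟩ =
      @qExpand Kb _ dc hdc (Fermat.Agent.T3.helper87.ENc N c y) := by
  have hw := Fermat.Agent.T3.helper87.wd_eq_card N (Fermat.Agent.T3.helper87.crep N c)
  have hd := Fermat.Agent.T3.helper87.dloc_mul_wd N (Fermat.Agent.T3.helper87.crep N c)
  have hwpos := Fermat.Agent.T3.helper87.wd_pos N (Fermat.Agent.T3.helper87.crep N c)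
  have hdc' : dc = Fermat.Agent.T3.helper87.dloc N (Fermat.Agent.T3.helper87.crep N c) := by
    have h' : dc * Fermat.Agent.T3.helper87.wd N (Fermat.Agent.T3.helper87.crep N c) = N := by
      rw [hw]
      exact h
    exact Nat.eq_of_mul_eq_mul_right hwpos (h'.trans hd.symm)
  subst hdc'
  have h1 := Fermat.Agent.T3.helper87.qExpand_ENc (N := N) c y
  rw [Fermat.Agent.T3.helper23.sigmaFF_apply] at h1
  have e : Fermat.Agent.T3.helper23.toFullC N y =
      (⟨(y : LaurentSeries Kb), mem_fullC_of_mem_FF N y.2⟩ : FbT Kb N) :=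
    Subtype.ext (Fermat.Agent.T3.helper23.coe_toFullC N y)
  rw [e] at h1
  rw [← h1]

/-- **[XPOLE-c] for the [CUSP-Q] family**: exact-pole elements at every cusp of level `N`, in
the local parameters `helper87.ENc`, with the three pull-backs regular where `j` is finite. -/
theorem xPoleAll_ENc (hq : q.Prime) (hA : A.LiesOverPrime q) (hqN : ¬ q ∣ N)
    (hN : 4 ∣ N ∨ 9 ∣ N) :
    ∃ m₀ : ℕ, Fermat.Agent.T3.helper74.XPoleAll (q := q) A (Fermat.Agent.T3.helper87.ENc N)
      (Fermat.Agent.T3.helper98.regJ (N * q * q)) m₀ := by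
  refine xPoleAll_good hq hA hqN hN (Fermat.Agent.T3.helper87.crep N)
    (fun c c' h => Fermat.Agent.T3.helper87.hrep_crep c c' h)
    (Fermat.Agent.T3.helper87.ENc N) hEN_ENc (Fermat.Agent.T3.helper98.regJ (N * q * q)) ?_
  intro x hx e
  have hx' : Fermat.Agent.T3.helper98.IsRegJ N x := by
    intro P hP
    apply hx P
    have hj : Fermat.Agent.P2.helper29.jElt N = Fermat.Agent.S24.xJ N :=
      Subtype.ext (Fermat.Agent.P2.helper81.coe_xJ_eq N).symm
    rw [← hj]
    exact hP
  exact Fermat.Agent.T3.helper74.isRegJ_dgF hq hqN hx' e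

end ENc

end Fermat.Agent.T3.helper96

end
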