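/-
TIER 3 (S36), helper72: ASSEMBLY, FRONTIER.  Everything landed is plugged in:
[HOR] (helper22.hhor_rest), [CUSP-Q] table + injectivity of `kap` (helper87), [XPOLE-c]
(helper96.xPoleAll_ENc), [DISC] (helper23), [GAUSS-ALL] (helper20), [SAT]/[FIX] (helper74),
[SURJ-ALL] (helper95), [GLUE] (helper15), [KER] at `q = 2` (helper72), SCALE3, NORMPOW3, APPROX3.

S36 (`NewCoreAtAuxLevels2`, hence the frozen statement through `s36_of_newCore2`) is reduced to
the THREE statements

* `GalQStatement`   : `GalCompatTw A snd (ex3c N q ζ) ζ`;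
* `CoverQStatement` : `CoverStatementE A (ex3c N q ζ)`;
* `Ker2OddStatement`: [KER] at the middle component for odd `q` (and `4 ∣ N`).
-/
import Fermat.Agent.T3.helper72_S36Asm2
import Fermat.Agent.T3.helper72_RootWire
import Fermat.Agent.T3.helper87_CuspQTab
import Fermat.Agent.T3.helper96_XPoleENc
import Fermat.Agent.T3.helper22_Ideal3Hor

set_option autoImplicit false
set_option synthInstance.maxHeartbeats 400000
set_option linter.unusedSectionVars false
set_option linter.unusedVariables false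
set_option linter.style.haveILetI false
set_option linter.style.longLine false

noncomputable section

open HahnSeries IntermediateField AlgebraicCurve ModularCurve
open Fermat.Agent.S18.helper19 Fermat.Agent.P2.helper29 Fermat.Agent.T2.helper36

namespace Fermat.Agent.T3.helper72

open Fermat.Agent.T3.helper49 (Rho3 Dv3)
open Fermat.Agent.T3.helper98 (regJRing regJ IsRegJ mem_regJRing)
open Fermat.Agent.T3.helper95 (BtAll mem_BtAll)
open Fermat.Agent.T3.helper87 (Cusp ex3c ENc kap)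

/-- **[GAL-Q]**: the Galois compatibility of the family of [CUSP-Q], at the good levels. -/
def GalQStatement : Prop :=
  ∀ (N q : ℕ) [NeZero N] [NeZero q] (_hq : q.Prime) (_hqN : ¬ q ∣ N), (4 ∣ N ∨ 9 ∣ N) →
    ∀ (A : ValuationSubring Kb), A.LiesOverPrime q → ∀ (ζ : Kb), IsPrimitiveRoot ζ q →
      Fermat.Agent.T3.helper74.GalCompatTw A (fun p : Cusp N × Fin 3 => p.2) (ex3c N q ζ) ζ

/-- **[COVER-Q]**: the family of [CUSP-Q] covers all places, at the good levels. -/
def CoverQStatement : Prop :=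
  ∀ (N q : ℕ) [NeZero N] [NeZero q] (_hq : q.Prime) (_hqN : ¬ q ∣ N), (4 ∣ N ∨ 9 ∣ N) →
    ∀ (A : ValuationSubring Kb), A.LiesOverPrime q → ∀ (ζ : Kb), IsPrimitiveRoot ζ q →
      Fermat.Agent.T3.helper27.CoverStatementE A (ex3c N q ζ)

/-- **[KER2-ODD]**: the box [KER] at the middle component for odd `q` (levels with `4 ∣ N`). -/
def Ker2OddStatement : Prop :=
  ∀ (N q : ℕ) [NeZero N] [NeZero q] (hq : q.Prime) (hqN : ¬ q ∣ N), q ≠ 2 → 4 ∣ N →
    ∀ (A : ValuationSubring Kb), A.LiesOverPrime q → ∀ (ζ : Kb) (hζ : IsPrimitiveRoot ζ q),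
      ∃ (b s : FF (N * q * q)) (Xb Xs : Fin 3 → LaurentSeries (kA A)),
        IsRegJ (N * q * q) b ∧ IsRegJ (N * q * q) s ∧ b ≠ 0 ∧ IsRegJ (N * q * q) (s * b⁻¹) ∧
        Rho3 N q hq hqN A hζ b Xb ∧ Rho3 N q hq hqN A hζ s Xs ∧ Xb 2 = 0 ∧
        (∃ z ∈ BtAll N A, Xs 2 * z = 1) ∧
        ∀ (g : FF (N * q * q)) (X : Fin 3 → LaurentSeries (kA A)), Rho3 N q hq hqN A hζ g X →
          X 2 = 0 → ∃ X', Rho3 N q hq hqN A hζ (g * (s * b⁻¹)) X'

/-- **[ROOT3-ALL]** at the good levels, from [GAL-Q] and [COVER-Q]. -/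
theorem root3All_of_galCover {N q : ℕ} [NeZero N] [NeZero q] {hq : q.Prime} {hqN : ¬ q ∣ N}
    {A : ValuationSubring Kb} {ζ : Kb} (hA : A.LiesOverPrime q) (hζ : IsPrimitiveRoot ζ q)
    (hN : 4 ∣ N ∨ 9 ∣ N)
    (hG : Fermat.Agent.T3.helper74.GalCompatTw A (fun p : Cusp N × Fin 3 => p.2)
      (ex3c N q ζ) ζ)
    (hcover : Fermat.Agent.T3.helper27.CoverStatementE A (ex3c N q ζ))
    {n : ℕ} (hn : ¬ q ∣ n) : Root3AllStatement N q hq hqN A hζ n := by
  obtain ⟨m₀, hX⟩ := Fermat.Agent.T3.helper96.xPoleAll_ENc (A := A) hq hA hqN hN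
  exact root3All_of_cuspQ hA hζ (Fermat.Agent.T3.helper87.kap_injective hq hqN hζ)
    (Fermat.Agent.T3.helper87.tableTw_ex3c hq hqN A hA hζ) hX hG hcover hn

/-- the three boxes of `OpenBoxes3` from the three frontier statements. -/
theorem openBoxes3_of_frontier (hG : GalQStatement) (hC : CoverQStatement)
    (hK : Ker2OddStatement) (N q : ℕ) [NeZero N] [NeZero q] (hq : q.Prime) (hqN : ¬ q ∣ N)
    (p : ℕ) (hp : p.Prime) (hpq : p ≠ q) (hN : AuxOK q N) (A : ValuationSubring Kb)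
    (hA : A.LiesOverPrime q) (ζ : Kb) (hζ : IsPrimitiveRoot ζ q) (k : ℕ) :
    OpenBoxes3 N q hq hqN A hζ (p ^ k) where
  root := by
    refine root3All_of_galCover hA hζ hN.good (hG N q hq hqN hN.good A hA ζ hζ)
      (hC N q hq hqN hN.good A hA ζ hζ) ?_
    intro h
    exact hpq ((Nat.prime_dvd_prime_iff_eq hq hp).mp (hq.dvd_of_dvd_pow h)).symm
  ker2 := fun hq2 => by
    rcases hN with ⟨h2, _⟩ | ⟨_, h4⟩
    · exact absurd h2 hq2
    · exact hK N q hq hqN hq2 h4 A hA ζ hζ
  hor := Fermat.Agent.T3.helper22.hhor_rest hA hζ (pow_ne_zero k hp.ne_zero)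

/-- **S36 (core) from the three frontier statements.** -/
theorem newCore2_of_frontier (hG : GalQStatement) (hC : CoverQStatement)
    (hK : Ker2OddStatement) : NewCoreAtAuxLevels2 :=
  newCore2_of_three_forall fun N' q _ _ hq hqN p hp hpq _ hN' A hA ζ hζ k =>
    openBoxes3_of_frontier hG hC hK N' q hq hqN p hp hpq hN' A hA ζ hζ k

/-- **`S36CoreStatement` (the input of S58) from the three frontier statements.** -/
theorem s36Core_of_frontier (hG : GalQStatement) (hC : CoverQStatement)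
    (hK : Ker2OddStatement) : Fermat.Agent.T3.helper34.S36CoreStatement :=
  s36Core_of_newCore2 (newCore2_of_frontier hG hC hK)

end Fermat.Agent.T3.helper72

end
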