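/-
TIER 3 (S36), helper72: ASSEMBLY, LAST FRONTIER.  With [COVER-Q] (helper27.cover_ex3c) and
[KER2-ODD] (helper63.hker_two_odd) plugged into `helper72_S36Frontier`, S36 is reduced to the
SINGLE statement `GalQStatement` (`GalCompatTw A snd (ex3c N q ζ) ζ`).
-/
import Fermat.Agent.T3.helper72_S36Frontier
import Fermat.Agent.T3.helper27_CoverQ
import Fermat.Agent.T3.helper63_MidGenKer

set_option autoImplicit false
set_option synthInstance.maxHeartbeats 400000
set_option linter.unusedSectionVars false
set_option linter.unusedVariables false
set_option linter.style.haveILetI false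
set_option linter.style.longLine false

noncomputable section

open HahnSeries IntermediateField AlgebraicCurve ModularCurve
open Fermat.Agent.S18.helper19 Fermat.Agent.P2.helper29 Fermat.Agent.T2.helper36

namespace Fermat.Agent.T3.helper72

/-- **[COVER-Q]** holds (helper27). -/
theorem coverQStatement : CoverQStatement :=
  fun _ _ _ _ hq hqN _ A hA _ hζ => Fermat.Agent.T3.helper27.cover_ex3c hq hqN A hA hζ

/-- **[KER2-ODD]** holds (helper63). -/
theorem ker2OddStatement : Ker2OddStatement :=
  fun _ _ _ _ hq hqN hq2 h4 A hA _ hζ =>
    Fermat.Agent.T3.helper63.hker_two_odd hq hqN h4 hq2 A hA hζ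

/-- **S36 (core) from [GAL-Q] alone.** -/
theorem newCore2_of_gal (hG : GalQStatement) : NewCoreAtAuxLevels2 :=
  newCore2_of_frontier hG coverQStatement ker2OddStatement

/-- **`S36CoreStatement` (the input of S58) from [GAL-Q] alone.** -/
theorem s36Core_of_gal (hG : GalQStatement) : Fermat.Agent.T3.helper34.S36CoreStatement :=
  s36Core_of_newCore2 (newCore2_of_gal hG)

end Fermat.Agent.T3.helper72

end
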