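/-
T3 (S36), [CUSP-Q] (helper87), part 6: **Galois compatibility** `GalCompatTw` of the family `ex3c`.

* `sigmaFF_eq_EN`        : bridge `helper23.sigmaFF = helper28.EN`;
* `sigmaFF_gal_inertia`  : the expansions of level `M` are equivariant under the inertia
                           groups over `q ∤ M`;
* `sigmaFF_gal_of_isTy`  : the expansion at the coset of a matrix of type `i` of level `N q q` is
                           equivariant under the inertia elements (fixing the middle twist if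
                           `i = 2`);
* `exLoc_gal_of_isTy`    : the same in the local parameter;
* `galCompatTw_ex3c`     : `helper74.GalCompatTw A (fun J => J.2) (ex3c N q ζ) ζ`.
-/
import Mathlib
import Fermat.Agent.T3.helper87_CuspQTab
import Fermat.Agent.T3.helper48_CuspQUniq
import Fermat.Agent.T3.helper28_CuspNGal

set_option autoImplicit false
set_option synthInstance.maxHeartbeats 400000
set_option linter.unusedSectionVars false
set_option linter.unusedVariables false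
set_option linter.style.haveILetI false
set_option linter.style.longLine false

noncomputable section

open HahnSeries ModularCurve
open Fermat.Agent.S18.helper19
open Fermat.Agent.S28 (IX rep)
open Fermat.Agent.P2.helper28
open Fermat.Agent.P2.helper29 (incl)
open Fermat.Agent.T3.helper23 (sigmaFF sigmaFF_apply toFullC coe_toFullC)
open Fermat.Agent.T3.helper90 (cosetOf cosetOf_rep uK iotaK_uK)
open Fermat.Agent.T3.helper74 (dgF sc3)
open scoped MatrixGroups
open CongruenceSubgroup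

namespace Fermat.Agent.T3.helper87

/-! ### The bridge to `helper28.EN` -/

section Bridge

variable (M : ℕ) [NeZero M]

theorem sigmaFF_eq_EN (I : IX M) (f : FF M) :
    sigmaFF M I f = Fermat.Agent.T3.helper28.EN M I f := by
  rw [sigmaFF_apply, Fermat.Agent.T3.helper28.EN_apply]
  have e : (toFullC M f : ↥(modularFunctionFieldFullC Kb M))
      = ⟨(f : LaurentSeries Kb), Fermat.Agent.T3.helper28.mem_fullC_of_mem M f.2⟩ := by
    apply Subtype.ext
    rw [coe_toFullC]
  rw [e]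

/-- the expansions of level `M` are equivariant under the inertia groups over `q ∤ M` -/
theorem sigmaFF_gal_inertia {q : ℕ} (hq : q.Prime) (hqM : ¬ q ∣ M) (A : ValuationSubring Kb)
    (hA : A.LiesOverPrime q) (σ : Kb ≃ₐ[ℚ] Kb) (hσ : σ ∈ A.inertiaSubgroupIn ℚ)
    (I : IX M) (f : FF M) :
    coeffMap (σ : Kb →+* Kb) (sigmaFF M I f) =
      sigmaFF M I (arithmeticRingAut (modularFunctionFieldFull M) σ f) := by
  rw [sigmaFF_eq_EN, sigmaFF_eq_EN]
  exact (Fermat.Agent.T3.helper28.EN_galF_of_inertia M A hq hA hqM hσ I f).symm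

/-- the passage to the local parameter -/
theorem coeffMap_exLoc_of_sigmaFF (I : IX M) (σ : Kb →+* Kb) (f g : FF M)
    (h : coeffMap σ (sigmaFF M I f) = sigmaFF M I g) :
    coeffMap σ (exLoc M I f) = exLoc M I g := by
  ext n
  rw [coeffMap_coeff, exLoc_coeff, exLoc_coeff, ← h, coeffMap_coeff]

end Bridge

/-! ### Level `N q q` -/

section Gal

variable {N q : ℕ} [NeZero N] [NeZero q]

/-- the inertia group of `A` over `q ∤ N` fixes `ζ_N` -/
theorem inertia_zK (hq : q.Prime) (hqN : ¬ q ∣ N) (A : ValuationSubring Kb)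
    (hA : A.LiesOverPrime q) (σ : Kb ≃ₐ[ℚ] Kb) (hσ : σ ∈ A.inertiaSubgroupIn ℚ) :
    σ ((zK N : Kbˣ) : Kb) = ((zK N : Kbˣ) : Kb) :=
  fix_unit_of_pow hq A hA hqN (zK N) (zK_pow N) σ hσ

theorem uMid_pow (k : ℤ) : uMid N q k ^ q = 1 := by
  apply Units.ext
  apply iotaK.injective
  rw [Units.val_pow_eq_pow_val, map_pow, iotaK_uMid, Units.val_one, map_one,
    ← Complex.exp_nat_mul]
  have hq0 : (q : ℂ) ≠ 0 := by exact_mod_cast NeZero.ne q
  rw [show (q : ℂ) * (2 * Real.pi * Complex.I * k / q) = k * (2 * Real.pi * Complex.I) by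
    field_simp]
  exact Complex.exp_int_mul_two_pi_mul_I k

/-- an automorphism fixing the `d`-th power of the middle twist (`q ∤ d`) fixes the twist -/
theorem fix_uMid (hq : q.Prime) {d : ℕ} (hd : ¬ q ∣ d) (k : ℤ) (σ : Kb ≃ₐ[ℚ] Kb)
    (h : σ (((uMid N q k : Kbˣ) : Kb) ^ d) = ((uMid N q k : Kbˣ) : Kb) ^ d) :
    σ ((uMid N q k : Kbˣ) : Kb) = ((uMid N q k : Kbˣ) : Kb) := by
  have hcop : IsCoprime (d : ℤ) (q : ℤ) :=
    (Nat.isCoprime_iff_coprime.mpr ((Nat.Prime.coprime_iff_not_dvd hq).mpr hd)).symm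
  obtain ⟨a, b, hab⟩ := hcop
  have hu : ((uMid N q k : Kbˣ) : Kb) ^ q = 1 := by
    rw [← Units.val_pow_eq_pow_val, uMid_pow, Units.val_one]
  have hu0 : ((uMid N q k : Kbˣ) : Kb) ≠ 0 := Units.ne_zero _
  have e : ((uMid N q k : Kbˣ) : Kb) = (((uMid N q k : Kbˣ) : Kb) ^ d) ^ a := by
    have h1 : ((uMid N q k : Kbˣ) : Kb) ^ (a * (d : ℤ) + b * (q : ℤ))
        = (((uMid N q k : Kbˣ) : Kb) ^ d) ^ a := by
      rw [zpow_add₀ hu0, mul_comm a, zpow_mul, zpow_natCast, mul_comm b, zpow_mul, zpow_natCast,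
        hu, one_zpow, mul_one]
    rw [hab, zpow_one] at h1
    exact h1
  rw [e, map_zpow₀, h]

/-- **Galois equivariance at the coset of a matrix of type `i`** (raw parameter) -/
theorem sigmaFF_gal_of_isTy (hq : q.Prime) (hqN : ¬ q ∣ N) (A : ValuationSubring Kb)
    (hA : A.LiesOverPrime q) {k : ℤ} (hk : ¬ (q : ℤ) ∣ k) {γ : SL(2, ℤ)} {i : Fin 3}
    (hTy : IsTy N q i k γ) (σ : Kb ≃ₐ[ℚ] Kb) (hσ : σ ∈ A.inertiaSubgroupIn ℚ)
    (hmid : i = 2 → σ ((uMid N q k : Kbˣ) : Kb) = ((uMid N q k : Kbˣ) : Kb))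
    (f : FF (N * q * q)) :
    coeffMap (σ : Kb →+* Kb) (sigmaFF (N * q * q) (cosetOf (N * q * q) γ) f) =
      sigmaFF (N * q * q) (cosetOf (N * q * q) γ)
        (arithmeticRingAut (modularFunctionFieldFull (N * q * q)) σ f) := by
  refine Fermat.Agent.T3.helper48.coeffMap_comm_of_substTable N q hq σ
    (sigmaFF (N * q * q) (cosetOf (N * q * q) γ))
    (fun e y => sigmaFF N (cosetOf N (partner N q γ i e k)) y)
    (fun e x => qExpand Kb (pM q i e) (Fermat.Agent.P2.helper94.rot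
        (uK (pD q i e * N) (pDN_pos i e) (pB N i e k)) x)) ?_ ?_ ?_ f
  · intro e y
    exact raw_table_of_isTy hq hqN hk hTy e y
  · intro e x
    apply Fermat.Agent.T3.helper48.coeffMap_qExpand_rot_fix
    by_cases hie : i = 2 ∧ e = 2
    · obtain ⟨rfl, rfl⟩ := hie
      rw [uK_pB_22]
      exact hmid rfl
    · rw [uK_pB_of_ne hie, Units.val_one, map_one]
  · intro e y
    exact sigmaFF_gal_inertia N hq hqN A hA σ hσ _ y

/-- **Galois equivariance at the coset of a matrix of type `i`** (local parameter) -/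
theorem exLoc_gal_of_isTy (hq : q.Prime) (hqN : ¬ q ∣ N) (A : ValuationSubring Kb)
    (hA : A.LiesOverPrime q) {k : ℤ} (hk : ¬ (q : ℤ) ∣ k) {γ : SL(2, ℤ)} {i : Fin 3}
    (hTy : IsTy N q i k γ) (σ : Kb ≃ₐ[ℚ] Kb) (hσ : σ ∈ A.inertiaSubgroupIn ℚ)
    (hmid : i = 2 → σ ((uMid N q k : Kbˣ) : Kb) = ((uMid N q k : Kbˣ) : Kb))
    (f : FF (N * q * q)) :
    coeffMap (σ : Kb →+* Kb) (exLoc (N * q * q) (cosetOf (N * q * q) γ) f) =
      exLoc (N * q * q) (cosetOf (N * q * q) γ)
        (arithmeticRingAut (modularFunctionFieldFull (N * q * q)) σ f) :=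
  coeffMap_exLoc_of_sigmaFF (N * q * q) _ _ _ _
    (sigmaFF_gal_of_isTy hq hqN A hA hk hTy σ hσ hmid f)

/-- `q` does not divide the exponents of the local parameters of level `N` -/
theorem not_dvd_dloc (hqN : ¬ q ∣ N) (I : IX N) : ¬ q ∣ dloc N I := fun h =>
  hqN (h.trans ⟨wd N I, (dloc_mul_wd N I).symm⟩)

/-- **Galois equivariance of the family** -/
theorem ex3c_gal (hq : q.Prime) (hqN : ¬ q ∣ N) (A : ValuationSubring Kb)
    (hA : A.LiesOverPrime q) {ζ : Kb} (hζ : IsPrimitiveRoot ζ q) (J : Cusp N × Fin 3)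
    (σ : Kb ≃ₐ[ℚ] Kb) (hσ : σ ∈ A.inertiaSubgroupIn ℚ) (hfix : J.2 = 2 → σ ζ = ζ)
    (f : FF (N * q * q)) :
    coeffMap (σ : Kb →+* Kb) (ex3c N q ζ J f) =
      ex3c N q ζ J (arithmeticRingAut (modularFunctionFieldFull (N * q * q)) σ f) := by
  obtain ⟨hk, hkζ⟩ := kmid_spec hq hqN J.1 hζ
  refine exLoc_gal_of_isTy hq hqN A hA hk (isTy_gQ N q hq hqN J.1 J.2 hk) σ hσ ?_ f
  intro h2
  apply fix_uMid hq (not_dvd_dloc hqN (crep N J.1))
  rw [hkζ]
  exact hfix h2

/-- **`GalCompatTw` for the family `ex3c`** -/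
theorem galCompatTw_ex3c (hq : q.Prime) (hqN : ¬ q ∣ N) (A : ValuationSubring Kb)
    (hA : A.LiesOverPrime q) {ζ : Kb} (hζ : IsPrimitiveRoot ζ q) :
    Fermat.Agent.T3.helper74.GalCompatTw A (fun J : Cusp N × Fin 3 => J.2) (ex3c N q ζ) ζ := by
  intro J f hf σ hσ hfix
  rw [ex3c_gal hq hqN A hA hζ J σ hσ hfix f, hf σ hσ]

end Gal

end Fermat.Agent.T3.helper87

end
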