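/-
TIER 3 (S36), helper72: FINAL ASSEMBLY.  [GAL-Q] (helper87.galCompatTw_ex3c) plugged into
`helper72_S36Gal`: `newCore2 : NewCoreAtAuxLevels2` and `s36Core : S36CoreStatement` are
UNCONDITIONAL.  The frozen statement S36 follows through `s36_of_newCore2`.
-/
import Fermat.Agent.T3.helper72_S36Gal
import Fermat.Agent.T3.helper87_CuspQGal

set_option autoImplicit false
set_option synthInstance.maxHeartbeats 400000
set_option linter.unusedSectionVars false
set_option linter.unusedVariables false
set_option linter.style.haveILetI false
set_option linter.style.longLine false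

noncomputable section

open HahnSeries IntermediateField AlgebraicCurve ModularCurve
open Fermat.Agent.S18.helper19 Fermat.Agent.P2.helper29 Fermat.Agent.T2.helper36

namespace Fermat.Agent.T3.helper72

/-- **[GAL-Q]** holds (helper87). -/
theorem galQStatement : GalQStatement :=
  fun _ _ _ _ hq hqN _ A hA _ hζ => Fermat.Agent.T3.helper87.galCompatTw_ex3c hq hqN A hA hζ

/-- **the core of S36 at the auxiliary levels, UNCONDITIONAL.** -/
theorem newCore2 : NewCoreAtAuxLevels2 := newCore2_of_gal galQStatement

/-- **`S36CoreStatement` (the input of S58), UNCONDITIONAL.** -/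
theorem s36Core : Fermat.Agent.T3.helper34.S36CoreStatement := s36Core_of_newCore2 newCore2

end Fermat.Agent.T3.helper72

end
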