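/-
T3 / S36, leaf [FG-4a] of helper22's FG plan (#2300), CONCRETE part (helper84).

`A` a valuation subring of `ℚ̄`, `I = A.inertiaSubgroupIn ℚ`, `K0 = ℚ̄^I`, `F0 = F_M^I`
(`IsFixI A M`), `j = xJ M = jElt M`.

* `k0Field A : Subfield Kb`                      : the fixed field `K0` of the inertia group;
* `isFixI_iff_rat`                               : `f ∈ F_M` is `I`-fixed iff all coefficients of
                                                   its expansion at `∞` lie in `K0`;
* `k0j A M : IntermediateField (k0Field A) (FF M)` : `K0(j)`;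
* `f0Over A M : IntermediateField (k0j A M) (FF M)` : `F0` as an extension of `K0(j)`;
* `fg4a_linearIndependent`                       : `I`-fixed functions which are linearly independent
                                                   over `K0(j)` are linearly independent over `ℚ̄(j)`;
* `f0Over_finiteDimensional`, `f0Over_finrank_le` : **[FG-4a]** `[F0 : K0(j)] ≤ [F_M : ℚ̄(j)]`;
  `f0Over_finrank_le_degN`                        : `… = degN M` (`P2.helper81.finrank_xJ`).
-/
import Mathlib
import Fermat.Agent.T3.helper84_FG4Abs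
import Fermat.Agent.T3.helper84_K0Ring
import Fermat.Agent.T3.helper74_Sat3Defs
import Fermat.Agent.P2.helper81_ValScale
import Fermat.Agent.P2.helper98_RootN

set_option autoImplicit false
set_option linter.unusedSectionVars false
set_option linter.style.haveILetI false

open Polynomial HahnSeries ModularCurve IntermediateField
open Fermat.Agent.S18.helper19 Fermat.Agent.P2.helper29 Fermat.Agent.S24

noncomputable section

namespace Fermat.Agent.T3.helper84

variable (A : ValuationSubring Kb)

/-- the fixed field `K0 = ℚ̄^I` of the inertia group of `A` -/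
def k0Field : Subfield Kb where
  carrier := {x | ∀ σ ∈ A.inertiaSubgroupIn ℚ, σ x = x}
  mul_mem' := fun ha hb σ hσ => by rw [map_mul, ha σ hσ, hb σ hσ]
  one_mem' := fun σ _ => map_one σ
  add_mem' := fun ha hb σ hσ => by rw [map_add, ha σ hσ, hb σ hσ]
  zero_mem' := fun σ _ => map_zero σ
  neg_mem' := fun ha σ hσ => by rw [map_neg, ha σ hσ]
  inv_mem' := fun x hx σ hσ => by rw [map_inv₀, hx σ hσ]

theorem mem_k0Field_iff (x : Kb) :
    x ∈ k0Field A ↔ ∀ σ ∈ A.inertiaSubgroupIn ℚ, σ x = x := Iff.rfl

theorem mem_k0Ring_iff_k0Field (x : Kb) : x ∈ k0Ring A ↔ x ∈ A ∧ x ∈ k0Field A := Iff.rfl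

variable (M : ℕ) [NeZero M]

/-- `f ∈ F_M` is fixed by the inertia group iff its expansion at `∞` has coefficients in `K0` -/
theorem isFixI_iff_rat (f : FF M) :
    Fermat.Agent.T3.helper74.IsFixI A M f ↔ f ∈ fg4_rat (k0Field A) (FF M).val := by
  constructor
  · intro h n σ hσ
    have h1 := congrArg (fun g : FF M => (g : LaurentSeries Kb).coeff n) (h σ hσ)
    simp only [coe_arithmeticRingAut_apply, coeffMap_coeff] at h1
    exact h1
  · intro h σ hσ
    apply Subtype.ext
    rw [coe_arithmeticRingAut_apply]
    ext n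
    rw [coeffMap_coeff]
    exact h n σ hσ

/-- `j` is fixed by the inertia group -/
theorem isFixI_xJ : Fermat.Agent.T3.helper74.IsFixI A M (xJ M) := by
  intro σ _
  apply Subtype.ext
  rw [coe_arithmeticRingAut_apply, Fermat.Agent.P2.helper98.coe_xJ_eq_jqModC, coeffMap_jqModC]

theorem xJ_mem_rat : xJ M ∈ fg4_rat (k0Field A) (FF M).val :=
  (isFixI_iff_rat A M _).mp (isFixI_xJ A M)

/-- the field `K0(j)` inside `F_M` -/
def k0j : IntermediateField (k0Field A) (FF M) := IntermediateField.adjoin (k0Field A) {xJ M}

/-- the elements of `K0(j)` are fixed by the inertia group -/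
theorem isFixI_of_mem_k0j {f : FF M} (hf : f ∈ k0j A M) :
    Fermat.Agent.T3.helper74.IsFixI A M f := by
  rw [isFixI_iff_rat]
  have hle : k0j A M ≤
      ({ (fg4_rat (k0Field A) (FF M).val) with
          inv_mem' := fun x hx => by
            have hx' : Fermat.Agent.T3.helper74.IsFixI A M x := (isFixI_iff_rat A M x).mpr hx
            refine (isFixI_iff_rat A M x⁻¹).mp ?_
            intro σ hσ
            rw [map_inv₀, hx' σ hσ]
          algebraMap_mem' := fun k => fg4_algebraMap_mem_rat (k0Field A) (FF M).val k } :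
        IntermediateField (k0Field A) (FF M)) := by
    rw [k0j, IntermediateField.adjoin_le_iff]
    rintro y rfl
    exact xJ_mem_rat A M
  exact hle hf

/-- `F0 = F_M^I` as an extension of `K0(j)` -/
def f0Over : IntermediateField (k0j A M) (FF M) where
  carrier := {f | Fermat.Agent.T3.helper74.IsFixI A M f}
  mul_mem' := fun ha hb σ hσ => by rw [map_mul, ha σ hσ, hb σ hσ]
  one_mem' := fun σ _ => map_one _
  add_mem' := fun ha hb σ hσ => by rw [map_add, ha σ hσ, hb σ hσ]
  zero_mem' := fun σ _ => map_zero _
  algebraMap_mem' := fun k => isFixI_of_mem_k0j A M k.2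
  inv_mem' := fun x hx σ hσ => by rw [map_inv₀, hx σ hσ]

theorem mem_f0Over_iff (f : FF M) :
    f ∈ f0Over A M ↔ Fermat.Agent.T3.helper74.IsFixI A M f := Iff.rfl

/-- **[FG-4a] (linear disjointness)**: `I`-fixed functions which are linearly independent over
`K0(j)` are linearly independent over `ℚ̄(j)`. -/
theorem fg4a_linearIndependent {ι : Type*} (b : ι → FF M)
    (hb : ∀ i, Fermat.Agent.T3.helper74.IsFixI A M (b i))
    (h : LinearIndependent (k0j A M) b) : LinearIndependent Kb⟮xJ M⟯ b :=
  fg4_linearIndependent (k0Field A) (FF M).val (xJ M) (xJ_mem_rat A M) b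
    (fun i => (isFixI_iff_rat A M _).mp (hb i)) h

/-- **[FG-4a]** `F0` is finite over `K0(j)`, of degree at most `[F_M : ℚ̄(j)]`. -/
theorem f0Over_finite_and_finrank_le :
    FiniteDimensional (k0j A M) (f0Over A M) ∧
      Module.finrank (k0j A M) (f0Over A M) ≤ Module.finrank Kb⟮xJ M⟯ (FF M) := by
  haveI : FiniteDimensional Kb⟮xJ M⟯ (FF M) := helper77.an_finiteDimensional M
  have h := fg4_finrank_le (k0Field A) (FF M).val (xJ M) (xJ_mem_rat A M)
    (Subalgebra.toSubmodule (f0Over A M).toSubalgebra)
    (fun e he => (isFixI_iff_rat A M e).mp he)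
  exact h

theorem f0Over_finiteDimensional : FiniteDimensional (k0j A M) (f0Over A M) :=
  (f0Over_finite_and_finrank_le A M).1

theorem f0Over_finrank_le :
    Module.finrank (k0j A M) (f0Over A M) ≤ Module.finrank Kb⟮xJ M⟯ (FF M) :=
  (f0Over_finite_and_finrank_le A M).2

/-- **[FG-4a]** `[F0 : K0(j)] ≤ degN M` -/
theorem f0Over_finrank_le_degN :
    Module.finrank (k0j A M) (f0Over A M) ≤ Fermat.Agent.P2.helper81.degN M := by
  have h := f0Over_finrank_le A M
  rwa [Fermat.Agent.P2.helper81.finrank_xJ] at h

end Fermat.Agent.T3.helper84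

end
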