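/-
T3 / S36, leaf [FG-4c] of helper22's FG plan (#2300), CONCRETE part (helper84).

`A` a valuation subring of `ℚ̄` over the prime `q`, `I = A.inertiaSubgroupIn ℚ`, `O = k0Ring A`
(`= A ∩ K0`, a DVR with uniformiser `q`), `K0 = k0Field A`, `K0(j) = k0j A M ⊆ F_M`.

* `fg4_gaussRing_isFractionRing` (abstract) : the Gauss ring of `x` is a ring of fractions of
  `Frac(O)(x)`;
* instances `Algebra (k0Ring A) (k0Field A)`, `IsScalarTower (k0Ring A) (k0Field A) (FF M)`,
  `k0Ring_isFractionRing : IsFractionRing (k0Ring A) (k0Field A)`;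
* `jK0 A M : k0j A M`                       : the element `j` of `K0(j)`;
* `r0 hq A hA M : Subring (k0j A M)`        : **the Gauss ring** `R0 = O[j]_(q)`
                                              `= {P(j)/Q(j) : P, Q ∈ O[X], Q ∉ q O[X]}`;
* `r0_isDiscreteValuationRing`              : **[FG-4c]** `R0` is a discrete valuation ring;
* `r0_maximalIdeal`, `r0Unif_irreducible`   : uniformiser `q`;
* `r0_isFractionRing`                       : **[FG-4c]** `Frac R0 = K0(j)`;
* `mem_r0_iff`                              : `f ∈ R0 ↔ ∃ P Q ∈ O[X], Q mod q ≠ 0, f Q(j) = P(j)`.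
-/
import Mathlib
import Fermat.Agent.T3.helper84_FG4a

set_option autoImplicit false
set_option linter.unusedSectionVars false
set_option linter.style.haveILetI false

open Polynomial HahnSeries ModularCurve IntermediateField
open Fermat.Agent.S18.helper19 Fermat.Agent.P2.helper29 Fermat.Agent.S24
open Fermat.Agent.S54.helper91 Fermat.Agent.S14.helper91

noncomputable section

namespace Fermat.Agent.T3.helper84

/-! ### Abstract: the Gauss ring is a ring of fractions of `Frac(O)(x)` -/

section AbsFrac

variable {O Kf E : Type*} [CommRing O] [IsDomain O] [Field Kf] [Field E] [Algebra O Kf]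
  [IsFractionRing O Kf] [Algebra Kf E] [Algebra O E] [IsScalarTower O Kf E]
  {p : O} (hp : Prime p) (x : E)

theorem fg4_gaussRing_isFractionRing
    (hgen : ∀ z : E, ∃ r s : Kf[X], z = aeval x r / aeval x s) :
    IsFractionRing (fg4_gaussRing hp x) E := by
  haveI : FaithfulSMul (fg4_gaussRing hp x) E :=
    (faithfulSMul_iff_algebraMap_injective _ _).mpr Subtype.val_injective
  refine IsFractionRing.of_field _ _ fun z => ?_
  obtain ⟨r, s, hz⟩ := hgen z
  obtain ⟨br, hbr, hr⟩ := IsLocalization.integerNormalization_spec (nonZeroDivisors O) r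
  obtain ⟨bs, hbs, hs⟩ := IsLocalization.integerNormalization_spec (nonZeroDivisors O) s
  set r' := IsLocalization.integerNormalization (nonZeroDivisors O) r with hr'
  set s' := IsLocalization.integerNormalization (nonZeroDivisors O) s with hs'
  have hb0 : ∀ b : O, b ∈ nonZeroDivisors O → algebraMap O E b ≠ 0 := by
    intro b hb
    rw [IsScalarTower.algebraMap_apply O Kf E]
    exact (_root_.map_ne_zero _).mpr
      ((map_ne_zero_iff _ (IsFractionRing.injective O Kf)).mpr (nonZeroDivisors.ne_zero hb))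
  have hbr0 := hb0 br hbr
  have hbs0 := hb0 bs hbs
  have hsm : ∀ (b : O) (t : Kf[X]), aeval x (b • t) = algebraMap O E b * aeval x t := by
    intro b t
    rw [← IsScalarTower.algebraMap_smul Kf b t, Polynomial.smul_eq_C_mul, map_mul, aeval_C,
      ← IsScalarTower.algebraMap_apply]
  have h1 : aeval x r' = algebraMap O E br * aeval x r := by
    have := congrArg (aeval x) hr
    rw [aeval_map_algebraMap] at this
    rw [this, hsm]
  have h2 : aeval x s' = algebraMap O E bs * aeval x s := by
    have := congrArg (aeval x) hs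
    rw [aeval_map_algebraMap] at this
    rw [this, hsm]
  refine ⟨⟨aeval x (C bs * r'), fg4_aeval_mem hp x _⟩, ⟨aeval x (C br * s'), fg4_aeval_mem hp x _⟩, ?_⟩
  show z = aeval x (C bs * r') / aeval x (C br * s')
  rw [map_mul, map_mul, aeval_C, aeval_C, h1, h2, hz]
  field_simp

end AbsFrac

/-! ### `O = A ∩ K0` inside `K0` -/

section K0

variable (A : ValuationSubring Kb)

theorem k0Ring_le_k0Field : k0Ring A ≤ (k0Field A).toSubring := fun _ hx => hx.2

/-- `K0` as an algebra over `O = A ∩ K0` -/
instance k0Ring_k0Field_algebra : Algebra (k0Ring A) (k0Field A) :=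
  (Subring.inclusion (k0Ring_le_k0Field A)).toAlgebra

theorem k0Ring_k0Field_algebraMap_coe (a : k0Ring A) :
    ((algebraMap (k0Ring A) (k0Field A) a : k0Field A) : Kb) = (a : Kb) := rfl

instance k0Ring_k0Field_isScalarTower : IsScalarTower (k0Ring A) (k0Field A) Kb :=
  IsScalarTower.of_algebraMap_eq fun _ => rfl

instance k0Ring_k0Field_isScalarTower_FF (M : ℕ) :
    IsScalarTower (k0Ring A) (k0Field A) (FF M) :=
  IsScalarTower.of_algebraMap_eq fun _ => rfl

/-- **`K0 = Frac (A ∩ K0)`** -/
theorem k0Ring_isFractionRing : IsFractionRing (k0Ring A) (k0Field A) := by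
  haveI : FaithfulSMul (k0Ring A) (k0Field A) :=
    (faithfulSMul_iff_algebraMap_injective _ _).mpr fun a b h =>
      Subtype.ext (congrArg (fun z : k0Field A => (z : Kb)) h)
  refine IsFractionRing.of_field _ _ fun z => ?_
  rcases A.mem_or_inv_mem (z : Kb) with h | h
  · refine ⟨⟨z, h, z.2⟩, 1, ?_⟩
    rw [map_one, div_one]
    exact Subtype.ext rfl
  · refine ⟨1, ⟨(z : Kb)⁻¹, h, (k0Field A).inv_mem z.2⟩, ?_⟩
    rw [map_one, one_div]
    apply Subtype.ext
    show (z : Kb) = ((z : Kb)⁻¹)⁻¹
    rw [inv_inv]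

end K0

/-! ### The Gauss ring `R0 = O[j]_(q)` inside `K0(j)` -/

section R0

variable {q : ℕ} (hq : q.Prime) (A : ValuationSubring Kb) (hA : A.LiesOverPrime q)
  (M : ℕ) [NeZero M]

include hq hA in
theorem k0Unif_prime : Prime (k0Unif q A) := by
  haveI := k0Ring_isDiscreteValuationRing hq A hA
  exact (k0Unif_irreducible hq A hA).prime

/-- the element `j` of `K0(j)` -/
def jK0 : k0j A M := ⟨xJ M, IntermediateField.subset_adjoin _ _ (Set.mem_singleton _)⟩

theorem coe_jK0 : ((jK0 A M : k0j A M) : FF M) = xJ M := rfl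

theorem coe_aeval_jK0 (P : (k0Ring A)[X]) :
    ((aeval (jK0 A M) P : k0j A M) : FF M) = aeval (xJ M) P := by
  have h := Polynomial.aeval_algHom_apply
    ((k0j A M).val.restrictScalars (k0Ring A)) (jK0 A M) P
  exact h.symm

theorem coe_aeval_jK0' (P : (k0Field A)[X]) :
    ((aeval (jK0 A M) P : k0j A M) : FF M) = aeval (xJ M) P := by
  have h := Polynomial.aeval_algHom_apply (k0j A M).val (jK0 A M) P
  exact h.symm

/-- `j` is transcendental over `O` -/
theorem aeval_jK0_injective : Function.Injective (aeval (R := k0Ring A) (jK0 A M)) := by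
  rw [injective_iff_map_eq_zero]
  intro P hP
  have h1 : aeval (xJ M) P = 0 := by rw [← coe_aeval_jK0, hP]; rfl
  have h2 : aeval (xJ M) (P.map (algebraMap (k0Ring A) Kb)) = 0 := by
    rw [aeval_map_algebraMap]; exact h1
  have h3 := transcendental_iff_injective.mp (helper77.an_transcendental M)
  have h4 : P.map (algebraMap (k0Ring A) Kb) = 0 := h3 (by rw [h2, map_zero])
  exact (Polynomial.map_eq_zero_iff (FaithfulSMul.algebraMap_injective (k0Ring A) Kb)).mp h4

/-- **the Gauss ring** `R0 = O[j]_(q) ⊆ K0(j)` -/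
def r0 : Subring (k0j A M) := fg4_gaussRing (k0Unif_prime hq A hA) (jK0 A M)

/-- **[FG-4c]** `R0` is a discrete valuation ring -/
theorem r0_isDiscreteValuationRing : IsDiscreteValuationRing (r0 hq A hA M) := by
  haveI := k0Ring_isDiscreteValuationRing hq A hA
  exact fg4_gaussRing_isDVR (k0Unif_prime hq A hA) (jK0 A M) (aeval_jK0_injective A M)

/-- the uniformiser `q` of `R0` -/
def r0Unif : r0 hq A hA M := fg4_gaussUnif (k0Unif_prime hq A hA) (jK0 A M)

theorem coe_r0Unif : (((r0Unif hq A hA M : r0 hq A hA M) : k0j A M) : FF M) =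
    algebraMap Kb (FF M) (q : Kb) := rfl

theorem r0_maximalIdeal :
    haveI := (r0_isDiscreteValuationRing hq A hA M).toIsLocalRing
    IsLocalRing.maximalIdeal (r0 hq A hA M) = Ideal.span {r0Unif hq A hA M} := by
  haveI := k0Ring_isDiscreteValuationRing hq A hA
  exact fg4_gaussRing_maximalIdeal (k0Unif_prime hq A hA) (jK0 A M) (aeval_jK0_injective A M)

theorem r0Unif_irreducible : Irreducible (r0Unif hq A hA M) := by
  haveI := k0Ring_isDiscreteValuationRing hq A hA
  exact fg4_gaussUnif_irreducible (k0Unif_prime hq A hA) (jK0 A M) (aeval_jK0_injective A M)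

/-- **[FG-4c]** `K0(j)` is the field of fractions of `R0` -/
theorem r0_isFractionRing : IsFractionRing (r0 hq A hA M) (k0j A M) := by
  haveI := k0Ring_isFractionRing A
  refine fg4_gaussRing_isFractionRing (Kf := k0Field A) (k0Unif_prime hq A hA) (jK0 A M) ?_
  intro z
  obtain ⟨r, s, hz⟩ := (IntermediateField.mem_adjoin_simple_iff (k0Field A) (z : FF M)).mp z.2
  refine ⟨r, s, Subtype.ext ?_⟩
  rw [hz]
  show _ = ((aeval (jK0 A M) r / aeval (jK0 A M) s : k0j A M) : FF M)
  rw [IntermediateField.coe_div, coe_aeval_jK0', coe_aeval_jK0']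

/-- membership in `R0`, in terms of reduction modulo `q` -/
theorem mem_r0_iff (f : k0j A M) : f ∈ r0 hq A hA M ↔
    ∃ P Q : (k0Ring A)[X], Q.map (k0Residue A) ≠ 0 ∧
      (f : FF M) * aeval (xJ M) Q = aeval (xJ M) P := by
  have hker : ∀ Q : (k0Ring A)[X],
      Q ∈ (Ideal.span {C (k0Unif q A)} : Ideal (k0Ring A)[X]) ↔ Q.map (k0Residue A) = 0 := by
    intro Q
    rw [Ideal.mem_span_singleton, Polynomial.C_dvd_iff_dvd_coeff]
    constructor
    · intro h
      ext n
      rw [Polynomial.coeff_map, Polynomial.coeff_zero]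
      exact (k0Residue_eq_zero_iff hq A hA _).mpr (h n)
    · intro h n
      have := congrArg (fun R : (kA A)[X] => R.coeff n) h
      simp only [Polynomial.coeff_map, Polynomial.coeff_zero] at this
      exact (k0Residue_eq_zero_iff hq A hA _).mp this
  constructor
  · rintro ⟨P, Q, hQ, h⟩
    refine ⟨P, Q, fun h0 => hQ ((hker Q).mpr h0), ?_⟩
    have := congrArg (fun z : k0j A M => (z : FF M)) h
    simpa only [MulMemClass.coe_mul, coe_aeval_jK0] using this
  · rintro ⟨P, Q, hQ, h⟩
    refine ⟨P, Q, fun h0 => hQ ((hker Q).mp h0), Subtype.ext ?_⟩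
    simpa only [MulMemClass.coe_mul, coe_aeval_jK0] using h

end R0

end Fermat.Agent.T3.helper84

end
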