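/-
T3 / S36, box [FG] in concrete form (helper84): every ring of inertia-fixed functions which are
integral over `O[j]` is NOETHERIAN (and its fractional ideals are finitely generated).

Glue of `helper22_FGInt` ([FG-2], abstract), `helper84_FG4a` (`[F0 : K0(j)] < ∞`),
`helper84_FG4c` (`K0 = Frac O`) and `helper97_CompleteO` (vocabulary `evO A M : O[X] →+* F_M`).

`A` over the prime `q`, `O = k0Ring A`, `K0(j) = k0j A M`, `F0 = f0Over A M`, any level `M`.

* `evK0 A M : O[X] →+* K0(j)` (`X ↦ j`), `coe_evK0 : (evK0 A M P : F_M) = evO A M P`;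
* `algOXK`, `algOXL` : the `O[X]`-algebra structures of `K0(j)` and `F0`;
* `polyK0_isFractionRing` : `K0(j) = Frac O[X]`;
* `isIntegral_of_isIntegralElem_evO` : transport of integrality to `F0`;
* `isNoetherianRing_of_fix_integral` : **[FG]** `S ⊆ F_M` a subring, `O[j] ⊆ S`, all elements
  `I`-fixed and integral over `O[j]`  ⟹  `IsNoetherianRing S`;
* `finite_of_fix_integral` : … and `S`-submodules of `F_M` with a common denominator are finitely
  generated.
-/
import Mathlib
import Fermat.Agent.T3.helper84_FG4c
import Fermat.Agent.T3.helper97_CompleteO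
import Fermat.Agent.T3.helper22_FGInt

set_option autoImplicit false
set_option linter.unusedSectionVars false
set_option linter.style.haveILetI false

open Polynomial HahnSeries ModularCurve IntermediateField
open Fermat.Agent.S18.helper19 Fermat.Agent.P2.helper29 Fermat.Agent.S24
open Fermat.Agent.S54.helper91 Fermat.Agent.S14.helper91

noncomputable section

namespace Fermat.Agent.T3.helper84

/-! ### Abstract: fractions of polynomials -/

section AbsPoly

variable {O Kf E : Type*} [CommRing O] [IsDomain O] [Field Kf] [Field E] [Algebra O Kf]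
  [IsFractionRing O Kf] [Algebra Kf E] [Algebra O E] [IsScalarTower O Kf E] (x : E)

/-- every fraction of polynomials in `x` over `Frac O` is a fraction of polynomials over `O` -/
theorem fg4_exists_poly_div (z : E) (hz : ∃ r s : Kf[X], z = aeval x r / aeval x s) :
    ∃ P Q : O[X], z = aeval x P / aeval x Q := by
  obtain ⟨r, s, hz⟩ := hz
  obtain ⟨br, hbr, hr⟩ := IsLocalization.integerNormalization_spec (nonZeroDivisors O) r
  obtain ⟨bs, hbs, hs⟩ := IsLocalization.integerNormalization_spec (nonZeroDivisors O) s
  set r' := IsLocalization.integerNormalization (nonZeroDivisors O) r with hr'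
  set s' := IsLocalization.integerNormalization (nonZeroDivisors O) s with hs'
  have hb0 : ∀ b : O, b ∈ nonZeroDivisors O → algebraMap O E b ≠ 0 := by
    intro b hb
    rw [IsScalarTower.algebraMap_apply O Kf E]
    exact (_root_.map_ne_zero _).mpr
      ((map_ne_zero_iff _ (IsFractionRing.injective O Kf)).mpr (nonZeroDivisors.ne_zero hb))
  have hbr0 := hb0 br hbr
  have hbs0 := hb0 bs hbs
  have hsm : ∀ (b : O) (t : Kf[X]), aeval x (b • t) = algebraMap O E b * aeval x t := by
    intro b t
    rw [← IsScalarTower.algebraMap_smul Kf b t, Polynomial.smul_eq_C_mul, map_mul, aeval_C,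
      ← IsScalarTower.algebraMap_apply]
  have h1 : aeval x r' = algebraMap O E br * aeval x r := by
    have := congrArg (aeval x) hr
    rw [aeval_map_algebraMap] at this
    rw [this, hsm]
  have h2 : aeval x s' = algebraMap O E bs * aeval x s := by
    have := congrArg (aeval x) hs
    rw [aeval_map_algebraMap] at this
    rw [this, hsm]
  refine ⟨C bs * r', C br * s', ?_⟩
  rw [map_mul, map_mul, aeval_C, aeval_C, h1, h2, hz]
  field_simp

end AbsPoly

/-! ### The instance -/

section Inst

variable (A : ValuationSubring Kb) (M : ℕ) [NeZero M]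

/-- evaluation `O[X] → K0(j)`, `X ↦ j` -/
def evK0 : (k0Ring A)[X] →+* k0j A M := (aeval (R := k0Ring A) (jK0 A M)).toRingHom

theorem evK0_apply (P : (k0Ring A)[X]) : evK0 A M P = aeval (jK0 A M) P := rfl

theorem coe_evK0 (P : (k0Ring A)[X]) :
    ((evK0 A M P : k0j A M) : FF M) = Fermat.Agent.T3.helper97.evO A M P := by
  rw [evK0_apply, coe_aeval_jK0]
  have h : ((aeval (R := k0Ring A) (xJ M)).toRingHom : (k0Ring A)[X] →+* FF M) =
      Fermat.Agent.T3.helper97.evO A M := by
    apply Polynomial.ringHom_ext
    · intro a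
      show aeval (xJ M) (C a) = _
      rw [aeval_C, Fermat.Agent.T3.helper97.evO_C]
      rfl
    · show aeval (xJ M) X = _
      rw [aeval_X, Fermat.Agent.T3.helper97.evO_X]
  exact congrArg (fun φ : (k0Ring A)[X] →+* FF M => φ P) h

theorem evK0_injective : Function.Injective (evK0 A M) := aeval_jK0_injective A M

/-- `K0(j)` as an algebra over `O[X]` -/
@[reducible] def algOXK : Algebra (k0Ring A)[X] (k0j A M) := (evK0 A M).toAlgebra

/-- `F0` as an algebra over `O[X]` -/
@[reducible] def algOXL : Algebra (k0Ring A)[X] (f0Over A M) :=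
  ((algebraMap (k0j A M) (f0Over A M)).comp (evK0 A M)).toAlgebra

theorem algOXL_isScalarTower :
    letI := algOXK A M
    letI := algOXL A M
    IsScalarTower (k0Ring A)[X] (k0j A M) (f0Over A M) :=
  letI := algOXK A M
  letI := algOXL A M
  IsScalarTower.of_algebraMap_eq fun _ => rfl

/-- **`K0(j) = Frac O[X]`** -/
theorem polyK0_isFractionRing :
    letI := algOXK A M
    IsFractionRing (k0Ring A)[X] (k0j A M) := by
  letI := algOXK A M
  haveI := k0Ring_isFractionRing A
  haveI : FaithfulSMul (k0Ring A)[X] (k0j A M) :=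
    (faithfulSMul_iff_algebraMap_injective _ _).mpr (evK0_injective A M)
  refine IsFractionRing.of_field _ _ fun z => ?_
  have hz : ∃ r s : (k0Field A)[X], z = aeval (jK0 A M) r / aeval (jK0 A M) s := by
    obtain ⟨r, s, hz⟩ :=
      (IntermediateField.mem_adjoin_simple_iff (k0Field A) (z : FF M)).mp z.2
    refine ⟨r, s, Subtype.ext ?_⟩
    rw [hz]
    show _ = ((aeval (jK0 A M) r / aeval (jK0 A M) s : k0j A M) : FF M)
    rw [IntermediateField.coe_div, coe_aeval_jK0', coe_aeval_jK0']
  obtain ⟨P, Q, h⟩ := fg4_exists_poly_div (O := k0Ring A) (Kf := k0Field A) (jK0 A M) z hz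
  exact ⟨P, Q, h⟩

/-- transport of integrality: an `I`-fixed function which is integral over `O[j]` (in the
vocabulary `evO` of helper97) is integral over `O[X]` as an element of `F0` -/
theorem isIntegral_of_isIntegralElem_evO (f : f0Over A M)
    (hf : (Fermat.Agent.T3.helper97.evO A M).IsIntegralElem (f : FF M)) :
    letI := algOXL A M
    IsIntegral (k0Ring A)[X] f := by
  letI := algOXL A M
  obtain ⟨p, hp, hpf⟩ := hf
  refine ⟨p, hp, ?_⟩
  apply Subtype.val_injective
  show ((eval₂ (algebraMap (k0Ring A)[X] (f0Over A M)) f p : f0Over A M) : FF M) = 0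
  have h1 : ((eval₂ (algebraMap (k0Ring A)[X] (f0Over A M)) f p : f0Over A M) : FF M) =
      eval₂ (Fermat.Agent.T3.helper97.evO A M) (f : FF M) p := by
    have h2 := Polynomial.hom_eval₂ p (algebraMap (k0Ring A)[X] (f0Over A M))
      ((f0Over A M).val : f0Over A M →+* FF M) f
    have h3 : ((f0Over A M).val : f0Over A M →+* FF M).comp
        (algebraMap (k0Ring A)[X] (f0Over A M)) = Fermat.Agent.T3.helper97.evO A M :=
      RingHom.ext fun P => coe_evK0 A M P
    rw [h3] at h2
    exact h2
  rw [h1, hpf]

end Inst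

/-! ### [FG] -/

section FG

variable {q : ℕ} (hq : q.Prime) (A : ValuationSubring Kb) (hA : A.LiesOverPrime q)
  (M : ℕ) [NeZero M]

include hq hA in
/-- **[FG]** a subring `S` of `F_M` containing `O[j]`, all of whose elements are fixed by the
inertia group and integral over `O[j]`, is noetherian. -/
theorem isNoetherianRing_of_fix_integral (S : Subring (FF M))
    (hS0 : ∀ P : (k0Ring A)[X], Fermat.Agent.T3.helper97.evO A M P ∈ S)
    (hfix : ∀ f ∈ S, Fermat.Agent.T3.helper74.IsFixI A M f)
    (hint : ∀ f ∈ S, (Fermat.Agent.T3.helper97.evO A M).IsIntegralElem f) :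
    IsNoetherianRing S := by
  letI := algOXK A M
  letI := algOXL A M
  haveI := algOXL_isScalarTower A M
  haveI := polyK0_isFractionRing A M
  haveI := k0Ring_isDiscreteValuationRing hq A hA
  haveI := f0Over_finiteDimensional A M
  -- the ring `S` inside `F0`
  let S' : Subring (f0Over A M) := S.comap ((f0Over A M).val : f0Over A M →+* FF M)
  have hS' : IsNoetherianRing S' := by
    refine Fermat.Agent.T3.helper22.isNoetherianRing_of_forall_isIntegral (k0Ring A)[X]
      (k0j A M) (f0Over A M) S' ?_ ?_
    · intro P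
      show ((algebraMap (k0Ring A)[X] (f0Over A M) P : f0Over A M) : FF M) ∈ S
      have : ((algebraMap (k0Ring A)[X] (f0Over A M) P : f0Over A M) : FF M) =
          Fermat.Agent.T3.helper97.evO A M P := coe_evK0 A M P
      rw [this]
      exact hS0 P
    · intro x hx
      exact isIntegral_of_isIntegralElem_evO A M x (hint _ hx)
  let e : S' ≃+* S :=
    { toFun := fun x => ⟨(x : f0Over A M), x.2⟩
      invFun := fun f => ⟨⟨(f : FF M), hfix _ f.2⟩, f.2⟩
      left_inv := fun _ => rfl
      right_inv := fun _ => rfl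
      map_mul' := fun _ _ => rfl
      map_add' := fun _ _ => rfl }
  exact isNoetherianRing_of_ringEquiv S' e

include hq hA in
/-- **[FG]** … and every `S`-submodule of `F_M` with a common denominator is finitely
generated. -/
theorem finite_of_fix_integral (S : Subring (FF M))
    (hS0 : ∀ P : (k0Ring A)[X], Fermat.Agent.T3.helper97.evO A M P ∈ S)
    (hfix : ∀ f ∈ S, Fermat.Agent.T3.helper74.IsFixI A M f)
    (hint : ∀ f ∈ S, (Fermat.Agent.T3.helper97.evO A M).IsIntegralElem f)
    (𝔞 : Submodule S (FF M)) {Q : FF M} (hQ : Q ≠ 0) (h : ∀ G ∈ 𝔞, Q * G ∈ S) :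
    Module.Finite S 𝔞 := by
  haveI := isNoetherianRing_of_fix_integral hq A hA M S hS0 hfix hint
  exact Fermat.Agent.T3.helper22.finite_of_mul_mem S 𝔞 hQ h

end FG

end Fermat.Agent.T3.helper84

end
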