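/-
T3 / S36, [COMPLETE-O] (helper97, second prover): integrality over `A[j]` implies integrality over
`O[j]`, `O = k0Ring A = A ∩ ℚ̄^I`.

The proof is transitivity of integrality: every element of `A` is integral over `O` (product over
its finite orbit under the inertia group), hence `A[X]` is integral over `O[X]`.  No fixedness of
`f`, no linear disjointness, no minimal polynomials are needed.

* `isIntegral_k0Ring_of_mem` : `a ∈ A → IsIntegral (k0Ring A) a`;
* `k0Incl A : k0Ring A →+* A`, `evO A N : O[X] →+* F_N` (`X ↦ j`);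
* `k0Incl_isIntegral`, `mapK0_isIntegral` : `O → A` and `O[X] → A[X]` are integral;
* `completeO` : `(evX A N).IsIntegralElem f → (evO A N).IsIntegralElem f`;
* `completeO'` : the same with the algebra structures `algAX`, `algOX`.
-/
import Mathlib
import Fermat.Agent.P2.helper81_ValGen
import Fermat.Agent.T3.helper84_K0Ring

set_option autoImplicit false
set_option linter.unusedSectionVars false
set_option linter.style.haveILetI false

open Polynomial

noncomputable section

namespace Fermat.Agent.T3.helper97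

open Fermat.Agent.S54.helper91 Fermat.Agent.S14.helper91 Fermat.Agent.T3.helper84
open Fermat.Agent.P2.helper81 Fermat.Agent.S24

section Orbit

variable (A : ValuationSubring (AlgebraicClosure ℚ))

/-- the inertia group is contained in the decomposition group -/
theorem mem_dec_of_mem_inertia {σ : AlgebraicClosure ℚ ≃ₐ[ℚ] AlgebraicClosure ℚ}
    (hσ : σ ∈ A.inertiaSubgroupIn ℚ) : σ ∈ A.decompositionSubgroup ℚ :=
  ((mem_inertiaSubgroupIn_iff_valuation A σ).mp hσ).1

/-- the inertia group preserves `A` -/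
theorem apply_mem_of_mem_inertia {σ : AlgebraicClosure ℚ ≃ₐ[ℚ] AlgebraicClosure ℚ}
    (hσ : σ ∈ A.inertiaSubgroupIn ℚ) {x : AlgebraicClosure ℚ} (hx : x ∈ A) : σ x ∈ A :=
  (apply_mem_iff_of_mem_dec A (mem_dec_of_mem_inertia A hσ) x).mpr hx

open scoped Classical in
/-- the (finite) orbit of `a` under the inertia group -/
def inertiaOrbit (a : AlgebraicClosure ℚ) : Finset (AlgebraicClosure ℚ) :=
  (((minpoly ℚ a).aroots (AlgebraicClosure ℚ)).toFinset).filter
    (fun b => ∃ σ ∈ A.inertiaSubgroupIn ℚ, σ a = b)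

theorem mem_inertiaOrbit {a b : AlgebraicClosure ℚ} :
    b ∈ inertiaOrbit A a ↔ ∃ σ ∈ A.inertiaSubgroupIn ℚ, σ a = b := by
  classical
  unfold inertiaOrbit
  rw [Finset.mem_filter, Multiset.mem_toFinset]
  refine ⟨fun h => h.2, fun h => ⟨?_, h⟩⟩
  obtain ⟨σ, -, rfl⟩ := h
  have ha : IsIntegral ℚ a := (isAlgebraic_Qbar.isAlgebraic a).isIntegral
  rw [mem_aroots]
  refine ⟨minpoly.ne_zero ha, ?_⟩
  have h := aeval_algHom_apply (σ : AlgebraicClosure ℚ →ₐ[ℚ] AlgebraicClosure ℚ) a (minpoly ℚ a)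
  simpa [minpoly.aeval] using h

theorem self_mem_inertiaOrbit (a : AlgebraicClosure ℚ) : a ∈ inertiaOrbit A a :=
  (mem_inertiaOrbit A).mpr ⟨1, (A.inertiaSubgroupIn ℚ).one_mem, rfl⟩

theorem image_inertiaOrbit {τ : AlgebraicClosure ℚ ≃ₐ[ℚ] AlgebraicClosure ℚ}
    (hτ : τ ∈ A.inertiaSubgroupIn ℚ) (a : AlgebraicClosure ℚ) :
    (inertiaOrbit A a).image τ = inertiaOrbit A a := by
  classical
  ext b
  rw [Finset.mem_image]
  constructor
  · rintro ⟨c, hc, rfl⟩
    obtain ⟨σ, hσ, rfl⟩ := (mem_inertiaOrbit A).mp hc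
    exact (mem_inertiaOrbit A).mpr ⟨τ * σ, (A.inertiaSubgroupIn ℚ).mul_mem hτ hσ, rfl⟩
  · intro hb
    obtain ⟨σ, hσ, rfl⟩ := (mem_inertiaOrbit A).mp hb
    refine ⟨(τ⁻¹ * σ) a, (mem_inertiaOrbit A).mpr
      ⟨τ⁻¹ * σ, (A.inertiaSubgroupIn ℚ).mul_mem ((A.inertiaSubgroupIn ℚ).inv_mem hτ) hσ, rfl⟩, ?_⟩
    show τ ((τ⁻¹ * σ) a) = σ a
    rw [AlgEquiv.mul_apply]
    exact τ.apply_symm_apply (σ a)

/-- the orbit polynomial `∏ (X - b)`, `b` in the inertia orbit of `a` -/
def orbitPoly (a : AlgebraicClosure ℚ) : Polynomial (AlgebraicClosure ℚ) :=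
  ∏ b ∈ inertiaOrbit A a, (X - C b)

theorem orbitPoly_monic (a : AlgebraicClosure ℚ) : (orbitPoly A a).Monic :=
  monic_prod_of_monic _ _ fun b _ => monic_X_sub_C b

theorem orbitPoly_eval (a : AlgebraicClosure ℚ) : (orbitPoly A a).eval a = 0 := by
  rw [orbitPoly, eval_prod]
  exact Finset.prod_eq_zero (self_mem_inertiaOrbit A a) (by simp)

theorem orbitPoly_map {τ : AlgebraicClosure ℚ ≃ₐ[ℚ] AlgebraicClosure ℚ}
    (hτ : τ ∈ A.inertiaSubgroupIn ℚ) (a : AlgebraicClosure ℚ) :
    (orbitPoly A a).map (τ : AlgebraicClosure ℚ →+* AlgebraicClosure ℚ) = orbitPoly A a := by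
  classical
  rw [orbitPoly, Polynomial.map_prod]
  conv_rhs => rw [← image_inertiaOrbit A hτ a]
  rw [Finset.prod_image (fun _ _ _ _ h => τ.injective h)]
  refine Finset.prod_congr rfl fun b _ => ?_
  simp

theorem orbitPoly_coeff_mem {a : AlgebraicClosure ℚ} (ha : a ∈ A) (n : ℕ) :
    (orbitPoly A a).coeff n ∈ A := by
  classical
  have h : orbitPoly A a ∈ Polynomial.lifts A.subtype := by
    rw [Polynomial.lifts_iff_liftsRing]
    unfold orbitPoly
    refine Subring.prod_mem _ fun b hb => ?_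
    obtain ⟨σ, hσ, rfl⟩ := (mem_inertiaOrbit A).mp hb
    refine Subring.sub_mem _ ?_ ?_
    · rw [← Polynomial.lifts_iff_liftsRing]; exact Polynomial.X_mem_lifts _
    · rw [← Polynomial.lifts_iff_liftsRing]
      exact Polynomial.C_mem_lifts A.subtype (⟨σ a, apply_mem_of_mem_inertia A hσ ha⟩ : A)
  rw [Polynomial.lifts_iff_coeff_lifts] at h
  obtain ⟨y, hy⟩ := h n
  rw [← hy]
  exact y.2

theorem orbitPoly_coeff_fixed {τ : AlgebraicClosure ℚ ≃ₐ[ℚ] AlgebraicClosure ℚ}
    (hτ : τ ∈ A.inertiaSubgroupIn ℚ) (a : AlgebraicClosure ℚ) (n : ℕ) :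
    τ ((orbitPoly A a).coeff n) = (orbitPoly A a).coeff n := by
  have h := congrArg (fun p => p.coeff n) (orbitPoly_map A hτ a)
  simpa [Polynomial.coeff_map] using h

/-- **every element of `A` is integral over `O = A ∩ ℚ̄^I`** -/
theorem isIntegral_k0Ring_of_mem {a : AlgebraicClosure ℚ} (ha : a ∈ A) :
    IsIntegral (k0Ring A) a := by
  have hl : orbitPoly A a ∈ Polynomial.lifts (algebraMap (k0Ring A) (AlgebraicClosure ℚ)) := by
    rw [Polynomial.lifts_iff_coeff_lifts]
    intro n
    exact ⟨⟨(orbitPoly A a).coeff n, orbitPoly_coeff_mem A ha n,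
      fun τ hτ => orbitPoly_coeff_fixed A hτ a n⟩, rfl⟩
  obtain ⟨Q, hQ, -, hQm⟩ := Polynomial.lifts_and_natDegree_eq_and_monic hl (orbitPoly_monic A a)
  refine ⟨Q, hQm, ?_⟩
  rw [← Polynomial.eval_map, hQ]
  exact orbitPoly_eval A a

end Orbit

section Tower

variable (A : ValuationSubring (AlgebraicClosure ℚ)) (N : ℕ) [NeZero N]

/-- the inclusion `O → A` -/
def k0Incl : k0Ring A →+* A where
  toFun x := ⟨x.1, x.2.1⟩
  map_one' := rfl
  map_mul' _ _ := rfl
  map_zero' := rfl
  map_add' _ _ := rfl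

@[simp] theorem coe_k0Incl (x : k0Ring A) : ((k0Incl A x : A) : AlgebraicClosure ℚ) = x := rfl

theorem k0Incl_injective : Function.Injective (k0Incl A) := fun _ _ h =>
  Subtype.ext (congrArg (fun z : A => (z : AlgebraicClosure ℚ)) h)

/-- `A` is integral over `O` -/
theorem k0Incl_isIntegral : (k0Incl A).IsIntegral := by
  intro a
  obtain ⟨Q, hQm, hQ⟩ := isIntegral_k0Ring_of_mem A a.2
  refine ⟨Q, hQm, ?_⟩
  apply Subtype.val_injective
  have h : (A.subtype : A →+* AlgebraicClosure ℚ).comp (k0Incl A) =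
      algebraMap (k0Ring A) (AlgebraicClosure ℚ) := rfl
  have h2 := Polynomial.hom_eval₂ Q (k0Incl A) (A.subtype : A →+* AlgebraicClosure ℚ) a
  rw [h] at h2
  show (A.subtype : A →+* AlgebraicClosure ℚ) (eval₂ (k0Incl A) a Q) = ((0 : A) : AlgebraicClosure ℚ)
  rw [h2]
  exact hQ

/-- `A[X]` is integral over `O[X]` -/
theorem mapK0_isIntegral : (Polynomial.mapRingHom (k0Incl A)).IsIntegral := by
  intro p
  induction p using Polynomial.induction_on' with
  | add p r hp hr => exact RingHom.IsIntegralElem.add _ hp hr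
  | monomial n a =>
    rw [← Polynomial.C_mul_X_pow_eq_monomial]
    refine RingHom.IsIntegralElem.mul _ ?_ ?_
    · obtain ⟨Q, hQm, hQ⟩ := k0Incl_isIntegral A a
      refine ⟨Q.map (C : k0Ring A →+* Polynomial (k0Ring A)), hQm.map _, ?_⟩
      rw [Polynomial.eval₂_map]
      have h : (Polynomial.mapRingHom (k0Incl A)).comp (C : k0Ring A →+* Polynomial (k0Ring A)) =
          (C : A →+* Polynomial A).comp (k0Incl A) := by
        ext x
        simp
      rw [h, ← Polynomial.hom_eval₂, hQ, map_zero]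
    · have hX : (Polynomial.mapRingHom (k0Incl A)).IsIntegralElem (X ^ n : Polynomial A) := by
        have : (X ^ n : Polynomial A) = Polynomial.mapRingHom (k0Incl A) (X ^ n) := by simp
        rw [this]
        exact (Polynomial.mapRingHom (k0Incl A)).isIntegralElem_map
      exact hX

/-- the structure map `O[X] → F_N`, `X ↦ j` -/
def evO : Polynomial (k0Ring A) →+* FN N :=
  (evX A N).comp (Polynomial.mapRingHom (k0Incl A))

theorem evO_apply (p : Polynomial (k0Ring A)) :
    evO A N p = evX A N (p.map (k0Incl A)) := rfl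

theorem evO_X : evO A N X = xJ N := by
  rw [evO_apply, Polynomial.map_X, evX_X]

theorem evO_C (a : k0Ring A) :
    evO A N (C a) = algebraMap Kbar (FN N) (a : AlgebraicClosure ℚ) := by
  rw [evO_apply, Polynomial.map_C, evX_C]
  rfl

theorem evO_injective : Function.Injective (evO A N) :=
  (evX_injective A N).comp (Polynomial.map_injective _ (k0Incl_injective A))

/-- **[COMPLETE-O]**: an element of `F_N` integral over `A[j]` is integral over `O[j]`. -/
theorem completeO {f : FN N} (hf : (evX A N).IsIntegralElem f) : (evO A N).IsIntegralElem f := by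
  letI a1 : Algebra (Polynomial (k0Ring A)) (Polynomial A) :=
    (Polynomial.mapRingHom (k0Incl A)).toAlgebra
  letI a2 : Algebra (Polynomial A) (FN N) := (evX A N).toAlgebra
  letI a3 : Algebra (Polynomial (k0Ring A)) (FN N) := (evO A N).toAlgebra
  haveI : IsScalarTower (Polynomial (k0Ring A)) (Polynomial A) (FN N) :=
    IsScalarTower.of_algebraMap_eq fun _ => rfl
  haveI : Algebra.IsIntegral (Polynomial (k0Ring A)) (Polynomial A) := ⟨mapK0_isIntegral A⟩
  exact isIntegral_trans (R := Polynomial (k0Ring A)) (A := Polynomial A) f hf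

/-- the `O[X]`-algebra structure on `F_N` -/
@[reducible] def algOX : Algebra (Polynomial (k0Ring A)) (FN N) := (evO A N).toAlgebra

/-- **[COMPLETE-O]**, algebra form. -/
theorem completeO' {f : FN N}
    (hf : @IsIntegral (Polynomial A) (FN N) _ _ (algAX A N) f) :
    @IsIntegral (Polynomial (k0Ring A)) (FN N) _ _ (algOX A N) f :=
  completeO A N hf

end Tower

end Fermat.Agent.T3.helper97

end
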