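import Mathlib
import Fermat.Agent.T3.helper98_ResCore
import Fermat.Agent.T3.helper49_TorInst
import Fermat.Agent.T3.helper95_BtDed

/-!
# Tier 3, [T3-RES] (helper98): the box `hres` of `helper22.Ideal3Box` for the ALL-CUSPS rings

For a base `B : helper49.TorBase` with `B.Reg = regJRing (N q q)` (functions regular where `j`
is finite) and `B.Bt = BtAll N A` (functions of the special fibre regular where `j̄` is finite):

* `mem_BtAll_of_red3` : the reductions `X i` of an `I`-fixed `f ∈ Reg` lie in `BtAll` as soon as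
  they lie in the special fibre field `F̃_N`;
* `hres_of_hfrac` : the field `hres` of `helper22.Ideal3Box (B.calc hA)` VERBATIM from the field
  `hfrac` ([FFB3]);
* `mem_FFb_of_frac` : [FFB3] gives `X c ∈ F̃_N`.
-/

set_option autoImplicit false
set_option synthInstance.maxHeartbeats 400000
set_option maxHeartbeats 1000000
set_option linter.style.haveILetI false
set_option linter.unusedSectionVars false
set_option linter.unusedVariables false
set_option linter.style.longLine false

noncomputable section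

open HahnSeries IntermediateField AlgebraicCurve ModularCurve
open Fermat.Agent.S18.helper19 Fermat.Agent.P2.helper29 Fermat.Agent.T2.helper36
open Fermat.Agent.S24

namespace Fermat.Agent.T3.helper98

open Fermat.Agent.T3.helper74 (IsFixI IsInt3 ex3)
open Fermat.Agent.T3.helper72 (Red3)
open Fermat.Agent.T3.helper95 (BtAll mem_BtAll)

section Box

variable {N q : ℕ} [NeZero N] [NeZero q] {hq : q.Prime} {hqN : ¬ q ∣ N}
variable {A : ValuationSubring Kb} {ζ : Kb} {hζ : IsPrimitiveRoot ζ q}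

/-- **[RES]** in `BtAll` form. -/
theorem mem_BtAll_of_red3 (hA : A.LiesOverPrime q) (hζ : IsPrimitiveRoot ζ q)
    {f : FF (N * q * q)} (hf : IsRegJ (N * q * q) f) (hfix : IsFixI A (N * q * q) f)
    {X : Fin 3 → LaurentSeries (kA A)} (h : ∀ i, Red3 N q hq hqN A hζ i f (X i)) (i : Fin 3)
    (hX : X i ∈ FFb A N) : X i ∈ BtAll N A :=
  mem_BtAll.mpr ⟨hX, fun Q hQ => ord_nonneg_of_red3 hA hζ hf hfix h i hX Q hQ⟩

/-- a quotient of two elements of `BtAll` lies in `F̃_N`. -/
theorem mem_FFb_of_frac {x a b : LaurentSeries (kA A)} (ha : a ∈ BtAll N A)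
    (hb : b ∈ BtAll N A) (hb0 : b ≠ 0) (e : x * b = a) : x ∈ FFb A N := by
  obtain ⟨ha', -⟩ := mem_BtAll.mp ha
  obtain ⟨hb', -⟩ := mem_BtAll.mp hb
  have hx : x = a * b⁻¹ := by
    rw [← e, mul_assoc, mul_inv_cancel₀ hb0, mul_one]
  rw [hx]
  exact (FFb A N).mul_mem ha' ((FFb A N).inv_mem hb')

/-- **the box `hres` of `helper22.Ideal3Box (B.calc hA)`**, VERBATIM, from the box `hfrac`,
for the ALL-CUSPS rings. -/
theorem hres_of_hfrac {n : ℕ} (B : Fermat.Agent.T3.helper49.TorBase N q hq hqN A hζ n)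
    (hA : A.LiesOverPrime q) (hReg : B.Reg = regJRing (N * q * q))
    (hBt : B.Bt = (BtAll N A).toSubring)
    (hfrac : ∀ (f : FF (N * q * q)) (X : Fin 3 → LaurentSeries (kA A)), (B.calc hA).Rho f X →
      ∀ c, ∃ a ∈ (B.calc hA).Bt, ∃ b ∈ (B.calc hA).Bt, b ≠ 0 ∧ X c * b = a) :
    ∀ (f : FF (N * q * q)) (X : Fin 3 → LaurentSeries (kA A)), f ∈ (B.calc hA).Reg →
      (B.calc hA).Rho f X → ∀ c, X c ∈ (B.calc hA).Bt := by
  intro f X hf ρ c
  have hf' : IsRegJ (N * q * q) f := by
    have : f ∈ B.Reg := hf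
    rw [hReg] at this
    exact this
  have ρ' : Fermat.Agent.T3.helper49.Rho3 N q hq hqN A hζ f X := ρ
  obtain ⟨a, ha, b, hb, hb0, e⟩ := hfrac f X ρ c
  have ha' : a ∈ BtAll N A := by
    have : a ∈ B.Bt := ha
    rw [hBt] at this
    exact this
  have hb' : b ∈ BtAll N A := by
    have : b ∈ B.Bt := hb
    rw [hBt] at this
    exact this
  have hX : X c ∈ FFb A N := mem_FFb_of_frac ha' hb' hb0 e
  show X c ∈ B.Bt
  rw [hBt]
  exact mem_BtAll_of_red3 hA hζ hf' ρ'.1 ρ'.2 c hX

end Box

end Fermat.Agent.T3.helper98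

end
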