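import Mathlib
import Fermat.Agent.T3.helper98_ResBox
import Fermat.Agent.T3.helper16_UnitTable
import Fermat.Agent.T3.helper16_UnitPlace
import Fermat.Agent.T2.helper58_ScaleBad
import Fermat.Agent.T3.helper48_CompleteA

/-!
# Tier 3, [T3-HNU] (helper98, task 1163): the reduction of the weight-one unit is regular where
`j̄` is finite

* `mem_BtAll_of_isIntegralElem` : an element of `F̃_N` which is integral over `k[j̄]` lies in
  `BtAll N A`;
* `mem_BtAll_of_incl_q` : **[RES] at the level `N q`** (`A` over `q`): if `g ∈ F_{Nq}` is regular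
  where `j` is finite and `g`, `W₁ g` have `A`-integral expansions, the reduction of the
  expansion of `g` lies in `BtAll N A`;
* `mem_BtAll_of_incl` : **[RES] at the level `N`** (`q ∤ N`);
* `hnu_of_isUnit0` : for the weight-one unit `b₀` (`helper16.IsUnit0 hq hqN b0 B ε`),
  `iota k B ∈ btAll N A` — the argument `hν` of `helper72.torBaseAll`, VERBATIM.
-/

set_option autoImplicit false
set_option synthInstance.maxHeartbeats 400000
set_option maxHeartbeats 1000000
set_option linter.style.haveILetI false
set_option linter.unusedSectionVars false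
set_option linter.unusedVariables false
set_option linter.style.longLine false

noncomputable section

open HahnSeries IntermediateField AlgebraicCurve ModularCurve
open Fermat.Agent.S18.helper19 Fermat.Agent.P2.helper29 Fermat.Agent.T2.helper36
open Fermat.Agent.S24

namespace Fermat.Agent.T3.helper98

open Fermat.Agent.T3.helper95 (BtAll mem_BtAll)
open Fermat.Agent.P2.helper81 (evX)
open Fermat.Agent.T3.helper48 (evK)
open Fermat.Agent.P2.helper66 (iota)

section General

variable {N : ℕ} [NeZero N] {A : ValuationSubring Kb}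

/-- an element of the special fibre field which is integral over `k[j̄]` is regular where `j̄`
is finite. -/
theorem mem_BtAll_of_isIntegralElem {x : LaurentSeries (kA A)} (hX : x ∈ FFb A N)
    (h1 : (evBar (jqModC (kA A))).IsIntegralElem x) : x ∈ BtAll N A := by
  refine mem_BtAll.mpr ⟨hX, fun Q hQ => ?_⟩
  set φ : Polynomial (kA A) →+* FFb A N :=
    Polynomial.eval₂RingHom (algebraMap (kA A) (FFb A N)) (jBar A N) with hφ
  have hcomp : evBar (jqModC (kA A))
      = ((FFb A N).val : FFb A N →+* LaurentSeries (kA A)).comp φ := by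
    apply Polynomial.ringHom_ext
    · intro c
      simp [evBar, hφ]
    · simp only [evBar, hφ, RingHom.comp_apply, Polynomial.coe_eval₂RingHom, Polynomial.eval₂_X]
      rfl
  have h2 : φ.IsIntegralElem (⟨x, hX⟩ : FFb A N) := by
    obtain ⟨p, hp, hp0⟩ := h1
    refine ⟨p, hp, ?_⟩
    apply Subtype.ext
    have h3 : ((Polynomial.eval₂ φ (⟨x, hX⟩ : FFb A N) p : FFb A N) : LaurentSeries (kA A))
        = Polynomial.eval₂ (((FFb A N).val : FFb A N →+* LaurentSeries (kA A)).comp φ) x p :=
      Polynomial.hom_eval₂ p φ ((FFb A N).val : FFb A N →+* LaurentSeries (kA A)) ⟨x, hX⟩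
    rw [h3, ← hcomp, hp0]
    rfl
  rw [← helper82.mem_iff_ord_nonneg] at hQ ⊢
  refine Fermat.Agent.T2.helper87.mem_of_isIntegralElem Q.toValuationSubring φ (fun r => ?_) h2
  induction r using Polynomial.induction_on' with
  | add r s hr hs =>
    rw [map_add]
    exact Q.toValuationSubring.add_mem _ _ hr hs
  | monomial n a =>
    rw [hφ, Polynomial.coe_eval₂RingHom, Polynomial.eval₂_monomial]
    exact Q.toValuationSubring.mul_mem _ _ (Q.algebraMap_mem' a) (pow_mem hQ n)

/-- regular where `j` is finite ⟹ integral over `ℚ̄[j]` (`evK` form). -/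
theorem isIntegralElem_evK_of_isRegJ (M : ℕ) [NeZero M] {f : FF M} (hf : IsRegJ M f) :
    (evK M).IsIntegralElem f :=
  Fermat.Agent.T3.helper48.isIntegralElem_evK_of_forall_place M f hf

/-- the reduction of the expansion at `∞` of a function which is integral over `A[j]` is
integral over `k[j̄]` (any level). -/
theorem isIntegralElem_red_infty (M : ℕ) [NeZero M] {f : FF M}
    (hf : (evX A M).IsIntegralElem f) (Y : LaurentSeries A)
    (hY : incl A Y = (f : LaurentSeries Kb)) :
    (evBar (jqModC (kA A))).IsIntegralElem (red A Y) := by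
  have h := isIntegralElem_red_of_isIntegralElem (A := A) M (FF M).val.toRingHom
    (fun c => rfl) (jqModC A) (by rw [incl_jqModC]; exact (coe_xJ' M).symm) hf Y hY
  rwa [red_jqModC] at h

end General

section Levels

variable {N q : ℕ} [NeZero N] [NeZero q] {hq : q.Prime} {hqN : ¬ q ∣ N}
variable {A : ValuationSubring Kb}

/-- **[RES] at the level `N q`**. -/
theorem mem_BtAll_of_incl_q (hq : q.Prime) (hqN : ¬ q ∣ N) (hA : A.LiesOverPrime q)
    {g : FF (N * q)} (hg : IsRegJ (N * q) g) (Y₁ Y₂ : LaurentSeries A)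
    (h1 : incl A Y₁ = (g : LaurentSeries Kb))
    (h2 : incl A Y₂ = ((atkinLehner N q hq hqN g : FF (N * q)) : LaurentSeries Kb)) :
    red A Y₁ ∈ BtAll N A := by
  have hint : (evX A (N * q)).IsIntegralElem g :=
    Fermat.Agent.T3.helper48.isIntegralElem_level_q A N q hq hqN hA g ⟨Y₁, h1⟩ ⟨Y₂, h2⟩
      (isIntegralElem_evK_of_isRegJ (N * q) hg)
  have hr := isIntegralElem_red_infty (N * q) hint Y₁ h1
  have hmem : red A Y₁ ∈ FFb A (N * q) :=
    Fermat.Agent.T2.helper58.red_mem_FFb_of_scale
      (Fermat.Agent.T2.helper58.scaleStatement_bad N q hq hqN A hA) (by rw [h1]; exact g.2)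
  rw [Fermat.Agent.T2.helper96.FFb_mul_eq N A hq hA] at hmem
  exact mem_BtAll_of_isIntegralElem hmem hr

/-- **the argument `hν` of `helper72.torBaseAll`**: the reduction of the weight-one unit is
regular where `j̄` is finite. -/
theorem hnu_of_isUnit0 {b0 : FF (N * q)} {B : PowerSeries ℤ} {ε : ℤ}
    (h : Fermat.Agent.T3.helper16.IsUnit0 hq hqN b0 B ε) (hA : A.LiesOverPrime q) :
    iota (kA A) B ∈ (BtAll N A).toSubring := by
  have hreg : IsRegJ (N * q) b0 := by
    intro P hP
    rw [Fermat.Agent.T3.helper48.jElt_eq_xJ] at hP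
    exact Fermat.Agent.T3.helper16.ord_nonneg_of_isIntegral h.int P hP
  obtain ⟨Y₂, hY₂, -⟩ := h.model_al (A := A) hA
  have h1 : incl A (iota ↥A B) = (b0 : LaurentSeries Kb) := by
    rw [h.coe_eq]
    exact Fermat.Agent.P2.helper66.coeffMap_iota _ B
  have hmem := mem_BtAll_of_incl_q hq hqN hA hreg (iota ↥A B) Y₂ h1 hY₂
  have e : red A (iota ↥A B) = iota (kA A) B := Fermat.Agent.P2.helper66.coeffMap_iota _ B
  rw [e] at hmem
  exact hmem

end Levels

end Fermat.Agent.T3.helper98

end
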