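/-
T3 (S36), [CUSP-Q] (helper87), part 8: **[GAL-Q]** = `helper72.GalQStatement`, the last open
hypothesis of `helper72.newCore2_of_gal` / `helper72.s36Core_of_gal`.

* `galQStatement` : `helper72.GalQStatement` (from `galCompatTw_ex3c`).
-/
import Mathlib
import Fermat.Agent.T3.helper87_CuspQGal
import Fermat.Agent.T3.helper72_S36Frontier

set_option autoImplicit false
set_option linter.unusedSectionVars false
set_option linter.unusedVariables false
set_option linter.style.longLine false

noncomputable section

namespace Fermat.Agent.T3.helper87

/-- **[GAL-Q]**: the Galois compatibility of the family of [CUSP-Q]. -/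
theorem galQStatement : Fermat.Agent.T3.helper72.GalQStatement :=
  fun N q _ _ hq hqN _ A hA ζ hζ => galCompatTw_ex3c hq hqN A hA hζ

end Fermat.Agent.T3.helper87

end
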