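import Fermat.Agent.T2.helper72_Wire34
import Fermat.Agent.P3.helper32_P3Uncond
import Fermat.Agent.S54.helper91_Frobenius
import Fermat.Prelude.Def_CuspForm_Newforms
import Fermat.Prelude.Def_GaloisRep_Residual

/-!
# Tier 3, [T3-WIRE-36] (helper34): the frozen statement S36 from a generic geometric core

Step (R) of the tier-3 route.  Let `g` be a newform of level `N`, `q ≠ p` a prime with
`q² ∥ N`, `ρ` the `p`-adic representation attached to the eigensystem of `g` (strong S30).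
The geometric input consists of a level `M` (`N ∣ M`) with its geometric Tate datum `D`
(unconditional at good levels), an additive map `f : J₀(M) → Y` (in nature the pair of
push-forwards to the level `M / q`) whose kernel on `p`-power torsion is Galois stable, and

* `EigenVecCutStatement D χ f` : **(EV)** a vector `x ≠ 0` of `D.cut f` killed by `ker Θ`;
* `NewInvStatement M q p f c` : **(NEW-INV)** a `p`-power torsion point of `ker f` fixed by an
  inertia group at `q` is killed by the constant `c ≠ 0`.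

If `ρ` were unipotent on an inertia group `I` at `q`, then `tr ρ(s) = 2 = Θ(t s)` for `s ∈ I`, so
`(r(s) - 1)² = 0` on `X := cut f ∩ Λ[ker Θ]`; by Kolchin's theorem for `2`-step unipotent groups
(`exists_fixed_of_unipotent`: the operators `g - 1` satisfy `a b c = 0`) there is `x₀ ≠ 0` in `X`
fixed by `I`, and (NEW-INV) applied to the projections of `x₀` gives `c x₀ = 0`: contradiction.

* `exists_fixed_of_unipotent` : Kolchin for `2`-step unipotent groups (Mathlib only);
* `not_unipotent_of_core` : the wiring at one place;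
* `S36CoreStatement`, `s36_of_core` : the frozen statement S36 (verbatim binders).
-/

set_option autoImplicit false
set_option linter.unusedSectionVars false
set_option linter.style.haveILetI false

open Polynomial

noncomputable section

namespace Fermat.Agent.T3.helper34

open Fermat.Agent.P3 Fermat.Agent.P3.helper98 Fermat.Agent.P3.helper64 Fermat.Agent.P3.helper1
  ModularCurve

/-! ## Kolchin's theorem for `2`-step unipotent groups -/

section Kolchin

variable {E : Type*} [Ring E]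

/-- In a ring in which `2` is a non-zero-divisor: if `a² = b² = 0`, `(a + b + ab)² = 0` and
`(a - b - ab)² = 0`, then `b a b = 0`. -/
theorem mul_mul_eq_zero_of_sq (h2 : ∀ x : E, 2 * x = 0 → x = 0) {a b : E} (ha : a * a = 0)
    (hb : b * b = 0) (h1 : (a + b + a * b) * (a + b + a * b) = 0)
    (h3 : (a - b - a * b) * (a - b - a * b) = 0) : b * a * b = 0 := by
  have e1 : (a + b + a * b) * (a + b + a * b) =
      a * b + b * a + b * a * b + a * b * a + a * b * a * b
        + (a * a + a * a * b + b * b + a * (b * b)) := by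
    noncomm_ring
  have e3 : (a - b - a * b) * (a - b - a * b) =
      - (a * b) - b * a + b * a * b - a * b * a + a * b * a * b
        + (a * a - a * a * b + b * b + a * (b * b)) := by
    noncomm_ring
  rw [e1, ha, hb] at h1
  rw [e3, ha, hb] at h3
  simp only [zero_mul, mul_zero, add_zero, sub_zero] at h1 h3
  have h4 : 2 * ((1 + a) * (b * a * b)) = 0 := by
    have : 2 * ((1 + a) * (b * a * b)) =
        (a * b + b * a + b * a * b + a * b * a + a * b * a * b) +
          (- (a * b) - b * a + b * a * b - a * b * a + a * b * a * b) := by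
      noncomm_ring
    rw [this, h1, h3, add_zero]
  have h5 : (1 + a) * (b * a * b) = 0 := h2 _ h4
  have h6 : (1 - a) * ((1 + a) * (b * a * b)) = b * a * b := by
    have : (1 - a) * ((1 + a) * (b * a * b)) = b * a * b - a * a * (b * a * b) := by
      noncomm_ring
    rw [this, ha, zero_mul, sub_zero]
  rw [h5, mul_zero] at h6
  exact h6.symm

variable {G : Type*} [Group G] (ρ : G →* E) (hu : ∀ g : G, (ρ g - 1) * (ρ g - 1) = 0)

include hu in
/-- the inverse of a `2`-step unipotent element -/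
theorem map_inv_sub_one (g : G) : ρ g⁻¹ - 1 = - (ρ g - 1) := by
  have h1 : ρ g⁻¹ * ρ g = 1 := by rw [← map_mul, inv_mul_cancel, map_one]
  have h2 : ρ g * (1 - (ρ g - 1)) = 1 := by
    have : ρ g * (1 - (ρ g - 1)) = 1 - (ρ g - 1) * (ρ g - 1) := by noncomm_ring
    rw [this, hu g, sub_zero]
  have h3 : ρ g⁻¹ = 1 - (ρ g - 1) := by
    calc ρ g⁻¹ = ρ g⁻¹ * (ρ g * (1 - (ρ g - 1))) := by rw [h2, mul_one]
      _ = (ρ g⁻¹ * ρ g) * (1 - (ρ g - 1)) := by rw [mul_assoc]
      _ = 1 - (ρ g - 1) := by rw [h1, one_mul]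
  rw [h3]
  noncomm_ring

include hu in
/-- `b a b = 0` for `a = ρ g - 1`, `b = ρ h - 1` -/
theorem sub_one_mul_mul (h2 : ∀ x : E, 2 * x = 0 → x = 0) (g h : G) :
    (ρ h - 1) * (ρ g - 1) * (ρ h - 1) = 0 := by
  refine mul_mul_eq_zero_of_sq h2 (hu g) (hu h) ?_ ?_
  · have e : ρ g - 1 + (ρ h - 1) + (ρ g - 1) * (ρ h - 1) = ρ (g * h) - 1 := by
      rw [map_mul]; noncomm_ring
    rw [e]
    exact hu (g * h)
  · have e : ρ g - 1 - (ρ h - 1) - (ρ g - 1) * (ρ h - 1) = ρ (g * h⁻¹) - 1 := by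
      have h3 : ρ h⁻¹ = 1 - (ρ h - 1) := by
        have := map_inv_sub_one ρ hu h
        rw [sub_eq_iff_eq_add] at this
        rw [this]; noncomm_ring
      rw [map_mul, h3]; noncomm_ring
    rw [e]
    exact hu (g * h⁻¹)

include hu in
/-- `a b + b a = 0` for `a = ρ g - 1`, `b = ρ h - 1` -/
theorem sub_one_anticomm (h2 : ∀ x : E, 2 * x = 0 → x = 0) (g h : G) :
    (ρ g - 1) * (ρ h - 1) + (ρ h - 1) * (ρ g - 1) = 0 := by
  have h1 := hu (g * h)
  have e : ρ (g * h) - 1 = ρ g - 1 + (ρ h - 1) + (ρ g - 1) * (ρ h - 1) := by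
    rw [map_mul]; noncomm_ring
  rw [e] at h1
  have hbab := sub_one_mul_mul ρ hu h2 g h
  have haba := sub_one_mul_mul ρ hu h2 h g
  have ha := hu g
  have hb := hu h
  generalize ρ g - 1 = a at *
  generalize ρ h - 1 = b at *
  have e1 : (a + b + a * b) * (a + b + a * b) =
      a * b + b * a + b * a * b + a * b * a + a * (b * a * b)
        + (a * a + a * a * b + b * b + a * (b * b)) := by
    noncomm_ring
  rw [e1, ha, hb, hbab, haba] at h1
  simpa using h1

include hu in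
/-- `a b c = 0` for `a = ρ g - 1`, `b = ρ h - 1`, `c = ρ k - 1` -/
theorem sub_one_mul_mul_mul (h2 : ∀ x : E, 2 * x = 0 → x = 0) (g h k : G) :
    (ρ g - 1) * (ρ h - 1) * (ρ k - 1) = 0 := by
  have h1 := sub_one_anticomm ρ hu h2 (g * h) k
  have e : ρ (g * h) - 1 = ρ g - 1 + (ρ h - 1) + (ρ g - 1) * (ρ h - 1) := by
    rw [map_mul]; noncomm_ring
  rw [e] at h1
  have hac := sub_one_anticomm ρ hu h2 g k
  have hbc := sub_one_anticomm ρ hu h2 h k
  generalize ρ g - 1 = a at *
  generalize ρ h - 1 = b at *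
  generalize ρ k - 1 = c at *
  have hca : c * a = - (a * c) := by
    rw [eq_neg_iff_add_eq_zero, add_comm]; exact hac
  have hcb : c * b = - (b * c) := by
    rw [eq_neg_iff_add_eq_zero, add_comm]; exact hbc
  have e2 : (a + b + a * b) * c + c * (a + b + a * b) =
      (a * c + c * a) + (b * c + c * b) + a * b * c + c * a * b := by
    noncomm_ring
  have e3 : c * a * b = a * b * c := by
    rw [hca, neg_mul, mul_assoc, hcb, mul_neg, neg_neg, mul_assoc]
  rw [e2, hac, hbc, e3, zero_add, zero_add] at h1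
  apply h2
  rw [two_mul]
  exact h1

end Kolchin

section Fixed

variable {R : Type*} [CommRing R] {Y : Type*} [AddCommGroup Y] [Module R Y]

/-- **Kolchin for `2`-step unipotent groups**: a group of operators `g` with `(g - 1)² = 0` on a
nonzero module without `2`-torsion has a nonzero common fixed vector. -/
theorem exists_fixed_of_unipotent [Nontrivial Y] (h2 : ∀ y : Y, 2 • y = 0 → y = 0)
    {G : Type*} [Group G] (ρ : G →* Module.End R Y)
    (hu : ∀ g : G, (ρ g - 1) * (ρ g - 1) = 0) :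
    ∃ y : Y, y ≠ 0 ∧ ∀ g : G, ρ g y = y := by
  have h2E : ∀ T : Module.End R Y, 2 * T = 0 → T = 0 := by
    intro T hT
    apply LinearMap.ext
    intro y
    apply h2
    have := congrArg (fun S : Module.End R Y => S y) hT
    simp only [LinearMap.zero_apply] at this
    rw [two_mul, LinearMap.add_apply] at this
    rw [two_smul]
    exact this
  have h3 := sub_one_mul_mul_mul ρ hu h2E
  have hfix : ∀ (y : Y), (∀ g : G, (ρ g - 1) y = 0) → ∀ g : G, ρ g y = y := by
    intro y hy g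
    have := hy g
    rw [LinearMap.sub_apply, Module.End.one_apply, sub_eq_zero] at this
    exact this
  by_cases c1 : ∀ (g : G) (y : Y), (ρ g - 1) y = 0
  · obtain ⟨y, hy⟩ := exists_ne (0 : Y)
    exact ⟨y, hy, hfix y fun g => c1 g y⟩
  · simp only [not_forall] at c1
    obtain ⟨g₁, y₁, hy₁⟩ := c1
    by_cases c2 : ∀ g : G, (ρ g - 1) ((ρ g₁ - 1) y₁) = 0
    · exact ⟨_, hy₁, hfix _ c2⟩
    · simp only [not_forall] at c2
      obtain ⟨g₂, hy₂⟩ := c2
      refine ⟨_, hy₂, hfix _ fun g => ?_⟩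
      have := congrArg (fun S : Module.End R Y => S y₁) (h3 g g₂ g₁)
      simpa using this

/-- Version for a subgroup acting on a stable submodule. -/
theorem exists_fixed_of_unipotent_submodule {X : Type*} [AddCommGroup X] [Module R X]
    (h2 : ∀ x : X, 2 • x = 0 → x = 0) {G : Type*} [Group G] (r : G →* Module.End R X)
    (H : Subgroup G) (Z : Submodule R X) (hZ : ∀ g ∈ H, ∀ x ∈ Z, r g x ∈ Z)
    (hu : ∀ g ∈ H, ∀ x ∈ Z, r g (r g x) - 2 • r g x + x = 0)
    (hne : ∃ x ∈ Z, x ≠ 0) : ∃ x ∈ Z, x ≠ 0 ∧ ∀ g ∈ H, r g x = x := by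
  obtain ⟨x₁, hx₁, hx₁0⟩ := hne
  haveI : Nontrivial Z := ⟨⟨⟨x₁, hx₁⟩, 0, fun h => hx₁0 (congrArg Subtype.val h)⟩⟩
  let ρ : H →* Module.End R Z :=
    { toFun := fun g => (r g.1).restrict (hZ g.1 g.2)
      map_one' := by
        apply LinearMap.ext
        intro z
        apply Subtype.ext
        simp
      map_mul' := by
        intro g h
        apply LinearMap.ext
        intro z
        apply Subtype.ext
        simp [LinearMap.restrict_apply] }
  have hρ : ∀ (g : H) (z : Z), ((ρ g z : Z) : X) = r g.1 z.1 := fun g z => rfl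
  obtain ⟨y, hy, hfix⟩ := exists_fixed_of_unipotent (R := R) (Y := Z)
    (fun y hy => Subtype.ext (h2 y.1 (by
      have := congrArg Subtype.val hy
      simpa using this))) ρ (by
    intro g
    apply LinearMap.ext
    intro z
    apply Subtype.ext
    have h := hu g.1 g.2 z.1 z.2
    simp only [Module.End.mul_apply, LinearMap.sub_apply, Module.End.one_apply, map_sub,
      LinearMap.zero_apply, Submodule.coe_sub, hρ, ZeroMemClass.coe_zero]
    rw [← h, two_smul]
    abel)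
  refine ⟨y.1, y.2, fun h => hy (Subtype.ext h), fun g hg => ?_⟩
  have := congrArg Subtype.val (hfix ⟨g, hg⟩)
  exact this

end Fixed

/-! ## The generic core -/

section Defs

/-- **(EV)** the eigenvector in the cut part of the Tate module: a vector `x ≠ 0` of `D.cut f`
killed by the kernel of the eigensystem `χ`. -/
def EigenVecCutStatement {p : ℕ} [Fact p.Prime] {N : ℕ} [NeZero N] {S : Finset ℕ} {M : ℕ}
    [NeZero M] {hNM : N ∣ M} (D : helper67.TateGeom p N S M hNM)
    {O' : Type} [CommRing O'] [Algebra ℤ_[p] O']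
    (χ : CuspForm.heckeAlgebra N 2 (↑S : Set ℕ) →+* O')
    {Y : Type} [AddCommGroup Y] (f : JZero M →+ Y) : Prop :=
  ∃ x : D.Λ, x ≠ 0 ∧ x ∈ D.cut f ∧
    ∀ P : MvPolynomial (GoodPrime p M S) ℤ_[p],
      MvPolynomial.aeval (fun ℓ => χ (goodT hNM ℓ)) P = 0 → MvPolynomial.aeval D.τ P • x = 0

/-- **(NEW-INV) at one place**: a `p`-power torsion point of `ker f` fixed by the inertia group
of `A` is killed by `c`. -/
def NewInvAt (M p : ℕ) [NeZero M] (A : ValuationSubring Qbar) {Y : Type} [AddCommGroup Y]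
    (f : JZero M →+ Y) (c : ℕ) : Prop :=
  ∀ x : JZero M, IsPTors p x → (∀ σ ∈ A.inertiaSubgroupIn ℚ, σ • x = x) → f x = 0 → c • x = 0

/-- **(NEW-INV)**: at every place over `q`. -/
def NewInvStatement (M q p : ℕ) [NeZero M] {Y : Type} [AddCommGroup Y] (f : JZero M →+ Y)
    (c : ℕ) : Prop :=
  ∀ A : ValuationSubring Qbar, A.LiesOverPrime q → NewInvAt M p A f c

/-- The kernel of `f` on `p`-power torsion is Galois stable. -/
def KerStable (M p : ℕ) [NeZero M] {Y : Type} [AddCommGroup Y] (f : JZero M →+ Y) : Prop :=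
  ∀ (σ : GQ) (x : JZero M), IsPTors p x → f x = 0 → f (σ • x) = 0

end Defs

/-! ## The wiring at one place -/

section Main

/-- the coefficient of `X` in a monic quadratic polynomial -/
theorem coeffOneQuad {R : Type*} [CommRing R] (a b : R) :
    (X ^ 2 - C a * X + C b : R[X]).coeff 1 = - a := by
  rw [coeff_add, coeff_sub, coeff_X_pow, coeff_C_mul, coeff_X_one, coeff_C]
  simp

/-- `(X - 1)² = X² - 2 X + 1` -/
theorem polySubOneSq {R : Type*} [CommRing R] :
    (X - 1 : R[X]) ^ 2 = X ^ 2 - C (2 : R) * X + C (1 : R) := by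
  simp only [map_ofNat, map_one]
  ring

set_option maxHeartbeats 1600000 in
/-- **[T3-WIRE-36], one place**: a representation `ρ` over `O'` with the good-prime
characteristic polynomials of `χ` is NOT unipotent on the inertia group of `A ∣ q`, as soon as
there is a geometric Tate datum `D` with (EV) and (NEW-INV) for a cut map `f`. -/
theorem not_unipotent_of_core
    (p : ℕ) [Fact p.Prime] (N : ℕ) [NeZero N] (S : Finset ℕ) (M : ℕ) [NeZero M] (hNM : N ∣ M)
    (D : helper67.TateGeom p N S M hNM)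
    (O' : Type) [CommRing O'] [IsDomain O'] [IsDiscreteValuationRing O']
    [IsAdicComplete (IsLocalRing.maximalIdeal O') O'] [CharZero O'] [Algebra ℤ_[p] O']
    (hpO' : (p : O') ∈ IsLocalRing.maximalIdeal O')
    (χ : CuspForm.heckeAlgebra N 2 (↑S : Set ℕ) →+* O')
    (ρ : GaloisRepAdic O')
    (hρ : ∀ (ℓ : ℕ) (hℓ : ℓ.Prime) (hℓN : ¬ ℓ ∣ N) (hℓS : ℓ ∉ (↑S : Set ℕ)),
      ∀ A : ValuationSubring Qbar, A.LiesOverPrime ℓ →
        ∀ σ : GQ, A.IsFrobeniusAt σ ℓ →
          LinearMap.charpoly (ρ.ρ σ) =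
            X ^ 2 - C (χ (CuspForm.heckeAlgebra.T hℓ hℓN hℓS)) * X + C ((ℓ : O')))
    (q : ℕ) (hq : q.Prime) (hqp : q ≠ p)
    (A : ValuationSubring Qbar) (hA : A.LiesOverPrime q)
    {Y : Type} [AddCommGroup Y] (f : JZero M →+ Y) (c : ℕ) (hc : c ≠ 0)
    (hf : KerStable M p f) (hEV : EigenVecCutStatement D χ f) (hNI : NewInvAt M p A f c)
    (hunip : ∀ σ ∈ A.inertiaSubgroupIn ℚ, LinearMap.charpoly (ρ.ρ σ) = (X - 1) ^ 2) :
    False := by
  obtain ⟨x, hx, hxcut, hKer⟩ := hEV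
  have hCheb := Fermat.Agent.P3.helper40.chebStatement
  -- the cyclotomic character
  have hpZ : (p : ℤ_[p]) ∈ IsLocalRing.maximalIdeal ℤ_[p] := by
    rw [PadicInt.maximalIdeal_eq_span_p]
    exact Ideal.mem_span_singleton_self _
  obtain ⟨d, hd, hdc, hdloc, -⟩ := Fermat.Agent.P3.helper24.cyclo p ℤ_[p] hpZ
  -- the universal trace
  obtain ⟨t, ht⟩ := Fermat.Agent.P3.helper98.pseudoUniv hCheb p N S M hNM D.toTateDatum d hd hdc
  -- the map `𝔸 → O'`
  let f₀ : MvPolynomial (GoodPrime p M S) ℤ_[p] →ₐ[ℤ_[p]] D.𝔸 := MvPolynomial.aeval D.τ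
  let g₀ : MvPolynomial (GoodPrime p M S) ℤ_[p] →ₐ[ℤ_[p]] O' :=
    MvPolynomial.aeval (fun ℓ => χ (goodT hNM ℓ))
  have hsurj : Function.Surjective f₀ := by
    rw [← AlgHom.range_eq_top]
    change (MvPolynomial.aeval D.τ).range = ⊤
    rw [← Algebra.adjoin_range_eq_range_aeval]
    exact D.adjoin_τ
  have hker : ∀ P ∈ RingHom.ker (f₀ : MvPolynomial (GoodPrime p M S) ℤ_[p] →+* D.𝔸),
      g₀ P = 0 := by
    intro P hP
    exact D.faithful O' χ P hP
  let Θ : D.𝔸 →ₐ[ℤ_[p]] O' :=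
    (Ideal.Quotient.liftₐ (RingHom.ker (f₀ : MvPolynomial (GoodPrime p M S) ℤ_[p] →+* D.𝔸)) g₀
      hker).comp (Ideal.quotientKerAlgEquivOfSurjective hsurj).symm.toAlgHom
  have hΘf : ∀ P : MvPolynomial (GoodPrime p M S) ℤ_[p], Θ (f₀ P) = g₀ P := by
    intro P
    have h1 : (Ideal.quotientKerAlgEquivOfSurjective hsurj).symm (f₀ P) =
        Ideal.Quotient.mk _ P := by
      rw [AlgEquiv.symm_apply_eq]
      rfl
    change Ideal.Quotient.liftₐ _ g₀ hker ((Ideal.quotientKerAlgEquivOfSurjective hsurj).symm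
      (f₀ P)) = _
    rw [h1]
    rfl
  have hΘ : ∀ ℓ : GoodPrime p M S, Θ (D.τ ℓ) = χ (goodT hNM ℓ) := by
    intro ℓ
    have h1 : D.τ ℓ = f₀ (MvPolynomial.X ℓ) := (MvPolynomial.aeval_X D.τ ℓ).symm
    rw [h1, hΘf]
    exact MvPolynomial.aeval_X _ ℓ
  -- `x` is killed by `ker Θ`
  have hkerx : ∀ a : D.𝔸, Θ a = 0 → a • x = 0 := by
    intro a ha
    obtain ⟨P, rfl⟩ := hsurj a
    rw [hΘf] at ha
    exact hKer P ha
  -- the trace formula
  have htr : ∀ s : GQ, LinearMap.trace O' ρ.V (ρ.ρ s) = Θ (t s) := by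
    refine trace_eq_of_tateDatum D.toTateDatum d t ht hCheb hd hdc hpO' Θ ρ ?_
    intro ℓ A' hA' φ' hφ'
    rw [hΘ]
    exact hρ ℓ.1 ℓ.2.1 (fun h => ℓ.2.2.1 (Dvd.dvd.mul_right (h.trans hNM) p))
      (fun h => ℓ.2.2.2 (Finset.mem_coe.mp h)) A' hA' φ' hφ'
  -- the trace on inertia
  have htwo : ∀ σ ∈ A.inertiaSubgroupIn ℚ, Θ (t σ - 2) = 0 := by
    intro σ hσ
    have h1 := Fermat.Agent.T2.helper72.charpoly_eq_of_finrank_two ρ.finrank_eq (ρ.ρ σ)
    rw [hunip σ hσ] at h1
    rw [polySubOneSq] at h1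
    have h2 := congrArg (fun P : O'[X] => P.coeff 1) h1
    simp only [coeffOneQuad, neg_inj] at h2
    rw [map_sub, ← htr, ← h2, map_ofNat, sub_self]
  -- the submodule `X`
  let Z : Submodule ℤ_[p] D.Λ :=
    { carrier := {v | v ∈ D.cut f ∧ ∀ a : D.𝔸, Θ a = 0 → a • v = 0}
      add_mem' := by
        rintro v w ⟨hv1, hv2⟩ ⟨hw1, hw2⟩
        refine ⟨(D.cut f).add_mem hv1 hw1, fun a ha => ?_⟩
        rw [smul_add, hv2 a ha, hw2 a ha, add_zero]
      zero_mem' := ⟨(D.cut f).zero_mem, fun a _ => smul_zero a⟩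
      smul_mem' := by
        rintro b v ⟨hv1, hv2⟩
        refine ⟨(D.cut f).smul_mem b hv1, fun a ha => ?_⟩
        rw [smul_comm, hv2 a ha, smul_zero] }
  have hZmem : ∀ v : D.Λ, v ∈ Z ↔ v ∈ D.cut f ∧ ∀ a : D.𝔸, Θ a = 0 → a • v = 0 :=
    fun v => Iff.rfl
  have hZstab : ∀ (s : GQ), ∀ v ∈ Z, D.r s v ∈ Z := by
    intro s v hv
    rw [hZmem] at hv ⊢
    refine ⟨D.r_mem_cut f s (hf s) hv.1, fun a ha => ?_⟩
    rw [← D.r_smul, hv.2 a ha, map_zero]
  have hxZ : x ∈ Z := ⟨hxcut, hkerx⟩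
  -- unipotency on `Z`
  have huZ : ∀ σ ∈ A.inertiaSubgroupIn ℚ, ∀ v ∈ Z,
      D.r σ (D.r σ v) - 2 • D.r σ v + v = 0 := by
    intro σ hσ v hv
    have h1 := ht σ v
    have hdσ : d σ = 1 := (hdloc q hq hqp A hA).1 σ hσ
    rw [hdσ, Units.val_one, one_smul] at h1
    have h2 : (t σ - 2) • D.r σ v = 0 := ((hZmem _).mp (hZstab σ v hv)).2 _ (htwo σ hσ)
    rw [sub_smul, sub_eq_zero] at h2
    rw [h2] at h1
    rw [← h1, two_smul, ofNat_smul_eq_nsmul, two_smul]
  -- `Λ` has no `2`-torsion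
  have hc0 : ∀ (n : ℕ), n ≠ 0 → ∀ v : D.Λ, n • v = 0 → v = 0 := by
    intro n hn v hv
    have h1 : (n : ℤ_[p]) • v = 0 := by rw [Nat.cast_smul_eq_nsmul]; exact hv
    rcases smul_eq_zero.mp h1 with h | h
    · exact absurd (Nat.cast_eq_zero.mp h) hn
    · exact h
  -- Kolchin
  obtain ⟨y, hyZ, hy0, hyfix⟩ := exists_fixed_of_unipotent_submodule (R := ℤ_[p])
    (hc0 2 two_ne_zero) D.r (A.inertiaSubgroupIn ℚ) Z (fun g _ v hv => hZstab g v hv) huZ
    ⟨x, hxZ, hx⟩
  -- (NEW-INV)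
  apply hy0
  apply hc0 c hc
  refine D.ext_proj fun n => ?_
  rw [map_nsmul, map_zero]
  refine hNI (D.proj n y) (D.isPTors_proj n y) (fun σ hσ => ?_) (((hZmem y).mp hyZ).1 n)
  rw [← D.proj_r, hyfix σ hσ]

end Main

/-! ## The frozen statement -/

section Final

/-- **The geometric input of S36** (generic form): for a newform `g` of level `N` and a prime
`q ≠ p` with `q² ∥ N` there are a level `M` (`N ∣ M`) with a geometric Tate datum, a cut map
`f` out of `J₀(M)` with Galois stable kernel, a constant `c ≠ 0` and a place `A ∣ q` with (EV)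
and (NEW-INV). -/
def S36CoreStatement : Prop :=
  ∀ {N : ℕ} [NeZero N] {g : CuspForm (CongruenceSubgroup.Gamma0 N) 2} (_hg : g.IsNewform)
    (p : ℕ) [Fact p.Prime] (S : Finset ℕ)
    (O' : Type) [CommRing O'] [IsDomain O'] [IsDiscreteValuationRing O']
    [IsAdicComplete (IsLocalRing.maximalIdeal O') O'] [Finite (IsLocalRing.ResidueField O')]
    [CharZero O'] [Algebra ℤ_[p] O'] (_hpO' : (p : O') ∈ IsLocalRing.maximalIdeal O')
    (_hp2 : p ≠ 2)
    (chig : CuspForm.heckeAlgebra N 2 (↑S : Set ℕ) →+* ℂ)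
    (_hchig : ∀ (ℓ : ℕ) (hℓ : ℓ.Prime) (hℓN : ¬ ℓ ∣ N) (hℓS : ℓ ∉ (↑S : Set ℕ)),
      chig (CuspForm.heckeAlgebra.T hℓ hℓN hℓS) = ModularFormClass.qCoeff g ℓ)
    (iota : chig.range →+* O')
    (_hpS : p ∈ S) (_hNS : ∀ q : ℕ, q.Prime → q ∣ N → q ∈ S)
    (q : ℕ) (_hq : q.Prime) (_hqp : q ≠ p) (_hq2 : N.factorization q = 2),
    ∃ (M : ℕ) (_ : NeZero M) (hNM : N ∣ M) (D : helper67.TateGeom p N S M hNM)
      (Y : Type) (_ : AddCommGroup Y) (f : JZero M →+ Y) (c : ℕ) (A : ValuationSubring Qbar),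
      c ≠ 0 ∧ A.LiesOverPrime q ∧ KerStable M p f ∧
        EigenVecCutStatement D (iota.comp chig.rangeRestrict) f ∧ NewInvAt M p A f c

/-- **S36 from its geometric input** (statement of the frozen S36, verbatim binders). -/
theorem s36_of_core (hS30 : StrongS30Statement) (hCore : S36CoreStatement) :
    ∀ {M : ℕ} [NeZero M] {g : CuspForm (CongruenceSubgroup.Gamma0 M) 2} (_hg : g.IsNewform)
    (lam : ℕ) [Fact lam.Prime]
    (S : Finset ℕ)
    (O' : Type) [CommRing O'] [IsDomain O'] [IsDiscreteValuationRing O']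
    [IsAdicComplete (IsLocalRing.maximalIdeal O') O'] [Finite (IsLocalRing.ResidueField O')]
    [CharZero O'] (_hlamO' : (lam : O') ∈ IsLocalRing.maximalIdeal O')
    (_hlam2 : lam ≠ 2)
    (chig : CuspForm.heckeAlgebra M 2 (↑S : Set ℕ) →+* ℂ)
    (_hchig : ∀ (ℓ : ℕ) (hℓ : ℓ.Prime) (hℓM : ¬ ℓ ∣ M) (hℓS : ℓ ∉ (↑S : Set ℕ)),
      chig (CuspForm.heckeAlgebra.T hℓ hℓM hℓS) = ModularFormClass.qCoeff g ℓ)
    (iota : chig.range →+* O')
    (_hlamS : lam ∈ S) (_hMS : ∀ q : ℕ, q.Prime → q ∣ M → q ∈ S)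
    (_hres : ∀ (O'' : Type) [CommRing O''] [IsDomain O''] [IsDiscreteValuationRing O'']
      [IsAdicComplete (IsLocalRing.maximalIdeal O'') O''] [Finite (IsLocalRing.ResidueField O'')]
      [CharZero O'']
      [Algebra O' O''] [Module.Finite O' O''] [IsLocalHom (algebraMap O' O'')],
      Function.Injective (algebraMap O' O'') → ∀ (ρ : GaloisRepAdic O''),
      (∀ (ℓ : ℕ) (hℓ : ℓ.Prime) (_hℓlam : ℓ ≠ lam) (hℓM : ¬ ℓ ∣ M) (hℓS : ℓ ∉ (↑S : Set ℕ)),
        ∀ A : ValuationSubring (AlgebraicClosure ℚ), A.LiesOverPrime ℓ →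
          ∀ σ : AlgebraicClosure ℚ ≃ₐ[ℚ] AlgebraicClosure ℚ, A.IsFrobeniusAt σ ℓ →
            LinearMap.charpoly (ρ.ρ σ) =
              X ^ 2 - C (algebraMap O' O'' ((iota.comp chig.rangeRestrict)
                (CuspForm.heckeAlgebra.T hℓ hℓM hℓS))) * X + C ((ℓ : O'')))
      → ρ.residual.IsAbsolutelyIrreducible ∧ ρ.residual.IsOdd),
    ∃ (O'' : Type) (_ : CommRing O'') (_ : IsDomain O'') (_ : IsDiscreteValuationRing O'')
      (_ : IsAdicComplete (IsLocalRing.maximalIdeal O'') O'')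
      (_ : Finite (IsLocalRing.ResidueField O''))
      (_ : CharZero O'') (_ : Algebra O' O'') (_ : Module.Finite O' O'')
      (_ : IsLocalHom (algebraMap O' O'')),
      Function.Injective (algebraMap O' O'') ∧
      ∃ ρ : GaloisRepAdic O'',
        (∀ (ℓ : ℕ) (hℓ : ℓ.Prime) (hℓM : ¬ ℓ ∣ M) (hℓS : ℓ ∉ (↑S : Set ℕ)),
          ∀ A : ValuationSubring (AlgebraicClosure ℚ), A.LiesOverPrime ℓ →
            ∀ σ : AlgebraicClosure ℚ ≃ₐ[ℚ] AlgebraicClosure ℚ, A.IsFrobeniusAt σ ℓ →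
              LinearMap.charpoly (ρ.ρ σ) =
                X ^ 2 - C (algebraMap O' O'' ((iota.comp chig.rangeRestrict)
                  (CuspForm.heckeAlgebra.T hℓ hℓM hℓS))) * X + C ((ℓ : O''))) ∧
        (∀ q : ℕ, q.Prime → q ≠ lam → M.factorization q = 2 →
          ¬ ρ.IsUnipotentOnInertiaAt q) := by
  intro M _ g hg lam _ S O' _ _ _ _ _ _ hlamO' hlam2 chig hchig iota hlamS hMS _
  obtain ⟨ρ, hρ1, -⟩ := hS30 lam M S hlamS hMS O' hlamO' (iota.comp chig.rangeRestrict)
  refine ⟨O', inferInstance, inferInstance, inferInstance, inferInstance, inferInstance,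
    inferInstance, Algebra.id O', Module.Finite.self O', ?_, Function.injective_id, ρ, ?_, ?_⟩
  · exact isLocalHom_id O'
  · intro ℓ hℓ hℓM hℓS A hA σ hσ
    exact hρ1 ℓ hℓ hℓM hℓS A hA σ hσ
  · intro q hq hqp hq2 hunip
    obtain ⟨ι⟩ := Fermat.Agent.P3.helper24.zpAlgebra lam O' hlamO'
    letI : Algebra ℤ_[lam] O' := ι.toAlgebra
    obtain ⟨M', hM', hNM, D, Y, hY, f, c, A, hc, hA, hf, hEV, hNI⟩ :=
      hCore hg lam S O' hlamO' hlam2 chig hchig iota hlamS hMS q hq hqp hq2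
    haveI := hM'
    letI := hY
    exact not_unipotent_of_core lam M S M' hNM D O' hlamO' (iota.comp chig.rangeRestrict) ρ hρ1
      q hq hqp A hA f c hc hf hEV hNI (fun σ hσ => hunip A hA σ hσ)

end Final

end Fermat.Agent.T3.helper34

end
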