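/-
NOTES (helper71, 01:55Z) for the TIER 3 architects (S36 / S58): helper29 #1879, helper23 #1915,
helper81 #1881, helper47 #1872.  Comment-only file, no declarations.  Paper-checked; item 3a is
also confirmed numerically (python, level 1).

NOTATION (as #1879 / #1050).  M = q^2 M', q not dividing M', GoodLevel M', n = lam^k, lam != q.
K0 = inertia field of A | q (discrete valuation, uniformiser q, residue field k = Fq-bar).
A0(L) = normal model of the affine curve of level L over A cap K0.  w1, w2, w3 = the three
extensions of the Gauss valuation at level M over K0, (e, f) = (1,1), (1,q^2), (q-1,1), residue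
field Ft' each (helper23 #1915 (2)).  rho_i = reductions, Bt' = red A0(M').
alpha x' = x'(tau), beta x' = x'(q tau), gamma x' = x'(q^2 tau) for x' in A0(M').
Reductions of the three pull-backs of f in Bt' (Fr = k-linear t -> t^q, = q-th power on the
Fq-structure):      at w1: (f, Fr f, Fr^2 f)   at w3: (f, Fr f, f)   at w2: (Fr^2 f, Fr f, f).
Singular points e of the reduced special fibre = supersingular points: three branches C1, C2, C3.

==========================================================================================
1.  THE T2 IDEAL STEP IS FALSE AT LEVEL q^2 (pure algebra; answer to the hope in #1879 (C)).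
==========================================================================================
The reduced fibre at e is the PLANAR ordinary triple point (tangent vectors of the branches in
the (alpha x', beta x', gamma x') space are (1,0,0), (0,0,1), (1,0,1): coplanar):
    O = k[[x,y]] / (x y (x - y))   inside   Ot = k[[t1]] x k[[t2]] x k[[t3]],
    x -> (0, t2, t3),  y -> (t1, 0, t3);   I := rad Ot = (t1,t2,t3) Ot;
    I^2 inside O (y^m - x y^(m-1) = (t1^m,0,0) etc.),  dim Ot/O = 3 = dim Ot/I.
COUNTEREXAMPLE:  at := bt := I.  Then at^n, bt^n, at*bt are inside O (n >= 2),
dim Ot/at = dim Ot/bt = delta_e, every count of #1050 item 2 is satisfied, but at*bt = I^2 != O.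
(For a node the same choice has dim 2 > delta_e = 1; that strict inequality is what (SN) buys.)
More precisely, for an O-submodule at of Ot with at^n inside O:
   (i)  if at contains ONE element f with some branch value f_i(0) != 0, then f is a unit of Ot
        (f^n in O local) and at = f O   [a' := f^-1 at contains 1, h = h*1^(n-1) in a'^n in O];
   (ii) otherwise at is inside I and dim Ot/at >= #branches >= delta_e, equality possible iff
        the point is a planar triple point and at = I.
In case (ii) the set {m : red(a^(m)) is invertible at e} is a proper subgroup of Z/n: the
obstruction is the class of the divisorial ideal a0 in the LOCAL CLASS GROUP Cl(A0_e).  No degree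
count can detect it (Riemann-Roch on the generic fibre does not see local classes).  Geometric
meaning: a non-factorial normal point = hidden components of the regular model = additional
inertia invariants.  So (NEW-INV) needs, and is of the same strength as:

   (REG)  A0(M) is REGULAR (enough: locally factorial) at every singular point e.

Over Kb the normal model really has hidden components, so T3 MUST run over K0 (#1915 (2),(3)).

==========================================================================================
2.  WITH (REG) THE IDEAL STEP IS TRIVIAL (no counts, no (SN), no (SAT) needed for it).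
==========================================================================================
y = [u] in T0' (u = 1 mod m_wi, i = 1,2,3, div u = n D off the cusps), a0 the divisorial ideal of D.
(REG) => a0 A0_e = g_e A0_e, g_e^n = u * eps, eps a unit of A0_e.  Then w_i(g_e) = 0,
rho_i(g_e)^n = rho_i(eps) is a unit power series on branch i, so rho_i(g_e) is a unit on branch i.
INVARIANT  zeta_e(y) := (rho_1 g_e (e) : rho_2 g_e (e) : rho_3 g_e (e))  in  mu_n^3 / mu_n
(well defined up to ONE global triple (xi_1, xi_2, xi_3): u may be changed by h^n, h = xi_i on Ci).
If all zeta_e are trivial, rho(g_e) lies in O_e^x (the unipotent part of Ot_e^x / O_e^x is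
uniquely n-divisible), so red(a0) = Rt locally everywhere, there is G in a0 with red G = 1, and
H := G^n / u is in A0 with red H = 1, div H = n E, E >= 0: exactly the input of the T2 disc + pivot
step (to be run with the three valuations; 1 + m_w3 is uniquely n-divisible, #1915 (2)).

==========================================================================================
3.  (REG) IS PROVABLE IN THE T2 FRAMEWORK.
==========================================================================================
3a. LEVEL q M' (thickness one).  R1 := local ring of A0(qM') at a singular point e1, n1 its
maximal ideal.  Take x' in A0(M'), reduction xb in the Fq-structure, d xb != 0 at e1, a := xb(e1)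
(a lies in F_(q^2) by (SN)), at a lift of a.  T := alpha x' - at, Y := beta x' - (lift of a^q).
    f1 := beta x' - (alpha x')^q  (w1 = 1, w2 = 0),   f2 := alpha x' - (beta x')^q  (w1 = 0, w2 = 1),
    f1 f2 = q G',  G' in A0  (A0/q is reduced),  D' := rho_1(f1 / q) in Ft'.
 (a) n1 = (q, T, Y) (the node: (Tb, Yb) = ((t1, t2^q), (t1^q, t2)) generate the maximal ideal of
     Rt_e1).  Hence:  G'(e1) != 0  =>  q = f1 f2 / G' in n1^2  =>  n1 = (T,Y) + n1^2  =>  R1 REGULAR.
 (b) rho_1(G') = D' * (xb - xb^(q^2)); the second factor has a SIMPLE zero at e1.  So
     G'(e1) != 0  <=>  D' has a pole at e1 (then a simple one).   D' is regular at all other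
     finite points (there q A0 = ker rho_1 locally).
 (c) DIFFERENTIAL IDENTITY (theta = t d/dt on q-expansions, V = t -> t^q; one line:
     theta(V f) = q V(theta f), V g = g^q mod q):
          d D' / d xb  =  (theta xb)^(q-1)  -  xb^(q-1)       in Ft'.
     So eta := (d xb)^(q-1) / (theta xb)^(q-1) = (dt/t)^(q-1) is a (q-1)-fold differential of
     Ft', independent of xb; it has NO zero at a finite non-singular point, a zero of order 2 at
     a singular point where D' has a pole, no zero at the other singular points, and a pole of
     order q-1 at every cusp (same computation in the parameter of that cusp).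
 (d) COUNT:  2 #{e1 : D' has a pole} >= deg eta + (q-1) c' = (q-1)(2g' - 2 + c')
             = 2 (g(qM') - 2g' + 1) = 2 delta = 2 #{singular points}   (T2 (SAT) + genus formula).
     Hence D' has a pole at EVERY singular point and A0(qM') is regular there.
     EQUALITY CASE: eta has zeros exactly at the singular points (order 2) and poles exactly
     at the cusps; so (theta xb)^(q-1) has no zero at a finite point where d xb != 0.
 NUMERICAL CHECK (level 1, python, exact): D = red((j(t^q) - j^q)/q) is a POLYNOMIAL in j for
 q = 5, 7, 11 (all supersingular j are 0 or 1728: thickness 3, 2), and for q = 13 it is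
 (polynomial of degree 13) / (j - 5): simple pole exactly at the supersingular j = 5.
 Identity (c) checked on q-expansions for q = 5, 7, 11, 13.
3b. LEVEL q^2 M' (generalised Eisenstein criterion; no modular polynomial).
 LEMMA (Mathlib only): (R1, n1) regular local of dimension 2, Psi in R1[Y] monic,
   Psi = (Y - a)^d mod n1, Psi(at) in n1 but not in n1^2  =>  R1[Y]/(Psi) is regular local.
   [maximal ideal (n1, y), y = Y - at; Psi(at) = - y * (...) shows n1 is inside (t, y) + n^2 for
    a complement t of Psi(at) in n1/n1^2.]
 APPLICATION: Psi := minimal polynomial of gamma x' over alpha F_(qM') (degree q); e is the only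
 point over e1, so Psi = (Y - a)^q mod n1; Psi(at) = +- Norm(gamma x' - at), and by the norm
 formula (N1) of #1169 its reductions on the two branches at e1 are
      on C1':  rho_1(.) * rho_3(.)^(q-1) = (xb^(q^2) - a)(xb - a)^(q-1)   (order q^2 + q - 1),
      on C2':  (rho_2(.))^q = (local parameter of C2')                     (order 1),
 and an element of n1^2 has order >= 2 on C2'.  So R1[gamma x'] is regular, hence normal, hence
 equal to A0(M)_e:  (REG) holds, parameters (alpha x' - at, gamma x' - at), and
 q = unit * F1 * F2 * F3^(q-1) with F_i local equations of the branches (e(w3) = q - 1).

3c. ORDINARY POINTS OF THE MIDDLE COMPONENT C3 (multiplicity q - 1; also needed in item 2,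
 because D-bar may pass through them).  Z := gamma x' - alpha x', w3(Z) = 1/(q-1),
 c3 := Z^(q-1) / q in A0 (normal), D3 := rho_3(c3).  At the cusp a/q the expansion of Z is
 X(zeta^a t) - X(t) = (zeta^a - 1) theta X mod (1 - zeta)^2 and (zeta^a - 1)^(q-1) / q = -1
 mod (1 - zeta) (Wilson), so   D3 = - (theta xb)^(q-1) = - (d D'/d xb + xb^(q-1)).
 By the equality case of 3a (d), D3(P) != 0 at every ordinary point P of C3; then c3 is a unit
 of A0_P, q = Z^(q-1) / c3, Z has no horizontal zero through P, ker rho_3 = Z A0_P and
 n_P = (alpha x' - at, Z): REGULAR.  Points lying only on C1 or only on C2: the fibre is a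
 reduced DVR there (rho_1, rho_2 are onto Bt'), regular for free.

==========================================================================================
4.  THE TORIC STEP (C) OF #1879 CLOSES WITH (REG):  (q^2 - 1) * (T0' cap new) = 0.
==========================================================================================
Norm formula on invariants (fibre of alpha over C1' is {C1, C3 (e = q-1)}, over C2' it is {C2}
(purely inseparable of degree q); for beta: C1 over C1' (insep.), {C3, C2} over C2'):
   zeta(alpha_* y) = (zeta_1 zeta_3^(q-1) : zeta_2^q),   zeta(beta_* y) = (zeta_1^q : zeta_2 zeta_3^(q-1)).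
y new => both are global constants.  Normalising zeta_3 = 1:  zeta_1 = xi zeta_2^q,
zeta_1^q = xi' zeta_2, so zeta_2^(q^2 - 1) and zeta_1^(q^2 - 1) are global constants, i.e. the
invariants of (q^2 - 1) y are trivial and item 2 + disc/pivot give (q^2 - 1) y = 0.
Together with (A), (B) of #1879 (constant |G| = q - 1 or (q-1)/2) and the finite component group
(normalisation of w_i(u) over the DISCRETE value group of K0; killed by a constant independent of
k) this is (NEW-INV) with c = c(q) independent of k.

PACKAGES THIS ADDS TO #1879:  [T3-REG1] item 3a (D', identity (c), count (d); needs expansions of
beta x' at every cusp = CuspReg vocabulary), ~4-6k;  [T3-REG3] item 3c ~2k;  [T3-EIS] item 3b, abstract lemma ~300 lines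
(Mathlib only, can start now) + instance ~2k;  [T3-LOC] item 2 ~2k;  [T3-NORMINV] item 4 ~2k;
[T3-K0] descent of I-fixed classes and the model over K0 (#1915 (3));  disc/pivot for the triple.
-/
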