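/-
TIER 3, [IDEAL3] box (12) [GLUE] (helper13), abstract part (Mathlib + `helper49_TorAlg`).

`T : TorCalc F B n r`.  The three components of the special fibre meet at the supersingular
points: for a regular `f` with reduction triple `X`, `X 0 ≡ 1` modulo `J` implies `X c ≡ 1`
modulo `J` for the three components.

No local analysis of the triple points is used; the inputs are

* `hres`   [RES]   the reductions of a regular integral function lie in `Bt`;
* `hsurj0` [SURJ3] at the component `0`;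
* a regular function `b` with reduction triple `Xb`, `Xb c ∈ J` for `c ≠ 0`, such that `Xb 0`
  generates `J` (in the application `b = α b₀`, `Xb = (ν, 0, ν)`);
* a function `a` with reduction triple `Xa`, `Xa c ∈ J` for `c ≠ 0` (in the application
  `a = q / β b₀`, `Xa = (0, ε ν, ε ν)`), which generates the kernel of the reduction at the
  component `0`: every regular `g` with `X 0 = 0` is `k * a`, `k` regular and integral.

Proof: `X 0 - 1 = Xb 0 * z`; lift `z` to `h`; `g = f - 1 - b h` has `X 0 = 0`, so `g = k a`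
and `X c - 1 = Xb c * Z c + X' c * Xa c ∈ J`.
-/
import Mathlib
import Fermat.Agent.T3.helper49_TorAlg

set_option autoImplicit false
set_option linter.unusedSectionVars false
set_option linter.unusedVariables false
set_option linter.style.longLine false

namespace Fermat.Agent.T3.helper13

open Fermat.Agent.T3.helper49

variable {F B : Type*} [Field F] [CommRing B] {n r : ℕ} (T : TorCalc F B n r)

/-- **[GLUE], abstract form.** -/
theorem glue_of_units
    (huniq : ∀ (f : F) (X Y : Fin 3 → B), T.Rho f X → T.Rho f Y → X = Y)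
    (hres : ∀ (f : F) (X : Fin 3 → B), f ∈ T.Reg → T.Rho f X → ∀ c, X c ∈ T.Bt)
    (hsurj0 : ∀ z ∈ T.Bt, ∃ f ∈ T.Reg, ∃ X, T.Rho f X ∧ X 0 = z)
    {a b : F} {Xa Xb : Fin 3 → B}
    (hb : b ∈ T.Reg) (ρb : T.Rho b Xb) (hbJ : ∀ c, c ≠ 0 → Xb c ∈ T.J)
    (hJb : ∀ e ∈ T.J, ∃ z ∈ T.Bt, e = Xb 0 * z)
    (ρa : T.Rho a Xa) (haJ : ∀ c, c ≠ 0 → Xa c ∈ T.J)
    (hker : ∀ (g : F) (X : Fin 3 → B), g ∈ T.Reg → T.Rho g X → X 0 = 0 →
      ∃ k ∈ T.Reg, ∃ X', T.Rho k X' ∧ g = k * a) :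
    ∀ (f : F) (X : Fin 3 → B), f ∈ T.Reg → T.Rho f X → X 0 - 1 ∈ T.J →
      ∀ c, X c - 1 ∈ T.J := by
  intro f X hf ρf h0 c
  by_cases hc : c = 0
  · rw [hc]; exact h0
  obtain ⟨z, hz, ez⟩ := hJb _ h0
  obtain ⟨h, hh, Z, ρh, eZ⟩ := hsurj0 z hz
  have ρg : T.Rho (f + -1 + -(b * h)) (X + -1 + -(Xb * Z)) :=
    T.rho_add _ _ _ _ (T.rho_add _ _ _ _ ρf (T.rho_neg _ _ T.rho_one))
      (T.rho_neg _ _ (T.rho_mul _ _ _ _ ρb ρh))
  have hg : f + -1 + -(b * h) ∈ T.Reg :=
    T.Reg.add_mem (T.Reg.add_mem hf (T.Reg.neg_mem T.Reg.one_mem))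
      (T.Reg.neg_mem (T.Reg.mul_mem hb hh))
  have hg0 : (X + -1 + -(Xb * Z)) 0 = 0 := by
    simp only [Pi.add_apply, Pi.neg_apply, Pi.one_apply, Pi.mul_apply, eZ]
    rw [← ez]
    ring
  obtain ⟨k, hk, X', ρk, ek⟩ := hker _ _ hg ρg hg0
  have ρg' : T.Rho (f + -1 + -(b * h)) (X' * Xa) := by
    rw [ek]
    exact T.rho_mul _ _ _ _ ρk ρa
  have e := congrFun (huniq _ _ _ ρg ρg') c
  simp only [Pi.add_apply, Pi.neg_apply, Pi.one_apply, Pi.mul_apply] at e
  have e' : X c - 1 = Z c * Xb c + X' c * Xa c := by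
    rw [← e]
    ring
  rw [e']
  exact T.J.add_mem (T.J_mul _ (hres h Z hh ρh c) _ (hbJ c hc))
    (T.J_mul _ (hres k X' hk ρk c) _ (haJ c hc))

end Fermat.Agent.T3.helper13
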