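import Mathlib
import Fermat.Agent.T3.helper16_UnitReal
import Fermat.Agent.T3.helper5_Gauss3CGauss
import Fermat.Agent.T3.helper22_Ideal3Tor

/-!
# T3 / [IDEAL3], boxes `hker` (`c = 0, 1`) and `hidem` of `helper22.Ideal3Box` (helper16)

For `T = B.calc hA`, `B : helper49.TorBase` with `B.Reg = helper98.regJRing (N q q)` (regular off
ALL cusps), from the unit table:

* `hker` at the component `∞` (`c = 0`) : `(b, s) = (β₂ (W₁ b₀), 1)` (`= (± q / β₂ b₀, 1)`);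
* `hker` at the component `0` (`c = 1`) : `(b, s) = (α₂ b₀, 1)`;
* `hidem` : `e_∞ = β₂ b₀`, `e_0 = α₂ (W₁ b₀)`, `e_mid = β₂ (W₁ b₀) · α₂ b₀`.

The divisibility in `hker` (an `I`-fixed function with reduction `0` at the component `c` is
divisible by `b` at `c`) is the discreteness of the Gauss valuation on the `I`-fixed functions
(helper5, `gaussIs_ex3_zero`, `gaussIs_ex3_one`).
-/

set_option autoImplicit false
set_option synthInstance.maxHeartbeats 400000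
set_option linter.style.haveILetI false
set_option linter.unusedSectionVars false
set_option linter.unusedVariables false
set_option linter.style.longLine false

noncomputable section

open HahnSeries IntermediateField AlgebraicCurve ModularCurve
open Fermat.Agent.S18.helper19 Fermat.Agent.P2.helper29 Fermat.Agent.T2.helper36

namespace Fermat.Agent.T3.helper16

open Fermat.Agent.S24 Fermat.Agent.S24.helper17 Fermat.Agent.S24.helper77
open Fermat.Agent.P2.helper66 (iota inv1 coeffMap_iota iota_ex mul_inv1)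
open Fermat.Agent.T3.helper74 (ex3 IsFixI IsInt3)
open Fermat.Agent.T3.helper72 (Red3)
open Fermat.Agent.T3.helper36 (RhoQ GaussIs)
open Fermat.Agent.T3.helper49 (Rho3 TorBase)
open Fermat.Agent.T3.helper98 (IsRegJ regJRing)

/-! ### Gauss values and divisibility -/

section Gauss

variable (A : ValuationSubring Kb)

/-- natural numbers lie in `A` -/
theorem natCast_mem (n : ℕ) : (n : Kb) ∈ A := by
  induction n with
  | zero => simp
  | succ n ih =>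
    rw [Nat.cast_succ]
    exact A.add_mem _ _ ih A.one_mem

/-- an element with Gauss value `q ^ k`, `k ≥ 0`, is Gauss-integral -/
theorem exists_rhoQ_of_gaussIs_pow {g : LaurentSeries Kb} {q k : ℕ}
    (h : GaussIs A g ((q : Kb) ^ k)) : ∃ r : LaurentSeries (kA A), RhoQ A g r := by
  obtain ⟨hc, r, -, hr⟩ := h
  have hmem : (q : Kb) ^ k ∈ A := A.pow_mem (natCast_mem A q) k
  have h1 := (Fermat.Agent.T3.helper36.rhoQ_algebraMap (A := A) ⟨(q : Kb) ^ k, hmem⟩).mul hr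
  have e : algebraMap Kb (LaurentSeries Kb) (((⟨(q : Kb) ^ k, hmem⟩ : A) : Kb)) *
      (algebraMap Kb (LaurentSeries Kb) ((q : Kb) ^ k)⁻¹ * g) = g := by
    rw [← mul_assoc, ← map_mul]
    show algebraMap Kb (LaurentSeries Kb) ((q : Kb) ^ k * ((q : Kb) ^ k)⁻¹) * g = g
    rw [mul_inv_cancel₀ hc, map_one, one_mul]
  rw [e] at h1
  exact ⟨_, h1⟩

/-- an element of Gauss value `q ^ m` with reduction `0` has `m ≥ 1` -/
theorem one_le_of_gaussIs_of_rhoQ_zero {g : LaurentSeries Kb} {q : ℕ} {m : ℤ}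
    (h : GaussIs A g ((q : Kb) ^ m)) (h0 : RhoQ A g 0) : 1 ≤ m := by
  by_contra hm
  rw [not_le] at hm
  obtain ⟨hc, r, hr0, hr⟩ := h
  obtain ⟨k, hk⟩ : ∃ k : ℕ, m = -(k : ℤ) := ⟨(-m).toNat, by omega⟩
  have hmem : (q : Kb) ^ k ∈ A := A.pow_mem (natCast_mem A q) k
  have e : ((q : Kb) ^ m)⁻¹ = (((⟨(q : Kb) ^ k, hmem⟩ : A) : Kb)) := by
    show ((q : Kb) ^ m)⁻¹ = (q : Kb) ^ k
    rw [hk, zpow_neg, inv_inv, zpow_natCast]
  rw [e] at hr
  have h1 := (Fermat.Agent.T3.helper36.rhoQ_algebraMap (A := A) ⟨(q : Kb) ^ k, hmem⟩).mul h0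
  rw [mul_zero] at h1
  exact hr0 (hr.unique h1)

/-- **divisibility**: `g` of Gauss value `q ^ m` with reduction `0`, `b` of Gauss value `q`:
`g / b` is Gauss-integral. -/
theorem exists_rhoQ_div {g b : LaurentSeries Kb} {q : ℕ} {m : ℤ}
    (h : GaussIs A g ((q : Kb) ^ m)) (h0 : RhoQ A g 0) (hb : GaussIs A b (q : Kb)) :
    ∃ r : LaurentSeries (kA A), RhoQ A (g * b⁻¹) r := by
  have hm := one_le_of_gaussIs_of_rhoQ_zero A h h0
  obtain ⟨k, hk⟩ : ∃ k : ℕ, m = (k : ℤ) + 1 := ⟨(m - 1).toNat, by omega⟩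
  have hq0 : (q : Kb) ≠ 0 := hb.1
  have h1 := h.mul hb.inv
  have e : (q : Kb) ^ m * (q : Kb)⁻¹ = (q : Kb) ^ k := by
    rw [hk, zpow_add₀ hq0, zpow_one, zpow_natCast, mul_assoc, mul_inv_cancel₀ hq0, mul_one]
  rw [e] at h1
  exact exists_rhoQ_of_gaussIs_pow A h1

end Gauss

/-! ### the boxes -/

section Boxes

variable {N q : ℕ} [NeZero N] [NeZero q] {hq : q.Prime} {hqN : ¬ q ∣ N}

theorem red3_iff_rhoQ (A : ValuationSubring Kb) {ζ : Kb} (hζ : IsPrimitiveRoot ζ q) (i : Fin 3)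
    (f : FF (N * q * q)) (x : LaurentSeries (kA A)) :
    Red3 N q hq hqN A hζ i f x ↔ RhoQ A (ex3 N q hq hqN hζ i f) x := Iff.rfl

namespace IsUnit0

variable {b0 : FF (N * q)} {B : PowerSeries ℤ} {ε : ℤ} (h : IsUnit0 hq hqN b0 B ε)
include h

variable (A : ValuationSubring Kb) {ζ : Kb} (hζ : IsPrimitiveRoot ζ q)

theorem nu_ne_zero : iota (kA A) B ≠ 0 := iota_ne_zero_of_coeff (R := kA A) h.const

theorem alpha_ne_zero : heckeAlphaBar Kb (N * q) q b0 ≠ 0 :=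
  (map_ne_zero_iff _ (heckeAlphaBar Kb (N * q) q).toRingHom.injective).mpr h.ne_zero

theorem al_ne_zero : atkinLehner N q hq hqN b0 ≠ 0 :=
  (map_ne_zero_iff _ (atkinLehner N q hq hqN).injective).mpr h.ne_zero

theorem beta_al_ne_zero :
    heckeBetaBar Kb (N * q) q (atkinLehner N q hq hqN b0) ≠ 0 :=
  (map_ne_zero_iff _ (heckeBetaBar Kb (N * q) q).toRingHom.injective).mpr h.al_ne_zero

/-- `w₁(β₂ (W₁ b₀)) = v(q)` -/
theorem gaussIs_beta_al0 :
    GaussIs A (ex3 N q hq hqN hζ 0 (heckeBetaBar Kb (N * q) q (atkinLehner N q hq hqN b0)))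
      (q : Kb) := by
  refine ⟨h.q_ne_zero, _, sgn_mul_iota_ne_zero A h.sign
    (constantCoeff_ex q (constantCoeff_inv1 h.const)), ?_⟩
  have e : algebraMap Kb (LaurentSeries Kb) (q : Kb)⁻¹ *
      ex3 N q hq hqN hζ 0 (heckeBetaBar Kb (N * q) q (atkinLehner N q hq hqN b0)) =
      incl A (sgnModel A ε (Fermat.Agent.P2.helper66.ex q (inv1 B))) := by
    rw [Fermat.Agent.T3.helper98.ex3_zero_beta, h.coe_al, map_mul, ModularCurve.qExpand_C,
      h.scale_aux, incl_sgnModel, iota_ex]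
  rw [e, ← red_sgnModel]
  exact Fermat.Agent.T3.helper36.rhoQ_incl _

/-- **divisibility at the component `∞`** by `β₂ (W₁ b₀)`. -/
theorem ker_div0 (hA : A.LiesOverPrime q) (g : FF (N * q * q))
    (X : Fin 3 → LaurentSeries (kA A)) (ρ : Rho3 N q hq hqN A hζ g X) (hX : X 0 = 0) :
    ∃ X', Rho3 N q hq hqN A hζ
      (g * (1 * (heckeBetaBar Kb (N * q) q (atkinLehner N q hq hqN b0))⁻¹)) X' := by
  rcases eq_or_ne g 0 with rfl | hg0
  · refine ⟨0, ?_⟩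
    rw [zero_mul]
    exact ⟨fun σ _ => map_zero _, fun i => by
      rw [red3_iff_rhoQ, map_zero]
      exact Fermat.Agent.T3.helper36.rhoQ_zero⟩
  obtain ⟨hfix, hred⟩ := ρ
  obtain ⟨hbfix, hbred⟩ := h.rho3_beta_al A hζ hA
  obtain ⟨m, hm⟩ := Fermat.Agent.T3.helper5.gaussIs_ex3_zero (hq := hq) (hqN := hqN) hA hζ hg0 hfix
  have h0 : RhoQ A (ex3 N q hq hqN hζ 0 g) 0 := by
    have := hred 0
    rwa [hX] at this
  obtain ⟨r0, hr0⟩ := exists_rhoQ_div A hm h0 (h.gaussIs_beta_al0 A hζ)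
  refine ⟨![r0, X 1 * (iota (kA A) B)⁻¹, X 2 * (iota (kA A) B)⁻¹], ?_, ?_⟩
  · exact Fermat.Agent.T3.helper98.isFixI_mul A hfix
      (Fermat.Agent.T3.helper98.isFixI_mul A (Fermat.Agent.T3.helper98.isFixI_one A)
        (Fermat.Agent.T3.helper98.isFixI_inv A hbfix))
  · intro i
    rw [red3_iff_rhoQ, one_mul, map_mul, map_inv₀]
    fin_cases i
    · exact hr0
    · exact ((red3_iff_rhoQ A hζ 1 _ _).mp (hred 1)).mul
        (((red3_iff_rhoQ A hζ 1 _ _).mp (hbred 1)).inv (h.nu_ne_zero A))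
    · exact ((red3_iff_rhoQ A hζ 2 _ _).mp (hred 2)).mul
        (((red3_iff_rhoQ A hζ 2 _ _).mp (hbred 2)).inv (h.nu_ne_zero A))

/-- **divisibility at the component `0`** by `α₂ b₀`. -/
theorem ker_div1 (hA : A.LiesOverPrime q) (g : FF (N * q * q))
    (X : Fin 3 → LaurentSeries (kA A)) (ρ : Rho3 N q hq hqN A hζ g X) (hX : X 1 = 0) :
    ∃ X', Rho3 N q hq hqN A hζ (g * (1 * (heckeAlphaBar Kb (N * q) q b0)⁻¹)) X' := by
  rcases eq_or_ne g 0 with rfl | hg0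
  · refine ⟨0, ?_⟩
    rw [zero_mul]
    exact ⟨fun σ _ => map_zero _, fun i => by
      rw [red3_iff_rhoQ, map_zero]
      exact Fermat.Agent.T3.helper36.rhoQ_zero⟩
  obtain ⟨hfix, hred⟩ := ρ
  obtain ⟨hbfix, hbred⟩ := h.rho3_alpha A hζ hA
  obtain ⟨m, hm⟩ := Fermat.Agent.T3.helper5.gaussIs_ex3_one (hq := hq) (hqN := hqN) hA hζ hg0 hfix
  have h0 : RhoQ A (ex3 N q hq hqN hζ 1 g) 0 := by
    have := hred 1
    rwa [hX] at this
  obtain ⟨r0, hr0⟩ := exists_rhoQ_div A hm h0 (h.gaussIs_alpha1 A hζ)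
  refine ⟨![X 0 * (iota (kA A) B)⁻¹, r0, X 2 * (iota (kA A) B)⁻¹], ?_, ?_⟩
  · exact Fermat.Agent.T3.helper98.isFixI_mul A hfix
      (Fermat.Agent.T3.helper98.isFixI_mul A (Fermat.Agent.T3.helper98.isFixI_one A)
        (Fermat.Agent.T3.helper98.isFixI_inv A hbfix))
  · intro i
    rw [red3_iff_rhoQ, one_mul, map_mul, map_inv₀]
    fin_cases i
    · exact ((red3_iff_rhoQ A hζ 0 _ _).mp (hred 0)).mul
        (((red3_iff_rhoQ A hζ 0 _ _).mp (hbred 0)).inv (h.nu_ne_zero A))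
    · exact hr0
    · exact ((red3_iff_rhoQ A hζ 2 _ _).mp (hred 2)).mul
        (((red3_iff_rhoQ A hζ 2 _ _).mp (hbred 2)).inv (h.nu_ne_zero A))

/-! ### the boxes in the shape of `helper22.Ideal3Box` -/

/-- **box `hker` of `helper22.Ideal3Box (B.calc hA)` at the components `∞` (`c = 0`) and `0`
(`c = 1`)**, for every base with `B.Reg = regJRing (N q q)`. -/
theorem hker01 {n : ℕ} (hA : A.LiesOverPrime q) (Bs : TorBase N q hq hqN A hζ n)
    (hReg : Bs.Reg = regJRing (N * q * q)) (c : Fin 3) (hc : c = 0 ∨ c = 1)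
    (𝔪 : Ideal (Bs.calc hA).Bt) (h𝔪 : 𝔪.IsMaximal) :
    ∃ (b s : FF (N * q * q)) (Xb Xs : Fin 3 → LaurentSeries (kA A)),
      b ∈ (Bs.calc hA).Reg ∧ s ∈ (Bs.calc hA).Reg ∧ b ≠ 0 ∧ s * b⁻¹ ∈ (Bs.calc hA).Reg ∧
      (Bs.calc hA).Rho b Xb ∧ (Bs.calc hA).Rho s Xs ∧ Xb c = 0 ∧
      (∃ z : (Bs.calc hA).Bt, (z : LaurentSeries (kA A)) = Xs c ∧ z ∉ 𝔪) ∧
      ∀ (g : FF (N * q * q)) (X : Fin 3 → LaurentSeries (kA A)), (Bs.calc hA).Rho g X →
        X c = 0 → ∃ X', (Bs.calc hA).Rho (g * (s * b⁻¹)) X' := by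
  have hone : ∃ z : (Bs.calc hA).Bt, (z : LaurentSeries (kA A)) = (1 : Fin 3 →
      LaurentSeries (kA A)) c ∧ z ∉ 𝔪 :=
    ⟨1, rfl, (Ideal.ne_top_iff_one 𝔪).mp h𝔪.ne_top⟩
  have hR1 : (1 : FF (N * q * q)) ∈ (Bs.calc hA).Reg := (Bs.calc hA).Reg.one_mem
  rcases hc with rfl | rfl
  · refine ⟨heckeBetaBar Kb (N * q) q (atkinLehner N q hq hqN b0), 1,
      ![0, iota (kA A) B, iota (kA A) B], 1, ?_, hR1, h.beta_al_ne_zero, ?_,
      h.rho3_beta_al A hζ hA, (Bs.calc hA).rho_one, rfl, hone, ?_⟩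
    · show _ ∈ Bs.Reg
      rw [hReg]
      exact h.mem_regJ_beta_al
    · show _ ∈ Bs.Reg
      rw [hReg, one_mul]
      exact h.mem_regJ_beta_al_inv
    · intro g X ρ hX
      exact h.ker_div0 A hζ hA g X ρ hX
  · refine ⟨heckeAlphaBar Kb (N * q) q b0, 1,
      ![iota (kA A) B, 0, iota (kA A) B], 1, ?_, hR1, h.alpha_ne_zero, ?_,
      h.rho3_alpha A hζ hA, (Bs.calc hA).rho_one, rfl, hone, ?_⟩
    · show _ ∈ Bs.Reg
      rw [hReg]
      exact h.mem_regJ_alpha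
    · show _ ∈ Bs.Reg
      rw [hReg, one_mul]
      exact h.mem_regJ_alpha_inv
    · intro g X ρ hX
      exact h.ker_div1 A hζ hA g X ρ hX

/-- **box `hidem` of `helper22.Ideal3Box (B.calc hA)`**: `e_∞ = β₂ b₀`, `e_0 = α₂ (W₁ b₀)`,
`e_mid = β₂ (W₁ b₀) · α₂ b₀`. -/
theorem hidem {n : ℕ} (hA : A.LiesOverPrime q) (Bs : TorBase N q hq hqN A hζ n) :
    ∀ c : Fin 3, ∃ (e : FF (N * q * q)) (X : Fin 3 → LaurentSeries (kA A)),
      (Bs.calc hA).Rho e X ∧ X c ≠ 0 ∧ ∀ c', c' ≠ c → X c' = 0 := by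
  have hν := h.nu_ne_zero A
  intro c
  fin_cases c
  · refine ⟨_, _, h.rho3_beta A hζ hA, ?_, ?_⟩
    · exact pow_ne_zero _ hν
    · intro c' hc'
      fin_cases c'
      · exact absurd rfl hc'
      · rfl
      · rfl
  · refine ⟨_, _, h.rho3_alpha_al A hζ hA, ?_, ?_⟩
    · exact pow_ne_zero _ hν
    · intro c' hc'
      fin_cases c'
      · rfl
      · exact absurd rfl hc'
      · rfl
  · refine ⟨_, _, h.rho3_mid A hζ hA, ?_, ?_⟩
    · exact pow_ne_zero _ hν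
    · intro c' hc'
      fin_cases c'
      · rfl
      · rfl
      · exact absurd rfl hc'

end IsUnit0

/-- **the boxes `hker` (`c = 0, 1`) and `hidem`, unconditional** (`4 ∣ N` or `9 ∣ N`). -/
theorem exists_hker01_hidem (hq : q.Prime) (hqN : ¬ q ∣ N) (hN : 4 ∣ N ∨ 9 ∣ N)
    (A : ValuationSubring Kb) {ζ : Kb} (hζ : IsPrimitiveRoot ζ q) {n : ℕ}
    (hA : A.LiesOverPrime q) (Bs : TorBase N q hq hqN A hζ n)
    (hReg : Bs.Reg = regJRing (N * q * q)) :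
    (∀ (c : Fin 3), (c = 0 ∨ c = 1) → ∀ 𝔪 : Ideal (Bs.calc hA).Bt, 𝔪.IsMaximal →
      ∃ (b s : FF (N * q * q)) (Xb Xs : Fin 3 → LaurentSeries (kA A)),
        b ∈ (Bs.calc hA).Reg ∧ s ∈ (Bs.calc hA).Reg ∧ b ≠ 0 ∧ s * b⁻¹ ∈ (Bs.calc hA).Reg ∧
        (Bs.calc hA).Rho b Xb ∧ (Bs.calc hA).Rho s Xs ∧ Xb c = 0 ∧
        (∃ z : (Bs.calc hA).Bt, (z : LaurentSeries (kA A)) = Xs c ∧ z ∉ 𝔪) ∧
        ∀ (g : FF (N * q * q)) (X : Fin 3 → LaurentSeries (kA A)), (Bs.calc hA).Rho g X →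
          X c = 0 → ∃ X', (Bs.calc hA).Rho (g * (s * b⁻¹)) X') ∧
    (∀ c : Fin 3, ∃ (e : FF (N * q * q)) (X : Fin 3 → LaurentSeries (kA A)),
      (Bs.calc hA).Rho e X ∧ X c ≠ 0 ∧ ∀ c', c' ≠ c → X c' = 0) := by
  obtain ⟨b0, B, ε, h⟩ := exists_isUnit0 hq hqN hN
  exact ⟨fun c hc 𝔪 h𝔪 => h.hker01 A hζ hA Bs hReg c hc 𝔪 h𝔪, h.hidem A hζ hA Bs⟩

end Boxes

end Fermat.Agent.T3.helper16

end
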