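/-
TIER 3, [IDEAL3] box (12) [GLUE] (helper13), the instance: `helper22.Ideal3Glue (B.calc hA)`.

Level `N q q`, `A` over `q`, `b₀` the weight-one unit of level `N q` (`helper16.IsUnit0`, series
`Bs`), `ν = iota (kA A) Bs` its reduction at `∞`.  With the unit table of helper16

  `X (α₂ b₀) = (ν, 0, ν)`,   `X (β₂ (W₁ b₀)) = (0, ν, ν)`      (`β₂ (W₁ b₀) = ε q / β₂ b₀`)

and the global form of [KER] at the component `∞` (`helper16.IsUnit0.ker_div0`: an
inertia-fixed `g` with `X 0 = 0` is divisible by `β₂ (W₁ b₀)`), the abstract lemma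
`helper13.glue_of_units` gives the gluing box for every base `B` with
`B.Reg = regJRing (N q q)` and `B.J = ν · B.Bt`, from the boxes [RES] and [SURJ3] (at `∞`):

* `ideal3Glue_of_unit` : hypotheses `hJ1 : ν ∈ B.J`, `hJ2 : J ⊆ ν · Bt`, `hres`, `hsurj0`;
* `ideal3Glue_of_box`  : the same from `D : helper22.Ideal3Box (B.calc hA)`;
* `ideal3Glue_nuJ`     : for `B.J = helper49.nuJ B.Bt ν`.

No analysis of the triple points of the special fibre is used: the geometry is in [RES]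
(the three valuations are all the extensions of the Gauss valuation) and in the unit table.
-/
import Mathlib
import Fermat.Agent.T3.helper13_GlueAbs
import Fermat.Agent.T3.helper16_Ideal3Ker

set_option autoImplicit false
set_option synthInstance.maxHeartbeats 400000
set_option linter.unusedSectionVars false
set_option linter.unusedVariables false
set_option linter.style.longLine false
set_option linter.style.haveILetI false

noncomputable section

open HahnSeries IntermediateField AlgebraicCurve ModularCurve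
open Fermat.Agent.S18.helper19 Fermat.Agent.P2.helper29 Fermat.Agent.T2.helper36

namespace Fermat.Agent.T3.helper13

open Fermat.Agent.T3.helper74 (ex3 IsFixI)
open Fermat.Agent.T3.helper72 (Red3)
open Fermat.Agent.T3.helper36 (RhoQ)
open Fermat.Agent.T3.helper49 (Rho3 TorBase TorCalc nuJ)
open Fermat.Agent.T3.helper16 (IsUnit0)
open Fermat.Agent.T3.helper98 (regJRing)
open Fermat.Agent.P2.helper66 (iota)

variable {N q : ℕ} [NeZero N] [NeZero q] {hq : q.Prime} {hqN : ¬ q ∣ N}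
  {A : ValuationSubring Kb} {ζ : Kb} {hζ : IsPrimitiveRoot ζ q}
  {b0 : FF (N * q)} {Bs : PowerSeries ℤ} {ε : ℤ}

/-- the reduction triple is unique -/
theorem rho3_unique {f : FF (N * q * q)} {X Y : Fin 3 → LaurentSeries (kA A)}
    (hX : Rho3 N q hq hqN A hζ f X) (hY : Rho3 N q hq hqN A hζ f Y) : X = Y := by
  funext i
  have h1 : RhoQ A (ex3 N q hq hqN hζ i f) (X i) := hX.2 i
  have h2 : RhoQ A (ex3 N q hq hqN hζ i f) (Y i) := hY.2 i
  exact h1.unique h2

/-- **[GLUE]** for a base `B` with `B.Reg = regJRing (N q q)` whose ideal `J` is `ν · Bt`, from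
[RES] and [SURJ3] at the component `∞`. -/
theorem ideal3Glue_of_unit {n : ℕ} (B : TorBase N q hq hqN A hζ n) (hA : A.LiesOverPrime q)
    (h : IsUnit0 hq hqN b0 Bs ε) (hReg : B.Reg = regJRing (N * q * q))
    (hJ1 : iota (kA A) Bs ∈ B.J)
    (hJ2 : ∀ e ∈ B.J, ∃ z ∈ B.Bt, e = iota (kA A) Bs * z)
    (hres : ∀ (f : FF (N * q * q)) (X : Fin 3 → LaurentSeries (kA A)), f ∈ B.Reg →
      Rho3 N q hq hqN A hζ f X → ∀ c, X c ∈ B.Bt)
    (hsurj0 : ∀ z ∈ B.Bt, ∃ f ∈ B.Reg, ∃ X, Rho3 N q hq hqN A hζ f X ∧ X 0 = z) :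
    Fermat.Agent.T3.helper22.Ideal3Glue (B.calc hA) := by
  have hα : heckeAlphaBar Kb (N * q) q b0 ∈ B.Reg := hReg ▸ h.mem_regJ_alpha
  have hβ : (heckeBetaBar Kb (N * q) q (atkinLehner N q hq hqN b0))⁻¹ ∈ B.Reg :=
    hReg ▸ h.mem_regJ_beta_al_inv
  refine ⟨?_, iota (kA A) Bs, hJ1, h.nu_ne_zero A⟩
  refine glue_of_units (B.calc hA)
    (a := heckeBetaBar Kb (N * q) q (atkinLehner N q hq hqN b0))
    (b := heckeAlphaBar Kb (N * q) q b0)
    (Xa := ![0, iota (kA A) Bs, iota (kA A) Bs])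
    (Xb := ![iota (kA A) Bs, 0, iota (kA A) Bs])
    (fun f X Y hX hY => rho3_unique hX hY) hres hsurj0 hα (h.rho3_alpha A hζ hA) ?_ hJ2
    (h.rho3_beta_al A hζ hA) ?_ ?_
  · intro c hc
    fin_cases c
    · exact absurd rfl hc
    · exact B.J.zero_mem
    · exact hJ1
  · intro c hc
    fin_cases c
    · exact absurd rfl hc
    · exact hJ1
    · exact hJ1
  · intro g X hg ρ hX
    obtain ⟨X', ρ'⟩ := h.ker_div0 A hζ hA g X ρ hX
    refine ⟨g * (1 * (heckeBetaBar Kb (N * q) q (atkinLehner N q hq hqN b0))⁻¹),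
      B.Reg.mul_mem hg (by rw [one_mul]; exact hβ), X', ρ', ?_⟩
    rw [one_mul]
    exact (inv_mul_cancel_right₀ h.beta_al_ne_zero g).symm

/-- **[GLUE]** from the boxes of `helper22.Ideal3Box`. -/
theorem ideal3Glue_of_box {n : ℕ} (B : TorBase N q hq hqN A hζ n) (hA : A.LiesOverPrime q)
    (h : IsUnit0 hq hqN b0 Bs ε) (hReg : B.Reg = regJRing (N * q * q))
    (hJ1 : iota (kA A) Bs ∈ B.J)
    (hJ2 : ∀ e ∈ B.J, ∃ z ∈ B.Bt, e = iota (kA A) Bs * z)
    (D : Fermat.Agent.T3.helper22.Ideal3Box (B.calc hA)) :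
    Fermat.Agent.T3.helper22.Ideal3Glue (B.calc hA) :=
  ideal3Glue_of_unit B hA h hReg hJ1 hJ2 D.hres (D.hsurj 0)

/-- **[GLUE]** for `B.J = nuJ B.Bt ν`. -/
theorem ideal3Glue_nuJ {n : ℕ} (B : TorBase N q hq hqN A hζ n) (hA : A.LiesOverPrime q)
    (h : IsUnit0 hq hqN b0 Bs ε) (hReg : B.Reg = regJRing (N * q * q))
    (hJ : B.J = nuJ B.Bt (iota (kA A) Bs))
    (hres : ∀ (f : FF (N * q * q)) (X : Fin 3 → LaurentSeries (kA A)), f ∈ B.Reg →
      Rho3 N q hq hqN A hζ f X → ∀ c, X c ∈ B.Bt)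
    (hsurj0 : ∀ z ∈ B.Bt, ∃ f ∈ B.Reg, ∃ X, Rho3 N q hq hqN A hζ f X ∧ X 0 = z) :
    Fermat.Agent.T3.helper22.Ideal3Glue (B.calc hA) := by
  refine ideal3Glue_of_unit B hA h hReg ?_ ?_ hres hsurj0
  · rw [hJ]
    exact ⟨1, B.Bt.one_mem, (mul_one _).symm⟩
  · intro e he
    rw [hJ] at he
    exact he

/-- **[GLUE]** for `B.J = nuJ B.Bt ν`, from the boxes of `helper22.Ideal3Box`. -/
theorem ideal3Glue_nuJ_of_box {n : ℕ} (B : TorBase N q hq hqN A hζ n)
    (hA : A.LiesOverPrime q) (h : IsUnit0 hq hqN b0 Bs ε)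
    (hReg : B.Reg = regJRing (N * q * q)) (hJ : B.J = nuJ B.Bt (iota (kA A) Bs))
    (D : Fermat.Agent.T3.helper22.Ideal3Box (B.calc hA)) :
    Fermat.Agent.T3.helper22.Ideal3Glue (B.calc hA) :=
  ideal3Glue_nuJ B hA h hReg hJ D.hres (D.hsurj 0)

end Fermat.Agent.T3.helper13

end
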