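import Fermat.Agent.T3.helper14_Gamma0Gen

/-!
# Tier 3, [T3-UNIT] support (helper14): the multipliers of the weight-one eta quotients

Mathlib only.  Functions on `SL(2, ℤ)` with their behaviour under right multiplication by the
generators `T`, `lowU N`, `-1` of `Γ₀(N)` (`N = 4`, `3`), in the form consumed by
`gamma0_four_induction` / `gamma0_three_induction`.

* `chi4 g = χ₋₄(d)` : the multiplier of `η(2τ)^10 / (η(τ)^4 η(4τ)^4)` on `Γ₀(4)`;
* `chi3 g = χ₋₃(d)`, `kap3 g = (c / 3) d mod 3` : the multiplier of `η(τ)^3 / η(3τ)` on `Γ₀(3)` is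
  `χ₋₃(d) ω^(-kap3 g)`; `kap3 = 0` on `Γ₀(9)`.
-/

set_option autoImplicit false

open Matrix ModularGroup CongruenceSubgroup
open scoped MatrixGroups

namespace Fermat.Agent.T3.helper14

/-! ### Entries -/

theorem mul_T_apply_one_zero (g : SL(2, ℤ)) : (g * T) 1 0 = g 1 0 := by
  simpa using mul_T_zpow_apply_one_zero g 1

theorem mul_T_apply_one_one (g : SL(2, ℤ)) : (g * T) 1 1 = g 1 1 + g 1 0 := by
  simpa using mul_T_zpow_apply_one_one g 1

theorem mul_T_inv_apply_one_zero (g : SL(2, ℤ)) : (g * T⁻¹) 1 0 = g 1 0 := by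
  simpa using mul_T_zpow_apply_one_zero g (-1)

theorem mul_T_inv_apply_one_one (g : SL(2, ℤ)) : (g * T⁻¹) 1 1 = g 1 1 - g 1 0 := by
  have := mul_T_zpow_apply_one_one g (-1)
  simp only [_root_.zpow_neg, zpow_one] at this
  rw [this]
  ring

theorem mul_lowU_inv_apply_one_zero (g : SL(2, ℤ)) (n : ℤ) :
    (g * (lowU n)⁻¹) 1 0 = g 1 0 - n * g 1 1 := by
  rw [← lowU_neg, mul_lowU_apply_one_zero]
  ring

theorem mul_lowU_inv_apply_one_one (g : SL(2, ℤ)) (n : ℤ) : (g * (lowU n)⁻¹) 1 1 = g 1 1 := by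
  rw [← lowU_neg, mul_lowU_apply_one_one]

theorem mul_neg_one_apply_one_zero (g : SL(2, ℤ)) : (g * -1) 1 0 = - g 1 0 := by
  simp

theorem mul_neg_one_apply_one_one (g : SL(2, ℤ)) : (g * -1) 1 1 = - g 1 1 := by
  simp

theorem mul_apply_one_zero (g h : SL(2, ℤ)) : (g * h) 1 0 = g 1 0 * h 0 0 + g 1 1 * h 1 0 := by
  rw [Matrix.SpecialLinearGroup.coe_mul]
  simp [Matrix.mul_apply, Fin.sum_univ_two]

theorem mul_apply_one_one (g h : SL(2, ℤ)) : (g * h) 1 1 = g 1 0 * h 0 1 + g 1 1 * h 1 1 := by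
  rw [Matrix.SpecialLinearGroup.coe_mul]
  simp [Matrix.mul_apply, Fin.sum_univ_two]

theorem det_eq (g : SL(2, ℤ)) : g 0 0 * g 1 1 - g 0 1 * g 1 0 = 1 := by
  have h := g.det_coe
  rwa [Matrix.det_fin_two] at h

/-! ### Level `4` -/

/-- `χ₋₄` of the lower right entry -/
def chi4 (g : SL(2, ℤ)) : ℤ := if g 1 1 % 4 = 1 then 1 else -1

theorem odd_of_mem_gamma0_four {g : SL(2, ℤ)} (hg : g ∈ Gamma0 4) :
    g 1 1 % 4 = 1 ∨ g 1 1 % 4 = 3 := by
  rw [gamma0_iff_dvd] at hg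
  obtain ⟨c, hc⟩ := hg
  have h := det_eq g
  rw [hc] at h
  have h2 : (g 0 0 * g 1 1) % 2 = 1 := by
    have : g 0 0 * g 1 1 = 1 + 2 * (2 * (g 0 1 * c)) := by push_cast at h ⊢; linarith
    rw [this]
    omega
  have h3 : g 1 1 % 2 = 1 := by
    rcases Int.emod_two_eq_zero_or_one (g 1 1) with h0 | h1
    · exfalso
      rw [Int.mul_emod, h0] at h2
      simp at h2
    · exact h1
  omega

theorem chi4_one : chi4 1 = 1 := by simp [chi4]

theorem chi4_sq {g : SL(2, ℤ)} : chi4 g * chi4 g = 1 := by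
  unfold chi4
  split_ifs <;> simp

theorem chi4_mul_T {g : SL(2, ℤ)} (hg : g ∈ Gamma0 4) : chi4 (g * T) = chi4 g := by
  have h := (gamma0_iff_dvd 4 g).mp hg
  unfold chi4
  rw [mul_T_apply_one_one]
  have : (g 1 1 + g 1 0) % 4 = g 1 1 % 4 := by
    push_cast at h
    omega
  rw [this]

theorem chi4_mul_T_inv {g : SL(2, ℤ)} (hg : g ∈ Gamma0 4) : chi4 (g * T⁻¹) = chi4 g := by
  have h := (gamma0_iff_dvd 4 g).mp hg
  unfold chi4
  rw [mul_T_inv_apply_one_one]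
  have : (g 1 1 - g 1 0) % 4 = g 1 1 % 4 := by
    push_cast at h
    omega
  rw [this]

theorem chi4_mul_lowU (g : SL(2, ℤ)) (n : ℤ) : chi4 (g * lowU n) = chi4 g := by
  unfold chi4
  rw [mul_lowU_apply_one_one]

theorem chi4_mul_lowU_inv (g : SL(2, ℤ)) (n : ℤ) : chi4 (g * (lowU n)⁻¹) = chi4 g := by
  unfold chi4
  rw [mul_lowU_inv_apply_one_one]

theorem chi4_mul_neg_one {g : SL(2, ℤ)} (hg : g ∈ Gamma0 4) : chi4 (g * -1) = - chi4 g := by
  have h := odd_of_mem_gamma0_four hg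
  unfold chi4
  rw [mul_neg_one_apply_one_one]
  rcases h with h | h
  · rw [if_neg (by omega), if_pos h]
  · rw [if_pos (by omega), if_neg (by omega)]
    simp

/-- `chi4` is multiplicative on `Γ₀(4)` -/
theorem chi4_mul {g h : SL(2, ℤ)} (hg : g ∈ Gamma0 4) (hh : h ∈ Gamma0 4) :
    chi4 (g * h) = chi4 g * chi4 h := by
  have h1 := odd_of_mem_gamma0_four hg
  have h2 := odd_of_mem_gamma0_four hh
  obtain ⟨c, hc⟩ := (gamma0_iff_dvd 4 g).mp hg
  unfold chi4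
  rw [mul_apply_one_one, hc]
  have e : ((4 : ℕ) * c * h 0 1 + g 1 1 * h 1 1) % 4 = ((g 1 1 % 4) * (h 1 1 % 4)) % 4 := by
    rw [← Int.mul_emod]
    push_cast
    rw [mul_assoc, Int.add_comm, Int.add_mul_emod_self_left]
  rw [e]
  rcases h1 with h1 | h1 <;> rcases h2 with h2 | h2 <;> rw [h1, h2] <;> norm_num

/-- two elements of `Γ₀(4)` with the same lower right entry modulo `4` have the same `chi4` -/
theorem chi4_congr {g h : SL(2, ℤ)} (e : g 1 1 % 4 = h 1 1 % 4) : chi4 g = chi4 h := by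
  unfold chi4
  rw [e]

/-! ### Level `3` -/

/-- `χ₋₃` of the lower right entry -/
def chi3 (g : SL(2, ℤ)) : ℤ := if g 1 1 % 3 = 1 then 1 else -1

/-- `(c / 3) d` modulo `3` -/
def kap3 (g : SL(2, ℤ)) : ZMod 3 := ((g 1 0 / 3 * g 1 1 : ℤ) : ZMod 3)

theorem unit_of_mem_gamma0_three {g : SL(2, ℤ)} (hg : g ∈ Gamma0 3) :
    g 1 1 % 3 = 1 ∨ g 1 1 % 3 = 2 := by
  rw [gamma0_iff_dvd] at hg
  obtain ⟨c, hc⟩ := hg
  have h := det_eq g
  rw [hc] at h
  have h2 : (g 0 0 * g 1 1) % 3 = 1 := by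
    have : g 0 0 * g 1 1 = 1 + 3 * (g 0 1 * c) := by push_cast at h ⊢; linarith
    rw [this]
    omega
  have h3 : g 1 1 % 3 ≠ 0 := by
    intro h0
    rw [Int.mul_emod, h0] at h2
    simp at h2
  omega

theorem chi3_one : chi3 1 = 1 := by simp [chi3]

theorem chi3_sq {g : SL(2, ℤ)} : chi3 g * chi3 g = 1 := by
  unfold chi3
  split_ifs <;> simp

theorem chi3_mul_T {g : SL(2, ℤ)} (hg : g ∈ Gamma0 3) : chi3 (g * T) = chi3 g := by
  have h := (gamma0_iff_dvd 3 g).mp hg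
  unfold chi3
  rw [mul_T_apply_one_one]
  have : (g 1 1 + g 1 0) % 3 = g 1 1 % 3 := by
    push_cast at h
    omega
  rw [this]

theorem chi3_mul_T_inv {g : SL(2, ℤ)} (hg : g ∈ Gamma0 3) : chi3 (g * T⁻¹) = chi3 g := by
  have h := (gamma0_iff_dvd 3 g).mp hg
  unfold chi3
  rw [mul_T_inv_apply_one_one]
  have : (g 1 1 - g 1 0) % 3 = g 1 1 % 3 := by
    push_cast at h
    omega
  rw [this]

theorem chi3_mul_lowU (g : SL(2, ℤ)) (n : ℤ) : chi3 (g * lowU n) = chi3 g := by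
  unfold chi3
  rw [mul_lowU_apply_one_one]

theorem chi3_mul_lowU_inv (g : SL(2, ℤ)) (n : ℤ) : chi3 (g * (lowU n)⁻¹) = chi3 g := by
  unfold chi3
  rw [mul_lowU_inv_apply_one_one]

theorem chi3_mul_neg_one {g : SL(2, ℤ)} (hg : g ∈ Gamma0 3) : chi3 (g * -1) = - chi3 g := by
  have h := unit_of_mem_gamma0_three hg
  unfold chi3
  rw [mul_neg_one_apply_one_one]
  rcases h with h | h
  · rw [if_neg (by omega), if_pos h]
  · rw [if_pos (by omega), if_neg (by omega)]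
    simp

theorem chi3_mul {g h : SL(2, ℤ)} (hg : g ∈ Gamma0 3) (hh : h ∈ Gamma0 3) :
    chi3 (g * h) = chi3 g * chi3 h := by
  have h1 := unit_of_mem_gamma0_three hg
  have h2 := unit_of_mem_gamma0_three hh
  obtain ⟨c, hc⟩ := (gamma0_iff_dvd 3 g).mp hg
  unfold chi3
  rw [mul_apply_one_one, hc]
  have e : ((3 : ℕ) * c * h 0 1 + g 1 1 * h 1 1) % 3 = ((g 1 1 % 3) * (h 1 1 % 3)) % 3 := by
    rw [← Int.mul_emod]
    push_cast
    rw [mul_assoc, Int.add_comm, Int.add_mul_emod_self_left]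
  rw [e]
  rcases h1 with h1 | h1 <;> rcases h2 with h2 | h2 <;> rw [h1, h2] <;> norm_num

theorem chi3_congr {g h : SL(2, ℤ)} (e : g 1 1 % 3 = h 1 1 % 3) : chi3 g = chi3 h := by
  unfold chi3
  rw [e]

theorem kap3_one : kap3 1 = 0 := by simp [kap3]

/-- `d² ≡ 1` modulo `3` -/
theorem sq_cast_eq_one {g : SL(2, ℤ)} (hg : g ∈ Gamma0 3) :
    ((g 1 1 : ℤ) : ZMod 3) * ((g 1 1 : ℤ) : ZMod 3) = 1 := by
  have h := unit_of_mem_gamma0_three hg
  have e : ((g 1 1 : ℤ) : ZMod 3) = ((g 1 1 % 3 : ℤ) : ZMod 3) := by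
    have := ZMod.intCast_mod (g 1 1) 3
    push_cast at this
    exact this.symm
  rw [e]
  rcases h with h | h <;> rw [h] <;> decide

theorem kap3_mul_T {g : SL(2, ℤ)} (hg : g ∈ Gamma0 3) : kap3 (g * T) = kap3 g := by
  obtain ⟨c, hc⟩ := (gamma0_iff_dvd 3 g).mp hg
  unfold kap3
  rw [mul_T_apply_one_one, mul_T_apply_one_zero, hc]
  have : ((3 : ℕ) : ℤ) * c / 3 = c := by
    push_cast
    exact Int.mul_ediv_cancel_left c (by norm_num)
  rw [this]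
  push_cast
  have h3 : (3 : ZMod 3) = 0 := by decide
  rw [h3]
  ring

theorem kap3_mul_T_inv {g : SL(2, ℤ)} (hg : g ∈ Gamma0 3) : kap3 (g * T⁻¹) = kap3 g := by
  obtain ⟨c, hc⟩ := (gamma0_iff_dvd 3 g).mp hg
  unfold kap3
  rw [mul_T_inv_apply_one_one, mul_T_inv_apply_one_zero, hc]
  have : ((3 : ℕ) : ℤ) * c / 3 = c := by
    push_cast
    exact Int.mul_ediv_cancel_left c (by norm_num)
  rw [this]
  push_cast
  have h3 : (3 : ZMod 3) = 0 := by decide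
  rw [h3]
  ring

theorem kap3_mul_lowU {g : SL(2, ℤ)} (hg : g ∈ Gamma0 3) :
    kap3 (g * lowU 3) = kap3 g + 1 := by
  obtain ⟨c, hc⟩ := (gamma0_iff_dvd 3 g).mp hg
  have hsq := sq_cast_eq_one hg
  unfold kap3
  rw [mul_lowU_apply_one_one, mul_lowU_apply_one_zero, hc]
  have e1 : ((3 : ℕ) : ℤ) * c / 3 = c := by
    push_cast
    exact Int.mul_ediv_cancel_left c (by norm_num)
  have e2 : (((3 : ℕ) : ℤ) * c + 3 * g 1 1) / 3 = c + g 1 1 := by
    have : ((3 : ℕ) : ℤ) * c + 3 * g 1 1 = 3 * (c + g 1 1) := by push_cast; ring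
    rw [this]
    exact Int.mul_ediv_cancel_left _ (by norm_num)
  rw [e1, e2]
  push_cast
  rw [add_mul, hsq]

theorem kap3_mul_lowU_inv {g : SL(2, ℤ)} (hg : g ∈ Gamma0 3) :
    kap3 (g * (lowU 3)⁻¹) = kap3 g - 1 := by
  obtain ⟨c, hc⟩ := (gamma0_iff_dvd 3 g).mp hg
  have hsq := sq_cast_eq_one hg
  unfold kap3
  rw [mul_lowU_inv_apply_one_one, mul_lowU_inv_apply_one_zero, hc]
  have e1 : ((3 : ℕ) : ℤ) * c / 3 = c := by
    push_cast
    exact Int.mul_ediv_cancel_left c (by norm_num)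
  have e2 : (((3 : ℕ) : ℤ) * c - 3 * g 1 1) / 3 = c - g 1 1 := by
    have : ((3 : ℕ) : ℤ) * c - 3 * g 1 1 = 3 * (c - g 1 1) := by push_cast; ring
    rw [this]
    exact Int.mul_ediv_cancel_left _ (by norm_num)
  rw [e1, e2]
  push_cast
  rw [sub_mul, hsq]

theorem kap3_mul_neg_one (g : SL(2, ℤ)) (hg : g ∈ Gamma0 3) : kap3 (g * -1) = kap3 g := by
  obtain ⟨c, hc⟩ := (gamma0_iff_dvd 3 g).mp hg
  unfold kap3
  rw [mul_neg_one_apply_one_one, mul_neg_one_apply_one_zero, hc]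
  have e1 : ((3 : ℕ) : ℤ) * c / 3 = c := by
    push_cast
    exact Int.mul_ediv_cancel_left c (by norm_num)
  have e2 : (-(((3 : ℕ) : ℤ) * c)) / 3 = -c := by
    have : -(((3 : ℕ) : ℤ) * c) = 3 * (-c) := by push_cast; ring
    rw [this]
    exact Int.mul_ediv_cancel_left _ (by norm_num)
  rw [e1, e2]
  push_cast
  ring

/-- `kap3` vanishes on `Γ₀(9)` -/
theorem kap3_eq_zero_of_mem_gamma0_nine {g : SL(2, ℤ)} (hg : g ∈ Gamma0 9) : kap3 g = 0 := by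
  obtain ⟨c, hc⟩ := (gamma0_iff_dvd 9 g).mp hg
  unfold kap3
  rw [hc]
  have e1 : ((9 : ℕ) : ℤ) * c / 3 = 3 * c := by
    have : ((9 : ℕ) : ℤ) * c = 3 * (3 * c) := by push_cast; ring
    rw [this]
    exact Int.mul_ediv_cancel_left _ (by norm_num)
  rw [e1]
  push_cast
  have h3 : (3 : ZMod 3) = 0 := by decide
  rw [h3]
  ring

theorem gamma0_nine_le_three : Gamma0 9 ≤ Gamma0 3 := by
  intro g hg
  rw [gamma0_iff_dvd] at hg ⊢
  exact Dvd.dvd.trans (by norm_num) hg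

/-- `kap3` is additive on `Γ₀(3)` -/
theorem kap3_mul {g h : SL(2, ℤ)} (hg : g ∈ Gamma0 3) (hh : h ∈ Gamma0 3) :
    kap3 (g * h) = kap3 g + kap3 h := by
  obtain ⟨c, hc⟩ := (gamma0_iff_dvd 3 g).mp hg
  obtain ⟨c', hc'⟩ := (gamma0_iff_dvd 3 h).mp hh
  have hsq := sq_cast_eq_one hg
  have hdet := det_eq h
  unfold kap3
  rw [mul_apply_one_zero, mul_apply_one_one, hc, hc']
  have e1 : ((3 : ℕ) : ℤ) * c / 3 = c := by
    push_cast
    exact Int.mul_ediv_cancel_left c (by norm_num)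
  have e1' : ((3 : ℕ) : ℤ) * c' / 3 = c' := by
    push_cast
    exact Int.mul_ediv_cancel_left c' (by norm_num)
  have e2 : (((3 : ℕ) : ℤ) * c * h 0 0 + g 1 1 * (((3 : ℕ) : ℤ) * c')) / 3
      = c * h 0 0 + g 1 1 * c' := by
    have : ((3 : ℕ) : ℤ) * c * h 0 0 + g 1 1 * (((3 : ℕ) : ℤ) * c')
        = 3 * (c * h 0 0 + g 1 1 * c') := by push_cast; ring
    rw [this]
    exact Int.mul_ediv_cancel_left _ (by norm_num)
  rw [e1, e1', e2]
  have had : ((h 0 0 : ℤ) : ZMod 3) * ((h 1 1 : ℤ) : ZMod 3) = 1 := by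
    rw [hc'] at hdet
    have : h 0 0 * h 1 1 = 1 + 3 * (h 0 1 * c') := by push_cast at hdet ⊢; linarith
    have h' : ((h 0 0 * h 1 1 : ℤ) : ZMod 3) = ((1 + 3 * (h 0 1 * c') : ℤ) : ZMod 3) := by
      rw [this]
    push_cast at h'
    have h3 : (3 : ZMod 3) = 0 := by decide
    rw [h3, zero_mul, add_zero] at h'
    exact h'
  push_cast
  have h3 : (3 : ZMod 3) = 0 := by decide
  rw [h3]
  have : (↑c * ↑(h 0 0) + ↑(g 1 1) * ↑c') * ((0 : ZMod 3) * ↑c * ↑(h 0 1) + ↑(g 1 1) * ↑(h 1 1))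
      = (c : ZMod 3) * ((g 1 1 : ℤ) : ZMod 3) * (((h 0 0 : ℤ) : ZMod 3) * ((h 1 1 : ℤ) : ZMod 3))
        + (c' : ZMod 3) * ((h 1 1 : ℤ) : ZMod 3) *
          (((g 1 1 : ℤ) : ZMod 3) * ((g 1 1 : ℤ) : ZMod 3)) := by
    ring
  rw [this, had, hsq]
  ring

end Fermat.Agent.T3.helper14
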