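import Mathlib

/-!
# Tier 3, [T3-UNIT] support (helper14): generators of `Γ₀(4)` and `Γ₀(3)`

Mathlib only.

* `lowU n` : the lower unipotent matrix `(1 0; n 1)`;
* `gamma0_four_le_closure` : `Γ₀(4) ≤ ⟨T, (1 0; 4 1), -1⟩`;
* `gamma0_three_le_closure` : `Γ₀(3) ≤ ⟨T, (1 0; 3 1), -1⟩`;
* `gamma0_four_induction`, `gamma0_three_induction` : the induction principles
  (right multiplication by the generators and their inverses);
* `gamma0_induction_of_step` : the abstract Euclidean descent behind both.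
-/

set_option autoImplicit false

open Matrix ModularGroup CongruenceSubgroup
open scoped MatrixGroups

namespace Fermat.Agent.T3.helper14

/-- the lower unipotent matrix `(1 0; n 1)` -/
def lowU (n : ℤ) : SL(2, ℤ) := ⟨!![1, 0; n, 1], by simp [Matrix.det_fin_two]⟩

@[simp] theorem coe_lowU (n : ℤ) : (lowU n : Matrix (Fin 2) (Fin 2) ℤ) = !![1, 0; n, 1] := rfl

theorem lowU_zero : lowU 0 = 1 := by
  ext i j
  fin_cases i <;> fin_cases j <;> simp [lowU]

theorem lowU_add (m n : ℤ) : lowU (m + n) = lowU m * lowU n := by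
  apply Subtype.ext
  rw [Matrix.SpecialLinearGroup.coe_mul]
  simp only [coe_lowU, Matrix.mul_fin_two]
  congr 1
  simp [add_comm]

theorem lowU_neg (n : ℤ) : lowU (-n) = (lowU n)⁻¹ := by
  rw [eq_inv_iff_mul_eq_one, ← lowU_add, neg_add_cancel, lowU_zero]

theorem lowU_nat_mul (N : ℤ) (m : ℕ) : lowU (m * N) = lowU N ^ m := by
  induction m with
  | zero => simp [lowU_zero]
  | succ m ih =>
    rw [pow_succ, ← ih, ← lowU_add]
    congr 1
    push_cast
    ring

theorem lowU_int_mul (N m : ℤ) : lowU (m * N) = lowU N ^ m := by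
  rcases Int.eq_nat_or_neg m with ⟨k, rfl | rfl⟩
  · rw [zpow_natCast, lowU_nat_mul]
  · rw [_root_.zpow_neg, zpow_natCast, ← lowU_nat_mul, ← lowU_neg]
    congr 1
    ring

/-- balanced division: for `c ≠ 0` there is `k` with `2 |d + k c| ≤ |c|` -/
theorem exists_balanced (d c : ℤ) (hc : c ≠ 0) : ∃ k : ℤ, 2 * |d + k * c| ≤ |c| := by
  have h1 := Int.emod_nonneg d hc
  have h2 := Int.emod_lt_abs d hc
  have h3 := Int.emod_add_mul_ediv d c
  by_cases h : 2 * (d % c) ≤ |c|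
  · refine ⟨-(d / c), ?_⟩
    have : d + -(d / c) * c = d % c := by linarith
    rw [this, abs_of_nonneg h1]
    exact h
  · rcases abs_cases c with ⟨hc1, hc2⟩ | ⟨hc1, hc2⟩
    · refine ⟨-(d / c) - 1, ?_⟩
      have : d + (-(d / c) - 1) * c = d % c - c := by linarith
      rw [this, abs_of_nonpos (by omega)]
      omega
    · refine ⟨-(d / c) + 1, ?_⟩
      have : d + (-(d / c) + 1) * c = d % c + c := by linarith
      rw [this, abs_of_nonpos (by omega)]
      omega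

/-! ### Entries of products -/

theorem mul_T_zpow_apply_one_zero (g : SL(2, ℤ)) (k : ℤ) : (g * T ^ k) 1 0 = g 1 0 := by
  rw [Matrix.SpecialLinearGroup.coe_mul, coe_T_zpow]
  simp [Matrix.mul_apply, Fin.sum_univ_two]

theorem mul_T_zpow_apply_one_one (g : SL(2, ℤ)) (k : ℤ) :
    (g * T ^ k) 1 1 = g 1 1 + k * g 1 0 := by
  rw [Matrix.SpecialLinearGroup.coe_mul, coe_T_zpow]
  simp [Matrix.mul_apply, Fin.sum_univ_two]
  ring

theorem mul_lowU_apply_one_zero (g : SL(2, ℤ)) (n : ℤ) :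
    (g * lowU n) 1 0 = g 1 0 + n * g 1 1 := by
  rw [Matrix.SpecialLinearGroup.coe_mul, coe_lowU]
  simp [Matrix.mul_apply, Fin.sum_univ_two]
  ring

theorem mul_lowU_apply_one_one (g : SL(2, ℤ)) (n : ℤ) : (g * lowU n) 1 1 = g 1 1 := by
  rw [Matrix.SpecialLinearGroup.coe_mul, coe_lowU]
  simp [Matrix.mul_apply, Fin.sum_univ_two]

theorem isCoprime_row (g : SL(2, ℤ)) : IsCoprime (g 1 0) (g 1 1) := by
  have h := g.det_coe
  rw [Matrix.det_fin_two] at h
  exact ⟨-(g 0 1), g 0 0, by linarith⟩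

/-- an element with lower left entry `0` is `± T ^ b` -/
theorem mem_closure_of_apply_eq_zero (s : Set SL(2, ℤ)) (hT : T ∈ s) (hneg : (-1 : SL(2, ℤ)) ∈ s)
    (g : SL(2, ℤ)) (hc : g 1 0 = 0) : g ∈ Subgroup.closure s := by
  have h := g.det_coe
  rw [Matrix.det_fin_two, hc, mul_zero, sub_zero] at h
  have hTm : ∀ k : ℤ, T ^ k ∈ Subgroup.closure s := fun k =>
    Subgroup.zpow_mem _ (Subgroup.subset_closure hT) k
  rcases Int.eq_one_or_neg_one_of_mul_eq_one' h with ⟨ha, hd⟩ | ⟨ha, hd⟩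
  · have : g = T ^ (g 0 1) := by
      apply Subtype.ext
      rw [coe_T_zpow]
      ext i j
      fin_cases i <;> fin_cases j <;> simp [ha, hd, hc]
    rw [this]
    exact hTm _
  · have : g = -1 * T ^ (-(g 0 1)) := by
      apply Subtype.ext
      rw [Matrix.SpecialLinearGroup.coe_mul, coe_T_zpow]
      ext i j
      fin_cases i <;> fin_cases j <;> simp [ha, hd, hc]
    rw [this]
    exact Subgroup.mul_mem _ (Subgroup.subset_closure hneg) (hTm _)

/-- **Abstract Euclidean descent** for `Γ₀(N)`: if one balanced step in `d` followed by one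
balanced step in `c` strictly decreases `|c|`, then `Γ₀(N)` is generated by `T`, `(1 0; N 1)`
and `-1`. -/
theorem mem_closure_of_step (N : ℤ) (hN : 2 ≤ N)
    (hstrict : ∀ c d : ℤ, N ∣ c → c ≠ 0 → IsCoprime c d → 2 * |d| ≤ |c| →
      ∀ c' : ℤ, N ∣ c' → 2 * |c'| ≤ N * |d| → |c'| < |c|)
    (g : SL(2, ℤ)) (hg : N ∣ g 1 0) :
    g ∈ Subgroup.closure ({T, lowU N, -1} : Set SL(2, ℤ)) := by
  set s : Set SL(2, ℤ) := {T, lowU N, -1} with hs
  have hTs : T ∈ s := by simp [hs]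
  have hUs : lowU N ∈ s := by simp [hs]
  have hns : (-1 : SL(2, ℤ)) ∈ s := by simp [hs]
  induction hn : (g 1 0).natAbs using Nat.strong_induction_on generalizing g with
  | _ n ih =>
    by_cases hc : g 1 0 = 0
    · exact mem_closure_of_apply_eq_zero s hTs hns g hc
    · obtain ⟨k, hk⟩ := exists_balanced (g 1 1) (g 1 0) hc
      set g₁ := g * T ^ k with hg₁
      have h10 : g₁ 1 0 = g 1 0 := mul_T_zpow_apply_one_zero g k
      have h11 : g₁ 1 1 = g 1 1 + k * g 1 0 := mul_T_zpow_apply_one_one g k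
      have hcop : IsCoprime (g₁ 1 0) (g₁ 1 1) := isCoprime_row g₁
      have hd0 : g₁ 1 1 ≠ 0 := by
        intro h0
        rw [h0, isCoprime_zero_right, h10] at hcop
        have h1 : IsUnit N := isUnit_of_dvd_unit hg hcop
        rcases Int.isUnit_iff.mp h1 with h | h <;> omega
      have hNd : N * g₁ 1 1 ≠ 0 := mul_ne_zero (by omega) hd0
      obtain ⟨m, hm⟩ := exists_balanced (g₁ 1 0) (N * g₁ 1 1) hNd
      set g₂ := g₁ * lowU (m * N) with hg₂
      have h20 : g₂ 1 0 = g₁ 1 0 + m * (N * g₁ 1 1) := by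
        rw [hg₂, mul_lowU_apply_one_zero]
        ring
      have hdvd : N ∣ g₂ 1 0 := by
        rw [h20, h10]
        exact dvd_add hg (Dvd.intro_left _ (by ring : (m * g₁ 1 1) * N = m * (N * g₁ 1 1)))
      have hlt : |g₂ 1 0| < |g 1 0| := by
        refine hstrict (g 1 0) (g₁ 1 1) hg hc (h10 ▸ hcop) ?_ (g₂ 1 0) hdvd ?_
        · rw [h11]; exact hk
        · rw [h20]
          have : |N * g₁ 1 1| = N * |g₁ 1 1| := by
            rw [abs_mul, abs_of_nonneg (by omega : (0 : ℤ) ≤ N)]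
          rw [← this]
          exact hm
      have hmem : g₂ ∈ Subgroup.closure s := by
        refine ih (g₂ 1 0).natAbs ?_ g₂ hdvd rfl
        rw [← hn]
        zify
        exact hlt
      have hU : lowU (m * N) ∈ Subgroup.closure s := by
        rw [lowU_int_mul]
        exact Subgroup.zpow_mem _ (Subgroup.subset_closure hUs) m
      have hT : T ^ k ∈ Subgroup.closure s :=
        Subgroup.zpow_mem _ (Subgroup.subset_closure hTs) k
      have e : g = g₂ * (lowU (m * N))⁻¹ * (T ^ k)⁻¹ := by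
        rw [hg₂, hg₁]
        group
      rw [e]
      exact Subgroup.mul_mem _ (Subgroup.mul_mem _ hmem (Subgroup.inv_mem _ hU))
        (Subgroup.inv_mem _ hT)

/-! ### `Γ₀(3)` and `Γ₀(4)` -/

theorem step_three : ∀ c d : ℤ, (3 : ℤ) ∣ c → c ≠ 0 → IsCoprime c d → 2 * |d| ≤ |c| →
    ∀ c' : ℤ, (3 : ℤ) ∣ c' → 2 * |c'| ≤ 3 * |d| → |c'| < |c| := by
  intro c d _ hc _ h1 c' _ h2
  have : 0 < |c| := abs_pos.mpr hc
  linarith

theorem step_four : ∀ c d : ℤ, (4 : ℤ) ∣ c → c ≠ 0 → IsCoprime c d → 2 * |d| ≤ |c| →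
    ∀ c' : ℤ, (4 : ℤ) ∣ c' → 2 * |c'| ≤ 4 * |d| → |c'| < |c| := by
  intro c d hc4 hc hcop h1 c' _ h2
  have hodd : ¬ (2 : ℤ) ∣ d := by
    intro h
    have h2c : (2 : ℤ) ∣ c := Dvd.dvd.trans (by norm_num) hc4
    have := hcop.isUnit_of_dvd' h2c h
    rcases Int.isUnit_iff.mp this with h | h <;> omega
  obtain ⟨c₀, rfl⟩ := hc4
  rcases abs_cases (4 * c₀) with ⟨e1, _⟩ | ⟨e1, _⟩ <;>
  rcases abs_cases d with ⟨e2, _⟩ | ⟨e2, _⟩ <;>
  rcases abs_cases c' with ⟨e3, _⟩ | ⟨e3, _⟩ <;>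
  rw [e1, e2] at h1 <;> rw [e2, e3] at h2 <;> rw [e1, e3] <;> omega

theorem gamma0_iff_dvd (N : ℕ) (g : SL(2, ℤ)) : g ∈ Gamma0 N ↔ (N : ℤ) ∣ g 1 0 := by
  rw [Gamma0_mem]
  exact ZMod.intCast_zmod_eq_zero_iff_dvd (g 1 0) N

theorem lowU_mem_gamma0 (N : ℕ) : lowU N ∈ Gamma0 N := by
  rw [gamma0_iff_dvd]
  simp [lowU]

theorem T_mem_gamma0 (N : ℕ) : T ∈ Gamma0 N := by
  rw [gamma0_iff_dvd]
  simp [coe_T]

theorem neg_one_mem_gamma0 (N : ℕ) : (-1 : SL(2, ℤ)) ∈ Gamma0 N := by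
  rw [gamma0_iff_dvd]
  simp

/-- `Γ₀(3) = ⟨T, (1 0; 3 1), -1⟩` -/
theorem gamma0_three_eq_closure :
    Gamma0 3 = Subgroup.closure ({T, lowU 3, -1} : Set SL(2, ℤ)) := by
  apply le_antisymm
  · intro g hg
    exact mem_closure_of_step 3 (by norm_num) step_three g ((gamma0_iff_dvd 3 g).mp hg)
  · rw [Subgroup.closure_le]
    rintro x (rfl | rfl | rfl)
    · exact T_mem_gamma0 3
    · exact lowU_mem_gamma0 3
    · exact neg_one_mem_gamma0 3

/-- `Γ₀(4) = ⟨T, (1 0; 4 1), -1⟩` -/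
theorem gamma0_four_eq_closure :
    Gamma0 4 = Subgroup.closure ({T, lowU 4, -1} : Set SL(2, ℤ)) := by
  apply le_antisymm
  · intro g hg
    exact mem_closure_of_step 4 (by norm_num) step_four g ((gamma0_iff_dvd 4 g).mp hg)
  · rw [Subgroup.closure_le]
    rintro x (rfl | rfl | rfl)
    · exact T_mem_gamma0 4
    · exact lowU_mem_gamma0 4
    · exact neg_one_mem_gamma0 4

/-- induction principle for a group generated by `T`, `U`, `-1`: right multiplication by the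
generators and their inverses -/
theorem closure_induction_TU {U : SL(2, ℤ)} {P : SL(2, ℤ) → Prop} (one : P 1)
    (mul_T : ∀ g, P g → P (g * T)) (mul_T_inv : ∀ g, P g → P (g * T⁻¹))
    (mul_U : ∀ g, P g → P (g * U)) (mul_U_inv : ∀ g, P g → P (g * U⁻¹))
    (mul_neg : ∀ g, P g → P (g * -1)) {g : SL(2, ℤ)}
    (hg : g ∈ Subgroup.closure ({T, U, -1} : Set SL(2, ℤ))) : P g := by
  induction hg using Subgroup.closure_induction_right with
  | one => exact one
  | mul_right x _ y hy ih =>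
    rcases hy with rfl | rfl | rfl
    · exact mul_T x ih
    · exact mul_U x ih
    · exact mul_neg x ih
  | mul_inv_cancel x _ y hy ih =>
    rcases hy with rfl | rfl | rfl
    · exact mul_T_inv x ih
    · exact mul_U_inv x ih
    · have : (-1 : SL(2, ℤ))⁻¹ = -1 := by
        rw [inv_eq_iff_eq_inv, eq_inv_iff_mul_eq_one]
        simp
      rw [this]
      exact mul_neg x ih

/-- **Induction principle for `Γ₀(4)`** (right multiplication by the generators; the element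
`g` of the induction step is known to lie in `Γ₀(4)`). -/
theorem gamma0_four_induction {P : SL(2, ℤ) → Prop} (one : P 1)
    (mul_T : ∀ g ∈ Gamma0 4, P g → P (g * T)) (mul_T_inv : ∀ g ∈ Gamma0 4, P g → P (g * T⁻¹))
    (mul_U : ∀ g ∈ Gamma0 4, P g → P (g * lowU 4))
    (mul_U_inv : ∀ g ∈ Gamma0 4, P g → P (g * (lowU 4)⁻¹))
    (mul_neg : ∀ g ∈ Gamma0 4, P g → P (g * -1)) {g : SL(2, ℤ)} (hg : g ∈ Gamma0 4) : P g := by
  have hT := T_mem_gamma0 4
  have hU := lowU_mem_gamma0 4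
  have hn := neg_one_mem_gamma0 4
  have key : g ∈ Gamma0 4 ∧ P g := by
    refine closure_induction_TU (U := lowU 4) (P := fun g => g ∈ Gamma0 4 ∧ P g)
      ⟨Subgroup.one_mem _, one⟩ ?_ ?_ ?_ ?_ ?_ (gamma0_four_eq_closure ▸ hg)
    · exact fun g h => ⟨Subgroup.mul_mem _ h.1 hT, mul_T g h.1 h.2⟩
    · exact fun g h => ⟨Subgroup.mul_mem _ h.1 (Subgroup.inv_mem _ hT), mul_T_inv g h.1 h.2⟩
    · exact fun g h => ⟨Subgroup.mul_mem _ h.1 hU, mul_U g h.1 h.2⟩
    · exact fun g h => ⟨Subgroup.mul_mem _ h.1 (Subgroup.inv_mem _ hU), mul_U_inv g h.1 h.2⟩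
    · exact fun g h => ⟨Subgroup.mul_mem _ h.1 hn, mul_neg g h.1 h.2⟩
  exact key.2

/-- **Induction principle for `Γ₀(3)`**. -/
theorem gamma0_three_induction {P : SL(2, ℤ) → Prop} (one : P 1)
    (mul_T : ∀ g ∈ Gamma0 3, P g → P (g * T)) (mul_T_inv : ∀ g ∈ Gamma0 3, P g → P (g * T⁻¹))
    (mul_U : ∀ g ∈ Gamma0 3, P g → P (g * lowU 3))
    (mul_U_inv : ∀ g ∈ Gamma0 3, P g → P (g * (lowU 3)⁻¹))
    (mul_neg : ∀ g ∈ Gamma0 3, P g → P (g * -1)) {g : SL(2, ℤ)} (hg : g ∈ Gamma0 3) : P g := by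
  have hT := T_mem_gamma0 3
  have hU := lowU_mem_gamma0 3
  have hn := neg_one_mem_gamma0 3
  have key : g ∈ Gamma0 3 ∧ P g := by
    refine closure_induction_TU (U := lowU 3) (P := fun g => g ∈ Gamma0 3 ∧ P g)
      ⟨Subgroup.one_mem _, one⟩ ?_ ?_ ?_ ?_ ?_ (gamma0_three_eq_closure ▸ hg)
    · exact fun g h => ⟨Subgroup.mul_mem _ h.1 hT, mul_T g h.1 h.2⟩
    · exact fun g h => ⟨Subgroup.mul_mem _ h.1 (Subgroup.inv_mem _ hT), mul_T_inv g h.1 h.2⟩
    · exact fun g h => ⟨Subgroup.mul_mem _ h.1 hU, mul_U g h.1 h.2⟩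
    · exact fun g h => ⟨Subgroup.mul_mem _ h.1 (Subgroup.inv_mem _ hU), mul_U_inv g h.1 h.2⟩
    · exact fun g h => ⟨Subgroup.mul_mem _ h.1 hn, mul_neg g h.1 h.2⟩
  exact key.2

end Fermat.Agent.T3.helper14
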