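import Fermat.Agent.T3.helper55_UnitMDiff
import Fermat.Agent.S23.helper35_EtaGrowth
import Fermat.Agent.P3.helper48_AN1Ratio

/-!
# T3 / [UNIT-GROW] (helper55, second prover): growth of `lam4`, `lam9` at all cusps

For every `g ∈ SL(2, ℤ)` the functions `lam ∣[1] g` and `(1 / lam) ∣[-1] g` have at most
exponential growth at `i∞` (`lam = lam4, lam9` of `helper16_UnitDefs`): this is the field
`growth` of `helper16.IsWtOneUnit`, verbatim.

Route: the 24-th power is a quotient of products of the functions `Δ(N z) ∣[12] g`, and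
`Δ(N z) ∣[12] g = D⁻¹² Δ((A z + B) / D)` (Hermite form, S23 `helper35.DeltaN_slash`) lies in
`holoExp` together with its inverse.
-/

set_option autoImplicit false

noncomputable section

open UpperHalfPlane ModularForm Filter Asymptotics CongruenceSubgroup
open scoped MatrixGroups ModularForm Manifold Topology

namespace Fermat.Agent.T3.helper55

open Fermat.Agent.S23.helper35 Fermat.Agent.S24.helper77

local notation "Δ" => ModularForm.discriminant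

/-! ### `Δ ∘ ut` and its inverse -/

theorem mdiff_discriminant_comp_ut {A D : ℕ} {B : ℤ} (hA : 0 < A) (hD : 0 < D) :
    MDiff (fun z : ℍ => Δ (ut A D B hA hD • z)) := by
  have hΔ : MDiff (Δ : ℍ → ℂ) := CuspForm.discriminant.holo'
  exact hΔ.comp (UpperHalfPlane.mdifferentiable_smul (det_ut_pos hA hD))

theorem discriminant_comp_ut_mem {A D : ℕ} {B : ℤ} (hA : 0 < A) (hD : 0 < D) :
    (fun z : ℍ => Δ (ut A D B hA hD • z)) ∈ holoExp := by
  refine ⟨mdiff_discriminant_comp_ut hA hD, 0, ?_⟩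
  have h := discriminant_isBigO_exp.comp_tendsto
    (tendsto_smul_atImInfty (ut_apply_one_zero (B := B) hA hD))
  refine (h.trans ?_)
  refine IsBigO.of_bound 1 (Eventually.of_forall fun z => ?_)
  simp only [Function.comp_apply, Nat.cast_zero, mul_zero, zero_mul, Real.exp_zero, norm_one,
    mul_one]
  rw [Real.norm_of_nonneg (Real.exp_pos _).le]
  apply Real.exp_le_one_iff.mpr
  have := (ut A D B hA hD • z).im_pos
  have hpi := Real.pi_pos
  nlinarith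

theorem inv_discriminant_comp_ut_mem {A D : ℕ} {B : ℤ} (hA : 0 < A) (hD : 0 < D) :
    (fun z : ℍ => (Δ (ut A D B hA hD • z))⁻¹) ∈ holoExp := by
  refine ⟨?_, A, ?_⟩
  · have h1 := mdiff_discriminant_comp_ut (B := B) hA hD
    have := (mdifferentiable_const (c := (1 : ℂ))).div h1 (fun z => discriminant_ne_zero _)
    have e : (fun z : ℍ => (Δ (ut A D B hA hD • z))⁻¹) =
        (fun _ : ℍ => (1 : ℂ)) / (fun z : ℍ => Δ (ut A D B hA hD • z)) := by
      funext τ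
      simp
    rw [e]
    exact this
  · have h2 : (fun z : ℍ => (Δ (ut A D B hA hD • z))⁻¹) =O[atImInfty]
        fun z : ℍ => (Real.exp (-2 * Real.pi * ((A : ℝ) / D * z.im)))⁻¹ :=
      (exp_isBigO_discriminant_comp_ut (B := B) hA hD).inv_rev
        (Eventually.of_forall fun z hz => absurd hz (Real.exp_pos _).ne')
    refine h2.trans ?_
    refine IsBigO.of_bound 1 (Eventually.of_forall fun z => ?_)
    rw [← Real.exp_neg, Real.norm_of_nonneg (Real.exp_pos _).le,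
      Real.norm_of_nonneg (Real.exp_pos _).le, one_mul]
    apply Real.exp_le_exp.mpr
    have hz := z.im_pos
    have hpi := Real.pi_pos
    have hD1 : (1 : ℝ) ≤ D := by exact_mod_cast hD
    have hA0 : (0 : ℝ) ≤ A := by positivity
    have h1 : (A : ℝ) / D ≤ A := div_le_self hA0 hD1
    have h3 : (A : ℝ) / D * z.im ≤ A * z.im := mul_le_mul_of_nonneg_right h1 hz.le
    nlinarith

/-! ### `Δ(N z) ∣[12] g` and its inverse -/

theorem DeltaN_slash_SL (N : ℕ) (hN : 0 < N) (g : SL(2, ℤ)) :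
    ∃ (A D : ℕ) (B : ℤ) (hA : 0 < A) (hD : 0 < D),
      ((DeltaN N hN) ∣[(12 : ℤ)] g) =
        fun z : ℍ => Δ (ut A D B hA hD • z) * ((D : ℂ) ^ (12 : ℕ))⁻¹ := by
  obtain ⟨δ, A, D, B, hA, hD, hAD, -, h⟩ := hermite_GL N hN g
  refine ⟨A, D, B, hA, hD, ?_⟩
  funext z
  rw [SL_slash]
  exact DeltaN_slash N hN g δ hA hD hAD h z

theorem DeltaN_slash_mem (N : ℕ) (hN : 0 < N) (g : SL(2, ℤ)) :
    ((DeltaN N hN) ∣[(12 : ℤ)] g) ∈ holoExp := by
  obtain ⟨A, D, B, hA, hD, h⟩ := DeltaN_slash_SL N hN g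
  rw [h]
  have h1 := discriminant_comp_ut_mem (B := B) hA hD
  have h2 : (fun z : ℍ => Δ (ut A D B hA hD • z) * ((D : ℂ) ^ (12 : ℕ))⁻¹) =
      ((D : ℂ) ^ (12 : ℕ))⁻¹ • (fun z : ℍ => Δ (ut A D B hA hD • z)) := by
    funext z
    simp only [Pi.smul_apply, smul_eq_mul]
    ring
  rw [h2]
  exact holoExp.smul_mem h1 _

theorem inv_DeltaN_slash_mem (N : ℕ) (hN : 0 < N) (g : SL(2, ℤ)) :
    (fun z : ℍ => (((DeltaN N hN) ∣[(12 : ℤ)] g) z)⁻¹) ∈ holoExp := by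
  obtain ⟨A, D, B, hA, hD, h⟩ := DeltaN_slash_SL N hN g
  rw [h]
  have h1 := inv_discriminant_comp_ut_mem (B := B) hA hD
  have h2 : (fun z : ℍ => (Δ (ut A D B hA hD • z) * ((D : ℂ) ^ (12 : ℕ))⁻¹)⁻¹) =
      ((D : ℂ) ^ (12 : ℕ)) • (fun z : ℍ => (Δ (ut A D B hA hD • z))⁻¹) := by
    funext z
    simp only [Pi.smul_apply, smul_eq_mul, mul_inv, inv_inv]
    ring
  rw [h2]
  exact holoExp.smul_mem h1 _

theorem DeltaN_slash_ne_zero (N : ℕ) (hN : 0 < N) (g : SL(2, ℤ)) (z : ℍ) :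
    ((DeltaN N hN) ∣[(12 : ℤ)] g) z ≠ 0 := by
  rw [SL_slash_apply]
  exact mul_ne_zero (DeltaN_ne_zero N hN _) (zpow_ne_zero _ (denom_ne_zero _ _))

/-- `Δ(N z) = η(N z)²⁴`. -/
theorem DeltaN_eq_eta (N : ℕ) (hN : 0 < N) (z : ℍ) :
    DeltaN N hN z = ModularForm.eta ((N : ℂ) * (z : ℂ)) ^ 24 := by
  have h : ((ut N 1 0 hN one_pos • z : ℍ) : ℂ) = (N : ℂ) * (z : ℂ) := by
    rw [coe_ut_smul]
    simp
  rw [DeltaN, ModularForm.discriminant, h]

/-! ### The two forms -/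

theorem lam4_pow (z : ℍ) : Fermat.Agent.T3.helper16.lam4 z ^ 24 =
    DeltaN 2 two_pos z ^ 10 / (DeltaN 1 one_pos z ^ 4 * DeltaN 4 four_pos z ^ 4) := by
  rw [DeltaN_eq_eta, DeltaN_eq_eta, DeltaN_eq_eta, Fermat.Agent.T3.helper16.lam4]
  simp only [Nat.cast_ofNat, Nat.cast_one, one_mul]
  rw [div_pow, mul_pow]
  ring

theorem lam9_pow (z : ℍ) : Fermat.Agent.T3.helper16.lam9 z ^ 24 =
    DeltaN 1 one_pos z ^ 3 / DeltaN 3 three_pos z := by
  rw [DeltaN_eq_eta, DeltaN_eq_eta, Fermat.Agent.T3.helper16.lam9]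
  simp only [Nat.cast_ofNat, Nat.cast_one, one_mul]
  rw [div_pow]
  ring

theorem lam4_slash_pow (g : SL(2, ℤ)) :
    (Fermat.Agent.T3.helper16.lam4 ∣[(1 : ℤ)] g) ^ 24 =
      ((DeltaN 2 two_pos) ∣[(12 : ℤ)] g) ^ 10 *
        ((fun z : ℍ => (((DeltaN 1 one_pos) ∣[(12 : ℤ)] g) z)⁻¹) ^ 4 *
          (fun z : ℍ => (((DeltaN 4 four_pos) ∣[(12 : ℤ)] g) z)⁻¹) ^ 4) := by
  funext z
  simp only [Pi.pow_apply, Pi.mul_apply, SL_slash_apply]
  have hd : denom g z ≠ 0 := denom_ne_zero _ _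
  have h1 := DeltaN_ne_zero 1 one_pos (g • z)
  have h4 := DeltaN_ne_zero 4 four_pos (g • z)
  rw [mul_pow, lam4_pow]
  rw [show (-(1 : ℤ)) = -((1 : ℕ) : ℤ) by norm_num, show (-(12 : ℤ)) = -((12 : ℕ) : ℤ) by norm_num,
    zpow_neg, zpow_neg, zpow_natCast, zpow_natCast]
  field_simp

theorem lam4_inv_slash_pow (g : SL(2, ℤ)) :
    ((fun z : ℍ => (Fermat.Agent.T3.helper16.lam4 z)⁻¹) ∣[(-1 : ℤ)] g) ^ 24 =
      (fun z : ℍ => (((DeltaN 2 two_pos) ∣[(12 : ℤ)] g) z)⁻¹) ^ 10 *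
        (((DeltaN 1 one_pos) ∣[(12 : ℤ)] g) ^ 4 * ((DeltaN 4 four_pos) ∣[(12 : ℤ)] g) ^ 4) := by
  funext z
  simp only [Pi.pow_apply, Pi.mul_apply, SL_slash_apply]
  have hd : denom g z ≠ 0 := denom_ne_zero _ _
  have h1 := DeltaN_ne_zero 1 one_pos (g • z)
  have h2 := DeltaN_ne_zero 2 two_pos (g • z)
  have h4 := DeltaN_ne_zero 4 four_pos (g • z)
  rw [mul_pow, inv_pow, lam4_pow]
  rw [show (-(-1 : ℤ)) = ((1 : ℕ) : ℤ) by norm_num, show (-(12 : ℤ)) = -((12 : ℕ) : ℤ) by norm_num,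
    zpow_neg, zpow_natCast, zpow_natCast]
  field_simp

theorem lam9_slash_pow (g : SL(2, ℤ)) :
    (Fermat.Agent.T3.helper16.lam9 ∣[(1 : ℤ)] g) ^ 24 =
      ((DeltaN 1 one_pos) ∣[(12 : ℤ)] g) ^ 3 *
        (fun z : ℍ => (((DeltaN 3 three_pos) ∣[(12 : ℤ)] g) z)⁻¹) := by
  funext z
  simp only [Pi.pow_apply, Pi.mul_apply, SL_slash_apply]
  have hd : denom g z ≠ 0 := denom_ne_zero _ _
  have h3 := DeltaN_ne_zero 3 three_pos (g • z)
  rw [mul_pow, lam9_pow]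
  rw [show (-(1 : ℤ)) = -((1 : ℕ) : ℤ) by norm_num, show (-(12 : ℤ)) = -((12 : ℕ) : ℤ) by norm_num,
    zpow_neg, zpow_neg, zpow_natCast, zpow_natCast]
  field_simp

theorem lam9_inv_slash_pow (g : SL(2, ℤ)) :
    ((fun z : ℍ => (Fermat.Agent.T3.helper16.lam9 z)⁻¹) ∣[(-1 : ℤ)] g) ^ 24 =
      (fun z : ℍ => (((DeltaN 1 one_pos) ∣[(12 : ℤ)] g) z)⁻¹) ^ 3 *
        ((DeltaN 3 three_pos) ∣[(12 : ℤ)] g) := by
  funext z
  simp only [Pi.pow_apply, Pi.mul_apply, SL_slash_apply]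
  have hd : denom g z ≠ 0 := denom_ne_zero _ _
  have h1 := DeltaN_ne_zero 1 one_pos (g • z)
  have h3 := DeltaN_ne_zero 3 three_pos (g • z)
  rw [mul_pow, inv_pow, lam9_pow]
  rw [show (-(-1 : ℤ)) = ((1 : ℕ) : ℤ) by norm_num, show (-(12 : ℤ)) = -((12 : ℕ) : ℤ) by norm_num,
    zpow_neg, zpow_natCast, zpow_natCast]
  field_simp

theorem mdiff_inv_of_ne_zero {f : ℍ → ℂ} (hf : MDiff f) (h0 : ∀ z, f z ≠ 0) :
    MDiff (fun z : ℍ => (f z)⁻¹) := by
  have := (mdifferentiable_const (c := (1 : ℂ))).div hf h0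
  have e : (fun z : ℍ => (f z)⁻¹) = (fun _ : ℍ => (1 : ℂ)) / f := by
    funext τ
    simp
  rw [e]
  exact this

/-- **[UNIT-GROW]** for `lam4`: the field `growth` of `IsWtOneUnit 4 lam4`. -/
theorem growth4 : ∀ g : SL(2, ℤ),
    (Fermat.Agent.T3.helper16.lam4 ∣[(1 : ℤ)] g) ∈ holoExp ∧
      ((fun τ => (Fermat.Agent.T3.helper16.lam4 τ)⁻¹) ∣[(-1 : ℤ)] g) ∈ holoExp := by
  intro g
  constructor
  · refine Fermat.Agent.P3.helper48.mem_holoExp_of_pow_mem (m := 24) (by norm_num) ?_ ?_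
    · rw [SL_slash]
      exact lam4_mdiff.slash _ _
    · rw [lam4_slash_pow]
      exact holoExp.mul_mem (holoExp.pow_mem (DeltaN_slash_mem _ _ g) _)
        (holoExp.mul_mem (holoExp.pow_mem (inv_DeltaN_slash_mem _ _ g) _)
          (holoExp.pow_mem (inv_DeltaN_slash_mem _ _ g) _))
  · refine Fermat.Agent.P3.helper48.mem_holoExp_of_pow_mem (m := 24) (by norm_num) ?_ ?_
    · rw [SL_slash]
      exact (mdiff_inv_of_ne_zero lam4_mdiff lam4_ne_zero).slash _ _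
    · rw [lam4_inv_slash_pow]
      exact holoExp.mul_mem (holoExp.pow_mem (inv_DeltaN_slash_mem _ _ g) _)
        (holoExp.mul_mem (holoExp.pow_mem (DeltaN_slash_mem _ _ g) _)
          (holoExp.pow_mem (DeltaN_slash_mem _ _ g) _))

/-- **[UNIT-GROW]** for `lam9`: the field `growth` of `IsWtOneUnit 9 lam9`. -/
theorem growth9 : ∀ g : SL(2, ℤ),
    (Fermat.Agent.T3.helper16.lam9 ∣[(1 : ℤ)] g) ∈ holoExp ∧
      ((fun τ => (Fermat.Agent.T3.helper16.lam9 τ)⁻¹) ∣[(-1 : ℤ)] g) ∈ holoExp := by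
  intro g
  constructor
  · refine Fermat.Agent.P3.helper48.mem_holoExp_of_pow_mem (m := 24) (by norm_num) ?_ ?_
    · rw [SL_slash]
      exact lam9_mdiff.slash _ _
    · rw [lam9_slash_pow]
      exact holoExp.mul_mem (holoExp.pow_mem (DeltaN_slash_mem _ _ g) _)
        (inv_DeltaN_slash_mem _ _ g)
  · refine Fermat.Agent.P3.helper48.mem_holoExp_of_pow_mem (m := 24) (by norm_num) ?_ ?_
    · rw [SL_slash]
      exact (mdiff_inv_of_ne_zero lam9_mdiff lam9_ne_zero).slash _ _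
    · rw [lam9_inv_slash_pow]
      exact holoExp.mul_mem (holoExp.pow_mem (inv_DeltaN_slash_mem _ _ g) _)
        (DeltaN_slash_mem _ _ g)

end Fermat.Agent.T3.helper55
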