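/-
TIER 3, [T3-JAC4] (helper14, second prover), part 1: the weight-one eta quotient
`lam4 τ = η(2τ)¹⁰ / (η(τ)⁴ η(4τ)⁴)` is BOUNDED at all cusps, quantitatively:
`(lam4 ∣[1] γ)²⁴ = O(exp(-2π e Im τ))` with `e = 10 A₂/D₂ - 4 - 4 A₄/D₄ ∈ {0, 12, 0}`
(`A_N = gcd(N, c)`, `A_N D_N = N`), for every `γ ∈ SL(2, ℤ)`.

* `isBoundedAtImInfty_lam4_slash` : `IsBoundedAtImInfty (lam4 ∣[1] γ)`.
* `isMF_lam4_sq`                  : `lam4 ^ 2` is a modular form of weight `2` on `Γ₀(4)`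
                                      (in the predicate form `Fermat.Agent.S20.IsMF`).
-/
import Fermat.Agent.T3.helper55_UnitGrow
import Fermat.Agent.S20.Defs

set_option autoImplicit false

open UpperHalfPlane ModularForm Filter Asymptotics CongruenceSubgroup
open scoped MatrixGroups ModularForm Manifold Topology

noncomputable section

namespace Fermat.Agent.T3.helper14

open Fermat.Agent.S23.helper35 Fermat.Agent.T3.helper16

local notation "Δ" => ModularForm.discriminant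

/-! ### Arithmetic of the exponents -/

/-- the possible Hermite data at the levels `2` and `4` for the same lower left entry -/
theorem hermite_cases {n A2 D2 A4 D4 : ℕ} (h2 : A2 * D2 = 2) (hA2 : A2 = Nat.gcd 2 n)
    (h4 : A4 * D4 = 4) (hA4 : A4 = Nat.gcd 4 n) :
    (A2 = 1 ∧ D2 = 2 ∧ A4 = 1 ∧ D4 = 4) ∨ (A2 = 2 ∧ D2 = 1 ∧ A4 = 2 ∧ D4 = 2) ∨
      (A2 = 2 ∧ D2 = 1 ∧ A4 = 4 ∧ D4 = 1) := by
  have e : Nat.gcd 2 n = Nat.gcd 2 (Nat.gcd 4 n) := by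
    rw [← Nat.gcd_assoc]
    rfl
  rw [← hA4] at e
  rw [← hA2] at e
  have hA4le : A4 ≤ 4 := Nat.le_of_dvd (by norm_num) (Dvd.intro _ h4)
  have hA4pos : 0 < A4 := Nat.pos_of_ne_zero (by rintro rfl; simp at h4)
  interval_cases A4
  · have hD4 : D4 = 4 := by omega
    have hA2' : A2 = 1 := by rw [e]; rfl
    subst hA2'
    have hD2 : D2 = 2 := by omega
    exact Or.inl ⟨rfl, hD2, rfl, hD4⟩
  · have hD4 : D4 = 2 := by omega
    have hA2' : A2 = 2 := by rw [e]; rfl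
    subst hA2'
    have hD2 : D2 = 1 := by omega
    exact Or.inr (Or.inl ⟨rfl, hD2, rfl, hD4⟩)
  · omega
  · have hD4 : D4 = 1 := by omega
    have hA2' : A2 = 2 := by rw [e]; rfl
    subst hA2'
    have hD2 : D2 = 1 := by omega
    exact Or.inr (Or.inr ⟨rfl, hD2, rfl, hD4⟩)

/-- the exponent `10 A₂/D₂ - 4 - 4 A₄/D₄` is nonnegative -/
theorem exponent_nonneg {n A2 D2 A4 D4 : ℕ} (h2 : A2 * D2 = 2) (hA2 : A2 = Nat.gcd 2 n)
    (h4 : A4 * D4 = 4) (hA4 : A4 = Nat.gcd 4 n) :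
    (0 : ℝ) ≤ 10 * ((A2 : ℝ) / D2) - 4 - 4 * ((A4 : ℝ) / D4) := by
  rcases hermite_cases h2 hA2 h4 hA4 with ⟨rfl, rfl, rfl, rfl⟩ | ⟨rfl, rfl, rfl, rfl⟩ |
    ⟨rfl, rfl, rfl, rfl⟩ <;> norm_num

/-! ### Growth of `Δ ∘ ut` -/

theorem discriminant_comp_ut_isBigO {A D : ℕ} {B : ℤ} (hA : 0 < A) (hD : 0 < D) :
    (fun z : ℍ => Δ (ut A D B hA hD • z)) =O[atImInfty]
      fun z : ℍ => Real.exp (-2 * Real.pi * ((A : ℝ) / D * z.im)) := by
  have h := discriminant_isBigO_exp.comp_tendsto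
    (tendsto_smul_atImInfty (ut_apply_one_zero (B := B) hA hD))
  refine h.congr_right fun z => ?_
  simp only [Function.comp_apply]
  rw [im_ut_smul]

theorem inv_discriminant_comp_ut_isBigO {A D : ℕ} {B : ℤ} (hA : 0 < A) (hD : 0 < D) :
    (fun z : ℍ => (Δ (ut A D B hA hD • z))⁻¹) =O[atImInfty]
      fun z : ℍ => (Real.exp (-2 * Real.pi * ((A : ℝ) / D * z.im)))⁻¹ :=
  (exp_isBigO_discriminant_comp_ut (B := B) hA hD).inv_rev
    (Eventually.of_forall fun _ hz => absurd hz (Real.exp_pos _).ne')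

/-- a function whose power is bounded at `i∞` is bounded at `i∞` -/
theorem isBoundedAtImInfty_of_pow {f : ℍ → ℂ} {m : ℕ} (hm : m ≠ 0)
    (h : IsBoundedAtImInfty (f ^ m)) : IsBoundedAtImInfty f := by
  rw [isBoundedAtImInfty_iff] at h ⊢
  obtain ⟨M, A, hMA⟩ := h
  refine ⟨max M 1, A, fun z hz => ?_⟩
  have h1 := hMA z hz
  simp only [Pi.pow_apply, norm_pow] at h1
  by_cases hle : ‖f z‖ ≤ 1
  · exact hle.trans (le_max_right _ _)
  · have hle' : 1 < ‖f z‖ := not_le.mp hle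
    have h2 : ‖f z‖ ≤ ‖f z‖ ^ m := le_self_pow₀ hle'.le hm
    exact (h2.trans h1).trans (le_max_left _ _)

/-! ### Boundedness of `lam4` at all cusps -/

theorem DeltaN_slash_SL_gcd (N : ℕ) (hN : 0 < N) (g : SL(2, ℤ)) :
    ∃ (A D : ℕ) (B : ℤ) (hA : 0 < A) (hD : 0 < D), A * D = N ∧
      A = Nat.gcd N (g 1 0).natAbs ∧
      ((DeltaN N hN) ∣[(12 : ℤ)] g) =
        fun z : ℍ => Δ (ut A D B hA hD • z) * ((D : ℂ) ^ (12 : ℕ))⁻¹ := by
  obtain ⟨δ, A, D, B, hA, hD, hAD, hgcd, h⟩ := hermite_GL N hN g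
  refine ⟨A, D, B, hA, hD, hAD, hgcd, ?_⟩
  funext z
  rw [SL_slash]
  exact DeltaN_slash N hN g δ hA hD hAD h z

theorem isBoundedAtImInfty_lam4_slash (g : SL(2, ℤ)) :
    IsBoundedAtImInfty (lam4 ∣[(1 : ℤ)] g) := by
  refine isBoundedAtImInfty_of_pow (m := 24) (by norm_num) ?_
  rw [Fermat.Agent.T3.helper55.lam4_slash_pow]
  obtain ⟨A1, D1, B1, hA1, hD1, hAD1, -, e1⟩ := DeltaN_slash_SL_gcd 1 one_pos g
  obtain ⟨A2, D2, B2, hA2, hD2, hAD2, hg2, e2⟩ := DeltaN_slash_SL_gcd 2 two_pos g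
  obtain ⟨A4, D4, B4, hA4, hD4, hAD4, hg4, e4⟩ := DeltaN_slash_SL_gcd 4 four_pos g
  have hA1' : A1 = 1 := Nat.eq_one_of_mul_eq_one_right hAD1
  have hD1' : D1 = 1 := Nat.eq_one_of_mul_eq_one_left hAD1
  have hexp := exponent_nonneg hAD2 hg2 hAD4 hg4
  rw [e1, e2, e4]
  -- the three asymptotic estimates
  have h2 := (discriminant_comp_ut_isBigO (B := B2) hA2 hD2).const_mul_left
    (((D2 : ℂ) ^ (12 : ℕ))⁻¹)
  have h1 := (inv_discriminant_comp_ut_isBigO (B := B1) hA1 hD1).const_mul_left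
    ((D1 : ℂ) ^ (12 : ℕ))
  have h4 := (inv_discriminant_comp_ut_isBigO (B := B4) hA4 hD4).const_mul_left
    ((D4 : ℂ) ^ (12 : ℕ))
  have hprod := (h2.pow 10).mul ((h1.pow 4).mul (h4.pow 4))
  have hD1c : (D1 : ℂ) ≠ 0 := by exact_mod_cast hD1.ne'
  have hD4c : (D4 : ℂ) ≠ 0 := by exact_mod_cast hD4.ne'
  have hfun : ((fun z : ℍ => Δ (ut A2 D2 B2 hA2 hD2 • z) * ((D2 : ℂ) ^ (12 : ℕ))⁻¹) ^ 10 *
      ((fun z : ℍ => ((fun z : ℍ => Δ (ut A1 D1 B1 hA1 hD1 • z) * ((D1 : ℂ) ^ (12 : ℕ))⁻¹) z)⁻¹) ^ 4 *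
        (fun z : ℍ => ((fun z : ℍ => Δ (ut A4 D4 B4 hA4 hD4 • z) * ((D4 : ℂ) ^ (12 : ℕ))⁻¹) z)⁻¹) ^ 4))
      = fun z : ℍ => (((D2 : ℂ) ^ (12 : ℕ))⁻¹ * Δ (ut A2 D2 B2 hA2 hD2 • z)) ^ 10 *
          (((D1 : ℂ) ^ (12 : ℕ) * (Δ (ut A1 D1 B1 hA1 hD1 • z))⁻¹) ^ 4 *
            ((D4 : ℂ) ^ (12 : ℕ) * (Δ (ut A4 D4 B4 hA4 hD4 • z))⁻¹) ^ 4) := by
    funext z
    simp only [Pi.mul_apply, Pi.pow_apply, mul_inv, inv_inv]
    ring
  rw [hfun]
  unfold IsBoundedAtImInfty BoundedAtFilter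
  refine hprod.trans ?_
  refine IsBigO.of_bound 1 (Eventually.of_forall fun z => ?_)
  simp only [Pi.one_apply, norm_one, mul_one, norm_mul, norm_pow, norm_inv, Real.norm_eq_abs,
    Real.abs_exp]
  have hA1r : ((A1 : ℝ) / D1) = 1 := by rw [hA1', hD1']; norm_num
  rw [hA1r]
  rw [← Real.exp_neg, ← Real.exp_neg, ← Real.exp_nat_mul, ← Real.exp_nat_mul,
    ← Real.exp_nat_mul, ← Real.exp_add, ← Real.exp_add]
  rw [Real.exp_le_one_iff]
  have hz := z.im_pos.le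
  have hpi := Real.pi_pos
  have key : (10 : ℕ) * (-2 * Real.pi * ((A2 : ℝ) / D2 * z.im)) +
      ((4 : ℕ) * -(-2 * Real.pi * (1 * z.im)) +
        (4 : ℕ) * -(-2 * Real.pi * ((A4 : ℝ) / D4 * z.im))) =
      -(2 * Real.pi * z.im * (10 * ((A2 : ℝ) / D2) - 4 - 4 * ((A4 : ℝ) / D4))) := by
    push_cast
    ring
  rw [key]
  have : 0 ≤ 2 * Real.pi * z.im * (10 * ((A2 : ℝ) / D2) - 4 - 4 * ((A4 : ℝ) / D4)) :=
    mul_nonneg (mul_nonneg (by positivity) hz) hexp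
  linarith

/-! ### `lam4 ^ 2` as a modular form of weight `2` on `Γ₀(4)` -/

theorem chi4_sq_of_mem {γ : SL(2, ℤ)} (hγ : γ ∈ Gamma0 4) : chi4 (γ 1 1) ^ 2 = 1 := by
  have hc : (4 : ℤ) ∣ γ 1 0 := by
    have h := Gamma0_mem.mp hγ
    rwa [ZMod.intCast_zmod_eq_zero_iff_dvd] at h
  have hdet : γ 0 0 * γ 1 1 - γ 0 1 * γ 1 0 = 1 := by
    have := γ.det_coe
    rwa [Matrix.det_fin_two] at this
  obtain ⟨c', hc'⟩ := hc
  have hodd : γ 1 1 % 2 = 1 := by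
    have h1 : γ 0 0 * γ 1 1 = 1 + 4 * (γ 0 1 * c') := by rw [hc'] at hdet; linarith
    have h2 : (γ 0 0 * γ 1 1) % 2 = 1 := by rw [h1]; omega
    rcases Int.emod_two_eq_zero_or_one (γ 1 1) with h | h
    · have : (γ 0 0 * γ 1 1) % 2 = 0 := by
        rw [Int.mul_emod, h]; simp
      omega
    · exact h
  unfold chi4
  have h4 : γ 1 1 % 4 = 1 ∨ γ 1 1 % 4 = 3 := by omega
  rcases h4 with h | h
  · rw [if_pos h]; norm_num
  · rw [if_neg (by omega), if_pos h]; norm_num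

theorem lam4_sq_slash (γ : SL(2, ℤ)) :
    ((lam4 ^ 2 : ℍ → ℂ) ∣[(2 : ℤ)] γ) = (lam4 ∣[(1 : ℤ)] γ) ^ 2 := by
  funext z
  simp only [Pi.pow_apply, SL_slash_apply]
  have hd : denom γ z ≠ 0 := denom_ne_zero _ _
  rw [mul_pow, ← zpow_natCast (denom γ z ^ (-(1 : ℤ))) 2, ← zpow_mul]
  norm_num

theorem isMF_lam4_sq : Fermat.Agent.S20.IsMF 4 2 (lam4 ^ 2 : ℍ → ℂ) where
  slash γ hγ := by
    funext z
    rw [lam4_sq_slash]
    simp only [Pi.pow_apply, SL_slash_apply]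
    rw [Fermat.Agent.T3.helper55.law4 γ hγ z]
    have hd : denom γ z ≠ 0 := denom_ne_zero _ _
    have hden : denom γ z = ((γ 1 0 : ℤ) : ℂ) * (z : ℂ) + ((γ 1 1 : ℤ) : ℂ) := by
      simp [denom]
    rw [← hden, zpow_neg_one]
    have h1 : chi4 (γ 1 1) * denom γ z * lam4 z * (denom γ z)⁻¹ = chi4 (γ 1 1) * lam4 z := by
      field_simp
    rw [h1, mul_pow, chi4_sq_of_mem hγ, one_mul]
  holo := Fermat.Agent.T3.helper55.lam4_mdiff.pow 2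
  bdd γ := by
    rw [lam4_sq_slash, pow_two]
    exact (isBoundedAtImInfty_lam4_slash γ).mul (isBoundedAtImInfty_lam4_slash γ)

end Fermat.Agent.T3.helper14

end
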