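/-
T3 / [UNIT-QEXP] (helper9, task 945): the `qexp`, `ne_zero` and `mdiff` fields of
`helper16.IsWtOneUnit` for the two weight-one eta quotients
`lam4 τ = η(2τ)¹⁰ / (η(τ)⁴ η(4τ)⁴)` and `lam9 τ = η(τ)³ / η(3τ)` of `helper16_UnitDefs`.

Route: `η(d τ) = 𝕢₂₄(d τ) · etaBH (scaleH d τ)`, the `𝕢₂₄`-factors cancel, and the eta products
have the integral `q`-expansions `ex d etaProd`; the inverse of a unit series is handled through
the niceness of `1 / etaB` on the unit disc.
-/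
import Fermat.Agent.T3.helper16_UnitDefs
import Fermat.Agent.S24.helper17_EtaProd

set_option autoImplicit false

noncomputable section

open UpperHalfPlane ModularForm Function Filter ModularCurve
open scoped MatrixGroups Manifold Topology

namespace Fermat.Agent.T3.helper9

open Fermat.Agent.S24 Fermat.Agent.S24.helper17 Fermat.Agent.P2.helper66
open Fermat.Agent.T3.helper16

local notation "𝕢" => Periodic.qParam

/-! ### The integral inverse of the eta product -/

/-- The inverse of `etaProd` in `ℤ⟦X⟧`. -/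
def etaProdInv : PowerSeries ℤ := etaProd.invOfUnit 1

theorem etaProd_mul_etaProdInv : etaProd * etaProdInv = 1 :=
  PowerSeries.mul_invOfUnit _ _ (by rw [constantCoeff_etaProd]; rfl)

theorem constantCoeff_etaProdInv : PowerSeries.constantCoeff etaProdInv = 1 := by
  have h := congrArg PowerSeries.constantCoeff etaProd_mul_etaProdInv
  rw [map_mul, constantCoeff_etaProd, one_mul] at h
  rw [h]
  simp

theorem constantCoeff_ex (d : ℕ) (P : PowerSeries ℤ) :
    PowerSeries.constantCoeff (ex d P) = PowerSeries.constantCoeff P := by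
  rw [← PowerSeries.coeff_zero_eq_constantCoeff_apply,
    ← PowerSeries.coeff_zero_eq_constantCoeff_apply, coeff_ex]
  simp

/-! ### `q`-expansions of the eta products -/

theorem isQExp_etaBH : IsQExp (iota ℂ etaProd) etaBH := by
  have h := IsQExp.of_isNice isNice_etaBH
  rw [qExpansion_etaBH] at h
  exact h

theorem differentiableOn_etaB_inv :
    DifferentiableOn ℂ (fun q : ℂ => (etaB q)⁻¹) (Metric.ball (0 : ℂ) 1) :=
  differentiableOn_etaB.inv fun q hq => etaB_ne_zero (by simpa using hq)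

theorem isNice_etaBH_inv : IsNice (fun τ : ℍ => (etaBH τ)⁻¹) :=
  isNice_comp_qParam (fun q : ℂ => (etaB q)⁻¹) differentiableOn_etaB_inv

theorem isQExp_etaBH_inv : IsQExp (iota ℂ etaProdInv) (fun τ : ℍ => (etaBH τ)⁻¹) := by
  have h1 := IsQExp.of_isNice isNice_etaBH_inv
  set F : LaurentSeries ℂ :=
    HahnSeries.ofPowerSeries ℤ ℂ (qExpansion 1 (fun τ : ℍ => (etaBH τ)⁻¹)) with hF
  have h2 : IsQExp (iota ℂ etaProd * F) (1 : ℍ → ℂ) :=
    (isQExp_etaBH.mul h1).congr_right fun τ => by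
      simp only [Pi.mul_apply, Pi.one_apply]
      exact mul_inv_cancel₀ (etaBH_ne_zero τ)
  have h3 : iota ℂ etaProd * F = 1 := h2.left_unique IsQExp.one
  have h4 : iota ℂ etaProd * iota ℂ etaProdInv = 1 := by
    rw [← map_mul, etaProd_mul_etaProdInv, map_one]
  have h5 : F = iota ℂ etaProdInv := by
    calc F = (iota ℂ etaProd * iota ℂ etaProdInv) * F := by rw [h4, one_mul]
      _ = iota ℂ etaProdInv * (iota ℂ etaProd * F) := by ring
      _ = iota ℂ etaProdInv := by rw [h3, mul_one]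
  rw [← h5]
  exact h1

theorem isQExp_etaBH_scale (d : ℕ) [NeZero d] :
    IsQExp (iota ℂ (ex d etaProd)) (fun τ : ℍ => etaBH (scaleH d τ)) := by
  rw [iota_ex]
  exact isQExp_etaBH.comp_scale d

theorem isQExp_etaBH_inv_scale (d : ℕ) [NeZero d] :
    IsQExp (iota ℂ (ex d etaProdInv)) (fun τ : ℍ => (etaBH (scaleH d τ))⁻¹) := by
  rw [iota_ex]
  exact isQExp_etaBH_inv.comp_scale d

/-! ### `η` at multiples of `τ` -/

theorem eta_eq (τ : ℍ) : ModularForm.eta (τ : ℂ) = 𝕢 24 (τ : ℂ) * etaBH τ := rfl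

theorem eta_scale (d : ℕ) [NeZero d] (τ : ℍ) :
    ModularForm.eta ((d : ℂ) * (τ : ℂ)) = 𝕢 24 ((d : ℂ) * (τ : ℂ)) * etaBH (scaleH d τ) := rfl

theorem qParam24_pow (z : ℂ) (k : ℕ) :
    𝕢 24 z ^ k = Complex.exp (2 * Real.pi * Complex.I * z * k / 24) := by
  rw [Periodic.qParam, ← Complex.exp_nat_mul]
  congr 1
  push_cast
  ring

/-! ### The two weight-one eta quotients -/

theorem lam4_eq (τ : ℍ) :
    lam4 τ = etaBH (scaleH 2 τ) ^ 10 * ((etaBH τ)⁻¹ ^ 4 * (etaBH (scaleH 4 τ))⁻¹ ^ 4) := by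
  have h2 : ModularForm.eta (2 * (τ : ℂ)) = 𝕢 24 (2 * (τ : ℂ)) * etaBH (scaleH 2 τ) := by
    have := eta_scale 2 τ
    simpa using this
  have h4 : ModularForm.eta (4 * (τ : ℂ)) = 𝕢 24 (4 * (τ : ℂ)) * etaBH (scaleH 4 τ) := by
    have := eta_scale 4 τ
    simpa using this
  have hq : 𝕢 24 (2 * (τ : ℂ)) ^ 10 = 𝕢 24 (τ : ℂ) ^ 4 * 𝕢 24 (4 * (τ : ℂ)) ^ 4 := by
    rw [qParam24_pow, qParam24_pow, qParam24_pow, ← Complex.exp_add]
    congr 1
    push_cast
    ring
  have hqa : 𝕢 24 (τ : ℂ) ≠ 0 := Periodic.qParam_ne_zero _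
  have hqb : 𝕢 24 (4 * (τ : ℂ)) ≠ 0 := Periodic.qParam_ne_zero _
  have hb1 := etaBH_ne_zero τ
  have hb4 := etaBH_ne_zero (scaleH 4 τ)
  rw [lam4, h2, h4, eta_eq, mul_pow, mul_pow, mul_pow, hq]
  field_simp

theorem lam9_eq (τ : ℍ) :
    lam9 τ = etaBH τ ^ 3 * (etaBH (scaleH 3 τ))⁻¹ := by
  have h3 : ModularForm.eta (3 * (τ : ℂ)) = 𝕢 24 (3 * (τ : ℂ)) * etaBH (scaleH 3 τ) := by
    have := eta_scale 3 τ
    simpa using this
  have hq : 𝕢 24 (τ : ℂ) ^ 3 = 𝕢 24 (3 * (τ : ℂ)) := by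
    have h1 := qParam24_pow (τ : ℂ) 3
    have h2 := qParam24_pow (3 * (τ : ℂ)) 1
    rw [pow_one] at h2
    rw [h1, h2]
    congr 1
    push_cast
    ring
  have hq0 : 𝕢 24 (3 * (τ : ℂ)) ≠ 0 := Periodic.qParam_ne_zero _
  have hb3 := etaBH_ne_zero (scaleH 3 τ)
  rw [lam9, h3, eta_eq, mul_pow, hq]
  field_simp

/-- The integral `q`-expansion of `lam4`. -/
def lam4Series : PowerSeries ℤ :=
  ex 2 etaProd ^ 10 * (etaProdInv ^ 4 * ex 4 etaProdInv ^ 4)

/-- The integral `q`-expansion of `lam9`. -/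
def lam9Series : PowerSeries ℤ := etaProd ^ 3 * ex 3 etaProdInv

theorem constantCoeff_lam4Series : PowerSeries.constantCoeff lam4Series = 1 := by
  simp only [lam4Series, map_mul, map_pow, constantCoeff_ex, constantCoeff_etaProd,
    constantCoeff_etaProdInv, one_pow, mul_one]

theorem constantCoeff_lam9Series : PowerSeries.constantCoeff lam9Series = 1 := by
  simp only [lam9Series, map_mul, map_pow, constantCoeff_ex, constantCoeff_etaProd,
    constantCoeff_etaProdInv, one_pow, mul_one]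

theorem isQExp_lam4 : IsQExp (iota ℂ lam4Series) lam4 := by
  have h := ((isQExp_etaBH_scale 2).pow 10).mul
    ((isQExp_etaBH_inv.pow 4).mul ((isQExp_etaBH_inv_scale 4).pow 4))
  rw [← map_pow, ← map_pow, ← map_pow, ← map_mul, ← map_mul] at h
  exact h.congr_right fun τ => by
    simp only [Pi.mul_apply, Pi.pow_apply]
    exact (lam4_eq τ).symm

theorem isQExp_lam9 : IsQExp (iota ℂ lam9Series) lam9 := by
  have h := (isQExp_etaBH.pow 3).mul (isQExp_etaBH_inv_scale 3)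
  rw [← map_pow, ← map_mul] at h
  exact h.congr_right fun τ => by
    simp only [Pi.mul_apply, Pi.pow_apply]
    exact (lam9_eq τ).symm

/-- **[UNIT-QEXP]** for `lam4`: the `qexp` field of `helper16.IsWtOneUnit 4 lam4`, verbatim. -/
theorem qexp_lam4 : ∃ L : PowerSeries ℤ, PowerSeries.constantCoeff L = 1 ∧
    IsQExp (Fermat.Agent.P2.helper66.iota ℂ L) lam4 :=
  ⟨lam4Series, constantCoeff_lam4Series, isQExp_lam4⟩

/-- **[UNIT-QEXP]** for `lam9`: the `qexp` field of `helper16.IsWtOneUnit 9 lam9`, verbatim. -/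
theorem qexp_lam9 : ∃ L : PowerSeries ℤ, PowerSeries.constantCoeff L = 1 ∧
    IsQExp (Fermat.Agent.P2.helper66.iota ℂ L) lam9 :=
  ⟨lam9Series, constantCoeff_lam9Series, isQExp_lam9⟩

/-! ### By-products: the `mdiff` and `ne_zero` fields -/

theorem mdiff_lam4 : MDiff lam4 := isQExp_lam4.mdiff

theorem mdiff_lam9 : MDiff lam9 := isQExp_lam9.mdiff

theorem lam4_ne_zero (τ : ℍ) : lam4 τ ≠ 0 := by
  rw [lam4_eq]
  exact mul_ne_zero (pow_ne_zero _ (etaBH_ne_zero _))
    (mul_ne_zero (pow_ne_zero _ (inv_ne_zero (etaBH_ne_zero _)))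
      (pow_ne_zero _ (inv_ne_zero (etaBH_ne_zero _))))

theorem lam9_ne_zero (τ : ℍ) : lam9 τ ≠ 0 := by
  rw [lam9_eq]
  exact mul_ne_zero (pow_ne_zero _ (etaBH_ne_zero _)) (inv_ne_zero (etaBH_ne_zero _))

end Fermat.Agent.T3.helper9

end
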