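/-
TIER 3, [T3-JAC4] (helper14, second prover), part 2: JACOBI'S IDENTITY at level `4`,

  `E₂(τ) - 4 E₂(4τ) = -3 lam4(τ)²`,   `lam4 τ = η(2τ)¹⁰ / (η(τ)⁴ η(4τ)⁴)`  (`= θ(τ)²`),

i.e. the four squares theorem in the form `θ⁴ = 1 + 8 ∑ (σ(n) - 4 σ(n/4)) qⁿ`.

Proof: both sides are modular forms of weight `2` on `Γ₀(4)` (`helper14_Jac4Bdd` for `lam4²`,
`helper24.eisForm 2` and level raising for the Eisenstein side), the Sturm bound for `Γ₀(4)` is
`1` (Prelude `ModularForm.sturm_bound_Gamma0`, index `6`), and the coefficients of `q⁰`, `q¹`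
agree.

* `jacobi4_fun`    : the identity of functions on `ℍ`;
* `jacobi4_series` : the identity in `ℤ⟦q⟧`, `eis4Series = -3 * lam4Series ^ 2`.
-/
import Fermat.Agent.T3.helper14_Jac4Bdd
import Fermat.Agent.T3.helper9_UnitQExp
import Fermat.Agent.P2.helper66_HauptMF

set_option autoImplicit false

open UpperHalfPlane ModularForm Filter CongruenceSubgroup
open scoped MatrixGroups Manifold Topology

noncomputable section

namespace Fermat.Agent.T3.helper14

open Fermat.Agent.P2.helper66 (MFQ ex coeff_ex iota iota_apply)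
open Fermat.Agent.S20 (IsMF isMF_coe)
open Fermat.Agent.S24 (scaleH)
open Fermat.Agent.S24.helper17 (IsNice IsQExp)
open Fermat.Agent.T3.helper16 (lam4)
open Fermat.Agent.T3.helper9 (lam4Series etaProdInv)
open Fermat.Agent.S16.helper24 (eisFun eisForm sigmaP eisCoeff)
open ModularCurve (etaProd constantCoeff_etaProd)

/-! ### The first two coefficients of the eta product -/

theorem coeff_one_sub_X_pow_zero (a : ℕ) :
    PowerSeries.coeff 0 (1 - PowerSeries.X ^ (a + 1) : PowerSeries ℤ) = 1 := by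
  rw [map_sub, PowerSeries.coeff_one, PowerSeries.coeff_X_pow]
  simp

theorem coeff_one_sub_X_pow_one {a : ℕ} (ha : a ≠ 0) :
    PowerSeries.coeff 1 (1 - PowerSeries.X ^ (a + 1) : PowerSeries ℤ) = 0 := by
  rw [map_sub, PowerSeries.coeff_one, PowerSeries.coeff_X_pow]
  simp [ha]

theorem coeff_one_mul' (f g : PowerSeries ℤ) :
    PowerSeries.coeff 1 (f * g) =
      PowerSeries.coeff 0 f * PowerSeries.coeff 1 g +
        PowerSeries.coeff 1 f * PowerSeries.coeff 0 g := by
  rw [PowerSeries.coeff_mul, Finset.Nat.sum_antidiagonal_eq_sum_range_succ_mk,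
    Finset.sum_range_succ, Finset.sum_range_one]

theorem coeff_zero_mul' (f g : PowerSeries ℤ) :
    PowerSeries.coeff 0 (f * g) = PowerSeries.coeff 0 f * PowerSeries.coeff 0 g := by
  rw [PowerSeries.coeff_mul, Finset.Nat.sum_antidiagonal_eq_sum_range_succ_mk,
    Finset.sum_range_one]

theorem coeff_prod_one_sub_X_pow (t : Finset ℕ) (h0 : 0 ∉ t) :
    PowerSeries.coeff 0 (∏ n ∈ t, (1 - PowerSeries.X ^ (n + 1) : PowerSeries ℤ)) = 1 ∧
      PowerSeries.coeff 1 (∏ n ∈ t, (1 - PowerSeries.X ^ (n + 1) : PowerSeries ℤ)) = 0 := by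
  classical
  induction t using Finset.induction_on with
  | empty => simp
  | insert a t ha ih =>
    have ha0 : a ≠ 0 := fun h => h0 (h ▸ Finset.mem_insert_self a t)
    have ht0 : 0 ∉ t := fun h => h0 (Finset.mem_insert_of_mem h)
    obtain ⟨i0, i1⟩ := ih ht0
    rw [Finset.prod_insert ha]
    refine ⟨?_, ?_⟩
    · rw [coeff_zero_mul', coeff_one_sub_X_pow_zero, i0, one_mul]
    · rw [coeff_one_mul', coeff_one_sub_X_pow_zero, coeff_one_sub_X_pow_one ha0, i0, i1]
      norm_num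

theorem coeff_one_prod_of_mem (s : Finset ℕ) (h0 : 0 ∈ s) :
    PowerSeries.coeff 1 (∏ n ∈ s, (1 - PowerSeries.X ^ (n + 1) : PowerSeries ℤ)) = -1 := by
  classical
  rw [← Finset.mul_prod_erase s _ h0]
  obtain ⟨i0, i1⟩ := coeff_prod_one_sub_X_pow (s.erase 0) (Finset.notMem_erase 0 s)
  rw [coeff_one_mul', i0, i1, coeff_one_sub_X_pow_zero]
  rw [map_sub, PowerSeries.coeff_one, zero_add, pow_one, PowerSeries.coeff_one_X]
  norm_num

open scoped PowerSeries.WithPiTopology in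
theorem coeff_one_etaProd : PowerSeries.coeff 1 etaProd = -1 := by
  have h1 : Tendsto (fun s : Finset ℕ => ∏ n ∈ s, ((1 : PowerSeries ℤ) - PowerSeries.X ^ (n + 1)))
      atTop (𝓝 etaProd) :=
    (PowerSeries.WithPiTopology.multipliable_one_sub_X_pow ℤ).hasProd
  have h2 := ((PowerSeries.WithPiTopology.continuous_coeff ℤ 1).tendsto etaProd).comp h1
  have h3 : ∀ᶠ s : Finset ℕ in atTop,
      ((PowerSeries.coeff 1 : PowerSeries ℤ → ℤ) ∘
        fun s : Finset ℕ => ∏ n ∈ s, ((1 : PowerSeries ℤ) - PowerSeries.X ^ (n + 1))) s = -1 :=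
    Filter.eventually_atTop.2 ⟨{0}, fun s hs =>
      coeff_one_prod_of_mem s (hs (Finset.mem_singleton_self 0))⟩
  exact tendsto_nhds_unique h2 (tendsto_const_nhds.congr' (h3.mono fun s hs => hs.symm))

theorem coeff_zero_etaProd : PowerSeries.coeff 0 etaProd = 1 := by
  rw [PowerSeries.coeff_zero_eq_constantCoeff_apply, constantCoeff_etaProd]

theorem coeff_zero_etaProdInv : PowerSeries.coeff 0 etaProdInv = 1 := by
  rw [PowerSeries.coeff_zero_eq_constantCoeff_apply,
    Fermat.Agent.T3.helper9.constantCoeff_etaProdInv]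

theorem coeff_one_etaProdInv : PowerSeries.coeff 1 etaProdInv = 1 := by
  have h := congrArg (PowerSeries.coeff 1) Fermat.Agent.T3.helper9.etaProd_mul_etaProdInv
  rw [coeff_one_mul', coeff_zero_etaProd, coeff_one_etaProd, coeff_zero_etaProdInv,
    PowerSeries.coeff_one] at h
  simp at h
  linarith

/-! ### The first two coefficients of `lam4Series` -/

theorem tr_etaProd : Fermat.Agent.P2.helper66.Tr 2 etaProd [1, -1] := by
  intro n hn
  interval_cases n
  · rw [coeff_zero_etaProd]; rfl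
  · rw [coeff_one_etaProd]; rfl

theorem tr_etaProdInv : Fermat.Agent.P2.helper66.Tr 2 etaProdInv [1, 1] := by
  intro n hn
  interval_cases n
  · rw [coeff_zero_etaProdInv]; rfl
  · rw [coeff_one_etaProdInv]; rfl

theorem tr_lam4Series : Fermat.Agent.P2.helper66.Tr 2 lam4Series [1, 4] := by
  unfold lam4Series
  have h1 := (tr_etaProd.ex 2 _ rfl).pow 10 _ rfl
  have h2 := tr_etaProdInv.pow 4 _ rfl
  have h3 := (tr_etaProdInv.ex 4 _ rfl).pow 4 _ rfl
  have h := h1.mul (h2.mul h3 _ rfl) _ rfl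
  intro n hn
  rw [h n hn]
  interval_cases n <;> decide +kernel

theorem tr_lam4Series_sq : Fermat.Agent.P2.helper66.Tr 2 (lam4Series ^ 2) [1, 8] := by
  have h := tr_lam4Series.pow 2 _ rfl
  intro n hn
  rw [h n hn]
  interval_cases n <;> decide +kernel

/-! ### `lam4 ^ 2` as a modular form with integral `q`-expansion -/

theorem mfq_lam4_sq : MFQ 4 2 (lam4 ^ 2 : ℍ → ℂ) (lam4Series ^ 2) where
  isMF := isMF_lam4_sq
  qexp := by
    have hn : IsNice (lam4 ^ 2 : ℍ → ℂ) :=
      Fermat.Agent.P2.helper66.isNice_of_isMF isMF_lam4_sq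
    have h1 : IsQExp (iota ℂ (lam4Series ^ 2)) (lam4 ^ 2 : ℍ → ℂ) := by
      rw [map_pow]
      exact Fermat.Agent.T3.helper9.isQExp_lam4.pow 2
    have h2 := IsQExp.of_isNice hn
    have h3 := h2.left_unique h1
    rw [iota_apply] at h3
    exact HahnSeries.ofPowerSeries_injective h3

/-! ### The Eisenstein side -/

/-- `2 E₂(2τ) - E₂(τ) = 24 * eisFun 2`. -/
def eis2Fun : ℍ → ℂ := ((24 : ℤ) : ℂ) • eisFun 2

/-- the integral `q`-expansion `1 + 24 ∑ σ'(n) qⁿ` of `eis2Fun` -/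
def eis2Series : PowerSeries ℤ :=
  PowerSeries.mk fun n => if n = 0 then 1 else 24 * (sigmaP 2 n : ℤ)

theorem mfq_eis2 : MFQ 2 2 eis2Fun eis2Series where
  isMF := IsMF.smul _ (isMF_coe (eisForm 2))
  qexp := by
    have hn : IsNice (eisFun 2) := Fermat.Agent.P2.helper66.isNice_of_isMF (isMF_coe (eisForm 2))
    unfold eis2Fun
    rw [qExpansion_smul hn.analyticAt]
    ext n
    rw [PowerSeries.coeff_smul, PowerSeries.coeff_map]
    have h := Fermat.Agent.S16.helper24.qExpansion_eisForm_coeff 2 n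
    rw [Fermat.Agent.S16.helper24.coe_eisForm] at h
    rw [h, eis2Series, PowerSeries.coeff_mk]
    by_cases h0 : n = 0
    · subst h0
      simp only [eisCoeff, if_true]
      norm_num
    · simp [eisCoeff, h0]

/-- `E₂(τ) - 4 E₂(4τ)` -/
def eis4Fun : ℍ → ℂ := -eis2Fun - ((2 : ℤ) : ℂ) • (fun τ => eis2Fun (scaleH 2 τ))

/-- the integral `q`-expansion of `eis4Fun` -/
def eis4Series : PowerSeries ℤ := -eis2Series - PowerSeries.C (2 : ℤ) * ex 2 eis2Series

theorem mfq_eis4 : MFQ 4 2 eis4Fun eis4Series := by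
  have h1 : MFQ 4 2 eis2Fun eis2Series := mfq_eis2.of_dvd (by norm_num)
  have h2 : MFQ (2 * 2) 2 (fun τ => eis2Fun (scaleH 2 τ)) (ex 2 eis2Series) :=
    mfq_eis2.comp_scale 2
  exact h1.neg.sub (h2.smul 2)

theorem coeff_zero_eis4Series : PowerSeries.coeff 0 eis4Series = -3 := by
  rw [eis4Series, map_sub, map_neg, PowerSeries.coeff_C_mul, coeff_ex, eis2Series,
    PowerSeries.coeff_mk]
  norm_num

theorem coeff_one_eis4Series : PowerSeries.coeff 1 eis4Series = -24 := by
  have h : sigmaP 2 1 = 1 := Fermat.Agent.S16.helper24.sigmaP_one Nat.prime_two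
  rw [eis4Series, map_sub, map_neg, PowerSeries.coeff_C_mul, coeff_ex, eis2Series,
    PowerSeries.coeff_mk, h]
  norm_num

/-! ### Jacobi's identity -/

theorem dedekindPsi_four' : ModularCurve.dedekindPsi 4 = 6 := by decide +kernel

/-- **Jacobi's identity in `ℤ⟦q⟧`.** -/
theorem jacobi4_series : eis4Series = PowerSeries.C (-3 : ℤ) * lam4Series ^ 2 := by
  refine mfq_eis4.eq_of_coeff (mfq_lam4_sq.smul (-3)) fun n hn => ?_
  rw [dedekindPsi_four'] at hn
  have hn' : n ≤ 1 := by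
    have : ((2 : ℤ) * ((6 : ℕ) : ℤ)).toNat / 12 = 1 := by decide
    omega
  rw [PowerSeries.coeff_C_mul]
  interval_cases n
  · rw [coeff_zero_eis4Series, tr_lam4Series_sq 0 (by norm_num)]
    rfl
  · rw [coeff_one_eis4Series, tr_lam4Series_sq 1 (by norm_num)]
    rfl

/-- **Jacobi's identity for functions on `ℍ`** (Eisenstein side in the `eisFun` form). -/
theorem jacobi4_fun_eis : eis4Fun = ((-3 : ℤ) : ℂ) • (lam4 ^ 2 : ℍ → ℂ) := by
  have hs := mfq_eis4.sub (mfq_lam4_sq.smul (-3))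
  have h0 : eis4Fun - ((-3 : ℤ) : ℂ) • (lam4 ^ 2 : ℍ → ℂ) = 0 := by
    refine Fermat.Agent.P2.helper66.sturm_isMF hs.isMF fun n _ => ?_
    rw [hs.qexp, jacobi4_series, sub_self, map_zero]
    simp
  exact sub_eq_zero.mp h0

/-! ### The classical form -/

theorem heckeDiag_smul_eq_scaleH (d : ℕ) [NeZero d] (τ : ℍ) :
    heckeDiagMatrix d • τ = scaleH d τ := by
  apply UpperHalfPlane.ext
  rw [coe_heckeDiagMatrix_smul (NeZero.ne d)]
  rfl

theorem scaleH_two_two (τ : ℍ) : scaleH 2 (scaleH 2 τ) = scaleH 4 τ := by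
  apply UpperHalfPlane.ext
  rw [Fermat.Agent.S24.helper17.coe_scaleH, Fermat.Agent.S24.helper17.coe_scaleH,
    Fermat.Agent.S24.helper17.coe_scaleH]
  push_cast
  ring

theorem eis2Fun_apply (τ : ℍ) :
    eis2Fun τ = 2 * EisensteinSeries.E2 (scaleH 2 τ) - EisensteinSeries.E2 τ := by
  unfold eis2Fun
  rw [Pi.smul_apply, Fermat.Agent.S16.helper24.eisFun_apply (by norm_num : (2 : ℕ) ≠ 0),
    heckeDiag_smul_eq_scaleH]
  simp only [smul_eq_mul]
  push_cast
  ring

theorem eis4Fun_apply (τ : ℍ) :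
    eis4Fun τ = EisensteinSeries.E2 τ - 4 * EisensteinSeries.E2 (scaleH 4 τ) := by
  unfold eis4Fun
  simp only [Pi.sub_apply, Pi.neg_apply, Pi.smul_apply, smul_eq_mul]
  rw [eis2Fun_apply, eis2Fun_apply, scaleH_two_two]
  push_cast
  ring

/-- **Jacobi's identity** `E₂(τ) - 4 E₂(4τ) = -3 lam4(τ)²`. -/
theorem jacobi4_fun (τ : ℍ) :
    EisensteinSeries.E2 τ - 4 * EisensteinSeries.E2 (scaleH 4 τ) = -3 * lam4 τ ^ 2 := by
  rw [← eis4Fun_apply, jacobi4_fun_eis]
  simp only [Pi.smul_apply, Pi.pow_apply, smul_eq_mul]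
  push_cast
  ring

end Fermat.Agent.T3.helper14

end
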