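import Mathlib
import Fermat.Agent.T3.helper16_Ideal3Ker
import Fermat.Agent.T3.helper5_Gauss3BMid
import Fermat.Agent.T3.helper95_BtDed

/-!
# T3 / [IDEAL3], box `ker2` (`hker` at the MIDDLE component `c = 2`) for `q = 2` (helper16)

For `q = 2` the middle component is reduced: `ζ = -1`, `1 - ζ = 2 = q`, and the Gauss values of
the `I`-fixed functions at the middle cusp lie in `q ^ ℤ` (helper5, `gaussIs_ex3_two`).
The unit `b := β₂ b₀ / α₂ b₀` has Gauss constants `(1, 1, q)`: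

* `IsUnit0.rho3_ratio`      : `Rho3 (β₂ b₀ / α₂ b₀) (ν^q / ν, ε B⁻¹ / (ε B⁻¹(t^q)), 0)`;
* `IsUnit0.gaussIs_ratio2`  : `w₃(β₂ b₀ / α₂ b₀) = v(q)`;
* `IsUnit0.ker_div2`        : divisibility at the middle component by `b` (`q = 2`);
* `IsUnit0.ker2_two`        : the field `ker2` of `helper72.OpenBoxes` VERBATIM (`q = 2`).
-/

set_option autoImplicit false
set_option synthInstance.maxHeartbeats 400000
set_option linter.style.haveILetI false
set_option linter.unusedSectionVars false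
set_option linter.unusedVariables false
set_option linter.style.longLine false

noncomputable section

open HahnSeries IntermediateField AlgebraicCurve ModularCurve
open Fermat.Agent.S18.helper19 Fermat.Agent.P2.helper29 Fermat.Agent.T2.helper36

namespace Fermat.Agent.T3.helper16

open Fermat.Agent.S24 Fermat.Agent.S24.helper17 Fermat.Agent.S24.helper77
open Fermat.Agent.P2.helper66 (iota inv1 coeffMap_iota iota_ex mul_inv1)
open Fermat.Agent.T3.helper74 (ex3 IsFixI IsInt3)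
open Fermat.Agent.T3.helper72 (Red3)
open Fermat.Agent.T3.helper36 (RhoQ GaussIs)
open Fermat.Agent.T3.helper49 (Rho3 TorBase)
open Fermat.Agent.T3.helper98 (IsRegJ regJRing)
open Fermat.Agent.T3.helper95 (BtAll)

/-- cancelling a common scalar in a quotient -/
theorem scaled_mul_inv {K : Type*} [Field K] {c x y : K} (hc : c ≠ 0) :
    (c * x) * (c * y)⁻¹ = x * y⁻¹ := by
  rw [mul_inv, mul_mul_mul_comm, mul_inv_cancel₀ hc, one_mul]

/-- a primitive square root of unity in `Kb`: `1 - ζ = 2` -/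
theorem one_sub_of_two {q : ℕ} (hq2 : q = 2) {ζ : Kb} (hζ : IsPrimitiveRoot ζ q) :
    (1 : Kb) - ζ = (q : Kb) := by
  subst hq2
  rw [hζ.eq_neg_one_of_two_right]
  norm_num

section Boxes

variable {N q : ℕ} [NeZero N] [NeZero q] {hq : q.Prime} {hqN : ¬ q ∣ N}

namespace IsUnit0

variable {b0 : FF (N * q)} {B : PowerSeries ℤ} {ε : ℤ} (h : IsUnit0 hq hqN b0 B ε)
include h

variable (A : ValuationSubring Kb) {ζ : Kb} (hζ : IsPrimitiveRoot ζ q)

theorem beta_ne_zero : heckeBetaBar Kb (N * q) q b0 ≠ 0 :=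
  (map_ne_zero_iff _ (heckeBetaBar Kb (N * q) q).toRingHom.injective).mpr h.ne_zero

/-- the reduction of `q⁻¹ · α₂ b₀` at the cusp `0` is nonzero -/
theorem red_alpha1_ne_zero :
    algebraMap (kA A) (LaurentSeries (kA A)) ((ε : ℤ) : kA A) *
      iota (kA A) (Fermat.Agent.P2.helper66.ex q (inv1 B)) ≠ 0 :=
  sgn_mul_iota_ne_zero A h.sign (constantCoeff_ex q (constantCoeff_inv1 h.const))

/-- the reduction of `q⁻¹ · β₂ b₀` at the cusp `0` is nonzero -/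
theorem red_beta1_ne_zero :
    algebraMap (kA A) (LaurentSeries (kA A)) ((ε : ℤ) : kA A) * iota (kA A) (inv1 B) ≠ 0 :=
  sgn_mul_iota_ne_zero A h.sign (constantCoeff_inv1 h.const)

/-- the reduction triple of `β₂ b₀ / α₂ b₀` -/
def ratioTriple (A : ValuationSubring Kb) (B : PowerSeries ℤ) (ε : ℤ) (q : ℕ) [NeZero q] :
    Fin 3 → LaurentSeries (kA A) :=
  ![iota (kA A) B ^ q * (iota (kA A) B)⁻¹,
    (algebraMap (kA A) (LaurentSeries (kA A)) ((ε : ℤ) : kA A) * iota (kA A) (inv1 B)) *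
      (algebraMap (kA A) (LaurentSeries (kA A)) ((ε : ℤ) : kA A) *
        iota (kA A) (Fermat.Agent.P2.helper66.ex q (inv1 B)))⁻¹,
    0]

omit h in
theorem ratioTriple_two : ratioTriple A B ε q 2 = 0 := rfl

theorem ratioTriple_zero_ne : ratioTriple A B ε q 0 ≠ 0 :=
  mul_ne_zero (pow_ne_zero _ (h.nu_ne_zero A)) (inv_ne_zero (h.nu_ne_zero A))

theorem ratioTriple_one_ne : ratioTriple A B ε q 1 ≠ 0 :=
  mul_ne_zero (h.red_beta1_ne_zero A) (inv_ne_zero (h.red_alpha1_ne_zero A))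

/-- `β₂ b₀ / α₂ b₀` is fixed by the inertia group -/
theorem isFixI_ratio :
    IsFixI A (N * q * q) (heckeBetaBar Kb (N * q) q b0 * (heckeAlphaBar Kb (N * q) q b0)⁻¹) :=
  Fermat.Agent.T3.helper98.isFixI_mul A (h.isFixI_beta A)
    (Fermat.Agent.T3.helper98.isFixI_inv A (h.isFixI_alpha A))

/-- `β₂ b₀ / α₂ b₀` at the cusp `0`: both have Gauss value `v(q)`. -/
theorem rhoQ_ratio1 :
    RhoQ A (ex3 N q hq hqN hζ 1
        (heckeBetaBar Kb (N * q) q b0 * (heckeAlphaBar Kb (N * q) q b0)⁻¹))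
      (ratioTriple A B ε q 1) := by
  have h1 := (h.rhoQ_beta1 A hζ).mul ((h.rhoQ_alpha1 A hζ).inv (h.red_alpha1_ne_zero A))
  have hc : algebraMap Kb (LaurentSeries Kb) (q : Kb)⁻¹ ≠ 0 :=
    (map_ne_zero _).mpr (inv_ne_zero h.q_ne_zero)
  rw [scaled_mul_inv hc] at h1
  rw [map_mul, map_inv₀]
  exact h1

/-- **the reduction triple of `β₂ b₀ / α₂ b₀`**: `(ν^q / ν, unit, 0)`. -/
theorem rho3_ratio (hA : A.LiesOverPrime q) :
    Rho3 N q hq hqN A hζ
      (heckeBetaBar Kb (N * q) q b0 * (heckeAlphaBar Kb (N * q) q b0)⁻¹)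
      (ratioTriple A B ε q) := by
  obtain ⟨-, hb⟩ := h.rho3_beta A hζ hA
  obtain ⟨-, ha⟩ := h.rho3_alpha A hζ hA
  refine ⟨h.isFixI_ratio A, ?_⟩
  intro i
  fin_cases i
  · rw [red3_iff_rhoQ, map_mul, map_inv₀]
    exact ((red3_iff_rhoQ A hζ 0 _ _).mp (hb 0)).mul
      (((red3_iff_rhoQ A hζ 0 _ _).mp (ha 0)).inv (h.nu_ne_zero A))
  · exact h.rhoQ_ratio1 A hζ
  · rw [red3_iff_rhoQ, map_mul, map_inv₀]
    have h2 := ((red3_iff_rhoQ A hζ 2 _ _).mp (hb 2)).mul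
      (((red3_iff_rhoQ A hζ 2 _ _).mp (ha 2)).inv (h.nu_ne_zero A))
    have e : (![iota (kA A) B ^ q, 0, 0] : Fin 3 → LaurentSeries (kA A)) 2 *
        ((![iota (kA A) B, 0, iota (kA A) B] : Fin 3 → LaurentSeries (kA A)) 2)⁻¹ =
        ratioTriple A B ε q 2 := by
      show (0 : LaurentSeries (kA A)) * _ = 0
      rw [zero_mul]
    rw [e] at h2
    exact h2

/-- `w₃(β₂ b₀ / α₂ b₀) = v(q)` -/
theorem gaussIs_ratio2 (hA : A.LiesOverPrime q) :
    GaussIs A (ex3 N q hq hqN hζ 2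
        (heckeBetaBar Kb (N * q) q b0 * (heckeAlphaBar Kb (N * q) q b0)⁻¹)) (q : Kb) := by
  have h1 := (h.gaussIs_beta2 A hζ hA).mul (h.gaussIs_alpha2 A hζ).inv
  rw [inv_one, mul_one] at h1
  rw [map_mul, map_inv₀]
  exact h1

/-- `β₂ b₀ / α₂ b₀` is regular where `j` is finite -/
theorem mem_regJ_ratio :
    heckeBetaBar Kb (N * q) q b0 * (heckeAlphaBar Kb (N * q) q b0)⁻¹ ∈ regJRing (N * q * q) :=
  (regJRing (N * q * q)).mul_mem h.mem_regJ_beta h.mem_regJ_alpha_inv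

/-- `α₂ b₀ / β₂ b₀` is regular where `j` is finite -/
theorem mem_regJ_ratio_inv :
    (heckeBetaBar Kb (N * q) q b0 * (heckeAlphaBar Kb (N * q) q b0)⁻¹)⁻¹ ∈
      regJRing (N * q * q) := by
  rw [mul_inv, inv_inv]
  exact (regJRing (N * q * q)).mul_mem h.mem_regJ_beta_inv h.mem_regJ_alpha

theorem ratio_ne_zero :
    heckeBetaBar Kb (N * q) q b0 * (heckeAlphaBar Kb (N * q) q b0)⁻¹ ≠ 0 :=
  mul_ne_zero h.beta_ne_zero (inv_ne_zero h.alpha_ne_zero)

/-- **divisibility at the middle component** by `β₂ b₀ / α₂ b₀`, for `q = 2`. -/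
theorem ker_div2 (hq2 : q = 2) (hA : A.LiesOverPrime q) (g : FF (N * q * q))
    (X : Fin 3 → LaurentSeries (kA A)) (ρ : Rho3 N q hq hqN A hζ g X) (hX : X 2 = 0) :
    ∃ X', Rho3 N q hq hqN A hζ
      (g * (1 * (heckeBetaBar Kb (N * q) q b0 * (heckeAlphaBar Kb (N * q) q b0)⁻¹)⁻¹)) X' := by
  rcases eq_or_ne g 0 with rfl | hg0
  · refine ⟨0, ?_⟩
    rw [zero_mul]
    exact ⟨fun σ _ => map_zero _, fun i => by
      rw [red3_iff_rhoQ, map_zero]
      exact Fermat.Agent.T3.helper36.rhoQ_zero⟩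
  obtain ⟨hfix, hred⟩ := ρ
  obtain ⟨hbfix, hbred⟩ := h.rho3_ratio A hζ hA
  obtain ⟨m, hm⟩ := Fermat.Agent.T3.helper5.gaussIs_ex3_two (hq := hq) (hqN := hqN) hA hζ hg0 hfix
  rw [one_sub_of_two hq2 hζ] at hm
  have h0 : RhoQ A (ex3 N q hq hqN hζ 2 g) 0 := by
    have := hred 2
    rwa [hX] at this
  obtain ⟨r0, hr0⟩ := exists_rhoQ_div A hm h0 (h.gaussIs_ratio2 A hζ hA)
  refine ⟨![X 0 * (ratioTriple A B ε q 0)⁻¹, X 1 * (ratioTriple A B ε q 1)⁻¹, r0], ?_, ?_⟩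
  · exact Fermat.Agent.T3.helper98.isFixI_mul A hfix
      (Fermat.Agent.T3.helper98.isFixI_mul A (Fermat.Agent.T3.helper98.isFixI_one A)
        (Fermat.Agent.T3.helper98.isFixI_inv A hbfix))
  · intro i
    rw [red3_iff_rhoQ, one_mul, map_mul, map_inv₀]
    fin_cases i
    · exact ((red3_iff_rhoQ A hζ 0 _ _).mp (hred 0)).mul
        (((red3_iff_rhoQ A hζ 0 _ _).mp (hbred 0)).inv (h.ratioTriple_zero_ne A))
    · exact ((red3_iff_rhoQ A hζ 1 _ _).mp (hred 1)).mul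
        (((red3_iff_rhoQ A hζ 1 _ _).mp (hbred 1)).inv (h.ratioTriple_one_ne A))
    · exact hr0

/-- **the box `ker2` of `helper72.OpenBoxes` (`= Ideal3Rest.hker` at `c = 2`) for `q = 2`**,
VERBATIM: `(b, s) = (β₂ b₀ / α₂ b₀, 1)`. -/
theorem ker2_two (hq2 : q = 2) (hA : A.LiesOverPrime q) :
    ∃ (b s : FF (N * q * q)) (Xb Xs : Fin 3 → LaurentSeries (kA A)),
      IsRegJ (N * q * q) b ∧ IsRegJ (N * q * q) s ∧ b ≠ 0 ∧ IsRegJ (N * q * q) (s * b⁻¹) ∧
      Rho3 N q hq hqN A hζ b Xb ∧ Rho3 N q hq hqN A hζ s Xs ∧ Xb 2 = 0 ∧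
      (∃ z ∈ BtAll N A, Xs 2 * z = 1) ∧
      ∀ (g : FF (N * q * q)) (X : Fin 3 → LaurentSeries (kA A)), Rho3 N q hq hqN A hζ g X →
        X 2 = 0 → ∃ X', Rho3 N q hq hqN A hζ (g * (s * b⁻¹)) X' := by
  refine ⟨heckeBetaBar Kb (N * q) q b0 * (heckeAlphaBar Kb (N * q) q b0)⁻¹, 1,
    ratioTriple A B ε q, 1, h.mem_regJ_ratio, Fermat.Agent.T3.helper98.isRegJ_one,
    h.ratio_ne_zero, ?_, h.rho3_ratio A hζ hA, Fermat.Agent.T3.helper49.rho3_one, rfl,
    ⟨1, (BtAll N A).one_mem, by simp⟩, ?_⟩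
  · rw [one_mul]
    exact h.mem_regJ_ratio_inv
  · intro g X ρ hX
    exact h.ker_div2 A hζ hq2 hA g X ρ hX

end IsUnit0

end Boxes

end Fermat.Agent.T3.helper16

end
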