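import Mathlib
import Fermat.Agent.T3.helper49_TorInst
import Fermat.Agent.T3.helper87_NormPow3
import Fermat.Agent.T3.helper36_Gauss3A
import Fermat.Agent.T3.helper95_Surj3

/-!
# Tier 3 (helper22): [FFB3] the reductions of the inertia-fixed functions lie in `FFb A N`

Box `hfrac` of `helper22.Ideal3Box`: if `helper49.Rho3 f X` (`f` is `I`-fixed with reduction
triple `X`, quotient form) then `X c ∈ FFb A N` for the three cusps.

* `c = 0, 1` : `helper36.scaleStatement_sq` (the residue field of the Gauss valuation at `∞` of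
  `F_{Nqq}` is `FFb A (N q q) = FFb A N`);
* `c = 2` : the norm table gives `X 0 * X 2 ^ (q - 1) ∈ FFb`, also for `f + 1`, `f + 2`, and an
  element `y` of a field of characteristic `q` with `y ^ (q - 1)`, `(y + d) ^ (q - 1)` in a
  subfield `L` (`d ≠ 0` in the prime field) lies in `L` (`mem_of_pow_pred_mem`).
-/

set_option autoImplicit false
set_option synthInstance.maxHeartbeats 400000
set_option linter.unusedSectionVars false
set_option linter.unusedVariables false
set_option linter.style.longLine false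
set_option linter.style.haveILetI false

noncomputable section

open HahnSeries IntermediateField AlgebraicCurve ModularCurve
open Fermat.Agent.S18.helper19 Fermat.Agent.P2.helper29 Fermat.Agent.T2.helper36

namespace Fermat.Agent.T3.helper22

open Fermat.Agent.T3.helper74 (ex3 IsFixI)
open Fermat.Agent.T3.helper72 (Red3)
open Fermat.Agent.T3.helper49 (Rho3 naF)

/-! ### The field lemma -/

section Field

variable {L : Type*} [Field L] (q : ℕ) [Fact q.Prime] [CharP L q]

/-- an element `y` with `y ^ (q - 1)` and `(y + d) ^ (q - 1)` in the subfield `S`, `d ≠ 0` in the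
prime field, lies in `S` -/
theorem mem_of_pow_pred_mem (S : Subfield L) {y : L} {d : ℕ} (hd : (d : L) ≠ 0)
    (ha : y ^ (q - 1) ∈ S) (hb : (y + d) ^ (q - 1) ∈ S) : y ∈ S := by
  have hq : q ≠ 0 := (Fact.out : q.Prime).ne_zero
  have e1 : y ^ q = y ^ (q - 1) * y := (pow_sub_one_mul hq y).symm
  have e2 : (y + d) ^ q = (y + d) ^ (q - 1) * (y + d) := (pow_sub_one_mul hq _).symm
  have e3 : (y + d) ^ q = y ^ q + d := by
    rw [add_pow_char (p := q) y (d : L)]
    congr 1
    have := map_natCast (frobenius L q) d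
    rwa [frobenius_def] at this
  have key : (y + d) ^ (q - 1) * (y + d) = y ^ (q - 1) * y + d := by rw [← e2, e3, e1]
  by_cases hab : (y + d) ^ (q - 1) = y ^ (q - 1)
  · have h1 : y ^ (q - 1) * (d : L) = d := by
      rw [hab] at key
      linear_combination key
    have h2 : y ^ (q - 1) = 1 := by
      have : (y ^ (q - 1) - 1) * (d : L) = 0 := by linear_combination h1
      rcases mul_eq_zero.mp this with h | h
      · exact sub_eq_zero.mp h
      · exact absurd h hd
    have h3 : y ^ q = y := by rw [e1, h2, one_mul]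
    have h4 : y ∈ (⊥ : Subfield L) := (Subfield.mem_bot_iff_pow_eq_self L q).mpr h3
    exact (bot_le : (⊥ : Subfield L) ≤ S) h4
  · have hne : (y + d) ^ (q - 1) - y ^ (q - 1) ≠ 0 := sub_ne_zero.mpr hab
    have h1 : y = ((d : L) - (y + d) ^ (q - 1) * d) / ((y + d) ^ (q - 1) - y ^ (q - 1)) := by
      rw [eq_div_iff hne]
      linear_combination key
    rw [h1]
    exact S.div_mem (S.sub_mem (natCast_mem S d) (S.mul_mem hb (natCast_mem S d)))
      (S.sub_mem hb ha)

end Field

/-! ### The reductions -/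

section FFB

open Fermat.Agent.T3.helper87 (QuotRed exists_pow_of_scale)
open Fermat.Agent.T3.helper48 (atkinLehnerSq)

variable {N q : ℕ} [NeZero N] [NeZero q] {hq : q.Prime} {hqN : ¬ q ∣ N}
  {A : ValuationSubring Kb} {ζ : Kb} {hζ : IsPrimitiveRoot ζ q}

/-- `FFb A (N q q) = FFb A N` -/
theorem ffb_sq_eq (hq : q.Prime) (hA : A.LiesOverPrime q) : FFb A (N * q * q) = FFb A N :=
  (Fermat.Agent.T2.helper96.FFb_mul_eq (N * q) A hq hA).trans
    (Fermat.Agent.T2.helper96.FFb_mul_eq N A hq hA)

/-- the Gauss reduction (at `∞`) of a function of level `N q q` lies in `FFb A N` -/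
theorem mem_FFb_of_quotRed (hq : q.Prime) (hqN : ¬ q ∣ N) (hA : A.LiesOverPrime q)
    (w : FF (N * q * q)) {x : LaurentSeries (kA A)}
    (h : QuotRed A (w : LaurentSeries Kb) x) : x ∈ FFb A N := by
  by_cases hx : x = 0
  · rw [hx]
    exact zero_mem _
  have h' : QuotRed A ((algebraMap Kb (FF (N * q * q)) 1 * w ^ 1 : FF (N * q * q)) :
      LaurentSeries Kb) x := by
    rw [map_one, one_mul, pow_one]
    exact h
  obtain ⟨a, ha, -, e⟩ := exists_pow_of_scale (N * q * q)
    (Fermat.Agent.T3.helper36.scaleStatement_sq hq hqN A hA) one_ne_zero 1 w h' hx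
  rw [e, pow_one, ← ffb_sq_eq hq hA]
  exact ha

/-- **[FFB3] at `∞`** -/
theorem ffb3_zero (hA : A.LiesOverPrime q) {f : FF (N * q * q)}
    {X : Fin 3 → LaurentSeries (kA A)} (h : Rho3 N q hq hqN A hζ f X) : X 0 ∈ FFb A N := by
  have h0 : Red3 N q hq hqN A hζ 0 f (X 0) := h.2 0
  have h1 : QuotRed A (ex3 N q hq hqN hζ 0 f) (X 0) := h0
  rw [Fermat.Agent.T3.helper98.ex3_zero] at h1
  exact mem_FFb_of_quotRed hq hqN hA f h1

/-- **[FFB3] at the cusp `0`** -/
theorem ffb3_one (hA : A.LiesOverPrime q) {f : FF (N * q * q)}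
    {X : Fin 3 → LaurentSeries (kA A)} (h : Rho3 N q hq hqN A hζ f X) : X 1 ∈ FFb A N := by
  have h0 : Red3 N q hq hqN A hζ 1 f (X 1) := h.2 1
  have h1 : QuotRed A (ex3 N q hq hqN hζ 1 f) (X 1) := h0
  rw [Fermat.Agent.T3.helper98.ex3_one] at h1
  exact mem_FFb_of_quotRed hq hqN hA _ h1

/-- the norm table: `X 2 ^ (q - 1) ∈ FFb` if `X 0 ≠ 0` -/
theorem pow_two_mem_FFb (hA : A.LiesOverPrime q) {f : FF (N * q * q)}
    {X : Fin 3 → LaurentSeries (kA A)} (h : Rho3 N q hq hqN A hζ f X) (h0 : X 0 ≠ 0) :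
    X 2 ^ (q - 1) ∈ FFb A N := by
  have h1 : naF (q - 1) X 0 ∈ FFb A N := ffb3_zero hA (h.normA hA)
  have h2 : naF (q - 1) X 0 = X 0 * X 2 ^ (q - 1) := rfl
  rw [h2] at h1
  have h3 : X 2 ^ (q - 1) = (X 0)⁻¹ * (X 0 * X 2 ^ (q - 1)) := by
    rw [← mul_assoc, inv_mul_cancel₀ h0, one_mul]
  rw [h3]
  exact mul_mem (inv_mem (ffb3_zero hA h)) h1

/-- **[FFB3] at the middle cusp** -/
theorem ffb3_two (hA : A.LiesOverPrime q) {f : FF (N * q * q)}
    {X : Fin 3 → LaurentSeries (kA A)} (h : Rho3 N q hq hqN A hζ f X) : X 2 ∈ FFb A N := by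
  haveI : Fact q.Prime := ⟨hq⟩
  haveI : CharP (kA A) q := Fermat.Agent.P2.helper93.charP_residueField hq hA
  haveI : CharP (LaurentSeries (kA A)) q :=
    charP_of_injective_ringHom (f := (HahnSeries.C : kA A →+* LaurentSeries (kA A)))
      HahnSeries.C_injective q
  have hone : Rho3 N q hq hqN A hζ (f + 1) (X + 1) := h.add Fermat.Agent.T3.helper49.rho3_one
  have htwo : Rho3 N q hq hqN A hζ (f + 1 + 1) (X + 1 + 1) :=
    hone.add Fermat.Agent.T3.helper49.rho3_one
  have e1 : (X + 1) 0 = X 0 + 1 := rfl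
  have e2 : (X + 1 + 1) 0 = X 0 + 1 + 1 := rfl
  have f1 : (X + 1) 2 = X 2 + 1 := rfl
  have f2 : (X + 1 + 1) 2 = X 2 + 1 + 1 := rfl
  have hsub : ∀ {y c : LaurentSeries (kA A)}, c ∈ FFb A N → y + c ∈ FFb A N → y ∈ FFb A N := by
    intro y c hc hy
    have : y = y + c - c := by ring
    rw [this]
    exact sub_mem hy hc
  have h1mem : (1 : LaurentSeries (kA A)) ∈ FFb A N := one_mem _
  by_cases hq2 : q = 2
  · -- `q - 1 = 1`
    have e : q - 1 = 1 := by omega
    by_cases h0 : X 0 = 0
    · have h1 := pow_two_mem_FFb hA hone (by rw [e1, h0, zero_add]; exact one_ne_zero)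
      rw [e, pow_one, f1] at h1
      exact hsub h1mem h1
    · have h1 := pow_two_mem_FFb hA h h0
      rwa [e, pow_one] at h1
  · have h2ne : ((2 : ℕ) : LaurentSeries (kA A)) ≠ 0 := by
      intro h0
      have := (CharP.cast_eq_zero_iff (LaurentSeries (kA A)) q 2).mp h0
      exact hq2 ((Nat.prime_dvd_prime_iff_eq hq Nat.prime_two).mp this)
    have h1ne : ((1 : ℕ) : LaurentSeries (kA A)) ≠ 0 := by
      rw [Nat.cast_one]
      exact one_ne_zero
    by_cases h0 : X 0 = 0
    · have a1 := pow_two_mem_FFb hA hone (by rw [e1, h0, zero_add]; exact one_ne_zero)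
      have a2 := pow_two_mem_FFb hA htwo (by
        rw [e2, h0, zero_add]
        have : (1 : LaurentSeries (kA A)) + 1 = ((2 : ℕ) : LaurentSeries (kA A)) := by
          push_cast; norm_num
        rw [this]
        exact h2ne)
      rw [f1] at a1
      rw [f2] at a2
      have := mem_of_pow_pred_mem (L := LaurentSeries (kA A)) q (FFb A N).toSubfield
        (y := X 2 + 1) (d := 1) h1ne a1 (by rw [Nat.cast_one]; exact a2)
      exact hsub h1mem this
    · have a0 := pow_two_mem_FFb hA h h0
      by_cases h1 : X 0 + 1 = 0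
      · have a2 := pow_two_mem_FFb hA htwo (by
          rw [e2, h1, zero_add]
          exact one_ne_zero)
        rw [f2] at a2
        exact mem_of_pow_pred_mem (L := LaurentSeries (kA A)) q (FFb A N).toSubfield
          (y := X 2) (d := 2) h2ne a0 (by
            have : X 2 + ((2 : ℕ) : LaurentSeries (kA A)) = X 2 + 1 + 1 := by
              push_cast; ring
            rw [this]
            exact a2)
      · have a1 := pow_two_mem_FFb hA hone (by rw [e1]; exact h1)
        rw [f1] at a1
        exact mem_of_pow_pred_mem (L := LaurentSeries (kA A)) q (FFb A N).toSubfield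
          (y := X 2) (d := 1) h1ne a0 (by rw [Nat.cast_one]; exact a1)

/-- **[FFB3]** the reductions of an inertia-fixed function lie in `FFb A N`. -/
theorem ffb3 (hA : A.LiesOverPrime q) {f : FF (N * q * q)}
    {X : Fin 3 → LaurentSeries (kA A)} (h : Rho3 N q hq hqN A hζ f X) (c : Fin 3) :
    X c ∈ FFb A N := by
  fin_cases c
  · exact ffb3_zero hA h
  · exact ffb3_one hA h
  · exact ffb3_two hA h

/-- **the box `hfrac`** of `helper22.Ideal3Box`, for every ring of reductions containing
`Bt A N` (the functions of the special fibre regular off `∞`). -/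
theorem hfrac_of_le (hA : A.LiesOverPrime q) (Bt' : Subring (LaurentSeries (kA A)))
    (hle : ∀ z : LaurentSeries (kA A), z ∈ Fermat.Agent.T2.helper22.Bt A N → z ∈ Bt')
    {f : FF (N * q * q)} {X : Fin 3 → LaurentSeries (kA A)}
    (h : Rho3 N q hq hqN A hζ f X) (c : Fin 3) :
    ∃ a ∈ Bt', ∃ b ∈ Bt', b ≠ 0 ∧ X c * b = a := by
  obtain ⟨x, s, hx, hs, hs0, hxs⟩ := Fermat.Agent.T3.helper95.fracBt N A ⟨X c, ffb3 hA h c⟩
  refine ⟨x, hle _ hx, s, hle _ hs, fun h0 => hs0 (Subtype.ext h0), ?_⟩
  exact congrArg (fun z : FFb A N => (z : LaurentSeries (kA A))) hxs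

end FFB

end Fermat.Agent.T3.helper22

end
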