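/-
TIER 3 (S36), helper16: **[hν]** the reduction `ν = iota (kA A) B` of the weight-one unit `b₀`
lies in `BtAll N A` (the functions of the special fibre regular where `j̄` is finite).

This is the hypothesis `hν` of `helper72.torBaseAll` / `helper72.toric_all` VERBATIM
(`helper72.btAll N A = (helper95.BtAll N A).toSubring`).

Proof: `α₂ b₀` is regular where `j` is finite (`IsUnit0.mem_regJ_alpha`), is fixed by the
inertia group and has the reduction triple `(ν, 0, ν)` (`IsUnit0.rho3_alpha`); [FFB3]
(helper22) puts `ν` in the function field of the special fibre, [RES] (helper98) in `BtAll`.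
-/
import Mathlib
import Fermat.Agent.T3.helper16_UnitReal
import Fermat.Agent.T3.helper22_FFB3
import Fermat.Agent.T3.helper98_ResBox
import Fermat.Agent.T3.helper72_TorAll

set_option autoImplicit false
set_option synthInstance.maxHeartbeats 400000
set_option maxHeartbeats 1000000
set_option linter.style.haveILetI false
set_option linter.unusedSectionVars false
set_option linter.unusedVariables false
set_option linter.style.longLine false

noncomputable section

open HahnSeries IntermediateField AlgebraicCurve ModularCurve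
open Fermat.Agent.S18.helper19 Fermat.Agent.P2.helper29 Fermat.Agent.T2.helper36

namespace Fermat.Agent.T3.helper16

open Fermat.Agent.S24 Fermat.Agent.S24.helper17 Fermat.Agent.S24.helper77
open Fermat.Agent.P2.helper66 (iota)
open Fermat.Agent.T3.helper74 (ex3 IsFixI IsInt3)
open Fermat.Agent.T3.helper72 (Red3)
open Fermat.Agent.T3.helper49 (Rho3 nuJ)
open Fermat.Agent.T3.helper98 (IsRegJ regJRing)
open Fermat.Agent.T3.helper95 (BtAll mem_BtAll)

variable {N q : ℕ} [NeZero N] [NeZero q] {hq : q.Prime} {hqN : ¬ q ∣ N}

namespace IsUnit0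

variable {b0 : FF (N * q)} {B : PowerSeries ℤ} {ε : ℤ} (h : IsUnit0 hq hqN b0 B ε)
include h

variable (A : ValuationSubring Kb)

/-- **[hν]**: the reduction of the unit is regular where `j̄` is finite. -/
theorem nu_mem_BtAll (hA : A.LiesOverPrime q) : iota (kA A) B ∈ BtAll N A := by
  obtain ⟨ζ, hζ⟩ := HasEnoughRootsOfUnity.exists_primitiveRoot Kb q
  have ρ := h.rho3_alpha A hζ hA
  have hX : (![iota (kA A) B, 0, iota (kA A) B] : Fin 3 → LaurentSeries (kA A)) 0 ∈ FFb A N :=
    Fermat.Agent.T3.helper22.ffb3 hA ρ 0
  exact Fermat.Agent.T3.helper98.mem_BtAll_of_red3 hA hζ h.mem_regJ_alpha ρ.1 ρ.2 0 hX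

/-- **[hν]** in the shape of `helper72.torBaseAll`. -/
theorem nu_mem_btAll (hA : A.LiesOverPrime q) :
    iota (kA A) B ∈ Fermat.Agent.T3.helper72.btAll N A :=
  h.nu_mem_BtAll A hA

end IsUnit0

end Fermat.Agent.T3.helper16

end
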