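/-
T3 (S36), helper19, row 1013 [T3-NORMPOW3]: `helper72.NormPow3Statement`, VERBATIM.

Setting: `q` prime, `q ∤ N`, level `N q q`, `A` a valuation subring of `ℚ̄` over `q`, `ζ` a
primitive `q`-th root of unity, `n ≠ 0`.

* `Rq A g r` : the series `g` is a quotient of two integral series, the denominator with nonzero
  reduction, and the Gauss reduction of `g` is `r` (no function field is involved);
  `helper72.Red3 i f x` is `Rq A (ex3 i f) x` by definition.
* calculus of `Rq` : products, powers, inverses, uniqueness, constants, transport along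
  compatible ring homomorphisms (`t ↦ t^q`, twists by roots of unity, the inertia group).
* `rq_pow_const` : if `G = c V^n`, `G` has the nonzero reduction `s` and `V / c₁` has the nonzero
  reduction `t`, then `s = (γ t)^n` for a constant `γ ≠ 0` (`c c₁^n` is a unit of `A` and the
  residue field is algebraically closed).
* **`normPow3`** : `NormPow3Statement N q hq hqN A hζ n` for `n ≠ 0`, `A` over `q`.

PROOF of `normPow3`.  Let `(x₁, x₂, x₃)` be the reductions of the `I`-fixed unit `h` at `∞`, `0`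
and the middle cusp.  The expansion of `N_α h` at `∞` is `h · ∏_{k ≠ 0} E_k h`
(`helper98.normAlpha_expand`), of reduction `x₁ x₃^(q-1)` (all middle expansions of the `I`-fixed
`h` have the reduction `x₃`); `(N_β h)(t^q) = ∏_k h(ζ^k t)` (`helper98.normBeta_expand`) has the
reduction `x₁^q`, and `(W₁ N_α h)(t^q) = (N_β W₂ h)(t^q)` has the reduction `x₂^q`.  As
`N_α h = c w^n` and `N_β h = c' w'^n`, the Gauss valuation of level `N q`
(`helper36.exists_rhoIs_bad`, residue field `F̃_{Nq} = F̃_N`) and `rq_pow_const` give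
`x₁ x₃^(q-1) = Y_a^n`, `x₁^q = Y_b^n`, `x₂^q = Y_c^n` with `Y_a, Y_b, Y_c ∈ F̃_N` nonzero; hence
`x₁^(q(q-1)) = (Y_b^(q-1))^n`, `x₂^(q(q-1)) = (Y_c^(q-1))^n`, `x₃^(q(q-1)) = (Y_a^q / Y_b)^n`.
-/
import Mathlib
import Fermat.Agent.T3.helper72_Interface3
import Fermat.Agent.T2.helper36_ValBad
import Fermat.Agent.T2.helper96_ValBase

set_option autoImplicit false
set_option synthInstance.maxHeartbeats 400000
set_option linter.style.haveILetI false
set_option linter.unusedSectionVars false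
set_option linter.unusedVariables false
set_option linter.style.longLine false

noncomputable section

open HahnSeries IntermediateField AlgebraicCurve ModularCurve
open Fermat.Agent.S18.helper19 Fermat.Agent.P2.helper29 Fermat.Agent.T2.helper36

namespace Fermat.Agent.T3.helper19

/-! ### The calculus of Gauss reductions of series -/

/-- the series `g` is a quotient `Y₁ / Y₂` of integral series with `red Y₂ ≠ 0` and
`red Y₁ = r · red Y₂`. -/
def Rq (A : ValuationSubring Kb) (g : LaurentSeries Kb) (r : LaurentSeries (kA A)) : Prop :=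
  ∃ Y₁ Y₂ : LaurentSeries A, red A Y₂ ≠ 0 ∧ incl A Y₁ = g * incl A Y₂ ∧ red A Y₁ = r * red A Y₂

section Calculus

variable {A : ValuationSubring Kb}

theorem rq_of_rhoIs {M : ℕ} {f : LaurentSeries Kb} {r : LaurentSeries (kA A)}
    (h : RhoIs A M f r) : Rq A f r := by
  obtain ⟨Y₁, Y₂, -, h2, h3, h4⟩ := h
  exact ⟨Y₁, Y₂, h2.2.2, h3, h4⟩

theorem rq_one : Rq A 1 1 :=
  ⟨1, 1, by rw [map_one]; exact one_ne_zero, by rw [map_one, mul_one], by rw [map_one, mul_one]⟩

theorem Rq.mul {f g : LaurentSeries Kb} {r s : LaurentSeries (kA A)}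
    (hf : Rq A f r) (hg : Rq A g s) : Rq A (f * g) (r * s) := by
  obtain ⟨Y₁, Y₂, h2, h3, h4⟩ := hf
  obtain ⟨Z₁, Z₂, k2, k3, k4⟩ := hg
  refine ⟨Y₁ * Z₁, Y₂ * Z₂, ?_, ?_, ?_⟩
  · rw [map_mul]; exact mul_ne_zero h2 k2
  · rw [map_mul, map_mul, h3, k3]; ring
  · rw [map_mul, map_mul, h4, k4]; ring

theorem Rq.pow {f : LaurentSeries Kb} {r : LaurentSeries (kA A)}
    (hf : Rq A f r) (n : ℕ) : Rq A (f ^ n) (r ^ n) := by
  induction n with
  | zero => rw [pow_zero, pow_zero]; exact rq_one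
  | succ n ih => rw [pow_succ, pow_succ]; exact ih.mul hf

theorem rq_prod {ι : Type*} (s : Finset ι) {f : ι → LaurentSeries Kb}
    {r : ι → LaurentSeries (kA A)} (h : ∀ i ∈ s, Rq A (f i) (r i)) :
    Rq A (∏ i ∈ s, f i) (∏ i ∈ s, r i) := by
  classical
  induction s using Finset.induction_on with
  | empty => rw [Finset.prod_empty, Finset.prod_empty]; exact rq_one
  | insert a s ha ih =>
    rw [Finset.prod_insert ha, Finset.prod_insert ha]
    exact (h a (Finset.mem_insert_self a s)).mul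
      (ih fun i hi => h i (Finset.mem_insert_of_mem hi))

/-- the reduction is unique -/
theorem Rq.unique {f : LaurentSeries Kb} {r s : LaurentSeries (kA A)}
    (hr : Rq A f r) (hs : Rq A f s) : r = s := by
  obtain ⟨Y₁, Y₂, h2, h3, h4⟩ := hr
  obtain ⟨Z₁, Z₂, k2, k3, k4⟩ := hs
  have e : Y₁ * Z₂ = Z₁ * Y₂ := by
    apply incl_injective_val A
    rw [map_mul, map_mul, h3, k3]; ring
  have e' := congrArg (red A) e
  rw [map_mul, map_mul, h4, k4] at e'
  have hne : red A Y₂ * red A Z₂ ≠ 0 := mul_ne_zero h2 k2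
  apply mul_right_cancel₀ hne
  rw [← mul_assoc, e']; ring

theorem Rq.ne_zero {f : LaurentSeries Kb} {r : LaurentSeries (kA A)}
    (hf : Rq A f r) (hr : r ≠ 0) : f ≠ 0 := by
  rintro rfl
  obtain ⟨Y₁, Y₂, h2, h3, h4⟩ := hf
  rw [zero_mul] at h3
  have hY : Y₁ = 0 := incl_injective_val A (h3.trans (map_zero _).symm)
  rw [hY, map_zero] at h4
  exact mul_ne_zero hr h2 h4.symm

/-- inverse of a unit -/
theorem Rq.inv {f : LaurentSeries Kb} {r : LaurentSeries (kA A)}
    (hf : Rq A f r) (hr : r ≠ 0) : Rq A f⁻¹ r⁻¹ := by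
  have hf0 : f ≠ 0 := hf.ne_zero hr
  obtain ⟨Y₁, Y₂, h2, h3, h4⟩ := hf
  have hY₁ : red A Y₁ ≠ 0 := by rw [h4]; exact mul_ne_zero hr h2
  refine ⟨Y₂, Y₁, hY₁, ?_, ?_⟩
  · rw [h3, ← mul_assoc, inv_mul_cancel₀ hf0, one_mul]
  · rw [h4, ← mul_assoc, inv_mul_cancel₀ hr, one_mul]

/-- constants of `A` -/
theorem rq_algebraMap (a : A) :
    Rq A (algebraMap Kb (LaurentSeries Kb) (a : Kb))
      (algebraMap (kA A) (LaurentSeries (kA A)) (IsLocalRing.residue A a)) :=
  rq_of_rhoIs (rhoIs_algebraMap (M := 1) a)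

/-- a constant with a Gauss reduction lies in `A` -/
theorem Rq.algebraMap_mem {c : Kb} {r : LaurentSeries (kA A)}
    (h : Rq A (algebraMap Kb (LaurentSeries Kb) c) r) : c ∈ A := by
  by_contra hc
  have hc0 : c ≠ 0 := fun h0 => hc (h0 ▸ A.zero_mem)
  have hinv : c⁻¹ ∈ A := (A.mem_or_inv_mem c).resolve_left hc
  have hnu : ¬ IsUnit (⟨c⁻¹, hinv⟩ : A) := by
    intro hu
    obtain ⟨u, hu⟩ := hu
    have h1 : ((u⁻¹ : Aˣ) : A) * ⟨c⁻¹, hinv⟩ = 1 := by rw [← hu]; exact u.inv_mul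
    have h2 : (((u⁻¹ : Aˣ) : A) : Kb) * c⁻¹ = 1 := by
      have := congrArg (fun x : A => (x : Kb)) h1
      simpa using this
    have h3 : (((u⁻¹ : Aˣ) : A) : Kb) = c := by
      field_simp at h2
      exact h2
    exact hc (h3 ▸ ((u⁻¹ : Aˣ) : A).2)
  have hres : IsLocalRing.residue A ⟨c⁻¹, hinv⟩ = 0 := by
    rw [IsLocalRing.residue_eq_zero_iff]
    exact (IsLocalRing.mem_maximalIdeal _).2 hnu
  have h' := (rq_algebraMap (⟨c⁻¹, hinv⟩ : A)).mul h
  rw [hres, map_zero, zero_mul] at h'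
  have e : algebraMap Kb (LaurentSeries Kb) ((⟨c⁻¹, hinv⟩ : A) : Kb) *
      algebraMap Kb (LaurentSeries Kb) c = 1 := by
    rw [← map_mul]
    show algebraMap Kb (LaurentSeries Kb) (c⁻¹ * c) = 1
    rw [inv_mul_cancel₀ hc0, map_one]
  rw [e] at h'
  exact one_ne_zero (h'.unique rq_one).symm

theorem Rq.algebraMap_eq {c : Kb} {r : LaurentSeries (kA A)}
    (h : Rq A (algebraMap Kb (LaurentSeries Kb) c) r) :
    r = algebraMap (kA A) (LaurentSeries (kA A)) (IsLocalRing.residue A ⟨c, h.algebraMap_mem⟩) :=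
  h.unique (rq_algebraMap (⟨c, h.algebraMap_mem⟩ : A))

/-- transport of a Gauss reduction along compatible ring homomorphisms -/
theorem Rq.map (φA : LaurentSeries A →+* LaurentSeries A)
    (φ : LaurentSeries Kb →+* LaurentSeries Kb)
    (φk : LaurentSeries (kA A) →+* LaurentSeries (kA A))
    (h1 : ∀ Y, incl A (φA Y) = φ (incl A Y)) (h2 : ∀ Y, red A (φA Y) = φk (red A Y))
    (hinj : Function.Injective φk) {g : LaurentSeries Kb} {r : LaurentSeries (kA A)}
    (h : Rq A g r) : Rq A (φ g) (φk r) := by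
  obtain ⟨Y₁, Y₂, k2, k3, k4⟩ := h
  refine ⟨φA Y₁, φA Y₂, ?_, ?_, ?_⟩
  · rw [h2]
    intro h0
    exact k2 (hinj (h0.trans (map_zero φk).symm))
  · rw [h1, h1, k3, map_mul]
  · rw [h2, h2, k4, map_mul]

end Calculus

/-! ### Transport: `t ↦ t^q`, twists, the inertia group -/

section Transport

open Fermat.Agent.P2.helper93 (twistL twistL_coeff rootUnit coeffMap_subtype_rot
  rootUnit_sub_one_mem actA coeffMap_subtype_actA coeffMap_residue_actA
  decK_eq_id_of_mem_inertia)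
open Fermat.Agent.T2.helper87 (twistHom twistHom_apply)
open Fermat.Agent.T3.helper87
open Fermat.Agent.T3.helper74 (ex3 IsFixI midOne midOne_ne)

variable {A : ValuationSubring Kb} {q : ℕ} [NeZero q]

/-- `g(t) ↦ g(t^q)` -/
theorem Rq.qExp {g : LaurentSeries Kb} {r : LaurentSeries (kA A)} (h : Rq A g r) :
    Rq A (qExpand Kb q g) (qExpand (kA A) q r) :=
  h.map (qExpand A q) (qExpand Kb q) (qExpand (kA A) q)
    (fun Y => Fermat.Agent.P2.helper94.coeffMap_qExpand _ q Y)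
    (fun Y => Fermat.Agent.P2.helper94.coeffMap_qExpand _ q Y)
    (qExpand_injective q)

/-- a twist by a `q`-th root of unity does not change the reduction (`A` over `q`). -/
theorem Rq.twist (hq : q.Prime) (hA : A.LiesOverPrime q) {ζ : Kb} (hζ1 : ζ ^ q = 1) (k : ℕ)
    {g : LaurentSeries Kb} {r : LaurentSeries (kA A)} (h : Rq A g r) :
    Rq A (twistL (ζ ^ k) g) r := by
  have hζ0 : ζ ≠ 0 := by
    rintro rfl
    rw [zero_pow hq.ne_zero] at hζ1
    exact zero_ne_one hζ1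
  have := h.map (Fermat.Agent.P2.helper94.rot (rootUnit A hq.ne_zero hζ1 ^ k))
    (twistHom (ζ ^ k) (pow_ne_zero k hζ0)) (RingHom.id _)
    (fun Y => by
      show coeffMap (A.subtype : ↥A →+* Kb) _ = _
      rw [coeffMap_subtype_rot]
      rfl)
    (fun Y => Fermat.Agent.P2.helper94.coeffMap_rot_of_sub_one_mem (IsLocalRing.maximalIdeal ↥A)
      (rootUnit A hq.ne_zero hζ1 ^ k)
      (Fermat.Agent.T3.helper98.rootUnit_pow_sub_one_mem A hq hA hζ1 k) Y)
    Function.injective_id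
  exact this

/-- the product of the `q` twists reduces to the `q`-th power. -/
theorem Rq.prod_twist (hq : q.Prime) (hA : A.LiesOverPrime q) {ζ : Kb} (hζ1 : ζ ^ q = 1)
    {g : LaurentSeries Kb} {r : LaurentSeries (kA A)} (h : Rq A g r) :
    Rq A (∏ k ∈ Finset.range q, twistL (ζ ^ k) g) (r ^ q) := by
  have := rq_prod (A := A) (Finset.range q) (f := fun k => twistL (ζ ^ k) g) (r := fun _ => r)
    (fun k _ => h.twist hq hA hζ1 k)
  rwa [Finset.prod_const, Finset.card_range] at this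

/-- the inertia group does not change the reduction. -/
theorem Rq.galois {σ : Kb ≃ₐ[ℚ] Kb} (hσ : σ ∈ A.inertiaSubgroupIn ℚ)
    {g : LaurentSeries Kb} {r : LaurentSeries (kA A)} (h : Rq A g r) :
    Rq A (coeffMap (σ : Kb →+* Kb) g) r := by
  obtain ⟨hσD, hid⟩ := decK_eq_id_of_mem_inertia hσ
  have := h.map (actA σ hσD) (coeffMap (σ : Kb →+* Kb)) (RingHom.id _)
    (fun Y => coeffMap_subtype_actA σ hσD Y)
    (fun Y => by
      show coeffMap (IsLocalRing.residue ↥A) _ = _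
      rw [coeffMap_residue_actA, hid, coeffMap_id]
      rfl)
    Function.injective_id
  exact this

variable {N : ℕ} [NeZero N] {hq : q.Prime} {hqN : ¬ q ∣ N}

/-- **independence of the middle cusp**: for an `I`-fixed `g` all middle expansions have the same
reduction. -/
theorem rq_embMid_of_fix (hA : A.LiesOverPrime q) {ζ : Kb} (hζ : IsPrimitiveRoot ζ q)
    (g : FF (N * q * q)) (hg : IsFixI A (N * q * q) g) (k₀ : Fin q) (hk₀ : (k₀ : ℕ) ≠ 0)
    {r : LaurentSeries (kA A)} (h : Rq A (embMid N q hq hqN hζ k₀ hk₀ g) r)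
    (k : Fin q) (hk : (k : ℕ) ≠ 0) :
    Rq A (embMid N q hq hqN hζ k hk g) r := by
  have hcop₀ : Nat.Coprime (k₀ : ℕ) q := by
    rw [Nat.coprime_comm, Nat.Prime.coprime_iff_not_dvd hq]
    intro hd
    exact hk₀ (Nat.eq_zero_of_dvd_of_lt hd k₀.2)
  have hζ₀ : IsPrimitiveRoot (ζ ^ (k₀ : ℕ)) q := hζ.pow_of_coprime _ hcop₀
  have hζk1 : (ζ ^ (k : ℕ)) ^ q = 1 := by
    rw [← pow_mul, mul_comm, pow_mul, hζ.pow_eq_one, one_pow]
  obtain ⟨i, -, hik⟩ := hζ₀.eq_pow_of_pow_eq_one hζk1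
  have hqi : ¬ q ∣ i := by
    intro hd
    obtain ⟨c, rfl⟩ := hd
    rw [pow_mul, hζ₀.pow_eq_one, one_pow] at hik
    have h0 : (k : ℕ) = 0 := hζ.pow_inj k.2 hq.pos (hik.symm.trans (pow_zero ζ).symm)
    exact hk h0
  obtain ⟨σ, hσI, hσ⟩ := Fermat.Agent.T3.helper84.k0_zeta_trans hq A hA hζ₀ hqi
  have h1 := h.galois hσI
  rw [coeffMap_embMid, hg σ hσI] at h1
  have hc := embMid_congr (N := N) (hq := hq) (hqN := hqN) hζ
    (hζ.map_of_injective (f := σ) σ.injective) k k₀ hk hk₀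
    (by rw [← map_pow, hσ, hik])
  rw [← hc]
  exact h1

/-- the product of the middle expansions of an `I`-fixed `g`. -/
theorem rq_prod_embMid (hA : A.LiesOverPrime q) {ζ : Kb} (hζ : IsPrimitiveRoot ζ q)
    (g : FF (N * q * q)) (hg : IsFixI A (N * q * q) g) (k₀ : Fin q) (hk₀ : (k₀ : ℕ) ≠ 0)
    {r : LaurentSeries (kA A)} (h : Rq A (embMid N q hq hqN hζ k₀ hk₀ g) r) :
    Rq A (∏ k : MidIdx q, embMid N q hq hqN hζ k.1 k.2 g) (r ^ (q - 1)) := by
  have := rq_prod (A := A) (Finset.univ : Finset (MidIdx q))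
    (f := fun k => embMid N q hq hqN hζ k.1 k.2 g) (r := fun _ => r)
    (fun k _ => rq_embMid_of_fix hA hζ g hg k₀ hk₀ h k.1 k.2)
  rwa [Finset.prod_const, Finset.card_univ, Fermat.Agent.T3.helper98.card_midIdx' hq] at this

end Transport

/-! ### Constants times `n`-th powers -/

section Power

variable {A : ValuationSubring Kb}

/-- **the power lemma**: if `G = c V^n` has the nonzero reduction `s` and `V / c₁` has the nonzero
reduction `t`, then `s = (γ t)^n` for a constant `γ ≠ 0` of the residue field. -/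
theorem rq_pow_const {n : ℕ} (hn : n ≠ 0) {G V : LaurentSeries Kb} {c c₁ : Kb} (hc₁ : c₁ ≠ 0)
    (hG : G = algebraMap Kb (LaurentSeries Kb) c * V ^ n) {s t : LaurentSeries (kA A)}
    (hs : Rq A G s) (hs0 : s ≠ 0)
    (ht : Rq A (algebraMap Kb (LaurentSeries Kb) c₁⁻¹ * V) t) (ht0 : t ≠ 0) :
    ∃ γ : kA A, γ ≠ 0 ∧ s = (algebraMap (kA A) (LaurentSeries (kA A)) γ * t) ^ n := by
  haveI : IsAlgClosed (kA A) := Fermat.Agent.P2.helper95.isAlgClosed_residueField A
  have hV'0 : (algebraMap Kb (LaurentSeries Kb) c₁⁻¹ * V) ^ n ≠ 0 :=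
    pow_ne_zero n (ht.ne_zero ht0)
  have hGV : G = algebraMap Kb (LaurentSeries Kb) (c * c₁ ^ n) *
      (algebraMap Kb (LaurentSeries Kb) c₁⁻¹ * V) ^ n := by
    rw [hG, mul_pow, ← map_pow, ← mul_assoc, ← map_mul, mul_assoc, ← mul_pow,
      mul_inv_cancel₀ hc₁, one_pow, mul_one]
  have hG' : G * ((algebraMap Kb (LaurentSeries Kb) c₁⁻¹ * V) ^ n)⁻¹
      = algebraMap Kb (LaurentSeries Kb) (c * c₁ ^ n) := by
    rw [hGV, mul_assoc, mul_inv_cancel₀ hV'0, mul_one]
  have h1 := hs.mul ((ht.pow n).inv (pow_ne_zero n ht0))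
  rw [hG'] at h1
  have heq := h1.algebraMap_eq
  have hs' : s = algebraMap (kA A) (LaurentSeries (kA A))
      (IsLocalRing.residue A ⟨c * c₁ ^ n, h1.algebraMap_mem⟩) * t ^ n := by
    rw [← heq, mul_assoc, inv_mul_cancel₀ (pow_ne_zero n ht0), mul_one]
  have hρ0 : IsLocalRing.residue A ⟨c * c₁ ^ n, h1.algebraMap_mem⟩ ≠ 0 := by
    intro h0
    apply hs0
    rw [hs', h0, map_zero, zero_mul]
  obtain ⟨γ, hγ⟩ := IsAlgClosed.exists_pow_nat_eq
    (IsLocalRing.residue A ⟨c * c₁ ^ n, h1.algebraMap_mem⟩) (Nat.pos_of_ne_zero hn)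
  refine ⟨γ, ?_, ?_⟩
  · rintro rfl
    rw [zero_pow hn] at hγ
    exact hρ0 hγ.symm
  · rw [hs', ← hγ, map_pow, mul_pow]

end Power

/-! ### The level `N q` -/

section Level

variable {N q : ℕ} [NeZero N] [NeZero q] (hq : q.Prime) (hqN : ¬ q ∣ N)
  (A : ValuationSubring Kb) (hA : A.LiesOverPrime q)

include hq hqN hA

theorem coe_const_mul_pow (f w : FF (N * q)) (c : Kb) (n : ℕ)
    (hf : f = algebraMap Kb (FF (N * q)) c * w ^ n) :
    (f : LaurentSeries Kb) = algebraMap Kb (LaurentSeries Kb) c * (w : LaurentSeries Kb) ^ n := by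
  rw [hf]
  rfl

/-- a function `c w^n` of level `N q` with a nonzero Gauss reduction `s`: `s` is an `n`-th power
in `F̃_N`. -/
theorem rq_level_pow {n : ℕ} (hn : n ≠ 0) (f w : FF (N * q)) (c : Kb)
    (hf : f = algebraMap Kb (FF (N * q)) c * w ^ n) {s : LaurentSeries (kA A)}
    (hs : Rq A (f : LaurentSeries Kb) s) (hs0 : s ≠ 0) :
    ∃ Y ∈ FFb A N, Y ≠ 0 ∧ s = Y ^ n := by
  have hG := coe_const_mul_pow hq hqN A hA f w c n hf
  have hw : w ≠ 0 := by
    rintro rfl
    apply hs.ne_zero hs0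
    rw [hG]
    show _ * ((0 : FF (N * q)) : LaurentSeries Kb) ^ n = 0
    rw [show ((0 : FF (N * q)) : LaurentSeries Kb) = 0 from rfl, zero_pow hn, mul_zero]
  obtain ⟨c₁, r, hc₁, hr, hρ⟩ := exists_rhoIs_bad hq hqN A hA w hw
  have hrmem : r ∈ FFb A N := by
    have := hρ.red_mem
    rwa [Fermat.Agent.T2.helper96.FFb_mul_eq N A hq hA] at this
  obtain ⟨γ, hγ, e⟩ := rq_pow_const hn hc₁ hG hs hs0 (rq_of_rhoIs hρ) hr
  refine ⟨algebraMap (kA A) (LaurentSeries (kA A)) γ * r,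
    mul_mem ((FFb A N).algebraMap_mem γ) hrmem, mul_ne_zero ?_ hr, e⟩
  intro h0
  exact hγ ((algebraMap (kA A) (LaurentSeries (kA A))).injective (h0.trans (map_zero _).symm))

/-- the same for the reduction of `f(t^q)`. -/
theorem rq_level_pow_q {n : ℕ} (hn : n ≠ 0) (f w : FF (N * q)) (c : Kb)
    (hf : f = algebraMap Kb (FF (N * q)) c * w ^ n) {s : LaurentSeries (kA A)}
    (hs : Rq A (qExpand Kb q (f : LaurentSeries Kb)) s) (hs0 : s ≠ 0) :
    ∃ Y ∈ FFb A N, Y ≠ 0 ∧ s = Y ^ n := by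
  have hG := coe_const_mul_pow hq hqN A hA f w c n hf
  have hC : ∀ a : Kb, qExpand Kb q (algebraMap Kb (LaurentSeries Kb) a)
      = algebraMap Kb (LaurentSeries Kb) a := fun a => by
    rw [algebraMap_laurentSeries_eq_single, qExpand_single, mul_zero]
  have hGq : qExpand Kb q (f : LaurentSeries Kb) = algebraMap Kb (LaurentSeries Kb) c *
      (qExpand Kb q (w : LaurentSeries Kb)) ^ n := by
    rw [hG, map_mul, map_pow, hC]
  have hw : w ≠ 0 := by
    rintro rfl
    apply hs.ne_zero hs0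
    rw [hGq]
    rw [show ((0 : FF (N * q)) : LaurentSeries Kb) = 0 from rfl, map_zero, zero_pow hn, mul_zero]
  obtain ⟨c₁, r, hc₁, hr, hρ⟩ := exists_rhoIs_bad hq hqN A hA w hw
  have hrmem : r ∈ FFb A N := by
    have := hρ.red_mem
    rwa [Fermat.Agent.T2.helper96.FFb_mul_eq N A hq hA] at this
  have hρq : Rq A (algebraMap Kb (LaurentSeries Kb) c₁⁻¹ * qExpand Kb q (w : LaurentSeries Kb))
      (qExpand (kA A) q r) := by
    have := (rq_of_rhoIs hρ).qExp (q := q)
    rwa [map_mul, hC] at this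
  have hrq0 : qExpand (kA A) q r ≠ 0 := fun h0 =>
    hr (qExpand_injective q (h0.trans (map_zero _).symm))
  obtain ⟨γ, hγ, e⟩ := rq_pow_const hn hc₁ hGq hs hs0 hρq hrq0
  refine ⟨algebraMap (kA A) (LaurentSeries (kA A)) γ * qExpand (kA A) q r,
    mul_mem ((FFb A N).algebraMap_mem γ)
      (Fermat.Agent.T2.helper96.qExpand_mem_FFb N A hq hA hrmem), mul_ne_zero ?_ hrq0, e⟩
  intro h0
  exact hγ ((algebraMap (kA A) (LaurentSeries (kA A))).injective (h0.trans (map_zero _).symm))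

end Level

/-! ### [NORMPOW3] -/

section Main

open Fermat.Agent.T3.helper72 (nA nB NormPow Red3 NormPow3Statement)
open Fermat.Agent.T3.helper74 (ex3 IsFixI midOne midOne_ne)
open Fermat.Agent.T3.helper87
open Fermat.Agent.T3.helper98
open Fermat.Agent.T3.helper48 (atkinLehnerSq)
open Fermat.Agent.P3.helper94 (normAlong)

variable {N q : ℕ} [NeZero N] [NeZero q] (hq : q.Prime) (hqN : ¬ q ∣ N)
  (A : ValuationSubring Kb) {ζ : Kb} (hζ : IsPrimitiveRoot ζ q)

/-- **[NORMPOW3]**, verbatim (`n ≠ 0`, `A` over `q`). -/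
theorem normPow3 (hA : A.LiesOverPrime q) {n : ℕ} (hn : n ≠ 0) :
    NormPow3Statement N q hq hqN A hζ n := by
  intro h X hh hfix hX0 hX hNP
  obtain ⟨⟨ca, wa, hwa⟩, ⟨cb, wb, hwb⟩⟩ := hNP
  have hx1 : Rq A ((h : FF (N * q * q)) : LaurentSeries Kb) (X 0) := by
    obtain ⟨Y₁, Y₂, h2, h3, h4⟩ := hX 0
    rw [ex3_zero] at h3
    exact ⟨Y₁, Y₂, h2, h3, h4⟩
  have hx2 : Rq A ((atkinLehnerSq N q hq hqN h : FF (N * q * q)) : LaurentSeries Kb) (X 1) := by
    obtain ⟨Y₁, Y₂, h2, h3, h4⟩ := hX 1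
    rw [ex3_one] at h3
    exact ⟨Y₁, Y₂, h2, h3, h4⟩
  have hx3 : Rq A (embMid N q hq hqN hζ (midOne q hq) (midOne_ne q hq) h) (X 2) := by
    obtain ⟨Y₁, Y₂, h2, h3, h4⟩ := hX 2
    rw [ex3_two] at h3
    exact ⟨Y₁, Y₂, h2, h3, h4⟩
  -- the three norm expansions
  have ha : Rq A ((nA N q h : FF (N * q)) : LaurentSeries Kb) (X 0 * X 2 ^ (q - 1)) := by
    show Rq A ((normAlong (heckeAlphaBar Kb (N * q) q) h : FF (N * q)) : LaurentSeries Kb) _
    rw [normAlpha_expand (hq := hq) (hqN := hqN) hζ h]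
    exact hx1.mul (rq_prod_embMid hA hζ h hfix _ _ hx3)
  have hb : Rq A (qExpand Kb q ((nB N q h : FF (N * q)) : LaurentSeries Kb)) (X 0 ^ q) := by
    show Rq A (qExpand Kb q
      ((normAlong (heckeBetaBar Kb (N * q) q) h : FF (N * q)) : LaurentSeries Kb)) _
    rw [normBeta_expand (N * q) q hq (Dvd.intro_left N rfl) hζ h]
    exact hx1.prod_twist hq hA hζ.pow_eq_one
  have hc : Rq A (qExpand Kb q
      ((atkinLehner N q hq hqN (nA N q h) : FF (N * q)) : LaurentSeries Kb)) (X 1 ^ q) := by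
    show Rq A (qExpand Kb q ((atkinLehner N q hq hqN
      (normAlong (heckeAlphaBar Kb (N * q) q) h) : FF (N * q)) : LaurentSeries Kb)) _
    rw [atkinLehner_normAlpha, normBeta_expand (N * q) q hq (Dvd.intro_left N rfl) hζ]
    exact hx2.prod_twist hq hA hζ.pow_eq_one
  have hWa : atkinLehner N q hq hqN (nA N q h)
      = algebraMap Kb (FF (N * q)) ca * (atkinLehner N q hq hqN wa) ^ n := by
    rw [hwa, map_mul, map_pow, AlgEquiv.commutes]
  obtain ⟨Ya, hYa, hYa0, ea⟩ := rq_level_pow hq hqN A hA hn _ wa ca hwa ha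
    (mul_ne_zero (hX0 0) (pow_ne_zero _ (hX0 2)))
  obtain ⟨Yb, hYb, hYb0, eb⟩ := rq_level_pow_q hq hqN A hA hn _ wb cb hwb hb
    (pow_ne_zero _ (hX0 0))
  obtain ⟨Yc, hYc, hYc0, ec⟩ := rq_level_pow_q hq hqN A hA hn _ _ ca hWa hc
    (pow_ne_zero _ (hX0 1))
  refine ⟨![Yb ^ (q - 1), Yc ^ (q - 1), Ya ^ q * Yb⁻¹], ?_, ?_, ?_⟩
  · intro i
    fin_cases i
    · exact pow_mem hYb _
    · exact pow_mem hYc _
    · exact mul_mem (pow_mem hYa _) (inv_mem hYb)
  · intro i
    fin_cases i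
    · exact pow_ne_zero _ hYb0
    · exact pow_ne_zero _ hYc0
    · exact mul_ne_zero (pow_ne_zero _ hYa0) (inv_ne_zero hYb0)
  · intro i
    fin_cases i
    · show X 0 ^ (q * (q - 1)) = (Yb ^ (q - 1)) ^ n
      rw [pow_mul, eb, ← pow_mul, ← pow_mul, mul_comm]
    · show X 1 ^ (q * (q - 1)) = (Yc ^ (q - 1)) ^ n
      rw [pow_mul, ec, ← pow_mul, ← pow_mul, mul_comm]
    · show X 2 ^ (q * (q - 1)) = (Ya ^ q * Yb⁻¹) ^ n
      have hYbn : Yb ^ n ≠ 0 := pow_ne_zero _ hYb0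
      apply mul_right_cancel₀ hYbn
      have e1 : (Ya ^ q * Yb⁻¹) ^ n * Yb ^ n = (Ya ^ n) ^ q := by
        rw [← mul_pow, mul_assoc, inv_mul_cancel₀ hYb0, mul_one, ← pow_mul, ← pow_mul, mul_comm]
      rw [e1, ← ea, ← eb, mul_pow, ← pow_mul, mul_comm (q - 1) q, mul_comm]

end Main

end Fermat.Agent.T3.helper19

end
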