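import Mathlib

/-!
# T3 [SCALE3], abstract part (helper19): the valuation-vector lemma

Notation of BLUEPRINT T3 v1: for an inertia-fixed Kummer representative `h` at level `N q²` put
`(w₁, W₃, w₂)` for its Gauss valuations at the cusps `∞`, middle, `0` (`W₃ = (q - 1) w₃`,
normalised by `v(q) = 1`).  The norm table gives
`v₁(N_α h) = w₁ + W₃`, `v₂(N_α h) = q w₂`, `v₁(N_β h) = q w₁`, `v₂(N_β h) = w₂ + W₃`,
and if `N_α h`, `N_β h` are constants times `n`-th powers then `v₁ - v₂` of both is divisible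
by `n`:

  `n ∣ w₁ + W₃ - q w₂`,   `n ∣ q w₁ - w₂ - W₃`.

* `scale3_vector` : then `(q² - 1) (w₁, W₃, w₂) = m (1, q - 1, 1) + n (i (1, 0, 0) + l (0, q - 1, 0))`
  for suitable integers `i, l, m`.
* `scale3_normalise` : multiplicative form: in a commutative group with three additive
  "valuations", elements `a, t, π` of valuation vectors `(1, 0, 0)`, `(0, q - 1, 0)`,
  `(1, q - 1, 1)` (the units `a = q / β b₀`, `t = β b₀ / α b₀` and the constant `q` of the UNIT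
  table), the element `h' = π ^ (-m) * (a ^ (-i) * t ^ (-l)) ^ n * h ^ (q² - 1)` has valuation
  vector `0`.
-/

set_option autoImplicit false

namespace Fermat.Agent.T3.helper19

/-- **[SCALE3], integer form.** -/
theorem scale3_vector (q n w₁ W₃ w₂ : ℤ) (h₁ : n ∣ w₁ + W₃ - q * w₂)
    (h₂ : n ∣ q * w₁ - w₂ - W₃) :
    ∃ i l m : ℤ, (q ^ 2 - 1) * w₁ = m + n * i ∧
      (q ^ 2 - 1) * W₃ = m * (q - 1) + n * (l * (q - 1)) ∧
      (q ^ 2 - 1) * w₂ = m := by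
  obtain ⟨x, hx⟩ := h₁
  obtain ⟨y, hy⟩ := h₂
  refine ⟨(q - 1) * (x + y), (q + 1) * x - (x + y), (q ^ 2 - 1) * w₂, ?_, ?_, rfl⟩
  · linear_combination (q - 1) * hx + (q - 1) * hy
  · linear_combination (q + 1) * (q - 1) * hx - (q - 1) * hx - (q - 1) * hy

/-- The congruence `(q + 1) (w₁ - w₂) ≡ 0 (mod n)` contained in the two norm relations. -/
theorem scale3_diff (q n w₁ W₃ w₂ : ℤ) (h₁ : n ∣ w₁ + W₃ - q * w₂)
    (h₂ : n ∣ q * w₁ - w₂ - W₃) : n ∣ (q + 1) * (w₁ - w₂) := by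
  have := dvd_add h₁ h₂
  have e : w₁ + W₃ - q * w₂ + (q * w₁ - w₂ - W₃) = (q + 1) * (w₁ - w₂) := by ring
  rwa [e] at this

section group

variable {G : Type*} [CommGroup G]

/-- An additive "valuation" on a commutative group. -/
def IsAddVal (w : G → ℤ) : Prop := ∀ x y : G, w (x * y) = w x + w y

namespace IsAddVal

variable {w : G → ℤ} (hw : IsAddVal w)
include hw

lemma map_one : w 1 = 0 := by
  have := hw 1 1
  rw [mul_one] at this
  linarith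

lemma map_inv (x : G) : w x⁻¹ = -w x := by
  have := hw x x⁻¹
  rw [mul_inv_cancel, hw.map_one] at this
  linarith

lemma map_pow (x : G) (k : ℕ) : w (x ^ k) = k * w x := by
  induction k with
  | zero => simp [hw.map_one]
  | succ k ih =>
    rw [pow_succ, hw, ih]
    push_cast
    ring

lemma map_zpow (x : G) (k : ℤ) : w (x ^ k) = k * w x := by
  cases k with
  | ofNat k =>
    rw [Int.ofNat_eq_natCast, zpow_natCast, hw.map_pow]
  | negSucc k =>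
    rw [zpow_negSucc, hw.map_inv, hw.map_pow]
    push_cast
    rw [Int.negSucc_eq]
    ring

end IsAddVal

/-- **[SCALE3], multiplicative form.**  `h' = π ^ (-m) * (a ^ (-i) * t ^ (-l)) ^ n * h ^ (q² - 1)`
has valuation vector `(0, 0, 0)`. -/
theorem scale3_normalise {w₁ W₃ w₂ : G → ℤ} (hw₁ : IsAddVal w₁) (hW₃ : IsAddVal W₃)
    (hw₂ : IsAddVal w₂) (q n : ℤ) {a t π : G}
    (ha₁ : w₁ a = 1) (ha₃ : W₃ a = 0) (ha₂ : w₂ a = 0)
    (ht₁ : w₁ t = 0) (ht₃ : W₃ t = q - 1) (ht₂ : w₂ t = 0)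
    (hπ₁ : w₁ π = 1) (hπ₃ : W₃ π = q - 1) (hπ₂ : w₂ π = 1)
    (h : G) (h₁ : n ∣ w₁ h + W₃ h - q * w₂ h) (h₂ : n ∣ q * w₁ h - w₂ h - W₃ h) :
    ∃ i l m : ℤ,
      w₁ (π ^ (-m) * (a ^ (-i) * t ^ (-l)) ^ n * h ^ (q ^ 2 - 1)) = 0 ∧
      W₃ (π ^ (-m) * (a ^ (-i) * t ^ (-l)) ^ n * h ^ (q ^ 2 - 1)) = 0 ∧
      w₂ (π ^ (-m) * (a ^ (-i) * t ^ (-l)) ^ n * h ^ (q ^ 2 - 1)) = 0 := by
  obtain ⟨i, l, m, e₁, e₃, e₂⟩ := scale3_vector q n (w₁ h) (W₃ h) (w₂ h) h₁ h₂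
  refine ⟨i, l, m, ?_, ?_, ?_⟩
  · rw [hw₁, hw₁, hw₁.map_zpow, hw₁.map_zpow, hw₁.map_zpow, hw₁, hw₁.map_zpow, hw₁.map_zpow,
      ha₁, ht₁, hπ₁]
    linear_combination e₁
  · rw [hW₃, hW₃, hW₃.map_zpow, hW₃.map_zpow, hW₃.map_zpow, hW₃, hW₃.map_zpow, hW₃.map_zpow,
      ha₃, ht₃, hπ₃]
    linear_combination e₃
  · rw [hw₂, hw₂, hw₂.map_zpow, hw₂.map_zpow, hw₂.map_zpow, hw₂, hw₂.map_zpow, hw₂.map_zpow,
      ha₂, ht₂, hπ₂]
    linear_combination e₂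

end group

end Fermat.Agent.T3.helper19
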