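/-
T3 (S36), helper19: [SCALE3-CONG] — the two norm congruences for SCALE3 (input of
`helper19.scale3_vector` / `scale3_normalise`), and [FIXPOW].

Setting: `q` prime, `q ∤ N`, level `N q q`, `A` a valuation subring of `ℚ̄` over `q`,
`I = A.inertiaSubgroupIn ℚ`, `ζ` a primitive `q`-th root of unity, `n ≠ 0`.

* `exists_fix_pow` : **[FIXPOW]** a function `F ≠ 0` fixed by a subgroup `H` of `G_ℚ` which is a
  constant times an `n`-th power, `F = c w^n` (`c`, `w` arbitrary), is `e W^n` with `e` and `W`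
  FIXED by `H` (normalise the leading coefficient of `w` to `1`; uniqueness of normalised
  `n`-th roots).
* `gaussIs_twist`, `gaussIs_qExp` : the Gauss value is stable under `t ↦ ζ^k t` and `t ↦ t^q`.
* `zpow_sub_eq_of_eq_mul` : cancellation of an unknown constant in two valuation identities.
* **`scale3_cong`** : for an `I`-fixed `h ≠ 0` with `NormPow N q n h` and Gauss values
  `w₁(h) = v(q^m₁)`, `w₂(h) = v(q^m₂)`, `w₃(h) = v((1 - ζ)^m₃)` (all middle cusps):
  `n ∣ m₁ + m₃ - q m₂` and `n ∣ q m₁ - m₂ - m₃`.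

PROOF of `scale3_cong`.  `N_α h = e W^n` with `e`, `W` `I`-fixed ([FIXPOW]); the Gauss values of
the `I`-fixed functions `W`, `W₁ W` of level `N q` are powers of `q`
(`helper5.gaussIs_fixI`, `helper36.scaleStatement_bad`), say `q^x`, `q^y`.  At `∞`:
`N_α h = h ∏_{k ≠ 0} E_k h` has the Gauss value `q^m₁ (1 - ζ)^((q - 1) m₃)`; at `0`:
`(W₁ N_α h)(t^q) = ∏_k (W₂ h)(ζ^k t)` has the Gauss value `q^(q m₂)`.  Hence
`v(q)^m₁ v(1 - ζ)^((q-1) m₃) = v(e) v(q)^(n x)` and `v(q)^(q m₂) = v(e) v(q)^(n y)`; with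
`v(q) = v(1 - ζ)^(q - 1)` and `v(1 - ζ) < 1` this gives `m₁ + m₃ - q m₂ = n (x - y)`.
The same with `N_β` gives the second congruence.
-/
import Mathlib
import Fermat.Agent.T3.helper72_Interface3
import Fermat.Agent.T3.helper36_RhoQ
import Fermat.Agent.T3.helper5_Gauss3CGauss
import Fermat.Agent.T3.helper58_Desc
import Fermat.Agent.T3.helper84_K0Zeta
import Fermat.Agent.T3.helper98_NormQ
import Fermat.Agent.T2.helper36_ValBad

set_option autoImplicit false
set_option synthInstance.maxHeartbeats 400000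
set_option linter.style.haveILetI false
set_option linter.unusedSectionVars false
set_option linter.unusedVariables false
set_option linter.style.longLine false

noncomputable section

open HahnSeries IntermediateField AlgebraicCurve ModularCurve
open Fermat.Agent.S18.helper19 Fermat.Agent.P2.helper29 Fermat.Agent.T2.helper36

namespace Fermat.Agent.T3.helper19

open Fermat.Agent.T3.helper36 (RhoQ GaussIs)
open Fermat.Agent.T3.helper74 (ex3 IsFixI midOne midOne_ne)
open Fermat.Agent.T3.helper72 (nA nB NormPow)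
open Fermat.Agent.P2.helper93 (twistL)
open Fermat.Agent.T2.helper87 (twistL_mul twistL_single)
open Fermat.Agent.T3.helper87
open Fermat.Agent.T3.helper98
open Fermat.Agent.T3.helper48 (atkinLehnerSq)
open Fermat.Agent.P3.helper94 (normAlong)

/-! ### [FIXPOW] -/

section FixPow

open Fermat.Agent.T3.helper58 (lc lc_mul lc_pow lc_algebraMap lc_act act root_unique)

variable {M : ℕ} [NeZero M]

/-- **[FIXPOW]** a function fixed by `H` which is a constant times an `n`-th power is a FIXED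
constant times the `n`-th power of a FIXED function. -/
theorem exists_fix_pow (H : Subgroup (Kb ≃ₐ[ℚ] Kb)) {n : ℕ} (hn : n ≠ 0) {F w : FF M} {c : Kb}
    (hF0 : F ≠ 0)
    (hfix : ∀ σ ∈ H, arithmeticRingAut (modularFunctionFieldFull M) σ F = F)
    (hF : F = algebraMap Kb (FF M) c * w ^ n) :
    ∃ (e : Kb) (W : FF M), e ≠ 0 ∧ W ≠ 0 ∧ (∀ σ ∈ H, σ e = e) ∧
      (∀ σ ∈ H, arithmeticRingAut (modularFunctionFieldFull M) σ W = W) ∧
      F = algebraMap Kb (FF M) e * W ^ n := by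
  have hw : w ≠ 0 := by
    rintro rfl
    apply hF0
    rw [hF, zero_pow hn, mul_zero]
  have hc : c ≠ 0 := by
    rintro rfl
    apply hF0
    rw [hF, map_zero, zero_mul]
  have ha : lc M w ≠ 0 := by
    intro h0
    apply hw
    apply Subtype.ext
    exact HahnSeries.leadingCoeff_eq_zero.mp h0
  set a : Kb := lc M w with hadef
  set W : FF M := algebraMap Kb (FF M) a⁻¹ * w with hWdef
  have hlcW : lc M W = 1 := by
    rw [hWdef, lc_mul, lc_algebraMap, ← hadef, inv_mul_cancel₀ ha]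
  have hW0 : W ≠ 0 := mul_ne_zero (by
    intro h0
    exact inv_ne_zero ha ((algebraMap Kb (FF M)).injective (h0.trans (map_zero _).symm))) hw
  have hFe : F = algebraMap Kb (FF M) (c * a ^ n) * W ^ n := by
    rw [hF, hWdef, mul_pow, ← map_pow, ← mul_assoc, ← map_mul, mul_assoc, ← mul_pow,
      mul_inv_cancel₀ ha, one_pow, mul_one]
  have hkey : ∀ σ ∈ H, σ (c * a ^ n) = c * a ^ n ∧
      arithmeticRingAut (modularFunctionFieldFull M) σ W = W := by
    intro σ hσ
    have h1 := hfix σ hσ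
    have h2 : act M σ F = algebraMap Kb (FF M) (σ (c * a ^ n)) * (act M σ W) ^ n := by
      conv_lhs => rw [hFe]
      rw [map_mul, map_pow]
      congr 1
      exact arithmeticRingAut_algebraMap (modularFunctionFieldFull M) σ _
    have h3 : algebraMap Kb (FF M) (σ (c * a ^ n)) * (act M σ W) ^ n
        = algebraMap Kb (FF M) (c * a ^ n) * W ^ n := by
      rw [← h2, ← hFe]
      exact h1
    have hlcσ : lc M (act M σ W) = 1 := by rw [lc_act, hlcW, map_one]
    have h4 : σ (c * a ^ n) = c * a ^ n := by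
      have := congrArg (lc M) h3
      rwa [lc_mul, lc_mul, lc_pow, lc_pow, lc_algebraMap, lc_algebraMap, hlcσ, hlcW, one_pow,
        mul_one, mul_one] at this
    refine ⟨h4, ?_⟩
    rw [h4] at h3
    have he0 : algebraMap Kb (FF M) (c * a ^ n) ≠ 0 := by
      intro h0
      exact mul_ne_zero hc (pow_ne_zero n ha)
        ((algebraMap Kb (FF M)).injective (h0.trans (map_zero _).symm))
    exact root_unique hn he0 h3 hlcσ hlcW
  exact ⟨c * a ^ n, W, mul_ne_zero hc (pow_ne_zero n ha), hW0, fun σ hσ => (hkey σ hσ).1,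
    fun σ hσ => (hkey σ hσ).2, hFe⟩

end FixPow

/-! ### Transport of Gauss values -/

section Transport

variable {A : ValuationSubring Kb} {q : ℕ} [NeZero q]

theorem twistL_algebraMap_mul {c : Kb} (hc : c ≠ 0) (a : Kb) (g : LaurentSeries Kb) :
    twistL c (algebraMap Kb (LaurentSeries Kb) a * g)
      = algebraMap Kb (LaurentSeries Kb) a * twistL c g := by
  rw [twistL_mul hc, algebraMap_laurentSeries_eq_single, twistL_single, zpow_zero, one_mul]

theorem qExpand_algebraMap_mul' (a : Kb) (g : LaurentSeries Kb) :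
    qExpand Kb q (algebraMap Kb (LaurentSeries Kb) a * g)
      = algebraMap Kb (LaurentSeries Kb) a * qExpand Kb q g := by
  rw [map_mul, algebraMap_laurentSeries_eq_single, qExpand_single, mul_zero]

/-- the Gauss value is stable under `t ↦ ζ^k t` (`A` over `q`). -/
theorem gaussIs_twist (hq : q.Prime) (hA : A.LiesOverPrime q) {ζ : Kb} (hζ1 : ζ ^ q = 1) (k : ℕ)
    {g : LaurentSeries Kb} {c : Kb} (h : GaussIs A g c) : GaussIs A (twistL (ζ ^ k) g) c := by
  obtain ⟨hc, r, hr, hρ⟩ := h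
  refine ⟨hc, r, hr, ?_⟩
  have := rhoQ_twist hq hA hζ1 k hρ
  rwa [twistL_algebraMap_mul (pow_ne_zero k (ne_zero_of_pow_eq_one' hζ1))] at this

/-- the Gauss value is stable under `t ↦ t^q`. -/
theorem gaussIs_qExp {g : LaurentSeries Kb} {c : Kb} (h : GaussIs A g c) :
    GaussIs A (qExpand Kb q g) c := by
  obtain ⟨hc, r, hr, hρ⟩ := h
  refine ⟨hc, qExpand (kA A) q r, fun h0 => hr (qExpand_injective q (h0.trans (map_zero _).symm)),
    ?_⟩
  have := rhoQ_qExpand q hρ
  rwa [qExpand_algebraMap_mul'] at this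

/-- the product of the `q` twists -/
theorem gaussIs_prod_twist (hq : q.Prime) (hA : A.LiesOverPrime q) {ζ : Kb} (hζ1 : ζ ^ q = 1)
    {g : LaurentSeries Kb} {c : Kb} (h : GaussIs A g c) :
    GaussIs A (∏ k ∈ Finset.range q, twistL (ζ ^ k) g) (c ^ q) := by
  have := GaussIs.prod (A := A) (Finset.range q) (f := fun k => twistL (ζ ^ k) g)
    (c := fun _ => c) (fun k _ => gaussIs_twist hq hA hζ1 k h)
  rwa [Finset.prod_const, Finset.card_range] at this

end Transport

/-! ### Cancellation of a constant -/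

section Cancel

variable {Γ : Type*} [LinearOrderedCommGroupWithZero Γ]

theorem zpow_sub_eq_of_eq_mul {ν E : Γ} (h0 : ν ≠ 0) (h1 : ν < 1) {a₁ b₁ a₂ b₂ : ℤ}
    (e₁ : ν ^ a₁ = E * ν ^ b₁) (e₂ : ν ^ a₂ = E * ν ^ b₂) : a₁ - b₁ = a₂ - b₂ := by
  have hpos : 0 < ν := zero_lt_iff.mpr h0
  have hb₁ : ν ^ b₁ ≠ 0 := zpow_ne_zero _ h0
  have hb₂ : ν ^ b₂ ≠ 0 := zpow_ne_zero _ h0
  have E₁ : E = ν ^ (a₁ - b₁) := by
    rw [zpow_sub₀ h0, e₁, mul_div_assoc, div_self hb₁, mul_one]
  have E₂ : E = ν ^ (a₂ - b₂) := by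
    rw [zpow_sub₀ h0, e₂, mul_div_assoc, div_self hb₂, mul_one]
  exact zpow_right_injective₀ hpos h1.ne (E₁.symm.trans E₂)

end Cancel

/-! ### Gauss values of constants times `n`-th powers at level `N q` -/

section Level

variable {N q : ℕ} [NeZero N] [NeZero q] (hq : q.Prime) (hqN : ¬ q ∣ N)
  {A : ValuationSubring Kb} (hA : A.LiesOverPrime q)

include hq hqN hA in
/-- an `I`-fixed `F = c w^n ≠ 0` of level `N q` has the Gauss values `v(e) + n x v(q)` at `∞`
and `v(e) + n y v(q)` at `0`, with the SAME constant `e` and integers `x`, `y`. -/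
theorem exists_gaussIs_fix_pow {n : ℕ} (hn : n ≠ 0) {F w : FF (N * q)} {c : Kb} (hF0 : F ≠ 0)
    (hfix : IsFixI A (N * q) F) (hF : F = algebraMap Kb (FF (N * q)) c * w ^ n) :
    ∃ (e : Kb) (x y : ℤ), e ≠ 0 ∧
      GaussIs A (F : LaurentSeries Kb) (e * ((q : Kb) ^ x) ^ n) ∧
      GaussIs A ((atkinLehner N q hq hqN F : FF (N * q)) : LaurentSeries Kb)
        (e * ((q : Kb) ^ y) ^ n) := by
  obtain ⟨e, W, he, hW0, hefix, hWfix, hFe⟩ :=
    exists_fix_pow (A.inertiaSubgroupIn ℚ) hn hF0 hfix hF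
  have hSc : ScaleStatement (N * q) A := scaleStatement_bad hq hqN A hA
  obtain ⟨x, hx⟩ := Fermat.Agent.T3.helper5.gaussIs_fixI hq hA hSc hW0 hWfix
  have hW'0 : atkinLehner N q hq hqN W ≠ 0 := by
    intro h0
    exact hW0 ((map_eq_zero_iff _ (atkinLehner N q hq hqN).injective).1 h0)
  have hW'fix : IsFixI A (N * q) (atkinLehner N q hq hqN W) := by
    intro σ hσ
    rw [← atkinLehner_arithmeticRingAut, hWfix σ hσ]
  obtain ⟨y, hy⟩ := Fermat.Agent.T3.helper5.gaussIs_fixI hq hA hSc hW'0 hW'fix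
  refine ⟨e, x, y, he, ?_, ?_⟩
  · have e1 : (F : LaurentSeries Kb)
        = algebraMap Kb (LaurentSeries Kb) e * (W : LaurentSeries Kb) ^ n := by
      rw [hFe]; rfl
    rw [e1]
    exact (Fermat.Agent.T3.helper36.gaussIs_const he).mul (hx.pow n)
  · have e2 : atkinLehner N q hq hqN F
        = algebraMap Kb (FF (N * q)) e * (atkinLehner N q hq hqN W) ^ n := by
      rw [hFe, map_mul, map_pow, AlgEquiv.commutes]
    have e3 : ((atkinLehner N q hq hqN F : FF (N * q)) : LaurentSeries Kb)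
        = algebraMap Kb (LaurentSeries Kb) e *
          ((atkinLehner N q hq hqN W : FF (N * q)) : LaurentSeries Kb) ^ n := by
      rw [e2]; rfl
    rw [e3]
    exact (Fermat.Agent.T3.helper36.gaussIs_const he).mul (hy.pow n)

end Level

/-! ### Valuations of powers of `q` and of `1 - ζ` -/

section Val

variable {q : ℕ} (hq : q.Prime) (A : ValuationSubring Kb) (hA : A.LiesOverPrime q)
  {ζ : Kb} (hζ : IsPrimitiveRoot ζ q)

include hq hζ in
theorem val_q_zpow (m : ℤ) :
    A.valuation ((q : Kb) ^ m) = A.valuation (1 - ζ) ^ (((q : ℤ) - 1) * m) := by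
  have h := Fermat.Agent.T3.helper84.k0_zeta_val hq A hζ
  have hc : ((q - 1 : ℕ) : ℤ) = (q : ℤ) - 1 := by
    rw [Nat.cast_sub hq.one_lt.le, Nat.cast_one]
  rw [map_zpow₀, ← h, ← zpow_natCast, ← zpow_mul, hc]

include hq hζ in
theorem val_const_q_pow (e : Kb) (x : ℤ) (n : ℕ) :
    A.valuation (e * ((q : Kb) ^ x) ^ n)
      = A.valuation e * A.valuation (1 - ζ) ^ (((q : ℤ) - 1) * x * n) := by
  rw [map_mul, map_pow, val_q_zpow hq A hζ, ← zpow_natCast, ← zpow_mul]

include hq hζ in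
theorem val_q_pow_q (m : ℤ) :
    A.valuation (((q : Kb) ^ m) ^ q) = A.valuation (1 - ζ) ^ (((q : ℤ) - 1) * m * q) := by
  rw [map_pow, val_q_zpow hq A hζ, ← zpow_natCast, ← zpow_mul]

include hq hζ in
theorem val_q_mul_zeta (m₁ m₃ : ℤ) :
    A.valuation ((q : Kb) ^ m₁ * ((1 - ζ) ^ m₃) ^ (q - 1))
      = A.valuation (1 - ζ) ^ (((q : ℤ) - 1) * m₁ + m₃ * ((q : ℤ) - 1)) := by
  have hν : A.valuation (1 - ζ) ≠ 0 := Fermat.Agent.T3.helper84.k0_zeta_val_ne_zero hq A hζ
  have hc : ((q - 1 : ℕ) : ℤ) = (q : ℤ) - 1 := by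
    rw [Nat.cast_sub hq.one_lt.le, Nat.cast_one]
  rw [map_mul, val_q_zpow hq A hζ, map_pow, map_zpow₀, ← zpow_natCast, ← zpow_mul, hc,
    ← zpow_add₀ hν]

end Val

/-! ### [SCALE3-CONG] -/

section Main

variable {N q : ℕ} [NeZero N] [NeZero q] {hq : q.Prime} {hqN : ¬ q ∣ N}
  {A : ValuationSubring Kb} {ζ : Kb}

/-- the Gauss value of the product of the middle expansions -/
theorem gaussIs_prod_embMid (hζ : IsPrimitiveRoot ζ q) {g : FF (N * q * q)} {c : Kb}
    (h : ∀ (k : Fin q) (hk : (k : ℕ) ≠ 0), GaussIs A (embMid N q hq hqN hζ k hk g) c) :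
    GaussIs A (∏ k : MidIdx q, embMid N q hq hqN hζ k.1 k.2 g) (c ^ (q - 1)) := by
  have := GaussIs.prod (A := A) (Finset.univ : Finset (MidIdx q))
    (f := fun k => embMid N q hq hqN hζ k.1 k.2 g) (c := fun _ => c) (fun k _ => h k.1 k.2)
  rwa [Finset.prod_const, Finset.card_univ, card_midIdx' hq] at this

/-- the Gauss values of the middle expansions of `W₂ g` -/
theorem gaussIs_embMid_W (hA : A.LiesOverPrime q) (hζ : IsPrimitiveRoot ζ q)
    {g : FF (N * q * q)} {c : Kb}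
    (h : ∀ (k : Fin q) (hk : (k : ℕ) ≠ 0), GaussIs A (embMid N q hq hqN hζ k hk g) c)
    (k : Fin q) (hk : (k : ℕ) ≠ 0) :
    GaussIs A (embMid N q hq hqN hζ k hk (atkinLehnerSq N q hq hqN g)) c := by
  obtain ⟨k', hk', hkk'⟩ := Fermat.Agent.T3.helper48.exists_opposite hζ k hk
  rw [Fermat.Agent.T3.helper48.embMid_atkinLehnerSq hζ k hk k' hk' hkk']
  exact gaussIs_twist hq hA hζ.pow_eq_one (k : ℕ) (h k' hk')

/-- **[SCALE3-CONG]** the two norm congruences. -/
theorem scale3_cong (hA : A.LiesOverPrime q) (hζ : IsPrimitiveRoot ζ q) {n : ℕ} (hn : n ≠ 0)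
    {h : FF (N * q * q)} (hfix : IsFixI A (N * q * q) h) (hNP : NormPow N q n h)
    {m₁ m₂ m₃ : ℤ}
    (g0 : GaussIs A (ex3 N q hq hqN hζ 0 h) ((q : Kb) ^ m₁))
    (g1 : GaussIs A (ex3 N q hq hqN hζ 1 h) ((q : Kb) ^ m₂))
    (g2 : ∀ (k : Fin q) (hk : (k : ℕ) ≠ 0),
      GaussIs A (embMid N q hq hqN hζ k hk h) ((1 - ζ) ^ m₃)) :
    (n : ℤ) ∣ m₁ + m₃ - q * m₂ ∧ (n : ℤ) ∣ q * m₁ - m₂ - m₃ := by
  obtain ⟨⟨ca, wa, hwa⟩, ⟨cb, wb, hwb⟩⟩ := hNP
  rw [ex3_zero] at g0
  rw [ex3_one] at g1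
  have hν0 : A.valuation (1 - ζ) ≠ 0 := Fermat.Agent.T3.helper84.k0_zeta_val_ne_zero hq A hζ
  have hν1 : A.valuation (1 - ζ) < 1 := Fermat.Agent.T3.helper84.k0_zeta_val_lt hq A hA hζ
  have hq1 : ((q : ℤ) - 1) ≠ 0 := by
    have := hq.one_lt
    have : (1 : ℤ) < q := by exact_mod_cast this
    omega
  -- Gauss values of the expansions of the two norms
  have Ga : GaussIs A ((nA N q h : FF (N * q)) : LaurentSeries Kb)
      ((q : Kb) ^ m₁ * ((1 - ζ) ^ m₃) ^ (q - 1)) := by
    show GaussIs A ((normAlong (heckeAlphaBar Kb (N * q) q) h : FF (N * q)) :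
      LaurentSeries Kb) _
    rw [normAlpha_expand (hq := hq) (hqN := hqN) hζ h]
    exact g0.mul (gaussIs_prod_embMid hζ g2)
  have GaW : GaussIs A (qExpand Kb q
      ((atkinLehner N q hq hqN (nA N q h) : FF (N * q)) : LaurentSeries Kb))
      (((q : Kb) ^ m₂) ^ q) := by
    show GaussIs A (qExpand Kb q ((atkinLehner N q hq hqN
      (normAlong (heckeAlphaBar Kb (N * q) q) h) : FF (N * q)) : LaurentSeries Kb)) _
    rw [atkinLehner_normAlpha, normBeta_expand (N * q) q hq (Dvd.intro_left N rfl) hζ]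
    exact gaussIs_prod_twist hq hA hζ.pow_eq_one g1
  have Gb : GaussIs A (qExpand Kb q ((nB N q h : FF (N * q)) : LaurentSeries Kb))
      (((q : Kb) ^ m₁) ^ q) := by
    show GaussIs A (qExpand Kb q
      ((normAlong (heckeBetaBar Kb (N * q) q) h : FF (N * q)) : LaurentSeries Kb)) _
    rw [normBeta_expand (N * q) q hq (Dvd.intro_left N rfl) hζ h]
    exact gaussIs_prod_twist hq hA hζ.pow_eq_one g0
  have GbW : GaussIs A ((atkinLehner N q hq hqN (nB N q h) : FF (N * q)) : LaurentSeries Kb)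
      ((q : Kb) ^ m₂ * ((1 - ζ) ^ m₃) ^ (q - 1)) := by
    show GaussIs A ((atkinLehner N q hq hqN
      (normAlong (heckeBetaBar Kb (N * q) q) h) : FF (N * q)) : LaurentSeries Kb) _
    rw [atkinLehner_normBeta, normAlpha_expand (hq := hq) (hqN := hqN) hζ]
    exact g1.mul (gaussIs_prod_embMid hζ (gaussIs_embMid_W hA hζ g2))
  -- the norms are nonzero and `I`-fixed
  have hFa0 : nA N q h ≠ 0 := by
    intro h0
    apply Ga.ne_zero
    rw [h0]; rfl
  have hFb0 : nB N q h ≠ 0 := by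
    intro h0
    apply Gb.ne_zero
    rw [h0]
    show qExpand Kb q 0 = 0
    exact map_zero _
  have hFafix : IsFixI A (N * q) (nA N q h) := isFixI_normAlpha A (N * q) hfix
  have hFbfix : IsFixI A (N * q) (nB N q h) := isFixI_normBeta A (N * q) hfix
  obtain ⟨ea, xa, ya, hea, Pa, PaW⟩ := exists_gaussIs_fix_pow hq hqN hA hn hFa0 hFafix hwa
  obtain ⟨eb, xb, yb, heb, Pb, PbW⟩ := exists_gaussIs_fix_pow hq hqN hA hn hFb0 hFbfix hwb
  constructor
  · -- `N_α`
    have E1 := Ga.valuation_eq Pa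
    have E2 := GaW.valuation_eq (gaussIs_qExp (q := q) PaW)
    rw [val_q_mul_zeta hq A hζ, val_const_q_pow hq A hζ] at E1
    rw [val_q_pow_q hq A hζ, val_const_q_pow hq A hζ] at E2
    have key := zpow_sub_eq_of_eq_mul hν0 hν1 E1 E2
    refine ⟨xa - ya, ?_⟩
    apply mul_left_cancel₀ hq1
    linear_combination key
  · -- `N_β`
    have E1 := Gb.valuation_eq (gaussIs_qExp (q := q) Pb)
    have E2 := GbW.valuation_eq PbW
    rw [val_q_pow_q hq A hζ, val_const_q_pow hq A hζ] at E1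
    rw [val_q_mul_zeta hq A hζ, val_const_q_pow hq A hζ] at E2
    have key := zpow_sub_eq_of_eq_mul hν0 hν1 E1 E2
    refine ⟨xb - yb, ?_⟩
    apply mul_left_cancel₀ hq1
    linear_combination key

end Main

end Fermat.Agent.T3.helper19

end
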