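/-
T3 (S36), helper20, [T3-GAUSS-ALL] in the vocabulary of the final assembly (helper72_TorAll):

* `gaussAllStatement` : `helper72.GaussAllStatement N q hq hqN A hζ E` for EVERY family of
  expansions `E` with a `helper23.DiscPack A E` (no other input);
* `root3Pack_of` : `helper72.Root3Pack` from (DISC), (FIX), (COVER), (SAT_q) alone;
* `root3AllStatement_of` : `helper72.Root3AllStatement` (`= OpenBoxes.root`) from (DISC), (FIX),
  (COVER), (SAT_q).
-/
import Mathlib
import Fermat.Agent.T3.helper20_GaussAll
import Fermat.Agent.T3.helper72_TorAll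

set_option autoImplicit false
set_option synthInstance.maxHeartbeats 400000
set_option maxHeartbeats 1000000
set_option linter.style.haveILetI false
set_option linter.unusedSectionVars false
set_option linter.unusedVariables false
set_option linter.style.longLine false

noncomputable section

open HahnSeries IntermediateField AlgebraicCurve ModularCurve
open Fermat.Agent.S18.helper19 Fermat.Agent.P2.helper29

namespace Fermat.Agent.T3.helper20

open Fermat.Agent.T3.helper23 (DiscPack)
open Fermat.Agent.T3.helper27 (FixStatementE SatStatementE CoverStatementE)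
open Fermat.Agent.T3.helper72 (GaussAllStatement Root3Pack Root3AllStatement)

section Stmt

variable {N q : ℕ} [NeZero N] [NeZero q] {hq : q.Prime} {hqN : ¬ q ∣ N}
variable {A : ValuationSubring Kb} {ζ : Kb}

/-- **[GAUSS-ALL]** in the vocabulary of the final assembly: it holds for every family of
expansions with a DISC package. -/
theorem gaussAllStatement (hA : A.LiesOverPrime q) (hζ : IsPrimitiveRoot ζ q) {ι : Type}
    (E : ι → FF (N * q * q) →+* LaurentSeries Kb) (hD : DiscPack A E) :
    GaussAllStatement N q hq hqN A hζ E :=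
  fun _ hreg hfix hred =>
    gaussAll_family (hq := hq) (hqN := hqN) hA hζ E hD hreg hfix hred

/-- **the ROOT3 package** from (DISC), (FIX), (COVER), (SAT_q). -/
theorem root3Pack_of (hA : A.LiesOverPrime q) (hζ : IsPrimitiveRoot ζ q) (ι : Type)
    [hfin : Finite ι] [hne : Nonempty ι] (E : ι → FF (N * q * q) →+* LaurentSeries Kb)
    (ω : ι → ℕ) (L₀ : ℤ) (hω : ∀ i, 0 < ω i) (hD : DiscPack A E)
    (hfix : FixStatementE A ζ E) (hcover : CoverStatementE A E)
    (hsat : SatStatementE q A E ω (Fermat.Agent.T3.helper98.regJ (N * q * q)) L₀) :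
    Root3Pack N q hq hqN A hζ :=
  ⟨ι, hfin, hne, E, ω, L₀, hω, hD, hfix, hcover, hsat,
    gaussAllStatement (hq := hq) (hqN := hqN) hA hζ E hD⟩

/-- **[ROOT3-ALL]** (`OpenBoxes.root`) from (DISC), (FIX), (COVER), (SAT_q). -/
theorem root3AllStatement_of (hA : A.LiesOverPrime q) (hζ : IsPrimitiveRoot ζ q) (ι : Type)
    [Finite ι] [Nonempty ι] (E : ι → FF (N * q * q) →+* LaurentSeries Kb)
    (ω : ι → ℕ) (L₀ : ℤ) (hω : ∀ i, 0 < ω i) (hD : DiscPack A E)
    (hfix : FixStatementE A ζ E) (hcover : CoverStatementE A E)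
    (hsat : SatStatementE q A E ω (Fermat.Agent.T3.helper98.regJ (N * q * q)) L₀)
    {n : ℕ} (hn : ¬ q ∣ n) :
    Root3AllStatement N q hq hqN A hζ n :=
  Fermat.Agent.T3.helper72.root3All_of_pack hA
    (root3Pack_of (hq := hq) (hqN := hqN) hA hζ ι E ω L₀ hω hD hfix hcover hsat) hn

end Stmt

end Fermat.Agent.T3.helper20

end
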