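/-
T3 (S36), helper20, [T3-GAUSS-ALL] for THE FAMILY `helper87.ex3c` ([CUSP-Q]):

* `gaussAllStatement_ex3c` : **`helper72.GaussAllStatement N q hq hqN A hζ (helper87.ex3c N q ζ')`**
  unconditionally (the Gauss field of `helper72.Root3Pack` for the family of the expansions of
  `F_{N q q}` at all cusps, in the local parameters);
* `gaussAll_ex3c` : the same, spelled out;
* `gaussAll_exLoc` : the same for the local expansion at ANY coset of `Γ₀(N q²)`;
* `root3Pack_ex3c` : `helper72.Root3Pack` from (FIX), (COVER), (SAT_q) for `ex3c`.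
-/
import Mathlib
import Fermat.Agent.T3.helper20_GaussAllStmt
import Fermat.Agent.T3.helper23_DiscEx3c

set_option autoImplicit false
set_option synthInstance.maxHeartbeats 400000
set_option maxHeartbeats 1000000
set_option linter.style.haveILetI false
set_option linter.unusedSectionVars false
set_option linter.unusedVariables false
set_option linter.style.longLine false

noncomputable section

open HahnSeries IntermediateField AlgebraicCurve ModularCurve
open Fermat.Agent.S18.helper19 Fermat.Agent.P2.helper29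

namespace Fermat.Agent.T3.helper20

open Fermat.Agent.T3.helper23 (DiscPack)
open Fermat.Agent.T3.helper27 (FixStatementE SatStatementE CoverStatementE)
open Fermat.Agent.T3.helper72 (GaussAllStatement Root3Pack Root3AllStatement Red3)
open Fermat.Agent.T3.helper74 (IsFixI)
open Fermat.Agent.T3.helper98 (IsRegJ)
open Fermat.Agent.T3.helper87 (ex3c exLoc Cusp)

section Fam

variable {N q : ℕ} [NeZero N] [NeZero q] {hq : q.Prime} {hqN : ¬ q ∣ N}
variable {A : ValuationSubring Kb} {ζ : Kb}

/-- **[GAUSS-ALL] for THE FAMILY of [CUSP-Q]** (any twisting root `ζ'`). -/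
theorem gaussAllStatement_ex3c (hA : A.LiesOverPrime q) (hζ : IsPrimitiveRoot ζ q) (ζ' : Kb) :
    GaussAllStatement N q hq hqN A hζ (ex3c N q ζ') :=
  gaussAllStatement (hq := hq) (hqN := hqN) hA hζ (ex3c N q ζ')
    (Fermat.Agent.T3.helper23.discPack_ex3c N q ζ' A)

/-- **[GAUSS-ALL] for THE FAMILY of [CUSP-Q]**, spelled out. -/
theorem gaussAll_ex3c (hA : A.LiesOverPrime q) (hζ : IsPrimitiveRoot ζ q) (ζ' : Kb)
    {H : FF (N * q * q)} (hreg : IsRegJ (N * q * q) H) (hfix : IsFixI A (N * q * q) H)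
    (hred : ∀ i, Red3 N q hq hqN A hζ i H 1) (J : Cusp N × Fin 3) :
    ∃ Y : LaurentSeries A, incl A Y = ex3c N q ζ' J H ∧ red A Y = 1 :=
  gaussAllStatement_ex3c (hq := hq) (hqN := hqN) hA hζ ζ' H hreg hfix hred J

/-- **[GAUSS-ALL] at the local expansion of any coset of `Γ₀(N q²)`.** -/
theorem gaussAll_exLoc (hA : A.LiesOverPrime q) (hζ : IsPrimitiveRoot ζ q)
    {H : FF (N * q * q)} (hreg : IsRegJ (N * q * q) H) (hfix : IsFixI A (N * q * q) H)
    (hred : ∀ i, Red3 N q hq hqN A hζ i H 1) (I : Fermat.Agent.S28.IX (N * q * q)) :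
    ∃ Y : LaurentSeries A, incl A Y = exLoc (N * q * q) I H ∧ red A Y = 1 :=
  gaussAll_family (hq := hq) (hqN := hqN) hA hζ (fun I => exLoc (N * q * q) I)
    (Fermat.Agent.T3.helper23.discPack_exLoc (N * q * q) A (fun I => I)) hreg hfix hred I

/-- **the ROOT3 package for THE FAMILY** from (FIX), (COVER), (SAT_q). -/
theorem root3Pack_ex3c (hA : A.LiesOverPrime q) (hζ : IsPrimitiveRoot ζ q) (ζ' : Kb)
    (ω : Cusp N × Fin 3 → ℕ) (L₀ : ℤ) (hω : ∀ i, 0 < ω i)
    (hfix : FixStatementE A ζ (ex3c N q ζ')) (hcover : CoverStatementE A (ex3c N q ζ'))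
    (hsat : SatStatementE q A (ex3c N q ζ') ω (Fermat.Agent.T3.helper98.regJ (N * q * q)) L₀) :
    Root3Pack N q hq hqN A hζ :=
  root3Pack_of (hq := hq) (hqN := hqN) hA hζ (Cusp N × Fin 3) (ex3c N q ζ') ω L₀ hω
    (Fermat.Agent.T3.helper23.discPack_ex3c N q ζ' A) hfix hcover hsat

end Fam

end Fermat.Agent.T3.helper20

end
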