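import Mathlib

/-!
# Tier 3 (helper22): finite generation from leading coefficients, abstract form

Mathlib only.  The situation to keep in mind: `O` is a discrete valuation ring, `𝔐 = AA` is the
ring of integral functions of a model of a curve which are regular off the cusps (or a divisorial
module over it), `Λ N` is the lattice of the elements with pole orders `≤ N` at the cusps,
`lc N` is the family of the coefficients of `t ^ (-N)` of the expansions at the cusps, with values
in a noetherian `O`-module `E` (a finite product of finite free `O`-modules), and `x` is a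
function with pole order exactly `m` and unit leading coefficients at all cusps.

* `exists_forall_mem_span_of_leading` : all of `𝔐` lies in the `R`-span of one `Λ N₁`
  (`R` any ring acting, e.g. `O[x]`).
* `finite_of_leading` : `𝔐` is a finitely generated `R`-module, if `Λ N₁` is finitely
  generated over `O`.
-/

set_option autoImplicit false
set_option linter.unusedSectionVars false

namespace Fermat.Agent.T3.helper22

section FGAbs

variable {O : Type*} [CommRing O] {R : Type*} [CommRing R] [Algebra O R]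
  {𝔐 : Type*} [AddCommGroup 𝔐] [Module O 𝔐] [Module R 𝔐] [IsScalarTower O R 𝔐]
  {E : Type*} [AddCommGroup E] [Module O E]

/-- the chain of the (normalised) modules of leading coefficients in the residue class `r`
modulo `m` -/
def lcChain (m : ℕ) (Λ : ℕ → Submodule O 𝔐) (lc : ℕ → 𝔐 →ₗ[O] E) (u : E ≃ₗ[O] E) (r : ℕ)
    (j : ℕ) : Submodule O E :=
  ((Λ (r + j * m)).map (lc (r + j * m))).map ((u.symm ^ j : E ≃ₗ[O] E) : E →ₗ[O] E)

theorem mem_lcChain {m : ℕ} {Λ : ℕ → Submodule O 𝔐} {lc : ℕ → 𝔐 →ₗ[O] E} {u : E ≃ₗ[O] E}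
    {r j : ℕ} {e : E} :
    e ∈ lcChain m Λ lc u r j ↔ ∃ G ∈ Λ (r + j * m), (u.symm ^ j) (lc (r + j * m) G) = e := by
  unfold lcChain
  constructor
  · rintro ⟨_, ⟨G, hG, rfl⟩, rfl⟩
    exact ⟨G, hG, rfl⟩
  · rintro ⟨G, hG, rfl⟩
    exact ⟨_, ⟨G, hG, rfl⟩, rfl⟩

theorem lcChain_mono {x : R} {m : ℕ} {Λ : ℕ → Submodule O 𝔐}
    (hx : ∀ N, ∀ G ∈ Λ N, x • G ∈ Λ (N + m)) {lc : ℕ → 𝔐 →ₗ[O] E} {u : E ≃ₗ[O] E}
    (hu : ∀ N, ∀ G ∈ Λ N, lc (N + m) (x • G) = u (lc N G)) (r : ℕ) :
    Monotone (lcChain m Λ lc u r) := by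
  refine monotone_nat_of_le_succ fun j e he => ?_
  rw [mem_lcChain] at he ⊢
  obtain ⟨G, hG, rfl⟩ := he
  have e1 : r + (j + 1) * m = r + j * m + m := by ring
  refine ⟨x • G, by rw [e1]; exact hx _ G hG, ?_⟩
  rw [e1, hu _ G hG, pow_succ, LinearEquiv.mul_apply, LinearEquiv.symm_apply_apply]

/-- **Finite generation from leading coefficients.** -/
theorem exists_forall_mem_span_of_leading [IsNoetherian O E] (x : R) (m : ℕ) (hm : 0 < m)
    (Λ : ℕ → Submodule O 𝔐) (hmono : Monotone Λ) (hex : ∀ G : 𝔐, ∃ N, G ∈ Λ N)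
    (hx : ∀ N, ∀ G ∈ Λ N, x • G ∈ Λ (N + m))
    (lc : ℕ → 𝔐 →ₗ[O] E)
    (hker : ∀ N, ∀ G ∈ Λ (N + 1), lc (N + 1) G = 0 → G ∈ Λ N)
    (u : E ≃ₗ[O] E) (hu : ∀ N, ∀ G ∈ Λ N, lc (N + m) (x • G) = u (lc N G)) :
    ∃ N₁, ∀ G : 𝔐, G ∈ Submodule.span R (Λ N₁ : Set 𝔐) := by
  classical
  -- stabilisation of the chains
  have hstab : ∀ r : ℕ, ∃ J, ∀ j, J ≤ j → lcChain m Λ lc u r J = lcChain m Λ lc u r j := fun r =>
    monotone_stabilizes_iff_noetherian.mpr inferInstance ⟨_, lcChain_mono hx hu r⟩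
  choose J hJ using hstab
  obtain ⟨J₀, hJ₀⟩ : ∃ J₀, ∀ r < m, J r ≤ J₀ :=
    ⟨(Finset.range m).sup J, fun r hr => Finset.le_sup (Finset.mem_range.mpr hr)⟩
  -- the key step
  have hstep : ∀ N, m * J₀ ≤ N → ∀ G ∈ Λ (N + m), ∃ G' ∈ Λ N, G - x • G' ∈ Λ (N + m - 1) := by
    intro N hN G hG
    have hr : N % m < m := Nat.mod_lt _ hm
    have hN' : N = N % m + N / m * m := by
      rw [mul_comm]; exact (Nat.mod_add_div N m).symm
    have hj : J (N % m) ≤ N / m := by
      refine (hJ₀ _ hr).trans ?_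
      rw [Nat.le_div_iff_mul_le hm, mul_comm]
      exact hN
    have e1 : N % m + (N / m + 1) * m = N + m := by
      rw [add_mul, one_mul, ← add_assoc, ← hN']
    have h1 : (u.symm ^ (N / m + 1)) (lc (N + m) G) ∈ lcChain m Λ lc u (N % m) (N / m + 1) := by
      rw [mem_lcChain]
      exact ⟨G, by rw [e1]; exact hG, by rw [e1]⟩
    rw [← hJ _ _ (hj.trans (Nat.le_succ _)), hJ _ _ hj, mem_lcChain] at h1
    obtain ⟨G', hG', h2⟩ := h1
    rw [← hN'] at hG' h2
    refine ⟨G', hG', ?_⟩
    have e2 : ∀ (k : ℕ) (e : E), (u ^ k) ((u.symm ^ k) e) = e := by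
      intro k
      induction k with
      | zero => intro e; rfl
      | succ k ih =>
        intro e
        rw [pow_succ u, pow_succ' u.symm, LinearEquiv.mul_apply, LinearEquiv.mul_apply,
          LinearEquiv.apply_symm_apply, ih]
    have h3 : lc (N + m) (x • G') = lc (N + m) G := by
      rw [hu N G' hG']
      calc u (lc N G') = u ((u ^ (N / m)) ((u.symm ^ (N / m)) (lc N G'))) := by rw [e2]
        _ = (u ^ (N / m + 1)) ((u.symm ^ (N / m)) (lc N G')) := by
            rw [pow_succ' u, LinearEquiv.mul_apply]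
        _ = (u ^ (N / m + 1)) ((u.symm ^ (N / m + 1)) (lc (N + m) G)) := by rw [h2]
        _ = lc (N + m) G := e2 _ _
    have h4 : G - x • G' ∈ Λ (N + m) := (Λ (N + m)).sub_mem hG (hx N G' hG')
    have e4 : N + m = (N + m - 1) + 1 := by omega
    rw [e4] at h4
    refine hker _ _ h4 ?_
    rw [← e4, map_sub, h3, sub_self]
  -- induction
  refine ⟨m * J₀ + m, ?_⟩
  have hall : ∀ N, ∀ G ∈ Λ N, G ∈ Submodule.span R (Λ (m * J₀ + m) : Set 𝔐) := by
    intro N
    induction N using Nat.strong_induction_on with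
    | _ N ih =>
      intro G hG
      by_cases hN : N ≤ m * J₀ + m
      · exact Submodule.subset_span (hmono hN hG)
      · have hN1 : m * J₀ ≤ N - m := by omega
        have e5 : N - m + m = N := by omega
        obtain ⟨G', hG', h⟩ := hstep (N - m) hN1 G (by rw [e5]; exact hG)
        rw [e5] at h
        have h5 := ih (N - m) (by omega) G' hG'
        have h6 := ih (N - 1) (by omega) _ h
        have : G = x • G' + (G - x • G') := by abel
        rw [this]
        exact Submodule.add_mem _ (Submodule.smul_mem _ _ h5) h6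
  intro G
  obtain ⟨N, hN⟩ := hex G
  exact hall N G hN

/-- **Finite generation from leading coefficients**, `Module.Finite` form. -/
theorem finite_of_leading [IsNoetherian O E] (x : R) (m : ℕ) (hm : 0 < m)
    (Λ : ℕ → Submodule O 𝔐) (hmono : Monotone Λ) (hex : ∀ G : 𝔐, ∃ N, G ∈ Λ N)
    (hfg : ∀ N, (Λ N).FG)
    (hx : ∀ N, ∀ G ∈ Λ N, x • G ∈ Λ (N + m))
    (lc : ℕ → 𝔐 →ₗ[O] E)
    (hker : ∀ N, ∀ G ∈ Λ (N + 1), lc (N + 1) G = 0 → G ∈ Λ N)
    (u : E ≃ₗ[O] E) (hu : ∀ N, ∀ G ∈ Λ N, lc (N + m) (x • G) = u (lc N G)) :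
    Module.Finite R 𝔐 := by
  obtain ⟨N₁, hN₁⟩ := exists_forall_mem_span_of_leading x m hm Λ hmono hex hx lc hker u hu
  obtain ⟨T, hT⟩ := hfg N₁
  refine ⟨⟨T, ?_⟩⟩
  rw [eq_top_iff]
  intro G _
  have h1 : (Λ N₁ : Set 𝔐) ⊆ Submodule.span R (T : Set 𝔐) := by
    intro y hy
    have hy' : y ∈ Submodule.span O (T : Set 𝔐) := by rw [hT]; exact hy
    exact Submodule.span_le_restrictScalars O R _ hy'
  exact Submodule.span_le.mpr h1 (hN₁ G)

end FGAbs

section Noeth

variable {O : Type*} [CommRing O] {R : Type*} [CommRing R] [Algebra O R]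

/-- `O[x]` is noetherian -/
theorem isNoetherianRing_adjoin_singleton [IsNoetherianRing O] (x : R) :
    IsNoetherianRing (Algebra.adjoin O ({x} : Set R)) := by
  have hfg : (Algebra.adjoin O ({x} : Set R)).FG :=
    ⟨{x}, by rw [Finset.coe_singleton]⟩
  haveI : Algebra.FiniteType O (Algebra.adjoin O ({x} : Set R)) :=
    (Subalgebra.fg_iff_finiteType _).mp hfg
  exact Algebra.FiniteType.isNoetherianRing O _

/-- a ring which is a finitely generated module over `O[x]` is noetherian -/
theorem isNoetherianRing_of_finite_adjoin [IsNoetherianRing O] (x : R)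
    [Module.Finite (Algebra.adjoin O ({x} : Set R)) R] : IsNoetherianRing R := by
  haveI := isNoetherianRing_adjoin_singleton (O := O) x
  exact IsNoetherianRing.of_finite (Algebra.adjoin O ({x} : Set R)) R

/-- **Noetherianity from leading coefficients**: the ring `R` is exhausted by finitely generated
`O`-lattices `Λ N` ("pole orders `≤ N`"), `x ∈ R` raises the pole order by exactly `m` and
multiplies the leading coefficients by a unit, and the leading coefficients lie in a noetherian
`O`-module.  Then `R` is a finitely generated `O[x]`-module and a noetherian ring. -/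
theorem isNoetherianRing_of_leading [IsNoetherianRing O] {E : Type*} [AddCommGroup E]
    [Module O E] [IsNoetherian O E] (x : R) (m : ℕ) (hm : 0 < m)
    (Λ : ℕ → Submodule O R) (hmono : Monotone Λ) (hex : ∀ G : R, ∃ N, G ∈ Λ N)
    (hfg : ∀ N, (Λ N).FG)
    (hx : ∀ N, ∀ G ∈ Λ N, x * G ∈ Λ (N + m))
    (lc : ℕ → R →ₗ[O] E)
    (hker : ∀ N, ∀ G ∈ Λ (N + 1), lc (N + 1) G = 0 → G ∈ Λ N)
    (u : E ≃ₗ[O] E) (hu : ∀ N, ∀ G ∈ Λ N, lc (N + m) (x * G) = u (lc N G)) :
    Module.Finite (Algebra.adjoin O ({x} : Set R)) R ∧ IsNoetherianRing R := by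
  have h1 : Module.Finite (Algebra.adjoin O ({x} : Set R)) R :=
    finite_of_leading (R := Algebra.adjoin O ({x} : Set R))
      (⟨x, Algebra.subset_adjoin (Set.mem_singleton x)⟩ : Algebra.adjoin O ({x} : Set R)) m hm Λ
      hmono hex hfg (fun N G hG => hx N G hG) lc hker u (fun N G hG => hu N G hG)
  exact ⟨h1, haveI := h1; isNoetherianRing_of_finite_adjoin (O := O) x⟩

end Noeth

section Lattice

open Module

variable {O : Type*} [CommRing O] {K : Type*} [Field K] [Algebra O K]
  {V : Type*} [AddCommGroup V] [Module K V] [Module O V] [IsScalarTower O K V]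
  {ι : Type*}

/-- finitely many of a jointly injective family of functionals on a finite dimensional space
are jointly injective -/
theorem exists_finset_forall_eq_zero [FiniteDimensional K V] (φ : ι → V →ₗ[K] K)
    (hφ : ∀ v, (∀ i, φ i v = 0) → v = 0) :
    ∃ s : Finset ι, ∀ v, (∀ i ∈ s, φ i v = 0) → v = 0 := by
  classical
  let W : Finset ι → Submodule K V := fun s => ⨅ i ∈ s, LinearMap.ker (φ i)
  have hW : ∀ (s : Finset ι) (v : V), v ∈ W s ↔ ∀ i ∈ s, φ i v = 0 := by
    intro s v
    simp only [W, Submodule.mem_iInf, LinearMap.mem_ker]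
  obtain ⟨n, ⟨s, rfl⟩, hmin⟩ := WellFounded.has_min Nat.lt_wfRel.wf
    (Set.range fun s : Finset ι => finrank K (W s)) ⟨_, ⟨∅, rfl⟩⟩
  refine ⟨s, fun v hv => ?_⟩
  by_contra hv0
  obtain ⟨i, hi⟩ : ∃ i, φ i v ≠ 0 := by
    by_contra hcon
    exact hv0 (hφ v fun i => not_not.mp fun h => hcon ⟨i, h⟩)
  have hlt : W (insert i s) < W s := by
    refine lt_of_le_of_ne (fun w hw => ?_) (fun heq => ?_)
    · rw [hW] at hw ⊢
      exact fun j hj => hw j (Finset.mem_insert_of_mem hj)
    · have h1 : v ∈ W (insert i s) := by rw [heq, hW]; exact hv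
      rw [hW] at h1
      exact hi (h1 i (Finset.mem_insert_self i s))
  exact hmin _ ⟨insert i s, rfl⟩ (Submodule.finrank_lt_finrank_of_lt hlt)

/-- **Lattices are finitely generated.**  `O` noetherian, `V` a finite dimensional space over
`K ⊇ O` and `φ i` a jointly injective family of functionals ("coefficients of the expansion").
An `O`-submodule of `V` all of whose coefficients are integral is finitely generated. -/
theorem fg_of_forall_mem_range [IsNoetherianRing O] [FiniteDimensional K V]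
    (φ : ι → V →ₗ[K] K) (hφ : ∀ v, (∀ i, φ i v = 0) → v = 0) (Λ : Submodule O V)
    (hΛ : ∀ v ∈ Λ, ∀ i, φ i v ∈ Set.range (algebraMap O K)) : Λ.FG := by
  classical
  obtain ⟨s, hs⟩ := exists_finset_forall_eq_zero φ hφ
  -- the integral functions on `s`
  let c : (s → O) →ₗ[O] (s → K) := (Algebra.linearMap O K).compLeft s
  haveI : IsNoetherian O (LinearMap.range c) :=
    isNoetherian_of_surjective c.rangeRestrict (LinearMap.range_rangeRestrict c)
  let ψ : V →ₗ[O] (s → K) :=
    (LinearMap.pi fun i : s => (φ i).restrictScalars O)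
  have hψ : ∀ v ∈ Λ, ψ v ∈ LinearMap.range c := by
    intro v hv
    choose a ha using fun i : s => hΛ v hv i
    refine ⟨a, ?_⟩
    funext i
    simp only [c, ψ, LinearMap.compLeft_apply, Function.comp_apply, Algebra.linearMap_apply,
      LinearMap.pi_apply, LinearMap.coe_restrictScalars, ha]
  let Ψ : Λ →ₗ[O] LinearMap.range c :=
    (ψ.comp Λ.subtype).codRestrict (LinearMap.range c) fun v => hψ v.1 v.2
  have hΨ : Function.Injective Ψ := by
    intro v w hvw
    have h1 : ψ (v.1 - w.1) = 0 := by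
      have h0 : ψ v.1 = ψ w.1 := congrArg Subtype.val hvw
      rw [map_sub, h0, sub_self]
    have h2 : v.1 - w.1 = 0 := by
      refine hs _ fun i hi => ?_
      have := congrFun h1 ⟨i, hi⟩
      simpa [ψ] using this
    exact Subtype.ext (sub_eq_zero.mp h2)
  haveI : IsNoetherian O Λ := isNoetherian_of_injective Ψ hΨ
  exact (Submodule.fg_top Λ).mp (IsNoetherian.noetherian (⊤ : Submodule O Λ))

end Lattice

end Fermat.Agent.T3.helper22
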