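import Mathlib
import Fermat.Agent.T3.helper22_Ideal3Tor
import Fermat.Agent.T3.helper22_FFB3
import Fermat.Agent.T3.helper98_ResCore
import Fermat.Agent.T3.helper95_BtDed
import Fermat.Agent.T3.helper84_FGInst

/-!
# Tier 3 (helper22): [IDEAL3], the concrete instance (all cusps)

`B : helper49.TorBase` with `B.Reg = helper98.regJRing (N q q)` (regular where `j` is finite) and
`B.Bt = BtAll N A` (the functions of the special fibre regular where `j̄` is finite):
`IsAllCusps B`.  For `T = B.calc hA` we prove the boxes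

* `huniq`, `hinv` (`RhoQ.unique`, `helper49.Rho3.inv`),
* `hres` = **[RES]** (`helper98.ord_nonneg_of_red3` + `helper22.ffb3`),
* `hfrac` = **[FFB3]**, `hded` (`helper95.isDedekindDomain_BtAll`),
* `hnoeth` = **[FG]** (`helper84.isNoetherianRing_of_fix_integral`, `helper97.completeO`,
  `helper98.isIntegralElem_evX_of_red3`)

of `helper22.Ideal3Box T`; the other boxes are the fields of `Ideal3Rest B hA`, and
`ideal3Statement_of : IsAllCusps B → Ideal3Rest B hA → helper49.Ideal3Statement B hA`.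
-/

set_option autoImplicit false
set_option synthInstance.maxHeartbeats 400000
set_option linter.unusedSectionVars false
set_option linter.unusedVariables false
set_option linter.style.longLine false
set_option linter.style.haveILetI false

noncomputable section

open HahnSeries IntermediateField AlgebraicCurve ModularCurve
open Fermat.Agent.S18.helper19 Fermat.Agent.P2.helper29 Fermat.Agent.T2.helper36

namespace Fermat.Agent.T3.helper22

open Fermat.Agent.T3.helper74 (ex3 IsFixI)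
open Fermat.Agent.T3.helper72 (Red3)
open Fermat.Agent.T3.helper49 (Rho3 TorBase TorCalc Ideal3Statement)
open Fermat.Agent.T3.helper98 (regJRing IsRegJ mem_regJRing)
open Fermat.Agent.T3.helper95 (BtAll mem_BtAll Bt_le_BtAll)

section Inst

variable {N q : ℕ} [NeZero N] [NeZero q] {hq : q.Prime} {hqN : ¬ q ∣ N}
  {A : ValuationSubring Kb} {ζ : Kb} {hζ : IsPrimitiveRoot ζ q} {n : ℕ}

/-- the base of the toric calculus is the all-cusps base -/
structure IsAllCusps (B : TorBase N q hq hqN A hζ n) : Prop where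
  reg : B.Reg = regJRing (N * q * q)
  bt : B.Bt = (BtAll N A).toSubring

variable (B : TorBase N q hq hqN A hζ n) (hA : A.LiesOverPrime q)

theorem box_huniq (f : FF (N * q * q)) (X Y : Fin 3 → LaurentSeries (kA A))
    (h : (B.calc hA).Rho f X) (h' : (B.calc hA).Rho f Y) : X = Y := by
  funext i
  have h1 : Fermat.Agent.T3.helper36.RhoQ A (ex3 N q hq hqN hζ i f) (X i) := h.2 i
  have h2 : Fermat.Agent.T3.helper36.RhoQ A (ex3 N q hq hqN hζ i f) (Y i) := h'.2 i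
  exact h1.unique h2

theorem box_hinv (f : FF (N * q * q)) (X : Fin 3 → LaurentSeries (kA A))
    (h : (B.calc hA).Rho f X) (hX : ∀ c, X c ≠ 0) :
    (B.calc hA).Rho f⁻¹ (fun c => (X c)⁻¹) :=
  Fermat.Agent.T3.helper49.Rho3.inv h hX

variable {B}

theorem mem_reg_iff (H : IsAllCusps B) {f : FF (N * q * q)} :
    f ∈ (B.calc hA).Reg ↔ IsRegJ (N * q * q) f := by
  show f ∈ B.Reg ↔ _
  rw [H.reg]
  exact mem_regJRing

theorem mem_bt_iff (H : IsAllCusps B) {z : LaurentSeries (kA A)} :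
    z ∈ (B.calc hA).Bt ↔ z ∈ BtAll N A := by
  show z ∈ B.Bt ↔ _
  rw [H.bt]
  rfl

/-- **[RES]** -/
theorem box_hres (H : IsAllCusps B) (f : FF (N * q * q)) (X : Fin 3 → LaurentSeries (kA A))
    (hf : f ∈ (B.calc hA).Reg) (h : (B.calc hA).Rho f X) (c : Fin 3) :
    X c ∈ (B.calc hA).Bt := by
  rw [mem_bt_iff hA H]
  rw [mem_reg_iff hA H] at hf
  have h' : Rho3 N q hq hqN A hζ f X := h
  exact mem_BtAll.mpr ⟨ffb3 hA h' c, fun P hP =>
    Fermat.Agent.T3.helper98.ord_nonneg_of_red3 hA hζ hf h'.1 h'.2 c (ffb3 hA h' c) P hP⟩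

/-- **[FFB3]** -/
theorem box_hfrac (H : IsAllCusps B) (f : FF (N * q * q)) (X : Fin 3 → LaurentSeries (kA A))
    (h : (B.calc hA).Rho f X) (c : Fin 3) :
    ∃ a ∈ (B.calc hA).Bt, ∃ b ∈ (B.calc hA).Bt, b ≠ 0 ∧ X c * b = a := by
  have h' : Rho3 N q hq hqN A hζ f X := h
  exact hfrac_of_le hA (B.calc hA).Bt
    (fun z hz => (mem_bt_iff hA H).mpr (Bt_le_BtAll hz)) h' c

theorem box_hded (H : IsAllCusps B) : IsDedekindDomain (B.calc hA).Bt := by
  have h : IsDedekindDomain (BtAll N A).toSubring :=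
    Fermat.Agent.T3.helper95.isDedekindDomain_BtAll N A
  have e : (B.calc hA).Bt = (BtAll N A).toSubring := H.bt
  rw [e]
  exact h

/-! ### [FG] -/

open Fermat.Agent.S24 (xJ) in
/-- constants of `O = k0Ring A` -/
theorem const_mem_aaRing (H : IsAllCusps B) (a : Fermat.Agent.T3.helper84.k0Ring A) :
    algebraMap Kb (FF (N * q * q)) (a : Kb) ∈ aaRing (B.calc hA) := by
  have hρ : Rho3 N q hq hqN A hζ (algebraMap Kb (FF (N * q * q)) (a : Kb))
      (fun _ => algebraMap (kA A) (LaurentSeries (kA A))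
        (IsLocalRing.residue A ⟨(a : Kb), a.2.1⟩)) := by
    refine ⟨fun σ hσ => ?_, fun i => ?_⟩
    · rw [arithmeticRingAut_algebraMap, a.2.2 σ hσ]
    · have h := Fermat.Agent.T3.helper36.rhoQ_algebraMap (A := A) ⟨(a : Kb), a.2.1⟩
      rw [← Fermat.Agent.T3.helper98.ex3_const (hq := hq) (hqN := hqN) hζ i] at h
      exact h
  have hreg : algebraMap Kb (FF (N * q * q)) (a : Kb) ∈ (B.calc hA).Reg :=
    (mem_reg_iff hA H).mpr (Fermat.Agent.T3.helper98.isRegJ_algebraMap _)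
  exact ⟨hreg, _, hρ, box_hres hA H _ _ hreg hρ⟩

open Fermat.Agent.S24 (xJ) in
/-- `j` -/
theorem xJ_mem_aaRing (H : IsAllCusps B) : xJ (N * q * q) ∈ aaRing (B.calc hA) := by
  have h0 : incl A (jqModC A) = ex3 N q hq hqN hζ 0 (xJ (N * q * q)) := by
    rw [Fermat.Agent.T3.helper98.xJ_eq_dg0, Fermat.Agent.T3.helper98.ex3_zero_dg0,
      Fermat.Agent.T3.helper98.coe_xJ', Fermat.Agent.T3.helper98.incl_jqModC]
  have h1 : incl A (qExpand A q (qExpand A q (jqModC A)))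
      = ex3 N q hq hqN hζ 1 (xJ (N * q * q)) := by
    rw [Fermat.Agent.T3.helper98.xJ_eq_dg0, Fermat.Agent.T3.helper98.ex3_one_dg0,
      Fermat.Agent.T3.helper98.coe_xJ', ← Fermat.Agent.T3.helper98.incl_jqModC (A := A)]
    show coeffMap _ _ = _
    rw [Fermat.Agent.P2.helper94.coeffMap_qExpand, Fermat.Agent.P2.helper94.coeffMap_qExpand]
  have h2 : incl A (jqModC A) = ex3 N q hq hqN hζ 2 (xJ (N * q * q)) := by
    rw [Fermat.Agent.T3.helper98.xJ_eq_dg0, Fermat.Agent.T3.helper98.ex3_two_dg0,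
      Fermat.Agent.T3.helper98.coe_xJ', Fermat.Agent.T3.helper98.incl_jqModC]
  have hρ : Rho3 N q hq hqN A hζ (xJ (N * q * q))
      ![red A (jqModC A), red A (qExpand A q (qExpand A q (jqModC A))), red A (jqModC A)] := by
    refine ⟨Fermat.Agent.T3.helper84.isFixI_xJ A (N * q * q), fun i => ?_⟩
    fin_cases i
    · have := Fermat.Agent.T3.helper36.rhoQ_incl (A := A) (jqModC A)
      rw [h0] at this
      exact this
    · have := Fermat.Agent.T3.helper36.rhoQ_incl (A := A) (qExpand A q (qExpand A q (jqModC A)))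
      rw [h1] at this
      exact this
    · have := Fermat.Agent.T3.helper36.rhoQ_incl (A := A) (jqModC A)
      rw [h2] at this
      exact this
  have hreg : xJ (N * q * q) ∈ (B.calc hA).Reg := by
    rw [mem_reg_iff hA H, ← Fermat.Agent.T3.helper48.jElt_eq_xJ]
    exact Fermat.Agent.T3.helper98.isRegJ_jElt
  exact ⟨hreg, _, hρ, box_hres hA H _ _ hreg hρ⟩

/-- `O[j] ⊆ AA` -/
theorem evO_mem_aaRing (H : IsAllCusps B)
    (P : Polynomial (Fermat.Agent.T3.helper84.k0Ring A)) :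
    Fermat.Agent.T3.helper97.evO A (N * q * q) P ∈ aaRing (B.calc hA) := by
  induction P using Polynomial.induction_on with
  | C a =>
    rw [Fermat.Agent.T3.helper97.evO_C]
    exact const_mem_aaRing hA H a
  | add p r hp hr =>
    rw [map_add]
    exact (aaRing (B.calc hA)).add_mem hp hr
  | monomial k a ih =>
    rw [pow_succ, ← mul_assoc, map_mul, Fermat.Agent.T3.helper97.evO_X]
    exact (aaRing (B.calc hA)).mul_mem ih (xJ_mem_aaRing hA H)

/-- **[FG]** `AA` is noetherian. -/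
theorem box_hnoeth (H : IsAllCusps B) : IsNoetherianRing (aaRing (B.calc hA)) := by
  refine Fermat.Agent.T3.helper84.isNoetherianRing_of_fix_integral hq A hA (N * q * q)
    (aaRing (B.calc hA)) (evO_mem_aaRing hA H) ?_ ?_
  · rintro f ⟨-, X, ρ, -⟩
    exact ρ.1
  · rintro f ⟨hf, X, ρ, -⟩
    have hf' : IsRegJ (N * q * q) f := (mem_reg_iff hA H).mp hf
    have ρ' : Rho3 N q hq hqN A hζ f X := ρ
    exact Fermat.Agent.T3.helper97.completeO A (N * q * q)
      (Fermat.Agent.T3.helper98.isIntegralElem_evX_of_red3 hA hζ hf' ρ'.1 ρ'.2)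

/-! ### The remaining boxes and the statement -/

variable (B) in
/-- **the remaining boxes of [IDEAL3]**, in concrete form (all cusps): `IsRegJ` = regular where
`j` is finite, `Rho3` = `helper49.Rho3` (inertia-fixed with reduction triple), `BtAll` = the
functions of the special fibre regular where `j̄` is finite. -/
structure Ideal3Rest : Prop where
  /-- **[SURJ3]** (all cusps) -/
  hsurj : ∀ (c : Fin 3), ∀ z ∈ BtAll N A, ∃ f : FF (N * q * q), IsRegJ (N * q * q) f ∧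
    ∃ X, Rho3 N q hq hqN A hζ f X ∧ X c = z
  /-- **[QUOT]** -/
  hquot : ∀ u : FF (N * q * q), Rho3 N q hq hqN A hζ u 1 →
    ∃ (u₁ u₂ : FF (N * q * q)) (X₁ X₂ : Fin 3 → LaurentSeries (kA A)),
      IsRegJ (N * q * q) u₁ ∧ IsRegJ (N * q * q) u₂ ∧ Rho3 N q hq hqN A hζ u₁ X₁ ∧
      Rho3 N q hq hqN A hζ u₂ X₂ ∧ u₂ ≠ 0 ∧ u * u₂ = u₁
  /-- **[KER]** the vertical prime of the component `c` is generated by `b`, up to the
  multiplier `s` whose `c`-th reduction is a unit of `BtAll` -/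
  hker : ∀ c : Fin 3, ∃ (b s : FF (N * q * q)) (Xb Xs : Fin 3 → LaurentSeries (kA A)),
    IsRegJ (N * q * q) b ∧ IsRegJ (N * q * q) s ∧ b ≠ 0 ∧ IsRegJ (N * q * q) (s * b⁻¹) ∧
    Rho3 N q hq hqN A hζ b Xb ∧ Rho3 N q hq hqN A hζ s Xs ∧ Xb c = 0 ∧
    (∃ z ∈ BtAll N A, Xs c * z = 1) ∧
    ∀ (g : FF (N * q * q)) (X : Fin 3 → LaurentSeries (kA A)), Rho3 N q hq hqN A hζ g X →
      X c = 0 → ∃ X', Rho3 N q hq hqN A hζ (g * (s * b⁻¹)) X'
  /-- **[UNITW]** -/
  hunitw : ∀ c : Fin 3, ∃ m : FF (N * q * q), IsRegJ (N * q * q) m ∧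
    ∀ (G : FF (N * q * q)) (X : Fin 3 → LaurentSeries (kA A)), G ≠ 0 →
      Rho3 N q hq hqN A hζ G X →
      ∃ (k : ℕ) (X' : Fin 3 → LaurentSeries (kA A)), Rho3 N q hq hqN A hζ (G * m ^ k) X' ∧
        X' c ≠ 0
  /-- **[IDEM]** -/
  hidem : ∀ c : Fin 3, ∃ (e : FF (N * q * q)) (X : Fin 3 → LaurentSeries (kA A)),
    Rho3 N q hq hqN A hζ e X ∧ X c ≠ 0 ∧ ∀ c', c' ≠ c → X c' = 0
  /-- **[HOR]** -/
  hhor : ∀ u f : FF (N * q * q), Rho3 N q hq hqN A hζ u 1 →
    (∀ P : Place Kb (FF (N * q * q)), (n : ℤ) ∣ P.ord u) →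
    (∀ G G' : FF (N * q * q), IsRegJ (N * q * q) (G ^ n * u⁻¹) →
      IsRegJ (N * q * q) (G' ^ n * u⁻¹⁻¹) → (∃ X, Rho3 N q hq hqN A hζ G X) →
      (∃ X, Rho3 N q hq hqN A hζ G' X) → IsRegJ (N * q * q) (f * (G * G'))) →
    IsRegJ (N * q * q) f
  /-- **[GLUE]** -/
  hglue : ∀ (f : FF (N * q * q)) (X : Fin 3 → LaurentSeries (kA A)), IsRegJ (N * q * q) f →
    Rho3 N q hq hqN A hζ f X → X 0 - 1 ∈ B.J → ∀ c, X c - 1 ∈ B.J
  /-- the supersingular ideal is not zero -/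
  hJ : ∃ e ∈ B.J, e ≠ 0

/-- the boxes of `helper22.Ideal3Box` for the all-cusps base -/
theorem ideal3Box_of (H : IsAllCusps B) (R : Ideal3Rest B) : Ideal3Box (B.calc hA) where
  huniq := box_huniq B hA
  hinv := box_hinv B hA
  hres := box_hres hA H
  hfrac := box_hfrac hA H
  hded := box_hded hA H
  hsurj := fun c z hz => by
    obtain ⟨f, hf, X, ρ, hX⟩ := R.hsurj c z ((mem_bt_iff hA H).mp hz)
    exact ⟨f, (mem_reg_iff hA H).mpr hf, X, ρ, hX⟩
  hnoeth := box_hnoeth hA H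
  hquot := fun u hu => by
    obtain ⟨u₁, u₂, X₁, X₂, h₁, h₂, ρ₁, ρ₂, h0, e⟩ := R.hquot u hu
    have r₁ := (mem_reg_iff hA H).mpr h₁
    have r₂ := (mem_reg_iff hA H).mpr h₂
    exact ⟨u₁, u₂, ⟨r₁, X₁, ρ₁, box_hres hA H _ _ r₁ ρ₁⟩, ⟨r₂, X₂, ρ₂, box_hres hA H _ _ r₂ ρ₂⟩,
      h0, e⟩
  hker := fun c 𝔪 h𝔪 => by
    obtain ⟨b, s, Xb, Xs, hb, hs, hb0, hsb, ρb, ρs, hXb, ⟨z, hz, hzu⟩, hdiv⟩ := R.hker c
    have rs := (mem_reg_iff hA H).mpr hs
    have hXs : Xs c ∈ (B.calc hA).Bt := box_hres hA H _ _ rs ρs c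
    have hz' : z ∈ (B.calc hA).Bt := (mem_bt_iff hA H).mpr hz
    refine ⟨b, s, Xb, Xs, (mem_reg_iff hA H).mpr hb, rs, hb0, (mem_reg_iff hA H).mpr hsb, ρb, ρs,
      hXb, ⟨⟨Xs c, hXs⟩, rfl, fun hm => ?_⟩, hdiv⟩
    have h1 : (⟨Xs c, hXs⟩ : (B.calc hA).Bt) * ⟨z, hz'⟩ = 1 := Subtype.ext hzu
    have h2 : (1 : (B.calc hA).Bt) ∈ 𝔪 := by
      rw [← h1]
      exact 𝔪.mul_mem_right _ hm
    exact h𝔪.ne_top ((Ideal.eq_top_iff_one 𝔪).mpr h2)
  hunitw := fun c => by
    obtain ⟨m, hm, h⟩ := R.hunitw c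
    exact ⟨m, (mem_reg_iff hA H).mpr hm, h⟩
  hidem := R.hidem
  hhor := fun u f hu hdv h => by
    refine (mem_reg_iff hA H).mpr (R.hhor u f hu hdv fun G G' hG hG' ρG ρG' => ?_)
    exact (mem_reg_iff hA H).mp (h G G' ((mem_reg_iff hA H).mpr hG) ((mem_reg_iff hA H).mpr hG')
      ρG ρG')

theorem ideal3Glue_of (H : IsAllCusps B) (R : Ideal3Rest B) : Ideal3Glue (B.calc hA) where
  hglue := fun f X hf ρ h0 => R.hglue f X ((mem_reg_iff hA H).mp hf) ρ h0
  hJ := R.hJ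

/-- **[IDEAL3]** `helper49.Ideal3Statement` for the all-cusps base, from the remaining boxes. -/
theorem ideal3Statement_of (hn : n ≠ 0) (H : IsAllCusps B) (R : Ideal3Rest B) :
    Ideal3Statement B hA := fun u ρ hdv =>
  ⟨(ideal3Box_of hA H R).hasGenerator (ideal3Glue_of hA H R) hn ρ hdv,
    (ideal3Box_of hA H R).hasPartition hn ρ hdv⟩

end Inst

end Fermat.Agent.T3.helper22

end
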