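import Mathlib
import Fermat.Agent.T3.helper72_TorAll
import Fermat.Agent.T3.helper98_ResBox
import Fermat.Agent.T3.helper22_FFB3

/-!
# T3 [TORIC] box `hν` (helper23): the reduction of the weight-one unit lies in `BtAll`

`h : helper16.IsUnit0 hq hqN b0 B ε` (the weight-one unit at level `N q`, `q`-expansion `B`).
The reduction `ν = B mod q` is the reduction at `∞` of the `I`-fixed function `α₂ b₀`, which is
regular where `j` is finite; by [FFB3] (helper22) it lies in the function field of the special
fibre, by [RES] (helper98) it is regular where `j̄` is finite.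

* `nu_mem_BtAll`  : `iota (kA A) B ∈ helper95.BtAll N A`;
* `nu_mem_btAll`  : the hypothesis `hν` of `helper72.torBaseAll` / `toric_all` /
  `newCore2_of_scale_all`, VERBATIM;
* `nu_mem_btAll'` : the same without `ζ`.
-/

set_option autoImplicit false
set_option synthInstance.maxHeartbeats 400000
set_option linter.unusedSectionVars false
set_option linter.unusedVariables false
set_option linter.style.longLine false

noncomputable section

open HahnSeries IntermediateField AlgebraicCurve ModularCurve
open Fermat.Agent.S18.helper19 Fermat.Agent.P2.helper29 Fermat.Agent.T2.helper36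

namespace Fermat.Agent.T3.helper23

open Fermat.Agent.T3.helper16 (IsUnit0)

section Nu

variable {N q : ℕ} [NeZero N] [NeZero q] {hq : q.Prime} {hqN : ¬ q ∣ N}
  {b0 : FF (N * q)} {B : PowerSeries ℤ} {ε : ℤ}

/-- **the reduction of the weight-one unit is regular where `j̄` is finite** -/
theorem nu_mem_BtAll (h : IsUnit0 hq hqN b0 B ε) (A : ValuationSubring Kb)
    (hA : A.LiesOverPrime q) {ζ : Kb} (hζ : IsPrimitiveRoot ζ q) :
    Fermat.Agent.P2.helper66.iota (kA A) B ∈ Fermat.Agent.T3.helper95.BtAll N A := by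
  have ρ := h.rho3_alpha A hζ hA
  have hreg : Fermat.Agent.T3.helper98.IsRegJ (N * q * q) (heckeAlphaBar Kb (N * q) q b0) :=
    h.mem_regJ_alpha
  have hX := Fermat.Agent.T3.helper22.ffb3 hA ρ 0
  exact Fermat.Agent.T3.helper98.mem_BtAll_of_red3 hA hζ hreg ρ.1 ρ.2 0 hX

/-- **box `hν`** of `helper72.torBaseAll`, verbatim -/
theorem nu_mem_btAll (h : IsUnit0 hq hqN b0 B ε) (A : ValuationSubring Kb)
    (hA : A.LiesOverPrime q) {ζ : Kb} (hζ : IsPrimitiveRoot ζ q) :
    Fermat.Agent.P2.helper66.iota (kA A) B ∈ Fermat.Agent.T3.helper72.btAll N A :=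
  nu_mem_BtAll h A hA hζ

/-- box `hν` without `ζ` -/
theorem nu_mem_btAll' (h : IsUnit0 hq hqN b0 B ε) (A : ValuationSubring Kb)
    (hA : A.LiesOverPrime q) :
    Fermat.Agent.P2.helper66.iota (kA A) B ∈ Fermat.Agent.T3.helper72.btAll N A := by
  haveI : NeZero ((q : ℕ) : Kb) := ⟨Nat.cast_ne_zero.2 (NeZero.ne q)⟩
  obtain ⟨ζ, hζ⟩ := HasEnoughRootsOfUnity.exists_primitiveRoot Kb q
  exact nu_mem_btAll h A hA hζ

end Nu

end Fermat.Agent.T3.helper23

end
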