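/-
T3 (S36), helper27: the hypothesis `hν` of `helper72.torBaseAll`: the reduction `ν = B̄` of the
weight-one unit `b₀` lies in `BtAll` (the functions of the special fibre regular where `j̄` is
finite).

`ν` is the reduction at `∞` of `α₂ b₀` (`helper16.IsUnit0.rho3_alpha`), which is inertia-fixed
and regular where `j` is finite; [FFB3] (`helper22.ffb3_zero`) and [RES]
(`helper98.mem_BtAll_of_red3`) give the claim.
-/
import Mathlib
import Fermat.Agent.T3.helper16_UnitReal
import Fermat.Agent.T3.helper98_ResBox
import Fermat.Agent.T3.helper22_FFB3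
import Fermat.Agent.T3.helper72_TorAll

set_option autoImplicit false
set_option synthInstance.maxHeartbeats 400000
set_option maxHeartbeats 1000000
set_option linter.unusedSectionVars false
set_option linter.unusedVariables false
set_option linter.style.haveILetI false
set_option linter.style.longLine false

noncomputable section

open HahnSeries IntermediateField AlgebraicCurve ModularCurve
open Fermat.Agent.S18.helper19 Fermat.Agent.P2.helper29 Fermat.Agent.T2.helper36

namespace Fermat.Agent.T3.helper27

section Nu

variable {N q : ℕ} [NeZero N] [NeZero q] {hq : q.Prime} {hqN : ¬ q ∣ N}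
variable {b0 : FF (N * q)} {B : PowerSeries ℤ} {ε : ℤ}

/-- the reduction of the weight-one unit is regular where `j̄` is finite -/
theorem nu_mem_BtAll (h : Fermat.Agent.T3.helper16.IsUnit0 hq hqN b0 B ε)
    (A : ValuationSubring Kb) (hA : A.LiesOverPrime q) {ζ : Kb} (hζ : IsPrimitiveRoot ζ q) :
    Fermat.Agent.P2.helper66.iota (kA A) B ∈ Fermat.Agent.T3.helper95.BtAll N A := by
  have hρ := h.rho3_alpha A hζ hA
  exact Fermat.Agent.T3.helper98.mem_BtAll_of_red3 hA hζ (h.mem_regJ_alpha) hρ.1 hρ.2 0
    (Fermat.Agent.T3.helper22.ffb3_zero hA hρ)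

/-- the hypothesis `hν` of `helper72.torBaseAll` -/
theorem nu_mem_btAll (h : Fermat.Agent.T3.helper16.IsUnit0 hq hqN b0 B ε)
    (A : ValuationSubring Kb) (hA : A.LiesOverPrime q) {ζ : Kb} (hζ : IsPrimitiveRoot ζ q) :
    Fermat.Agent.P2.helper66.iota (kA A) B ∈ Fermat.Agent.T3.helper72.btAll N A :=
  nu_mem_BtAll h A hA hζ

end Nu

end Fermat.Agent.T3.helper27

end
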