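/-
T3 (S36), helper74, row 914 [T3-SAT3-PEEL], part 4: (SAT_q) for the concrete ring
`reg3` = the functions of level `N q q` which are regular off the `q + 1` cusps over the cusp `∞`
of level `N` (`helper87.IsReg3`).

* `reg3` : the `ℚ̄`-algebra of the functions regular off the cusps.
* `dg_mem_reg3` : `f(τ)`, `f(q τ)`, `f(q² τ)` lie in `reg3` for `f ∈ L(m ∞)` at level `N`.
* `sat3_reg3`, `peelable3_reg3` : (SAT_q) / peelability for `reg3` from [SAT3-X].
-/
import Mathlib
import Fermat.Agent.T3.helper74_Sat3K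
import Fermat.Agent.T3.helper87_Places3

set_option autoImplicit false
set_option synthInstance.maxHeartbeats 400000
set_option maxHeartbeats 1000000
set_option linter.unusedSectionVars false
set_option linter.style.haveILetI false

noncomputable section

open HahnSeries IntermediateField AlgebraicCurve ModularCurve
open Fermat.Agent.S18.helper19 Fermat.Agent.P2.helper29 Fermat.Agent.T2.helper36

namespace Fermat.Agent.T3.helper74

section Reg

variable (N q : ℕ) [NeZero N] [NeZero q] (hq : q.Prime) (hqN : ¬ q ∣ N)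

/-- the algebra of the functions of level `N q q` regular off the `q + 1` cusps over `∞_N` -/
def reg3 {ζ : Kb} (hζ : IsPrimitiveRoot ζ q) : Subalgebra Kb (FF (N * q * q)) where
  carrier := {f | Fermat.Agent.T3.helper87.IsReg3 N q hq hqN hζ f}
  mul_mem' := fun hf hg => Fermat.Agent.T3.helper87.IsReg3.mul hf hg
  add_mem' := fun hf hg => Fermat.Agent.T3.helper87.IsReg3.add hf hg
  algebraMap_mem' := fun c => Fermat.Agent.T3.helper87.isReg3_algebraMap c

theorem mem_reg3 {ζ : Kb} (hζ : IsPrimitiveRoot ζ q) (f : FF (N * q * q)) :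
    f ∈ reg3 N q hq hqN hζ ↔ Fermat.Agent.T3.helper87.IsReg3 N q hq hqN hζ f := Iff.rfl

/-- the three pull-backs of a function of level `N` regular off `∞` lie in `reg3`. -/
theorem dg_mem_reg3 {ζ : Kb} (hζ : IsPrimitiveRoot ζ q) (m : ℕ) (f : FF N)
    (hf : InL (FF N) m (f : LaurentSeries Kb)) :
    dg0 N q f ∈ reg3 N q hq hqN hζ ∧ dg1 N q f ∈ reg3 N q hq hqN hζ ∧
      dg2 N q f ∈ reg3 N q hq hqN hζ :=
  ⟨Fermat.Agent.T3.helper87.isReg3_alpha_alpha hf,
    Fermat.Agent.T3.helper87.isReg3_alpha_beta hf,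
    Fermat.Agent.T3.helper87.isReg3_beta_beta hf⟩

variable {N q hq hqN} {A : ValuationSubring Kb}

/-- **(SAT_q)** for the functions regular off the cusps, from [SAT3-X]. -/
theorem sat3_reg3 (hA : A.LiesOverPrime q) {ζ : Kb} (hζ : IsPrimitiveRoot ζ q) {m₀ : ℕ}
    (hX : ExactPoleFix N A m₀) :
    Sat3Statement N q hq hqN A hζ (reg3 N q hq hqN hζ) (lev3 q m₀ : ℤ) :=
  sat3_of_exactPoleFix hA hζ _ (dg_mem_reg3 N q hq hqN hζ) hX

/-- peelability of the ring of the triples of integral expansions of the inertia-fixed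
functions regular off the cusps, from [SAT3-X]. -/
theorem peelable3_reg3 (hA : A.LiesOverPrime q) {ζ : Kb} (hζ : IsPrimitiveRoot ζ q) {m₀ : ℕ}
    (hX : ExactPoleFix N A m₀) :
    Peelable (C := fun _ : Fin 3 => ↥A) (ring3 N q hq hqN A hζ (reg3 N q hq hqN hζ))
      (fun _ => ((q : ℕ) : A)) (wt3 q) (lev3 q m₀ : ℤ) :=
  peelable3_of_exactPoleFix hA hζ _ (dg_mem_reg3 N q hq hqN hζ) hX

end Reg

end Fermat.Agent.T3.helper74

end
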