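/-
T3 (S36), helper74, row 914 [T3-SAT3-PEEL], FINAL: (SAT_q) and peelability at level `N q q`,
UNCONDITIONAL at good levels (`4 ∣ N` or `9 ∣ N`, `q ∤ N`, `A` over `q`).

* `sat3_good`      : `∃ m₀, Sat3Statement N q hq hqN A hζ (reg3 …) (lev3 q m₀)`.
* `peelable3_good` : `∃ m₀, Peelable (ring3 … (reg3 …)) q (wt3 q) (lev3 q m₀)`.
Inputs: [SAT3-X] `helper96.exactPoleFix_good`, [SAT3-K] `helper84.k0_zeta_int`,
`helper87.IsReg3`.
-/
import Mathlib
import Fermat.Agent.T3.helper74_Sat3Reg
import Fermat.Agent.T3.helper96_ExactPoleFix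

set_option autoImplicit false
set_option synthInstance.maxHeartbeats 400000
set_option maxHeartbeats 1000000
set_option linter.unusedSectionVars false
set_option linter.style.haveILetI false

noncomputable section

open HahnSeries IntermediateField AlgebraicCurve ModularCurve
open Fermat.Agent.S18.helper19 Fermat.Agent.P2.helper29 Fermat.Agent.T2.helper36

namespace Fermat.Agent.T3.helper74

section Final

variable {N q : ℕ} [NeZero N] [NeZero q] {hq : q.Prime} {hqN : ¬ q ∣ N}
variable {A : ValuationSubring Kb}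

/-- **(SAT_q)** for the functions of level `N q q` regular off the cusps over `∞_N`,
unconditional at good levels. -/
theorem sat3_good (hA : A.LiesOverPrime q) (hN : 4 ∣ N ∨ 9 ∣ N) {ζ : Kb}
    (hζ : IsPrimitiveRoot ζ q) :
    ∃ m₀ : ℕ, Sat3Statement N q hq hqN A hζ (reg3 N q hq hqN hζ) (lev3 q m₀ : ℤ) := by
  obtain ⟨m₀, hX⟩ := Fermat.Agent.T3.helper96.exactPoleFix_good hq hqN hA hN
  exact ⟨m₀, sat3_reg3 hA hζ hX⟩

/-- **peelability** of the ring of the triples of integral expansions of the inertia-fixed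
functions regular off the cusps, unconditional at good levels. -/
theorem peelable3_good (hA : A.LiesOverPrime q) (hN : 4 ∣ N ∨ 9 ∣ N) {ζ : Kb}
    (hζ : IsPrimitiveRoot ζ q) :
    ∃ m₀ : ℕ, Peelable (C := fun _ : Fin 3 => ↥A) (ring3 N q hq hqN A hζ (reg3 N q hq hqN hζ))
      (fun _ => ((q : ℕ) : A)) (wt3 q) (lev3 q m₀ : ℤ) := by
  obtain ⟨m₀, hX⟩ := Fermat.Agent.T3.helper96.exactPoleFix_good hq hqN hA hN
  exact ⟨m₀, peelable3_reg3 hA hζ hX⟩

end Final

end Fermat.Agent.T3.helper74

end
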