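/-
T3 (S36), helper27, [T3-ROOT3-FIN]: (FIN) for the functions regular off the `q + 1` cusps over
`∞_N` and the unconditional ROOT3 on `reg3` at good levels.

* `finStatement_reg3` : the inertia-fixed functions of `helper74.reg3` of level `≤ L` lie in
  `L(D)`, `D = L⁺ · (∞ + 0 + Σ c_k)` (the orders at all middle cusps are equal by
  `helper74.order_embMid_eq`), which is finite-dimensional (Riemann).
* `root3_reg3` : ROOT3 for `reg3`, from (SAT_q).
* `root3_good` : **ROOT3 for `reg3`, unconditional at good levels** (`4 ∣ N` or `9 ∣ N`).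
-/
import Mathlib
import Fermat.Agent.T3.helper27_RootPack
import Fermat.Agent.T3.helper74_Sat3Final
import Fermat.Agent.T3.helper74_MidAll
import Fermat.Agent.T3.helper87_Reg3Sub

set_option autoImplicit false
set_option synthInstance.maxHeartbeats 400000
set_option maxHeartbeats 1000000
set_option linter.unusedSectionVars false
set_option linter.unusedVariables false
set_option linter.style.haveILetI false
set_option linter.style.longLine false

noncomputable section

open HahnSeries IntermediateField AlgebraicCurve ModularCurve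
open Fermat.Agent.S18.helper19 Fermat.Agent.P2.helper29 Fermat.Agent.T2.helper36
open Fermat.Agent.T2.helper22
open Fermat.Agent.T3.helper74 Fermat.Agent.T3.helper84

namespace Fermat.Agent.T3.helper27

/-! ### Orders and levels -/

section Ord

theorem le_order_of_coeff {K : Type*} [Field K] {x : LaurentSeries K} (hx : x ≠ 0) (m : ℤ)
    (h : ∀ k : ℤ, k < m → x.coeff k = 0) : m ≤ x.order := by
  by_contra hcon
  rw [not_le] at hcon
  exact (HahnSeries.coeff_order_eq_zero.not.mpr hx) (h _ hcon)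

end Ord

/-! ### (FIN) for `reg3` -/

section Fin

variable (N q : ℕ) [NeZero N] [NeZero q] (hq : q.Prime) (hqN : ¬ q ∣ N)
variable (A : ValuationSubring Kb) (hA : A.LiesOverPrime q)

/-- the divisor `m (∞ + 0 + Σ c_k)` -/
def cuspDiv3 {ζ : Kb} (hζ : IsPrimitiveRoot ζ q) (m : ℤ) : Divisor Kb (FF (N * q * q)) :=
  Finsupp.single (inftyBar (N * q * q)) m
    + Finsupp.single
        ((Fermat.Agent.T3.helper48.atkinLehnerSq N q hq hqN).symm • inftyBar (N * q * q)) m
    + ∑ k : Fin q, if hk : (k : ℕ) ≠ 0 then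
        Finsupp.single (Fermat.Agent.T3.helper87.midPlace N q hq hqN hζ k hk) m else 0

theorem cuspDiv3_apply {ζ : Kb} (hζ : IsPrimitiveRoot ζ q) (m : ℤ)
    (v : Place Kb (FF (N * q * q))) :
    cuspDiv3 N q hq hqN hζ m v
      = Finsupp.single (inftyBar (N * q * q)) m v
        + Finsupp.single
          ((Fermat.Agent.T3.helper48.atkinLehnerSq N q hq hqN).symm • inftyBar (N * q * q)) m v
        + ∑ k : Fin q, (if hk : (k : ℕ) ≠ 0 then
          Finsupp.single (Fermat.Agent.T3.helper87.midPlace N q hq hqN hζ k hk) m else 0) v := by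
  rw [cuspDiv3, Finsupp.add_apply, Finsupp.add_apply, Finsupp.finsetSum_apply]

theorem single_apply_nonneg {α : Type*} (a v : α) {m : ℤ} (hm : 0 ≤ m) :
    0 ≤ Finsupp.single a m v := by
  classical
  rw [Finsupp.single_apply]
  split_ifs
  · exact hm
  · exact le_rfl

theorem mid_term_nonneg {ζ : Kb} (hζ : IsPrimitiveRoot ζ q) {m : ℤ} (hm : 0 ≤ m)
    (v : Place Kb (FF (N * q * q))) (k : Fin q) :
    0 ≤ (if hk : (k : ℕ) ≠ 0 then
      Finsupp.single (Fermat.Agent.T3.helper87.midPlace N q hq hqN hζ k hk) m else 0) v := by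
  split_ifs with hk
  · exact single_apply_nonneg _ _ hm
  · exact le_rfl

theorem cuspDiv3_nonneg {ζ : Kb} (hζ : IsPrimitiveRoot ζ q) {m : ℤ} (hm : 0 ≤ m)
    (v : Place Kb (FF (N * q * q))) : 0 ≤ cuspDiv3 N q hq hqN hζ m v := by
  rw [cuspDiv3_apply]
  exact add_nonneg (add_nonneg (single_apply_nonneg _ _ hm) (single_apply_nonneg _ _ hm))
    (Finset.sum_nonneg fun k _ => mid_term_nonneg N q hq hqN hζ hm v k)

theorem cuspDiv3_infty {ζ : Kb} (hζ : IsPrimitiveRoot ζ q) {m : ℤ} (hm : 0 ≤ m) :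
    m ≤ cuspDiv3 N q hq hqN hζ m (inftyBar (N * q * q)) := by
  rw [cuspDiv3_apply, Finsupp.single_eq_same]
  have h1 := single_apply_nonneg
    ((Fermat.Agent.T3.helper48.atkinLehnerSq N q hq hqN).symm • inftyBar (N * q * q))
    (inftyBar (N * q * q)) hm
  have h2 := Finset.sum_nonneg fun (k : Fin q) (_ : k ∈ Finset.univ) =>
    mid_term_nonneg N q hq hqN hζ hm (inftyBar (N * q * q)) k
  linarith

theorem cuspDiv3_zero {ζ : Kb} (hζ : IsPrimitiveRoot ζ q) {m : ℤ} (hm : 0 ≤ m) :
    m ≤ cuspDiv3 N q hq hqN hζ m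
      ((Fermat.Agent.T3.helper48.atkinLehnerSq N q hq hqN).symm • inftyBar (N * q * q)) := by
  rw [cuspDiv3_apply, Finsupp.single_eq_same]
  have h1 := single_apply_nonneg (inftyBar (N * q * q))
    ((Fermat.Agent.T3.helper48.atkinLehnerSq N q hq hqN).symm • inftyBar (N * q * q)) hm
  have h2 := Finset.sum_nonneg fun (k : Fin q) (_ : k ∈ Finset.univ) =>
    mid_term_nonneg N q hq hqN hζ hm
      ((Fermat.Agent.T3.helper48.atkinLehnerSq N q hq hqN).symm • inftyBar (N * q * q)) k
  linarith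

theorem cuspDiv3_mid {ζ : Kb} (hζ : IsPrimitiveRoot ζ q) {m : ℤ} (hm : 0 ≤ m)
    (k : Fin q) (hk : (k : ℕ) ≠ 0) :
    m ≤ cuspDiv3 N q hq hqN hζ m (Fermat.Agent.T3.helper87.midPlace N q hq hqN hζ k hk) := by
  rw [cuspDiv3_apply]
  have h1 := single_apply_nonneg (inftyBar (N * q * q))
    (Fermat.Agent.T3.helper87.midPlace N q hq hqN hζ k hk) hm
  have h2 := single_apply_nonneg
    ((Fermat.Agent.T3.helper48.atkinLehnerSq N q hq hqN).symm • inftyBar (N * q * q))
    (Fermat.Agent.T3.helper87.midPlace N q hq hqN hζ k hk) hm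
  have h3 : m ≤ ∑ k' : Fin q, (if hk' : (k' : ℕ) ≠ 0 then
      Finsupp.single (Fermat.Agent.T3.helper87.midPlace N q hq hqN hζ k' hk') m else 0)
        (Fermat.Agent.T3.helper87.midPlace N q hq hqN hζ k hk) := by
    have h4 := Finset.single_le_sum (f := fun k' : Fin q => (if hk' : (k' : ℕ) ≠ 0 then
      Finsupp.single (Fermat.Agent.T3.helper87.midPlace N q hq hqN hζ k' hk') m else 0)
        (Fermat.Agent.T3.helper87.midPlace N q hq hqN hζ k hk))
      (fun k' _ => mid_term_nonneg N q hq hqN hζ hm _ k') (Finset.mem_univ k)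
    refine le_trans ?_ h4
    show m ≤ (if hk' : (k : ℕ) ≠ 0 then
      Finsupp.single (Fermat.Agent.T3.helper87.midPlace N q hq hqN hζ k hk') m else 0)
        (Fermat.Agent.T3.helper87.midPlace N q hq hqN hζ k hk)
    rw [dif_pos hk, Finsupp.single_eq_same]
  linarith

include hA in
/-- **(FIN)** for the functions regular off the `q + 1` cusps over `∞_N` -/
theorem finStatement_reg3 {ζ : Kb} (hζ : IsPrimitiveRoot ζ q) :
    FinStatementE A (ex3 N q hq hqN hζ) (wt3 q) (reg3 N q hq hqN hζ) := by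
  intro L
  refine ⟨riemannRochSpace (cuspDiv3 N q hq hqN hζ (max L 0)),
    Fermat.Agent.P2.helper74.finiteDimensional_L
      (Fermat.Agent.P2.helper74.riemannSetting_FF (N * q * q)) _, ?_⟩
  intro f hfB hfI _ hlev
  rw [mem_riemannRochSpace_iff]
  intro v
  rcases eq_or_ne f 0 with hf0 | hf0
  · exact Or.inl hf0
  right
  have hm : (0 : ℤ) ≤ max L 0 := le_max_right _ _
  -- the orders of the three expansions
  have hord : ∀ i : Fin 3, -(max L 0) ≤ (ex3 N q hq hqN hζ i f).order := by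
    intro i
    have hne : ex3 N q hq hqN hζ i f ≠ 0 := fun h =>
      hf0 ((map_eq_zero_iff _ (RingHom.injective (ex3 N q hq hqN hζ i))).mp h)
    refine le_order_of_coeff hne _ (fun k hk => hlev i k ?_)
    have hω : (1 : ℤ) ≤ (wt3 q i : ℤ) := by
      have := wt3_pos (q := q) i
      exact_mod_cast this
    have hk0 : 0 < -k := by linarith
    have h1 : -k ≤ -k * (wt3 q i : ℤ) := by nlinarith
    have h2 : L ≤ max L 0 := le_max_left _ _
    linarith
  by_cases h1 : IsInfty v
  · have hv : v = inftyBar (N * q * q) :=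
      IsInfty.unique (FF (N * q * q)) h1 (isInfty_inftyBar _)
    have h2 := cuspDiv3_infty N q hq hqN hζ hm
    rw [← hv] at h2
    have h3 := hord 0
    rw [ex3_zero] at h3
    rw [h1 f hf0]
    linarith
  by_cases h2 : IsInfty2 (Fermat.Agent.T3.helper48.atkinLehnerSq N q hq hqN) v
  · have hv : v = (Fermat.Agent.T3.helper48.atkinLehnerSq N q hq hqN).symm
        • inftyBar (N * q * q) :=
      (isInfty2_iff_eq _ (isInfty2_symm_smul _ (isInfty_inftyBar _)) v).mp h2
    have h3 := cuspDiv3_zero N q hq hqN hζ hm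
    rw [← hv] at h3
    have h4 := hord 1
    rw [ex3_one] at h4
    rw [h2 f hf0]
    linarith
  by_cases h3 : ∃ (k : Fin q) (hk : (k : ℕ) ≠ 0),
      Fermat.Agent.T3.helper87.IsMid N q hq hqN hζ k hk v
  · obtain ⟨k, hk, hmid⟩ := h3
    have hv : v = Fermat.Agent.T3.helper87.midPlace N q hq hqN hζ k hk := hmid.eq_midPlace
    have h4 := cuspDiv3_mid N q hq hqN hζ hm k hk
    rw [← hv] at h4
    have h5 := hord 2
    rw [← order_embMid_eq (hq := hq) (hqN := hqN) hA hζ hfI k hk] at h5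
    rw [hmid f hf0]
    linarith
  · have h4 : 0 ≤ v.ord f := hfB v h1 h2 (fun k hk hmid => h3 ⟨k, hk, hmid⟩)
    have h5 := cuspDiv3_nonneg N q hq hqN hζ hm v
    linarith

end Fin

/-! ### ROOT3 on `reg3` -/

section Main

variable (N q : ℕ) [NeZero N] [NeZero q] (hq : q.Prime) (hqN : ¬ q ∣ N)
variable (A : ValuationSubring Kb) (hA : A.LiesOverPrime q)

include hA in
/-- **ROOT3 for `reg3`**, from (SAT_q): an inertia-fixed function `H`, regular off the `q + 1`
cusps over `∞_N`, whose three expansions are `A`-integral with reduction `1` and whose divisor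
is divisible by `n`, `q ∤ n`, is the `n`-th power of an inertia-fixed function regular off
these cusps. -/
theorem root3_reg3 {ζ : Kb} (hζ : IsPrimitiveRoot ζ q)
    (L₀ : ℤ) (hSat : Sat3Statement N q hq hqN A hζ (reg3 N q hq hqN hζ) L₀)
    (n : ℕ) (hn : ¬ q ∣ n) (H : FF (N * q * q))
    (hHreg : Fermat.Agent.T3.helper87.IsReg3 N q hq hqN hζ H)
    (hHI : IsFixI A (N * q * q) H)
    (hdiv : ∀ P : Place Kb (FF (N * q * q)), (n : ℤ) ∣ P.ord H)
    (hred : ∀ i : Fin 3, ∃ Y : LaurentSeries A,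
      incl A Y = ex3 N q hq hqN hζ i H ∧ red A Y = 1) :
    ∃ v : FF (N * q * q), IsFixI A (N * q * q) v ∧
      Fermat.Agent.T3.helper87.IsReg3 N q hq hqN hζ v ∧ H = v ^ n := by
  have hn0 : n ≠ 0 := by
    rintro rfl
    exact hn (dvd_zero q)
  obtain ⟨v, hvI, hv⟩ := root3_of N q hq hqN A hA hζ (reg3 N q hq hqN hζ)
    (finStatement_reg3 N q hq hqN A hA hζ) L₀ hSat n hn H hHreg hHI hdiv
    (fun P hP => Fermat.Agent.T3.helper87.IsReg3.ord_nonneg_of_jElt hHreg P hP) hred
  refine ⟨v, hvI, fun P h1 h2 h3 => ?_, hv⟩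
  have h4 : 0 ≤ P.ord H := hHreg P h1 h2 h3
  rw [hv, Fermat.Agent.T2.helper20.ord_pow'] at h4
  have hn1 : (0 : ℤ) < (n : ℤ) := by exact_mod_cast Nat.pos_of_ne_zero hn0
  by_contra hcon
  rw [not_le] at hcon
  nlinarith

include hA in
/-- **ROOT3 for `reg3`, unconditional at good levels** (`4 ∣ N` or `9 ∣ N`, `q ∤ N`). -/
theorem root3_good (hN : 4 ∣ N ∨ 9 ∣ N) {ζ : Kb} (hζ : IsPrimitiveRoot ζ q)
    (n : ℕ) (hn : ¬ q ∣ n) (H : FF (N * q * q))
    (hHreg : Fermat.Agent.T3.helper87.IsReg3 N q hq hqN hζ H)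
    (hHI : IsFixI A (N * q * q) H)
    (hdiv : ∀ P : Place Kb (FF (N * q * q)), (n : ℤ) ∣ P.ord H)
    (hred : ∀ i : Fin 3, ∃ Y : LaurentSeries A,
      incl A Y = ex3 N q hq hqN hζ i H ∧ red A Y = 1) :
    ∃ v : FF (N * q * q), IsFixI A (N * q * q) v ∧
      Fermat.Agent.T3.helper87.IsReg3 N q hq hqN hζ v ∧ H = v ^ n := by
  obtain ⟨m₀, hSat⟩ := sat3_good (hq := hq) (hqN := hqN) hA hN hζ
  exact root3_reg3 N q hq hqN A hA hζ _ hSat n hn H hHreg hHI hdiv hred

end Main

end Fermat.Agent.T3.helper27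

end
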