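/-
T3 (S36), helper27: the field `root` of `helper49.TorBase` ([ROOT3] in the vocabulary of
[TORIC]).

* `torRoot_all`  : `TorBase.root` for `Reg = helper98.regJRing` (regular off ALL cusps) from
  the packages of [CUSP-ALL]: `helper23.DiscPack`, `FixStatementE`, `CoverStatementE`,
  `SatStatementE` and [GAUSS-ALL] (integrality with reduction `1` at every index);
* `torRoot_reg3` : `TorBase.root` for `Reg = helper74.reg3` (regular off the cusps over `∞_N`),
  **unconditional at good levels** (`helper98.exists_incl_of_red3` + `root3_good`).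
-/
import Mathlib
import Fermat.Agent.T3.helper27_FinAll
import Fermat.Agent.T3.helper27_Root3Fin
import Fermat.Agent.T3.helper49_TorInst
import Fermat.Agent.T3.helper98_IntGen

set_option autoImplicit false
set_option synthInstance.maxHeartbeats 400000
set_option maxHeartbeats 1000000
set_option linter.unusedSectionVars false
set_option linter.unusedVariables false
set_option linter.style.haveILetI false
set_option linter.style.longLine false

noncomputable section

open HahnSeries IntermediateField AlgebraicCurve ModularCurve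
open Fermat.Agent.S18.helper19 Fermat.Agent.P2.helper29 Fermat.Agent.T2.helper36
open Fermat.Agent.T3.helper74 Fermat.Agent.T3.helper84

namespace Fermat.Agent.T3.helper27

section TorRoot

variable (N q : ℕ) [NeZero N] [NeZero q] (hq : q.Prime) (hqN : ¬ q ∣ N)
variable (A : ValuationSubring Kb) (hA : A.LiesOverPrime q)

include hA in
/-- **`TorBase.root` for the functions regular off all cusps**, from the packages of
[CUSP-ALL]. -/
theorem torRoot_all {ζ : Kb} (hζ : IsPrimitiveRoot ζ q)
    {ι : Type*} [Finite ι] [Nonempty ι] (E : ι → FF (N * q * q) →+* LaurentSeries Kb)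
    (ω : ι → ℕ) (hω : ∀ i, 0 < ω i)
    (hD : Fermat.Agent.T3.helper23.DiscPack A E)
    (hEfix : FixStatementE A ζ E) (hcover : CoverStatementE A E)
    (L₀ : ℤ) (hSat : SatStatementE q A E ω (Fermat.Agent.T3.helper98.regJ (N * q * q)) L₀)
    (hgauss : ∀ H : FF (N * q * q), Fermat.Agent.T3.helper98.IsRegJ (N * q * q) H →
      Fermat.Agent.T3.helper49.Rho3 N q hq hqN A hζ H 1 →
      ∀ i : ι, ∃ Y : LaurentSeries A, incl A Y = E i H ∧ red A Y = 1)
    (n : ℕ) (hn : ¬ q ∣ n) :
    ∀ H : FF (N * q * q), H ∈ Fermat.Agent.T3.helper98.regJRing (N * q * q) →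
      Fermat.Agent.T3.helper49.Rho3 N q hq hqN A hζ H 1 →
      Fermat.Agent.T3.helper49.Dv3 N q n H →
      ∃ (c : Kb) (v : FF (N * q * q)), H = algebraMap Kb (FF (N * q * q)) c * v ^ n := by
  intro H hHreg hρ hdv
  obtain ⟨v, -, -, hv⟩ := root3_all hq A hA hζ E ω hω hD hEfix hcover
    (Fermat.Agent.T3.helper98.regJ (N * q * q)) (fun f hf => hf) L₀ hSat n hn H hHreg hρ.1 hdv
    (hgauss H hHreg hρ)
  exact ⟨1, v, by rw [map_one, one_mul, hv]⟩

include hA in
/-- **`TorBase.root` for the functions regular off the cusps over `∞_N`**, unconditional at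
good levels. -/
theorem torRoot_reg3 (hN : 4 ∣ N ∨ 9 ∣ N) {ζ : Kb} (hζ : IsPrimitiveRoot ζ q)
    (n : ℕ) (hn : ¬ q ∣ n) :
    ∀ H : FF (N * q * q), H ∈ (reg3 N q hq hqN hζ).toSubring →
      Fermat.Agent.T3.helper49.Rho3 N q hq hqN A hζ H 1 →
      Fermat.Agent.T3.helper49.Dv3 N q n H →
      ∃ (c : Kb) (v : FF (N * q * q)), H = algebraMap Kb (FF (N * q * q)) c * v ^ n := by
  intro H hHreg hρ hdv
  have hHreg3 : Fermat.Agent.T3.helper87.IsReg3 N q hq hqN hζ H := hHreg
  have hJ : Fermat.Agent.T3.helper98.IsRegJ (N * q * q) H := fun P hP =>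
    Fermat.Agent.T3.helper87.IsReg3.ord_nonneg_of_jElt hHreg3 P hP
  obtain ⟨v, -, -, hv⟩ := root3_good N q hq hqN A hA hN hζ n hn H hHreg3 hρ.1 hdv
    (fun i => Fermat.Agent.T3.helper98.exists_incl_of_red3 hζ i hJ (hρ.2 i))
  exact ⟨1, v, by rw [map_one, one_mul, hv]⟩

end TorRoot

end Fermat.Agent.T3.helper27

end
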