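/-
T3 (S36), helper28, [CUSP-N] (second prover): the expansions at ALL cusps in LOCAL PARAMETERS.

The coset expansions `EN M i` (parameter `t = q^(1/M)`) take values in `ℚ̄((t^d))`, where
`d = dI M i = M / wid M i` and `wid M i` is the size of the orbit of the coset `i` under `T`
(the width of the cusp).  Un-substituting `t^d ↦ t` gives the expansion `ENloc M i` in a local
parameter at the cusp: `qExpand (dI M i) (ENloc M i f) = EN M i f`, `ENloc M i j = j(t^wid)`.
The same un-substitution on the special fibre gives `ENbloc`.  The statements [KEY]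
(integrality at all cusps + compatibility with reduction) and [GAL] (Galois / inertia
equivariance) are restated for `ENloc`.
-/
import Mathlib
import Fermat.Agent.T3.helper28_CuspNGal

set_option autoImplicit false
set_option synthInstance.maxHeartbeats 400000
set_option linter.unusedSectionVars false

noncomputable section

namespace Fermat.Agent.T3.helper28

open Polynomial ModularCurve Finset AlgebraicCurve IntermediateField
open Fermat.Agent.S28 Fermat.Agent.S18.helper19 Fermat.Agent.P2.helper28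
open scoped MatrixGroups

/-! ### Un-substitution `t^d ↦ t` -/

section Unsub

variable {R : Type*} [CommRing R]

/-- a series supported on the multiples of `d` is a series in `t^d` -/
theorem exists_qExpand_eq (d : ℕ) [NeZero d] (x : LaurentSeries R)
    (h : ∀ n : ℤ, ¬ (d : ℤ) ∣ n → x.coeff n = 0) : ∃ y : LaurentSeries R, qExpand R d y = x := by
  classical
  have hd : (1 : ℤ) ≤ d := by exact_mod_cast Nat.pos_of_ne_zero (NeZero.ne d)
  have hbdd : BddBelow (Function.support fun n : ℤ => x.coeff ((d : ℤ) * n)) := by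
    refine ⟨-|x.order|, fun n hn => ?_⟩
    by_contra hlt
    rw [not_le] at hlt
    apply hn
    apply HahnSeries.coeff_eq_zero_of_lt_order
    have h0 : n < 0 := lt_of_lt_of_le hlt (neg_nonpos.mpr (abs_nonneg _))
    have h1 : (d : ℤ) * n ≤ n := by nlinarith
    have h2 : -|x.order| ≤ x.order := neg_abs_le _
    omega
  refine ⟨HahnSeries.ofSuppBddBelow _ hbdd, ?_⟩
  ext k
  by_cases hk : (d : ℤ) ∣ k
  · obtain ⟨m, rfl⟩ := hk
    rw [qExpand_coeff_mul]
    rfl
  · rw [qExpand_coeff_of_not_dvd d _ hk, h k hk]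

variable {F : Type*} [CommRing F]

/-- the lift of a ring homomorphism with values in `R((t^d))` through `t ↦ t^d` -/
def unsub (d : ℕ) [NeZero d] (φ : F →+* LaurentSeries R)
    (h : ∀ f (n : ℤ), ¬ (d : ℤ) ∣ n → (φ f).coeff n = 0) : F →+* LaurentSeries R where
  toFun f := (exists_qExpand_eq d (φ f) (h f)).choose
  map_one' := qExpand_injective d (by
    rw [(exists_qExpand_eq d (φ 1) (h 1)).choose_spec, map_one, map_one])
  map_mul' a b := qExpand_injective d (by
    rw [(exists_qExpand_eq d (φ (a * b)) (h (a * b))).choose_spec, map_mul, map_mul,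
      (exists_qExpand_eq d (φ a) (h a)).choose_spec,
      (exists_qExpand_eq d (φ b) (h b)).choose_spec])
  map_zero' := qExpand_injective d (by
    rw [(exists_qExpand_eq d (φ 0) (h 0)).choose_spec, map_zero, map_zero])
  map_add' a b := qExpand_injective d (by
    rw [(exists_qExpand_eq d (φ (a + b)) (h (a + b))).choose_spec, map_add, map_add,
      (exists_qExpand_eq d (φ a) (h a)).choose_spec,
      (exists_qExpand_eq d (φ b) (h b)).choose_spec])

theorem qExpand_unsub (d : ℕ) [NeZero d] (φ : F →+* LaurentSeries R)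
    (h : ∀ f (n : ℤ), ¬ (d : ℤ) ∣ n → (φ f).coeff n = 0) (f : F) :
    qExpand R d (unsub d φ h f) = φ f :=
  (exists_qExpand_eq d (φ f) (h f)).choose_spec

theorem unsub_coeff (d : ℕ) [NeZero d] (φ : F →+* LaurentSeries R)
    (h : ∀ f (n : ℤ), ¬ (d : ℤ) ∣ n → (φ f).coeff n = 0) (f : F) (n : ℤ) :
    (unsub d φ h f).coeff n = (φ f).coeff ((d : ℤ) * n) := by
  rw [← qExpand_unsub d φ h f, qExpand_coeff_mul]

theorem unsub_eq_of (d : ℕ) [NeZero d] (φ : F →+* LaurentSeries R)
    (h : ∀ f (n : ℤ), ¬ (d : ℤ) ∣ n → (φ f).coeff n = 0) (f : F) (y : LaurentSeries R)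
    (hy : qExpand R d y = φ f) : unsub d φ h f = y :=
  qExpand_injective d ((qExpand_unsub d φ h f).trans hy.symm)

end Unsub

/-! ### The coset expansions are series in `t^d` -/

section Rot

variable {N : ℕ} [NeZero N] (D : helper81.ConjData N) (S : Subring ℂ)
  {k : Type} [Field k] (r : S →+* k)
  (hζ : helper81.zetaC N ∈ S) (hN : (N : ℂ)⁻¹ ∈ S) (hr : Function.Surjective r)
  (π : Equiv.Perm D.I) (uC : ℂˣ) (huC : (uC : ℂ) = helper81.zetaC N)
  (hT : ∀ i (g : D.G), D.E (π i) g = Fermat.Agent.P2.helper94.rot uC (D.E i g))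

include huC hT in
/-- if `π^w` fixes the coset `i`, the expansion at `i` is supported on the `n` with
`N ∣ w n` -/
theorem coeff_sigma_eq_zero_of_fix (i : D.I) (w : ℕ) (hw : (π ^ w) i = i) (y : FbT k N)
    (n : ℤ) (hn : ¬ (N : ℤ) ∣ (w : ℤ) * n) : (sigma D S r hζ hN hr i y).coeff n = 0 := by
  have h1 := sigma_pow_rot D S r hζ hN hr π uC huC hT w i y
  rw [hw] at h1
  have h2 := congrArg (fun g : LaurentSeries k => g.coeff n) h1
  simp only [Fermat.Agent.P2.helper94.rot_coeff] at h2
  by_contra hne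
  have h3 : ((((zetaBarU S r hζ) ^ w) ^ n : kˣ) : k) = 1 := by
    have h4 : (((((zetaBarU S r hζ) ^ w) ^ n : kˣ) : k) - 1) *
        (sigma D S r hζ hN hr i y).coeff n = 0 := by
      rw [sub_mul, one_mul, ← h2, sub_self]
    rcases mul_eq_zero.mp h4 with h | h
    · exact sub_eq_zero.mp h
    · exact absurd h hne
  have h5 : (zetaBarU S r hζ) ^ ((w : ℤ) * n) = 1 := by
    rw [zpow_mul, zpow_natCast]
    exact Units.ext h3
  have h6 := orderOf_dvd_iff_zpow_eq_one.mpr h5
  rw [orderOf_zetaBarU S r hζ hN] at h6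
  exact hn h6

end Rot

/-! ### Widths -/

section Width

variable (M : ℕ) [NeZero M]

theorem permT_pow_level : (permT M) ^ M = 1 :=
  pi_pow_N (conjX M) SK rK (zetaC_mem_SK M) (natCast_inv_mem_SK M) rK_surjective
    (permT M) (zetaU M) rfl (conjX_rot M)

/-- the width of the cusp of the coset `i`: the size of its orbit under `T` -/
def wid (i : IX M) : ℕ := Function.minimalPeriod (permT M) i

theorem isPeriodicPt_permT (i : IX M) : Function.IsPeriodicPt (permT M) M i := by
  show (permT M)^[M] i = i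
  rw [Equiv.Perm.iterate_eq_pow, permT_pow_level]
  rfl

theorem wid_dvd (i : IX M) : wid M i ∣ M :=
  (isPeriodicPt_permT M i).minimalPeriod_dvd

theorem wid_pos (i : IX M) : 0 < wid M i :=
  Nat.pos_of_dvd_of_pos (wid_dvd M i) (Nat.pos_of_ne_zero (NeZero.ne M))

theorem permT_pow_wid (i : IX M) : ((permT M) ^ wid M i) i = i := by
  have h := Function.isPeriodicPt_minimalPeriod (permT M) i
  have h2 : (permT M)^[wid M i] i = i := h
  rwa [Equiv.Perm.iterate_eq_pow] at h2

theorem wid_eq_card (i : IX M) :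
    wid M i = Nat.card (MulAction.orbit (Subgroup.zpowers (permT M)) i) := by
  classical
  rw [Nat.card_eq_fintype_card, ← MulAction.minimalPeriod_eq_card (permT M) i]
  rfl

/-- the ramification index of `t = q^(1/M)` over the local parameter at the coset `i` -/
def dI (i : IX M) : ℕ := M / wid M i

theorem dI_mul_wid (i : IX M) : dI M i * wid M i = M :=
  Nat.div_mul_cancel (wid_dvd M i)

theorem dI_pos (i : IX M) : 0 < dI M i := by
  rcases Nat.eq_zero_or_pos (dI M i) with h | h
  · have := dI_mul_wid M i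
    rw [h, zero_mul] at this
    exact absurd this.symm (NeZero.ne M)
  · exact h

instance neZero_dI (i : IX M) : NeZero (dI M i) := ⟨(dI_pos M i).ne'⟩

instance neZero_wid (i : IX M) : NeZero (wid M i) := ⟨(wid_pos M i).ne'⟩

theorem dI_dvd_of (i : IX M) (n : ℤ) (h : (M : ℤ) ∣ (wid M i : ℤ) * n) : (dI M i : ℤ) ∣ n := by
  have h1 : ((dI M i * wid M i : ℕ) : ℤ) ∣ (wid M i : ℤ) * n := by
    rw [dI_mul_wid]
    exact h
  push_cast at h1
  rw [mul_comm (dI M i : ℤ)] at h1
  exact (mul_dvd_mul_iff_left (by exact_mod_cast (wid_pos M i).ne')).mp h1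

end Width

/-! ### The expansions in local parameters -/

section Loc

variable (M : ℕ) [NeZero M]

theorem coeff_sigmaK_eq_zero (i : IX M) (y : FbT Kb M) (n : ℤ) (hn : ¬ (dI M i : ℤ) ∣ n) :
    (sigmaK M i y).coeff n = 0 :=
  coeff_sigma_eq_zero_of_fix (conjX M) SK rK (zetaC_mem_SK M) (natCast_inv_mem_SK M)
    rK_surjective (permT M) (zetaU M) rfl (conjX_rot M) i (wid M i) (permT_pow_wid M i) y n
    (fun h => hn (dI_dvd_of M i n h))

theorem coeff_EN_eq_zero (i : IX M) (f : FF M) (n : ℤ) (hn : ¬ (dI M i : ℤ) ∣ n) :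
    (EN M i f).coeff n = 0 :=
  coeff_sigmaK_eq_zero M i _ n hn

/-- **the expansion at the coset `i` in a local parameter** (characteristic `0`) -/
def ENloc (i : IX M) : FF M →+* LaurentSeries Kb :=
  unsub (dI M i) (EN M i) (coeff_EN_eq_zero M i)

theorem qExpand_ENloc (i : IX M) (f : FF M) :
    qExpand Kb (dI M i) (ENloc M i f) = EN M i f :=
  qExpand_unsub _ _ _ f

theorem ENloc_coeff (i : IX M) (f : FF M) (n : ℤ) :
    (ENloc M i f).coeff n = (EN M i f).coeff ((dI M i : ℤ) * n) :=
  unsub_coeff _ _ _ f n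

theorem ENloc_eq_of (i : IX M) (f : FF M) (y : LaurentSeries Kb)
    (hy : qExpand Kb (dI M i) y = EN M i f) : ENloc M i f = y :=
  unsub_eq_of _ _ _ f y hy

theorem ENloc_injective (i : IX M) : Function.Injective (ENloc M i) :=
  (ENloc M i).injective

theorem ENloc_algebraMap (i : IX M) (c : Kb) :
    ENloc M i (algebraMap Kb (FF M) c) = HahnSeries.C c := by
  apply ENloc_eq_of
  rw [qExpand_C, EN_algebraMap]

/-- `j` has the expansion `j(t^w)` at a cusp of width `w` -/
theorem ENloc_jElt (i : IX M) :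
    ENloc M i (Fermat.Agent.P2.helper29.jElt M) = qExpand Kb (wid M i) (jqModC Kb) := by
  apply ENloc_eq_of
  rw [qExpand_qExpand, EN_jElt]
  exact qExpand_congr (dI_mul_wid M i) _

theorem order_EN (i : IX M) (f : FF M) :
    (EN M i f).order = (dI M i : ℤ) * (ENloc M i f).order := by
  rw [← qExpand_ENloc M i f, order_qExpand_mul]

/-- **[GAL]** in local parameters -/
theorem ENloc_galF (σ : Kb ≃ₐ[ℚ] Kb) (hσ : ∀ ζ : Kb, ζ ^ M = 1 → σ ζ = ζ) (i : IX M)
    (f : FF M) :
    ENloc M i (arithmeticRingAut (modularFunctionFieldFull M) σ f) =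
      coeffMap (σ : Kb →+* Kb) (ENloc M i f) := by
  apply ENloc_eq_of
  rw [← ModularCurve.coeffMap_qExpand, qExpand_ENloc, EN_galF M σ hσ]

variable (A : ValuationSubring Kb) {ℓ : ℕ} (hℓ : ℓ.Prime) (hA : A.LiesOverPrime ℓ)
  (hM : ¬ ℓ ∣ M)

include hℓ hA hM in
theorem ENloc_galF_of_inertia {σ : Kb ≃ₐ[ℚ] Kb} (hσ : σ ∈ A.inertiaSubgroupIn ℚ) (i : IX M)
    (f : FF M) :
    ENloc M i (arithmeticRingAut (modularFunctionFieldFull M) σ f) =
      coeffMap (σ : Kb →+* Kb) (ENloc M i f) :=
  ENloc_galF M σ (inertia_fixes_of_pow_eq_one M A hℓ hA hM hσ) i f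

include hℓ hA hM in
/-- the local expansions of an inertia-fixed function have inertia-fixed coefficients -/
theorem coeffMap_ENloc_of_fix (f : FF M)
    (hf : ∀ σ ∈ A.inertiaSubgroupIn ℚ, arithmeticRingAut (modularFunctionFieldFull M) σ f = f)
    {σ : Kb ≃ₐ[ℚ] Kb} (hσ : σ ∈ A.inertiaSubgroupIn ℚ) (i : IX M) :
    coeffMap (σ : Kb →+* Kb) (ENloc M i f) = ENloc M i f := by
  rw [← ENloc_galF_of_inertia M A hℓ hA hM hσ i f, hf σ hσ]

theorem coeff_sigmaA_eq_zero (i : IX M) (y : FFb A M) (n : ℤ) (hn : ¬ (dI M i : ℤ) ∣ n) :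
    (sigmaA hℓ hA hM i y).coeff n = 0 :=
  coeff_sigma_eq_zero_of_fix (conjX M) (SA A) (rA A) (zetaC_mem_SA A M)
    (natCast_inv_mem_SA A hℓ hA M hM) (rA_surjective A) (permT M) (zetaU M) rfl (conjX_rot M)
    i (wid M i) (permT_pow_wid M i) y n (fun h => hn (dI_dvd_of M i n h))

/-- **the expansion at the coset `i` in a local parameter** on the special fibre -/
def ENbloc (i : IX M) : FFb A M →+* LaurentSeries (kA A) :=
  unsub (dI M i) (sigmaA hℓ hA hM i) (coeff_sigmaA_eq_zero M A hℓ hA hM i)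

theorem qExpand_ENbloc (i : IX M) (y : FFb A M) :
    qExpand (kA A) (dI M i) (ENbloc M A hℓ hA hM i y) = sigmaA hℓ hA hM i y :=
  qExpand_unsub _ _ _ y

theorem ENbloc_coeff (i : IX M) (y : FFb A M) (n : ℤ) :
    (ENbloc M A hℓ hA hM i y).coeff n = (sigmaA hℓ hA hM i y).coeff ((dI M i : ℤ) * n) :=
  unsub_coeff _ _ _ y n

theorem ENbloc_eq_of (i : IX M) (y : FFb A M) (z : LaurentSeries (kA A))
    (hz : qExpand (kA A) (dI M i) z = sigmaA hℓ hA hM i y) : ENbloc M A hℓ hA hM i y = z :=
  unsub_eq_of _ _ _ y z hz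

theorem ENbloc_algebraMap (i : IX M) (c : kA A) :
    ENbloc M A hℓ hA hM i (algebraMap (kA A) (FFb A M) c) = HahnSeries.C c := by
  apply ENbloc_eq_of
  rw [qExpand_C]
  exact (sigma_algebraMap (conjX M) (SA A) (rA A) (zetaC_mem_SA A M)
    (natCast_inv_mem_SA A hℓ hA M hM) (rA_surjective A) i c).symm

/-- `j̄` has the expansion `j(t^w)` at a cusp of width `w` of the special fibre -/
theorem ENbloc_jBar (i : IX M) :
    ENbloc M A hℓ hA hM i ⟨jqModC (kA A), jqModC_mem_full (kA A) M⟩ =
      qExpand (kA A) (wid M i) (jqModC (kA A)) := by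
  apply ENbloc_eq_of
  rw [qExpand_qExpand]
  rw [sigmaA, sigma_jBar]
  exact qExpand_congr (dI_mul_wid M i) _

include hℓ in
/-- **[KEY]** in local parameters: a function with an integral `q`-expansion which is regular
where `j` is finite has integral local expansions at ALL cusps, and their reductions are the
local expansions of its reduction. -/
theorem key_loc (Y : LaurentSeries A)
    (hY : Fermat.Agent.P2.helper29.incl A Y ∈ FF M)
    (hreg : ∀ P : Place Kb (FF M), 0 ≤ P.ord (Fermat.Agent.S24.xJ M) →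
      0 ≤ P.ord (⟨Fermat.Agent.P2.helper29.incl A Y, hY⟩ : FF M)) :
    ∃ hb : Fermat.Agent.P2.helper29.red A Y ∈ FFb A M, ∀ i : IX M, ∃ Yi : LaurentSeries A,
      Fermat.Agent.P2.helper29.incl A Yi =
        ENloc M i ⟨Fermat.Agent.P2.helper29.incl A Y, hY⟩ ∧
      Fermat.Agent.P2.helper29.red A Yi =
        ENbloc M A hℓ hA hM i ⟨Fermat.Agent.P2.helper29.red A Y, hb⟩ := by
  obtain ⟨hb, h⟩ := key A M hℓ hA hM Y hY hreg
  refine ⟨hb, fun i => ?_⟩
  obtain ⟨Z, hZ1, hZ2⟩ := h i
  have hZ0 : ∀ n : ℤ, ¬ (dI M i : ℤ) ∣ n → Z.coeff n = 0 := by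
    intro n hn
    have h1 := coeff_EN_eq_zero M i ⟨Fermat.Agent.P2.helper29.incl A Y, hY⟩ n hn
    rw [← hZ1, coeffMap_coeff] at h1
    exact Subtype.ext h1
  obtain ⟨Yi, hYi⟩ := exists_qExpand_eq (dI M i) Z hZ0
  refine ⟨Yi, ?_, ?_⟩
  · symm
    apply ENloc_eq_of
    rw [← ModularCurve.coeffMap_qExpand, hYi, hZ1]
  · symm
    apply ENbloc_eq_of
    rw [← ModularCurve.coeffMap_qExpand, hYi, hZ2]

end Loc

/-! ### The cusps as places: `ENloc` is the expansion in a local parameter -/

section Places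

open WithZero

variable (M : ℕ) [NeZero M]

/-- the dictionary on an arbitrary copy `E` of the function field -/
theorem cusp_places_aux (E : IntermediateField Kb (LaurentSeries Kb))
    (hE : E = modularFunctionFieldFullC Kb M) (jE : E)
    (hjE : (jE : LaurentSeries Kb) = jqModC Kb) :
    ∃ W : IX M → Place Kb E,
      (∀ i, (W i).ord jE = -(wid M i : ℤ)) ∧
      (∀ P : Place Kb E, P.ord jE < 0 → ∃ i, W i = P) ∧
      (∀ i j, W i = W j ↔ j ∈ MulAction.orbit (Subgroup.zpowers (permT M)) i) ∧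
      (∀ i (f : E), f ≠ 0 →
        (sigmaK M i ⟨(f : LaurentSeries Kb), hE ▸ f.2⟩).order =
          (dI M i : ℤ) * (W i).ord f) := by
  subst hE
  obtain ⟨W, d, -, h2, h3, h4, h5, h6, -, -⟩ :=
    cusp_dictionary (conjX M) SK rK (zetaC_mem_SK M) (natCast_inv_mem_SK M) rK_surjective
      (permT M) (zetaU M) rfl (conjX_rot M)
  have hjb : jE = jb Kb M := Subtype.ext hjE
  have hj : ∀ P : Place Kb (FbT Kb M), P.ord jE = -P.ord (tb Kb M) := by
    intro P
    rw [tb, Place.ord_inv, neg_neg, hjb]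
  have hw : ∀ i : IX M,
      Nat.card (MulAction.orbit (Subgroup.zpowers (permT M)) i) = wid M i :=
    fun i => (wid_eq_card M i).symm
  have hd : ∀ i : IX M, d i = dI M i := by
    intro i
    have h : d i * wid M i = dI M i * wid M i :=
      ((congrArg (fun n : ℕ => d i * n) (hw i)).symm.trans (h5 i)).trans (dI_mul_wid M i).symm
    exact Nat.eq_of_mul_eq_mul_right (wid_pos M i) h
  refine ⟨W, fun i => ?_, fun P hP => ?_, h3, fun i f hf => ?_⟩
  · have e1 : (W i).ord (tb Kb M) = (wid M i : ℤ) :=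
      (h4 i).trans (congrArg (fun n : ℕ => (n : ℤ)) (hw i))
    rw [hj, e1]
  · apply h2
    rw [hj] at hP
    omega
  · have hs : sigmaK M i f ≠ 0 := fun h0 =>
      hf ((sigmaK M i).injective (h0.trans (map_zero _).symm))
    have h := h6 i f hf
    rw [hd] at h
    have h' : (Valued.v (sigmaK M i f) : ℤᵐ⁰) = exp (-((dI M i : ℤ) * (W i).ord f)) := h
    rw [Fermat.Agent.S24.helper80.laurent_valuation_eq_exp_neg_order hs, exp_inj] at h'
    have e : (⟨(f : LaurentSeries Kb), f.2⟩ : FbT Kb M) = f := rfl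
    rw [e]
    omega

/-- **the cusps of level `M` as places**: every pole of `j` is the place `W i` of a coset `i`,
`W i = W j` iff `i` and `j` are in the same `T`-orbit, the ramification index of `W i` over
`j = ∞` is the width, and `ENloc M i` is the expansion in a local parameter at `W i`. -/
theorem cusp_places :
    ∃ W : IX M → Place Kb (FF M),
      (∀ i, (W i).ord (Fermat.Agent.P2.helper29.jElt M) = -(wid M i : ℤ)) ∧
      (∀ P : Place Kb (FF M), P.ord (Fermat.Agent.P2.helper29.jElt M) < 0 → ∃ i, W i = P) ∧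
      (∀ i j, W i = W j ↔ j ∈ MulAction.orbit (Subgroup.zpowers (permT M)) i) ∧
      (∀ i (f : FF M), f ≠ 0 → (ENloc M i f).order = (W i).ord f) ∧
      (∀ i (f : FF M), f ≠ 0 → (EN M i f).order = (dI M i : ℤ) * (W i).ord f) := by
  obtain ⟨W, h1, h2, h3, h4⟩ :=
    cusp_places_aux M (FF M) (FF_eq_fullC M) (Fermat.Agent.P2.helper29.jElt M) rfl
  have h4' : ∀ i (f : FF M), f ≠ 0 → (EN M i f).order = (dI M i : ℤ) * (W i).ord f := by
    intro i f hf
    rw [EN_apply]
    exact h4 i f hf
  refine ⟨W, h1, h2, h3, fun i f hf => ?_, h4'⟩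
  have h' := h4' i f hf
  rw [order_EN] at h'
  have hpos : (0 : ℤ) < dI M i := by exact_mod_cast dI_pos M i
  exact mul_left_cancel₀ hpos.ne' h'

end Places

end Fermat.Agent.T3.helper28
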