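import Mathlib
import Fermat.Agent.P3.helper48_AN1Core
import Fermat.Agent.P3.helper80_ChartC
import Fermat.Agent.T2.helper36_AtkinLehner
import Fermat.Agent.P2.helper66_HauptJ

/-!
# T3 / [UNIT-DESC] (helper28): descent of membership from `F_ℂ` to `F_ℚ̄`

`mem_FF_of_toC_mem_FC` : a Laurent series `S ∈ ℚ̄((t))` whose image in `ℂ((t))` lies in
`F_ℂ = ℂ(J_d : d ∣ N)` lies in `F_ℚ̄ = ℚ̄(J_d : d ∣ N) = modularFunctionFieldBar N`.

Proof: write `toC S = P(J) / Q(J)` with complex polynomials `P`, `Q`; apply a `ℚ̄`-linear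
functional `lam : ℂ → ℚ̄` coefficientwise to the relation `toC S * Q(J) = P(J)`; `lam` is chosen
with value `1` at a nonzero coefficient of `Q(J)`, so that the descended denominator is nonzero.
-/

set_option autoImplicit false

noncomputable section

open ModularCurve UpperHalfPlane

namespace Fermat.Agent.T3.helper28

open Fermat.Agent.S24 Fermat.Agent.S24.helper17 Fermat.Agent.S24.helper24
  Fermat.Agent.S24.helper77

/-- The monomials in the generators `J_d` over `ℚ̄`. -/
def monJ (N : ℕ) (m : N.divisors →₀ ℕ) : LaurentSeries Kbar :=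
  MvPolynomial.aeval (genJ N) (MvPolynomial.monomial m (1 : Kbar))

theorem monJ_mem (N : ℕ) [NeZero N] (m : N.divisors →₀ ℕ) :
    monJ N m ∈ modularFunctionFieldBar N := by
  rw [monJ, modularFunctionFieldBar_eq_adjoin]
  exact aeval_mem_adjoin _ _

theorem toC_monJ (N : ℕ) (m : N.divisors →₀ ℕ) :
    toC (monJ N m)
      = MvPolynomial.aeval (Fermat.Agent.P3.helper80.genJC N) (MvPolynomial.monomial m (1 : ℂ)) := by
  rw [monJ, Fermat.Agent.T2.helper36.toC_aeval_genJ, MvPolynomial.map_monomial, map_one]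

/-- A complex polynomial in the `J_d` is a complex linear combination of the monomials. -/
theorem aeval_genJC_eq_sum (N : ℕ) (P : MvPolynomial N.divisors ℂ) :
    MvPolynomial.aeval (Fermat.Agent.P3.helper80.genJC N) P
      = ∑ m ∈ P.support, HahnSeries.C (P.coeff m) * toC (monJ N m) := by
  conv_lhs => rw [P.as_sum, map_sum]
  refine Finset.sum_congr rfl fun m _ => ?_
  have e : MvPolynomial.monomial m (P.coeff m)
      = MvPolynomial.C (P.coeff m) * MvPolynomial.monomial m (1 : ℂ) := by
    rw [MvPolynomial.C_mul_monomial, mul_one]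
  rw [toC_monJ, e, map_mul, MvPolynomial.aeval_C, algebraMap_eq_C]

/-- **Descent of membership** from `F_ℂ` to `F_ℚ̄`. -/
theorem mem_FF_of_toC_mem_FC (N : ℕ) [NeZero N] {S : LaurentSeries Kbar}
    (h : toC S ∈ Fermat.Agent.P3.helper48.FC N) : S ∈ modularFunctionFieldBar N := by
  obtain ⟨P, Q, hQ, hx⟩ := Fermat.Agent.P3.helper80.exists_poly_repr
    (⟨toC S, h⟩ : Fermat.Agent.P3.helper80.FC N)
  have hx' : toC S * MvPolynomial.aeval (Fermat.Agent.P3.helper80.genJC N) Q
      = MvPolynomial.aeval (Fermat.Agent.P3.helper80.genJC N) P := by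
    have e : toC S = MvPolynomial.aeval (Fermat.Agent.P3.helper80.genJC N) P /
        MvPolynomial.aeval (Fermat.Agent.P3.helper80.genJC N) Q := hx
    rw [e, div_mul_cancel₀ _ hQ]
  -- a nonzero coefficient of the denominator
  obtain ⟨n₀, hn₀⟩ : ∃ n, (MvPolynomial.aeval (Fermat.Agent.P3.helper80.genJC N) Q).coeff n ≠ 0 := by
    by_contra h0
    push Not at h0
    exact hQ (HahnSeries.ext (funext h0))
  obtain ⟨lam, hlam1, hlam⟩ := Fermat.Agent.P3.helper48.exists_functional_at hn₀
  -- the relation as one sum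
  have hrel : ∑ x ∈ Q.support.disjSum P.support,
      HahnSeries.C (Sum.elim (fun m => Q.coeff m) (fun m => - P.coeff m) x) *
        coeffMap (iotaC : Kbar →+* ℂ) (Sum.elim (fun m => S * monJ N m) (fun m => monJ N m) x)
        = 0 := by
    rw [Finset.sum_disjSum]
    simp only [Sum.elim_inl, Sum.elim_inr]
    have e1 : ∑ m ∈ Q.support, HahnSeries.C (Q.coeff m) *
        coeffMap (iotaC : Kbar →+* ℂ) (S * monJ N m)
        = toC S * MvPolynomial.aeval (Fermat.Agent.P3.helper80.genJC N) Q := by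
      rw [aeval_genJC_eq_sum, Finset.mul_sum]
      refine Finset.sum_congr rfl fun m _ => ?_
      rw [map_mul]
      show _ * (toC S * toC (monJ N m)) = _
      ring
    have e2 : ∑ m ∈ P.support, HahnSeries.C (- P.coeff m) *
        coeffMap (iotaC : Kbar →+* ℂ) (monJ N m)
        = - MvPolynomial.aeval (Fermat.Agent.P3.helper80.genJC N) P := by
      rw [aeval_genJC_eq_sum, ← Finset.sum_neg_distrib]
      refine Finset.sum_congr rfl fun m _ => ?_
      rw [map_neg, neg_mul]
      rfl
    rw [e1, e2, hx', add_neg_cancel]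
  have h2 := descent_sum (iotaC : Kbar →+* ℂ) lam hlam _ _ _ hrel
  rw [Finset.sum_disjSum] at h2
  simp only [Sum.elim_inl, Sum.elim_inr] at h2
  -- the descended numerator and denominator
  set Q' : LaurentSeries Kbar := ∑ m ∈ Q.support, HahnSeries.C (lam (Q.coeff m)) * monJ N m
    with hQ'
  set P' : LaurentSeries Kbar := ∑ m ∈ P.support, HahnSeries.C (lam (P.coeff m)) * monJ N m
    with hP'
  have hSQ : S * Q' = P' := by
    have e1 : ∑ m ∈ Q.support, HahnSeries.C (lam (Q.coeff m)) * (S * monJ N m) = S * Q' := by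
      rw [hQ', Finset.mul_sum]
      refine Finset.sum_congr rfl fun m _ => ?_
      ring
    have e2 : ∑ m ∈ P.support, HahnSeries.C (lam (- P.coeff m)) * monJ N m = - P' := by
      rw [hP', ← Finset.sum_neg_distrib]
      refine Finset.sum_congr rfl fun m _ => ?_
      rw [map_neg, map_neg, neg_mul]
    rw [e1, e2] at h2
    exact eq_neg_iff_add_eq_zero.mpr h2 |>.trans (neg_neg _)
  have hQ'0 : Q' ≠ 0 := by
    intro h0
    have hc : Q'.coeff n₀ = 1 := by
      rw [hQ', HahnSeries.coeff_sum]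
      have e : ∀ m ∈ Q.support,
          (HahnSeries.C (lam (Q.coeff m)) * monJ N m).coeff n₀
            = lam (Q.coeff m * (iotaC : Kbar →+* ℂ) ((monJ N m).coeff n₀)) := by
        intro m _
        rw [HahnSeries.C_mul_eq_smul, HahnSeries.coeff_smul, smul_eq_mul, hlam]
      rw [Finset.sum_congr rfl e, ← map_sum, ← hlam1]
      congr 1
      rw [aeval_genJC_eq_sum, HahnSeries.coeff_sum]
      refine Finset.sum_congr rfl fun m _ => ?_
      rw [HahnSeries.C_mul_eq_smul, HahnSeries.coeff_smul, smul_eq_mul, toC_coeff]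
      rfl
    rw [h0, HahnSeries.coeff_zero] at hc
    exact zero_ne_one hc
  have hS : S = P' / Q' := by
    rw [eq_div_iff hQ'0, hSQ]
  rw [hS]
  have hC : ∀ c : Kbar, HahnSeries.C c ∈ modularFunctionFieldBar N := fun c => by
    rw [← algebraMap_eq_C]
    exact (modularFunctionFieldBar N).algebraMap_mem c
  exact div_mem (sum_mem fun m _ => mul_mem (hC _) (monJ_mem N m))
    (sum_mem fun m _ => mul_mem (hC _) (monJ_mem N m))

/-- The converse of `helper48.toC_mem_FC`: membership can be tested over `ℂ`. -/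
theorem mem_FF_iff_toC_mem_FC (N : ℕ) [NeZero N] (S : LaurentSeries Kbar) :
    S ∈ modularFunctionFieldBar N ↔ toC S ∈ Fermat.Agent.P3.helper48.FC N :=
  ⟨fun h => Fermat.Agent.P3.helper48.toC_mem_FC N h, fun h => mem_FF_of_toC_mem_FC N h⟩

theorem toC_iota (B : PowerSeries ℤ) :
    toC (Fermat.Agent.P2.helper66.iota Kbar B) = Fermat.Agent.P2.helper66.iota ℂ B :=
  Fermat.Agent.P2.helper66.coeffMap_iota (iotaC : Kbar →+* ℂ) B

/-- **Descent for integral expansions**: an integral power series whose complex image lies in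
`F_ℂ` defines an element of `F_ℚ̄`. -/
theorem iota_mem_FF_of_mem_FC (N : ℕ) [NeZero N] {B : PowerSeries ℤ}
    (h : Fermat.Agent.P2.helper66.iota ℂ B ∈ Fermat.Agent.P3.helper48.FC N) :
    Fermat.Agent.P2.helper66.iota Kbar B ∈ modularFunctionFieldBar N :=
  mem_FF_of_toC_mem_FC N (by rw [toC_iota]; exact h)

/-- **Theorem A over `ℚ̄`**: the integral `q`-expansion of a holomorphic `Γ₀(N)`-invariant
function on `ℍ` with at most exponential growth at all cusps lies in `F_ℚ̄`. -/
theorem iota_mem_FF_of_isQExp (N : ℕ) [NeZero N] {s : ℍ → ℂ} {B : PowerSeries ℤ}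
    (hS : IsQExp (Fermat.Agent.P2.helper66.iota ℂ B) s)
    (hinv : ∀ γ ∈ CongruenceSubgroup.Gamma0 N, precomp γ s = s)
    (hmem : ∀ g : Matrix.SpecialLinearGroup (Fin 2) ℤ, precomp g s ∈ holoExp) :
    Fermat.Agent.P2.helper66.iota Kbar B ∈ modularFunctionFieldBar N :=
  iota_mem_FF_of_mem_FC N (Fermat.Agent.P3.helper48.mem_FC_of_isQExp N hS hinv hmem)

end Fermat.Agent.T3.helper28
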