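import Mathlib
import Fermat.Agent.T3.helper16_UnitDefs
import Fermat.Agent.S24.helper17_EtaProd

/-!
# T3 / [UNIT-QEXP] (helper28): the `q`-expansions of the weight-one eta quotients

For `lam4 τ = η(2τ)¹⁰ / (η(τ)⁴ η(4τ)⁴)` and `lam9 τ = η(τ)³ / η(3τ)` of `helper16_UnitDefs`
the fractional powers `q^(1/24)` cancel, so both functions are quotients of the eta products
`etaBH (d τ)`:

* `lam4_eq`, `lam9_eq` : the product formulas;
* `L4`, `L9 : PowerSeries ℤ` : the integral expansions, with `constantCoeff = 1`;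
* `isQExp_lam4`, `isQExp_lam9` and the expansions of the inverses `isQExp_lam4_inv`,
  `isQExp_lam9_inv` (series `L4i`, `L9i`, `L4 * L4i = 1`, `L9 * L9i = 1`);
* `qexp4`, `qexp9` : the field `IsWtOneUnit.qexp` verbatim;
* `mdiff_lam4`, `mdiff_lam9`, `lam4_ne_zero`, `lam9_ne_zero` : the fields `mdiff`, `ne_zero`;
* `isQExp_unit4`, `isQExp_unit9` : the expansion `L * ex q Li` of `b₀ τ = lam τ / lam (q τ)`,
  with constant coefficient `1`.
-/

set_option autoImplicit false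

noncomputable section

open UpperHalfPlane ModularForm ModularCurve Function
open scoped MatrixGroups Manifold

namespace Fermat.Agent.T3.helper28

open Fermat.Agent.S24 Fermat.Agent.S24.helper17
open Fermat.Agent.P2.helper66 (iota ex iota_apply iota_ex coeff_ex)
open Fermat.Agent.T3.helper16

local notation "𝕢" => Periodic.qParam

/-! ### The inverse of the eta product -/

/-- The inverse of `etaProd = ∏ (1 - Xⁿ)` in `ℤ⟦X⟧`. -/
def etaProdInv : PowerSeries ℤ := etaProd.invOfUnit 1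

theorem etaProd_mul_inv : etaProd * etaProdInv = 1 :=
  PowerSeries.mul_invOfUnit _ _ (by rw [constantCoeff_etaProd]; rfl)

theorem constantCoeff_etaProdInv : PowerSeries.constantCoeff etaProdInv = 1 := by
  have h := congrArg (PowerSeries.constantCoeff (R := ℤ)) etaProd_mul_inv
  rwa [map_mul, constantCoeff_etaProd, one_mul, map_one] at h

theorem constantCoeff_ex (d : ℕ) (P : PowerSeries ℤ) :
    PowerSeries.constantCoeff (ex d P) = PowerSeries.constantCoeff P := by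
  rw [← PowerSeries.coeff_zero_eq_constantCoeff_apply, coeff_ex, if_pos (dvd_zero d),
    Nat.zero_div, PowerSeries.coeff_zero_eq_constantCoeff_apply]

/-- `X ↦ X ^ d` is multiplicative (`d ≠ 0`). -/
theorem ex_mul (d : ℕ) [NeZero d] (P Q : PowerSeries ℤ) : ex d (P * Q) = ex d P * ex d Q := by
  have hinj : Function.Injective (iota ℚ) := by
    intro a b hab
    rw [iota_apply, iota_apply] at hab
    have h1 := HahnSeries.ofPowerSeries_injective hab
    exact PowerSeries.map_injective (Int.castRingHom ℚ) Int.cast_injective h1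
  apply hinj
  rw [map_mul, iota_ex, iota_ex, iota_ex, map_mul, map_mul]

theorem ex_one (d : ℕ) : ex d (1 : PowerSeries ℤ) = 1 := by
  ext n
  rw [coeff_ex, PowerSeries.coeff_one, PowerSeries.coeff_one]
  by_cases hn : n = 0
  · subst hn
    simp
  · rw [if_neg hn]
    split_ifs with h1 h2
    · obtain ⟨m, rfl⟩ := h1
      rcases Nat.eq_zero_or_pos d with hd | hd
      · subst hd
        simp at hn
      · rw [Nat.mul_div_cancel_left _ hd] at h2
        subst h2
        simp at hn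
    · rfl
    · rfl

/-! ### Expansions of the eta products -/

theorem isQExp_etaBH : IsQExp (iota ℂ etaProd) etaBH := by
  have h := IsQExp.of_isNice isNice_etaBH
  rwa [qExpansion_etaBH, ← iota_apply] at h

/-- `1 / ∏ (1 - qⁿ)` on the upper half plane. -/
def etaBHi (τ : ℍ) : ℂ := (etaBH τ)⁻¹

theorem isNice_etaBHi : IsNice etaBHi := by
  refine isNice_comp_qParam (fun q => (etaB q)⁻¹) ?_
  refine DifferentiableOn.inv differentiableOn_etaB fun q hq => ?_
  exact etaB_ne_zero (by simpa using hq)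

theorem qExpansion_etaBHi : qExpansion 1 etaBHi = etaProdInv.map (Int.castRingHom ℂ) := by
  have h1 : qExpansion 1 etaBHi * etaProd.map (Int.castRingHom ℂ) = 1 := by
    have e : etaBHi * etaBH = fun _ : ℍ => (1 : ℂ) := by
      funext τ
      exact inv_mul_cancel₀ (etaBH_ne_zero τ)
    have := isNice_etaBHi.qExpansion_mul isNice_etaBH
    rw [e, qExpansion_const, qExpansion_etaBH] at this
    rw [← this]
    simp
  have h2 : etaProd.map (Int.castRingHom ℂ) * etaProdInv.map (Int.castRingHom ℂ) = 1 := by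
    rw [← map_mul, etaProd_mul_inv, map_one]
  exact left_inv_eq_right_inv h1 h2

theorem isQExp_etaBH_inv : IsQExp (iota ℂ etaProdInv) (fun τ => (etaBH τ)⁻¹) := by
  have h := IsQExp.of_isNice isNice_etaBHi
  rwa [qExpansion_etaBHi, ← iota_apply] at h

theorem isQExp_scale {P : PowerSeries ℤ} {g : ℍ → ℂ} (h : IsQExp (iota ℂ P) g) (d : ℕ)
    [NeZero d] : IsQExp (iota ℂ (ex d P)) (fun τ => g (scaleH d τ)) := by
  rw [iota_ex]
  exact h.comp_scale d

/-! ### `η(d τ)` in terms of the eta product -/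

theorem qParam24_natMul (d : ℕ) (z : ℂ) : 𝕢 24 ((d : ℂ) * z) = 𝕢 24 z ^ d := by
  rw [Periodic.qParam, Periodic.qParam, ← Complex.exp_nat_mul]
  congr 1
  ring

theorem eta_natMul (d : ℕ) [NeZero d] (τ : ℍ) :
    ModularForm.eta ((d : ℂ) * (τ : ℂ)) = 𝕢 24 (τ : ℂ) ^ d * etaBH (scaleH d τ) := by
  rw [ModularForm.eta, qParam24_natMul]
  rfl

theorem eta_coe (τ : ℍ) : ModularForm.eta (τ : ℂ) = 𝕢 24 (τ : ℂ) * etaBH τ := rfl

theorem eta_two_mul (τ : ℍ) :
    ModularForm.eta (2 * (τ : ℂ)) = 𝕢 24 (τ : ℂ) ^ 2 * etaBH (scaleH 2 τ) := by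
  have h := eta_natMul 2 τ
  rwa [Nat.cast_ofNat] at h

theorem eta_three_mul (τ : ℍ) :
    ModularForm.eta (3 * (τ : ℂ)) = 𝕢 24 (τ : ℂ) ^ 3 * etaBH (scaleH 3 τ) := by
  have h := eta_natMul 3 τ
  rwa [Nat.cast_ofNat] at h

theorem eta_four_mul (τ : ℍ) :
    ModularForm.eta (4 * (τ : ℂ)) = 𝕢 24 (τ : ℂ) ^ 4 * etaBH (scaleH 4 τ) := by
  have h := eta_natMul 4 τ
  rwa [Nat.cast_ofNat] at h

/-! ### The product formulas -/

theorem lam4_eq (τ : ℍ) :
    lam4 τ = etaBH (scaleH 2 τ) ^ 10 * ((etaBH τ)⁻¹ ^ 4 * (etaBH (scaleH 4 τ))⁻¹ ^ 4) := by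
  unfold lam4
  rw [eta_two_mul, eta_four_mul, eta_coe]
  have hq : 𝕢 24 (τ : ℂ) ≠ 0 := Periodic.qParam_ne_zero _
  have h1 := etaBH_ne_zero τ
  have h4 := etaBH_ne_zero (scaleH 4 τ)
  field_simp

theorem lam4_inv_eq (τ : ℍ) :
    (lam4 τ)⁻¹ = (etaBH (scaleH 2 τ))⁻¹ ^ 10 * (etaBH τ ^ 4 * etaBH (scaleH 4 τ) ^ 4) := by
  rw [lam4_eq]
  have h1 := etaBH_ne_zero τ
  have h2 := etaBH_ne_zero (scaleH 2 τ)
  have h4 := etaBH_ne_zero (scaleH 4 τ)
  field_simp

theorem lam9_eq (τ : ℍ) : lam9 τ = etaBH τ ^ 3 * (etaBH (scaleH 3 τ))⁻¹ := by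
  unfold lam9
  rw [eta_three_mul, eta_coe]
  have hq : 𝕢 24 (τ : ℂ) ≠ 0 := Periodic.qParam_ne_zero _
  have h3 := etaBH_ne_zero (scaleH 3 τ)
  field_simp

theorem lam9_inv_eq (τ : ℍ) : (lam9 τ)⁻¹ = (etaBH τ)⁻¹ ^ 3 * etaBH (scaleH 3 τ) := by
  rw [lam9_eq]
  have h1 := etaBH_ne_zero τ
  have h3 := etaBH_ne_zero (scaleH 3 τ)
  field_simp

theorem lam4_ne_zero (τ : ℍ) : lam4 τ ≠ 0 := by
  rw [lam4_eq]
  have h1 := etaBH_ne_zero τ
  have h2 := etaBH_ne_zero (scaleH 2 τ)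
  have h4 := etaBH_ne_zero (scaleH 4 τ)
  positivity

theorem lam9_ne_zero (τ : ℍ) : lam9 τ ≠ 0 := by
  rw [lam9_eq]
  have h1 := etaBH_ne_zero τ
  have h3 := etaBH_ne_zero (scaleH 3 τ)
  positivity

/-! ### The integral expansions -/

/-- The expansion of `lam4`: `∏ (1 - X²ⁿ)¹⁰ / ((1 - Xⁿ)⁴ (1 - X⁴ⁿ)⁴)`. -/
def L4 : PowerSeries ℤ := ex 2 etaProd ^ 10 * (etaProdInv ^ 4 * ex 4 etaProdInv ^ 4)

/-- The expansion of `1 / lam4`. -/
def L4i : PowerSeries ℤ := ex 2 etaProdInv ^ 10 * (etaProd ^ 4 * ex 4 etaProd ^ 4)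

/-- The expansion of `lam9`: `∏ (1 - Xⁿ)³ / (1 - X³ⁿ)`. -/
def L9 : PowerSeries ℤ := etaProd ^ 3 * ex 3 etaProdInv

/-- The expansion of `1 / lam9`. -/
def L9i : PowerSeries ℤ := etaProdInv ^ 3 * ex 3 etaProd

theorem ex_etaProd_mul_inv (d : ℕ) [NeZero d] : ex d etaProd * ex d etaProdInv = 1 := by
  rw [← ex_mul, etaProd_mul_inv, ex_one]

theorem L4_mul_L4i : L4 * L4i = 1 := by
  have h2 := ex_etaProd_mul_inv 2
  have h4 := ex_etaProd_mul_inv 4
  have h1 := etaProd_mul_inv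
  calc L4 * L4i = (ex 2 etaProd * ex 2 etaProdInv) ^ 10 *
        ((etaProd * etaProdInv) ^ 4 * (ex 4 etaProd * ex 4 etaProdInv) ^ 4) := by
        rw [L4, L4i]
        ring
    _ = 1 := by rw [h1, h2, h4]; simp

theorem L9_mul_L9i : L9 * L9i = 1 := by
  have h3 := ex_etaProd_mul_inv 3
  have h1 := etaProd_mul_inv
  calc L9 * L9i = (etaProd * etaProdInv) ^ 3 * (ex 3 etaProd * ex 3 etaProdInv) := by
        rw [L9, L9i]
        ring
    _ = 1 := by rw [h1, h3]; simp

theorem constantCoeff_L4 : PowerSeries.constantCoeff L4 = 1 := by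
  simp [L4, constantCoeff_ex, constantCoeff_etaProd, constantCoeff_etaProdInv]

theorem constantCoeff_L4i : PowerSeries.constantCoeff L4i = 1 := by
  simp [L4i, constantCoeff_ex, constantCoeff_etaProd, constantCoeff_etaProdInv]

theorem constantCoeff_L9 : PowerSeries.constantCoeff L9 = 1 := by
  simp [L9, constantCoeff_ex, constantCoeff_etaProd, constantCoeff_etaProdInv]

theorem constantCoeff_L9i : PowerSeries.constantCoeff L9i = 1 := by
  simp [L9i, constantCoeff_ex, constantCoeff_etaProd, constantCoeff_etaProdInv]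

theorem isQExp_lam4 : IsQExp (iota ℂ L4) lam4 := by
  have h := ((isQExp_scale isQExp_etaBH 2).pow 10).mul
    ((isQExp_etaBH_inv.pow 4).mul ((isQExp_scale isQExp_etaBH_inv 4).pow 4))
  rw [← map_pow, ← map_pow, ← map_pow, ← map_mul, ← map_mul] at h
  exact h.congr_right fun τ => (lam4_eq τ).symm

theorem isQExp_lam4_inv : IsQExp (iota ℂ L4i) (fun τ => (lam4 τ)⁻¹) := by
  have h := ((isQExp_scale isQExp_etaBH_inv 2).pow 10).mul
    ((isQExp_etaBH.pow 4).mul ((isQExp_scale isQExp_etaBH 4).pow 4))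
  rw [← map_pow, ← map_pow, ← map_pow, ← map_mul, ← map_mul] at h
  exact h.congr_right fun τ => (lam4_inv_eq τ).symm

theorem isQExp_lam9 : IsQExp (iota ℂ L9) lam9 := by
  have h := (isQExp_etaBH.pow 3).mul (isQExp_scale isQExp_etaBH_inv 3)
  rw [← map_pow, ← map_mul] at h
  exact h.congr_right fun τ => (lam9_eq τ).symm

theorem isQExp_lam9_inv : IsQExp (iota ℂ L9i) (fun τ => (lam9 τ)⁻¹) := by
  have h := (isQExp_etaBH_inv.pow 3).mul (isQExp_scale isQExp_etaBH 3)
  rw [← map_pow, ← map_mul] at h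
  exact h.congr_right fun τ => (lam9_inv_eq τ).symm

/-! ### The fields of `IsWtOneUnit` -/

/-- **[UNIT-QEXP]** for `lam4`: the field `IsWtOneUnit.qexp`. -/
theorem qexp4 : ∃ L : PowerSeries ℤ, PowerSeries.constantCoeff L = 1 ∧
    IsQExp (Fermat.Agent.P2.helper66.iota ℂ L) lam4 :=
  ⟨L4, constantCoeff_L4, isQExp_lam4⟩

/-- **[UNIT-QEXP]** for `lam9`: the field `IsWtOneUnit.qexp`. -/
theorem qexp9 : ∃ L : PowerSeries ℤ, PowerSeries.constantCoeff L = 1 ∧
    IsQExp (Fermat.Agent.P2.helper66.iota ℂ L) lam9 :=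
  ⟨L9, constantCoeff_L9, isQExp_lam9⟩

theorem mdiff_lam4 : MDiff lam4 := isQExp_lam4.mdiff

theorem mdiff_lam9 : MDiff lam9 := isQExp_lam9.mdiff

/-! ### Niceness and the `T`-law -/

theorem isNice_lam4 : IsNice lam4 :=
  (((isNice_etaBH.comp_scale 2).pow 10).mul
    ((isNice_etaBHi.pow 4).mul ((isNice_etaBHi.comp_scale 4).pow 4))).congr
    fun τ => (lam4_eq τ).symm

theorem isNice_lam4_inv : IsNice (fun τ => (lam4 τ)⁻¹) :=
  (((isNice_etaBHi.comp_scale 2).pow 10).mul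
    ((isNice_etaBH.pow 4).mul ((isNice_etaBH.comp_scale 4).pow 4))).congr
    fun τ => (lam4_inv_eq τ).symm

theorem isNice_lam9 : IsNice lam9 :=
  ((isNice_etaBH.pow 3).mul (isNice_etaBHi.comp_scale 3)).congr fun τ => (lam9_eq τ).symm

theorem isNice_lam9_inv : IsNice (fun τ => (lam9 τ)⁻¹) :=
  ((isNice_etaBHi.pow 3).mul (isNice_etaBH.comp_scale 3)).congr fun τ => (lam9_inv_eq τ).symm

/-- A nice function is invariant under `τ ↦ τ + 1`. -/
theorem IsNice.vadd_one {g : ℍ → ℂ} (h : IsNice g) (τ : ℍ) : g ((1 : ℝ) +ᵥ τ) = g τ := by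
  have h1 := h.periodic (τ : ℂ)
  simp only [comp_apply] at h1
  rw [ofComplex_apply] at h1
  rw [← h1]
  congr 1
  apply UpperHalfPlane.ext
  have him : 0 < ((τ : ℂ) + 1).im := by simpa using τ.im_pos
  rw [ofComplex_apply_of_im_pos him]
  simp [add_comm]

theorem lam4_vadd_one (τ : ℍ) : lam4 ((1 : ℝ) +ᵥ τ) = lam4 τ := IsNice.vadd_one isNice_lam4 τ

theorem lam9_vadd_one (τ : ℍ) : lam9 ((1 : ℝ) +ᵥ τ) = lam9 τ := IsNice.vadd_one isNice_lam9 τ

/-! ### The expansion of the unit `b₀ τ = lam τ / lam (q τ)` -/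

/-- The expansion of `lam4 τ / lam4 (q τ)`. -/
def B4 (q : ℕ) : PowerSeries ℤ := L4 * ex q L4i

/-- The expansion of `lam9 τ / lam9 (q τ)`. -/
def B9 (q : ℕ) : PowerSeries ℤ := L9 * ex q L9i

theorem constantCoeff_B4 (q : ℕ) : PowerSeries.constantCoeff (B4 q) = 1 := by
  rw [B4, map_mul, constantCoeff_ex, constantCoeff_L4, constantCoeff_L4i, one_mul]

theorem constantCoeff_B9 (q : ℕ) : PowerSeries.constantCoeff (B9 q) = 1 := by
  rw [B9, map_mul, constantCoeff_ex, constantCoeff_L9, constantCoeff_L9i, one_mul]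

theorem isQExp_unit4 (q : ℕ) [NeZero q] :
    IsQExp (iota ℂ (B4 q)) (fun τ => lam4 τ / lam4 (scaleH q τ)) := by
  have h := isQExp_lam4.mul (isQExp_scale isQExp_lam4_inv q)
  rw [← map_mul] at h
  exact h.congr_right fun τ => by
    simp only [Pi.mul_apply]
    rw [div_eq_mul_inv]

theorem isQExp_unit9 (q : ℕ) [NeZero q] :
    IsQExp (iota ℂ (B9 q)) (fun τ => lam9 τ / lam9 (scaleH q τ)) := by
  have h := isQExp_lam9.mul (isQExp_scale isQExp_lam9_inv q)
  rw [← map_mul] at h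
  exact h.congr_right fun τ => by
    simp only [Pi.mul_apply]
    rw [div_eq_mul_inv]

/-- The expansion of `lam4 (q τ) / lam4 τ` is the inverse series. -/
theorem isQExp_unit4_inv (q : ℕ) [NeZero q] :
    IsQExp (iota ℂ (L4i * ex q L4)) (fun τ => lam4 (scaleH q τ) / lam4 τ) := by
  have h := isQExp_lam4_inv.mul (isQExp_scale isQExp_lam4 q)
  rw [← map_mul] at h
  exact h.congr_right fun τ => by
    simp only [Pi.mul_apply]
    rw [div_eq_mul_inv, mul_comm]

theorem isQExp_unit9_inv (q : ℕ) [NeZero q] :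
    IsQExp (iota ℂ (L9i * ex q L9)) (fun τ => lam9 (scaleH q τ) / lam9 τ) := by
  have h := isQExp_lam9_inv.mul (isQExp_scale isQExp_lam9 q)
  rw [← map_mul] at h
  exact h.congr_right fun τ => by
    simp only [Pi.mul_apply]
    rw [div_eq_mul_inv, mul_comm]

theorem B4_mul_inv (q : ℕ) [NeZero q] : B4 q * (L4i * ex q L4) = 1 := by
  have h1 := L4_mul_L4i
  have h2 : ex q L4 * ex q L4i = 1 := by rw [← ex_mul, L4_mul_L4i, ex_one]
  calc B4 q * (L4i * ex q L4) = (L4 * L4i) * (ex q L4 * ex q L4i) := by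
        rw [B4]
        ring
    _ = 1 := by rw [h1, h2, one_mul]

theorem B9_mul_inv (q : ℕ) [NeZero q] : B9 q * (L9i * ex q L9) = 1 := by
  have h1 := L9_mul_L9i
  have h2 : ex q L9 * ex q L9i = 1 := by rw [← ex_mul, L9_mul_L9i, ex_one]
  calc B9 q * (L9i * ex q L9) = (L9 * L9i) * (ex q L9 * ex q L9i) := by
        rw [B9]
        ring
    _ = 1 := by rw [h1, h2, one_mul]

end Fermat.Agent.T3.helper28
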