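/-
T3 (S36), helper29, row 943 [T3-KUM-NEW]: the function-field meaning of `U_q x = 0` and
`U_q (W x) = 0` at level `N q²` (`q ∤ N`).

Notation: `α₂, β₂ : F_{Nq} → F_{Nq²}` (`heckeAlphaBar`, `heckeBetaBar` at level `N q`),
`W₂ = atkinLehnerSq`, `W₁ = atkinLehner N q`, `N_α, N_β = normAlong α₂, normAlong β₂`.

* `normAlong_conj`          : transport of the norm along a commutative square of isomorphisms.
* `es_norm_beta`            : `(N_β g)(t^q) = ∏_{k<q} g(ζ^k t)` for EVERY `g ∈ F_{Mq}`, `q ∣ M`.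
* `uKummer_eq_alpha_norm`   : `U_q h = α₂ (N_β h)` at level `N q²`.
* `normBeta_atkinLehnerSq`  : `N_β (W₂ g) = W₁ (N_α g)`; `normAlpha_atkinLehnerSq` likewise.
* `normAlpha_alpha`, `normBeta_beta` : `N_α (α₂ y) = y ^ q`, `N_β (β₂ y) = y ^ q`.
* `descend_pow`             : `α₂ G = c v ^ n`, `gcd(n, q) = 1` ⟹ `G = c' v' ^ n` in `F_{Nq}`.
* `kumNew`                  : **[KUM-NEW]** for a Kummer representative `h` of `x` with
                              `U x = 0`, `U (W x) = 0`: `N_β h` and `N_α h` are constants times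
                              `n`-th powers in `F_{Nq}`.
-/
import Mathlib
import Fermat.Agent.T2.helper48_UOp
import Fermat.Agent.T3.helper48_AtkinLehnerQ
import Fermat.Agent.S18.helper19_Wiring

set_option autoImplicit false
set_option linter.unusedSectionVars false
set_option linter.unusedVariables false
set_option linter.style.haveILetI false

noncomputable section

open UpperHalfPlane ModularCurve AlgebraicCurve IntermediateField CongruenceSubgroup
open scoped MatrixGroups

namespace Fermat.Agent.T3.helper29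

open Fermat.Agent.S24 Fermat.Agent.S24.helper37 Fermat.Agent.P2.helper93
open Fermat.Agent.P3.helper94 Fermat.Agent.T2.helper48 Fermat.Agent.T2.helper36

/-! ### Transport of norms -/

section Abstract

variable {K F F' : Type*} [Field K] [Field F] [Field F'] [Algebra K F] [Algebra K F']

/-- Transport of the norm along a commutative square `σ' ∘ ψ = ψ' ∘ σ` of isomorphisms. -/
theorem normAlong_conj (ψ ψ' : F →ₐ[K] F') (σ : F ≃ₐ[K] F) (σ' : F' ≃ₐ[K] F')
    (h : ∀ y, σ' (ψ y) = ψ' (σ y)) (g : F') :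
    normAlong ψ' (σ' g) = σ (normAlong ψ g) := by
  have he : RingHom.comp (@algebraMap F F' _ _ (algebraAlong ψ'))
      ((σ.toRingEquiv : F ≃+* F) : F →+* F) =
      RingHom.comp ((σ'.toRingEquiv : F' ≃+* F') : F' →+* F')
        (@algebraMap F F' _ _ (algebraAlong ψ)) := by
    ext y
    exact (h y).symm
  have key := @Algebra.norm_eq_of_equiv_equiv F F' F F' _ _ _ _ (algebraAlong ψ)
    (algebraAlong ψ') σ.toRingEquiv σ'.toRingEquiv he g
  have key' := congrArg σ.toRingEquiv key
  rw [RingEquiv.apply_symm_apply] at key'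
  exact key'.symm

end Abstract

/-! ### The norm formula along `β` for every element -/

section NormBeta

variable (M q : ℕ) [NeZero M] [NeZero q]

/-- **Norm formula along `β`, complex coefficients**: `(N_β g)(t^q) = ∏_{k<q} g(ξ^k t)`. -/
theorem es_norm_beta_complex (hq : q.Prime) (hqM : q ∣ M) {ξ : ℂ} (hξ : IsPrimitiveRoot ξ q)
    (g : FN (M * q)) :
    qExpand ℂ q (helper17.toC ((normAlong (heckeBetaBar Kbar M q) g : FN M) :
        LaurentSeries Kbar))
      = ∏ k ∈ Finset.range q, rotL (ξ ^ k) (helper17.toC (g : LaurentSeries Kbar)) := by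
  letI := algebraAlong (heckeBetaBar Kbar M q)
  have hfr : Module.finrank (FN M) (FN (M * q)) = q := finrank_beta_of_dvd M q hq hqM
  haveI fd : FiniteDimensional (FN M) (FN (M * q)) :=
    Module.finite_of_finrank_pos (by rw [hfr]; exact hq.pos)
  haveI : Algebra.IsSeparable (FN M) (FN (M * q)) := inferInstance
  have key := norm_eq_prod_of_embeddings (F := FN M) (E := FN (M * q))
    ((qExpand ℂ q).comp (toCHom M)) (rotFam M q ξ (hξ.ne_zero (NeZero.ne q)))
    (rotFam_injective M q hξ)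
    (fun i => RingHom.ext fun f => rotFam_beta M q hξ i f)
    (by rw [Fintype.card_fin, hfr]) g
  simp_rw [rotFam_apply] at key
  rw [Fin.prod_univ_eq_prod_range
    (fun k => rotL (ξ ^ k) (helper17.toC (g : LaurentSeries Kbar))) q] at key
  rw [← key]
  rfl

/-- **Norm formula along `β`** in `ℚ̄((q))`: `(N_β g)(t^q) = ∏_{k<q} g(ζ^k t)`. -/
theorem es_norm_beta (hq : q.Prime) (hqM : q ∣ M) (ζ : Kbar) (hζ : IsPrimitiveRoot ζ q)
    (g : FN (M * q)) :
    qExpand Kbar q ((normAlong (heckeBetaBar Kbar M q) g : FN M) : LaurentSeries Kbar)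
      = ∏ k ∈ Finset.range q, twistL (ζ ^ k) (g : LaurentSeries Kbar) := by
  apply helper17.toC_injective
  rw [map_prod, toC_qExpand]
  simp_rw [toC_twistL, map_pow]
  exact es_norm_beta_complex M q hq hqM
    (hζ.map_of_injective (iotaC : Kbar →+* ℂ).injective) g

end NormBeta

/-! ### Level `N q²` -/

section Sq

variable (N q : ℕ) [NeZero N] [NeZero q]

/-- **`U_q = α₂ ∘ N_β`** on functions of level `N q²`. -/
theorem uKummer_eq_alpha_norm (hq : q.Prime) (h : FN (N * q * q)) :
    uKummer (N * q * q) q h =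
      heckeAlphaBar Kbar (N * q) q (normAlong (heckeBetaBar Kbar (N * q) q) h) := by
  obtain ⟨ζ, hζ⟩ := HasEnoughRootsOfUnity.exists_primitiveRoot Kbar q
  apply Subtype.ext
  apply qExpand_injective (R := Kbar) (N := q)
  have h1 := es_norm_U (N * q * q) q hq (Dvd.intro_left _ rfl) ζ hζ h
  have h2 := es_norm_beta (N * q) q hq (Dvd.intro_left _ rfl) ζ hζ h
  rw [h1, coe_heckeAlphaBar, h2]

/-- **`N_β ∘ W₂ = W₁ ∘ N_α`.** -/
theorem normBeta_atkinLehnerSq (hq : q.Prime) (hqN : ¬ q ∣ N) (g : FN (N * q * q)) :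
    normAlong (heckeBetaBar Kbar (N * q) q) (helper48.atkinLehnerSq N q hq hqN g) =
      atkinLehner N q hq hqN (normAlong (heckeAlphaBar Kbar (N * q) q) g) :=
  normAlong_conj (heckeAlphaBar Kbar (N * q) q) (heckeBetaBar Kbar (N * q) q)
    (atkinLehner N q hq hqN) (helper48.atkinLehnerSq N q hq hqN)
    (fun y => helper48.atkinLehnerSq_heckeAlphaBar N q hq hqN y) g

/-- **`N_α ∘ W₂ = W₁ ∘ N_β`.** -/
theorem normAlpha_atkinLehnerSq (hq : q.Prime) (hqN : ¬ q ∣ N) (g : FN (N * q * q)) :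
    normAlong (heckeAlphaBar Kbar (N * q) q) (helper48.atkinLehnerSq N q hq hqN g) =
      atkinLehner N q hq hqN (normAlong (heckeBetaBar Kbar (N * q) q) g) :=
  normAlong_conj (heckeBetaBar Kbar (N * q) q) (heckeAlphaBar Kbar (N * q) q)
    (atkinLehner N q hq hqN) (helper48.atkinLehnerSq N q hq hqN)
    (fun y => helper48.atkinLehnerSq_heckeBetaBar N q hq hqN y) g

/-- `N_α (α₂ y) = y ^ q`. -/
theorem normAlpha_alpha (hq : q.Prime) (y : FN (N * q)) :
    normAlong (heckeAlphaBar Kbar (N * q) q) (heckeAlphaBar Kbar (N * q) q y) = y ^ q := by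
  letI := algebraAlong (heckeAlphaBar Kbar (N * q) q)
  have hfr : Module.finrank (FN (N * q)) (FN (N * q * q)) = q :=
    finrank_alpha_of_dvd (N * q) q hq (Dvd.intro_left _ rfl)
  have h := Algebra.norm_algebraMap (R := FN (N * q)) (S := FN (N * q * q)) y
  rw [hfr] at h
  exact h

/-- `N_β (β₂ y) = y ^ q`. -/
theorem normBeta_beta (hq : q.Prime) (y : FN (N * q)) :
    normAlong (heckeBetaBar Kbar (N * q) q) (heckeBetaBar Kbar (N * q) q y) = y ^ q := by
  letI := algebraAlong (heckeBetaBar Kbar (N * q) q)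
  have hfr : Module.finrank (FN (N * q)) (FN (N * q * q)) = q :=
    finrank_beta_of_dvd (N * q) q hq (Dvd.intro_left _ rfl)
  have h := Algebra.norm_algebraMap (R := FN (N * q)) (S := FN (N * q * q)) y
  rw [hfr] at h
  exact h

/-- pure algebra: `G ^ q = C ^ q * w ^ n` with `gcd (n, q) = 1` makes `G` a power of `C` times
an `n`-th power. -/
theorem eq_zpow_mul_pow_of_pow_eq {F : Type*} [Field F] {n q : ℕ}
    (hnq : Nat.Coprime n q) {G w C : F} (hG : G ≠ 0) (h : G ^ q = C ^ q * w ^ n) :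
    ∃ (a : ℤ) (v : F), G = C ^ (a * q) * v ^ n := by
  have hcop : IsCoprime (q : ℤ) (n : ℤ) := by
    rw [Int.isCoprime_iff_gcd_eq_one, Int.gcd_natCast_natCast]
    exact hnq.symm
  obtain ⟨a, b, hab⟩ := hcop
  refine ⟨a, w ^ a * G ^ b, ?_⟩
  have e1 : G = (G ^ q) ^ a * (G ^ b) ^ n := by
    rw [← zpow_natCast G q, ← zpow_mul, ← zpow_natCast (G ^ b) n, ← zpow_mul, ← zpow_add₀ hG,
      mul_comm (q : ℤ) a, hab, zpow_one]
  have h1 : (C ^ q) ^ a = C ^ (a * (q : ℤ)) := by
    rw [← zpow_natCast C q, ← zpow_mul, mul_comm]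
  have h2 : (w ^ n) ^ a = (w ^ a) ^ n := by
    rw [← zpow_natCast w n, ← zpow_mul, mul_comm, zpow_mul, zpow_natCast]
  have e2 : (C ^ q * w ^ n) ^ a = C ^ (a * q) * (w ^ a) ^ n := by
    rw [mul_zpow, h1, h2]
  calc G = (G ^ q) ^ a * (G ^ b) ^ n := e1
    _ = C ^ (a * q) * (w ^ a) ^ n * (G ^ b) ^ n := by rw [h, e2]
    _ = C ^ (a * q) * (w ^ a * G ^ b) ^ n := by rw [mul_pow, mul_assoc]

/-- **Descent of an `n`-th root** along `α₂` (`gcd (n, q) = 1`). -/
theorem descend_pow (hq : q.Prime) {n : ℕ} (hnq : Nat.Coprime n q) {G : FN (N * q)}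
    (hG : G ≠ 0) {c : Kbar} {v : FN (N * q * q)}
    (h : heckeAlphaBar Kbar (N * q) q G = algebraMap Kbar (FN (N * q * q)) c * v ^ n) :
    ∃ (c' : Kbar) (v' : FN (N * q)), G = algebraMap Kbar (FN (N * q)) c' * v' ^ n := by
  have h1 := congrArg (normAlong (heckeAlphaBar Kbar (N * q) q)) h
  have hc : algebraMap Kbar (FN (N * q * q)) c =
      heckeAlphaBar Kbar (N * q) q (algebraMap Kbar (FN (N * q)) c) :=
    ((heckeAlphaBar Kbar (N * q) q).commutes c).symm
  rw [normAlpha_alpha N q hq, map_mul, map_pow, hc, normAlpha_alpha N q hq] at h1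
  obtain ⟨a, v', e⟩ := eq_zpow_mul_pow_of_pow_eq hnq hG h1
  refine ⟨c ^ (a * q), v', ?_⟩
  rw [map_zpow₀]
  exact e

/-- a Kummer representative of the zero class is a constant times an `n`-th power -/
theorem exists_const_mul_pow_of_isKummerRep_zero (M : ℕ) [NeZero M] {n : ℕ} {u : FN M}
    (H : IsKummerRep n (0 : JZero M) u) :
    ∃ (c : Kbar) (v : FN M), u = algebraMap Kbar (FN M) c * v ^ n := by
  obtain ⟨v, w, hv, hw, e⟩ := H.exists_eq_mul_pow
  obtain ⟨c, hc⟩ := Fermat.Agent.S18.helper19.const_of_ord_eq_zero M w hw.2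
  exact ⟨c, v, by rw [hc, e]⟩

/-- finiteness along `α₂` and `β₂`, and principal divisors at level `N q²` -/
theorem finiteAlong_alpha_beta :
    ∃ (_ : HasPrincipalDivisors Kbar (FN (N * q * q))),
      FiniteAlong Kbar (heckeAlphaBar Kbar (N * q) q) ∧
        FiniteAlong Kbar (heckeBetaBar Kbar (N * q) q) := by
  haveI := helper77.an_finiteDimensional (N * q)
  haveI := helper77.an_finiteDimensional (N * q * q)
  obtain ⟨-, -, hP, hfinβ, -, -⟩ := Fermat.Agent.P3.helper58.heckeInputs_of_ff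
    (heckeAlphaBar Kbar (N * q) q) (heckeBetaBar Kbar (N * q) q) (xJ (N * q))
    (helper77.an_transcendental (N * q)) (xJ (N * q * q))
    (helper77.an_transcendental (N * q * q))
  obtain ⟨-, -, -, hfinα, -, -⟩ := Fermat.Agent.P3.helper58.heckeInputs_of_ff
    (heckeBetaBar Kbar (N * q) q) (heckeAlphaBar Kbar (N * q) q) (xJ (N * q))
    (helper77.an_transcendental (N * q)) (xJ (N * q * q))
    (helper77.an_transcendental (N * q * q))
  exact ⟨hP, hfinα, hfinβ⟩

/-- **[T3-NORMHYP], `β` part**: if `U_q u` is a constant times an `n`-th power, so is `N_β u`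
(in `F_{Nq}`). -/
theorem normBeta_of_uKummer (hq : q.Prime) {n : ℕ} (hnq : Nat.Coprime n q)
    {u : FN (N * q * q)} (hu : u ≠ 0)
    (h : ∃ (c : Kbar) (φ : FN (N * q * q)),
      uKummer (N * q * q) q u = algebraMap Kbar (FN (N * q * q)) c * φ ^ n) :
    ∃ (c : Kbar) (v : FN (N * q)),
      normAlong (heckeBetaBar Kbar (N * q) q) u = algebraMap Kbar (FN (N * q)) c * v ^ n := by
  obtain ⟨hP, -, hfinβ⟩ := finiteAlong_alpha_beta N q
  haveI := hP
  obtain ⟨c, φ, e⟩ := h
  rw [uKummer_eq_alpha_norm N q hq] at e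
  exact descend_pow N q hq hnq (normAlong_ne_zero _ hfinβ hu) e

/-- **[T3-NORMHYP], `α` part**: if `U_q (W u)` is a constant times an `n`-th power, then `N_α u`
is a constant times an `n`-th power (in `F_{Nq}`). -/
theorem normAlpha_of_uKummer (hq : q.Prime) (hqN : ¬ q ∣ N) {n : ℕ} (hnq : Nat.Coprime n q)
    {u : FN (N * q * q)} (hu : u ≠ 0)
    (h : ∃ (c : Kbar) (φ : FN (N * q * q)),
      uKummer (N * q * q) q (helper48.atkinLehnerSq N q hq hqN u) =
        algebraMap Kbar (FN (N * q * q)) c * φ ^ n) :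
    ∃ (c : Kbar) (v : FN (N * q)),
      normAlong (heckeAlphaBar Kbar (N * q) q) u = algebraMap Kbar (FN (N * q)) c * v ^ n := by
  obtain ⟨hP, hfinα, -⟩ := finiteAlong_alpha_beta N q
  haveI := hP
  obtain ⟨c, φ, e⟩ := h
  rw [uKummer_eq_alpha_norm N q hq, normBeta_atkinLehnerSq N q hq hqN] at e
  have hne : atkinLehner N q hq hqN (normAlong (heckeAlphaBar Kbar (N * q) q) u) ≠ 0 :=
    (map_ne_zero _).mpr (normAlong_ne_zero _ hfinα hu)
  obtain ⟨c', v', e'⟩ := descend_pow N q hq hnq hne e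
  refine ⟨c', atkinLehner N q hq hqN v', ?_⟩
  have e2 := congrArg (atkinLehner N q hq hqN) e'
  rw [atkinLehner_atkinLehner, map_mul, map_pow, AlgEquiv.commutes] at e2
  exact e2

/-- **[KUM-NEW]**: if `U_q x = 0` and `U_q (W x) = 0` for a class `x` with Kummer
representative `h`, then `N_β h` and `N_α h` are constants times `n`-th powers in `F_{Nq}`. -/
theorem kumNew (hq : q.Prime) (hqN : ¬ q ∣ N) {n : ℕ} (hnq : Nat.Coprime n q)
    {x : JZero (N * q * q)} {h : FN (N * q * q)}
    (H : IsKummerRep n x h) (hU : uJ (N * q * q) q x = 0)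
    (hUW : uJ (N * q * q) q (helper48.atkinLehnerSq N q hq hqN • x) = 0) :
    (∃ (c : Kbar) (v : FN (N * q)),
        normAlong (heckeBetaBar Kbar (N * q) q) h = algebraMap Kbar (FN (N * q)) c * v ^ n) ∧
      ∃ (c : Kbar) (v : FN (N * q)),
        normAlong (heckeAlphaBar Kbar (N * q) q) h = algebraMap Kbar (FN (N * q)) c * v ^ n := by
  have hh : h ≠ 0 := H.ne_zero
  constructor
  · have H1 : IsKummerRep n (0 : JZero (N * q * q)) (uKummer (N * q * q) q h) := by
      have := IsKummerRep.uJ (N * q * q) q H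
      rwa [hU] at this
    exact normBeta_of_uKummer N q hq hnq hh
      (exists_const_mul_pow_of_isKummerRep_zero (N * q * q) H1)
  · have H1 : IsKummerRep n (0 : JZero (N * q * q))
        (uKummer (N * q * q) q (helper48.atkinLehnerSq N q hq hqN h)) := by
      have := IsKummerRep.uJ (N * q * q) q (H.algEquiv_smul (helper48.atkinLehnerSq N q hq hqN))
      rwa [hUW] at this
    exact normAlpha_of_uKummer N q hq hqN hnq hh
      (exists_const_mul_pow_of_isKummerRep_zero (N * q * q) H1)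

end Sq

end Fermat.Agent.T3.helper29

end
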