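/-
T3 (S36), helper74: **`TorBase.root` for `Reg = regJ` (regular off ALL cusps) from the producer
inputs of [CUSP-ALL]**, i.e. `helper27.torRoot_all` with (SAT_q) and (FIX) discharged by
`helper74_Sat3TwRaw` / `helper74_XPoleBridge`.

Inputs left:
* `hκ`, `hT : TableTwD`          — the twisted dg-table ([CUSP-Q]);
* `hX : XPoleAllD … regJ …`      — exact-pole elements ([XPOLE-c]; see `xPoleAllD_of_fam`);
* `hE : ConstCompatTw`, `hG : GalCompatTw` — constants and inertia ([CUSP-Q], (Q-GAL));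
* `hD : helper23.DiscPack`, `hcover : helper27.CoverStatementE`, `hgauss` ([GAUSS-ALL]).
-/
import Mathlib
import Fermat.Agent.T3.helper74_XPoleBridge
import Fermat.Agent.T3.helper27_TorRoot

set_option autoImplicit false
set_option synthInstance.maxHeartbeats 400000
set_option maxHeartbeats 1000000
set_option linter.unusedSectionVars false
set_option linter.style.haveILetI false

noncomputable section

open HahnSeries IntermediateField AlgebraicCurve ModularCurve
open Fermat.Agent.S18.helper19 Fermat.Agent.P2.helper29 Fermat.Agent.T2.helper36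
open Fermat.Agent.T2.helper96

namespace Fermat.Agent.T3.helper74

section TorRoot

variable (N q : ℕ) [NeZero N] [NeZero q] (hq : q.Prime) (hqN : ¬ q ∣ N)
variable (A : ValuationSubring Kb) (hA : A.LiesOverPrime q)

include hA in
/-- **`TorBase.root` for `Reg = regJ`** from the twisted table and the exact-pole elements. -/
theorem torRoot_of_tableD {ζ : Kb} (hζ : IsPrimitiveRoot ζ q)
    {𝒞 : Type*} [Fintype 𝒞] [DecidableEq 𝒞] [Nonempty 𝒞]
    (EN : 𝒞 → (FF N →+* LaurentSeries Kb))
    (E : 𝒞 × Fin 3 → (FF (N * q * q) →+* LaurentSeries Kb))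
    {κ : Fin 3 → Fin 3 → 𝒞 → 𝒞} (hκ : ∀ i e, Function.Injective (κ i e)) {d : 𝒞 → ℕ}
    (hT : TableTwD A EN E ζ κ d) {m₀ : ℕ}
    (hX : XPoleAllD A EN (Fermat.Agent.T3.helper98.regJ (N * q * q)) d m₀)
    (hE : ConstCompatTw E) (hG : GalCompatTw A (fun p : 𝒞 × Fin 3 => p.2) E ζ)
    (hD : Fermat.Agent.T3.helper23.DiscPack A E)
    (hcover : Fermat.Agent.T3.helper27.CoverStatementE A E)
    (hgauss : ∀ H : FF (N * q * q), Fermat.Agent.T3.helper98.IsRegJ (N * q * q) H →
      Fermat.Agent.T3.helper49.Rho3 N q hq hqN A hζ H 1 →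
      ∀ J : 𝒞 × Fin 3, ∃ Y : LaurentSeries A, incl A Y = E J H ∧ red A Y = 1)
    (n : ℕ) (hn : ¬ q ∣ n) :
    ∀ H : FF (N * q * q), H ∈ Fermat.Agent.T3.helper98.regJRing (N * q * q) →
      Fermat.Agent.T3.helper49.Rho3 N q hq hqN A hζ H 1 →
      Fermat.Agent.T3.helper49.Dv3 N q n H →
      ∃ (c : Kb) (v : FF (N * q * q)), H = algebraMap Kb (FF (N * q * q)) c * v ^ n :=
  Fermat.Agent.T3.helper27.torRoot_all N q hq hqN A hA hζ E (fun p : 𝒞 × Fin 3 => wt3 q p.2)
    (fun p => wt3_pos (q := q) p.2) hD (fixStatementE_tw hG) hcover (lev3 q m₀ : ℤ)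
    (satStatementE_of_tableD hq hA hζ hκ hT (Fermat.Agent.T3.helper98.regJ (N * q * q)) hX hE hG)
    hgauss n hn

end TorRoot

end Fermat.Agent.T3.helper74

end
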