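/-
T3 (S36), helper29 (architect): INTEGRATION REHEARSAL of the box [ROOT3-ALL] for the CUSP-Q
family `helper87.ex3c`: `OpenBoxes.root` from the two leaves still open, (Q-GAL) and (COVER).
-/
import Fermat.Agent.T3.helper87_CuspQTab
import Fermat.Agent.T3.helper96_XPoleENc
import Fermat.Agent.T3.helper23_DiscEx3c
import Fermat.Agent.T3.helper20_GaussAllStmt
import Fermat.Agent.T3.helper74_TorRootTw

set_option autoImplicit false
set_option synthInstance.maxHeartbeats 400000
set_option maxHeartbeats 1000000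
set_option linter.unusedSectionVars false
set_option linter.style.haveILetI false
set_option linter.style.longLine false

noncomputable section

open HahnSeries IntermediateField AlgebraicCurve ModularCurve
open Fermat.Agent.S18.helper19 Fermat.Agent.P2.helper29 Fermat.Agent.T2.helper36

namespace Fermat.Agent.T3.helper29

variable {N q : ℕ} [NeZero N] [NeZero q]

/-- **[ROOT3-ALL] for the family `ex3c`** from (Q-GAL) and (COVER). -/
theorem root3All_ex3c_of (hq : q.Prime) (hqN : ¬ q ∣ N) {A : ValuationSubring Kb}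
    (hA : A.LiesOverPrime q) {ζ : Kb} (hζ : IsPrimitiveRoot ζ q) (hN : 4 ∣ N ∨ 9 ∣ N)
    (hG : Fermat.Agent.T3.helper74.GalCompatTw A
      (fun p : Fermat.Agent.T3.helper87.Cusp N × Fin 3 => p.2)
      (Fermat.Agent.T3.helper87.ex3c N q ζ) ζ)
    (hcover : Fermat.Agent.T3.helper27.CoverStatementE A (Fermat.Agent.T3.helper87.ex3c N q ζ))
    {n : ℕ} (hn : ¬ q ∣ n) :
    Fermat.Agent.T3.helper72.Root3AllStatement N q hq hqN A hζ n := by
  obtain ⟨m₀, hX⟩ := Fermat.Agent.T3.helper96.xPoleAll_ENc hq hA hqN hN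
  exact Fermat.Agent.T3.helper20.root3AllStatement_of (hq := hq) (hqN := hqN) hA hζ
    (Fermat.Agent.T3.helper87.Cusp N × Fin 3) (Fermat.Agent.T3.helper87.ex3c N q ζ)
    (fun p => Fermat.Agent.T3.helper74.wt3 q p.2) (Fermat.Agent.T3.helper74.lev3 q m₀ : ℤ)
    (fun p => Fermat.Agent.T3.helper74.wt3_pos (q := q) p.2)
    (Fermat.Agent.T3.helper23.discPack_ex3c N q ζ A)
    (Fermat.Agent.T3.helper74.fixStatementE_tw hG) hcover
    (Fermat.Agent.T3.helper74.satStatementE_of_table hq hA hζ
      (Fermat.Agent.T3.helper87.kap_injective hq hqN hζ)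
      (Fermat.Agent.T3.helper87.tableTw_ex3c hq hqN A hA hζ)
      (Fermat.Agent.T3.helper98.regJ (N * q * q)) hX
      (Fermat.Agent.T3.helper87.constCompatTw_ex3c ζ) hG) hn

end Fermat.Agent.T3.helper29

end
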