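/-
T3 (S36), helper29 (architect): the box [ROOT3-ALL] (`OpenBoxes.root`) for the CUSP-Q family
`helper87.ex3c` from the ONE leaf still open, (COVER).
-/
import Fermat.Agent.T3.helper29_RootReh
import Fermat.Agent.T3.helper87_CuspQGal

set_option autoImplicit false
set_option synthInstance.maxHeartbeats 400000
set_option maxHeartbeats 1000000
set_option linter.unusedSectionVars false
set_option linter.style.longLine false

noncomputable section

open HahnSeries IntermediateField AlgebraicCurve ModularCurve
open Fermat.Agent.S18.helper19 Fermat.Agent.P2.helper29 Fermat.Agent.T2.helper36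

namespace Fermat.Agent.T3.helper29

variable {N q : ℕ} [NeZero N] [NeZero q]

/-- **[ROOT3-ALL] for the family `ex3c`** from (COVER) alone. -/
theorem root3All_ex3c_of_cover (hq : q.Prime) (hqN : ¬ q ∣ N) {A : ValuationSubring Kb}
    (hA : A.LiesOverPrime q) {ζ : Kb} (hζ : IsPrimitiveRoot ζ q) (hN : 4 ∣ N ∨ 9 ∣ N)
    (hcover : Fermat.Agent.T3.helper27.CoverStatementE A (Fermat.Agent.T3.helper87.ex3c N q ζ))
    {n : ℕ} (hn : ¬ q ∣ n) :
    Fermat.Agent.T3.helper72.Root3AllStatement N q hq hqN A hζ n :=
  root3All_ex3c_of hq hqN hA hζ hN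
    (Fermat.Agent.T3.helper87.galCompatTw_ex3c hq hqN A hA hζ) hcover hn

end Fermat.Agent.T3.helper29

end
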