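/-
T3 / S36, box [HOR] of `helper22.Ideal3Rest` (helper84), part 2: SCALING.

For an inertia-fixed function `f ≠ 0` of level `N q q` some multiple `q ^ k · f` is integral at
the three valuations (`helper49.Rho3`), from the three Gauss values of `f`
(`helper5.gaussIs_ex3_all`, in `ℤ v(q)`, `ℤ v(q)`, `ℤ v(1 - ζ)`).

* `hor_rhoQ_of_gaussIs` : Gauss value in `A` ⟹ Gauss-integral (quotient form);
* `hor_exists_scale`    : `∃ k X, Rho3 (q ^ k · f) X`.
-/
import Mathlib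
import Fermat.Agent.T3.helper5_Gauss3BMid
import Fermat.Agent.T3.helper49_TorInst
import Fermat.Agent.T3.helper98_ResCore
import Fermat.Agent.T3.helper84_K0Zeta

set_option autoImplicit false
set_option linter.unusedSectionVars false
set_option linter.unusedVariables false
set_option linter.style.haveILetI false
set_option linter.style.longLine false

open HahnSeries ModularCurve IntermediateField AlgebraicCurve
open Fermat.Agent.S18.helper19 Fermat.Agent.P2.helper29 Fermat.Agent.S24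

noncomputable section

namespace Fermat.Agent.T3.helper84

open Fermat.Agent.T3.helper74 (ex3 IsFixI)
open Fermat.Agent.T3.helper72 (Red3)
open Fermat.Agent.T3.helper36 (RhoQ GaussIs)

section Scale

variable {N q : ℕ} [NeZero N] [NeZero q] {hq : q.Prime} {hqN : ¬ q ∣ N}
  {A : ValuationSubring Kb} {ζ : Kb}

/-- a series whose Gauss value lies in `A` is Gauss-integral -/
theorem hor_rhoQ_of_gaussIs {g : LaurentSeries Kb} {c : Kb} (h : GaussIs A g c) (hc : c ∈ A) :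
    ∃ r : LaurentSeries (kA A), RhoQ A g r := by
  obtain ⟨hc0, r, -, hr⟩ := h
  have h1 := (Fermat.Agent.T3.helper36.rhoQ_algebraMap (A := A) ⟨c, hc⟩).mul hr
  have e : algebraMap Kb (LaurentSeries Kb) (((⟨c, hc⟩ : A) : Kb)) *
      (algebraMap Kb (LaurentSeries Kb) c⁻¹ * g) = g := by
    rw [← mul_assoc, ← map_mul]
    show algebraMap Kb (LaurentSeries Kb) (c * c⁻¹) * g = g
    rw [mul_inv_cancel₀ hc0, map_one, one_mul]
  rw [e] at h1
  exact ⟨_, h1⟩

theorem hor_natCast_mem (A : ValuationSubring Kb) (n : ℕ) : (n : Kb) ∈ A := by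
  induction n with
  | zero => simp
  | succ n ih =>
    rw [Nat.cast_succ]
    exact A.add_mem _ _ ih A.one_mem

/-- `x ^ e ≤ 1` for `x ≤ 1`, `e ≥ 0` (in the value group) -/
theorem hor_zpow_le_one {Γ : Type*} [LinearOrderedCommGroupWithZero Γ] {x : Γ} (hx : x ≤ 1)
    {e : ℤ} (he : 0 ≤ e) : x ^ e ≤ 1 := by
  obtain ⟨d, rfl⟩ : ∃ d : ℕ, e = d := ⟨e.toNat, (Int.toNat_of_nonneg he).symm⟩
  rw [zpow_natCast]
  exact pow_le_one₀ zero_le hx

/-- `q ^ k · q ^ m ∈ A` for `k + m ≥ 0` -/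
theorem hor_qpow_mem (A : ValuationSubring Kb) (q k : ℕ) (hq0 : (q : Kb) ≠ 0) {m : ℤ}
    (hm : 0 ≤ (k : ℤ) + m) : (q : Kb) ^ k * (q : Kb) ^ m ∈ A := by
  obtain ⟨e, he⟩ : ∃ e : ℕ, (k : ℤ) + m = e :=
    ⟨((k : ℤ) + m).toNat, (Int.toNat_of_nonneg hm).symm⟩
  have h1 : (q : Kb) ^ k * (q : Kb) ^ m = (q : Kb) ^ e := by
    rw [← zpow_natCast (q : Kb) k, ← zpow_add₀ hq0, he, zpow_natCast]
  rw [h1]
  exact A.pow_mem (hor_natCast_mem A q) e

/-- `q ^ k · (1 - ζ) ^ m ∈ A` for `k + m ≥ 0` -/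
theorem hor_zpow_mem (hq : q.Prime) (hA : A.LiesOverPrime q) (hζ : IsPrimitiveRoot ζ q) (k : ℕ)
    {m : ℤ} (hm : 0 ≤ (k : ℤ) + m) : (q : Kb) ^ k * (1 - ζ) ^ m ∈ A := by
  rw [← A.valuation_le_one_iff, map_mul, map_pow, map_zpow₀, ← k0_zeta_val hq A hζ, ← pow_mul,
    ← zpow_natCast, ← zpow_add₀ (k0_zeta_val_ne_zero hq A hζ)]
  refine hor_zpow_le_one (k0_zeta_val_lt hq A hA hζ).le ?_
  have h1 : (1 : ℤ) ≤ ((q - 1 : ℕ) : ℤ) := by
    have := hq.two_le
    omega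
  have h2 : (k : ℤ) ≤ (((q - 1) * k : ℕ) : ℤ) := by
    rw [Nat.cast_mul]
    nlinarith [Int.natCast_nonneg k]
  omega

variable (hq hqN) in
/-- **scaling**: for an inertia-fixed `f ≠ 0` some `q ^ k · f` is integral at the three
valuations -/
theorem hor_exists_scale (hA : A.LiesOverPrime q) (hζ : IsPrimitiveRoot ζ q)
    {f : FF (N * q * q)} (hf0 : f ≠ 0) (hfix : IsFixI A (N * q * q) f) :
    ∃ (k : ℕ) (X : Fin 3 → LaurentSeries (kA A)),
      Fermat.Agent.T3.helper49.Rho3 N q hq hqN A hζ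
        (algebraMap Kb (FF (N * q * q)) ((q : Kb) ^ k) * f) X := by
  obtain ⟨m₀, m₁, m₂, h₀, h₁, h₂⟩ :=
    Fermat.Agent.T3.helper5.gaussIs_ex3_all (hq := hq) (hqN := hqN) hA hζ hf0 hfix
  have hq0 : (q : Kb) ≠ 0 := Nat.cast_ne_zero.mpr hq.ne_zero
  set k : ℕ := (max (max (-m₀) (-m₁)) (-m₂)).toNat with hk
  have hk0 : 0 ≤ (k : ℤ) + m₀ := by
    have := Int.self_le_toNat (max (max (-m₀) (-m₁)) (-m₂))
    have := le_max_left (max (-m₀) (-m₁)) (-m₂)
    have := le_max_left (-m₀) (-m₁)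
    omega
  have hk1 : 0 ≤ (k : ℤ) + m₁ := by
    have := Int.self_le_toNat (max (max (-m₀) (-m₁)) (-m₂))
    have := le_max_left (max (-m₀) (-m₁)) (-m₂)
    have := le_max_right (-m₀) (-m₁)
    omega
  have hk2 : 0 ≤ (k : ℤ) + m₂ := by
    have := Int.self_le_toNat (max (max (-m₀) (-m₁)) (-m₂))
    have := le_max_right (max (-m₀) (-m₁)) (-m₂)
    omega
  have hc : (q : Kb) ^ k ≠ 0 := pow_ne_zero _ hq0
  have key : ∀ i : Fin 3, ∀ c : Kb, GaussIs A (ex3 N q hq hqN hζ i f) c →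
      (q : Kb) ^ k * c ∈ A →
      ∃ r : LaurentSeries (kA A), Red3 N q hq hqN A hζ i
        (algebraMap Kb (FF (N * q * q)) ((q : Kb) ^ k) * f) r := by
    intro i c hg hmem
    have h1 := (Fermat.Agent.T3.helper36.gaussIs_const (A := A) hc).mul hg
    obtain ⟨r, hr⟩ := hor_rhoQ_of_gaussIs h1 hmem
    refine ⟨r, ?_⟩
    show RhoQ A (ex3 N q hq hqN hζ i (algebraMap Kb (FF (N * q * q)) ((q : Kb) ^ k) * f)) r
    rw [map_mul, Fermat.Agent.T3.helper98.ex3_const]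
    exact hr
  obtain ⟨r₀, hr₀⟩ := key 0 _ h₀ (hor_qpow_mem A q k hq0 hk0)
  obtain ⟨r₁, hr₁⟩ := key 1 _ h₁ (hor_qpow_mem A q k hq0 hk1)
  obtain ⟨r₂, hr₂⟩ := key 2 _ h₂ (hor_zpow_mem hq hA hζ k hk2)
  refine ⟨k, ![r₀, r₁, r₂], ?_, ?_⟩
  · intro σ hσ
    rw [map_mul, hfix σ hσ, arithmeticRingAut_algebraMap, map_pow, map_natCast]
  · intro i
    fin_cases i
    · exact hr₀
    · exact hr₁
    · exact hr₂

end Scale

end Fermat.Agent.T3.helper84

end
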