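/-
T3 / S36, box [HOR] of `helper22.Ideal3Rest` (helper84): the field `hhor`, VERBATIM,
UNCONDITIONAL (only `hA : A.LiesOverPrime q`).

  `hhor_rest hA hζ n : ∀ u f, Rho3 u 1 → (∀ P, n ∣ ord_P u) →
      (∀ G G', IsRegJ (G ^ n / u) → IsRegJ (G' ^ n · u) → Rho3-integral G, G' → IsRegJ (f G G'))
      → IsRegJ f`

Route: for a place `P` where `j` is finite take the inertia-fixed `w` of `hor_exists_exact`
(`n ord_Q w ≥ ord_Q u` wherever `j` is finite, equality at `P`), scale it to `G = q ^ k w`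
(`hor_exists_scale`), and put `G' = G ^ (n - 1) / u`: then `G G' = G ^ n / u` is regular where `j`
is finite and a unit at `P`, and `G' ^ n u = (G ^ n / u) ^ (n - 1)`.
-/
import Mathlib
import Fermat.Agent.T3.helper84_HorExact
import Fermat.Agent.T3.helper84_HorScale
import Fermat.Agent.T3.helper98_NormRegJ

set_option autoImplicit false
set_option linter.unusedSectionVars false
set_option linter.unusedVariables false
set_option linter.style.haveILetI false
set_option linter.style.longLine false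

open HahnSeries ModularCurve IntermediateField AlgebraicCurve
open Fermat.Agent.S18.helper19 Fermat.Agent.P2.helper29 Fermat.Agent.S24

noncomputable section

namespace Fermat.Agent.T3.helper84

open Fermat.Agent.T3.helper74 (ex3 IsFixI)
open Fermat.Agent.T3.helper49 (Rho3)
open Fermat.Agent.T3.helper98 (IsRegJ)

section Hor

variable {N q : ℕ} [NeZero N] [NeZero q] {hq : q.Prime} {hqN : ¬ q ∣ N}
  {A : ValuationSubring Kb} {ζ : Kb} {hζ : IsPrimitiveRoot ζ q}

/-- powers of `Rho3`-integral functions are `Rho3`-integral -/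
theorem hor_rho3_pow {G : FF (N * q * q)} (h : ∃ X, Rho3 N q hq hqN A hζ G X) (k : ℕ) :
    ∃ X, Rho3 N q hq hqN A hζ (G ^ k) X := by
  induction k with
  | zero =>
    rw [pow_zero]
    exact ⟨1, Fermat.Agent.T3.helper49.rho3_one⟩
  | succ k ih =>
    obtain ⟨X, hX⟩ := ih
    obtain ⟨Y, hY⟩ := h
    rw [pow_succ]
    exact ⟨X * Y, hX.mul hY⟩

/-- `(G ^ m / u) ^ (m + 1) · u = (G ^ (m + 1) / u) ^ m` -/
theorem hor_pow_identity {F : Type*} [Field F] (G u : F) (hu : u ≠ 0) (m : ℕ) :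
    (G ^ m * u⁻¹) ^ (m + 1) * u⁻¹⁻¹ = (G ^ (m + 1) * u⁻¹) ^ m := by
  rw [inv_inv, mul_pow, mul_pow, ← pow_mul, ← pow_mul, mul_comm m (m + 1), pow_succ u⁻¹ m,
    mul_assoc, mul_assoc, inv_mul_cancel₀ hu, mul_one]

/-- the order of a nonzero constant multiple -/
theorem hor_ord_const_mul {M : ℕ} [NeZero M] (P : Place Kb (FF M)) {c : Kb} (hc : c ≠ 0)
    {w : FF M} (hw : w ≠ 0) : P.ord (algebraMap Kb (FF M) c * w) = P.ord w := by
  rw [Place.ord_mul _ ((map_ne_zero _).mpr hc) hw, Fermat.Agent.S24.helper82.ord_algebraMap,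
    zero_add]

variable (hq hqN) in
/-- **the box `hhor` of `helper22.Ideal3Rest`**, VERBATIM. -/
theorem hhor_rest (hA : A.LiesOverPrime q) (hζ : IsPrimitiveRoot ζ q) (n : ℕ) :
    ∀ u f : FF (N * q * q), Rho3 N q hq hqN A hζ u 1 →
      (∀ P : Place Kb (FF (N * q * q)), (n : ℤ) ∣ P.ord u) →
      (∀ G G' : FF (N * q * q), IsRegJ (N * q * q) (G ^ n * u⁻¹) →
        IsRegJ (N * q * q) (G' ^ n * u⁻¹⁻¹) → (∃ X, Rho3 N q hq hqN A hζ G X) →
        (∃ X, Rho3 N q hq hqN A hζ G' X) → IsRegJ (N * q * q) (f * (G * G'))) →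
      IsRegJ (N * q * q) f := by
  intro u f ρu hdiv H P hP
  have hu0 : u ≠ 0 := ρu.ne_zero
  by_cases hn : n = 0
  · -- `n = 0`: `u` has no zeros and no poles
    subst hn
    have hord : ∀ Q : Place Kb (FF (N * q * q)), Q.ord u = 0 := fun Q => by
      have := hdiv Q
      rwa [Nat.cast_zero, zero_dvd_iff] at this
    have h1 : IsRegJ (N * q * q) ((1 : FF (N * q * q)) ^ 0 * u⁻¹) := by
      intro Q _
      rw [pow_zero, one_mul, Place.ord_inv, hord Q, neg_zero]
    have h2 : IsRegJ (N * q * q) ((1 : FF (N * q * q)) ^ 0 * u⁻¹⁻¹) := by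
      intro Q _
      rw [pow_zero, one_mul, inv_inv, hord Q]
    have h3 := H 1 1 h1 h2 ⟨1, Fermat.Agent.T3.helper49.rho3_one⟩
      ⟨1, Fermat.Agent.T3.helper49.rho3_one⟩ P hP
    rwa [mul_one, mul_one] at h3
  · obtain ⟨w, hw0, hwfix, hwS, hwP⟩ := hor_exists_exact A hn hu0 ρu.1 hdiv P hP
    obtain ⟨k, X, ρG⟩ := hor_exists_scale hq hqN hA hζ hw0 hwfix
    have hq0 : (q : Kb) ≠ 0 := Nat.cast_ne_zero.mpr hq.ne_zero
    have hc : (q : Kb) ^ k ≠ 0 := pow_ne_zero _ hq0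
    set G : FF (N * q * q) := algebraMap Kb (FF (N * q * q)) ((q : Kb) ^ k) * w with hG
    have hG0 : G ≠ 0 := mul_ne_zero ((map_ne_zero _).mpr hc) hw0
    have hordG : ∀ Q : Place Kb (FF (N * q * q)), Q.ord G = Q.ord w :=
      fun Q => hor_ord_const_mul Q hc hw0
    -- the unit `g = G ^ n / u`
    set g : FF (N * q * q) := G ^ n * u⁻¹ with hg
    have hg0 : g ≠ 0 := mul_ne_zero (pow_ne_zero _ hG0) (inv_ne_zero hu0)
    have hordg : ∀ Q : Place Kb (FF (N * q * q)), Q.ord g = n * Q.ord w - Q.ord u := by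
      intro Q
      rw [hg, Place.ord_mul _ (pow_ne_zero _ hG0) (inv_ne_zero hu0), Place.ord_inv,
        ← zpow_natCast, Place.ord_zpow, hordG]
      ring
    have hgreg : IsRegJ (N * q * q) g := by
      intro Q hQ
      rw [hordg Q]
      have := hwS Q hQ
      omega
    have hgP : P.ord g = 0 := by
      rw [hordg P, hwP, sub_self]
    -- `G' = G ^ (n - 1) / u`
    obtain ⟨m, rfl⟩ : ∃ m : ℕ, n = m + 1 := ⟨n - 1, (Nat.succ_pred_eq_of_ne_zero hn).symm⟩
    set G' : FF (N * q * q) := G ^ m * u⁻¹ with hG'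
    have e1 : G' ^ (m + 1) * u⁻¹⁻¹ = g ^ m := hor_pow_identity G u hu0 m
    have e2 : G * G' = g := by
      show G * (G ^ m * u⁻¹) = G ^ (m + 1) * u⁻¹
      rw [pow_succ]
      ring
    have hG'reg : IsRegJ (N * q * q) (G' ^ (m + 1) * u⁻¹⁻¹) := by
      rw [e1]
      exact hgreg.pow m
    have ρG' : ∃ X', Rho3 N q hq hqN A hζ G' X' := by
      obtain ⟨Y, hY⟩ := hor_rho3_pow (hq := hq) (hqN := hqN) (hζ := hζ) ⟨X, ρG⟩ m
      exact ⟨Y * 1, hY.mul ρu.inv_one⟩
    have h3 := H G G' hgreg hG'reg ⟨X, ρG⟩ ρG' P hP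
    rw [e2] at h3
    by_cases hf : f = 0
    · rw [hf, Place.ord_zero]
    · rw [Place.ord_mul _ hf hg0, hgP, add_zero] at h3
      exact h3

end Hor

end Fermat.Agent.T3.helper84

end
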