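/-
T3 (S36), helper29 (architect): S36 and the core of S58 from the ONE leaf still open, (COVER) for
the CUSP-Q family `helper87.ex3c` at the good levels.  Plugged in: [ROOT3-ALL]
(`helper29.root3All_ex3c_of_cover`), [KER] at the middle component for odd `q`
(`helper63.hker_two_odd`), [HOR] (`helper84.hhor_rest`) and `helper72.newCore2_of_three_forall`.
-/
import Fermat.Agent.T3.helper72_S36Asm2
import Fermat.Agent.T3.helper29_RootCov
import Fermat.Agent.T3.helper63_MidGenKer
import Fermat.Agent.T3.helper84_Hor

set_option autoImplicit false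
set_option linter.unusedSectionVars false
set_option linter.style.longLine false

namespace Fermat.Agent.T3.helper29

open Fermat.Agent.T3.helper72

/-- **(COVER) at the good levels**: the last open leaf of S36. -/
def CoverGoodStatement : Prop :=
  ∀ (N' q : ℕ) [NeZero N'] [NeZero q] (_hq : q.Prime) (_hqN : ¬ q ∣ N'),
    (4 ∣ N' ∨ 9 ∣ N') → ∀ (A : ValuationSubring Fermat.Agent.P2.helper23.Kb),
      A.LiesOverPrime q → ∀ (ζ : Fermat.Agent.P2.helper23.Kb), IsPrimitiveRoot ζ q →
      Fermat.Agent.T3.helper27.CoverStatementE A (Fermat.Agent.T3.helper87.ex3c N' q ζ)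

/-- **the function-field core of S36 from (COVER)**. -/
theorem newCore2_of_cover (hcov : CoverGoodStatement) : NewCoreAtAuxLevels2 :=
  newCore2_of_three_forall fun N' q _ _ hq hqN p hp hpq hp2 hN' A hA ζ hζ k =>
    { root := root3All_ex3c_of_cover hq hqN hA hζ hN'.good
        (hcov N' q hq hqN hN'.good A hA ζ hζ)
        (fun h => hpq ((Nat.prime_dvd_prime_iff_eq hq hp).mp (hq.dvd_of_dvd_pow h)).symm)
      ker2 := fun hq2 => by
        rcases hN' with ⟨h2, -⟩ | ⟨-, h4⟩
        · exact absurd h2 hq2
        · exact Fermat.Agent.T3.helper63.hker_two_odd hq hqN h4 hq2 A hA hζ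
      hor := Fermat.Agent.T3.helper84.hhor_rest hq hqN hA hζ (p ^ k) }

end Fermat.Agent.T3.helper29
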