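/-
T3 [GAUSS3], shared vocabulary part 2 (helper36): stability of `RhoQ` / `GaussIs` under
`t ↦ t^n` (`qExpand`) and under the twist `t ↦ ζ^k t` by a `q`-th root of unity (`A ∣ q`).
-/
import Mathlib
import Fermat.Agent.T3.helper36_RhoQ
import Fermat.Agent.T3.helper98_NormRed3W

set_option autoImplicit false
set_option linter.unusedSectionVars false
set_option linter.unusedVariables false

noncomputable section

open HahnSeries ModularCurve
open Fermat.Agent.S18.helper19 Fermat.Agent.P2.helper29 Fermat.Agent.T2.helper36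

namespace Fermat.Agent.T3.helper36

open Fermat.Agent.P2.helper93 (twistL twistL_coeff)

variable {A : ValuationSubring Kb}

/-! ### `t ↦ t^n` -/

theorem RhoQ.qExpand (n : ℕ) [NeZero n] {g : LaurentSeries Kb} {r : LaurentSeries (kA A)}
    (h : RhoQ A g r) :
    RhoQ A (ModularCurve.qExpand Kb n g) (ModularCurve.qExpand (kA A) n r) := by
  obtain ⟨Y₁, Y₂, h2, h3, h4⟩ := h
  refine ⟨ModularCurve.qExpand A n Y₁, ModularCurve.qExpand A n Y₂, ?_, ?_, ?_⟩
  · show coeffMap (IsLocalRing.residue A) (ModularCurve.qExpand A n Y₂) ≠ 0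
    rw [Fermat.Agent.P2.helper94.coeffMap_qExpand]
    intro h0
    exact h2 (qExpand_injective n (h0.trans (map_zero _).symm))
  · show coeffMap A.subtype (ModularCurve.qExpand A n Y₁) =
      _ * coeffMap A.subtype (ModularCurve.qExpand A n Y₂)
    rw [Fermat.Agent.P2.helper94.coeffMap_qExpand, Fermat.Agent.P2.helper94.coeffMap_qExpand,
      ← map_mul]
    exact congrArg _ h3
  · show coeffMap (IsLocalRing.residue A) (ModularCurve.qExpand A n Y₁) =
      _ * coeffMap (IsLocalRing.residue A) (ModularCurve.qExpand A n Y₂)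
    rw [Fermat.Agent.P2.helper94.coeffMap_qExpand, Fermat.Agent.P2.helper94.coeffMap_qExpand,
      ← map_mul]
    exact congrArg _ h4

theorem qExpand_algebraMap_val (n : ℕ) [NeZero n] (c : Kb) :
    ModularCurve.qExpand Kb n (algebraMap Kb (LaurentSeries Kb) c) =
      algebraMap Kb (LaurentSeries Kb) c := by
  rw [algebraMap_laurentSeries_eq_single, qExpand_single, mul_zero]

theorem GaussIs.qExpand (n : ℕ) [NeZero n] {g : LaurentSeries Kb} {c : Kb}
    (h : GaussIs A g c) : GaussIs A (ModularCurve.qExpand Kb n g) c := by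
  obtain ⟨hc, r, hr, h⟩ := h
  refine ⟨hc, ModularCurve.qExpand (kA A) n r, ?_, ?_⟩
  · intro h0
    exact hr (qExpand_injective n (h0.trans (map_zero _).symm))
  · have := RhoQ.qExpand n h
    rwa [map_mul, qExpand_algebraMap_val] at this

/-! ### the twist by a root of unity -/

theorem twistL_algebraMap_val (c a : Kb) :
    twistL c (algebraMap Kb (LaurentSeries Kb) a) = algebraMap Kb (LaurentSeries Kb) a := by
  ext k
  rw [twistL_coeff, algebraMap_laurentSeries_eq_single]
  by_cases hk : k = 0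
  · subst hk
    simp
  · rw [HahnSeries.coeff_single_of_ne hk, mul_zero]

variable {q : ℕ} [NeZero q]

theorem RhoQ.twist (hq : q.Prime) (hA : A.LiesOverPrime q) {ζ : Kb} (hζ1 : ζ ^ q = 1) (k : ℕ)
    {g : LaurentSeries Kb} {r : LaurentSeries (kA A)} (h : RhoQ A g r) :
    RhoQ A (twistL (ζ ^ k) g) r := by
  obtain ⟨Y₁, Y₂, h2, h3, h4⟩ := h
  obtain ⟨Z₁, hZ₁, hr₁⟩ := Fermat.Agent.T3.helper98.exists_model_twist A hq hA hζ1 k
    (incl A Y₁) Y₁ rfl
  obtain ⟨Z₂, hZ₂, hr₂⟩ := Fermat.Agent.T3.helper98.exists_model_twist A hq hA hζ1 k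
    (incl A Y₂) Y₂ rfl
  have hζ0 : ζ ^ k ≠ 0 := by
    apply pow_ne_zero
    rintro rfl
    rw [zero_pow hq.ne_zero] at hζ1
    exact zero_ne_one hζ1
  refine ⟨Z₁, Z₂, by rw [hr₂]; exact h2, ?_, by rw [hr₁, hr₂, h4]⟩
  rw [hZ₁, hZ₂, h3, Fermat.Agent.T2.helper87.twistL_mul hζ0]

theorem GaussIs.twist (hq : q.Prime) (hA : A.LiesOverPrime q) {ζ : Kb} (hζ1 : ζ ^ q = 1) (k : ℕ)
    {g : LaurentSeries Kb} {c : Kb} (h : GaussIs A g c) : GaussIs A (twistL (ζ ^ k) g) c := by
  obtain ⟨hc, r, hr, h⟩ := h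
  refine ⟨hc, r, hr, ?_⟩
  have hζ0 : ζ ^ k ≠ 0 := by
    apply pow_ne_zero
    rintro rfl
    rw [zero_pow hq.ne_zero] at hζ1
    exact zero_ne_one hζ1
  have := h.twist hq hA hζ1 k
  rwa [Fermat.Agent.T2.helper87.twistL_mul hζ0, twistL_algebraMap_val] at this

/-- the product of the `q` twists -/
theorem GaussIs.prod_twist (hq : q.Prime) (hA : A.LiesOverPrime q) {ζ : Kb} (hζ1 : ζ ^ q = 1)
    {g : LaurentSeries Kb} {c : Kb} (h : GaussIs A g c) :
    GaussIs A (∏ k ∈ Finset.range q, twistL (ζ ^ k) g) (c ^ q) := by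
  have := GaussIs.prod (A := A) (Finset.range q) (f := fun k => twistL (ζ ^ k) g)
    (c := fun _ => c) (fun k _ => h.twist hq hA hζ1 k)
  rwa [Finset.prod_const, Finset.card_range] at this

end Fermat.Agent.T3.helper36

end
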