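/-
T3 [SCALE3] (helper36, row 937): `helper72.Scale3Statement` from the Gauss valuations.

INPUTS
* [G3-A] `scaleStatement_sq`, `scaleStatement_bad` (Gauss valuation at `∞`, levels `N q²`, `N q`);
* [G3-C] helper5: value groups on inertia-fixed functions (`scale_fixI_infty`, `scale_fixI_zero`,
  `scale_fix_mid`, `scale_mid_indep`);
* [NORM-RED3] helper98: `normAlpha_expand`, `normBeta_expand`, `W₁ N_α = N_β W₂`;
* helper48: `embMid_atkinLehnerSq` (`W₂` permutes the middle cusps);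
* helper19: `scale3_vector` (integer lemma);
* the two HYPOTHESES of `scale3_of`:
  - `MidScaleStatement` : existence of a scaling at the middle cusp `1/q` for inertia-fixed
    functions ([G3-B]);
  - `UnitTable` : inertia-fixed `a, t` with Gauss valuations `(q, 1, 1)` and `(1, 1, q)` at
    (`∞`, `0`, middle) ([UNIT-TABLE]).

OUTPUT `scale3_of : MidScaleStatement → UnitTable → Scale3Statement n (q² - 1)` for every `n`.
-/
import Mathlib
import Fermat.Agent.T3.helper36_Gauss3A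
import Fermat.Agent.T3.helper36_RhoQStab
import Fermat.Agent.T3.helper5_Gauss3CMid
import Fermat.Agent.T3.helper5_Gauss3CZero
import Fermat.Agent.T3.helper19_Scale3Abs
import Fermat.Agent.T3.helper72_Interface3
import Fermat.Agent.T3.helper98_DgTable

set_option autoImplicit false
set_option linter.unusedSectionVars false
set_option linter.unusedVariables false
set_option linter.style.haveILetI false
set_option maxHeartbeats 400000

noncomputable section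

open HahnSeries IntermediateField AlgebraicCurve ModularCurve
open Fermat.Agent.S18.helper19 Fermat.Agent.P2.helper29 Fermat.Agent.P2.helper93
open Fermat.Agent.T2.helper36 Fermat.Agent.P3.helper94

namespace Fermat.Agent.T3.helper36

open Fermat.Agent.T3.helper74 (ex3 IsFixI midOne midOne_ne)
open Fermat.Agent.T3.helper87 (embMid MidIdx)
open Fermat.Agent.T3.helper48 (atkinLehnerSq)
open Fermat.Agent.T3.helper5 (IsGoodAt)

variable {A : ValuationSubring Kb}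

/-! ### From scalings to `GaussIs` -/

theorem gaussIs_of_scaling {f : LaurentSeries Kb} {c : Kb} (hc : c ≠ 0) {Z₁ Z₂ : LaurentSeries A}
    (h1 : red A Z₁ ≠ 0) (h2 : red A Z₂ ≠ 0)
    (e : algebraMap Kb (LaurentSeries Kb) c * incl A Z₁ = f * incl A Z₂) : GaussIs A f c := by
  refine ⟨hc, red A Z₁ / red A Z₂, div_ne_zero h1 h2, Z₁, Z₂, h2, ?_, by
    rw [div_mul_cancel₀ _ h2]⟩
  rw [mul_assoc, ← e, ← mul_assoc, ← map_mul, inv_mul_cancel₀ hc, map_one, one_mul]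

/-- value group at `∞` on inertia-fixed functions -/
theorem gaussIs_fix_infty {q : ℕ} (hq : q.Prime) (hA : A.LiesOverPrime q) {M : ℕ} [NeZero M]
    (hSc : ScaleStatement M A) {f : FF M} (hf0 : f ≠ 0) (hfix : IsFixI A M f) :
    ∃ m : ℤ, GaussIs A (f : LaurentSeries Kb) ((q : Kb) ^ m) := by
  obtain ⟨m, Z₁, Z₂, g₁, g₂, e, -, -⟩ :=
    Fermat.Agent.T3.helper5.scale_fixI_infty hq hA hSc hf0 (fun σ hσ => hfix σ hσ)
  have hq0 : ((q : Kb)) ^ m ≠ 0 := zpow_ne_zero _ (Nat.cast_ne_zero.mpr hq.ne_zero)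
  exact ⟨m, gaussIs_of_scaling hq0 g₁.2.2 g₂.2.2 e⟩

/-! ### Inertia-fixed roots -/

/-- if an inertia-fixed `X ≠ 0` is a constant times an `n`-th power, the root may be chosen
inertia-fixed. -/
theorem exists_fixed_root {M : ℕ} [NeZero M] {n : ℕ} {X : FF M} (hX : X ≠ 0)
    (hfix : IsFixI A M X) {c : Kb} {w : FF M} (e : X = algebraMap Kb (FF M) c * w ^ n) :
    ∃ (c' : Kb) (w' : FF M), c' ≠ 0 ∧ w' ≠ 0 ∧ IsFixI A M w' ∧
      X = algebraMap Kb (FF M) c' * w' ^ n := by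
  have hc : c ≠ 0 := by
    rintro rfl
    rw [map_zero, zero_mul] at e
    exact hX e
  by_cases hn : n = 0
  · subst hn
    refine ⟨c, 1, hc, one_ne_zero, ?_, by rw [e, pow_zero, pow_zero]⟩
    intro σ _
    exact map_one _
  have hw : w ≠ 0 := by
    rintro rfl
    rw [zero_pow hn, mul_zero] at e
    exact hX e
  set ℓ : Kb := Fermat.Agent.T3.helper58.lc M w with hℓ
  have hℓ0 : ℓ ≠ 0 := by
    intro h0
    apply hw
    apply Subtype.ext
    exact HahnSeries.leadingCoeff_eq_zero.mp h0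
  set w' : FF M := algebraMap Kb (FF M) ℓ⁻¹ * w with hw'
  have hlc : Fermat.Agent.T3.helper58.lc M w' = 1 := by
    rw [hw', Fermat.Agent.T3.helper58.lc_mul, Fermat.Agent.T3.helper58.lc_algebraMap, ← hℓ,
      inv_mul_cancel₀ hℓ0]
  have hw'0 : w' ≠ 0 := Fermat.Agent.T3.helper58.ne_zero_of_lc_eq_one hlc
  have e' : X = algebraMap Kb (FF M) (c * ℓ ^ n) * w' ^ n := by
    rw [e, hw', mul_pow, ← map_pow, ← mul_assoc, ← map_mul]
    congr 2
    rw [mul_assoc, ← mul_pow, mul_inv_cancel₀ hℓ0, one_pow, mul_one]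
  refine ⟨c * ℓ ^ n, w', mul_ne_zero hc (pow_ne_zero _ hℓ0), hw'0, ?_, e'⟩
  intro σ hσ
  have h1 : Fermat.Agent.T3.helper58.act M σ X = X := hfix σ hσ
  have h2 : Fermat.Agent.T3.helper58.act M σ X =
      algebraMap Kb (FF M) (σ (c * ℓ ^ n)) * (Fermat.Agent.T3.helper58.act M σ w') ^ n := by
    rw [e', map_mul, map_pow, Fermat.Agent.T3.helper58.act_algebraMap]
  have hlcσ : Fermat.Agent.T3.helper58.lc M (Fermat.Agent.T3.helper58.act M σ w') = 1 := by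
    rw [Fermat.Agent.T3.helper58.lc_act, hlc, map_one]
  -- compare leading coefficients
  have h3 : σ (c * ℓ ^ n) = c * ℓ ^ n := by
    have := congrArg (Fermat.Agent.T3.helper58.lc M) (h2.symm.trans (h1.trans e'))
    rw [Fermat.Agent.T3.helper58.lc_mul, Fermat.Agent.T3.helper58.lc_mul,
      Fermat.Agent.T3.helper58.lc_pow, Fermat.Agent.T3.helper58.lc_pow,
      Fermat.Agent.T3.helper58.lc_algebraMap, Fermat.Agent.T3.helper58.lc_algebraMap, hlcσ, hlc,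
      one_pow, mul_one, mul_one] at this
    exact this
  have h4 : algebraMap Kb (FF M) (c * ℓ ^ n) * (Fermat.Agent.T3.helper58.act M σ w') ^ n =
      algebraMap Kb (FF M) (c * ℓ ^ n) * w' ^ n := by
    calc algebraMap Kb (FF M) (c * ℓ ^ n) * (Fermat.Agent.T3.helper58.act M σ w') ^ n
        = algebraMap Kb (FF M) (σ (c * ℓ ^ n)) * (Fermat.Agent.T3.helper58.act M σ w') ^ n := by
          rw [h3]
      _ = Fermat.Agent.T3.helper58.act M σ X := h2.symm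
      _ = X := h1
      _ = _ := e'
  have hcl : algebraMap Kb (FF M) (c * ℓ ^ n) ≠ 0 :=
    (map_ne_zero _).mpr (mul_ne_zero hc (pow_ne_zero _ hℓ0))
  exact Fermat.Agent.T3.helper58.root_unique hn hcl h4 hlcσ hlc


/-! ### Exponents -/

/-- comparison of exponents in the value group -/
theorem exp_rel {Γ : Type*} [LinearOrderedCommGroupWithZero Γ] {γ : Γ} (hγ0 : 0 < γ)
    (hγ1 : γ ≠ 1) {vc : Γ} (hvc : vc ≠ 0) {x y a b : ℤ} {n : ℕ}
    (hx : γ ^ x = vc * (γ ^ a) ^ n) (hy : γ ^ y = vc * (γ ^ b) ^ n) :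
    x - y = n * (a - b) := by
  have hγ : γ ≠ 0 := hγ0.ne'
  have e1 : γ ^ (x - y) = γ ^ ((n : ℤ) * (a - b)) := by
    rw [zpow_sub₀ hγ, hx, hy, mul_sub, zpow_sub₀ hγ, mul_comm (n : ℤ) a, mul_comm (n : ℤ) b,
      zpow_mul, zpow_mul, zpow_natCast, zpow_natCast]
    field_simp
  exact (zpow_right_inj₀ hγ0 hγ1).mp e1

section Norms

variable {N q : ℕ} [NeZero N] [NeZero q] {hq : q.Prime} {hqN : ¬ q ∣ N}

/-- an inertia-fixed constant times an `n`-th power at level `N q`: the Gauss valuations at `∞`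
of `X` and of `W₁ X` are `v(c') + n ℤ v(q)` with the SAME constant `c'`. -/
theorem gaussIs_pow_pair (hA : A.LiesOverPrime q) {n : ℕ} {X : FF (N * q)} (hX : X ≠ 0)
    (hfix : IsFixI A (N * q) X)
    (hpow : ∃ (c : Kb) (w : FF (N * q)), X = algebraMap Kb (FF (N * q)) c * w ^ n) :
    ∃ (c' : Kb) (a₁ a₂ : ℤ), c' ≠ 0 ∧
      GaussIs A (X : LaurentSeries Kb) (c' * ((q : Kb) ^ a₁) ^ n) ∧
      GaussIs A ((atkinLehner N q hq hqN X : FF (N * q)) : LaurentSeries Kb)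
        (c' * ((q : Kb) ^ a₂) ^ n) := by
  obtain ⟨c, w, e⟩ := hpow
  obtain ⟨c', w', hc', hw', hwfix, e'⟩ := exists_fixed_root hX hfix e
  have hSc : ScaleStatement (N * q) A := scaleStatement_bad hq hqN A hA
  obtain ⟨a₁, h1⟩ := gaussIs_fix_infty hq hA hSc hw' hwfix
  have hWw' : atkinLehner N q hq hqN w' ≠ 0 := (map_ne_zero _).mpr hw'
  obtain ⟨a₂, h2⟩ := gaussIs_fix_infty hq hA hSc hWw'
    (Fermat.Agent.T3.helper98.isFixI_atkinLehner A hwfix)
  refine ⟨c', a₁, a₂, hc', ?_, ?_⟩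
  · have : (X : LaurentSeries Kb) = algebraMap Kb (LaurentSeries Kb) c' *
        (w' : LaurentSeries Kb) ^ n := by
      rw [e']
      rfl
    rw [this]
    exact (gaussIs_const hc').mul (h1.pow n)
  · have : ((atkinLehner N q hq hqN X : FF (N * q)) : LaurentSeries Kb) =
        algebraMap Kb (LaurentSeries Kb) c' *
          ((atkinLehner N q hq hqN w' : FF (N * q)) : LaurentSeries Kb) ^ n := by
      rw [e', map_mul, map_pow, AlgEquiv.commutes]
      rfl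
    rw [this]
    exact (gaussIs_const hc').mul (h2.pow n)

/-- the Gauss valuation of `N_α g` at `∞`. -/
theorem gaussIs_normAlpha {ζ : Kb} (hζ : IsPrimitiveRoot ζ q) {g : FF (N * q * q)} {c₁ c₃ : Kb}
    (h1 : GaussIs A (g : LaurentSeries Kb) c₁)
    (h3 : ∀ (k : Fin q) (hk : (k : ℕ) ≠ 0), GaussIs A (embMid N q hq hqN hζ k hk g) c₃) :
    GaussIs A ((normAlong (heckeAlphaBar Kb (N * q) q) g : FF (N * q)) : LaurentSeries Kb)
      (c₁ * c₃ ^ (q - 1)) := by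
  rw [Fermat.Agent.T3.helper98.normAlpha_expand hζ g]
  refine h1.mul ?_
  have := GaussIs.prod (A := A) (Finset.univ : Finset (MidIdx q))
    (f := fun k : MidIdx q => embMid N q hq hqN hζ k.1 k.2 g) (c := fun _ => c₃)
    (fun k _ => h3 k.1 k.2)
  rwa [Finset.prod_const, Finset.card_univ, Fermat.Agent.T3.helper98.card_midIdx' hq] at this

/-- the Gauss valuation of `(N_β g)(t^q)` at `∞`. -/
theorem gaussIs_normBeta (hq' : q.Prime) (hA : A.LiesOverPrime q) {ζ : Kb}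
    (hζ : IsPrimitiveRoot ζ q)
    {g : FF (N * q * q)} {c₁ : Kb} (h1 : GaussIs A (g : LaurentSeries Kb) c₁) :
    GaussIs A (ModularCurve.qExpand Kb q
      ((normAlong (heckeBetaBar Kb (N * q) q) g : FF (N * q)) : LaurentSeries Kb)) (c₁ ^ q) := by
  rw [Fermat.Agent.T3.helper98.normBeta_expand (N * q) q hq' (Dvd.intro_left N rfl) hζ g]
  exact h1.prod_twist hq' hA hζ.pow_eq_one

/-- the middle valuations of `W₂ h`. -/
theorem gaussIs_embMid_atkinLehnerSq (hA : A.LiesOverPrime q) {ζ : Kb}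
    (hζ : IsPrimitiveRoot ζ q) {h : FF (N * q * q)} {c₃ : Kb}
    (h3 : ∀ (k : Fin q) (hk : (k : ℕ) ≠ 0), GaussIs A (embMid N q hq hqN hζ k hk h) c₃)
    (k : Fin q) (hk : (k : ℕ) ≠ 0) :
    GaussIs A (embMid N q hq hqN hζ k hk (atkinLehnerSq N q hq hqN h)) c₃ := by
  obtain ⟨k', hk', hkk'⟩ := Fermat.Agent.T3.helper48.exists_opposite hζ k hk
  rw [Fermat.Agent.T3.helper48.embMid_atkinLehnerSq hζ k hk k' hk' hkk']
  exact (h3 k' hk').twist hq hA hζ.pow_eq_one (k : ℕ)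

end Norms


/-! ### The two hypotheses -/

section Statements

variable (N q : ℕ) [NeZero N] [NeZero q] (hq : q.Prime) (hqN : ¬ q ∣ N)
  (A : ValuationSubring Kb) {ζ : Kb} (hζ : IsPrimitiveRoot ζ q)

/-- **[G3-B]** existence of a scaling at the middle cusp `1/q` for inertia-fixed functions. -/
def MidScaleStatement : Prop :=
  ∀ f : FF (N * q * q), f ≠ 0 → IsFixI A (N * q * q) f →
    ∃ (c : Kb) (Y₁ Y₂ : LaurentSeries A), c ≠ 0 ∧
      IsGoodAt A (embMid N q hq hqN hζ (midOne q hq) (midOne_ne q hq) :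
        FF (N * q * q) →+* LaurentSeries Kb) Y₁ ∧
      IsGoodAt A (embMid N q hq hqN hζ (midOne q hq) (midOne_ne q hq) :
        FF (N * q * q) →+* LaurentSeries Kb) Y₂ ∧
      algebraMap Kb (LaurentSeries Kb) c * incl A Y₁
        = embMid N q hq hqN hζ (midOne q hq) (midOne_ne q hq) f * incl A Y₂

/-- **[UNIT-TABLE]** inertia-fixed functions `a`, `t` with Gauss valuations `(v(q), 0, 0)` and
`(0, 0, v(q))` at the cusps (`∞`, `0`, `1/q`). -/
def UnitTable : Prop :=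
  ∃ a t : FF (N * q * q), a ≠ 0 ∧ t ≠ 0 ∧ IsFixI A (N * q * q) a ∧ IsFixI A (N * q * q) t ∧
    GaussIs A (ex3 N q hq hqN hζ 0 a) (q : Kb) ∧ GaussIs A (ex3 N q hq hqN hζ 1 a) 1 ∧
    GaussIs A (ex3 N q hq hqN hζ 2 a) 1 ∧
    GaussIs A (ex3 N q hq hqN hζ 0 t) 1 ∧ GaussIs A (ex3 N q hq hqN hζ 1 t) 1 ∧
    GaussIs A (ex3 N q hq hqN hζ 2 t) (q : Kb)

end Statements

section Main

variable {N q : ℕ} [NeZero N] [NeZero q] {hq : q.Prime} {hqN : ¬ q ∣ N}

/-- the middle valuations of an inertia-fixed function: one exponent for all middle cusps. -/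
theorem gaussIs_mid_all (hA : A.LiesOverPrime q) {ζ : Kb} (hζ : IsPrimitiveRoot ζ q)
    (Hmid : MidScaleStatement N q hq hqN A hζ) {h : FF (N * q * q)} (hh0 : h ≠ 0)
    (hfix : IsFixI A (N * q * q) h) :
    ∃ e₃ : ℤ, ∀ (k : Fin q) (hk : (k : ℕ) ≠ 0),
      GaussIs A (embMid N q hq hqN hζ k hk h) ((1 - ζ) ^ e₃) := by
  obtain ⟨c, Y₁, Y₂, hc, g₁, g₂, e⟩ := Hmid h hh0 hfix
  have hfix' : ∀ σ ∈ A.inertiaSubgroupIn ℚ, galF (N * q * q) σ h = h := fun σ hσ => hfix σ hσ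
  obtain ⟨m, Z₁, Z₂, gZ₁, gZ₂, eZ, -, -⟩ :=
    Fermat.Agent.T3.helper5.scale_fix_mid hA hζ (midOne q hq) (midOne_ne q hq) hfix' hc g₁ g₂ e
  have hζ1 : (1 : Kb) - ζ ≠ 0 := by
    rw [sub_ne_zero]
    exact fun h1 => hζ.ne_one hq.one_lt h1.symm
  have hπ : ((1 : Kb) - ζ) ^ m ≠ 0 := zpow_ne_zero _ hζ1
  refine ⟨m, fun k hk => ?_⟩
  obtain ⟨c', W₁, W₂, hv, gW₁, gW₂, -, -, eW⟩ :=
    Fermat.Agent.T3.helper5.scale_mid_indep hA hζ (midOne q hq) k (midOne_ne q hq) hk hfix'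
      gZ₁ gZ₂ eZ
  have hc' : c' ≠ 0 := by
    rintro rfl
    rw [map_zero] at hv
    exact hπ ((map_eq_zero _).mp hv.symm)
  exact (gaussIs_of_scaling hc' gW₁.2 gW₂.2 eW).congr_val hπ hv

theorem valuation_q_pos (hq' : q.Prime) : (0 : A.ValueGroup) < A.valuation (q : Kb) := by
  rw [zero_lt_iff, Valuation.ne_zero_iff]
  exact Nat.cast_ne_zero.mpr hq'.ne_zero

theorem valuation_q_ne_one (hA : A.LiesOverPrime q) : A.valuation (q : Kb) ≠ 1 :=
  ne_of_lt (A.mem_nonunits_iff.mp hA)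

/-- `(v(1 - ζ)^e)^(q - 1) = v(q)^e` -/
theorem valuation_zeta_zpow (hq' : q.Prime) {ζ : Kb} (hζ : IsPrimitiveRoot ζ q) (e : ℤ) :
    (A.valuation (1 - ζ) ^ e) ^ (q - 1) = A.valuation (q : Kb) ^ e := by
  rw [← zpow_natCast, ← zpow_mul, mul_comm, zpow_mul, zpow_natCast,
    Fermat.Agent.T3.helper84.k0_zeta_val hq' A hζ]

/-- **the two norm congruences.** -/
theorem norm_congr (hA : A.LiesOverPrime q) {ζ : Kb} (hζ : IsPrimitiveRoot ζ q) {n : ℕ}
    {h : FF (N * q * q)} (hfix : IsFixI A (N * q * q) h)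
    (hnorm : Fermat.Agent.T3.helper72.NormPow N q n h) {m₁ m₂ e₃ : ℤ}
    (h1 : GaussIs A (h : LaurentSeries Kb) ((q : Kb) ^ m₁))
    (h2 : GaussIs A ((atkinLehnerSq N q hq hqN h : FF (N * q * q)) : LaurentSeries Kb)
      ((q : Kb) ^ m₂))
    (h3 : ∀ (k : Fin q) (hk : (k : ℕ) ≠ 0),
      GaussIs A (embMid N q hq hqN hζ k hk h) ((1 - ζ) ^ e₃)) :
    (n : ℤ) ∣ m₁ + e₃ - q * m₂ ∧ (n : ℤ) ∣ q * m₁ - m₂ - e₃ := by
  have hγ0 := valuation_q_pos (A := A) hq
  have hγ1 := valuation_q_ne_one hA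
  have h3W := gaussIs_embMid_atkinLehnerSq hA hζ h3
  obtain ⟨hα, hβ⟩ := hnorm
  constructor
  · -- the norm along `α`
    have g1 := gaussIs_normAlpha hζ h1 h3
    have g2 := gaussIs_normBeta hq hA hζ h2
    rw [← Fermat.Agent.T3.helper98.atkinLehner_normAlpha (hq := hq) (hqN := hqN) h] at g2
    have hX : normAlong (heckeAlphaBar Kb (N * q) q) h ≠ 0 := by
      intro h0
      apply g1.ne_zero
      rw [h0]
      rfl
    obtain ⟨c', a₁, a₂, hc', k1, k2⟩ := gaussIs_pow_pair (hq := hq) (hqN := hqN) hA hX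
      (Fermat.Agent.T3.helper98.isFixI_normAlpha A (N * q) hfix) hα
    have v1 := g1.valuation_eq k1
    have v2 := g2.valuation_eq (k2.qExpand q)
    simp only [map_mul, map_pow, map_zpow₀] at v1 v2
    rw [valuation_zeta_zpow hq hζ, ← zpow_add₀ hγ0.ne'] at v1
    rw [← zpow_natCast (A.valuation (q : Kb) ^ m₂), ← zpow_mul] at v2
    have := exp_rel hγ0 hγ1 ((Valuation.ne_zero_iff _).mpr hc') v1 v2
    exact ⟨a₁ - a₂, by rw [← this]; ring⟩
  · -- the norm along `β`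
    have g1 := gaussIs_normBeta hq hA hζ h1
    have g2 := gaussIs_normAlpha hζ h2 h3W
    rw [← Fermat.Agent.T3.helper98.atkinLehner_normBeta (hq := hq) (hqN := hqN) h] at g2
    have hX : normAlong (heckeBetaBar Kb (N * q) q) h ≠ 0 := by
      intro h0
      apply g1.ne_zero
      rw [h0]
      exact map_zero _
    obtain ⟨c', b₁, b₂, hc', k1, k2⟩ := gaussIs_pow_pair (hq := hq) (hqN := hqN) hA hX
      (Fermat.Agent.T3.helper98.isFixI_normBeta A (N * q) hfix) hβ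
    have v1 := g1.valuation_eq (k1.qExpand q)
    have v2 := g2.valuation_eq k2
    simp only [map_mul, map_pow, map_zpow₀] at v1 v2
    rw [valuation_zeta_zpow hq hζ, ← zpow_add₀ hγ0.ne'] at v2
    rw [← zpow_natCast (A.valuation (q : Kb) ^ m₁), ← zpow_mul] at v1
    have := exp_rel hγ0 hγ1 ((Valuation.ne_zero_iff _).mpr hc') v1 v2
    exact ⟨b₁ - b₂, by rw [← this]; ring⟩


theorem isFixI_zpow {M : ℕ} {f : FF M} (hf : IsFixI A M f) (z : ℤ) : IsFixI A M (f ^ z) := by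
  intro σ hσ
  rw [map_zpow₀, hf σ hσ]

theorem ex3_algebraMap {ζ : Kb} (hζ : IsPrimitiveRoot ζ q) (j : Fin 3) (c : Kb) :
    ex3 N q hq hqN hζ j (algebraMap Kb (FF (N * q * q)) c) =
      algebraMap Kb (LaurentSeries Kb) c := by
  fin_cases j
  · exact Fermat.Agent.T3.helper98.ex3_zero hζ _
  · show ex3 N q hq hqN hζ 1 _ = _
    rw [Fermat.Agent.T3.helper98.ex3_one hζ, AlgEquiv.commutes]
    rfl
  · show ex3 N q hq hqN hζ 2 _ = _
    rw [Fermat.Agent.T3.helper98.ex3_two hζ, AlgHom.commutes]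

/-- the Gauss valuation of `c (a^i t^l)^n h^C` under an expansion `E`. -/
theorem gaussIs_combo {M : ℕ} (E : FF M →+* LaurentSeries Kb)
    (hE : ∀ c : Kb, E (algebraMap Kb (FF M) c) = algebraMap Kb (LaurentSeries Kb) c)
    {a t h : FF M} {c ca ct ch : Kb} (hc : c ≠ 0) (i l : ℤ) (n C : ℕ)
    (ka : GaussIs A (E a) ca) (kt : GaussIs A (E t) ct) (kh : GaussIs A (E h) ch) :
    GaussIs A (E (algebraMap Kb (FF M) c * (a ^ i * t ^ l) ^ n * h ^ C))
      (c * (ca ^ i * ct ^ l) ^ n * ch ^ C) := by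
  have e : E (algebraMap Kb (FF M) c * (a ^ i * t ^ l) ^ n * h ^ C) =
      algebraMap Kb (LaurentSeries Kb) c * (E a ^ i * E t ^ l) ^ n * E h ^ C := by
    rw [map_mul, map_mul, map_pow, map_pow, hE, map_mul, map_zpow₀, map_zpow₀]
  rw [e]
  exact ((gaussIs_const hc).mul (((ka.zpow i).mul (kt.zpow l)).pow n)).mul (kh.pow C)

theorem natCast_sq_sub_one (hq' : q.Prime) : ((q ^ 2 - 1 : ℕ) : ℤ) = (q : ℤ) ^ 2 - 1 := by
  rw [Nat.cast_sub (Nat.one_le_pow _ _ hq'.pos)]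
  push_cast
  ring

theorem natCast_sub_one (hq' : q.Prime) : ((q - 1 : ℕ) : ℤ) = (q : ℤ) - 1 := by
  rw [Nat.cast_sub hq'.one_le]
  push_cast
  ring

/-- the constant at the cusp `∞` -/
theorem const_infty (hq' : q.Prime) {n : ℕ} {m i l m₁ : ℤ}
    (E1 : ((q : ℤ) ^ 2 - 1) * m₁ = m + n * i) :
    (q : Kb) ^ (-m) * ((q : Kb) ^ (-i) * (1 : Kb) ^ (-l)) ^ n *
        ((q : Kb) ^ m₁) ^ (q ^ 2 - 1) = 1 := by
  have hq0 : (q : Kb) ≠ 0 := Nat.cast_ne_zero.mpr hq'.ne_zero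
  rw [one_zpow, mul_one, ← zpow_natCast ((q : Kb) ^ (-i)) n, ← zpow_mul,
    ← zpow_natCast ((q : Kb) ^ m₁) (q ^ 2 - 1), ← zpow_mul, ← zpow_add₀ hq0,
    ← zpow_add₀ hq0, natCast_sq_sub_one hq']
  have : -m + -i * (n : ℤ) + m₁ * ((q : ℤ) ^ 2 - 1) = 0 := by linear_combination E1
  rw [this, zpow_zero]

/-- the constant at the cusp `0` -/
theorem const_zero (hq' : q.Prime) {n : ℕ} {m i l m₂ : ℤ}
    (E2 : ((q : ℤ) ^ 2 - 1) * m₂ = m) :
    (q : Kb) ^ (-m) * ((1 : Kb) ^ (-i) * (1 : Kb) ^ (-l)) ^ n *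
        ((q : Kb) ^ m₂) ^ (q ^ 2 - 1) = 1 := by
  have hq0 : (q : Kb) ≠ 0 := Nat.cast_ne_zero.mpr hq'.ne_zero
  rw [one_zpow, one_zpow, mul_one, one_pow, mul_one,
    ← zpow_natCast ((q : Kb) ^ m₂) (q ^ 2 - 1), ← zpow_mul, ← zpow_add₀ hq0,
    natCast_sq_sub_one hq']
  have : -m + m₂ * ((q : ℤ) ^ 2 - 1) = 0 := by linear_combination E2
  rw [this, zpow_zero]

/-- the valuation of the constant at the middle cusp -/
theorem const_mid (hq' : q.Prime) {ζ : Kb} (hζ : IsPrimitiveRoot ζ q) {n : ℕ} {m i l e₃ : ℤ}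
    (E3 : ((q : ℤ) ^ 2 - 1) * e₃ = m * ((q : ℤ) - 1) + n * (l * ((q : ℤ) - 1))) :
    A.valuation ((q : Kb) ^ (-m) * ((1 : Kb) ^ (-i) * (q : Kb) ^ (-l)) ^ n *
        ((1 - ζ) ^ e₃) ^ (q ^ 2 - 1)) = 1 := by
  have hζ1 : (1 : Kb) - ζ ≠ 0 := by
    rw [sub_ne_zero]
    exact fun h1 => hζ.ne_one hq'.one_lt h1.symm
  have hγ : A.valuation ((1 : Kb) - ζ) ≠ 0 := (Valuation.ne_zero_iff _).mpr hζ1
  simp only [map_mul, map_pow, map_zpow₀, map_one, one_zpow, one_mul]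
  rw [← Fermat.Agent.T3.helper84.k0_zeta_val hq' A hζ,
    ← zpow_natCast (A.valuation (1 - ζ)) (q - 1),
    ← zpow_mul, ← zpow_mul, ← zpow_natCast _ n, ← zpow_mul,
    ← zpow_natCast (A.valuation (1 - ζ) ^ e₃) (q ^ 2 - 1), ← zpow_mul, ← zpow_add₀ hγ,
    ← zpow_add₀ hγ, natCast_sq_sub_one hq', natCast_sub_one hq']
  have : ((q : ℤ) - 1) * -m + ((q : ℤ) - 1) * -l * (n : ℤ) + e₃ * ((q : ℤ) ^ 2 - 1) = 0 := by
    linear_combination E3
  rw [this, zpow_zero]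

/-- **[SCALE3]** `helper72.Scale3Statement` with the constant `q² - 1`, from the existence of a
scaling at the middle cusp and the unit table. -/
theorem scale3_of (hA : A.LiesOverPrime q) {ζ : Kb} (hζ : IsPrimitiveRoot ζ q)
    (Hmid : MidScaleStatement N q hq hqN A hζ) (HU : UnitTable N q hq hqN A hζ) (n : ℕ) :
    Fermat.Agent.T3.helper72.Scale3Statement N q hq hqN A hζ n (q ^ 2 - 1) := by
  intro h hh0 hfix _ hnorm
  have hSc : ScaleStatement (N * q * q) A := scaleStatement_sq hq hqN A hA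
  obtain ⟨m₁, h1⟩ := gaussIs_fix_infty hq hA hSc hh0 hfix
  have hW0 : atkinLehnerSq N q hq hqN h ≠ 0 := (map_ne_zero _).mpr hh0
  obtain ⟨m₂, h2⟩ := gaussIs_fix_infty hq hA hSc hW0
    (Fermat.Agent.T3.helper98.isFixI_atkinLehnerSq A hfix)
  obtain ⟨e₃, h3⟩ := gaussIs_mid_all hA hζ Hmid hh0 hfix
  obtain ⟨c1, c2⟩ := norm_congr hA hζ hfix hnorm h1 h2 h3
  obtain ⟨i, l, m, E1, E3, E2⟩ :=
    Fermat.Agent.T3.helper19.scale3_vector (q : ℤ) (n : ℤ) m₁ e₃ m₂ c1 c2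
  obtain ⟨a, t, ha0, ht0, haF, htF, a0, a1, a2, t0, t1, t2⟩ := HU
  have hq0 : (q : Kb) ≠ 0 := Nat.cast_ne_zero.mpr hq.ne_zero
  have hc0 : (q : Kb) ^ (-m) ≠ 0 := zpow_ne_zero _ hq0
  have hE : ∀ (j : Fin 3) (c : Kb), ex3 N q hq hqN hζ j (algebraMap Kb (FF (N * q * q)) c) =
      algebraMap Kb (LaurentSeries Kb) c := fun j c => ex3_algebraMap hζ j c
  have g0 : GaussIs A (ex3 N q hq hqN hζ 0 h) ((q : Kb) ^ m₁) := by
    rw [Fermat.Agent.T3.helper98.ex3_zero hζ]; exact h1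
  have g1 : GaussIs A (ex3 N q hq hqN hζ 1 h) ((q : Kb) ^ m₂) := by
    rw [Fermat.Agent.T3.helper98.ex3_one hζ]; exact h2
  have g2 : GaussIs A (ex3 N q hq hqN hζ 2 h) ((1 - ζ) ^ e₃) := by
    rw [Fermat.Agent.T3.helper98.ex3_two hζ]; exact h3 (midOne q hq) (midOne_ne q hq)
  have k0 := gaussIs_combo (ex3 N q hq hqN hζ 0) (hE 0) hc0 (-i) (-l) n (q ^ 2 - 1) a0 t0 g0
  have k1 := gaussIs_combo (ex3 N q hq hqN hζ 1) (hE 1) hc0 (-i) (-l) n (q ^ 2 - 1) a1 t1 g1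
  have k2 := gaussIs_combo (ex3 N q hq hqN hζ 2) (hE 2) hc0 (-i) (-l) n (q ^ 2 - 1) a2 t2 g2
  rw [const_infty hq E1] at k0
  rw [const_zero hq E2] at k1
  have r0 := k0.rhoQ_one
  have r1 := k1.rhoQ_one
  have r2 := k2.rhoQ_of_valuation_eq_one (const_mid hq hζ E3)
  have all : ∀ j : Fin 3, ∃ r : LaurentSeries (kA A), r ≠ 0 ∧ RhoQ A (ex3 N q hq hqN hζ j
      (algebraMap Kb (FF (N * q * q)) ((q : Kb) ^ (-m)) * (a ^ (-i) * t ^ (-l)) ^ n *
        h ^ (q ^ 2 - 1))) r := by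
    intro j
    fin_cases j
    · exact r0
    · exact r1
    · exact r2
  choose X hX0 hXR using all
  refine ⟨a ^ (-i) * t ^ (-l), (q : Kb) ^ (-m), X,
    mul_ne_zero (zpow_ne_zero _ ha0) (zpow_ne_zero _ ht0), hc0,
    Fermat.Agent.T3.helper98.isFixI_mul A (isFixI_zpow haF _) (isFixI_zpow htF _), ?_, hX0,
    fun j => hXR j⟩
  intro σ _
  rw [map_zpow₀, map_natCast]

end Main

end Fermat.Agent.T3.helper36

end
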