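import Mathlib
import Fermat.Agent.T3.helper58_MidSeries
import Fermat.Agent.T3.helper5_Gauss3CMid
import Fermat.Agent.T3.helper5_Gauss3CZero
import Fermat.Agent.T3.helper36_RhoQ

/-!
# T3 / [G3-B] (helper58): the Gauss valuation at the middle cusps on inertia-fixed functions

`q` a prime, `q ∤ N`, `A` a valuation subring of `ℚ̄` over `q`, `ζ` a primitive `q`-th root of
unity, `E_k = embMid k` the expansion of `F_{Nqq}` at the middle cusp `k ≠ 0`,
`θ j̄ = thetaL (jqModC (kA A))`.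

MAIN RESULTS (for `f ≠ 0` fixed by the inertia group of `A`)
* `midRep` / `exists_scale_mid` : `(ζ^k - 1)^M · Y₁ = E_k f · Y₂` with `M : ℤ`, `Y₁, Y₂` integral
  series which are middle expansions of functions, `red Y_i ≠ 0`, and
  `red Y₁ = x · (θ j̄)^M · red Y₂` with `x ∈ F̃_N`, `x ≠ 0`;
* `gaussIs_mid` : `∃ M : ℤ, GaussIs A (E_k f) ((ζ^k - 1)^M)` (helper36 vocabulary);
* `red_class_mid` : EVERY Gauss representation `(ζ^k - 1)^M' · Z₁ = E_k f · Z₂` has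
  `red Z₁ = x · (θ j̄)^M' · red Z₂` with `x ∈ F̃_N`;
* `rhoQ_mid_mem` : `RhoQ A (E_k f) r → r ∈ F̃_N` (**the residue field of `w₃` on the `I`-fixed
  functions is `F̃_N`**);
* `red3_two_mem` : the same for `helper74.ex3 … 2` (`= helper72.Red3 … 2`).

PROOF.  `f = ∑_{i<q} α(a_i) π^i`, `π = j(q²τ) - j(τ)`, `a_i` fixed by `I` (MidBasis);
`w₁(a_i) ∈ ℤ v(q)` (helper5 [G3-C] at level `N q`), `w₃(π) = v(ζ - 1) = v(q)/(q-1)`; the values
`w₃(α(a_i) π^i)` are pairwise distinct except for a possible tie between `i = 0` and `i = q - 1`,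
in which case `w₁(f) < w₃(f)`; this cannot happen for `f` and `f⁻¹` (MidCore).
-/

set_option autoImplicit false
set_option linter.unusedSectionVars false
set_option linter.unusedVariables false
set_option linter.style.haveILetI false
set_option synthInstance.maxHeartbeats 400000

noncomputable section

open HahnSeries IntermediateField AlgebraicCurve ModularCurve
open Fermat.Agent.S18.helper19 Fermat.Agent.P2.helper29
open Fermat.Agent.P2.helper93 (twistL twistL_coeff galF coe_galF)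
open Fermat.Agent.T3.helper87
open Fermat.Agent.T3.helper67 (thetaL thetaL_coeff)
open Fermat.Agent.T3.helper5 (IsGoodAt)
open Fermat.Agent.T3.helper36 (RhoQ GaussIs)
open Fermat.Agent.T2.helper58 (isGood_prod incl_injective scaleStatement_bad)

namespace Fermat.Agent.T3.helper58

/-! ### Scaling the coordinates -/

section Coord

variable {N q : ℕ} [NeZero N] [NeZero q] (hq : q.Prime) (hqN : ¬ q ∣ N)
  (A : ValuationSubring Kb) (hA : A.LiesOverPrime q)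

include hq hqN hA in
/-- [G3-C] at level `N q`, total form -/
theorem exists_coord_scale (a : FF (N * q))
    (hfix : ∀ σ ∈ A.inertiaSubgroupIn ℚ, galF (N * q) σ a = a) :
    ∃ (m : ℤ) (Z₁ Z₂ : LaurentSeries A), IsGood A (N * q) Z₂ ∧
      (Z₁ = 0 ∨ IsGood A (N * q) Z₁) ∧ (a ≠ 0 → Z₁ ≠ 0) ∧
      (a : LaurentSeries Kb) * incl A Z₂ = cst (((q : ℕ) : Kb) ^ m) * incl A Z₁ := by
  by_cases ha : a = 0
  · refine ⟨0, 0, 1, isGood_one, Or.inl rfl, fun h => absurd ha h, ?_⟩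
    rw [ha, map_zero, mul_zero]
    show (0 : LaurentSeries Kb) * _ = 0
    rw [zero_mul]
  · obtain ⟨m, Z₁, Z₂, g₁, g₂, e, -, -⟩ :=
      Fermat.Agent.T3.helper5.scale_fixI_infty hq hA (scaleStatement_bad N q hq hqN A hA) ha hfix
    refine ⟨m, Z₁, Z₂, g₂, Or.inr g₁, fun _ h0 => ?_, e.symm⟩
    exact g₁.2.2 (by rw [h0, map_zero])

include hq hqN hA in
/-- a common denominator for a finite family of inertia-fixed functions of level `N q` -/
theorem exists_common_den {n : ℕ} (a : Fin n → FF (N * q))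
    (hfix : ∀ i, ∀ σ ∈ A.inertiaSubgroupIn ℚ, galF (N * q) σ (a i) = a i)
    (hne : ∃ i, a i ≠ 0) :
    ∃ (D : LaurentSeries A) (Y : Fin n → LaurentSeries A) (m : Fin n → ℤ),
      IsGood A (N * q) D ∧ (∀ i, Y i = 0 ∨ IsGood A (N * q) (Y i)) ∧ (∃ i, Y i ≠ 0) ∧
      ∀ i, (a i : LaurentSeries Kb) * incl A D
        = cst (((q : ℕ) : Kb) ^ m i) * incl A (Y i) := by
  classical
  choose m Z₁ Z₂ h₂ h₁ h0 he using fun i => exists_coord_scale hq hqN A hA (a i) (hfix i)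
  refine ⟨∏ i, Z₂ i, fun i => Z₁ i * ∏ j ∈ Finset.univ.erase i, Z₂ j, m, ?_, ?_, ?_, ?_⟩
  · exact isGood_prod _ _ fun i _ => h₂ i
  · intro i
    rcases h₁ i with h | h
    · left
      show Z₁ i * _ = 0
      rw [h, zero_mul]
    · right
      exact h.mul (isGood_prod _ _ fun j _ => h₂ j)
  · obtain ⟨i, hi⟩ := hne
    refine ⟨i, fun h => ?_⟩
    have hg : IsGood A (N * q) (Z₁ i) := (h₁ i).resolve_left (h0 i hi)
    have hg' := hg.mul (isGood_prod (Finset.univ.erase i) Z₂ fun j _ => h₂ j)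
    have h' : Z₁ i * ∏ j ∈ Finset.univ.erase i, Z₂ j = 0 := h
    exact hg'.2.2 (by rw [h', map_zero])
  · intro i
    rw [← Finset.mul_prod_erase Finset.univ Z₂ (Finset.mem_univ i), map_mul, ← mul_assoc, he i,
      map_mul, mul_assoc]

end Coord

/-! ### The representation at the middle cusp -/

section Main

variable {N q : ℕ} [NeZero N] [NeZero q]

/-- **explicit Gauss representation at the middle cusp `k`**:
`(ζ^k - 1)^M · Y₁ = E_k f · Y₂`, `red Y₁ = x · (θ j̄)^M · red Y₂`, `x ∈ F̃_N`. -/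
def MidRep (hq : q.Prime) (hqN : ¬ q ∣ N) (A : ValuationSubring Kb) {ζ : Kb}
    (hζ : IsPrimitiveRoot ζ q) (k : Fin q) (hk : (k : ℕ) ≠ 0) (f : FF (N * q * q)) : Prop :=
  ∃ (M : ℤ) (Y₁ Y₂ : LaurentSeries A) (x : LaurentSeries (kA A)),
    IsGoodAt A (embMid N q hq hqN hζ k hk : FF (N * q * q) →+* LaurentSeries Kb) Y₁ ∧
    IsGoodAt A (embMid N q hq hqN hζ k hk : FF (N * q * q) →+* LaurentSeries Kb) Y₂ ∧
    x ∈ FFb A N ∧ x ≠ 0 ∧
    cst ((ζ ^ (k : ℕ) - 1) ^ M) * incl A Y₁ = embMid N q hq hqN hζ k hk f * incl A Y₂ ∧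
    red A Y₁ = x * thetaL (jqModC (kA A)) ^ M * red A Y₂

variable {hq : q.Prime} {hqN : ¬ q ∣ N} {A : ValuationSubring Kb}

theorem pow_prim {ζ : Kb} (hq : q.Prime) (hζ : IsPrimitiveRoot ζ q) (k : Fin q)
    (hk : (k : ℕ) ≠ 0) : IsPrimitiveRoot (ζ ^ (k : ℕ)) q := by
  apply hζ.pow_of_coprime
  rw [Nat.coprime_comm]
  apply (Nat.Prime.coprime_iff_not_dvd hq).mpr
  intro hdvd
  exact hk (Nat.eq_zero_of_dvd_of_lt hdvd k.2)

/-- the inverse of a representation -/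
theorem MidRep.inv {ζ : Kb} {hζ : IsPrimitiveRoot ζ q} {k : Fin q} {hk : (k : ℕ) ≠ 0}
    {f : FF (N * q * q)} (hf0 : f ≠ 0) (h : MidRep hq hqN A hζ k hk f⁻¹) :
    MidRep hq hqN A hζ k hk f := by
  obtain ⟨M, Y₁, Y₂, x, g₁, g₂, hx, hx0, e, hred⟩ := h
  have hl0 : ζ ^ (k : ℕ) - 1 ≠ 0 := sub_ne_zero.mpr ((pow_prim hq hζ k hk).ne_one hq.one_lt)
  have hθ : thetaL (jqModC (kA A)) ≠ 0 := thetaL_jqModC_ne_zero A
  refine ⟨-M, Y₂, Y₁, x⁻¹, g₂, g₁, inv_mem hx, inv_ne_zero hx0, ?_, ?_⟩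
  · have h1 : embMid N q hq hqN hζ k hk f * embMid N q hq hqN hζ k hk f⁻¹ = 1 := by
      rw [← map_mul, mul_inv_cancel₀ hf0, map_one]
    have h2 : embMid N q hq hqN hζ k hk f * (cst ((ζ ^ (k : ℕ) - 1) ^ M) * incl A Y₁)
        = incl A Y₂ := by
      rw [e, ← mul_assoc, h1, one_mul]
    rw [← h2, zpow_neg]
    have h3 : cst ((ζ ^ (k : ℕ) - 1) ^ M)⁻¹ * cst ((ζ ^ (k : ℕ) - 1) ^ M) = 1 := by
      rw [← cst_mul, inv_mul_cancel₀ (zpow_ne_zero _ hl0)]
      exact map_one _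
    calc cst ((ζ ^ (k : ℕ) - 1) ^ M)⁻¹ *
          (embMid N q hq hqN hζ k hk f * (cst ((ζ ^ (k : ℕ) - 1) ^ M) * incl A Y₁))
        = (cst ((ζ ^ (k : ℕ) - 1) ^ M)⁻¹ * cst ((ζ ^ (k : ℕ) - 1) ^ M)) *
          (embMid N q hq hqN hζ k hk f * incl A Y₁) := by ring
      _ = embMid N q hq hqN hζ k hk f * incl A Y₁ := by rw [h3, one_mul]
  · rw [hred, zpow_neg]
    field_simp

end Main

/-! ### The dichotomy -/

section Dich

variable {N q : ℕ} [NeZero N] [NeZero q]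

/-- **the dichotomy for one function**: either `f` has an explicit Gauss representation at the
middle cusp, or `w₁(f) = m₀ v(q)` and `w₃(f) ≥ (m₀ + 1) v(q)`. -/
theorem midRep_or_tie (hq : q.Prime) (hqN : ¬ q ∣ N) (A : ValuationSubring Kb)
    (hA : A.LiesOverPrime q) {ζ : Kb} (hζ : IsPrimitiveRoot ζ q) (k : Fin q) (hk : (k : ℕ) ≠ 0)
    {f : FF (N * q * q)} (hf0 : f ≠ 0)
    (hfix : ∀ σ ∈ A.inertiaSubgroupIn ℚ, galF (N * q * q) σ f = f) :
    MidRep hq hqN A hζ k hk f ∨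
    ∃ (m₀ : ℤ) (D N₁ N₃ : LaurentSeries A), red A D ≠ 0 ∧ red A N₁ ≠ 0 ∧
      (f : LaurentSeries Kb) * incl A D = cst (((q : ℕ) : Kb) ^ m₀) * incl A N₁ ∧
      embMid N q hq hqN hζ k hk f * incl A D
        = cst (((q : ℕ) : Kb) ^ (m₀ + 1)) * incl A N₃ := by
  classical
  obtain ⟨r, rfl⟩ : ∃ r, q = r + 1 := ⟨q - 1, by have := hq.pos; omega⟩
  have hr : 0 < r := by have := hq.one_lt; omega
  have hμ := pow_prim hq hζ k hk
  obtain ⟨a, hfa⟩ := exists_repr_piE hq hqN f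
  have hafix : ∀ i, ∀ σ ∈ A.inertiaSubgroupIn ℚ, galF (N * (r + 1)) σ (a i) = a i :=
    fun i σ hσ => repr_piE_fixed hq hqN hfa (hfix σ hσ) i
  have hane : ∃ i, a i ≠ 0 := by
    by_contra hcon
    rw [not_exists] at hcon
    apply hf0
    rw [hfa]
    refine Finset.sum_eq_zero fun i _ => ?_
    rw [not_not.1 (hcon i), map_zero, zero_mul]
  obtain ⟨D, Y, m, hD, hY, hYne, hrel⟩ := exists_common_den hq hqN A hA a hafix hane
  obtain ⟨lam, u, hlam, hlamres, hlam0, hu, hqu⟩ := exists_scalars hq A hA hμ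
  rw [Nat.add_sub_cancel] at hqu
  have hθ : thetaL (jqModC (kA A)) ≠ 0 := thetaL_jqModC_ne_zero A
  -- the two expansions of `f`
  have hexp1 : (f : LaurentSeries Kb) = ∑ i : Fin (r + 1),
      ((a i : FF (N * (r + 1))) : LaurentSeries Kb) * incl A (P1 (r + 1) A) ^ (i : ℕ) := by
    have h1 := congrArg (Fermat.Agent.T2.helper87.coeHom (N * (r + 1) * (r + 1))) hfa
    rw [map_sum, Fermat.Agent.T2.helper87.coeHom_apply] at h1
    rw [h1]
    refine Finset.sum_congr rfl fun i _ => ?_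
    rw [map_mul, map_pow, Fermat.Agent.T2.helper87.coeHom_apply,
      Fermat.Agent.T2.helper87.coeHom_apply, coe_heckeAlphaBar, coe_piE, incl_P1]
  have hexp3 : embMid N (r + 1) hq hqN hζ k hk f = ∑ i : Fin (r + 1),
      ((a i : FF (N * (r + 1))) : LaurentSeries Kb) *
        (cst (lam : Kb) * incl A (ThetaM hq A hμ)) ^ (i : ℕ) := by
    conv_lhs => rw [hfa]
    rw [map_sum]
    refine Finset.sum_congr rfl fun i _ => ?_
    rw [map_mul, map_pow, embMid_alpha, embMid_piE, hlam, incl_ThetaM]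
  have hres := unique_or_tie hr hu hlamres hlam0 hqu (P₁ := P1 (r + 1) A)
    (Θ := ThetaM hq A hμ) (D := D) (red_P1_ne_zero A hq)
    (fun i => ((a i : FF (N * (r + 1))) : LaurentSeries Kb)) Y m hrel
    (fun i => (hY i).imp id fun h => h.2.2) hYne
  rcases hres with ⟨M, N₃, i₀, κ, hκ, hYi₀, hM, hE, hred⟩ | ⟨m₀, N₁, N₃, hN₁, e1, e3⟩
  · left
    have hYg : IsGood A (N * (r + 1)) (Y i₀) :=
      (hY i₀).resolve_left fun h0 => hYi₀ (by rw [h0, map_zero])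
    have hFFb : FFb A (N * (r + 1)) = FFb A N := Fermat.Agent.T2.helper96.FFb_mul_eq N A hq hA
    have hYmem : red A (Y i₀) ∈ FFb A N := hFFb ▸ hYg.2.1
    have hDmem : red A D ∈ FFb A N := hFFb ▸ hD.2.1
    have hθmem : thetaL (jqModC (kA A)) ^ r ∈ FFb A N := by
      have := thetaL_pow_mem hq hqN A hA
      rwa [Nat.add_sub_cancel] at this
    have hl0 : ζ ^ (k : ℕ) - 1 ≠ 0 := sub_ne_zero.mpr (hμ.ne_one hq.one_lt)
    have hE' : embMid N (r + 1) hq hqN hζ k hk f * incl A D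
        = cst ((ζ ^ (k : ℕ) - 1) ^ M) * incl A N₃ := by
      rw [hexp3, ← hlam]
      exact hE
    have hredN : red A N₃ ≠ 0 := by
      rw [hred, red_ThetaM hq A hA hμ]
      exact mul_ne_zero ((map_ne_zero _).mpr hκ) (mul_ne_zero hYi₀ (pow_ne_zero _ hθ))
    refine ⟨M, N₃, D,
      algebraMap (kA A) (LaurentSeries (kA A)) κ * red A (Y i₀) * (red A D)⁻¹ *
        ((thetaL (jqModC (kA A)) ^ r) ^ (m i₀))⁻¹,
      ⟨⟨f * heckeAlphaBar Kb (N * (r + 1)) (r + 1) ⟨incl A D, hD.1⟩ *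
          algebraMap Kb (FF (N * (r + 1) * (r + 1))) (((ζ ^ (k : ℕ) - 1) ^ M)⁻¹), ?_⟩, hredN⟩,
      ⟨⟨heckeAlphaBar Kb (N * (r + 1)) (r + 1) ⟨incl A D, hD.1⟩, ?_⟩, hD.2.2⟩, ?_, ?_,
      hE'.symm, ?_⟩
    · show embMid N (r + 1) hq hqN hζ k hk _ = _
      rw [map_mul, map_mul, embMid_alpha, AlgHom.commutes]
      show embMid N (r + 1) hq hqN hζ k hk f * incl A D * cst (((ζ ^ (k : ℕ) - 1) ^ M)⁻¹) = _
      rw [hE']
      have h3 : cst ((ζ ^ (k : ℕ) - 1) ^ M) * cst ((ζ ^ (k : ℕ) - 1) ^ M)⁻¹ = 1 := by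
        rw [← cst_mul, mul_inv_cancel₀ (zpow_ne_zero _ hl0)]
        exact map_one _
      calc cst ((ζ ^ (k : ℕ) - 1) ^ M) * incl A N₃ * cst ((ζ ^ (k : ℕ) - 1) ^ M)⁻¹
          = (cst ((ζ ^ (k : ℕ) - 1) ^ M) * cst ((ζ ^ (k : ℕ) - 1) ^ M)⁻¹) * incl A N₃ := by ring
        _ = incl A N₃ := by rw [h3, one_mul]
    · show embMid N (r + 1) hq hqN hζ k hk _ = _
      rw [embMid_alpha]
    · exact mul_mem (mul_mem (mul_mem ((FFb A N).algebraMap_mem κ) hYmem) (inv_mem hDmem))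
        (inv_mem (zpow_mem hθmem _))
    · exact mul_ne_zero (mul_ne_zero (mul_ne_zero ((map_ne_zero _).mpr hκ) hYi₀)
        (inv_ne_zero hD.2.2)) (inv_ne_zero (zpow_ne_zero _ (pow_ne_zero _ hθ)))
    · have hpow : thetaL (jqModC (kA A)) ^ M
          = (thetaL (jqModC (kA A)) ^ r) ^ (m i₀) * thetaL (jqModC (kA A)) ^ (i₀ : ℕ) := by
        rw [hM, zpow_add₀ hθ, zpow_mul, zpow_natCast, zpow_natCast]
      rw [hred, red_ThetaM hq A hA hμ, hpow]
      have h1 : (thetaL (jqModC (kA A)) ^ r) ^ (m i₀) ≠ 0 :=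
        zpow_ne_zero _ (pow_ne_zero _ hθ)
      have h2 : red A D ≠ 0 := hD.2.2
      field_simp
  · right
    refine ⟨m₀, D, N₁, N₃, hD.2.2, hN₁, ?_, ?_⟩
    · rw [hexp1]
      exact e1
    · rw [hexp3]
      exact e3

end Dich

/-! ### The main theorems -/

section Final

variable {N q : ℕ} [NeZero N] [NeZero q] (hq : q.Prime) (hqN : ¬ q ∣ N)
  (A : ValuationSubring Kb) (hA : A.LiesOverPrime q) {ζ : Kb} (hζ : IsPrimitiveRoot ζ q)
  (k : Fin q) (hk : (k : ℕ) ≠ 0)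

include hA in
/-- **[G3-B], main form**: every nonzero inertia-fixed function of level `N q q` has an explicit
Gauss representation at the middle cusp `k`. -/
theorem midRep {f : FF (N * q * q)} (hf0 : f ≠ 0)
    (hfix : ∀ σ ∈ A.inertiaSubgroupIn ℚ, galF (N * q * q) σ f = f) :
    MidRep hq hqN A hζ k hk f := by
  rcases midRep_or_tie hq hqN A hA hζ k hk hf0 hfix with h | ⟨m, D, N₁, N₃, hD, hN₁, e1, e3⟩
  · exact h
  rcases midRep_or_tie hq hqN A hA hζ k hk (inv_ne_zero hf0)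
    (fun σ hσ => by rw [map_inv₀, hfix σ hσ]) with h | ⟨m', D', N₁', N₃', hD', hN₁', e1', e3'⟩
  · exact MidRep.inv hf0 h
  exfalso
  have hcA : ((((q : ℕ) : A)) : Kb) = ((q : ℕ) : Kb) := by
    push_cast
    rfl
  have hc0 : ((((q : ℕ) : A)) : Kb) ≠ 0 := by
    rw [hcA]
    exact_mod_cast hq.ne_zero
  have h1 : (f : LaurentSeries Kb) * ((f⁻¹ : FF (N * q * q)) : LaurentSeries Kb) = 1 := by
    rw [← MulMemClass.coe_mul, mul_inv_cancel₀ hf0]
    rfl
  have h3 : embMid N q hq hqN hζ k hk f * embMid N q hq hqN hζ k hk f⁻¹ = 1 := by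
    rw [← map_mul, mul_inv_cancel₀ hf0, map_one]
  rw [← hcA] at e1 e3 e1' e3'
  exact not_tie_tie (residue_natCast_q hq A hA) hc0 h1 h3 hD hD' hN₁ hN₁' e1 e1' e3 e3'

include hA in
/-- **[G3-B], existence of the scaling** (the input of helper5 `scale_fix_mid`), with the class
of the reduction. -/
theorem exists_scale_mid {f : FF (N * q * q)} (hf0 : f ≠ 0)
    (hfix : ∀ σ ∈ A.inertiaSubgroupIn ℚ, galF (N * q * q) σ f = f) :
    ∃ (M : ℤ) (Y₁ Y₂ : LaurentSeries A) (x : LaurentSeries (kA A)),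
      IsGoodAt A (embMid N q hq hqN hζ k hk : FF (N * q * q) →+* LaurentSeries Kb) Y₁ ∧
      IsGoodAt A (embMid N q hq hqN hζ k hk : FF (N * q * q) →+* LaurentSeries Kb) Y₂ ∧
      x ∈ FFb A N ∧ x ≠ 0 ∧
      algebraMap Kb (LaurentSeries Kb) ((ζ ^ (k : ℕ) - 1) ^ M) * incl A Y₁
        = embMid N q hq hqN hζ k hk f * incl A Y₂ ∧
      red A Y₁ = x * thetaL (jqModC (kA A)) ^ M * red A Y₂ :=
  midRep hq hqN A hA hζ k hk hf0 hfix

include hA in
/-- **the class of the reduction**: for EVERY Gauss representation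
`(ζ^k - 1)^M' · Z₁ = E_k f · Z₂` of an inertia-fixed `f`, `red Z₁ = x · (θ j̄)^M' · red Z₂` with
`x ∈ F̃_N`. -/
theorem red_class_mid {f : FF (N * q * q)} (hf0 : f ≠ 0)
    (hfix : ∀ σ ∈ A.inertiaSubgroupIn ℚ, galF (N * q * q) σ f = f)
    {M' : ℤ} {Z₁ Z₂ : LaurentSeries A} (hZ₁ : red A Z₁ ≠ 0) (hZ₂ : red A Z₂ ≠ 0)
    (e' : algebraMap Kb (LaurentSeries Kb) ((ζ ^ (k : ℕ) - 1) ^ M') * incl A Z₁
      = embMid N q hq hqN hζ k hk f * incl A Z₂) :
    ∃ x : LaurentSeries (kA A), x ∈ FFb A N ∧ x ≠ 0 ∧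
      red A Z₁ = x * thetaL (jqModC (kA A)) ^ M' * red A Z₂ := by
  obtain ⟨M, Y₁, Y₂, x, g₁, g₂, hx, hx0, e, hred⟩ := midRep hq hqN A hA hζ k hk hf0 hfix
  have hμ := pow_prim hq hζ k hk
  obtain ⟨lam, u, hlam, hlamres, hlam0, -, -⟩ := exists_scalars hq A hA hμ
  rw [← hlam] at e e'
  -- `λ^M' Z₁ Y₂ = λ^M Y₁ Z₂`
  have key : cst ((lam : Kb) ^ M') * incl A (Z₁ * Y₂) = cst ((lam : Kb) ^ M) * incl A (Y₁ * Z₂) := by
    rw [map_mul, map_mul, ← mul_assoc, e', ← mul_assoc, e]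
    ring
  have hZY : red A (Z₁ * Y₂) ≠ 0 := by
    rw [map_mul]
    exact mul_ne_zero hZ₁ g₂.2
  have hYZ : red A (Y₁ * Z₂) ≠ 0 := by
    rw [map_mul]
    exact mul_ne_zero g₁.2 hZ₂
  have hMM : M = M' := by
    rcases lt_trichotomy M M' with h | h | h
    · exfalso
      apply hYZ
      refine red_eq_zero_of_incl_eq hlamres (e := M' - M) (by omega) (Y := Z₁ * Y₂) ?_
      have : cst ((lam : Kb) ^ (M' - M)) * incl A (Z₁ * Y₂)
          = cst ((lam : Kb) ^ (-M)) * (cst ((lam : Kb) ^ M') * incl A (Z₁ * Y₂)) := by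
        rw [← mul_assoc, ← cst_mul, ← zpow_add₀ hlam0]
        congr 3
        ring
      rw [this, key, ← mul_assoc, ← cst_mul, ← zpow_add₀ hlam0, neg_add_cancel, zpow_zero]
      show _ = (algebraMap Kb (LaurentSeries Kb)) 1 * _
      rw [map_one, one_mul]
    · exact h
    · exfalso
      apply hZY
      refine red_eq_zero_of_incl_eq hlamres (e := M - M') (by omega) (Y := Y₁ * Z₂) ?_
      have : cst ((lam : Kb) ^ (M - M')) * incl A (Y₁ * Z₂)
          = cst ((lam : Kb) ^ (-M')) * (cst ((lam : Kb) ^ M) * incl A (Y₁ * Z₂)) := by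
        rw [← mul_assoc, ← cst_mul, ← zpow_add₀ hlam0]
        congr 3
        ring
      rw [this, ← key, ← mul_assoc, ← cst_mul, ← zpow_add₀ hlam0, neg_add_cancel, zpow_zero]
      show _ = (algebraMap Kb (LaurentSeries Kb)) 1 * _
      rw [map_one, one_mul]
  subst hMM
  have hc : cst ((lam : Kb) ^ M) ≠ 0 := cst_ne_zero (zpow_ne_zero _ hlam0)
  have heq : Z₁ * Y₂ = Y₁ * Z₂ := incl_injective (mul_left_cancel₀ hc key)
  have hr := congrArg (red A) heq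
  rw [map_mul, map_mul, hred] at hr
  refine ⟨x, hx, hx0, ?_⟩
  apply mul_right_cancel₀ g₂.2
  rw [hr]
  ring

include hA in
/-- **[G3-B] in `GaussIs` form**: `w₃(f) ∈ ℤ · v(ζ^k - 1)`. -/
theorem gaussIs_mid {f : FF (N * q * q)} (hf0 : f ≠ 0)
    (hfix : ∀ σ ∈ A.inertiaSubgroupIn ℚ, galF (N * q * q) σ f = f) :
    ∃ M : ℤ, GaussIs A (embMid N q hq hqN hζ k hk f) ((ζ ^ (k : ℕ) - 1) ^ M) := by
  obtain ⟨M, Y₁, Y₂, x, g₁, g₂, hx, hx0, e, hred⟩ := midRep hq hqN A hA hζ k hk hf0 hfix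
  have hl0 : ζ ^ (k : ℕ) - 1 ≠ 0 :=
    sub_ne_zero.mpr ((pow_prim hq hζ k hk).ne_one hq.one_lt)
  have hθ : thetaL (jqModC (kA A)) ≠ 0 := thetaL_jqModC_ne_zero A
  refine ⟨M, zpow_ne_zero _ hl0, x * thetaL (jqModC (kA A)) ^ M,
    mul_ne_zero hx0 (zpow_ne_zero _ hθ), Y₁, Y₂, g₂.2, ?_, hred⟩
  rw [mul_assoc, ← e, ← mul_assoc]
  have h3 : algebraMap Kb (LaurentSeries Kb) ((ζ ^ (k : ℕ) - 1) ^ M)⁻¹ *
      cst ((ζ ^ (k : ℕ) - 1) ^ M) = 1 := by
    show cst _ * cst _ = 1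
    rw [← cst_mul, inv_mul_cancel₀ (zpow_ne_zero _ hl0)]
    exact map_one _
  rw [h3, one_mul]

include hA in
/-- **the class of the reduction, `RhoQ` form**: if `E_k f / (ζ^k - 1)^M` has Gauss reduction
`r ≠ 0`, then `r ∈ (θ j̄)^M · F̃_N`. -/
theorem rhoQ_mid_class {f : FF (N * q * q)}
    (hfix : ∀ σ ∈ A.inertiaSubgroupIn ℚ, galF (N * q * q) σ f = f)
    {M : ℤ} {r : LaurentSeries (kA A)} (hr : r ≠ 0)
    (h : RhoQ A (algebraMap Kb (LaurentSeries Kb) ((ζ ^ (k : ℕ) - 1) ^ M)⁻¹ *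
      embMid N q hq hqN hζ k hk f) r) :
    ∃ x : LaurentSeries (kA A), x ∈ FFb A N ∧ x ≠ 0 ∧ r = x * thetaL (jqModC (kA A)) ^ M := by
  obtain ⟨Z₁, Z₂, hZ₂, e, hred⟩ := h
  have hl0 : ζ ^ (k : ℕ) - 1 ≠ 0 :=
    sub_ne_zero.mpr ((pow_prim hq hζ k hk).ne_one hq.one_lt)
  have hZ₁ : red A Z₁ ≠ 0 := by
    rw [hred]
    exact mul_ne_zero hr hZ₂
  have hf0 : f ≠ 0 := by
    rintro rfl
    rw [map_zero, mul_zero, zero_mul] at e
    apply hZ₁
    rw [incl_injective (e.trans (map_zero _).symm), map_zero]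
  have e' : algebraMap Kb (LaurentSeries Kb) ((ζ ^ (k : ℕ) - 1) ^ M) * incl A Z₁
      = embMid N q hq hqN hζ k hk f * incl A Z₂ := by
    rw [e, ← mul_assoc, ← mul_assoc]
    have h3 : algebraMap Kb (LaurentSeries Kb) ((ζ ^ (k : ℕ) - 1) ^ M) *
        algebraMap Kb (LaurentSeries Kb) ((ζ ^ (k : ℕ) - 1) ^ M)⁻¹ = 1 := by
      rw [← map_mul, mul_inv_cancel₀ (zpow_ne_zero _ hl0), map_one]
    rw [h3, one_mul]
  obtain ⟨x, hx, hx0, hx'⟩ := red_class_mid hq hqN A hA hζ k hk hf0 hfix hZ₁ hZ₂ e'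
  refine ⟨x, hx, hx0, ?_⟩
  apply mul_right_cancel₀ hZ₂
  rw [← hred, hx']

include hA in
/-- **[G3-B], residue field**: the Gauss reduction at the middle cusp `k` of an inertia-fixed
function lies in `F̃_N`. -/
theorem rhoQ_mid_mem {f : FF (N * q * q)}
    (hfix : ∀ σ ∈ A.inertiaSubgroupIn ℚ, galF (N * q * q) σ f = f)
    {r : LaurentSeries (kA A)} (h : RhoQ A (embMid N q hq hqN hζ k hk f) r) :
    r ∈ FFb A N := by
  by_cases hr : r = 0
  · rw [hr]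
    exact zero_mem _
  have h' : RhoQ A (algebraMap Kb (LaurentSeries Kb) ((ζ ^ (k : ℕ) - 1) ^ (0 : ℤ))⁻¹ *
      embMid N q hq hqN hζ k hk f) r := by
    rw [zpow_zero, inv_one, map_one, one_mul]
    exact h
  obtain ⟨x, hx, -, hx'⟩ := rhoQ_mid_class hq hqN A hA hζ k hk hfix hr h'
  rw [hx', zpow_zero, mul_one]
  exact hx

include hA in
/-- **[G3-B] for `ex3 … 2`** (`= helper72.Red3 … 2`): the reduction at the middle cusp of an
`I`-fixed function lies in `F̃_N`. -/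
theorem red3_two_mem {f : FF (N * q * q)} (hfix : Fermat.Agent.T3.helper74.IsFixI A (N * q * q) f)
    {x : LaurentSeries (kA A)}
    (h : ∃ Y₁ Y₂ : LaurentSeries A, red A Y₂ ≠ 0 ∧
      incl A Y₁ = Fermat.Agent.T3.helper74.ex3 N q hq hqN hζ 2 f * incl A Y₂ ∧
      red A Y₁ = x * red A Y₂) :
    x ∈ FFb A N := by
  have e2 : Fermat.Agent.T3.helper74.ex3 N q hq hqN hζ 2 f
      = embMid N q hq hqN hζ (Fermat.Agent.T3.helper74.midOne q hq)
          (Fermat.Agent.T3.helper74.midOne_ne q hq) f := by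
    unfold Fermat.Agent.T3.helper74.ex3
    rw [if_neg (by decide), if_neg (by decide)]
    rfl
  rw [e2] at h
  exact rhoQ_mid_mem hq hqN A hA hζ _ _ hfix h

end Final

end Fermat.Agent.T3.helper58

end
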