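import Fermat.Agent.P3.helper67_TateGeom
import Fermat.Agent.P3.helper16_ANInterface
import Fermat.Agent.T2.helper5_ToLam

/-!
# T3 (S36), input (EV) in generic form (helper5): an eigenvector in `cut f`

Abstract half (`TateModel`, Mathlib only on top of `helper5_ToLam`):

* `proj_toLam_two` : two-level equivariance.  If `f : J →+ Y` corresponds on characters to
  `ξ ↦ ξ ∘ t` (`t : L' →+ L`, `f (κ n ξ) = κ' n (ξ ∘ t)`, `p^n κ' n = 0`) and `y ∘ t = 0`, then
  `f (proj n (toLam y)) = 0`.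
* `exists_cut_functional` : for a nonzero `x0 : L →+ O` there is `y ≠ 0` in `Hom(L, ℤ_p)` with
  (KER) for every compatible family of Hecke operators, integer eigen-equations, and
  `f (proj n (toLam y)) = 0` for every such `f` with `x0 ∘ t = 0`.

Concrete half: `exists_cutVec` for `D : helper67.TateGeom` - the shape (EV) of helper34's
S36 wiring: `∃ x ≠ 0, x ∈ D.cut f ∧ (KER)`.
-/

set_option autoImplicit false

open ModularCurve

noncomputable section

namespace Fermat.Agent.T3.helper5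

open Fermat.Agent.P3 Fermat.Agent.P3.helper16 Fermat.Agent.P3.helper1 Fermat.Agent.T2.helper5

section Abstract

variable {p : ℕ} [Fact p.Prime] {J : Type} [AddCommGroup J] (T : TateModel p J)
  {L : Type*} [AddCommGroup L] [Module.Free ℤ L] [Module.Finite ℤ L]
  (κ : ℕ → (L →+ ℤ) →+ J)
  (h1 : ∀ (n : ℕ) (ξ : L →+ ℤ), p ^ n • κ n ξ = 0)
  (h2 : ∀ (n : ℕ) (ξ : L →+ ℤ), p • κ (n + 1) ξ = κ n ξ)

/-- A character with values in `p^n ℤ` is `p^n` times a character. -/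
theorem exists_eq_pow_nsmul {L' : Type*} [AddCommGroup L'] (n : ℕ) (ξ : L' →+ ℤ)
    (h : ∀ l, ((p ^ n : ℕ) : ℤ) ∣ ξ l) : ∃ ξ' : L' →+ ℤ, ξ = p ^ n • ξ' := by
  have hp0 : ((p ^ n : ℕ) : ℤ) ≠ 0 := by
    exact_mod_cast (pow_pos (Fact.out : p.Prime).pos n).ne'
  refine ⟨{ toFun := fun l => ξ l / ((p ^ n : ℕ) : ℤ)
            map_zero' := by rw [map_zero, Int.zero_ediv]
            map_add' := fun a b => by
              rw [map_add, Int.add_ediv_of_dvd_left (h a)] }, ?_⟩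
  ext l
  rw [AddMonoidHom.smul_apply, nsmul_eq_mul]
  exact (Int.mul_ediv_cancel' (h l)).symm

/-- **Two-level equivariance**: a homomorphism `f : J →+ Y` which corresponds to `ξ ↦ ξ ∘ t` on
characters kills the projections of `toLam y` as soon as `y ∘ t = 0`. -/
theorem proj_toLam_two {Y : Type*} [AddCommGroup Y] (f : J →+ Y)
    {L' : Type*} [AddCommGroup L'] (t : L' →+ L) (κ' : ℕ → (L' →+ ℤ) →+ Y)
    (hκ' : ∀ (n : ℕ) (ξ' : L' →+ ℤ), p ^ n • κ' n ξ' = 0)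
    (hf : ∀ (n : ℕ) (ξ : L →+ ℤ), f (κ n ξ) = κ' n (ξ.comp t))
    (y : L →+ ℤ_[p]) (hy : y.comp t = 0) (n : ℕ) :
    f (T.proj n (toLam T κ h1 h2 y)) = 0 := by
  obtain ⟨ξ, hξ⟩ := exists_approx n y
  rw [proj_toLam T κ h1 h2 n y ξ hξ, hf]
  have hdvd : ∀ l, ((p ^ n : ℕ) : ℤ) ∣ (ξ.comp t) l := by
    intro l
    have h0 : y (t l) = 0 := DFunLike.congr_fun hy l
    have h3 := hξ (t l)
    rw [h0, zero_sub, neg_mem_iff, Ideal.mem_span_singleton] at h3
    have h4 := (PadicInt.pow_p_dvd_int_iff n (ξ (t l))).mp h3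
    rw [AddMonoidHom.comp_apply]
    exact_mod_cast h4
  obtain ⟨ξ', hξ'⟩ := exists_eq_pow_nsmul n (ξ.comp t) hdvd
  rw [hξ', map_nsmul, hκ']

omit [Module.Free ℤ L] [Module.Finite ℤ L] in
/-- `x0 ∘ t = 0` passes to `y = G ∘ x0`. -/
theorem comp_eq_zero_of_functional {O : Type*} [CommRing O] [Algebra ℤ_[p] O] (x0 : L →+ O)
    (G : O →ₗ[ℤ_[p]] FractionRing ℤ_[p]) (y : L →+ ℤ_[p])
    (hGy : ∀ lam, algebraMap ℤ_[p] (FractionRing ℤ_[p]) (y lam) = G (x0 lam))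
    {L' : Type*} [AddCommGroup L'] (t : L' →+ L) (ht : ∀ l, x0 (t l) = 0) : y.comp t = 0 := by
  ext l
  apply IsFractionRing.injective ℤ_[p] (FractionRing ℤ_[p])
  rw [AddMonoidHom.comp_apply, hGy, ht, map_zero, AddMonoidHom.zero_apply, map_zero]

end Abstract

section Concrete

variable {p : ℕ} [Fact p.Prime] {N : ℕ} [NeZero N] {S : Finset ℕ} {M : ℕ} [NeZero M]
  {hNM : N ∣ M}

/-- **(EV), generic form**: for a Tate datum with projections `D` at level `M`, a Kummer family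
`κ` and a nonzero `x0 : perLat M →+ O'` which is an eigenvector of the `hTr (X ℓ)` with
eigenvalues `χ (T_ℓ)`: there is `x ≠ 0` in the Tate module, killed by the kernel of the
eigensystem, which lies in `D.cut f` for EVERY `f : J₀(M) →+ Y` corresponding on characters to
some `t : L' →+ perLat M` with `x0 ∘ t = 0`, and whose projections are eigenvectors (integer
eigenvalue `c`) of every `u` corresponding to some `s` with `x0 ∘ s = c • x0`. -/
theorem exists_cutVec (D : helper67.TateGeom p N S M hNM)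
    (κ : ℕ → LatChar M →+ JZero M)
    (h1 : ∀ (n : ℕ) (ξ : LatChar M), p ^ n • κ n ξ = 0)
    (h2 : ∀ (n : ℕ) (ξ : LatChar M), p • κ (n + 1) ξ = κ n ξ)
    (h3 : ∀ (n : ℕ) (ξ : LatChar M), κ n ξ = 0 → ∀ lam : perLat M, ((p ^ n : ℕ) : ℤ) ∣ ξ lam)
    (hT : ∀ (n : ℕ) (ℓ : GoodPrime p M S) (ξ : LatChar M),
      κ n (latCharT M ℓ.toPrimes ξ) = heckeOperatorBar M ℓ.toPrimes (κ n ξ))
    {O' : Type} [CommRing O'] [IsDomain O'] [Algebra ℤ_[p] O']
    (hO' : Function.Injective (algebraMap ℤ_[p] O'))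
    (χ : CuspForm.heckeAlgebra N 2 (↑S : Set ℕ) →+* O')
    (x0 : perLat M →+ O') (hx0 : x0 ≠ 0)
    (hχ : ∀ (ℓ : GoodPrime p M S) (lam : perLat M),
      x0 (hTr M (MvPolynomial.X ℓ.toPrimes) lam) = χ (goodT hNM ℓ) * x0 lam) :
    ∃ x : D.Λ, x ≠ 0 ∧
      (∀ P : MvPolynomial (GoodPrime p M S) ℤ_[p],
        MvPolynomial.aeval (fun ℓ => χ (goodT hNM ℓ)) P = 0 →
          MvPolynomial.aeval D.τ P • x = 0) ∧
      (∀ {Y : Type} [AddCommGroup Y] (f : JZero M →+ Y)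
        {L' : Type} [AddCommGroup L'] (t : L' →+ perLat M) (κ' : ℕ → (L' →+ ℤ) →+ Y),
        (∀ (n : ℕ) (ξ' : L' →+ ℤ), p ^ n • κ' n ξ' = 0) →
        (∀ (n : ℕ) (ξ : LatChar M), f (κ n ξ) = κ' n (ξ.comp t)) →
        (∀ l, x0 (t l) = 0) → x ∈ D.cut f) ∧
      (∀ (s : perLat M →+ perLat M) (u : JZero M →+ JZero M) (c : ℤ),
        (∀ (n : ℕ) (ξ : LatChar M), κ n (ξ.comp s) = u (κ n ξ)) →
        (∀ lam, x0 (s lam) = c • x0 lam) → ∀ n, u (D.proj n x) = c • D.proj n x) := by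
  obtain ⟨G, y, hy, hGy⟩ := exists_functional hO' x0 hx0
  let T : TateModel p (JZero M) := D.toTateModel
  let _ : Module D.𝔸 T.Λ := D.instModule𝔸
  have _ : IsScalarTower ℤ_[p] D.𝔸 T.Λ := D.instTower
  refine ⟨toLam T κ h1 h2 y, ?_, ?_, ?_, ?_⟩
  · intro h
    apply hy
    apply toLam_injective T κ h1 h2 h3
    exact h.trans (map_zero (toLam T κ h1 h2)).symm
  · intro P hP
    exact aeval_smul_toLam_eq_zero T κ h1 h2 (𝔸 := D.𝔸) D.τ
      (fun ℓ => hTr M (MvPolynomial.X ℓ.toPrimes))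
      (fun ℓ => (heckeOperatorBar M ℓ.toPrimes).toAddMonoidHom)
      (fun ℓ n v => D.proj_τ n ℓ v) (fun ℓ n ξ => hT n ℓ ξ)
      (fun ℓ => χ (goodT hNM ℓ)) x0 hχ G y hGy P hP
  · intro Y _ f L' _ t κ' hκ' hf ht n
    exact proj_toLam_two T κ h1 h2 f t κ' hκ' hf y
      (comp_eq_zero_of_functional x0 G y hGy t ht) n
  · intro s u c hsu hs n
    exact proj_toLam_eigen T κ h1 h2 s u hsu y c
      (comp_eq_zsmul_of_functional x0 G y hGy s c hs) n

end Concrete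

end Fermat.Agent.T3.helper5

end
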