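import Fermat.Agent.T2.helper76_NewTrace
import Fermat.Prelude.Sol.S_ModularForm_heckeU_slash_eq_self_of_mem_Gamma0

/-!
# T3 (S36), forms side (helper5): a newform at `q² ∣ M` is killed by `U_q`

Let `g` be a newform of level `M` in the Prelude's sense (`CuspForm.IsNewform`).

* `eq_zero_of_isNewform_of_eigen` : a cusp form `h` of level `m ∣ M`, `m ≠ M`, with
  `T_ℓ h = a_ℓ(g) h` for all primes `ℓ ∤ M`, vanishes (the argument of
  `helper76.trace_eq_zero_of_isNewform`, for an arbitrary form of lower level);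
* `heckeU_slash_of_sq_dvd` : **`U_q` lowers the level**: if `q² ∣ M` and `f` is
  `Γ₀(M)`-invariant, then `U_q f` is `Γ₀(M / q)`-invariant;
* `heckeULin_eq_zero_of_isNewform` : if `q` is a prime with `q² ∣ M`, every `f ∈ S₂(Γ₀(M))` with
  the eigenvalues of `g` at all `ℓ ∤ M` has `U_q f = 0`;
* `qCoeff_eq_zero_of_isNewform` : `a_q(g) = 0` (the `q² ∣ N` half of the Prelude's
  `NewformBadPrimeCoeff`);
* `heckeULin_atkinLehner_eq_zero_of_isNewform` : `U_q (W g) = 0` for every Atkin–Lehner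
  operator `W` of level `M`.
-/

set_option autoImplicit false

namespace Fermat.Agent.T3.helper5

open UpperHalfPlane ModularForm CongruenceSubgroup Matrix ModularFormClass
open scoped MatrixGroups
open Fermat.Agent.S16.helper26 Fermat.Agent.S16.helper41 Fermat.Agent.S49
open Fermat.Agent.T2.helper76

section Lower

variable {M : ℕ} [NeZero M]

omit [NeZero M] in
/-- **No eigenvector of lower level.**  A cusp form of level `m ∣ M`, `m ≠ M`, which has the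
Hecke eigenvalues of the newform `g` of level `M` at all primes `ℓ ∤ M`, is zero. -/
theorem eq_zero_of_isNewform_of_eigen {g : CuspForm (Gamma0 M) 2} (hg : g.IsNewform)
    {m : ℕ} [NeZero m] (hmM : m ∣ M) (hne : m ≠ M) (h : CuspForm (Gamma0 m) 2)
    (heig : ∀ (ℓ : ℕ) (hℓ : ℓ.Prime) (_ : ¬ ℓ ∣ M) (hℓm : ¬ ℓ ∣ m),
      CuspForm.heckeTLin 2 hℓ hℓm h = qCoeff ⇑g ℓ • h) : h = 0 := by
  by_contra hne0
  have hℓm : ∀ {ℓ : ℕ}, ¬ ℓ ∣ M → ¬ ℓ ∣ m := fun hℓM hd => hℓM (hd.trans hmM)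
  have hfinA : FiniteDimensional ℂ (heckeAlgC m) :=
    (exists_vector_of_pairing (heckeRep m) (heckeRep_injective m) (qcLin m 2 1)
      (pairing_nondeg m) 0).1
  have hI : annIdeal m h ≠ ⊤ := by
    intro htop
    have h1 : (1 : heckeAlgC m) ∈ annIdeal m h := htop ▸ Submodule.mem_top
    rw [mem_annIdeal, Subalgebra.coe_one, Module.End.one_apply] at h1
    exact hne0 h1
  obtain ⟨χ, hχ⟩ := exists_algHom_of_ne_top (K := ℂ) (annIdeal m h) hI
  obtain ⟨g', hg'1, hg'⟩ := exists_eigenform_of_character χ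
  have hnorm := isNormalizedEigenform_of_eigen χ g' hg'1 hg'
  refine hg.2 m hmM hne ⟨g', hnorm, fun ℓ hℓ hℓM => ?_⟩
  rw [qCoeff_prime_of_eigen χ g' hg'1 hg' hℓ (hℓm hℓM)]
  set Tℓ : heckeAlgC m :=
    heckeIncl m (CuspForm.heckeAlgebra.T hℓ (hℓm hℓM) (Set.notMem_empty _)) with hTℓ
  have hmem : Tℓ - algebraMap ℂ (heckeAlgC m) (qCoeff ⇑g ℓ) ∈ annIdeal m h := by
    rw [mem_annIdeal, Subalgebra.coe_sub, LinearMap.sub_apply, Subalgebra.coe_algebraMap,
      Module.algebraMap_end_apply, sub_eq_zero]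
    exact heig ℓ hℓ hℓM (hℓm hℓM)
  have h4 := hχ _ hmem
  rw [map_sub, AlgHom.commutes, sub_eq_zero] at h4
  rw [h4]
  rfl

end Lower

section ULower

open P2MW.S_ModularForm_heckeU_slash_eq_self_of_mem_Gamma0.ModularForm.HeckeSlashInvariance

/-- **`U_q` lowers the level**: if `q² ∣ M` and `f` is invariant under `Γ₀(M)`, then `U_q f` is
invariant under `Γ₀(M / q)`. -/
theorem heckeU_slash_of_sq_dvd {M q : ℕ} [NeZero q] (k : ℤ) (hq2 : q * q ∣ M) (f : ℍ → ℂ)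
    (hf : ∀ γ ∈ (Gamma0 M : Subgroup (GL (Fin 2) ℝ)), f ∣[k] γ = f)
    (g : SL(2, ℤ)) (hg : g ∈ Gamma0 (M / q)) :
    heckeU k q f ∣[k] (Matrix.SpecialLinearGroup.mapGL ℝ g) = heckeU k q f := by
  have hq0 : 0 < q := Nat.pos_of_ne_zero (NeZero.ne q)
  obtain ⟨c, hc⟩ := hq2
  have hMq : M / q = q * c := by
    rw [hc, mul_assoc, Nat.mul_div_cancel_left _ hq0]
  have hcN : ((M / q : ℕ) : ℤ) ∣ g 1 0 :=
    (ZMod.intCast_zmod_eq_zero_iff_dvd _ _).mp (Gamma0_mem.mp hg)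
  have hcq : (q : ℤ) ∣ g 1 0 :=
    (Int.natCast_dvd_natCast.mpr (hMq ▸ Dvd.intro c rfl)).trans hcN
  have hMdvd : (M : ℤ) ∣ (q : ℤ) * g 1 0 := by
    have h1 : (M : ℤ) = (q : ℤ) * ((M / q : ℕ) : ℤ) := by
      rw [hMq, hc]
      push_cast
      ring
    rw [h1]
    exact mul_dvd_mul_left _ hcN
  rw [heckeU_eq_sum_zmod k f, SlashAction.sum_slash]
  calc ∑ x : ZMod q, (f ∣[k] heckeMatrix q x.val) ∣[k] Matrix.SpecialLinearGroup.mapGL ℝ g
      = ∑ x : ZMod q, f ∣[k] heckeMatrix q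
          (affinePerm g ((ZMod.intCast_zmod_eq_zero_iff_dvd _ _).mpr hcq) x).val := by
        refine Finset.sum_congr rfl fun x _ ↦ ?_
        obtain ⟨g', hg', hmul⟩ := heckeMatrix_mul_of_dvd g hcq x
        have hg'N : g' ∈ Gamma0 M := by
          rw [Gamma0_mem, hg']
          exact (ZMod.intCast_zmod_eq_zero_iff_dvd _ _).mpr hMdvd
        rw [← SlashAction.slash_mul, hmul, SlashAction.slash_mul,
          hf _ (Subgroup.mem_map_of_mem (Matrix.SpecialLinearGroup.mapGL ℝ) hg'N)]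
    _ = ∑ x : ZMod q, f ∣[k] heckeMatrix q x.val :=
        Equiv.sum_comp (affinePerm g _) (fun x ↦ f ∣[k] heckeMatrix q x.val)

end ULower

section Newform

variable {M : ℕ} [NeZero M]

/-- For `q² ∣ M`, the form `U_q f` of level `M` is (the restriction of) a cusp form of level
`M / q`. -/
theorem exists_lower_heckeULin {q : ℕ} [NeZero q] (hq2 : q * q ∣ M) (hqM : q ∣ M)
    [NeZero (M / q)] (f : CuspForm (Gamma0 M) 2) :
    ∃ h : CuspForm (Gamma0 (M / q)) 2, (⇑h : ℍ → ℂ) = ⇑(CuspForm.heckeULin 2 hqM f) := by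
  classical
  set U : CuspForm (Gamma0 M) 2 := CuspForm.heckeULin 2 hqM f with hU
  have hinv : ∀ r ∈ (Gamma0 (M / q) : Subgroup (GL (Fin 2) ℝ)),
      (⇑U : ℍ → ℂ) ∣[(2 : ℤ)] r = ⇑U := by
    intro r hr
    obtain ⟨g₀, hg₀, rfl⟩ := Subgroup.mem_map.mp hr
    rw [hU, CuspForm.coe_heckeULin_apply]
    exact heckeU_slash_of_sq_dvd 2 hq2 ⇑f
      (fun γ hγ => SlashInvariantFormClass.slash_action_eq f γ hγ) g₀ hg₀
  let _ : Fintype ((Gamma0 (M / q) : Subgroup (GL (Fin 2) ℝ)) ⧸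
      ((Gamma0 M : Subgroup (GL (Fin 2) ℝ)).subgroupOf
        (Gamma0 (M / q) : Subgroup (GL (Fin 2) ℝ)))) := Fintype.ofFinite _
  have hcoe : (⇑(CuspForm.trace (Gamma0 (M / q) : Subgroup (GL (Fin 2) ℝ)) U) : ℍ → ℂ) =
      (Fintype.card ((Gamma0 (M / q) : Subgroup (GL (Fin 2) ℝ)) ⧸
        ((Gamma0 M : Subgroup (GL (Fin 2) ℝ)).subgroupOf
          (Gamma0 (M / q) : Subgroup (GL (Fin 2) ℝ)))) : ℂ) • (⇑U : ℍ → ℂ) := by
    rw [CuspForm.coe_trace]
    have h1 : ∀ x : (Gamma0 (M / q) : Subgroup (GL (Fin 2) ℝ)) ⧸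
        ((Gamma0 M : Subgroup (GL (Fin 2) ℝ)).subgroupOf
          (Gamma0 (M / q) : Subgroup (GL (Fin 2) ℝ))),
        SlashInvariantForm.quotientFunc (ℋ := (Gamma0 (M / q) : Subgroup (GL (Fin 2) ℝ))) U x
          = ⇑U := by
      intro x
      induction x using Quotient.inductionOn with
      | h r =>
        erw [SlashInvariantForm.quotientFunc_mk]
        exact hinv _ (inv_mem r.2)
    rw [Finset.sum_congr rfl fun x _ => h1 x, Finset.sum_const, Finset.card_univ,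
      Nat.cast_smul_eq_nsmul]
  have hcard : (Fintype.card ((Gamma0 (M / q) : Subgroup (GL (Fin 2) ℝ)) ⧸
        ((Gamma0 M : Subgroup (GL (Fin 2) ℝ)).subgroupOf
          (Gamma0 (M / q) : Subgroup (GL (Fin 2) ℝ)))) : ℂ) ≠ 0 := by
    exact_mod_cast Fintype.card_ne_zero
  refine ⟨(Fintype.card ((Gamma0 (M / q) : Subgroup (GL (Fin 2) ℝ)) ⧸
        ((Gamma0 M : Subgroup (GL (Fin 2) ℝ)).subgroupOf
          (Gamma0 (M / q) : Subgroup (GL (Fin 2) ℝ)))) : ℂ)⁻¹ •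
      CuspForm.trace (Gamma0 (M / q) : Subgroup (GL (Fin 2) ℝ)) U, ?_⟩
  rw [FunLike.coe_smul, hcoe, smul_smul, inv_mul_cancel₀ hcard, one_smul]

/-- **A newform at `q² ∣ M` is killed by `U_q`**, together with every form of level `M` which
has its eigenvalues at the primes `ℓ ∤ M`. -/
theorem heckeULin_eq_zero_of_isNewform {g : CuspForm (Gamma0 M) 2} (hg : g.IsNewform)
    {q : ℕ} (hq : q.Prime) (hq2 : q * q ∣ M) (hqM : q ∣ M) (f : CuspForm (Gamma0 M) 2)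
    (hf : ∀ (ℓ : ℕ) (hℓ : ℓ.Prime) (hℓM : ¬ ℓ ∣ M),
      CuspForm.heckeTLin 2 hℓ hℓM f = qCoeff ⇑g ℓ • f) :
    CuspForm.heckeULin 2 hqM f = 0 := by
  have : NeZero q := ⟨hq.ne_zero⟩
  have hM0 : 0 < M := Nat.pos_of_ne_zero (NeZero.ne M)
  have hMq0 : M / q ≠ 0 := (Nat.div_pos (Nat.le_of_dvd hM0 hqM) hq.pos).ne'
  have : NeZero (M / q) := ⟨hMq0⟩
  have hmM : M / q ∣ M := Nat.div_dvd_of_dvd hqM
  have hne : M / q ≠ M := (Nat.div_lt_self hM0 hq.one_lt).ne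
  obtain ⟨h, hh⟩ := exists_lower_heckeULin hq2 hqM f
  have h0 : h = 0 := by
    refine eq_zero_of_isNewform_of_eigen hg hmM hne h fun ℓ hℓ hℓM hℓm => ?_
    apply DFunLike.coe_injective
    rw [CuspForm.coe_heckeTLin_apply, hh, FunLike.coe_smul, hh,
      ← CuspForm.coe_heckeTLin_apply 2 hℓ hℓM]
    have hc := (CuspForm.heckeTLin_heckeULin_comm (N := M) 2 hℓ hℓM hqM).eq
    have h1 := congrArg (fun T : Module.End ℂ (CuspForm (Gamma0 M) 2) => T f) hc
    simp only [Module.End.mul_apply] at h1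
    rw [h1, hf ℓ hℓ hℓM, map_smul, FunLike.coe_smul]
  apply DFunLike.coe_injective
  rw [← hh, h0]
  rfl

/-- **`a_q(g) = 0` for a newform `g` of level `M` with `q² ∣ M`** (the second half of the
Prelude's `NewformBadPrimeCoeff`). -/
theorem qCoeff_eq_zero_of_isNewform {g : CuspForm (Gamma0 M) 2} (hg : g.IsNewform)
    {q : ℕ} (hq : q.Prime) (hq2 : q ^ 2 ∣ M) : qCoeff ⇑g q = 0 := by
  have hq2' : q * q ∣ M := by rwa [pow_two] at hq2
  have hqM : q ∣ M := (Dvd.intro _ rfl).trans hq2'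
  have h1 := heckeULin_eq_zero_of_isNewform hg hq hq2' hqM g
    (fun ℓ hℓ hℓM => Fermat.Agent.P3.helper68.heckeTLin_eigen hg.1 hℓ hℓM)
  rw [Fermat.Agent.P3.helper68.heckeULin_eigen hg.1 hq hqM] at h1
  rcases smul_eq_zero.mp h1 with h2 | h2
  · exact h2
  · exact absurd h2 hg.ne_zero

/-- `U_q (W g) = 0` for a newform `g` of level `M`, `q² ∣ M`, and every Atkin–Lehner operator
`W` of level `M` (at any `Q`). -/
theorem heckeULin_atkinLehner_eq_zero_of_isNewform {g : CuspForm (Gamma0 M) 2}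
    (hg : g.IsNewform) {q : ℕ} (hq : q.Prime) (hq2 : q ^ 2 ∣ M) (hqM : q ∣ M) {Q : ℕ}
    (W : ALData M Q) : CuspForm.heckeULin 2 hqM (W.atkinLehner g) = 0 := by
  have hq2' : q * q ∣ M := by rwa [pow_two] at hq2
  refine heckeULin_eq_zero_of_isNewform hg hq hq2' hqM (W.atkinLehner g) fun ℓ hℓ hℓM => ?_
  rw [W.heckeTLin_atkinLehner hℓ hℓM, Fermat.Agent.P3.helper68.heckeTLin_eigen hg.1 hℓ hℓM,
    map_smul]

end Newform

end Fermat.Agent.T3.helper5
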