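import Fermat.Agent.T3.helper34_WireS36
import Fermat.Agent.T3.helper5_CutVec
import Fermat.Agent.T3.helper5_NewLower
import Fermat.Agent.T2.helper5_EigenVecU

/-!
# T3 (S36), input (EV) (helper5): the eigenvector of a newform at `q² ∣ N` in `cut (U_q, U_q W)`

`eigenVecCut_uJ` : for a newform `g` of level `N`, a prime `q` with `q² ∣ N`, any level `M`
with `N ∣ M` and any Tate datum with projections `D` at level `M`:
`helper34.EigenVecCutStatement D (ι ∘ χ_g) (uJ M q)`.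

`eigenVecCut_uJ_pair` : the same for the pair `f = (uJ M q, uJ M q ∘ W)`, for every additive
endomorphism `W` of `J₀(M)` which corresponds, through every analytic Kummer family, to a
transpose `tW` of an Atkin–Lehner operator `Wd.atkinLehner` of level `M` (at `Q ∣ N`).

Forms side: `U_q g = 0` and `U_q (W g) = 0` (`helper5_NewLower`); dictionary: `exists_cutVec`,
`exists_kappaJ` (bridges for `T_ℓ`, `U_q`).
-/

set_option autoImplicit false

open ModularCurve CuspForm CongruenceSubgroup ModularFormClass UpperHalfPlane ModularForm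
open scoped MatrixGroups

noncomputable section

namespace Fermat.Agent.T3.helper5

open Fermat.Agent.P3 Fermat.Agent.P3.helper16 Fermat.Agent.P3.helper20
  Fermat.Agent.T2.helper76 Fermat.Agent.T2.helper5 Fermat.Agent.T3.helper34
open scoped Fermat.Agent.S16.helper26

section Cut

variable {p : ℕ} [Fact p.Prime] {N : ℕ} [NeZero N] {S : Finset ℕ} {M : ℕ} [NeZero M]
  {hNM : N ∣ M}

/-- The cut of a pair of maps is the intersection of the cuts. -/
theorem mem_cut_prod (D : helper67.TateGeom p N S M hNM) {Y₁ Y₂ : Type} [AddCommGroup Y₁]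
    [AddCommGroup Y₂] (f₁ : JZero M →+ Y₁) (f₂ : JZero M →+ Y₂) {x : D.Λ}
    (h₁ : x ∈ D.cut f₁) (h₂ : x ∈ D.cut f₂) : x ∈ D.cut (f₁.prod f₂) := by
  intro n
  rw [AddMonoidHom.prod_apply, h₁ n, h₂ n]
  rfl

end Cut

section Forms

variable {N : ℕ} [NeZero N]

/-- `U_q` kills the old form attached to a newform `g` of level `N`, `q² ∣ N`, at every level
`c N`. -/
theorem heckeULin_oldForm_eq_zero {g : CuspForm (Gamma0 N) 2} (hg : g.IsNewform) {q : ℕ}
    (hq : q.Prime) (hq2 : q ^ 2 ∣ N) (c : ℕ) [NeZero (c * N)] (hqM : q ∣ c * N) :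
    CuspForm.heckeULin 2 hqM (oldForm (Dvd.intro_left c rfl : N ∣ c * N) 2 g) = 0 := by
  have hqN : q ∣ N := (Dvd.intro_left (q ^ 1) (by rw [← pow_succ])).trans hq2
  have h1 := oldForm_heckeULin_eigen c hg.1 hq hqN
  rw [qCoeff_eq_zero_of_isNewform hg hq hq2, zero_smul] at h1
  exact h1

/-- `U_q W` kills the old form attached to a newform `g` of level `N`, `q² ∣ N`, for every
Atkin–Lehner operator `W` of level `c N` at `Q ∣ N`. -/
theorem heckeULin_atkinLehner_oldForm_eq_zero {g : CuspForm (Gamma0 N) 2} (hg : g.IsNewform)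
    {q : ℕ} (hq : q.Prime) (hq2 : q ^ 2 ∣ N) (c : ℕ) [NeZero (c * N)] (hqM : q ∣ c * N)
    {Q : ℕ} (hQN : Q ∣ N) (Wd : ALData (c * N) Q) :
    CuspForm.heckeULin 2 hqM
      (Wd.atkinLehner (oldForm (Dvd.intro_left c rfl : N ∣ c * N) 2 g)) = 0 := by
  have hqN : q ∣ N := (Dvd.intro_left (q ^ 1) (by rw [← pow_succ])).trans hq2
  obtain ⟨m', hm'⟩ := hQN
  have h1 := heckeULin_atkinLehner_eq_zero_of_isNewform hg hq hq2 hqN (Wd.restrict m' hm')
  apply DFunLike.coe_injective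
  have h2 := congrArg (fun F : CuspForm (Gamma0 N) 2 => (⇑F : ℍ → ℂ)) h1
  simp only [CuspForm.coe_heckeULin_apply, ALData.coe_atkinLehner, ALData.mat_restrict] at h2
  rw [CuspForm.coe_heckeULin_apply, ALData.coe_atkinLehner, coe_oldForm]
  exact h2

end Forms

section EV

variable {p : ℕ} [Fact p.Prime] {N : ℕ} [NeZero N] {S : Finset ℕ}

/-- **(EV) of S36**, pair form: the eigenvector of `g` in `cut (U_q, U_q ∘ W)`. -/
theorem eigenVecCut_uJ_pair {g : CuspForm (Gamma0 N) 2} (hg : g.IsNewform)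
    {M : ℕ} [NeZero M] {hNM : N ∣ M} (D : helper67.TateGeom p N S M hNM)
    {O' : Type} [CommRing O'] [IsDomain O'] [CharZero O'] [Algebra ℤ_[p] O']
    (chig : CuspForm.heckeAlgebra N 2 (↑S : Set ℕ) →+* ℂ)
    (hchig : ∀ (ℓ : ℕ) (hℓ : ℓ.Prime) (hℓN : ¬ ℓ ∣ N) (hℓS : ℓ ∉ (↑S : Set ℕ)),
      chig (CuspForm.heckeAlgebra.T hℓ hℓN hℓS) = qCoeff g ℓ)
    (iota : chig.range →+* O')
    (q : Nat.Primes) (hq2 : (q : ℕ) ^ 2 ∣ N)
    (W : JZero M →+ JZero M) {Q : ℕ} (hQN : Q ∣ N) (Wd : ALData M Q)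
    (tW : perLat M →+ perLat M)
    (htW : ∀ (lam : perLat M) (F : CuspForm (Gamma0 M) 2),
      ((tW lam : perLat M) : V2 M →ₗ[ℂ] ℂ) (F, 0) = (lam : V2 M →ₗ[ℂ] ℂ) (Wd.atkinLehner F, 0))
    (hbW : ∀ κC : ℕ → LatChar M →+ JC M,
      (∀ (n : ℕ) (ε : LatChar M),
        IsMonData (Fermat.Agent.P3.helper48.anDictC M) (p ^ n) (κC n ε) (latPsi M p n ε)) →
      ∀ (n : ℕ) (ξ : LatChar M) (x : JZero M), conC M x = κC n ξ →
        conC M (W x) = κC n (ξ.comp tW)) :
    EigenVecCutStatement D (iota.comp chig.rangeRestrict)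
      ((Fermat.Agent.T2.helper48.uJ M q).prod ((Fermat.Agent.T2.helper48.uJ M q).comp W)) := by
  obtain ⟨c, hc⟩ : ∃ c, M = c * N := ⟨M / N, (Nat.div_mul_cancel hNM).symm⟩
  subst hc
  have hp : 0 < p := (Fact.out : p.Prime).pos
  have hqN : (q : ℕ) ∣ N := (Dvd.intro_left ((q : ℕ) ^ 1) (by rw [← pow_succ])).trans hq2
  have hqM : (q : ℕ) ∣ c * N := hqN.trans hNM
  obtain ⟨κC, κ, hmon, hκ, h1, h2, h3, hT, hU⟩ := exists_kappaJ (c * N) p hp
  have hW : ∀ (n : ℕ) (ξ : LatChar (c * N)), κ n (ξ.comp tW) = W (κ n ξ) := by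
    intro n ξ
    apply conC_injective (c * N)
    rw [hκ]
    exact (hbW κC hmon n ξ (κ n ξ) (hκ n ξ)).symm
  -- the eigenvector on the period lattice
  have hint : Algebra.IsIntegral ℤ chig.range := isIntegral_range_of_heckeAlgebra _ chig
  have hι : Function.Injective iota := injective_of_isIntegral_of_charZero iota
  have hG : oldForm (Dvd.intro_left c rfl : N ∣ c * N) 2 g ≠ 0 := by
    intro h
    apply hg.ne_zero
    apply oldForm_injective (Dvd.intro_left c rfl : N ∣ c * N) 2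
    rw [h, map_zero]
  obtain ⟨x0, hx0, hxeq⟩ := exists_latChar_eigen (c * N) hG chig.range iota hι
  -- the three families of eigen-equations
  have hxT : ∀ (ℓ : GoodPrime p (c * N) S) (lam : perLat (c * N)),
      x0 (hTr (c * N) (MvPolynomial.X ℓ.toPrimes) lam) =
        (iota.comp chig.rangeRestrict) (goodT hNM ℓ) * x0 lam := by
    intro ℓ lam
    have hℓM : ¬ (ℓ.toPrimes : ℕ) ∣ c * N := fun h => ℓ.2.2.1 (Dvd.dvd.mul_right h p)
    have ha : qCoeff ⇑g (ℓ.toPrimes : ℕ) ∈ chig.range := ⟨goodT hNM ℓ, hchig _ _ _ _⟩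
    rw [hxeq _ ⟨_, ha⟩ (fun lam => evG_hTr_X_of_not_dvd (c * N) ℓ.toPrimes hℓM
      (oldForm_heckeTLin_eigen c hg.1 ℓ.toPrimes.2 hℓM) lam) lam]
    congr 1
    rw [RingHom.comp_apply]
    congr 1
    apply Subtype.ext
    exact (hchig _ _ _ _).symm
  have hxU : ∀ lam : perLat (c * N), x0 (hTr (c * N) (MvPolynomial.X q) lam) = 0 := by
    intro lam
    have h := hxeq (hTr (c * N) (MvPolynomial.X q)) 0 (fun lam => by
      rw [evG_hTr_X_of_dvd (c * N) q hqM (a := 0)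
        (by rw [heckeULin_oldForm_eq_zero hg q.2 hq2 c hqM, zero_smul]) lam]
      rfl) lam
    rw [h, map_zero, zero_mul]
  have hxUW : ∀ lam : perLat (c * N),
      x0 ((tW.comp (hTr (c * N) (MvPolynomial.X q))) lam) = 0 := by
    intro lam
    have h := hxeq (tW.comp (hTr (c * N) (MvPolynomial.X q))) 0 (fun lam => by
      rw [AddMonoidHom.comp_apply, evG_apply, htW,
        ← evG_apply (c * N) (Wd.atkinLehner (oldForm (Dvd.intro_left c rfl : N ∣ c * N) 2 g)),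
        evG_hTr_X_of_dvd (c * N) q hqM (a := 0)
          (by rw [heckeULin_atkinLehner_oldForm_eq_zero hg q.2 hq2 c hqM hQN Wd, zero_smul])
          lam, zero_mul]
      exact (zero_mul _).symm) lam
    rw [h, map_zero, zero_mul]
  obtain ⟨x, hx, hKer, hcut, -⟩ := exists_cutVec D κ h1 h2 h3
    (fun n ℓ ξ => hT n ℓ.toPrimes (GoodPrime.not_dvd ℓ) ξ)
    (padicInt_injective_of_domain_charZero (algebraMap ℤ_[p] O'))
    (iota.comp chig.rangeRestrict) x0 hx0 hxT
  refine ⟨x, hx, mem_cut_prod D _ _ ?_ ?_, hKer⟩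
  · exact hcut (Fermat.Agent.T2.helper48.uJ (c * N) q) (hTr (c * N) (MvPolynomial.X q)) κ h1
      (fun n ξ => (hU n q hqM ξ).symm) hxU
  · refine hcut ((Fermat.Agent.T2.helper48.uJ (c * N) q).comp W)
      (tW.comp (hTr (c * N) (MvPolynomial.X q))) κ h1 (fun n ξ => ?_) hxUW
    rw [AddMonoidHom.comp_apply, ← hW, ← hU n q hqM (ξ.comp tW)]
    rfl

/-- **(EV) of S36**, single form: the eigenvector of `g` in `cut U_q`. -/
theorem eigenVecCut_uJ {g : CuspForm (Gamma0 N) 2} (hg : g.IsNewform)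
    {M : ℕ} [NeZero M] {hNM : N ∣ M} (D : helper67.TateGeom p N S M hNM)
    {O' : Type} [CommRing O'] [IsDomain O'] [CharZero O'] [Algebra ℤ_[p] O']
    (chig : CuspForm.heckeAlgebra N 2 (↑S : Set ℕ) →+* ℂ)
    (hchig : ∀ (ℓ : ℕ) (hℓ : ℓ.Prime) (hℓN : ¬ ℓ ∣ N) (hℓS : ℓ ∉ (↑S : Set ℕ)),
      chig (CuspForm.heckeAlgebra.T hℓ hℓN hℓS) = qCoeff g ℓ)
    (iota : chig.range →+* O')
    (q : Nat.Primes) (hq2 : (q : ℕ) ^ 2 ∣ N) :
    EigenVecCutStatement D (iota.comp chig.rangeRestrict)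
      (Fermat.Agent.T2.helper48.uJ M q) := by
  obtain ⟨c, hc⟩ : ∃ c, M = c * N := ⟨M / N, (Nat.div_mul_cancel hNM).symm⟩
  subst hc
  have hp : 0 < p := (Fact.out : p.Prime).pos
  have hqN : (q : ℕ) ∣ N := (Dvd.intro_left ((q : ℕ) ^ 1) (by rw [← pow_succ])).trans hq2
  have hqM : (q : ℕ) ∣ c * N := hqN.trans hNM
  obtain ⟨κC, κ, hmon, hκ, h1, h2, h3, hT, hU⟩ := exists_kappaJ (c * N) p hp
  have hint : Algebra.IsIntegral ℤ chig.range := isIntegral_range_of_heckeAlgebra _ chig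
  have hι : Function.Injective iota := injective_of_isIntegral_of_charZero iota
  have hG : oldForm (Dvd.intro_left c rfl : N ∣ c * N) 2 g ≠ 0 := by
    intro h
    apply hg.ne_zero
    apply oldForm_injective (Dvd.intro_left c rfl : N ∣ c * N) 2
    rw [h, map_zero]
  obtain ⟨x0, hx0, hxeq⟩ := exists_latChar_eigen (c * N) hG chig.range iota hι
  have hxT : ∀ (ℓ : GoodPrime p (c * N) S) (lam : perLat (c * N)),
      x0 (hTr (c * N) (MvPolynomial.X ℓ.toPrimes) lam) =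
        (iota.comp chig.rangeRestrict) (goodT hNM ℓ) * x0 lam := by
    intro ℓ lam
    have hℓM : ¬ (ℓ.toPrimes : ℕ) ∣ c * N := fun h => ℓ.2.2.1 (Dvd.dvd.mul_right h p)
    have ha : qCoeff ⇑g (ℓ.toPrimes : ℕ) ∈ chig.range := ⟨goodT hNM ℓ, hchig _ _ _ _⟩
    rw [hxeq _ ⟨_, ha⟩ (fun lam => evG_hTr_X_of_not_dvd (c * N) ℓ.toPrimes hℓM
      (oldForm_heckeTLin_eigen c hg.1 ℓ.toPrimes.2 hℓM) lam) lam]
    congr 1
    rw [RingHom.comp_apply]
    congr 1
    apply Subtype.ext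
    exact (hchig _ _ _ _).symm
  have hxU : ∀ lam : perLat (c * N), x0 (hTr (c * N) (MvPolynomial.X q) lam) = 0 := by
    intro lam
    have h := hxeq (hTr (c * N) (MvPolynomial.X q)) 0 (fun lam => by
      rw [evG_hTr_X_of_dvd (c * N) q hqM (a := 0)
        (by rw [heckeULin_oldForm_eq_zero hg q.2 hq2 c hqM, zero_smul]) lam]
      rfl) lam
    rw [h, map_zero, zero_mul]
  obtain ⟨x, hx, hKer, hcut, -⟩ := exists_cutVec D κ h1 h2 h3
    (fun n ℓ ξ => hT n ℓ.toPrimes (GoodPrime.not_dvd ℓ) ξ)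
    (padicInt_injective_of_domain_charZero (algebraMap ℤ_[p] O'))
    (iota.comp chig.rangeRestrict) x0 hx0 hxT
  exact ⟨x, hx, hcut (Fermat.Agent.T2.helper48.uJ (c * N) q) (hTr (c * N) (MvPolynomial.X q))
    κ h1 (fun n ξ => (hU n q hqM ξ).symm) hxU, hKer⟩

end EV

end Fermat.Agent.T3.helper5

end
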