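/-
TIER 3 (S36), [T3-ASM] (helper72): the frozen statement S36 from the function-field core of
(NEW-INV) at the auxiliary levels `M = N' * q * q`, `N' = c * (N / q²)`, `c = 9` for `q = 2` and
`c = 4` for odd `q`.

Everything else is unconditional and plugged in here: strong S30 (P3), the Tate data with
projections at the good levels (P3 + P2-CORE), the eigenvector (EV) in the cut
`(U_q, U_q ∘ W_{q²})` (helper5 + helper48: `eigenVecCut_uJ_pair`, `bridgeWSq`), the Kummer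
wiring (`helper72_Kum3`), Kolchin + the final wire (helper34: `s36_of_core`).

* `NewCoreAtAuxLevels`   : **the open box**: for `N'` good, `q ∤ N'`, `p ≠ q` there are a constant
  `C ≠ 0` and ONE place `A` over `q` with `NewCoreStatement N' q A (p ^ k) C` for all `k`.
* `s36Core_of_newCore`   : `NewCoreAtAuxLevels → helper34.S36CoreStatement`.
* `s36_of_newCore`       : the frozen S36 (verbatim binders) from `NewCoreAtAuxLevels`.
-/
import Fermat.Agent.T3.helper72_Kum3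
import Fermat.Agent.T3.helper5_EigenVecCut
import Fermat.Agent.T2.helper76_Asm35

set_option autoImplicit false
set_option linter.unusedSectionVars false
set_option linter.style.haveILetI false

open Polynomial

noncomputable section

namespace Fermat.Agent.T3.helper72

open Fermat.Agent.P3 Fermat.Agent.S18.helper19 Fermat.Agent.T2.helper76

/-- **The open box of S36**: the function-field core of (NEW-INV) at the levels `N' * q * q`,
`q ∤ N'`, `N'` good, for one place over `q`, all powers of `p ≠ q` and a constant `C ≠ 0`. -/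
def NewCoreAtAuxLevels : Prop :=
  ∀ (N' q : ℕ) [NeZero N'] [NeZero q] (hq : q.Prime) (hqN : ¬ q ∣ N') (p : ℕ), p.Prime →
    p ≠ q → (4 ∣ N' ∨ 9 ∣ N') →
      ∃ (C : ℕ) (A : ValuationSubring Kb), C ≠ 0 ∧ A.LiesOverPrime q ∧
        ∀ k : ℕ, NewCoreStatement N' q hq hqN A (p ^ k) C

/-- The auxiliary level of S36 in the form `N' * q * q = c * N`. -/
theorem exists_auxLevel36 {N q : ℕ} [NeZero N] (hq : q.Prime) (hq2 : N.factorization q = 2) :
    ∃ c N' : ℕ, N' ≠ 0 ∧ N' * q * q = c * N ∧ ¬ q ∣ N' ∧ (4 ∣ N' ∨ 9 ∣ N') ∧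
      GoodLevel (N' * q * q) ∧ q ^ 2 ∣ N ∧ q * q ∣ N := by
  have hN0 : N ≠ 0 := NeZero.ne N
  have hdvd : q ^ 2 ∣ N := by
    rw [← hq2]
    exact Nat.ordProj_dvd N q
  obtain ⟨N₁, hN₁⟩ := hdvd
  have hN₁0 : N₁ ≠ 0 := by
    rintro rfl
    exact hN0 (by rw [hN₁, mul_zero])
  have hqN₁ : ¬ q ∣ N₁ := by
    rintro ⟨k, hk⟩
    have h3 : q ^ 3 ∣ N := ⟨k, by rw [hN₁, hk]; ring⟩
    have := (hq.pow_dvd_iff_le_factorization hN0).mp h3
    omega
  have hqq : q * q ∣ N := ⟨N₁, by rw [hN₁]; ring⟩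
  by_cases h2 : q = 2
  · refine ⟨9, 9 * N₁, Nat.mul_ne_zero (by norm_num) hN₁0, by rw [hN₁]; ring, ?_,
      Or.inr (Dvd.intro _ rfl), Or.inr ⟨N₁ * q * q, by ring⟩, ⟨N₁, hN₁⟩, hqq⟩
    intro h
    rcases (Nat.Prime.dvd_mul hq).mp h with h9 | h9
    · rw [h2] at h9
      norm_num at h9
    · exact hqN₁ h9
  · refine ⟨4, 4 * N₁, Nat.mul_ne_zero (by norm_num) hN₁0, by rw [hN₁]; ring, ?_,
      Or.inl (Dvd.intro _ rfl), Or.inl ⟨N₁ * q * q, by ring⟩, ⟨N₁, hN₁⟩, hqq⟩
    intro h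
    rcases (Nat.Prime.dvd_mul hq).mp h with h4 | h4
    · have h5 : q ∣ 2 ^ 2 := by norm_num; exact h4
      exact h2 ((Nat.prime_dvd_prime_iff_eq hq Nat.prime_two).mp (hq.dvd_of_dvd_pow h5))
    · exact hqN₁ h4

/-- **[T3-ASM]** the geometric input of S36 from the function-field core at the auxiliary
levels. -/
theorem s36Core_of_newCore (hF : NewCoreAtAuxLevels) : helper34.S36CoreStatement := by
  intro N _ g hg p _ S O' _ _ _ _ _ _ _ hpO' hp2 chig hchig iota hpS hNS q hq hqp hq2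
  have hp : p.Prime := Fact.out
  haveI : NeZero q := ⟨hq.ne_zero⟩
  obtain ⟨c, N', hN'0, hlevel, hqN', hN', hM, hqsq, hqq⟩ := exists_auxLevel36 hq hq2
  haveI : NeZero N' := ⟨hN'0⟩
  have hNM : N ∣ N' * q * q := ⟨c, by rw [hlevel]; ring⟩
  obtain ⟨D⟩ := Fermat.Agent.T2.helper76.tateGeomAtGoodLevels p N S (N' * q * q) hNM hpS hM
  obtain ⟨C, A, hC, hA, hcore⟩ := hF N' q hq hqN' p hp (fun h => hqp h.symm) hN'
  let Wd : ALData (N' * q * q) (q * q) := helper48.alDataSq N' q hq hqN'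
  refine ⟨N' * q * q, inferInstance, hNM, D, _, inferInstance, cutSq N' q hq hqN', C, A, hC, hA,
    kerStable_cutSq hq hqN' p hp.ne_zero, ?_, newInvAt_of_core hq hqN' p hp.ne_zero A C hcore⟩
  exact helper5.eigenVecCut_uJ_pair hg D chig hchig iota ⟨q, hq⟩ hqsq (wSqJ N' q hq hqN') hqq Wd
    (Fermat.Agent.T2.helper17.wTr Wd) (Fermat.Agent.T2.helper17.wTr_apply_pair Wd)
    (fun κC hmon n ξ x hx =>
      helper48.bridgeWSq N' q hq hqN' Wd p hp.pos κC hmon n ξ x hx)

/-- **S36 from the function-field core at the auxiliary levels** (frozen statement, verbatim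
binders). -/
theorem s36_of_newCore (hF : NewCoreAtAuxLevels) :
    ∀ {M : ℕ} [NeZero M] {g : CuspForm (CongruenceSubgroup.Gamma0 M) 2} (_hg : g.IsNewform)
    (lam : ℕ) [Fact lam.Prime]
    (S : Finset ℕ)
    (O' : Type) [CommRing O'] [IsDomain O'] [IsDiscreteValuationRing O']
    [IsAdicComplete (IsLocalRing.maximalIdeal O') O'] [Finite (IsLocalRing.ResidueField O')]
    [CharZero O'] (_hlamO' : (lam : O') ∈ IsLocalRing.maximalIdeal O')
    (_hlam2 : lam ≠ 2)
    (chig : CuspForm.heckeAlgebra M 2 (↑S : Set ℕ) →+* ℂ)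
    (_hchig : ∀ (ℓ : ℕ) (hℓ : ℓ.Prime) (hℓM : ¬ ℓ ∣ M) (hℓS : ℓ ∉ (↑S : Set ℕ)),
      chig (CuspForm.heckeAlgebra.T hℓ hℓM hℓS) = ModularFormClass.qCoeff g ℓ)
    (iota : chig.range →+* O')
    (_hlamS : lam ∈ S) (_hMS : ∀ q : ℕ, q.Prime → q ∣ M → q ∈ S)
    (_hres : ∀ (O'' : Type) [CommRing O''] [IsDomain O''] [IsDiscreteValuationRing O'']
      [IsAdicComplete (IsLocalRing.maximalIdeal O'') O''] [Finite (IsLocalRing.ResidueField O'')]
      [CharZero O'']
      [Algebra O' O''] [Module.Finite O' O''] [IsLocalHom (algebraMap O' O'')],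
      Function.Injective (algebraMap O' O'') → ∀ (ρ : GaloisRepAdic O''),
      (∀ (ℓ : ℕ) (hℓ : ℓ.Prime) (_hℓlam : ℓ ≠ lam) (hℓM : ¬ ℓ ∣ M) (hℓS : ℓ ∉ (↑S : Set ℕ)),
        ∀ A : ValuationSubring (AlgebraicClosure ℚ), A.LiesOverPrime ℓ →
          ∀ σ : AlgebraicClosure ℚ ≃ₐ[ℚ] AlgebraicClosure ℚ, A.IsFrobeniusAt σ ℓ →
            LinearMap.charpoly (ρ.ρ σ) =
              X ^ 2 - C (algebraMap O' O'' ((iota.comp chig.rangeRestrict)
                (CuspForm.heckeAlgebra.T hℓ hℓM hℓS))) * X + C ((ℓ : O'')))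
      → ρ.residual.IsAbsolutelyIrreducible ∧ ρ.residual.IsOdd),
    ∃ (O'' : Type) (_ : CommRing O'') (_ : IsDomain O'') (_ : IsDiscreteValuationRing O'')
      (_ : IsAdicComplete (IsLocalRing.maximalIdeal O'') O'')
      (_ : Finite (IsLocalRing.ResidueField O''))
      (_ : CharZero O'') (_ : Algebra O' O'') (_ : Module.Finite O' O'')
      (_ : IsLocalHom (algebraMap O' O'')),
      Function.Injective (algebraMap O' O'') ∧
      ∃ ρ : GaloisRepAdic O'',
        (∀ (ℓ : ℕ) (hℓ : ℓ.Prime) (hℓM : ¬ ℓ ∣ M) (hℓS : ℓ ∉ (↑S : Set ℕ)),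
          ∀ A : ValuationSubring (AlgebraicClosure ℚ), A.LiesOverPrime ℓ →
            ∀ σ : AlgebraicClosure ℚ ≃ₐ[ℚ] AlgebraicClosure ℚ, A.IsFrobeniusAt σ ℓ →
              LinearMap.charpoly (ρ.ρ σ) =
                X ^ 2 - C (algebraMap O' O'' ((iota.comp chig.rangeRestrict)
                  (CuspForm.heckeAlgebra.T hℓ hℓM hℓS))) * X + C ((ℓ : O''))) ∧
        (∀ q : ℕ, q.Prime → q ≠ lam → M.factorization q = 2 →
          ¬ ρ.IsUnipotentOnInertiaAt q) :=
  helper34.s36_of_core Fermat.Agent.P3.helper32.strongS30 (s36Core_of_newCore hF)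

end Fermat.Agent.T3.helper72

end
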