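/-
TIER 3 (S36), helper72: CONDITIONAL WIRING of the function-field chain (BLUEPRINT T3 v1).

* `uKummer_eq_alpha_nB`     : **[KUM-NEW]** `U_q u = α (N_β u)` at the level `N q q`.
* `normPow_pow_of_core_hyps`: the hypotheses of `NewCoreStatement` give `NormPow n (u ^ q)`.
* `Red3.mul / pow / inv / one` : the calculus of Gauss reductions.
* `NormPow.mul / pow / const / npow` : the calculus of `NormPow`.
* `t03_of_boxes`            : `SCALE3 + NORMPOW3 + APPROX3 ⟹ T03` with `C₁ = Cs q (q - 1)`.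
* `newCore_of_t03_toric`    : `T03 + TORIC ⟹ NewCoreStatement` with `C = q C₁ C₂`.
* `newCoreAtAuxLevels_of_boxes` : the four boxes at all auxiliary levels give
  `NewCoreAtAuxLevels`, hence (by `s36_of_newCore`) the frozen S36.
-/
import Fermat.Agent.T3.helper72_Interface3
import Fermat.Agent.T3.helper72_Asm36
import Fermat.Agent.S54.helper91_Frobenius

set_option autoImplicit false
set_option synthInstance.maxHeartbeats 400000
set_option linter.unusedSectionVars false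
set_option linter.unusedVariables false
set_option linter.style.haveILetI false

noncomputable section

open HahnSeries IntermediateField AlgebraicCurve ModularCurve
open Fermat.Agent.S18.helper19 Fermat.Agent.P2.helper29 Fermat.Agent.P2.helper93
  Fermat.Agent.P3 Fermat.Agent.P3.helper94

namespace Fermat.Agent.T3.helper72

open Fermat.Agent.T3.helper74 (ex3 IsFixI)

variable {N q : ℕ} [NeZero N] [NeZero q]

/-! ### [KUM-NEW] -/

section KumNew

/-- **[KUM-NEW]** `U_q u = α (N_β u)` at the level `N q q`. -/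
theorem uKummer_eq_alpha_nB (hq : q.Prime) (u : FF (N * q * q)) :
    T2.helper48.uKummer (N * q * q) q u = heckeAlphaBar Kb (N * q) q (nB N q u) := by
  obtain ⟨ζ, hζ⟩ := HasEnoughRootsOfUnity.exists_primitiveRoot Kb q
  apply Subtype.ext
  rw [coe_heckeAlphaBar]
  apply Fermat.Agent.P2.helper94.qExpand_injective (R := Kb) q
  rw [T2.helper48.es_norm_U (N * q * q) q hq (dvd_mul_left q (N * q)) ζ hζ u]
  exact (helper98.normBeta_expand (N * q) q hq (dvd_mul_left q N) hζ u).symm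

/-- `N_α (α y) = y ^ q`. -/
theorem nA_alpha (hq : q.Prime) (y : FF (N * q)) :
    nA N q (heckeAlphaBar Kb (N * q) q y) = y ^ q := by
  letI := algebraAlong (heckeAlphaBar Kb (N * q) q)
  have hfr : Module.finrank (FF (N * q)) (FF (N * q * q)) = q :=
    T2.helper48.finrank_alpha_of_dvd (N * q) q hq (dvd_mul_left q N)
  have e : heckeAlphaBar Kb (N * q) q y = algebraMap (FF (N * q)) (FF (N * q * q)) y := rfl
  show Algebra.norm (FF (N * q)) (heckeAlphaBar Kb (N * q) q y) = y ^ q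
  rw [e, Algebra.norm_algebraMap, hfr]

/-- the norm of a constant is a constant -/
theorem nA_const (c : Kb) :
    ∃ d : ℕ, nA N q (algebraMap Kb (FF (N * q * q)) c) = algebraMap Kb (FF (N * q)) (c ^ d) := by
  obtain ⟨d, hd⟩ := norm_along_const (heckeAlphaBar Kb (N * q) q) (heckeAlphaBar Kb (N * q) q) c
  refine ⟨d, ?_⟩
  rw [AlgHom.commutes] at hd
  exact hd

theorem nB_const (c : Kb) :
    ∃ d : ℕ, nB N q (algebraMap Kb (FF (N * q * q)) c) = algebraMap Kb (FF (N * q)) (c ^ d) := by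
  obtain ⟨d, hd⟩ := norm_along_const (heckeBetaBar Kb (N * q) q) (heckeBetaBar Kb (N * q) q) c
  refine ⟨d, ?_⟩
  rw [AlgHom.commutes] at hd
  exact hd

/-- if `α y` is a constant times an `n`-th power in `F_{Nqq}`, then `y ^ q` is a constant times
an `n`-th power in `F_{Nq}`. -/
theorem pow_eq_of_alpha_eq (hq : q.Prime) {n : ℕ} {y : FF (N * q)} {c : Kb}
    {φ : FF (N * q * q)}
    (h : heckeAlphaBar Kb (N * q) q y = algebraMap Kb (FF (N * q * q)) c * φ ^ n) :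
    ∃ (c' : Kb) (w : FF (N * q)), y ^ q = algebraMap Kb (FF (N * q)) c' * w ^ n := by
  obtain ⟨d, hd⟩ := nA_const (N := N) (q := q) c
  refine ⟨c ^ d, nA N q φ, ?_⟩
  rw [← nA_alpha hq y, h, map_mul, map_pow, hd]

/-- **the hypotheses of `NewCoreStatement` in norm form**: if `U_q u` and `U_q (W u)` are
constants times `n`-th powers, then the two norms of `u ^ q` are constants times `n`-th
powers. -/
theorem normPow_pow_of_core_hyps (hq : q.Prime) (hqN : ¬ q ∣ N) {n : ℕ} {u : FF (N * q * q)}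
    (h1 : ∃ (c : Kb) (φ : FF (N * q * q)),
      T2.helper48.uKummer (N * q * q) q u = algebraMap Kb (FF (N * q * q)) c * φ ^ n)
    (h2 : ∃ (c : Kb) (φ : FF (N * q * q)),
      T2.helper48.uKummer (N * q * q) q (helper48.atkinLehnerSq N q hq hqN u)
        = algebraMap Kb (FF (N * q * q)) c * φ ^ n) :
    NormPow N q n (u ^ q) := by
  obtain ⟨c₁, φ₁, e₁⟩ := h1
  obtain ⟨c₂, φ₂, e₂⟩ := h2
  rw [uKummer_eq_alpha_nB hq] at e₁ e₂
  constructor
  · -- `N_α`
    have e₃ : nB N q (helper48.atkinLehnerSq N q hq hqN u)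
        = T2.helper36.atkinLehner N q hq hqN (nA N q u) :=
      (helper98.atkinLehner_normAlpha (hq := hq) (hqN := hqN) u).symm
    rw [e₃] at e₂
    obtain ⟨c', w, hw⟩ := pow_eq_of_alpha_eq hq e₂
    refine ⟨c', T2.helper36.atkinLehner N q hq hqN w, ?_⟩
    have h3 := congrArg (T2.helper36.atkinLehner N q hq hqN) hw
    rw [map_pow, T2.helper36.atkinLehner_atkinLehner, map_mul, AlgEquiv.commutes, map_pow] at h3
    rw [map_pow]
    exact h3
  · -- `N_β`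
    obtain ⟨c', w, hw⟩ := pow_eq_of_alpha_eq hq e₁
    exact ⟨c', w, by rw [map_pow]; exact hw⟩

end KumNew

/-! ### The calculus of `NormPow` -/

section NormPowCalc

theorem NormPow.mul {n : ℕ} {f g : FF (N * q * q)} (hf : NormPow N q n f)
    (hg : NormPow N q n g) : NormPow N q n (f * g) := by
  obtain ⟨⟨c₁, w₁, e₁⟩, ⟨c₂, w₂, e₂⟩⟩ := hf
  obtain ⟨⟨d₁, v₁, f₁⟩, ⟨d₂, v₂, f₂⟩⟩ := hg
  refine ⟨⟨c₁ * d₁, w₁ * v₁, ?_⟩, ⟨c₂ * d₂, w₂ * v₂, ?_⟩⟩
  · rw [map_mul, e₁, f₁, map_mul, mul_pow]; ring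
  · rw [map_mul, e₂, f₂, map_mul, mul_pow]; ring

theorem normPow_one (n : ℕ) : NormPow N q n (1 : FF (N * q * q)) :=
  ⟨⟨1, 1, by rw [map_one, map_one, one_pow, one_mul]⟩,
    ⟨1, 1, by rw [map_one, map_one, one_pow, one_mul]⟩⟩

theorem NormPow.pow {n : ℕ} {f : FF (N * q * q)} (hf : NormPow N q n f) (m : ℕ) :
    NormPow N q n (f ^ m) := by
  induction m with
  | zero => rw [pow_zero]; exact normPow_one n
  | succ k ih => rw [pow_succ]; exact ih.mul hf

theorem normPow_const (n : ℕ) (c : Kb) :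
    NormPow N q n (algebraMap Kb (FF (N * q * q)) c) := by
  obtain ⟨d, hd⟩ := nA_const (N := N) (q := q) c
  obtain ⟨d', hd'⟩ := nB_const (N := N) (q := q) c
  exact ⟨⟨c ^ d, 1, by rw [hd, one_pow, mul_one]⟩, ⟨c ^ d', 1, by rw [hd', one_pow, mul_one]⟩⟩

theorem normPow_npow (n : ℕ) (g : FF (N * q * q)) : NormPow N q n (g ^ n) :=
  ⟨⟨1, nA N q g, by rw [map_pow, map_one, one_mul]⟩,
    ⟨1, nB N q g, by rw [map_pow, map_one, one_mul]⟩⟩

end NormPowCalc

/-! ### The calculus of Gauss reductions -/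

section Red3Calc

variable {hq : q.Prime} {hqN : ¬ q ∣ N} {A : ValuationSubring Kb} {ζ : Kb}
  {hζ : IsPrimitiveRoot ζ q}

theorem red3_one (i : Fin 3) : Red3 N q hq hqN A hζ i 1 1 :=
  ⟨1, 1, by rw [map_one]; exact one_ne_zero, by rw [map_one, map_one, one_mul],
    by rw [map_one, one_mul]⟩

theorem Red3.mul {i : Fin 3} {f g : FF (N * q * q)} {x y : LaurentSeries (kA A)}
    (hf : Red3 N q hq hqN A hζ i f x) (hg : Red3 N q hq hqN A hζ i g y) :
    Red3 N q hq hqN A hζ i (f * g) (x * y) := by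
  obtain ⟨Y₁, Y₂, h0, e, r⟩ := hf
  obtain ⟨Z₁, Z₂, k0, e', r'⟩ := hg
  refine ⟨Y₁ * Z₁, Y₂ * Z₂, ?_, ?_, ?_⟩
  · rw [map_mul]
    exact mul_ne_zero h0 k0
  · rw [map_mul, map_mul, map_mul, e, e']
    ring
  · rw [map_mul, map_mul, r, r']
    ring

theorem Red3.pow {i : Fin 3} {f : FF (N * q * q)} {x : LaurentSeries (kA A)}
    (hf : Red3 N q hq hqN A hζ i f x) (m : ℕ) :
    Red3 N q hq hqN A hζ i (f ^ m) (x ^ m) := by
  induction m with
  | zero => rw [pow_zero, pow_zero]; exact red3_one i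
  | succ k ih => rw [pow_succ, pow_succ]; exact ih.mul hf

theorem Red3.inv {i : Fin 3} {f : FF (N * q * q)} {x : LaurentSeries (kA A)}
    (hf : Red3 N q hq hqN A hζ i f x) (hx : x ≠ 0) :
    Red3 N q hq hqN A hζ i f⁻¹ x⁻¹ := by
  obtain ⟨Y₁, Y₂, h0, e, r⟩ := hf
  have hY₁ : red A Y₁ ≠ 0 := by
    rw [r]
    exact mul_ne_zero hx h0
  have hiY₁ : incl A Y₁ ≠ 0 := by
    intro h
    have h1 : Y₁ = 0 := coeffMap_subtype_injective (h.trans (map_zero (incl A)).symm)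
    exact hY₁ (by rw [h1, map_zero])
  have hE : ex3 N q hq hqN hζ i f ≠ 0 := by
    intro h
    rw [h, zero_mul] at e
    exact hiY₁ e
  refine ⟨Y₂, Y₁, hY₁, ?_, ?_⟩
  · rw [map_inv₀, e]
    field_simp
  · rw [r]
    field_simp

end Red3Calc

/-! ### The wiring -/

section Wire

variable (hq : q.Prime) (hqN : ¬ q ∣ N) (A : ValuationSubring Kb) {ζ : Kb}
  (hζ : IsPrimitiveRoot ζ q)

theorem isFixI_mul {M : ℕ} {f g : FF M} (hf : IsFixI A M f) (hg : IsFixI A M g) :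
    IsFixI A M (f * g) := fun σ hσ => by rw [map_mul, hf σ hσ, hg σ hσ]

theorem isFixI_pow {M : ℕ} {f : FF M} (hf : IsFixI A M f) (m : ℕ) : IsFixI A M (f ^ m) :=
  fun σ hσ => by rw [map_pow, hf σ hσ]

theorem isFixI_inv {M : ℕ} {f : FF M} (hf : IsFixI A M f) : IsFixI A M f⁻¹ :=
  fun σ hσ => by rw [map_inv₀, hf σ hσ]

theorem isFixI_const {M : ℕ} {c : Kb} (hc : ∀ σ ∈ A.inertiaSubgroupIn ℚ, σ c = c) :
    IsFixI A M (algebraMap Kb (FF M) c) := fun σ hσ => by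
  rw [arithmeticRingAut_algebraMap, hc σ hσ]

/-- **`SCALE3 + NORMPOW3 + APPROX3 ⟹ T03`**, with `C₁ = Cs · q · (q - 1)`. -/
theorem t03_of_boxes {n Cs : ℕ}
    (hS : Scale3Statement N q hq hqN A hζ n Cs) (hP : NormPow3Statement N q hq hqN A hζ n)
    (hAp : Approx3Statement N q hq hqN A hζ) :
    T03Statement N q hq hqN A hζ n (Cs * (q * (q - 1))) := by
  intro h hh hfix hdiv hnp
  obtain ⟨g, c, X, hg, hc, hgfix, hcfix, hX, hred⟩ := hS h hh hfix hdiv hnp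
  set h₁ : FF (N * q * q) := algebraMap Kb (FF (N * q * q)) c * g ^ n * h ^ Cs with hh₁
  have hc' : algebraMap Kb (FF (N * q * q)) c ≠ 0 := (map_ne_zero _).mpr hc
  have hh₁0 : h₁ ≠ 0 := mul_ne_zero (mul_ne_zero hc' (pow_ne_zero n hg)) (pow_ne_zero Cs hh)
  have hh₁fix : IsFixI A (N * q * q) h₁ :=
    isFixI_mul A (isFixI_mul A (isFixI_const A hcfix) (isFixI_pow A hgfix n))
      (isFixI_pow A hfix Cs)
  have hh₁np : NormPow N q n h₁ := ((normPow_const n c).mul (normPow_npow n g)).mul (hnp.pow Cs)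
  obtain ⟨Y, hYF, hY0, hXY⟩ := hP h₁ X hh₁0 hh₁fix hX hred hh₁np
  obtain ⟨G, hG0, hGfix, hGred⟩ := hAp Y hYF hY0
  refine ⟨g ^ (q * (q - 1)) * G⁻¹, c ^ (q * (q - 1)),
    mul_ne_zero (pow_ne_zero _ hg) (inv_ne_zero hG0), pow_ne_zero _ hc, ?_, ?_⟩
  · have e : algebraMap Kb (FF (N * q * q)) (c ^ (q * (q - 1))) * (g ^ (q * (q - 1)) * G⁻¹) ^ n
        * h ^ (Cs * (q * (q - 1))) = h₁ ^ (q * (q - 1)) * (G ^ n)⁻¹ := by
      rw [hh₁, map_pow, mul_pow, mul_pow, mul_pow, inv_pow, ← pow_mul, ← pow_mul, ← pow_mul,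
        mul_comm n (q * (q - 1))]
      ring
    rw [e]
    exact isFixI_mul A (isFixI_pow A hh₁fix _) (isFixI_inv A (isFixI_pow A hGfix n))
  · intro i
    have e : algebraMap Kb (FF (N * q * q)) (c ^ (q * (q - 1))) * (g ^ (q * (q - 1)) * G⁻¹) ^ n
        * h ^ (Cs * (q * (q - 1))) = h₁ ^ (q * (q - 1)) * (G ^ n)⁻¹ := by
      rw [hh₁, map_pow, mul_pow, mul_pow, mul_pow, inv_pow, ← pow_mul, ← pow_mul, ← pow_mul,
        mul_comm n (q * (q - 1))]
      ring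
    rw [e]
    have hYn : Y i ^ n ≠ 0 := pow_ne_zero n (hY0 i)
    have h1 := ((hred i).pow (q * (q - 1))).mul (((hGred i).pow n).inv hYn)
    have e1 : X i ^ (q * (q - 1)) * (Y i ^ n)⁻¹ = 1 := by
      rw [hXY i, mul_inv_cancel₀ hYn]
    rwa [e1] at h1

/-- **`T03 + TORIC ⟹` the function-field core of (NEW-INV)**, with `C = q · C₁ · C₂`. -/
theorem newCore_of_t03_toric {n C₁ C₂ : ℕ} (hn : n ≠ 0)
    (hT : T03Statement N q hq hqN A hζ n C₁) (hTor : ToricStatement N q hq hqN A hζ n C₂) :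
    NewCoreStatement N q hq hqN A n (q * C₁ * C₂) := by
  intro u hu hdiv hfix h1 h2
  have hnp : NormPow N q n (u ^ q) := normPow_pow_of_core_hyps hq hqN h1 h2
  have hufix : IsFixI A (N * q * q) u := hfix
  have huq0 : u ^ q ≠ 0 := pow_ne_zero q hu
  have hdivq : ∀ P : Place Kb (FF (N * q * q)), (n : ℤ) ∣ P.ord (u ^ q) := by
    intro P
    rw [← zpow_natCast, P.ord_zpow]
    exact Dvd.dvd.mul_left (hdiv P) _
  obtain ⟨g, c, hg, hc, hfix', hone⟩ := hT (u ^ q) huq0 (isFixI_pow A hufix q) hdivq hnp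
  set h' : FF (N * q * q) := algebraMap Kb (FF (N * q * q)) c * g ^ n * (u ^ q) ^ C₁ with hh'
  have hc' : algebraMap Kb (FF (N * q * q)) c ≠ 0 := (map_ne_zero _).mpr hc
  have hh'0 : h' ≠ 0 :=
    mul_ne_zero (mul_ne_zero hc' (pow_ne_zero n hg)) (pow_ne_zero C₁ huq0)
  have hdiv' : ∀ P : Place Kb (FF (N * q * q)), (n : ℤ) ∣ P.ord h' := by
    intro P
    rw [hh', P.ord_mul (mul_ne_zero hc' (pow_ne_zero n hg)) (pow_ne_zero C₁ huq0),
      P.ord_mul hc' (pow_ne_zero n hg), Fermat.Agent.S24.helper75.place_ord_algebraMap, zero_add,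
      ← zpow_natCast, P.ord_zpow, ← zpow_natCast (u ^ q), P.ord_zpow]
    exact dvd_add (dvd_mul_right _ _) (Dvd.dvd.mul_left (hdivq P) _)
  have hnp' : NormPow N q n h' := ((normPow_const n c).mul (normPow_npow n g)).mul (hnp.pow C₁)
  obtain ⟨c₂, v, hv⟩ := hTor h' hh'0 hfix' hdiv' hone hnp'
  refine ⟨c₂ * (c ^ C₂)⁻¹, v * (g ^ C₂)⁻¹, ?_⟩
  have hcC : algebraMap Kb (FF (N * q * q)) c ^ C₂ ≠ 0 := pow_ne_zero _ hc'
  have hgC : (g ^ C₂) ^ n ≠ 0 := pow_ne_zero _ (pow_ne_zero _ hg)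
  have e : h' ^ C₂ = algebraMap Kb (FF (N * q * q)) c ^ C₂ * (g ^ C₂) ^ n * u ^ (q * C₁ * C₂) := by
    rw [hh', mul_pow, mul_pow, ← pow_mul, ← pow_mul, ← pow_mul, ← pow_mul, mul_comm n C₂,
      mul_assoc q C₁ C₂]
  rw [e] at hv
  rw [map_mul, map_inv₀, map_pow, mul_pow, inv_pow]
  field_simp
  linear_combination hv

end Wire

/-! ### The boxes at the auxiliary levels -/

section Aux

/-- **S36 from the four boxes.**  If [SCALE3], [NORMPOW3], [APPROX3] and [TORIC] hold at all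
auxiliary levels `N' * q * q` (`N'` good, `q ∤ N'`), for all places over `q`, all primitive
`q`-th roots of unity and all powers of `p ≠ q`, with constants `Cs q`, `C₂ q ≠ 0`, then
`NewCoreAtAuxLevels` holds. -/
theorem newCoreAtAuxLevels_of_boxes (Cs C₂ : ℕ → ℕ) (hCs : ∀ q : ℕ, q.Prime → Cs q ≠ 0)
    (hC₂ : ∀ q : ℕ, q.Prime → C₂ q ≠ 0)
    (hS : ∀ (N' q : ℕ) [NeZero N'] [NeZero q] (hq : q.Prime) (hqN : ¬ q ∣ N') (p : ℕ),
      p.Prime → p ≠ q → (4 ∣ N' ∨ 9 ∣ N') → ∀ A : ValuationSubring Kb, A.LiesOverPrime q →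
        ∀ (ζ : Kb) (hζ : IsPrimitiveRoot ζ q) (k : ℕ),
          Scale3Statement N' q hq hqN A hζ (p ^ k) (Cs q))
    (hP : ∀ (N' q : ℕ) [NeZero N'] [NeZero q] (hq : q.Prime) (hqN : ¬ q ∣ N') (p : ℕ),
      p.Prime → p ≠ q → (4 ∣ N' ∨ 9 ∣ N') → ∀ A : ValuationSubring Kb, A.LiesOverPrime q →
        ∀ (ζ : Kb) (hζ : IsPrimitiveRoot ζ q) (k : ℕ),
          NormPow3Statement N' q hq hqN A hζ (p ^ k))
    (hAp : ∀ (N' q : ℕ) [NeZero N'] [NeZero q] (hq : q.Prime) (hqN : ¬ q ∣ N'),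
      (4 ∣ N' ∨ 9 ∣ N') → ∀ A : ValuationSubring Kb, A.LiesOverPrime q →
        ∀ (ζ : Kb) (hζ : IsPrimitiveRoot ζ q), Approx3Statement N' q hq hqN A hζ)
    (hT : ∀ (N' q : ℕ) [NeZero N'] [NeZero q] (hq : q.Prime) (hqN : ¬ q ∣ N') (p : ℕ),
      p.Prime → p ≠ q → (4 ∣ N' ∨ 9 ∣ N') → ∀ A : ValuationSubring Kb, A.LiesOverPrime q →
        ∀ (ζ : Kb) (hζ : IsPrimitiveRoot ζ q) (k : ℕ),
          ToricStatement N' q hq hqN A hζ (p ^ k) (C₂ q)) :
    NewCoreAtAuxLevels := by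
  intro N' q _ _ hq hqN p hp hpq hN'
  obtain ⟨A, hA⟩ := Fermat.Agent.S54.helper91.exists_valuationSubring_liesOver hq
  obtain ⟨ζ, hζ⟩ := HasEnoughRootsOfUnity.exists_primitiveRoot Kb q
  have hq1 : q - 1 ≠ 0 := by
    have := hq.two_le
    omega
  refine ⟨q * (Cs q * (q * (q - 1))) * C₂ q, A,
    Nat.mul_ne_zero (Nat.mul_ne_zero hq.ne_zero (Nat.mul_ne_zero (hCs q hq)
      (Nat.mul_ne_zero hq.ne_zero hq1))) (hC₂ q hq), hA, fun k => ?_⟩
  exact newCore_of_t03_toric hq hqN A hζ (pow_ne_zero k hp.ne_zero)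
    (t03_of_boxes hq hqN A hζ (hS N' q hq hqN p hp hpq hN' A hA ζ hζ k)
      (hP N' q hq hqN p hp hpq hN' A hA ζ hζ k) (hAp N' q hq hqN hN' A hA ζ hζ))
    (hT N' q hq hqN p hp hpq hN' A hA ζ hζ k)

end Aux

end Fermat.Agent.T3.helper72

end
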