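/-
TIER 3 (S36), [T3-ASM v2] (helper72): the assembly of S36 with the auxiliary levels that are
ACTUALLY used (`9 ∣ N'` for `q = 2`, `4 ∣ N'` for odd `q`) and with `p ≠ 2` handed to the boxes
(request of helper63: MIDGEN exists for odd `q` only at `4 ∣ N'`).

* `AuxOK q N'`              : `(q = 2 ∧ 9 ∣ N') ∨ (q ≠ 2 ∧ 4 ∣ N')`.
* `NewCoreAtAuxLevels2`     : the open box at these levels, for odd `p ≠ q`.
* `s36Core_of_newCore2`     : `NewCoreAtAuxLevels2 → helper34.S36CoreStatement` (S36 and S58).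
* `s36_of_newCore2`         : the frozen S36 (verbatim binders).
* `newCoreAtAuxLevels2_of_boxesAt` : from the four boxes in the WEAKEST form (constants, the
  place `A` and the root of unity may depend on `N', q, p`).
* `newCoreAtAuxLevels2_of_boxes`   : from the four boxes for all places and roots of unity.
-/
import Fermat.Agent.T3.helper72_Wire3

set_option autoImplicit false
set_option linter.unusedSectionVars false
set_option linter.unusedVariables false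
set_option linter.style.haveILetI false

open Polynomial

noncomputable section

namespace Fermat.Agent.T3.helper72

open Fermat.Agent.P3 Fermat.Agent.S18.helper19 Fermat.Agent.T2.helper76

/-- the auxiliary levels of S36: `9 ∣ N'` for `q = 2`, `4 ∣ N'` for odd `q`. -/
def AuxOK (q N' : ℕ) : Prop := (q = 2 ∧ 9 ∣ N') ∨ (q ≠ 2 ∧ 4 ∣ N')

theorem AuxOK.good {q N' : ℕ} (h : AuxOK q N') : 4 ∣ N' ∨ 9 ∣ N' := by
  rcases h with ⟨-, h⟩ | ⟨-, h⟩
  · exact Or.inr h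
  · exact Or.inl h

theorem auxOK_two {N' : ℕ} (h : 9 ∣ N') : AuxOK 2 N' := Or.inl ⟨rfl, h⟩

theorem auxOK_odd {q N' : ℕ} (hq : q ≠ 2) (h : 4 ∣ N') : AuxOK q N' := Or.inr ⟨hq, h⟩

/-- **The open box of S36, v2**: the function-field core of (NEW-INV) at the levels
`N' * q * q`, `q ∤ N'`, `AuxOK q N'`, for one place over `q`, all powers of an odd prime `p ≠ q`
and a constant `C ≠ 0`. -/
def NewCoreAtAuxLevels2 : Prop :=
  ∀ (N' q : ℕ) [NeZero N'] [NeZero q] (hq : q.Prime) (hqN : ¬ q ∣ N') (p : ℕ), p.Prime →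
    p ≠ q → p ≠ 2 → AuxOK q N' →
      ∃ (C : ℕ) (A : ValuationSubring Kb), C ≠ 0 ∧ A.LiesOverPrime q ∧
        ∀ k : ℕ, NewCoreStatement N' q hq hqN A (p ^ k) C

theorem newCoreAtAuxLevels2_of_newCore (h : NewCoreAtAuxLevels) : NewCoreAtAuxLevels2 :=
  fun N' q _ _ hq hqN p hp hpq _ hN' => h N' q hq hqN p hp hpq hN'.good

/-- The auxiliary level of S36 in the form `N' * q * q = c * N`, with `AuxOK q N'`. -/
theorem exists_auxLevel36v2 {N q : ℕ} [NeZero N] (hq : q.Prime) (hq2 : N.factorization q = 2) :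
    ∃ c N' : ℕ, N' ≠ 0 ∧ N' * q * q = c * N ∧ ¬ q ∣ N' ∧ AuxOK q N' ∧
      GoodLevel (N' * q * q) ∧ q ^ 2 ∣ N ∧ q * q ∣ N := by
  have hN0 : N ≠ 0 := NeZero.ne N
  have hdvd : q ^ 2 ∣ N := by
    rw [← hq2]
    exact Nat.ordProj_dvd N q
  obtain ⟨N₁, hN₁⟩ := hdvd
  have hN₁0 : N₁ ≠ 0 := by
    rintro rfl
    exact hN0 (by rw [hN₁, mul_zero])
  have hqN₁ : ¬ q ∣ N₁ := by
    rintro ⟨k, hk⟩
    have h3 : q ^ 3 ∣ N := ⟨k, by rw [hN₁, hk]; ring⟩
    have := (hq.pow_dvd_iff_le_factorization hN0).mp h3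
    omega
  have hqq : q * q ∣ N := ⟨N₁, by rw [hN₁]; ring⟩
  by_cases h2 : q = 2
  · refine ⟨9, 9 * N₁, Nat.mul_ne_zero (by norm_num) hN₁0, by rw [hN₁]; ring, ?_,
      Or.inl ⟨h2, Dvd.intro _ rfl⟩, Or.inr ⟨N₁ * q * q, by ring⟩, ⟨N₁, hN₁⟩, hqq⟩
    intro h
    rcases (Nat.Prime.dvd_mul hq).mp h with h9 | h9
    · rw [h2] at h9
      norm_num at h9
    · exact hqN₁ h9
  · refine ⟨4, 4 * N₁, Nat.mul_ne_zero (by norm_num) hN₁0, by rw [hN₁]; ring, ?_,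
      Or.inr ⟨h2, Dvd.intro _ rfl⟩, Or.inl ⟨N₁ * q * q, by ring⟩, ⟨N₁, hN₁⟩, hqq⟩
    intro h
    rcases (Nat.Prime.dvd_mul hq).mp h with h4 | h4
    · have h5 : q ∣ 2 ^ 2 := by norm_num; exact h4
      exact h2 ((Nat.prime_dvd_prime_iff_eq hq Nat.prime_two).mp (hq.dvd_of_dvd_pow h5))
    · exact hqN₁ h4

/-- **[T3-ASM v2]** the geometric input of S36 (and of S58) from the function-field core at the
auxiliary levels. -/
theorem s36Core_of_newCore2 (hF : NewCoreAtAuxLevels2) : helper34.S36CoreStatement := by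
  intro N _ g hg p _ S O' _ _ _ _ _ _ _ hpO' hp2 chig hchig iota hpS hNS q hq hqp hq2
  have hp : p.Prime := Fact.out
  haveI : NeZero q := ⟨hq.ne_zero⟩
  obtain ⟨c, N', hN'0, hlevel, hqN', hN', hM, hqsq, hqq⟩ := exists_auxLevel36v2 hq hq2
  haveI : NeZero N' := ⟨hN'0⟩
  have hNM : N ∣ N' * q * q := ⟨c, by rw [hlevel]; ring⟩
  obtain ⟨D⟩ := Fermat.Agent.T2.helper76.tateGeomAtGoodLevels p N S (N' * q * q) hNM hpS hM
  obtain ⟨C, A, hC, hA, hcore⟩ := hF N' q hq hqN' p hp (fun h => hqp h.symm) hp2 hN'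
  let Wd : ALData (N' * q * q) (q * q) := helper48.alDataSq N' q hq hqN'
  refine ⟨N' * q * q, inferInstance, hNM, D, _, inferInstance, cutSq N' q hq hqN', C, A, hC, hA,
    kerStable_cutSq hq hqN' p hp.ne_zero, ?_, newInvAt_of_core hq hqN' p hp.ne_zero A C hcore⟩
  exact helper5.eigenVecCut_uJ_pair hg D chig hchig iota ⟨q, hq⟩ hqsq (wSqJ N' q hq hqN') hqq Wd
    (Fermat.Agent.T2.helper17.wTr Wd) (Fermat.Agent.T2.helper17.wTr_apply_pair Wd)
    (fun κC hmon n ξ x hx =>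
      helper48.bridgeWSq N' q hq hqN' Wd p hp.pos κC hmon n ξ x hx)

/-- **S36 from the function-field core at the auxiliary levels, v2** (frozen statement, verbatim
binders). -/
theorem s36_of_newCore2 (hF : NewCoreAtAuxLevels2) :
    ∀ {M : ℕ} [NeZero M] {g : CuspForm (CongruenceSubgroup.Gamma0 M) 2} (_hg : g.IsNewform)
    (lam : ℕ) [Fact lam.Prime]
    (S : Finset ℕ)
    (O' : Type) [CommRing O'] [IsDomain O'] [IsDiscreteValuationRing O']
    [IsAdicComplete (IsLocalRing.maximalIdeal O') O'] [Finite (IsLocalRing.ResidueField O')]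
    [CharZero O'] (_hlamO' : (lam : O') ∈ IsLocalRing.maximalIdeal O')
    (_hlam2 : lam ≠ 2)
    (chig : CuspForm.heckeAlgebra M 2 (↑S : Set ℕ) →+* ℂ)
    (_hchig : ∀ (ℓ : ℕ) (hℓ : ℓ.Prime) (hℓM : ¬ ℓ ∣ M) (hℓS : ℓ ∉ (↑S : Set ℕ)),
      chig (CuspForm.heckeAlgebra.T hℓ hℓM hℓS) = ModularFormClass.qCoeff g ℓ)
    (iota : chig.range →+* O')
    (_hlamS : lam ∈ S) (_hMS : ∀ q : ℕ, q.Prime → q ∣ M → q ∈ S)
    (_hres : ∀ (O'' : Type) [CommRing O''] [IsDomain O''] [IsDiscreteValuationRing O'']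
      [IsAdicComplete (IsLocalRing.maximalIdeal O'') O''] [Finite (IsLocalRing.ResidueField O'')]
      [CharZero O'']
      [Algebra O' O''] [Module.Finite O' O''] [IsLocalHom (algebraMap O' O'')],
      Function.Injective (algebraMap O' O'') → ∀ (ρ : GaloisRepAdic O''),
      (∀ (ℓ : ℕ) (hℓ : ℓ.Prime) (_hℓlam : ℓ ≠ lam) (hℓM : ¬ ℓ ∣ M) (hℓS : ℓ ∉ (↑S : Set ℕ)),
        ∀ A : ValuationSubring (AlgebraicClosure ℚ), A.LiesOverPrime ℓ →
          ∀ σ : AlgebraicClosure ℚ ≃ₐ[ℚ] AlgebraicClosure ℚ, A.IsFrobeniusAt σ ℓ →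
            LinearMap.charpoly (ρ.ρ σ) =
              X ^ 2 - C (algebraMap O' O'' ((iota.comp chig.rangeRestrict)
                (CuspForm.heckeAlgebra.T hℓ hℓM hℓS))) * X + C ((ℓ : O'')))
      → ρ.residual.IsAbsolutelyIrreducible ∧ ρ.residual.IsOdd),
    ∃ (O'' : Type) (_ : CommRing O'') (_ : IsDomain O'') (_ : IsDiscreteValuationRing O'')
      (_ : IsAdicComplete (IsLocalRing.maximalIdeal O'') O'')
      (_ : Finite (IsLocalRing.ResidueField O''))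
      (_ : CharZero O'') (_ : Algebra O' O'') (_ : Module.Finite O' O'')
      (_ : IsLocalHom (algebraMap O' O'')),
      Function.Injective (algebraMap O' O'') ∧
      ∃ ρ : GaloisRepAdic O'',
        (∀ (ℓ : ℕ) (hℓ : ℓ.Prime) (hℓM : ¬ ℓ ∣ M) (hℓS : ℓ ∉ (↑S : Set ℕ)),
          ∀ A : ValuationSubring (AlgebraicClosure ℚ), A.LiesOverPrime ℓ →
            ∀ σ : AlgebraicClosure ℚ ≃ₐ[ℚ] AlgebraicClosure ℚ, A.IsFrobeniusAt σ ℓ →
              LinearMap.charpoly (ρ.ρ σ) =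
                X ^ 2 - C (algebraMap O' O'' ((iota.comp chig.rangeRestrict)
                  (CuspForm.heckeAlgebra.T hℓ hℓM hℓS))) * X + C ((ℓ : O''))) ∧
        (∀ q : ℕ, q.Prime → q ≠ lam → M.factorization q = 2 →
          ¬ ρ.IsUnipotentOnInertiaAt q) :=
  helper34.s36_of_core Fermat.Agent.P3.helper32.strongS30 (s36Core_of_newCore2 hF)

/-! ### The boxes -/

section Boxes

/-- **the four boxes at one datum** `(N', q, A, ζ, n)` with constants `Cs`, `C₂`. -/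
def BoxesAt (N' q : ℕ) [NeZero N'] [NeZero q] (hq : q.Prime) (hqN : ¬ q ∣ N')
    (A : ValuationSubring Kb) {ζ : Kb} (hζ : IsPrimitiveRoot ζ q) (n Cs C₂ : ℕ) : Prop :=
  Scale3Statement N' q hq hqN A hζ n Cs ∧ NormPow3Statement N' q hq hqN A hζ n ∧
    Approx3Statement N' q hq hqN A hζ ∧ ToricStatement N' q hq hqN A hζ n C₂

/-- the core at one datum from the four boxes -/
theorem newCore_of_boxesAt {N' q : ℕ} [NeZero N'] [NeZero q] (hq : q.Prime) (hqN : ¬ q ∣ N')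
    (A : ValuationSubring Kb) {ζ : Kb} (hζ : IsPrimitiveRoot ζ q) {n Cs C₂ : ℕ} (hn : n ≠ 0)
    (hB : BoxesAt N' q hq hqN A hζ n Cs C₂) :
    NewCoreStatement N' q hq hqN A n (q * (Cs * (q * (q - 1))) * C₂) :=
  newCore_of_t03_toric hq hqN A hζ hn (t03_of_boxes hq hqN A hζ hB.1 hB.2.1 hB.2.2.1) hB.2.2.2

/-- **S36 from the four boxes, weakest form**: the constants, the place over `q` and the
primitive `q`-th root of unity may depend on `(N', q, p)`; only `k` is universal. -/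
theorem newCoreAtAuxLevels2_of_boxesAt
    (hB : ∀ (N' q : ℕ) [NeZero N'] [NeZero q] (hq : q.Prime) (hqN : ¬ q ∣ N') (p : ℕ),
      p.Prime → p ≠ q → p ≠ 2 → AuxOK q N' →
        ∃ (Cs C₂ : ℕ) (A : ValuationSubring Kb) (ζ : Kb) (hζ : IsPrimitiveRoot ζ q),
          Cs ≠ 0 ∧ C₂ ≠ 0 ∧ A.LiesOverPrime q ∧
            ∀ k : ℕ, BoxesAt N' q hq hqN A hζ (p ^ k) Cs C₂) :
    NewCoreAtAuxLevels2 := by
  intro N' q _ _ hq hqN p hp hpq hp2 hN'
  obtain ⟨Cs, C₂, A, ζ, hζ, hCs, hC₂, hA, h⟩ := hB N' q hq hqN p hp hpq hp2 hN'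
  have hq1 : q - 1 ≠ 0 := by
    have := hq.two_le
    omega
  exact ⟨q * (Cs * (q * (q - 1))) * C₂, A,
    Nat.mul_ne_zero (Nat.mul_ne_zero hq.ne_zero (Nat.mul_ne_zero hCs
      (Nat.mul_ne_zero hq.ne_zero hq1))) hC₂, hA,
    fun k => newCore_of_boxesAt hq hqN A hζ (pow_ne_zero k hp.ne_zero) (h k)⟩

/-- **S36 from the four boxes** (all places over `q`, all primitive `q`-th roots of unity, all
powers of an odd prime `p ≠ q`, auxiliary levels `AuxOK q N'`). -/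
theorem newCoreAtAuxLevels2_of_boxes (Cs C₂ : ℕ → ℕ) (hCs : ∀ q : ℕ, q.Prime → Cs q ≠ 0)
    (hC₂ : ∀ q : ℕ, q.Prime → C₂ q ≠ 0)
    (hS : ∀ (N' q : ℕ) [NeZero N'] [NeZero q] (hq : q.Prime) (hqN : ¬ q ∣ N') (p : ℕ),
      p.Prime → p ≠ q → p ≠ 2 → AuxOK q N' → ∀ A : ValuationSubring Kb, A.LiesOverPrime q →
        ∀ (ζ : Kb) (hζ : IsPrimitiveRoot ζ q) (k : ℕ),
          Scale3Statement N' q hq hqN A hζ (p ^ k) (Cs q))
    (hP : ∀ (N' q : ℕ) [NeZero N'] [NeZero q] (hq : q.Prime) (hqN : ¬ q ∣ N') (p : ℕ),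
      p.Prime → p ≠ q → p ≠ 2 → AuxOK q N' → ∀ A : ValuationSubring Kb, A.LiesOverPrime q →
        ∀ (ζ : Kb) (hζ : IsPrimitiveRoot ζ q) (k : ℕ),
          NormPow3Statement N' q hq hqN A hζ (p ^ k))
    (hAp : ∀ (N' q : ℕ) [NeZero N'] [NeZero q] (hq : q.Prime) (hqN : ¬ q ∣ N'),
      AuxOK q N' → ∀ A : ValuationSubring Kb, A.LiesOverPrime q →
        ∀ (ζ : Kb) (hζ : IsPrimitiveRoot ζ q), Approx3Statement N' q hq hqN A hζ)
    (hT : ∀ (N' q : ℕ) [NeZero N'] [NeZero q] (hq : q.Prime) (hqN : ¬ q ∣ N') (p : ℕ),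
      p.Prime → p ≠ q → p ≠ 2 → AuxOK q N' → ∀ A : ValuationSubring Kb, A.LiesOverPrime q →
        ∀ (ζ : Kb) (hζ : IsPrimitiveRoot ζ q) (k : ℕ),
          ToricStatement N' q hq hqN A hζ (p ^ k) (C₂ q)) :
    NewCoreAtAuxLevels2 := by
  refine newCoreAtAuxLevels2_of_boxesAt fun N' q _ _ hq hqN p hp hpq hp2 hN' => ?_
  obtain ⟨A, hA⟩ := Fermat.Agent.S54.helper91.exists_valuationSubring_liesOver hq
  obtain ⟨ζ, hζ⟩ := HasEnoughRootsOfUnity.exists_primitiveRoot Kb q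
  exact ⟨Cs q, C₂ q, A, ζ, hζ, hCs q hq, hC₂ q hq, hA, fun k =>
    ⟨hS N' q hq hqN p hp hpq hp2 hN' A hA ζ hζ k, hP N' q hq hqN p hp hpq hp2 hN' A hA ζ hζ k,
      hAp N' q hq hqN hN' A hA ζ hζ, hT N' q hq hqN p hp hpq hp2 hN' A hA ζ hζ k⟩⟩

end Boxes

end Fermat.Agent.T3.helper72

end
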