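/-
TIER 3 (S36), helper36: **[SCALE3] UNCONDITIONAL**.

`scale3_of` (helper36_Scale3) needs the existence of a scaling at the middle cusp
(`MidScaleStatement`, = [G3-B], helper58 `exists_scale_mid`) and the unit table (`UnitTable`,
helper16 `IsUnit0.gaussIs_alpha*/beta*`).  Both are on main; this file plugs them in.

* `midScaleStatement`  : `MidScaleStatement N q hq hqN A hζ`  (any `N`, `q ∤ N`).
* `unitTable`          : `UnitTable N q hq hqN A hζ`          (`4 ∣ N ∨ 9 ∣ N`).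
* `scale3`             : `helper72.Scale3Statement N q hq hqN A hζ n (q ^ 2 - 1)`.
* `csq`, `csq_ne_zero`, `scale3_aux` : the hypothesis `hS` of
  `helper72.newCore2_of_scale_toric` / `newCore2_of_scale_torBase` VERBATIM.
-/
import Mathlib
import Fermat.Agent.T3.helper36_Scale3
import Fermat.Agent.T3.helper58_Mid
import Fermat.Agent.T3.helper16_UnitTable
import Fermat.Agent.T3.helper72_Asm36v2

set_option autoImplicit false
set_option synthInstance.maxHeartbeats 400000
set_option linter.style.haveILetI false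
set_option linter.unusedSectionVars false
set_option linter.unusedVariables false
set_option linter.style.longLine false

noncomputable section

open HahnSeries IntermediateField AlgebraicCurve ModularCurve
open Fermat.Agent.S18.helper19 Fermat.Agent.P2.helper29 Fermat.Agent.P2.helper93
open Fermat.Agent.T2.helper36 Fermat.Agent.P3.helper94

namespace Fermat.Agent.T3.helper36

open Fermat.Agent.T3.helper74 (ex3 IsFixI midOne midOne_ne)
open Fermat.Agent.T3.helper87 (embMid)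
open Fermat.Agent.T3.helper5 (IsGoodAt)

variable {N q : ℕ} [NeZero N] [NeZero q] {hq : q.Prime} {hqN : ¬ q ∣ N}
variable {A : ValuationSubring Kb}

/-- **[G3-B]** in the shape consumed by `scale3_of` (helper58 `exists_scale_mid`). -/
theorem midScaleStatement (hA : A.LiesOverPrime q) {ζ : Kb} (hζ : IsPrimitiveRoot ζ q) :
    MidScaleStatement N q hq hqN A hζ := by
  intro f hf0 hfix
  obtain ⟨M, Y₁, Y₂, x, g₁, g₂, -, -, e, -⟩ :=
    Fermat.Agent.T3.helper58.exists_scale_mid hq hqN A hA hζ (midOne q hq) (midOne_ne q hq)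
      hf0 hfix
  refine ⟨(ζ ^ ((midOne q hq : Fin q) : ℕ) - 1) ^ M, Y₁, Y₂, ?_, g₁, g₂, e⟩
  exact zpow_ne_zero _ (sub_ne_zero.mpr
    ((Fermat.Agent.T3.helper58.pow_prim hq hζ (midOne q hq) (midOne_ne q hq)).ne_one hq.one_lt))

/-- **[UNIT-TABLE]** in the shape consumed by `scale3_of` (helper16): with the weight-one unit
`b₀` of level `N q`, `a := q / β₂ b₀` and `t := β₂ b₀ / α₂ b₀`. -/
theorem unitTable (hA : A.LiesOverPrime q) {ζ : Kb} (hζ : IsPrimitiveRoot ζ q)
    (hN : 4 ∣ N ∨ 9 ∣ N) : UnitTable N q hq hqN A hζ := by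
  obtain ⟨b0, B, ε, h⟩ := Fermat.Agent.T3.helper16.exists_isUnit0 hq hqN hN
  have hq0 : (q : Kb) ≠ 0 := Nat.cast_ne_zero.2 hq.ne_zero
  set a₀ : FF (N * q * q) := heckeAlphaBar Kb (N * q) q b0 with ha₀
  set b₁ : FF (N * q * q) := heckeBetaBar Kb (N * q) q b0 with hb₁
  have ha0 : a₀ ≠ 0 := (map_ne_zero _).mpr h.ne_zero
  have hb0 : b₁ ≠ 0 := (map_ne_zero _).mpr h.ne_zero
  have hfa : IsFixI A (N * q * q) a₀ := h.isFixI_alpha A
  have hfb : IsFixI A (N * q * q) b₁ := h.isFixI_beta A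
  have hc0 : (algebraMap Kb (FF (N * q * q)) (q : Kb)) ≠ 0 := (map_ne_zero _).mpr hq0
  have hfc : IsFixI A (N * q * q) (algebraMap Kb (FF (N * q * q)) (q : Kb)) := by
    intro σ hσ
    refine (Fermat.Agent.P2.helper93.galF_algebraMap (N * q * q) σ (q : Kb)).trans ?_
    rw [map_natCast]
  -- the Gauss values of `a`
  have key : ∀ (j : Fin 3) {ca cb : Kb},
      GaussIs A (ex3 N q hq hqN hζ j a₀) ca → GaussIs A (ex3 N q hq hqN hζ j b₁) cb →
      GaussIs A (ex3 N q hq hqN hζ j (algebraMap Kb (FF (N * q * q)) (q : Kb) / b₁))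
          ((q : Kb) / cb) ∧
        GaussIs A (ex3 N q hq hqN hζ j (b₁ / a₀)) (cb / ca) := by
    intro j ca cb ka kb
    constructor
    · rw [map_div₀, ex3_algebraMap hζ j]
      exact (gaussIs_const hq0).div kb
    · rw [map_div₀]
      exact kb.div ka
  obtain ⟨a0, t0⟩ := key 0 (h.gaussIs_alpha0 A hζ) (h.gaussIs_beta0 A hζ)
  obtain ⟨a1, t1⟩ := key 1 (h.gaussIs_alpha1 A hζ) (h.gaussIs_beta1 A hζ)
  obtain ⟨a2, t2⟩ := key 2 (h.gaussIs_alpha2 A hζ) (h.gaussIs_beta2 A hζ hA)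
  refine ⟨algebraMap Kb (FF (N * q * q)) (q : Kb) / b₁, b₁ / a₀, div_ne_zero hc0 hb0,
    div_ne_zero hb0 ha0, ?_, ?_, ?_, ?_, ?_, ?_, ?_, ?_⟩
  · intro σ hσ
    rw [map_div₀, hfc σ hσ, hfb σ hσ]
  · intro σ hσ
    rw [map_div₀, hfb σ hσ, hfa σ hσ]
  · simpa using a0
  · simpa [div_self hq0] using a1
  · simpa [div_self hq0] using a2
  · simpa using t0
  · simpa [div_self hq0] using t1
  · simpa using t2

/-- **[SCALE3]**, unconditional (`4 ∣ N` or `9 ∣ N`), constant `q² - 1`. -/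
theorem scale3 (hA : A.LiesOverPrime q) {ζ : Kb} (hζ : IsPrimitiveRoot ζ q)
    (hN : 4 ∣ N ∨ 9 ∣ N) (n : ℕ) :
    Fermat.Agent.T3.helper72.Scale3Statement N q hq hqN A hζ n (q ^ 2 - 1) :=
  scale3_of hA hζ (midScaleStatement hA hζ) (unitTable hA hζ hN) n

/-- the constant of [SCALE3] -/
def csq (q : ℕ) : ℕ := q ^ 2 - 1

theorem csq_ne_zero (q : ℕ) (hq : q.Prime) : csq q ≠ 0 := by
  have h2 := hq.two_le
  have : 4 ≤ q ^ 2 := by nlinarith
  unfold csq
  omega

/-- **[SCALE3]** in the shape of the hypothesis `hS` of `helper72.newCore2_of_scale_toric`. -/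
theorem scale3_aux : ∀ (N' q : ℕ) [NeZero N'] [NeZero q] (hq : q.Prime) (hqN : ¬ q ∣ N') (p : ℕ),
    p.Prime → p ≠ q → p ≠ 2 → Fermat.Agent.T3.helper72.AuxOK q N' →
      ∀ A : ValuationSubring Kb, A.LiesOverPrime q →
        ∀ (ζ : Kb) (hζ : IsPrimitiveRoot ζ q) (k : ℕ),
          Fermat.Agent.T3.helper72.Scale3Statement N' q hq hqN A hζ (p ^ k) (csq q) :=
  fun N' q _ _ hq hqN p _ _ _ hN' A hA ζ hζ k => scale3 hA hζ hN'.good (p ^ k)

end Fermat.Agent.T3.helper36

end
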