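import Fermat.Agent.T3.helper38_HorExact

/-!
# T3 [HOR] (helper38): the field `hor` of `helper72.OpenBoxes` / `hhor` of
`helper22.Ideal3Rest`, VERBATIM, with the only extra hypothesis `hA : A.LiesOverPrime q`

For a place `P` where `j` is finite take an `I`-fixed `G₀` with `n · ord_Q G₀ ≥ ord_Q u` where
`j` is finite and equality at `P` (`exists_fixI_ord_eq`: Riemann + echelon descent), scale it by a
power of `q` to a `Rho3`-integral `G` (`exists_pow_rho3`), and put `G' = G ^ (n - 1) / u`: then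
`G G' = G ^ n / u` has order `0` at `P`.
-/

set_option autoImplicit false
set_option synthInstance.maxHeartbeats 400000
set_option maxHeartbeats 1000000
set_option linter.unusedSectionVars false
set_option linter.unusedVariables false
set_option linter.style.haveILetI false
set_option linter.style.longLine false

noncomputable section

open HahnSeries IntermediateField AlgebraicCurve ModularCurve
open Fermat.Agent.S18.helper19 Fermat.Agent.P2.helper29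

namespace Fermat.Agent.T3.helper38

open Fermat.Agent.T3.helper74 (ex3 IsFixI)
open Fermat.Agent.T3.helper49 (Rho3)
open Fermat.Agent.T3.helper98 (IsRegJ)
open Fermat.Agent.T3.helper72 (Red3)
open Fermat.Agent.T3.helper36 (RhoQ GaussIs rhoQ_algebraMap)

section Scale

variable {A : ValuationSubring Kb}

/-- a Gauss value in `A` gives Gauss-integrality -/
theorem exists_rhoQ_of_gaussIs_mem {g : LaurentSeries Kb} {c : Kb} (h : GaussIs A g c)
    (hc : c ∈ A) : ∃ r : LaurentSeries (kA A), RhoQ A g r := by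
  obtain ⟨hc0, r, -, hr⟩ := h
  have h1 := (rhoQ_algebraMap (A := A) ⟨c, hc⟩).mul hr
  have e : algebraMap Kb (LaurentSeries Kb) (((⟨c, hc⟩ : A) : Kb)) *
      (algebraMap Kb (LaurentSeries Kb) c⁻¹ * g) = g := by
    rw [← mul_assoc, ← map_mul]
    show algebraMap Kb (LaurentSeries Kb) (c * c⁻¹) * g = g
    rw [mul_inv_cancel₀ hc0, map_one, one_mul]
  rw [e] at h1
  exact ⟨_, h1⟩

theorem natCast_mem_A (n : ℕ) : (n : Kb) ∈ A := by
  induction n with
  | zero => simp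
  | succ n ih =>
    rw [Nat.cast_succ]
    exact A.add_mem _ _ ih A.one_mem

/-- `q ^ k * q ^ m ∈ A` for `k ≥ -m` -/
theorem pow_mul_zpow_mem (q k : ℕ) (hq0 : (q : Kb) ≠ 0) (m : ℤ) (hk : -m ≤ k) :
    (q : Kb) ^ k * (q : Kb) ^ m ∈ A := by
  obtain ⟨e, he⟩ : ∃ e : ℕ, (k : ℤ) + m = e := ⟨((k : ℤ) + m).toNat, by omega⟩
  have h1 : (q : Kb) ^ k * (q : Kb) ^ m = (q : Kb) ^ e := by
    rw [← zpow_natCast, ← zpow_add₀ hq0, he, zpow_natCast]
  rw [h1]
  exact A.pow_mem (natCast_mem_A q) e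

end Scale

section Hor

variable {N q : ℕ} [NeZero N] [NeZero q] {hq : q.Prime} {hqN : ¬ q ∣ N}
  {A : ValuationSubring Kb} {ζ : Kb}

/-- `q / (1 - ζ) ∈ A` -/
theorem q_div_one_sub_zeta_mem (hq : q.Prime) (hζ : IsPrimitiveRoot ζ q) :
    (q : Kb) * (1 - ζ)⁻¹ ∈ A := by
  rw [← A.valuation_le_one_iff, map_mul, map_inv₀,
    ← Fermat.Agent.T3.helper84.k0_zeta_val hq A hζ]
  have hv0 : A.valuation (1 - ζ) ≠ 0 := Fermat.Agent.T3.helper84.k0_zeta_val_ne_zero hq A hζ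
  have hvζ : A.valuation ζ ≤ 1 := by
    have h1 : A.valuation ζ ^ q = 1 := by rw [← map_pow, hζ.pow_eq_one, map_one]
    by_contra hcon
    rw [not_le] at hcon
    have := one_lt_pow₀ hcon hq.ne_zero
    rw [h1] at this
    exact lt_irrefl _ this
  have hv1 : A.valuation (1 - ζ) ≤ 1 :=
    (A.valuation_le_one_iff _).mpr
      (A.sub_mem A.one_mem ((A.valuation_le_one_iff ζ).mp hvζ))
  obtain ⟨e, he⟩ : ∃ e : ℕ, q - 1 = e + 1 := ⟨q - 2, by have := hq.two_le; omega⟩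
  rw [he, pow_succ, mul_assoc, mul_inv_cancel₀ hv0, mul_one]
  exact pow_le_one₀ zero_le hv1

/-- `q ^ k * (1 - ζ) ^ m ∈ A` for `k ≥ -m` -/
theorem pow_mul_zpow_zeta_mem (hq : q.Prime) (hζ : IsPrimitiveRoot ζ q) (k : ℕ) (m : ℤ)
    (hk : -m ≤ k) : (q : Kb) ^ k * (1 - ζ) ^ m ∈ A := by
  have hz0 : (1 - ζ : Kb) ≠ 0 := sub_ne_zero.mpr (fun h => hζ.ne_one hq.one_lt h.symm)
  have hζA : ζ ∈ A := by
    rw [← A.valuation_le_one_iff]
    have h1 : A.valuation ζ ^ q = 1 := by rw [← map_pow, hζ.pow_eq_one, map_one]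
    by_contra hcon
    rw [not_le] at hcon
    have := one_lt_pow₀ hcon hq.ne_zero
    rw [h1] at this
    exact lt_irrefl _ this
  have hzA : (1 - ζ : Kb) ∈ A := A.sub_mem A.one_mem hζA
  rcases le_or_gt 0 m with hm | hm
  · obtain ⟨e, rfl⟩ : ∃ e : ℕ, m = e := ⟨m.toNat, by omega⟩
    rw [zpow_natCast]
    exact A.mul_mem _ _ (A.pow_mem (natCast_mem_A q) k) (A.pow_mem hzA e)
  · obtain ⟨e, rfl⟩ : ∃ e : ℕ, m = -(e : ℤ) := ⟨(-m).toNat, by omega⟩
    have hek : e ≤ k := by omega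
    obtain ⟨d, rfl⟩ := Nat.exists_eq_add_of_le hek
    have h1 : (q : Kb) ^ (e + d) * (1 - ζ) ^ (-(e : ℤ)) =
        ((q : Kb) * (1 - ζ)⁻¹) ^ e * (q : Kb) ^ d := by
      rw [zpow_neg, zpow_natCast, mul_pow, inv_pow, _root_.pow_add]
      ring
    rw [h1]
    exact A.mul_mem _ _ (A.pow_mem (q_div_one_sub_zeta_mem hq hζ) e)
      (A.pow_mem (natCast_mem_A q) d)

/-- **scaling**: a power of `q` times a nonzero `I`-fixed function is `Rho3`-integral. -/
theorem exists_pow_rho3 (hA : A.LiesOverPrime q) (hζ : IsPrimitiveRoot ζ q)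
    {G : FF (N * q * q)} (hG0 : G ≠ 0) (hfix : IsFixI A (N * q * q) G) :
    ∃ (k : ℕ) (X : Fin 3 → LaurentSeries (kA A)),
      Rho3 N q hq hqN A hζ (algebraMap Kb (FF (N * q * q)) ((q : Kb) ^ k) * G) X := by
  obtain ⟨m₀, m₁, m₂, h₀, h₁, h₂⟩ :=
    Fermat.Agent.T3.helper5.gaussIs_ex3_all (hq := hq) (hqN := hqN) hA hζ hG0 hfix
  have hq0 : (q : Kb) ≠ 0 := Nat.cast_ne_zero.mpr hq.ne_zero
  set k : ℕ := (-m₀).toNat + (-m₁).toNat + (-m₂).toNat with hk
  have ha0 : (q : Kb) ^ k ≠ 0 := pow_ne_zero _ hq0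
  have hE : ∀ i, ex3 N q hq hqN hζ i (algebraMap Kb (FF (N * q * q)) ((q : Kb) ^ k) * G) =
      algebraMap Kb (LaurentSeries Kb) ((q : Kb) ^ k) * ex3 N q hq hqN hζ i G := by
    intro i
    rw [map_mul, Fermat.Agent.T3.helper5.ex3_const]
  have hr : ∀ i, ∃ r : LaurentSeries (kA A),
      RhoQ A (ex3 N q hq hqN hζ i (algebraMap Kb (FF (N * q * q)) ((q : Kb) ^ k) * G)) r := by
    intro i
    rw [hE]
    fin_cases i
    · exact exists_rhoQ_of_gaussIs_mem (h₀.const_mul ha0)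
        (pow_mul_zpow_mem q k hq0 m₀ (by omega))
    · exact exists_rhoQ_of_gaussIs_mem (h₁.const_mul ha0)
        (pow_mul_zpow_mem q k hq0 m₁ (by omega))
    · exact exists_rhoQ_of_gaussIs_mem (h₂.const_mul ha0)
        (pow_mul_zpow_zeta_mem hq hζ k m₂ (by omega))
  choose X hX using hr
  refine ⟨k, X, ?_, fun i => hX i⟩
  intro σ hσ
  rw [map_mul, hfix σ hσ, arithmeticRingAut_algebraMap, map_pow, map_natCast]

/-- `(G ^ m / u) ^ (m + 1) * u = (G ^ (m + 1) / u) ^ m` -/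
theorem pow_mul_inv_identity {F : Type*} [Field F] (G u : F) (hu : u ≠ 0) (m : ℕ) :
    (G ^ m * u⁻¹) ^ (m + 1) * u⁻¹⁻¹ = (G ^ (m + 1) * u⁻¹) ^ m := by
  rw [inv_inv, mul_pow, mul_pow, ← pow_mul, ← pow_mul, pow_succ u⁻¹ m, mul_assoc, mul_assoc,
    inv_mul_cancel₀ hu, mul_one, mul_comm m (m + 1)]

/-- powers of `Rho3` -/
theorem rho3_pow (hζ : IsPrimitiveRoot ζ q) {f : FF (N * q * q)}
    {X : Fin 3 → LaurentSeries (kA A)} (h : Rho3 N q hq hqN A hζ f X) (m : ℕ) :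
    Rho3 N q hq hqN A hζ (f ^ m) (X ^ m) := by
  induction m with
  | zero =>
    rw [pow_zero, pow_zero]
    exact Fermat.Agent.T3.helper49.rho3_one
  | succ m ih =>
    rw [pow_succ, pow_succ]
    exact ih.mul h

/-- **[HOR]** the field `hor` of `helper72.OpenBoxes` (= `hhor` of `helper22.Ideal3Rest`),
VERBATIM. -/
theorem hor (hA : A.LiesOverPrime q) (hζ : IsPrimitiveRoot ζ q) (n : ℕ) :
    ∀ u f : FF (N * q * q), Rho3 N q hq hqN A hζ u 1 →
      (∀ P : Place Kb (FF (N * q * q)), (n : ℤ) ∣ P.ord u) →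
      (∀ G G' : FF (N * q * q), IsRegJ (N * q * q) (G ^ n * u⁻¹) →
        IsRegJ (N * q * q) (G' ^ n * u⁻¹⁻¹) → (∃ X, Rho3 N q hq hqN A hζ G X) →
        (∃ X, Rho3 N q hq hqN A hζ G' X) → IsRegJ (N * q * q) (f * (G * G'))) →
      IsRegJ (N * q * q) f := by
  intro u f hu hdiv H P hP
  have hu0 : u ≠ 0 := hu.ne_zero
  rcases Nat.eq_zero_or_pos n with rfl | hn
  · -- `n = 0` : `div u = 0`
    have hord : ∀ Q : Place Kb (FF (N * q * q)), Q.ord u = 0 := fun Q => by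
      have := hdiv Q
      rwa [Nat.cast_zero, zero_dvd_iff] at this
    have h1 : IsRegJ (N * q * q) ((1 : FF (N * q * q)) ^ 0 * u⁻¹) := fun Q _ => by
      rw [pow_zero, one_mul, Place.ord_inv, hord]
      simp
    have h2 : IsRegJ (N * q * q) ((1 : FF (N * q * q)) ^ 0 * u⁻¹⁻¹) := fun Q _ => by
      rw [pow_zero, one_mul, inv_inv, hord]
    have h3 := H 1 1 h1 h2 ⟨1, Fermat.Agent.T3.helper49.rho3_one⟩
      ⟨1, Fermat.Agent.T3.helper49.rho3_one⟩
    rw [mul_one, mul_one] at h3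
    exact h3 P hP
  · obtain ⟨m, rfl⟩ : ∃ m : ℕ, n = m + 1 := ⟨n - 1, by omega⟩
    obtain ⟨G₀, hG₀0, hG₀fix, hG₀ord, hG₀P⟩ :=
      exists_fixI_ord_eq A (Nat.succ_ne_zero m) hu0 hu.1 hdiv P hP
    obtain ⟨k, X, hX⟩ := exists_pow_rho3 (hq := hq) (hqN := hqN) hA hζ hG₀0 hG₀fix
    have hq0 : (q : Kb) ≠ 0 := Nat.cast_ne_zero.mpr hq.ne_zero
    have hc0 : algebraMap Kb (FF (N * q * q)) ((q : Kb) ^ k) ≠ 0 := by
      rw [Ne, map_eq_zero]
      exact pow_ne_zero _ hq0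
    set G : FF (N * q * q) := algebraMap Kb (FF (N * q * q)) ((q : Kb) ^ k) * G₀ with hGdef
    have hG0 : G ≠ 0 := mul_ne_zero hc0 hG₀0
    have hordG : ∀ Q : Place Kb (FF (N * q * q)), Q.ord G = Q.ord G₀ := fun Q => by
      rw [hGdef, Q.ord_mul hc0 hG₀0, Fermat.Agent.S24.helper82.ord_algebraMap, zero_add]
    have hordGn : ∀ Q : Place Kb (FF (N * q * q)),
        Q.ord (G ^ (m + 1) * u⁻¹) = ((m + 1 : ℕ) : ℤ) * Q.ord G₀ - Q.ord u := fun Q => by
      rw [Q.ord_mul (pow_ne_zero _ hG0) (inv_ne_zero hu0), Place.ord_inv,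
        ← zpow_natCast, Place.ord_zpow, hordG]
      ring
    have h1 : IsRegJ (N * q * q) (G ^ (m + 1) * u⁻¹) := fun Q hQ => by
      rw [hordGn]
      have := hG₀ord Q hQ
      linarith
    have e2 : (G ^ m * u⁻¹) ^ (m + 1) * u⁻¹⁻¹ = (G ^ (m + 1) * u⁻¹) ^ m :=
      pow_mul_inv_identity G u hu0 m
    have h2 : IsRegJ (N * q * q) ((G ^ m * u⁻¹) ^ (m + 1) * u⁻¹⁻¹) := by
      rw [e2]
      exact h1.pow m
    have ρ' : Rho3 N q hq hqN A hζ (G ^ m * u⁻¹) (X ^ m * 1) :=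
      (rho3_pow hζ hX m).mul hu.inv_one
    have h3 := H G (G ^ m * u⁻¹) h1 h2 ⟨X, hX⟩ ⟨_, ρ'⟩
    have e3 : G * (G ^ m * u⁻¹) = G ^ (m + 1) * u⁻¹ := by
      rw [← mul_assoc, ← pow_succ']
    rw [e3] at h3
    rcases eq_or_ne f 0 with rfl | hf0
    · rw [Place.ord_zero]
    have h5 := h3 P hP
    rw [P.ord_mul hf0 (mul_ne_zero (pow_ne_zero _ hG0) (inv_ne_zero hu0)), hordGn] at h5
    linarith

end Hor

end Fermat.Agent.T3.helper38

end
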