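import Fermat.Agent.T3.helper72_S36Asm
import Fermat.Agent.P2.helper74_NonSpecial

/-!
# T3 [HOR], part 1 (helper38): exact inertia-fixed elements of `L(D)`

* `exists_span_fixed` : the ECHELON lemma (generic, Mathlib only): a finite-dimensional space
  with a separating family of functionals has a spanning family fixed by every map which is
  compatible with the functionals.
* `exists_fixI_ord_eq` : for an `I`-fixed `u ≠ 0` of `F_M` with `n ∣ div u`, `n ≠ 0`, and a
  place `P` where `j` is finite there is an `I`-fixed `G ≠ 0` with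
  `n · ord_Q G ≥ ord_Q u` at all places `Q` where `j` is finite, with equality at `P`.
-/

set_option autoImplicit false
set_option synthInstance.maxHeartbeats 400000
set_option maxHeartbeats 1000000
set_option linter.unusedSectionVars false
set_option linter.unusedVariables false
set_option linter.style.haveILetI false
set_option linter.style.longLine false

noncomputable section

open HahnSeries IntermediateField AlgebraicCurve ModularCurve
open Fermat.Agent.S18.helper19 Fermat.Agent.P2.helper29

namespace Fermat.Agent.T3.helper38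

open Module

section Echelon

variable {K V : Type*} [Field K] [AddCommGroup V] [Module K V] [FiniteDimensional K V]
  {ι : Type*}

/-- a separating family of functionals spans the dual -/
theorem span_range_eq_top_of_separating (φ : ι → Module.Dual K V)
    (hφ : ∀ v : V, (∀ k, φ k v = 0) → v = 0) :
    Submodule.span K (Set.range φ) = ⊤ := by
  have h1 : (Submodule.span K (Set.range φ)).dualCoannihilator = ⊥ := by
    rw [eq_bot_iff]
    intro v hv
    rw [Submodule.mem_dualCoannihilator] at hv
    rw [Submodule.mem_bot]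
    exact hφ v fun k => hv (φ k) (Submodule.subset_span ⟨k, rfl⟩)
  have h2 := Subspace.dualCoannihilator_dualAnnihilator_eq
    (W := Submodule.span K (Set.range φ))
  rw [h1, Submodule.dualAnnihilator_bot] at h2
  exact h2.symm

/-- a basis of the dual inside a separating family -/
theorem exists_basis_dual_of_separating (φ : ι → Module.Dual K V)
    (hφ : ∀ v : V, (∀ k, φ k v = 0) → v = 0) :
    ∃ (n : ℕ) (β : Basis (Fin n) K (Module.Dual K V)), ∀ i, ∃ k, φ k = β i := by
  classical
  have hspan := span_range_eq_top_of_separating φ hφ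
  let β₀ := Basis.ofSpan (K := K) (V := Module.Dual K V) (s := Set.range φ) hspan.ge
  have hβ₀ : ∀ i, ∃ k, φ k = β₀ i := fun i =>
    Basis.ofSpan_subset (K := K) hspan.ge ⟨i, rfl⟩
  haveI := FiniteDimensional.fintypeBasisIndex β₀
  refine ⟨_, β₀.reindex (Fintype.equivFin _), fun i => ?_⟩
  obtain ⟨k, hk⟩ := hβ₀ ((Fintype.equivFin _).symm i)
  exact ⟨k, by rw [hk, Basis.reindex_apply]⟩

/-- **Echelon basis.** For a separating family of functionals `φ k` on a finite-dimensional
space there are finitely many vectors `w i` spanning `V` which are fixed by EVERY map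
`s : V → V` compatible with the functionals through a map `s₀ : K → K` with `s₀ 0 = 0`,
`s₀ 1 = 1`. -/
theorem exists_span_fixed (φ : ι → Module.Dual K V)
    (hφ : ∀ v : V, (∀ k, φ k v = 0) → v = 0) :
    ∃ (n : ℕ) (w : Fin n → V), Submodule.span K (Set.range w) = ⊤ ∧
      ∀ (s : V → V) (s₀ : K → K), s₀ 0 = 0 → s₀ 1 = 1 →
        (∀ k v, φ k (s v) = s₀ (φ k v)) → ∀ i, s (w i) = w i := by
  classical
  obtain ⟨n, β, hβ⟩ := exists_basis_dual_of_separating φ hφ
  -- the evaluation map
  let Φ : V →ₗ[K] (Fin n → K) := LinearMap.pi fun i => β i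
  have hΦ : ∀ v i, Φ v i = β i v := fun v i => rfl
  have hΦinj : Function.Injective Φ := by
    rw [injective_iff_map_eq_zero]
    intro v hv
    apply hφ
    intro k
    have h1 : ∀ f : Module.Dual K V, f v = 0 := by
      intro f
      have hf : f ∈ Submodule.span K (Set.range β) := by
        rw [β.span_eq]
        exact Submodule.mem_top
      induction hf using Submodule.span_induction with
      | mem x hx =>
          obtain ⟨i, rfl⟩ := hx
          exact congrFun hv i
      | zero => rfl
      | add x y _ _ hx hy => rw [LinearMap.add_apply, hx, hy, add_zero]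
      | smul a x _ hx => rw [LinearMap.smul_apply, hx, smul_zero]
    exact h1 (φ k)
  have hdim : finrank K V = finrank K (Fin n → K) := by
    rw [Module.finrank_pi, ← Module.finrank_eq_card_basis β, Subspace.dual_finrank_eq]
  have hΦsurj : Function.Surjective Φ :=
    (LinearMap.injective_iff_surjective_of_finrank_eq_finrank hdim).mp hΦinj
  choose w hw using fun j : Fin n => hΦsurj (Pi.single j 1)
  refine ⟨n, w, ?_, ?_⟩
  · -- spanning
    rw [eq_top_iff]
    intro v _
    have hv : v = ∑ i : Fin n, (Φ v i) • w i := by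
      apply hΦinj
      rw [map_sum]
      simp only [map_smul, hw]
      ext i
      simp [Finset.sum_apply, Pi.single_apply]
    rw [hv]
    refine Submodule.sum_mem _ fun i _ => Submodule.smul_mem _ _ ?_
    exact Submodule.subset_span ⟨i, rfl⟩
  · intro s s₀ h0 h1 hs j
    apply hΦinj
    ext i
    obtain ⟨k, hk⟩ := hβ i
    rw [hΦ, ← hk, hs, hk, ← hΦ, hw, Pi.single_apply]
    split_ifs
    · exact h1
    · exact h0

end Echelon

section Gal

variable {M : ℕ} [NeZero M]

/-- the semilinear automorphism of `F_M` attached to `σ` -/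
abbrev gal (M : ℕ) (σ : Kb ≃ₐ[ℚ] Kb) : SemilinearAut Kb (FF M) :=
  arithmeticGalois (modularFunctionFieldFull M) σ

theorem gal_smul (σ : Kb ≃ₐ[ℚ] Kb) (x : FF M) :
    gal M σ • x = arithmeticRingAut (modularFunctionFieldFull M) σ x := rfl

/-- the order at the translated place -/
theorem ord_inv_smul (σ : Kb ≃ₐ[ℚ] Kb) (Q : Place Kb (FF M)) (x : FF M) :
    ((gal M σ)⁻¹ • Q).ord x = Q.ord (arithmeticRingAut (modularFunctionFieldFull M) σ x) := by
  have h := SemilinearAut.ord_smul (gal M σ) ((gal M σ)⁻¹ • Q) x
  rw [smul_inv_smul] at h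
  rw [← h]
  rfl

theorem ord_inv_smul_of_fix (σ : Kb ≃ₐ[ℚ] Kb) (Q : Place Kb (FF M)) {x : FF M}
    (hx : arithmeticRingAut (modularFunctionFieldFull M) σ x = x) :
    ((gal M σ)⁻¹ • Q).ord x = Q.ord x := by
  rw [ord_inv_smul, hx]

theorem arithmeticRingAut_jElt (σ : Kb ≃ₐ[ℚ] Kb) :
    arithmeticRingAut (modularFunctionFieldFull M) σ (jElt M) = jElt M := by
  apply Subtype.ext
  rw [coe_arithmeticRingAut_apply]
  exact coeffMap_jqModC _

/-- the place at infinity is fixed -/
theorem inv_smul_inftyBar (σ : Kb ≃ₐ[ℚ] Kb) :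
    (gal M σ)⁻¹ • inftyBar M = inftyBar M := by
  refine Fermat.Agent.P2.helper96.IsInfty.eq (fun f hf => ?_) (isInfty_inftyBar M)
  rw [ord_inv_smul, isInfty_inftyBar M _ ((map_ne_zero _).mpr hf), coe_arithmeticRingAut_apply]
  exact Fermat.Agent.P2.helper44.order_coeffMap_of_injective _ σ.injective _

theorem ord_inftyBar_jElt : (inftyBar M).ord (jElt M) = -1 := by
  have hj0 : jElt M ≠ 0 := by
    intro h
    have h1 := congrArg (fun z : FF M => ((z : LaurentSeries Kb)).order) h
    simp only [ZeroMemClass.coe_zero, HahnSeries.order_zero] at h1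
    have h2 : ((jElt M : FF M) : LaurentSeries Kb).order = -1 :=
      Fermat.Agent.S28.helper81.order_jqModC Kb
    omega
  rw [isInfty_inftyBar M _ hj0]
  exact Fermat.Agent.S28.helper81.order_jqModC Kb

end Gal

section Exact

open Fermat.Agent.P2.helper74 (riemannSetting_FF riemannStatement exists_mem_L_ord_eq
  finiteDimensional_L mem_L_iff' mem_L_sub_single_iff)
open Fermat.Agent.T3.helper74 (IsFixI)

variable {M : ℕ} [NeZero M] (A : ValuationSubring Kb)

/-- the coefficient functionals on a subspace of `F_M` -/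
def coeffFun (W : Submodule Kb (FF M)) (k : ℤ) : Module.Dual Kb W where
  toFun v := (((v : FF M) : FF M) : LaurentSeries Kb).coeff k
  map_add' v w := by
    show ((((v : FF M) + (w : FF M) : FF M) : FF M) : LaurentSeries Kb).coeff k = _
    rw [AddMemClass.coe_add, HahnSeries.coeff_add]
  map_smul' c v := by
    show (((c • (v : FF M) : FF M) : FF M) : LaurentSeries Kb).coeff k = _
    rw [Algebra.smul_def]
    have h1 : (((algebraMap Kb (FF M) c * (v : FF M) : FF M)) : LaurentSeries Kb) =
        algebraMap Kb (LaurentSeries Kb) c * ((v : FF M) : LaurentSeries Kb) := rfl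
    rw [h1, Fermat.Agent.S28.helper81.coeff_algebraMap_mul]
    rfl

theorem coeffFun_apply (W : Submodule Kb (FF M)) (k : ℤ) (v : W) :
    coeffFun W k v = (((v : FF M) : FF M) : LaurentSeries Kb).coeff k := rfl

theorem coeffFun_separating (W : Submodule Kb (FF M)) (v : W)
    (h : ∀ k, coeffFun W k v = 0) : v = 0 := by
  apply Subtype.ext
  apply Subtype.ext
  ext k
  exact h k

/-- **Exact `I`-fixed elements.** -/
theorem exists_fixI_ord_eq {n : ℕ} (hn : n ≠ 0) {u : FF M} (hu0 : u ≠ 0)
    (hufix : IsFixI A M u) (hdiv : ∀ Q : Place Kb (FF M), (n : ℤ) ∣ Q.ord u)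
    (P : Place Kb (FF M)) (hP : 0 ≤ P.ord (jElt M)) :
    ∃ G : FF M, G ≠ 0 ∧ IsFixI A M G ∧
      (∀ Q : Place Kb (FF M), 0 ≤ Q.ord (jElt M) → Q.ord u ≤ (n : ℤ) * Q.ord G) ∧
      (n : ℤ) * P.ord G = P.ord u := by
  classical
  have hS := riemannSetting_FF M
  obtain ⟨g, hg1, c, hc⟩ := riemannStatement M
  obtain ⟨Z, hZ, -⟩ := hS.principal.exists_divisor u hu0
  -- `U Q = ord_Q u / n` off the cusps, `0` at the cusps
  set U : Divisor Kb (FF M) :=
    (Z.filter (fun Q => 0 ≤ Q.ord (jElt M))).mapRange (fun z => z / (n : ℤ)) (by simp)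
    with hUdef
  have hUv : ∀ Q, U Q = if 0 ≤ Q.ord (jElt M) then Q.ord u / (n : ℤ) else 0 := by
    intro Q
    rw [hUdef, Finsupp.mapRange_apply (hf := by simp), Finsupp.filter_apply]
    split_ifs with h
    · rw [hZ]
    · simp
  set m : ℕ := (c + 1 + Divisor.degree U).toNat with hm
  set D : Divisor Kb (FF M) := Finsupp.single (inftyBar M) (m : ℤ) - U with hDdef
  have hDdeg : c + 1 ≤ Divisor.degree D := by
    rw [hDdef, map_sub, Divisor.degree_single, hS.deg_one]
    have := Int.self_le_toNat (c + 1 + Divisor.degree U)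
    simp only [Nat.cast_one, mul_one]
    omega
  have hinf : ∀ Q : Place Kb (FF M), 0 ≤ Q.ord (jElt M) → Q ≠ inftyBar M := by
    rintro Q hQ rfl
    rw [ord_inftyBar_jElt] at hQ
    omega
  have hDv : ∀ Q, D Q = (if Q = inftyBar M then (m : ℤ) else 0) -
      if 0 ≤ Q.ord (jElt M) then Q.ord u / (n : ℤ) else 0 := by
    intro Q
    rw [hDdef, Finsupp.sub_apply, hUv, Finsupp.single_apply]
    simp only [eq_comm]
  have hDfin : ∀ Q : Place Kb (FF M), 0 ≤ Q.ord (jElt M) → -D Q = Q.ord u / (n : ℤ) := by
    intro Q hQ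
    rw [hDv, if_neg (hinf Q hQ), if_pos hQ]
    omega
  obtain ⟨t, ht0, htL, htP⟩ := exists_mem_L_ord_eq hS hc hDdeg P
  haveI := finiteDimensional_L hS D
  obtain ⟨r, w, hspan, hfix⟩ := exists_span_fixed (coeffFun (riemannRochSpace D))
    (coeffFun_separating (riemannRochSpace D))
  -- `D` is stable under the inertia group
  have hDstab : ∀ σ ∈ A.inertiaSubgroupIn ℚ, ∀ Q : Place Kb (FF M),
      D ((gal M σ)⁻¹ • Q) = D Q := by
    intro σ hσ Q
    rw [hDv, hDv, ord_inv_smul_of_fix σ Q (arithmeticRingAut_jElt σ),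
      ord_inv_smul_of_fix σ Q (hufix σ hσ)]
    congr 1
    by_cases hQ : Q = inftyBar M
    · rw [if_pos hQ, if_pos (by rw [hQ]; exact inv_smul_inftyBar σ)]
    · rw [if_neg hQ, if_neg]
      intro h
      apply hQ
      rw [← inv_smul_inftyBar (M := M) σ] at h
      exact MulAction.injective _ h
  -- `L(D)` is stable under the inertia group
  have hstab : ∀ σ ∈ A.inertiaSubgroupIn ℚ, ∀ v ∈ riemannRochSpace D,
      arithmeticRingAut (modularFunctionFieldFull M) σ v ∈ riemannRochSpace D := by
    intro σ hσ v hv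
    rcases eq_or_ne v 0 with rfl | hv0
    · rw [map_zero]
      exact Submodule.zero_mem _
    rw [mem_L_iff' ((map_ne_zero _).mpr hv0)]
    intro Q
    rw [← ord_inv_smul, ← hDstab σ hσ Q]
    exact (mem_L_iff' hv0).mp hv _
  -- the echelon basis is fixed
  have hwfix : ∀ i, IsFixI A M ((w i : riemannRochSpace D) : FF M) := by
    intro i σ hσ
    have h := hfix
      (fun v => ⟨arithmeticRingAut (modularFunctionFieldFull M) σ v, hstab σ hσ v v.2⟩)
      (fun a => σ a) (map_zero σ) (map_one σ) (fun k v => by
        rw [coeffFun_apply, coeffFun_apply]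
        show ((arithmeticRingAut (modularFunctionFieldFull M) σ (v : FF M) : FF M) :
          LaurentSeries Kb).coeff k = _
        rw [coe_arithmeticRingAut_apply, coeffMap_coeff]
        rfl) i
    exact congrArg Subtype.val h
  -- one of them has the exact order at `P`
  have hex : ∃ i, ((w i : riemannRochSpace D) : FF M) ∉
      riemannRochSpace (D - Finsupp.single P 1) := by
    by_contra hcon0
    have hcon : ∀ i, ((w i : riemannRochSpace D) : FF M) ∈
        riemannRochSpace (D - Finsupp.single P 1) :=
      fun i => by_contra fun h => hcon0 ⟨i, h⟩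
    have hall : ∀ v : riemannRochSpace D, (v : FF M) ∈
        riemannRochSpace (D - Finsupp.single P 1) := by
      intro v
      have hv : v ∈ Submodule.span Kb (Set.range w) := by
        rw [hspan]
        exact Submodule.mem_top
      induction hv using Submodule.span_induction with
      | mem x hx =>
          obtain ⟨i, rfl⟩ := hx
          exact hcon i
      | zero => exact Submodule.zero_mem _
      | add x y _ _ hx hy => exact Submodule.add_mem _ hx hy
      | smul a x _ hx => exact Submodule.smul_mem _ a hx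
    have h1 := (mem_L_sub_single_iff ht0).mp (hall ⟨t, htL⟩)
    rw [htP] at h1
    exact lt_irrefl _ h1.2
  obtain ⟨i, hi⟩ := hex
  set G : FF M := ((w i : riemannRochSpace D) : FF M) with hG
  have hGL : G ∈ riemannRochSpace D := (w i).2
  have hG0 : G ≠ 0 := by
    intro h
    rw [h] at hi
    exact hi (Submodule.zero_mem _)
  have hGP : P.ord G = -D P := by
    have h1 := (mem_L_iff' hG0).mp hGL P
    have h2 : ¬ (-D P < P.ord G) := fun h => hi ((mem_L_sub_single_iff hG0).mpr ⟨hGL, h⟩)
    omega
  refine ⟨G, hG0, hwfix i, fun Q hQ => ?_, ?_⟩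
  · have h1 := (mem_L_iff' hG0).mp hGL Q
    rw [hDfin Q hQ] at h1
    calc Q.ord u = (n : ℤ) * (Q.ord u / (n : ℤ)) := (Int.mul_ediv_cancel' (hdiv Q)).symm
      _ ≤ (n : ℤ) * Q.ord G := by
          apply mul_le_mul_of_nonneg_left h1
          exact Int.natCast_nonneg n
  · rw [hGP, hDfin P hP]
    exact Int.mul_ediv_cancel' (hdiv P)

end Exact

end Fermat.Agent.T3.helper38

end
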