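import Fermat.Agent.T3.helper3_LocPrin
import Fermat.Agent.T3.helper3_Overring

/-!
# Tier 3, abstract tool (helper3): local principality along a principal vertical prime, field form

The form of `local_principal_of_dedekind_quotient` in which the quotient of `B` is not
identified: `red : B → L` is a ring homomorphism into a field `L` (the residue field of the
vertical valuation), `L` is the fraction field of a Dedekind domain `D` (the affine coordinate
ring of the reduction at the lower level) whose image lies in the image of `red`.  Then the
image of `red` is a Dedekind domain (`isDedekindDomain_of_between`), so no integrality argument is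
needed.
-/

set_option autoImplicit false
set_option linter.style.haveILetI false

namespace Fermat.Agent.T3.helper3

section

variable {B : Type*} [CommRing B] {N : Type*} [AddCommGroup N] [Module B N] [Module.Finite B N]
  {L : Type*} [Field L] {D : Type*} [CommRing D] [IsDedekindDomain D]

/-- The image of `red` is a Dedekind domain. -/
theorem isDedekindDomain_range (red : B →+* L) (φ : D →+* L) (hφ : Function.Injective φ)
    (hD : ∀ d : D, ∃ c : B, red c = φ d)
    (hL : ∀ z : L, ∃ a d : D, d ≠ 0 ∧ z * φ d = φ a) : IsDedekindDomain red.range :=
  isDedekindDomain_of_between φ hφ red.range (fun d => hD d) (fun r _ => hL r)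

/-- **local principality along a principal vertical prime, field form.** -/
theorem local_principal_of_field (red : B →+* L) (P : Ideal B) [P.IsPrime]
    (hker : RingHom.ker red ≤ P) {b : B} (hb : red b = 0)
    (φ : D →+* L) (hφ : Function.Injective φ) (hD : ∀ d : D, ∃ c : B, red c = φ d)
    (hL : ∀ z : L, ∃ a d : D, d ≠ 0 ∧ z * φ d = φ a)
    (ρ : N →+ L) (hρ : ∀ (c : B) (n : N), ρ (c • n) = red c * ρ n)
    (hsat : ∀ n : N, ρ n = 0 → ∃ n' : N, n = b • n') :
    ∃ (g : N) (t : B), t ∉ P ∧ ∀ f : N, ∃ r : B, t • f = r • g := by
  haveI : IsDedekindDomain red.range := isDedekindDomain_range red φ hφ hD hL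
  have hfs : FaithfulSMul red.range L :=
    (faithfulSMul_iff_algebraMap_injective red.range L).mpr Subtype.val_injective
  haveI : IsFractionRing red.range L := by
    refine IsFractionRing.of_field red.range L fun z => ?_
    obtain ⟨a, d, hd, had⟩ := hL z
    have hφd : φ d ≠ 0 := fun h => hd (hφ (by rw [h, map_zero]))
    refine ⟨⟨φ a, hD a⟩, ⟨φ d, hD d⟩, ?_⟩
    show z = φ a / φ d
    rw [← had, mul_div_assoc, div_self hφd, mul_one]
  refine local_principal_of_dedekind_quotient (R := red.range) (K := L) red.rangeRestrict
    red.rangeRestrict_surjective P ?_ ?_ ρ ?_ hsat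
  · intro c hc
    apply hker
    rw [RingHom.mem_ker] at hc ⊢
    have := congrArg Subtype.val hc
    simpa using this
  · exact Subtype.ext hb
  · intro c n
    rw [hρ]
    rfl

end

end Fermat.Agent.T3.helper3
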