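import Fermat.Agent.T2.helper48_UOp
import Fermat.Agent.T3.helper48_AtkinLehnerQ
import Fermat.Agent.S18.helper19_Wiring

/-!
# Tier 3, [KUM-NEW] (helper43, task 940): the cut `(U_q, U_q ∘ W_{q²})` on Kummer representatives

Level `M = N * q * q`, `q` prime.  `α₂, β₂ : F_{Nq} → F_{Nq²}` are the two degeneracy maps of the
Prelude (`heckeAlphaBar Kbar (N * q) q`, `heckeBetaBar Kbar (N * q) q`), `N_α`, `N_β` the norms
along them (`helper94.normAlong`), `U = helper48.uJ (N * q * q) q`,
`W₂ = helper48.atkinLehnerSq N q`, `W₁ = helper36.atkinLehner N q`.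

* `es_normBeta` : the norm formula `(N_β y)(t^q) = ∏_{k<q} y(ζ^k t)` for EVERY `y ∈ F_{Mq}`
  (`q ∣ M`);
* `uKummer_eq_alpha_normBeta` : `U` on functions factors through level `N q`:
  `uKummer (N q²) q h = α₂ (N_β h)`;
* `normAlpha_alpha` : `N_α (α₂ y) = y ^ q`;
* `normBeta_atkinLehnerSq` : `N_β (W₂ h) = W₁ (N_α h)`;
* `normBeta_eq_const_mul_pow` : **[KUM-NEW] (β)** if `h` is a Kummer representative (w.r.t. `n`,
  `gcd(q, n) = 1`) of `x` and `U x = 0`, then `N_β h = c · v ^ n`, `c ∈ ℚ̄ˣ`, `v ∈ F_{Nq}ˣ`;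
* `normAlpha_eq_const_mul_pow` : **[KUM-NEW] (α)** if moreover `U (W₂ x) = 0`, then
  `N_α h = c' · v' ^ n`;
* `kumNew` : both, for `x` in the kernel of the cut pair `(U, U ∘ W₂)`.
-/

set_option autoImplicit false
set_option linter.unusedSectionVars false
set_option linter.unusedVariables false
set_option linter.style.haveILetI false

noncomputable section

open UpperHalfPlane ModularCurve AlgebraicCurve IntermediateField CongruenceSubgroup
open scoped MatrixGroups

namespace Fermat.Agent.T3.helper43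

open Fermat.Agent.S24 Fermat.Agent.S24.helper37 Fermat.Agent.P2.helper93
open Fermat.Agent.P3.helper94 Fermat.Agent.T2.helper48 Fermat.Agent.T3.helper48

/-! ### The norm formula along `β` for arbitrary elements -/

section NormBeta

variable (M q : ℕ) [NeZero M] [NeZero q]

/-- **Norm formula along `β`, complex coefficients**: `(N_β y)(t^q) = ∏_{k<q} y(ξ^k t)`. -/
theorem es_normBeta_complex (hq : q.Prime) (hqM : q ∣ M) {ξ : ℂ} (hξ : IsPrimitiveRoot ξ q)
    (y : FN (M * q)) :
    qExpand ℂ q (helper17.toC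
        ((normAlong (heckeBetaBar Kbar M q) y : FN M) : LaurentSeries Kbar))
      = ∏ k ∈ Finset.range q, rotL (ξ ^ k) (helper17.toC (y : LaurentSeries Kbar)) := by
  letI := algebraAlong (heckeBetaBar Kbar M q)
  have hfr : Module.finrank (FN M) (FN (M * q)) = q := finrank_beta_of_dvd M q hq hqM
  haveI fd : FiniteDimensional (FN M) (FN (M * q)) :=
    Module.finite_of_finrank_pos (by rw [hfr]; exact hq.pos)
  haveI : Algebra.IsSeparable (FN M) (FN (M * q)) := inferInstance
  have key := norm_eq_prod_of_embeddings (F := FN M) (E := FN (M * q))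
    ((qExpand ℂ q).comp (toCHom M)) (rotFam M q ξ (hξ.ne_zero (NeZero.ne q)))
    (rotFam_injective M q hξ)
    (fun i => RingHom.ext fun f => rotFam_beta M q hξ i f)
    (by rw [Fintype.card_fin, hfr]) y
  simp_rw [rotFam_apply] at key
  rw [Fin.prod_univ_eq_prod_range
    (fun k => rotL (ξ ^ k) (helper17.toC (y : LaurentSeries Kbar))) q] at key
  rw [← key]
  rfl

/-- **Norm formula along `β`** in `ℚ̄((t))`: `(N_β y)(t^q) = ∏_{k<q} y(ζ^k t)`. -/
theorem es_normBeta (hq : q.Prime) (hqM : q ∣ M) (ζ : Kbar) (hζ : IsPrimitiveRoot ζ q)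
    (y : FN (M * q)) :
    qExpand Kbar q ((normAlong (heckeBetaBar Kbar M q) y : FN M) : LaurentSeries Kbar)
      = ∏ k ∈ Finset.range q, twistL (ζ ^ k) (y : LaurentSeries Kbar) := by
  apply helper17.toC_injective
  rw [map_prod, toC_qExpand]
  simp_rw [toC_twistL, map_pow]
  exact es_normBeta_complex M q hq hqM
    (hζ.map_of_injective (iotaC : Kbar →+* ℂ).injective) y

end NormBeta

/-! ### `U_q` factors through the lower level -/

section Factor

variable (N q : ℕ) [NeZero N] [NeZero q]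

/-- **`U_q = α₂ ∘ N_β` on functions** (level `N q²`): `uKummer (N q²) q h = α₂ (N_β h)`. -/
theorem uKummer_eq_alpha_normBeta (hq : q.Prime) (h : FN (N * q * q)) :
    uKummer (N * q * q) q h
      = heckeAlphaBar Kbar (N * q) q (normAlong (heckeBetaBar Kbar (N * q) q) h) := by
  obtain ⟨ζ, hζ⟩ := HasEnoughRootsOfUnity.exists_primitiveRoot Kbar q
  apply Subtype.ext
  apply ModularCurve.qExpand_injective (R := Kbar) (N := q)
  rw [es_norm_U (N * q * q) q hq (Dvd.intro_left _ rfl) ζ hζ h, coe_heckeAlphaBar,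
    es_normBeta (N * q) q hq (Dvd.intro_left _ rfl) ζ hζ h]

end Factor

/-! ### Norms of pulled-back elements and the exchange under `W` -/

section NormAlpha

variable (M q : ℕ) [NeZero M] [NeZero q]

/-- `N_α (α y) = y ^ q` for a prime `q ∣ M`. -/
theorem normAlpha_alpha (hq : q.Prime) (hqM : q ∣ M) (y : FN M) :
    normAlong (heckeAlphaBar Kbar M q) (heckeAlphaBar Kbar M q y) = y ^ q := by
  letI := algebraAlong (heckeAlphaBar Kbar M q)
  have hfr : Module.finrank (FN M) (FN (M * q)) = q := finrank_alpha_of_dvd M q hq hqM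
  show Algebra.norm (FN M) (algebraMap (FN M) (FN (M * q)) y) = y ^ q
  rw [Algebra.norm_algebraMap, hfr]

/-- `N_β (β y) = y ^ q` for a prime `q ∣ M`. -/
theorem normBeta_beta (hq : q.Prime) (hqM : q ∣ M) (y : FN M) :
    normAlong (heckeBetaBar Kbar M q) (heckeBetaBar Kbar M q y) = y ^ q := by
  letI := algebraAlong (heckeBetaBar Kbar M q)
  have hfr : Module.finrank (FN M) (FN (M * q)) = q := finrank_beta_of_dvd M q hq hqM
  show Algebra.norm (FN M) (algebraMap (FN M) (FN (M * q)) y) = y ^ q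
  rw [Algebra.norm_algebraMap, hfr]

/-- `N_α` of a constant. -/
theorem normAlpha_const (hq : q.Prime) (hqM : q ∣ M) (c : Kbar) :
    normAlong (heckeAlphaBar Kbar M q) (algebraMap Kbar (FN (M * q)) c)
      = algebraMap Kbar (FN M) (c ^ q) := by
  have h1 : algebraMap Kbar (FN (M * q)) c
      = heckeAlphaBar Kbar M q (algebraMap Kbar (FN M) c) :=
    ((heckeAlphaBar Kbar M q).commutes c).symm
  rw [h1, normAlpha_alpha M q hq hqM, map_pow]

end NormAlpha

section Exchange

variable (N q : ℕ) [NeZero N] [NeZero q]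

/-- **`N_β ∘ W₂ = W₁ ∘ N_α`.** -/
theorem normBeta_atkinLehnerSq (hq : q.Prime) (hqN : ¬ q ∣ N) (h : FN (N * q * q)) :
    normAlong (heckeBetaBar Kbar (N * q) q) (atkinLehnerSq N q hq hqN h)
      = T2.helper36.atkinLehner N q hq hqN
          (normAlong (heckeAlphaBar Kbar (N * q) q) h) := by
  have key := @Algebra.norm_eq_of_equiv_equiv (FN (N * q)) (FN (N * q * q))
    (FN (N * q)) (FN (N * q * q)) _ _ _ _
    (algebraAlong (heckeAlphaBar Kbar (N * q) q))
    (algebraAlong (heckeBetaBar Kbar (N * q) q))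
    (T2.helper36.atkinLehner N q hq hqN).toRingEquiv
    (atkinLehnerSq N q hq hqN).toRingEquiv
    (RingHom.ext fun x => (atkinLehnerSq_heckeAlphaBar N q hq hqN x).symm) h
  have key' : normAlong (heckeAlphaBar Kbar (N * q) q) h
      = (T2.helper36.atkinLehner N q hq hqN).toRingEquiv.symm
          (normAlong (heckeBetaBar Kbar (N * q) q) (atkinLehnerSq N q hq hqN h)) := key
  rw [key']
  exact ((T2.helper36.atkinLehner N q hq hqN).toRingEquiv.apply_symm_apply _).symm

end Exchange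

/-! ### Pure algebra: removing the exponent `q` -/

/-- If `g ^ q = c · w ^ n` with `gcd(q, n) = 1`, then `g = c' · v ^ n`. -/
theorem eq_const_mul_pow_of_pow_eq {K F : Type*} [Field K] [Field F] [Algebra K F]
    {q n : ℕ} (hqn : Nat.Coprime q n) {g w : F} {c : K} (hg : g ≠ 0)
    (e : g ^ q = algebraMap K F c * w ^ n) :
    ∃ (c' : K) (v : F), c' ≠ 0 ∧ v ≠ 0 ∧ g = algebraMap K F c' * v ^ n := by
  have hgq : g ^ q ≠ 0 := pow_ne_zero q hg
  have hc : c ≠ 0 := by
    rintro rfl
    rw [map_zero, zero_mul] at e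
    exact hgq e
  rcases Nat.eq_zero_or_pos n with hn0 | hn0
  · subst hn0
    have hq1 : q = 1 := (Nat.coprime_zero_right q).mp hqn
    subst hq1
    rw [pow_zero, mul_one, pow_one] at e
    exact ⟨c, 1, hc, one_ne_zero, by rw [pow_zero, mul_one]; exact e⟩
  have hw : w ≠ 0 := by
    rintro rfl
    rw [zero_pow hn0.ne', mul_zero] at e
    exact hgq e
  set a : ℤ := Nat.gcdA q n with ha
  set b : ℤ := Nat.gcdB q n with hb
  have hab : (q : ℤ) * a + (n : ℤ) * b = 1 := by
    have := Nat.gcd_eq_gcd_ab q n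
    rw [hqn] at this
    simpa using this.symm
  refine ⟨c ^ a, w ^ a * g ^ b, zpow_ne_zero a hc,
    mul_ne_zero (zpow_ne_zero a hw) (zpow_ne_zero b hg), ?_⟩
  have e1 : g = g ^ ((q : ℤ) * a + (n : ℤ) * b) := by rw [hab, zpow_one]
  have e2 : g ^ ((q : ℤ) * a) = (g ^ q) ^ a := by
    rw [zpow_mul, zpow_natCast]
  have e3 : g ^ ((n : ℤ) * b) = (g ^ b) ^ n := by
    rw [mul_comm, zpow_mul, zpow_natCast]
  have e4 : (w ^ n) ^ a = (w ^ a) ^ n := by
    rw [← zpow_natCast, ← zpow_mul, mul_comm, zpow_mul, zpow_natCast]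
  calc g = g ^ ((q : ℤ) * a + (n : ℤ) * b) := e1
    _ = g ^ ((q : ℤ) * a) * g ^ ((n : ℤ) * b) := zpow_add₀ hg _ _
    _ = (algebraMap K F c * w ^ n) ^ a * (g ^ b) ^ n := by rw [e2, e3, e]
    _ = algebraMap K F (c ^ a) * (w ^ a * g ^ b) ^ n := by
      rw [mul_zpow, e4, map_zpow₀, mul_pow, mul_assoc]

/-! ### [KUM-NEW] -/

section Main

variable (N q : ℕ) [NeZero N] [NeZero q]

/-- **[KUM-NEW] (β)**: if `h` is a Kummer representative (w.r.t. `n`, `gcd(q, n) = 1`) of a
class `x` of `J₀(N q²)` with `U_q x = 0`, then the norm of `h` along `β₂ : F_{Nq} → F_{Nq²}` is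
a constant times an `n`-th power in `F_{Nq}`. -/
theorem normBeta_eq_const_mul_pow (hq : q.Prime) {n : ℕ} (hqn : Nat.Coprime q n)
    {x : JZero (N * q * q)} {h : FN (N * q * q)} (H : IsKummerRep n x h)
    (hU : uJ (N * q * q) q x = 0) :
    ∃ (c : Kbar) (v : FN (N * q)), c ≠ 0 ∧ v ≠ 0 ∧
      normAlong (heckeBetaBar Kbar (N * q) q) h
        = algebraMap Kbar (FN (N * q)) c * v ^ n := by
  have hqM : q ∣ N * q := Dvd.intro_left _ rfl
  have HU : IsKummerRep n (uJ (N * q * q) q x) (uKummer (N * q * q) q h) :=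
    IsKummerRep.uJ (N * q * q) q H
  rw [hU] at HU
  obtain ⟨u, w, hu, hw, e0⟩ := HU.exists_eq_mul_pow
  obtain ⟨cU, rfl⟩ := Fermat.Agent.S18.helper19.const_of_ord_eq_zero (N * q * q) w hw.2
  have e1 : heckeAlphaBar Kbar (N * q) q (normAlong (heckeBetaBar Kbar (N * q) q) h)
      = algebraMap Kbar (FN (N * q * q)) cU * u ^ n := by
    rw [← uKummer_eq_alpha_normBeta N q hq h]
    exact e0
  have hg0 : normAlong (heckeBetaBar Kbar (N * q) q) h ≠ 0 := by
    intro h0
    rw [h0, map_zero] at e1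
    exact HU.ne_zero (e0.trans e1.symm)
  have e2 : (normAlong (heckeBetaBar Kbar (N * q) q) h) ^ q
      = algebraMap Kbar (FN (N * q)) (cU ^ q)
        * (normAlong (heckeAlphaBar Kbar (N * q) q) u) ^ n := by
    have := congrArg (normAlong (heckeAlphaBar Kbar (N * q) q)) e1
    rw [normAlpha_alpha (N * q) q hq hqM, map_mul, map_pow,
      normAlpha_const (N * q) q hq hqM] at this
    exact this
  exact eq_const_mul_pow_of_pow_eq hqn hg0 e2

/-- **[KUM-NEW] (α)**: if `h` is a Kummer representative of `x` and `U_q (W₂ x) = 0`, then the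
norm of `h` along `α₂ : F_{Nq} → F_{Nq²}` is a constant times an `n`-th power in `F_{Nq}`. -/
theorem normAlpha_eq_const_mul_pow (hq : q.Prime) (hqN : ¬ q ∣ N) {n : ℕ}
    (hqn : Nat.Coprime q n) {x : JZero (N * q * q)} {h : FN (N * q * q)}
    (H : IsKummerRep n x h)
    (hU : uJ (N * q * q) q (atkinLehnerSq N q hq hqN • x) = 0) :
    ∃ (c : Kbar) (v : FN (N * q)), c ≠ 0 ∧ v ≠ 0 ∧
      normAlong (heckeAlphaBar Kbar (N * q) q) h
        = algebraMap Kbar (FN (N * q)) c * v ^ n := by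
  have HW : IsKummerRep n (atkinLehnerSq N q hq hqN • x) (atkinLehnerSq N q hq hqN h) :=
    H.algEquiv_smul _
  obtain ⟨c, v, hc, hv, e⟩ := normBeta_eq_const_mul_pow N q hq hqn HW hU
  rw [normBeta_atkinLehnerSq N q hq hqN h] at e
  refine ⟨c, T2.helper36.atkinLehner N q hq hqN v, hc, ?_, ?_⟩
  · exact (map_ne_zero (T2.helper36.atkinLehner N q hq hqN)).mpr hv
  · have := congrArg (T2.helper36.atkinLehner N q hq hqN) e
    rw [T2.helper36.atkinLehner_atkinLehner, map_mul, map_pow, AlgEquiv.commutes] at this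
    exact this

/-- **[KUM-NEW]**: for `x` killed by `U_q` and by `U_q ∘ W_{q²}` (the kernel of the cut pair of
S36) and every Kummer representative `h` of `x` w.r.t. `n`, `gcd(q, n) = 1`: both norms
`N_β h` and `N_α h` to level `N q` are constants times `n`-th powers. -/
theorem kumNew (hq : q.Prime) (hqN : ¬ q ∣ N) {n : ℕ} (hqn : Nat.Coprime q n)
    {x : JZero (N * q * q)} {h : FN (N * q * q)} (H : IsKummerRep n x h)
    (hU : uJ (N * q * q) q x = 0)
    (hUW : uJ (N * q * q) q (atkinLehnerSq N q hq hqN • x) = 0) :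
    (∃ (c : Kbar) (v : FN (N * q)), c ≠ 0 ∧ v ≠ 0 ∧
      normAlong (heckeBetaBar Kbar (N * q) q) h
        = algebraMap Kbar (FN (N * q)) c * v ^ n) ∧
    (∃ (c : Kbar) (v : FN (N * q)), c ≠ 0 ∧ v ≠ 0 ∧
      normAlong (heckeAlphaBar Kbar (N * q) q) h
        = algebraMap Kbar (FN (N * q)) c * v ^ n) :=
  ⟨normBeta_eq_const_mul_pow N q hq hqn H hU,
    normAlpha_eq_const_mul_pow N q hq hqN hqn H hUW⟩

/-- `gcd(q, p ^ k) = 1` for distinct primes. -/
theorem coprime_prime_pow {p q : ℕ} (hp : p.Prime) (hq : q.Prime) (hpq : p ≠ q) (k : ℕ) :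
    Nat.Coprime q (p ^ k) :=
  Nat.Coprime.pow_right k ((Nat.coprime_primes hq hp).mpr (fun h => hpq h.symm))

end Main

end Fermat.Agent.T3.helper43

end
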