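/-
T3 (S36), tool for [T3-UNIT] (theta and eta versions), Mathlib only (helper86).

For `N ∈ {2, 3, 4}` the group `Γ₀(N)` is generated by `-1`, `T = [[1,1],[0,1]]` and
`lowerU N = [[1,0],[N,1]]` (Euclidean descent on the lower left entry; for `N = 4` the descent is
strict by a parity argument).

* `lowerU`, `lowerU_add`, `lowerU_mul_eq_zpow`, entries of `g * T ^ k`, `g * lowerU k`;
* `Gamma0_le_closure`, `Gamma0_eq_closure`;
* `Gamma0_induction` : induction principle over the generators;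
* `eqOn_Gamma0_of_gens` : two homomorphisms `Γ₀(N) →* H` agreeing on the three generators are
  equal.
-/
import Mathlib

set_option autoImplicit false

open Matrix Matrix.SpecialLinearGroup ModularGroup CongruenceSubgroup
open scoped MatrixGroups

namespace Fermat.Agent.T3.helper86

/-- The lower unipotent matrix `[[1, 0], [n, 1]]`. -/
def lowerU (n : ℤ) : SL(2, ℤ) := ⟨!![1, 0; n, 1], by simp [Matrix.det_fin_two_of]⟩

lemma lowerU_coe (n : ℤ) : (lowerU n : Matrix (Fin 2) (Fin 2) ℤ) = !![1, 0; n, 1] := rfl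

@[simp] lemma lowerU_apply_zero_zero (n : ℤ) : lowerU n 0 0 = 1 := rfl
@[simp] lemma lowerU_apply_zero_one (n : ℤ) : lowerU n 0 1 = 0 := rfl
@[simp] lemma lowerU_apply_one_zero (n : ℤ) : lowerU n 1 0 = n := rfl
@[simp] lemma lowerU_apply_one_one (n : ℤ) : lowerU n 1 1 = 1 := rfl

lemma mul_apply_fin_two (g h : SL(2, ℤ)) (i j : Fin 2) :
    (g * h) i j = g i 0 * h 0 j + g i 1 * h 1 j := by
  rw [Matrix.SpecialLinearGroup.coe_mul, Matrix.mul_apply, Fin.sum_univ_two]

lemma lowerU_zero : lowerU 0 = 1 := by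
  ext i j
  fin_cases i <;> fin_cases j <;> simp [lowerU]

lemma lowerU_add (m n : ℤ) : lowerU (m + n) = lowerU m * lowerU n := by
  ext i j
  rw [mul_apply_fin_two]
  fin_cases i <;> fin_cases j <;> simp [lowerU]

/-- `n ↦ lowerU n` as a homomorphism. -/
def lowerUHom : Multiplicative ℤ →* SL(2, ℤ) where
  toFun n := lowerU (Multiplicative.toAdd n)
  map_one' := lowerU_zero
  map_mul' _ _ := lowerU_add _ _

lemma lowerU_mul_eq_zpow (N m : ℤ) : lowerU (N * m) = lowerU N ^ m := by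
  have h := map_zpow lowerUHom (Multiplicative.ofAdd N) m
  have e : (Multiplicative.ofAdd N) ^ m = Multiplicative.ofAdd (N * m) := by
    rw [← ofAdd_zsmul, smul_eq_mul, mul_comm]
  rw [e] at h
  exact h

lemma T_zpow_apply (k : ℤ) (i j : Fin 2) :
    (T ^ k : SL(2, ℤ)) i j = (!![1, k; 0, 1] : Matrix (Fin 2) (Fin 2) ℤ) i j := by
  have := coe_T_zpow k
  exact congrFun (congrFun this i) j

lemma mul_T_zpow_one_zero (g : SL(2, ℤ)) (k : ℤ) : (g * T ^ k) 1 0 = g 1 0 := by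
  rw [mul_apply_fin_two, T_zpow_apply, T_zpow_apply]
  simp

lemma mul_T_zpow_one_one (g : SL(2, ℤ)) (k : ℤ) : (g * T ^ k) 1 1 = g 1 1 + k * g 1 0 := by
  rw [mul_apply_fin_two, T_zpow_apply, T_zpow_apply]
  simp
  ring

lemma mul_lowerU_one_zero (g : SL(2, ℤ)) (k : ℤ) : (g * lowerU k) 1 0 = g 1 0 + k * g 1 1 := by
  rw [mul_apply_fin_two]
  simp
  ring

lemma mul_lowerU_one_one (g : SL(2, ℤ)) (k : ℤ) : (g * lowerU k) 1 1 = g 1 1 := by
  rw [mul_apply_fin_two]
  simp

lemma det_eq (g : SL(2, ℤ)) : g 0 0 * g 1 1 - g 0 1 * g 1 0 = 1 := by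
  have := g.det_coe
  rwa [Matrix.det_fin_two] at this

/-- balanced remainder -/
lemma exists_balanced (x m : ℤ) (hm : m ≠ 0) : ∃ k : ℤ, 2 * |x + k * m| ≤ |m| := by
  have h1 : m * (x / m) + x % m = x := Int.mul_ediv_add_emod x m
  have h2 : 0 ≤ x % m := Int.emod_nonneg x hm
  have h3 : x % m < |m| := Int.emod_lt_abs x hm
  set q := x / m
  set r := x % m
  by_cases h : 2 * r ≤ |m|
  · refine ⟨-q, ?_⟩
    have e : x + -q * m = r := by rw [← h1]; ring
    rw [e, abs_of_nonneg h2]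
    exact h
  · rw [not_le] at h
    rcases lt_or_gt_of_ne hm with hneg | hpos
    · refine ⟨-q + 1, ?_⟩
      have e : x + (-q + 1) * m = r + m := by rw [← h1]; ring
      rw [abs_of_neg hneg] at h h3 ⊢
      rw [e, abs_of_nonpos (by linarith)]
      linarith
    · refine ⟨-q - 1, ?_⟩
      have e : x + (-q - 1) * m = r - m := by rw [← h1]; ring
      rw [abs_of_pos hpos] at h h3 ⊢
      rw [e, abs_of_nonpos (by linarith)]
      linarith

lemma T_mem_Gamma0 (N : ℕ) : (T : SL(2, ℤ)) ∈ Gamma0 N := by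
  rw [Gamma0_mem]
  simp [ModularGroup.T]

lemma neg_one_mem_Gamma0 (N : ℕ) : (-1 : SL(2, ℤ)) ∈ Gamma0 N := by
  rw [Gamma0_mem]
  simp

lemma lowerU_mem_Gamma0 (N : ℕ) (m : ℤ) : lowerU (N * m) ∈ Gamma0 N := by
  rw [Gamma0_mem]
  simp

lemma lowerU_self_mem_Gamma0 (N : ℕ) : lowerU N ∈ Gamma0 N := by
  have := lowerU_mem_Gamma0 N 1
  rwa [mul_one] at this

/-- the generating set -/
def gens (N : ℕ) : Set SL(2, ℤ) := {-1, T, lowerU N}

lemma neg_one_mem_gens (N : ℕ) : (-1 : SL(2, ℤ)) ∈ gens N := by simp [gens]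
lemma T_mem_gens (N : ℕ) : (T : SL(2, ℤ)) ∈ gens N := by simp [gens]
lemma lowerU_mem_gens (N : ℕ) : lowerU N ∈ gens N := by simp [gens]

theorem mem_closure_of_natAbs (N : ℕ) (hN2 : 2 ≤ N) (hN4 : N ≤ 4) :
    ∀ (n : ℕ) (g : SL(2, ℤ)), g ∈ Gamma0 N → (g 1 0).natAbs = n →
      g ∈ Subgroup.closure (gens N) := by
  intro n
  induction n using Nat.strong_induction_on with
  | _ n ih =>
    intro g hg hn
    have hdvd : (N : ℤ) ∣ g 1 0 := by
      rw [Gamma0_mem] at hg
      exact (ZMod.intCast_zmod_eq_zero_iff_dvd _ _).1 hg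
    have hdet := det_eq g
    have hTc : ∀ k : ℤ, (T : SL(2, ℤ)) ^ k ∈ Subgroup.closure (gens N) := fun k =>
      Subgroup.zpow_mem _ (Subgroup.subset_closure (T_mem_gens N)) k
    have hLc : ∀ m : ℤ, lowerU (N * m) ∈ Subgroup.closure (gens N) := fun m => by
      rw [lowerU_mul_eq_zpow]
      exact Subgroup.zpow_mem _ (Subgroup.subset_closure (lowerU_mem_gens N)) m
    by_cases hc : g 1 0 = 0
    · -- upper triangular
      rw [hc, mul_zero, sub_zero] at hdet
      rcases Int.eq_one_or_neg_one_of_mul_eq_one' hdet with ⟨ha, hd⟩ | ⟨ha, hd⟩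
      · have e : g = T ^ (g 0 1) := by
          ext i j
          rw [T_zpow_apply]
          fin_cases i <;> fin_cases j <;> simp [ha, hd, hc]
        rw [e]
        exact hTc _
      · have e : g = -1 * T ^ (-(g 0 1)) := by
          ext i j
          rw [neg_one_mul, Matrix.SpecialLinearGroup.coe_neg, Matrix.neg_apply, T_zpow_apply]
          fin_cases i <;> fin_cases j <;> simp [ha, hd, hc]
        rw [e]
        exact Subgroup.mul_mem _ (Subgroup.subset_closure (neg_one_mem_gens N)) (hTc _)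
    · -- descent
      obtain ⟨k, hk⟩ := exists_balanced (g 1 1) (g 1 0) hc
      set g₁ := g * T ^ k with hg₁
      have hc₁ : g₁ 1 0 = g 1 0 := mul_T_zpow_one_zero g k
      have hd₁ : g₁ 1 1 = g 1 1 + k * g 1 0 := mul_T_zpow_one_one g k
      have hdet₁ := det_eq g₁
      have hcabs : (N : ℤ) ≤ |g 1 0| := by
        obtain ⟨e, he⟩ := hdvd
        have he0 : e ≠ 0 := by
          rintro rfl
          exact hc (by rw [he, mul_zero])
        rw [he, abs_mul, Nat.abs_cast]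
        have : (1 : ℤ) ≤ |e| := Int.one_le_abs he0
        nlinarith
      have hd₁0 : g₁ 1 1 ≠ 0 := by
        intro h0
        rw [h0, mul_zero, zero_sub, hc₁] at hdet₁
        have hu : IsUnit (g 1 0) := by
          refine IsUnit.of_mul_eq_one (-(g₁ 0 1)) ?_
          linear_combination hdet₁
        have := Int.isUnit_iff_abs_eq.1 hu
        rw [this] at hcabs
        have : (2 : ℤ) ≤ N := by exact_mod_cast hN2
        linarith
      have hNd : (N : ℤ) * g₁ 1 1 ≠ 0 :=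
        mul_ne_zero (by exact_mod_cast (by omega : N ≠ 0)) hd₁0
      obtain ⟨m, hm⟩ := exists_balanced (g 1 0) ((N : ℤ) * g₁ 1 1) hNd
      set g₂ := g₁ * lowerU (N * m) with hg₂
      have hc₂ : g₂ 1 0 = g 1 0 + m * ((N : ℤ) * g₁ 1 1) := by
        rw [hg₂, mul_lowerU_one_zero, hc₁]; ring
      have hg₂mem : g₂ ∈ Gamma0 N :=
        Subgroup.mul_mem _ (Subgroup.mul_mem _ hg (Subgroup.zpow_mem _ (T_mem_Gamma0 N) k))
          (lowerU_mem_Gamma0 N m)
      -- the measure decreases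
      have hk' : 2 * |g₁ 1 1| ≤ |g 1 0| := by rw [hd₁]; exact hk
      have hm' : 2 * |g₂ 1 0| ≤ (N : ℤ) * |g₁ 1 1| := by
        rw [hc₂]
        have := hm
        rwa [abs_mul, Nat.abs_cast] at this
      have hN4' : (N : ℤ) ≤ 4 := by exact_mod_cast hN4
      have hcpos : 0 < |g 1 0| := abs_pos.2 hc
      have hd₁nn : 0 ≤ |g₁ 1 1| := abs_nonneg _
      have hlt : |g₂ 1 0| < |g 1 0| := by
        by_contra hge
        rw [not_lt] at hge
        -- `4 |c'| ≤ 2 N |d'| ≤ N |c| ≤ 4 |c|`, so equality holds everywhere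
        have h4 : 4 * |g₂ 1 0| ≤ (N : ℤ) * |g 1 0| := by nlinarith
        have hNeq : (N : ℤ) = 4 := by
          by_contra hne
          have : (N : ℤ) ≤ 3 := by omega
          nlinarith
        have hdeq : 2 * |g₁ 1 1| = |g 1 0| := by
          rw [hNeq] at hm'
          nlinarith
        -- parity contradiction
        have h2c : (2 : ℤ) ∣ g 1 0 := by
          have : (4 : ℤ) ∣ g 1 0 := by rw [← hNeq]; exact hdvd
          exact dvd_trans (by norm_num) this
        have h2d : (2 : ℤ) ∣ g₁ 1 1 := by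
          have h4c : (4 : ℤ) ∣ |g 1 0| := by
            rw [dvd_abs]; rw [← hNeq]; exact hdvd
          rw [← hdeq] at h4c
          have : (2 : ℤ) ∣ |g₁ 1 1| := by
            obtain ⟨e, he⟩ := h4c
            exact ⟨e, by linarith⟩
          exact (dvd_abs _ _).1 this
        have h21 : (2 : ℤ) ∣ 1 := by
          rw [← hdet₁, hc₁]
          exact dvd_sub (dvd_mul_of_dvd_right h2d _) (dvd_mul_of_dvd_right h2c _)
        omega
      have hnat : (g₂ 1 0).natAbs < n := by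
        rw [← hn]
        have h1 : ((g₂ 1 0).natAbs : ℤ) < ((g 1 0).natAbs : ℤ) := by
          rw [Int.natCast_natAbs, Int.natCast_natAbs]
          exact hlt
        exact_mod_cast h1
      have hg₂c := ih _ hnat g₂ hg₂mem rfl
      have e : g = g₂ * (lowerU (N * m))⁻¹ * (T ^ k)⁻¹ := by
        rw [hg₂, hg₁]; group
      rw [e]
      exact Subgroup.mul_mem _ (Subgroup.mul_mem _ hg₂c (Subgroup.inv_mem _ (hLc m)))
        (Subgroup.inv_mem _ (hTc k))

/-- **Generators of `Γ₀(N)`, `N ∈ {2, 3, 4}`**: `-1`, `T`, `[[1,0],[N,1]]`. -/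
theorem Gamma0_le_closure (N : ℕ) (hN2 : 2 ≤ N) (hN4 : N ≤ 4) :
    Gamma0 N ≤ Subgroup.closure (gens N) :=
  fun g hg => mem_closure_of_natAbs N hN2 hN4 _ g hg rfl

theorem Gamma0_eq_closure (N : ℕ) (hN2 : 2 ≤ N) (hN4 : N ≤ 4) :
    Gamma0 N = Subgroup.closure (gens N) := by
  apply le_antisymm (Gamma0_le_closure N hN2 hN4)
  rw [Subgroup.closure_le]
  rintro g (rfl | rfl | rfl)
  · exact neg_one_mem_Gamma0 N
  · exact T_mem_Gamma0 N
  · exact lowerU_self_mem_Gamma0 N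

/-- **Induction over the generators of `Γ₀(N)`**, `N ∈ {2, 3, 4}`. -/
theorem Gamma0_induction (N : ℕ) (hN2 : 2 ≤ N) (hN4 : N ≤ 4) {P : SL(2, ℤ) → Prop}
    (one : P 1) (neg : P (-1)) (hT : P T) (hL : P (lowerU N))
    (mul : ∀ g h, P g → P h → P (g * h)) (inv : ∀ g, P g → P g⁻¹) :
    ∀ g ∈ Gamma0 N, P g := by
  have key : ∀ g ∈ Subgroup.closure (gens N), P g := by
    intro g hg
    induction hg using Subgroup.closure_induction with
    | mem x hx =>
      rcases hx with rfl | rfl | rfl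
      · exact neg
      · exact hT
      · exact hL
    | one => exact one
    | mul x y _ _ hx hy => exact mul x y hx hy
    | inv x _ hx => exact inv x hx
  exact fun g hg => key g (Gamma0_le_closure N hN2 hN4 hg)

/-- Two homomorphisms out of `Γ₀(N)` (`N ∈ {2, 3, 4}`) agreeing on the generators `-1`, `T`,
`[[1,0],[N,1]]` are equal. -/
theorem eqOn_Gamma0_of_gens (N : ℕ) (hN2 : 2 ≤ N) (hN4 : N ≤ 4) {H : Type*} [Group H]
    (φ ψ : Gamma0 N →* H)
    (hneg : φ ⟨-1, neg_one_mem_Gamma0 N⟩ = ψ ⟨-1, neg_one_mem_Gamma0 N⟩)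
    (hT : φ ⟨T, T_mem_Gamma0 N⟩ = ψ ⟨T, T_mem_Gamma0 N⟩)
    (hL : φ ⟨lowerU N, lowerU_self_mem_Gamma0 N⟩ = ψ ⟨lowerU N, lowerU_self_mem_Gamma0 N⟩) :
    φ = ψ := by
  have key : ∀ g (hg : g ∈ Gamma0 N), φ ⟨g, hg⟩ = ψ ⟨g, hg⟩ := by
    intro g hg
    have hP := Gamma0_induction N hN2 hN4
      (P := fun g => ∃ hg : g ∈ Gamma0 N, φ ⟨g, hg⟩ = ψ ⟨g, hg⟩)
      ⟨Subgroup.one_mem _, by
        have e : (⟨1, Subgroup.one_mem _⟩ : Gamma0 N) = 1 := rfl
        rw [e, map_one, map_one]⟩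
      ⟨_, hneg⟩ ⟨_, hT⟩ ⟨_, hL⟩
      (by
        rintro g h ⟨hg, e1⟩ ⟨hh, e2⟩
        refine ⟨Subgroup.mul_mem _ hg hh, ?_⟩
        have e : (⟨g * h, Subgroup.mul_mem _ hg hh⟩ : Gamma0 N) = ⟨g, hg⟩ * ⟨h, hh⟩ := rfl
        rw [e, map_mul, map_mul, e1, e2])
      (by
        rintro g ⟨hg, e1⟩
        refine ⟨Subgroup.inv_mem _ hg, ?_⟩
        have e : (⟨g⁻¹, Subgroup.inv_mem _ hg⟩ : Gamma0 N) = (⟨g, hg⟩ : Gamma0 N)⁻¹ := rfl
        rw [e, map_inv, map_inv, e1])
      g hg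
    obtain ⟨_, h⟩ := hP
    exact h
  ext ⟨g, hg⟩
  exact key g hg

end Fermat.Agent.T3.helper86
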