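import Mathlib
import Fermat.Agent.T3.helper86_Gamma0Gen

/-!
# T3 / [T3-UNIT-ETA] (helper44): the weight-one law of `λ₁ = η(τ)³ / η(3τ)`

Mathlib's `ModularForm.eta` with its `S`-law (`eta_comp_eq_csqrt_I_inv`) and the elementary
`T`-law give, for `γ = (a b; c d)` with `3 ∣ c`,

  `λ₁(γ τ) = χ₋₃(d) · ζ₃^(-(c/3) d) · (c τ + d) · λ₁(τ)`,

because both sides are multiplicative in `γ` and agree on the generators `-1`, `T`,
`(1 0; 3 1)` of `Γ₀(3)` (generation: `helper86.Gamma0_induction`).  On `Γ₀(9)` the cubic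
factor is trivial: `lam_law9`.
-/

set_option autoImplicit false

open ModularForm Complex
open UpperHalfPlane hiding I
open scoped MatrixGroups Real

namespace Fermat.Agent.T3.helper44

local notation "ℍₒ" => upperHalfPlaneSet
local notation "𝕢" => Function.Periodic.qParam

/-- the constant `e(1/24)` -/
noncomputable def e24 : ℂ := cexp (2 * π * I / 24)

lemma e24_ne_zero : e24 ≠ 0 := Complex.exp_ne_zero _

lemma qParam_one_add_one (z : ℂ) : 𝕢 1 (z + 1) = 𝕢 1 z := by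
  simp only [Function.Periodic.qParam, ofReal_one, div_one]
  rw [mul_add, mul_one, Complex.exp_add, Complex.exp_two_pi_mul_I, mul_one]

lemma qParam_24_add_one (z : ℂ) : 𝕢 24 (z + 1) = e24 * 𝕢 24 z := by
  simp only [Function.Periodic.qParam, e24]
  rw [← Complex.exp_add]
  congr 1
  push_cast
  ring

/-- `η(z + 1) = e(1/24) η(z)` -/
lemma eta_add_one (z : ℂ) : η (z + 1) = e24 * η z := by
  unfold ModularForm.eta
  have h : ∀ n, eta_q n (z + 1) = eta_q n z := fun n => by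
    simp only [eta_q, qParam_one_add_one]
  simp_rw [h, qParam_24_add_one, mul_assoc]

lemma eta_sub_one (z : ℂ) : η (z - 1) = e24⁻¹ * η z := by
  have := eta_add_one (z - 1)
  rw [sub_add_cancel] at this
  rw [this, ← mul_assoc, inv_mul_cancel₀ e24_ne_zero, one_mul]

lemma eta_add_nat (z : ℂ) (k : ℕ) : η (z + k) = e24 ^ k * η z := by
  induction k with
  | zero => simp
  | succ k ih =>
    rw [Nat.cast_succ, ← add_assoc, eta_add_one, ih, pow_succ]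
    ring

lemma eta_sub_nat (z : ℂ) (k : ℕ) : η (z - k) = (e24 ^ k)⁻¹ * η z := by
  have := eta_add_nat (z - k) k
  rw [sub_add_cancel] at this
  rw [this, ← mul_assoc, inv_mul_cancel₀ (pow_ne_zero _ e24_ne_zero), one_mul]


/-! ### the `S`-law and positive scalings of the square root -/

/-- the `S`-law of `η` in pointwise form -/
lemma eta_neg_one_div {z : ℂ} (hz : 0 < z.im) :
    η (-1 / z) = (sqrt I)⁻¹ * (sqrt z * η z) := by
  have := eta_comp_eq_csqrt_I_inv (show z ∈ ℍₒ from hz)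
  simpa using this

/-- the constant `√3` as a complex exponential -/
noncomputable def c3 : ℂ := cexp ((Real.log 3 : ℝ) / 2)

lemma c3_ne_zero : c3 ≠ 0 := Complex.exp_ne_zero _

lemma sqrt_three_mul {z : ℂ} (hz : z ≠ 0) : sqrt (3 * z) = c3 * sqrt z := by
  have h3 : (3 : ℂ) * z ≠ 0 := mul_ne_zero (by norm_num) hz
  rw [sqrt_eq_exp h3, sqrt_eq_exp hz, c3, ← Complex.exp_add]
  congr 1
  have := Complex.log_ofReal_mul (r := 3) (by norm_num) hz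
  have e : ((3 : ℝ) : ℂ) = 3 := by norm_num
  rw [e] at this
  rw [this]
  ring

lemma sqrt_sq' {z : ℂ} (hz : z ≠ 0) : sqrt z ^ 2 = z := by
  rw [sqrt_eq_exp hz, ← Complex.exp_nat_mul]
  have : ((2 : ℕ) : ℂ) * (log z / 2) = log z := by push_cast; ring
  rw [this, Complex.exp_log hz]

lemma sqrt_ne_zero' {z : ℂ} (hz : z ≠ 0) : sqrt z ≠ 0 := by
  rw [sqrt_eq_exp hz]
  exact Complex.exp_ne_zero _

/-! ### the two eta quotients -/

/-- `λ₁(z) = η(z)³ / η(3z)` on `ℂ` -/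
noncomputable def lamC (z : ℂ) : ℂ := η z ^ 3 / η (3 * z)

/-- `μ(z) = η(3z)³ / η(z)` on `ℂ` -/
noncomputable def muC (z : ℂ) : ℂ := η (3 * z) ^ 3 / η z

lemma im_three_mul {z : ℂ} (hz : 0 < z.im) : 0 < (3 * z).im := by
  have : (3 * z).im = 3 * z.im := by simp
  rw [this]; positivity

lemma ne_zero_of_im_pos {z : ℂ} (hz : 0 < z.im) : z ≠ 0 := by
  rintro rfl
  simp at hz

lemma lamC_ne_zero {z : ℂ} (hz : 0 < z.im) : lamC z ≠ 0 :=
  div_ne_zero (pow_ne_zero _ (eta_ne_zero hz)) (eta_ne_zero (im_three_mul hz))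

lemma muC_ne_zero {z : ℂ} (hz : 0 < z.im) : muC z ≠ 0 :=
  div_ne_zero (pow_ne_zero _ (eta_ne_zero (im_three_mul hz))) (eta_ne_zero hz)

/-- the constant of the `W₃`-law -/
noncomputable def cW : ℂ := ((sqrt I)⁻¹) ^ 2 * c3 ^ 3

lemma sqrt_I_ne_zero : sqrt I ≠ 0 := sqrt_ne_zero' I_ne_zero

lemma cW_ne_zero : cW ≠ 0 :=
  mul_ne_zero (pow_ne_zero _ (inv_ne_zero sqrt_I_ne_zero)) (pow_ne_zero _ c3_ne_zero)

lemma im_neg_one_div {z : ℂ} (hz : 0 < z.im) : 0 < (-1 / z).im := by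
  have hz0 := ne_zero_of_im_pos hz
  rw [neg_div, one_div, Complex.neg_im, Complex.inv_im]
  have : 0 < Complex.normSq z := Complex.normSq_pos.mpr hz0
  have : 0 < z.im / Complex.normSq z := div_pos hz this
  simpa [neg_div] using this

/-- the `W₃`-law: `λ₁(-1/(3z)) = C z μ(z)` -/
lemma lamC_W {z : ℂ} (hz : 0 < z.im) : lamC (-1 / (3 * z)) = cW * z * muC z := by
  have hz0 := ne_zero_of_im_pos hz
  have h3 := im_three_mul hz
  have e1 : η (-1 / (3 * z)) = (sqrt I)⁻¹ * (c3 * sqrt z * η (3 * z)) := by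
    rw [eta_neg_one_div h3, sqrt_three_mul hz0]
  have e2 : η (3 * (-1 / (3 * z))) = (sqrt I)⁻¹ * (sqrt z * η z) := by
    have : 3 * (-1 / (3 * z)) = -1 / z := by field_simp
    rw [this, eta_neg_one_div hz]
  have hs := sqrt_ne_zero' hz0
  have hη := eta_ne_zero hz
  have hη3 := eta_ne_zero h3
  have hI := sqrt_I_ne_zero
  have hsq := sqrt_sq' hz0
  unfold lamC muC cW
  rw [e1, e2]
  field_simp
  rw [hsq]

/-- `ζ = e(1/3)` -/
noncomputable def zeta3 : ℂ := e24 ^ 8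

lemma zeta3_ne_zero : zeta3 ≠ 0 := pow_ne_zero _ e24_ne_zero

lemma e24_pow : e24 ^ 24 = 1 := by
  rw [e24, ← Complex.exp_nat_mul]
  have : ((24 : ℕ) : ℂ) * (2 * π * I / 24) = 2 * π * I := by push_cast; ring
  rw [this, Complex.exp_two_pi_mul_I]

lemma zeta3_pow : zeta3 ^ 3 = 1 := by
  rw [zeta3, ← pow_mul]; exact e24_pow

lemma muC_sub_one {z : ℂ} (hz : 0 < z.im) : muC (z - 1) = zeta3⁻¹ * muC z := by
  have e1 : (3 : ℂ) * (z - 1) = 3 * z - (3 : ℕ) := by push_cast; ring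
  unfold muC
  rw [e1, eta_sub_nat, eta_sub_one]
  have h := e24_ne_zero
  have hη := eta_ne_zero hz
  unfold zeta3
  field_simp

/-- the law of `λ₁` under `z ↦ z / (3z + 1)` -/
lemma lamC_L3 {z : ℂ} (hz : 0 < z.im) :
    lamC (z / (3 * z + 1)) = zeta3⁻¹ * (3 * z + 1) * lamC z := by
  have hz0 := ne_zero_of_im_pos hz
  set v : ℂ := -1 / (3 * z) with hv
  have hvim : 0 < v.im := im_neg_one_div (im_three_mul hz)
  have hv0 := ne_zero_of_im_pos hvim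
  set u : ℂ := v - 1 with hu
  have huim : 0 < u.im := by
    rw [hu]; simpa using hvim
  have hu0 := ne_zero_of_im_pos huim
  have h31 : 3 * z + 1 ≠ 0 := by
    intro h
    have : (3 * z + 1).im = 0 := by rw [h]; simp
    have h2 : (3 * z + 1).im = 3 * z.im := by simp
    rw [h2] at this
    linarith
  have hu' : u = -(3 * z + 1) / (3 * z) := by
    rw [hu, hv]
    field_simp
    ring
  have e1 : z / (3 * z + 1) = -1 / (3 * u) := by
    rw [hu']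
    field_simp
  have e2 : z = -1 / (3 * v) := by
    rw [hv]
    field_simp
  have h1 := lamC_W huim
  have h2 := lamC_W hvim
  rw [← e2] at h2
  rw [e1, h1, hu, muC_sub_one hvim, ← hu]
  have hμ := muC_ne_zero hvim
  have hc := cW_ne_zero
  have huv : u = v * (3 * z + 1) := by
    rw [hu', hv]
    field_simp
  rw [h2, huv]
  ring


/-! ### the character of `Γ₀(3)` -/

/-- the sign character on `ZMod 3`, integer valued -/
def sgnZ (d : ZMod 3) : ℤ := if d = 2 then -1 else 1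

/-- the sign character on `ZMod 3` -/
def sgn3 (d : ZMod 3) : ℂ := (sgnZ d : ℂ)

lemma sgnZ_mul : ∀ d d' : ZMod 3, d ≠ 0 → d' ≠ 0 → sgnZ (d * d') = sgnZ d * sgnZ d' := by
  decide

/-- the additive character `k ↦ ζ^k` on `ZMod 3` -/
noncomputable def zet (k : ZMod 3) : ℂ := zeta3 ^ k.val

lemma zet_add (x y : ZMod 3) : zet (x + y) = zet x * zet y := by
  unfold zet
  rw [ZMod.val_add, ← pow_add, pow_eq_pow_mod (x.val + y.val) zeta3_pow]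

lemma zet_zero : zet 0 = 1 := by simp [zet]

lemma sgn3_mul (d d' : ZMod 3) (hd : d ≠ 0) (hd' : d' ≠ 0) :
    sgn3 (d * d') = sgn3 d * sgn3 d' := by
  unfold sgn3
  rw [sgnZ_mul d d' hd hd']
  push_cast
  rfl

lemma sgn3_one : sgn3 1 = 1 := by
  have : sgnZ 1 = 1 := by decide
  simp [sgn3, this]

/-- the multiplier of `λ₁` on `Γ₀(3)` -/
noncomputable def mchar (γ : SL(2, ℤ)) : ℂ :=
  sgn3 ((γ 1 1 : ℤ) : ZMod 3) *
    zet (-((((γ 1 0 : ℤ) / 3 : ℤ) : ZMod 3) * ((γ 1 1 : ℤ) : ZMod 3)))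

lemma zmod_key : ∀ (k k' a' d d' : ZMod 3), a' * d' = 1 → d * d = 1 →
    -((k * a' + d * k') * (d * d')) = -(k * d) + -(k' * d') := by
  decide

lemma mul_apply_one_zero (γ γ' : SL(2, ℤ)) :
    (γ * γ') 1 0 = γ 1 0 * γ' 0 0 + γ 1 1 * γ' 1 0 := by
  simp [Matrix.SpecialLinearGroup.coe_mul, Matrix.mul_apply, Fin.sum_univ_two]

lemma mul_apply_one_one (γ γ' : SL(2, ℤ)) :
    (γ * γ') 1 1 = γ 1 0 * γ' 0 1 + γ 1 1 * γ' 1 1 := by
  simp [Matrix.SpecialLinearGroup.coe_mul, Matrix.mul_apply, Fin.sum_univ_two]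

lemma sl2_det' (g : SL(2, ℤ)) : g 0 0 * g 1 1 - g 0 1 * g 1 0 = 1 := by
  have := g.det_coe
  rwa [Matrix.det_fin_two] at this

lemma zmod_ad {γ : SL(2, ℤ)} (h : (3 : ℤ) ∣ γ 1 0) :
    ((γ 0 0 : ℤ) : ZMod 3) * ((γ 1 1 : ℤ) : ZMod 3) = 1 := by
  have hdet := sl2_det' γ
  have hc : ((γ 1 0 : ℤ) : ZMod 3) = 0 := by
    rw [ZMod.intCast_zmod_eq_zero_iff_dvd]
    exact_mod_cast h
  have := congrArg (fun x : ℤ => (x : ZMod 3)) hdet
  simp only [Int.cast_sub, Int.cast_mul, hc, mul_zero, sub_zero, Int.cast_one] at this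
  exact this

lemma zmod_dd {γ : SL(2, ℤ)} (h : (3 : ℤ) ∣ γ 1 0) :
    ((γ 1 1 : ℤ) : ZMod 3) * ((γ 1 1 : ℤ) : ZMod 3) = 1 := by
  have h1 := zmod_ad h
  revert h1
  generalize ((γ 0 0 : ℤ) : ZMod 3) = a
  generalize ((γ 1 1 : ℤ) : ZMod 3) = d
  revert a d
  decide

lemma zmod_d_ne {γ : SL(2, ℤ)} (h : (3 : ℤ) ∣ γ 1 0) : ((γ 1 1 : ℤ) : ZMod 3) ≠ 0 := by
  intro h0
  have := zmod_dd h
  rw [h0] at this
  revert this
  decide

lemma dvd_mul_apply_one_zero {γ γ' : SL(2, ℤ)} (h : (3 : ℤ) ∣ γ 1 0) (h' : (3 : ℤ) ∣ γ' 1 0) :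
    (3 : ℤ) ∣ (γ * γ') 1 0 := by
  rw [mul_apply_one_zero]
  exact dvd_add (Dvd.dvd.mul_right h _) (Dvd.dvd.mul_left h' _)

lemma mchar_mul {γ γ' : SL(2, ℤ)} (h : (3 : ℤ) ∣ γ 1 0) (h' : (3 : ℤ) ∣ γ' 1 0) :
    mchar (γ * γ') = mchar γ * mchar γ' := by
  obtain ⟨k, hk⟩ := h
  obtain ⟨k', hk'⟩ := h'
  have h3 : (3 : ℤ) ∣ γ 1 0 := ⟨k, hk⟩
  have h3' : (3 : ℤ) ∣ γ' 1 0 := ⟨k', hk'⟩
  have e10 : (γ * γ') 1 0 / 3 = k * γ' 0 0 + γ 1 1 * k' := by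
    rw [mul_apply_one_zero, hk, hk']
    have : 3 * k * γ' 0 0 + γ 1 1 * (3 * k') = 3 * (k * γ' 0 0 + γ 1 1 * k') := by ring
    rw [this, Int.mul_ediv_cancel_left _ (by norm_num)]
  have e11 : (((γ * γ') 1 1 : ℤ) : ZMod 3) =
      ((γ 1 1 : ℤ) : ZMod 3) * ((γ' 1 1 : ℤ) : ZMod 3) := by
    rw [mul_apply_one_one, hk]
    push_cast
    have : ((3 : ℤ) : ZMod 3) = 0 := by decide
    have t3 : (3 : ZMod 3) = 0 := by decide
    rw [t3]
    ring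
  have ek : γ 1 0 / 3 = k := by rw [hk, Int.mul_ediv_cancel_left _ (by norm_num)]
  have ek' : γ' 1 0 / 3 = k' := by rw [hk', Int.mul_ediv_cancel_left _ (by norm_num)]
  unfold mchar
  rw [e10, e11, ek, ek']
  push_cast
  rw [zmod_key _ _ _ _ _ (zmod_ad h3') (zmod_dd h3), zet_add,
    sgn3_mul _ _ (zmod_d_ne h3) (zmod_d_ne h3')]
  ring

lemma mchar_one : mchar 1 = 1 := by
  unfold mchar
  simp [sgn3_one, zet_zero]


/-! ### the law on `ℍ` -/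

/-- `λ₁(τ) = η(τ)³ / η(3τ)` on `ℍ` -/
noncomputable def lam (τ : ℍ) : ℂ := lamC (τ : ℂ)

lemma lam_ne_zero (τ : ℍ) : lam τ ≠ 0 := lamC_ne_zero τ.im_pos

/-- the automorphy factor `c τ + d` -/
def den (γ : SL(2, ℤ)) (τ : ℍ) : ℂ := (γ 1 0 : ℂ) * (τ : ℂ) + (γ 1 1 : ℂ)

lemma coe_smul_eq (γ : SL(2, ℤ)) (τ : ℍ) :
    ((γ • τ : ℍ) : ℂ) = ((γ 0 0 : ℂ) * τ + (γ 0 1 : ℂ)) / den γ τ := by
  rw [UpperHalfPlane.coe_specialLinearGroup_apply]
  simp [den]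

lemma den_ne_zero (γ : SL(2, ℤ)) (τ : ℍ) : den γ τ ≠ 0 := by
  have := UpperHalfPlane.denom_ne_zero (Matrix.SpecialLinearGroup.toGL
    ((Matrix.SpecialLinearGroup.map (Int.castRingHom ℝ)) γ)) τ
  rwa [ModularGroup.denom_apply] at this

lemma mul_apply_zero_zero (γ γ' : SL(2, ℤ)) :
    (γ * γ') 0 0 = γ 0 0 * γ' 0 0 + γ 0 1 * γ' 1 0 := by
  simp [Matrix.SpecialLinearGroup.coe_mul, Matrix.mul_apply, Fin.sum_univ_two]

lemma mul_apply_zero_one (γ γ' : SL(2, ℤ)) :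
    (γ * γ') 0 1 = γ 0 0 * γ' 0 1 + γ 0 1 * γ' 1 1 := by
  simp [Matrix.SpecialLinearGroup.coe_mul, Matrix.mul_apply, Fin.sum_univ_two]

lemma den_mul (γ γ' : SL(2, ℤ)) (τ : ℍ) :
    den (γ * γ') τ = den γ (γ' • τ) * den γ' τ := by
  have h := den_ne_zero γ' τ
  have e : den γ (γ' • τ) = (γ 1 0 : ℂ) * (((γ' 0 0 : ℂ) * τ + (γ' 0 1 : ℂ)) / den γ' τ)
      + (γ 1 1 : ℂ) := by
    rw [den, coe_smul_eq]
  rw [e]
  field_simp
  simp only [den, mul_apply_one_zero, mul_apply_one_one]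
  push_cast
  ring

lemma den_one (τ : ℍ) : den 1 τ = 1 := by
  simp [den]

/-- the transformation law of `λ₁` under `γ` -/
def IsLaw (γ : SL(2, ℤ)) : Prop :=
  (3 : ℤ) ∣ γ 1 0 ∧ ∀ τ : ℍ, lam (γ • τ) = mchar γ * den γ τ * lam τ

lemma isLaw_one : IsLaw 1 := by
  refine ⟨by simp, fun τ => ?_⟩
  rw [one_smul, mchar_one, den_one]
  ring

lemma IsLaw.mul {γ γ' : SL(2, ℤ)} (h : IsLaw γ) (h' : IsLaw γ') : IsLaw (γ * γ') := by
  refine ⟨dvd_mul_apply_one_zero h.1 h'.1, fun τ => ?_⟩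
  rw [mul_smul, h.2, h'.2, mchar_mul h.1 h'.1, den_mul]
  ring

lemma inv_apply_one_zero (γ : SL(2, ℤ)) : (γ⁻¹) 1 0 = - γ 1 0 := by
  rw [Matrix.SpecialLinearGroup.coe_inv, Matrix.adjugate_fin_two]
  simp

lemma IsLaw.inv {γ : SL(2, ℤ)} (h : IsLaw γ) : IsLaw γ⁻¹ := by
  have h3 : (3 : ℤ) ∣ (γ⁻¹) 1 0 := by
    rw [inv_apply_one_zero]
    exact (dvd_neg).mpr h.1
  refine ⟨h3, fun τ => ?_⟩
  have h1 := h.2 (γ⁻¹ • τ)
  rw [smul_inv_smul] at h1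
  have h2 : den γ (γ⁻¹ • τ) * den γ⁻¹ τ = 1 := by
    rw [← den_mul, mul_inv_cancel, den_one]
  have h4 : mchar γ * mchar γ⁻¹ = 1 := by
    rw [← mchar_mul h.1 h3, mul_inv_cancel, mchar_one]
  calc lam (γ⁻¹ • τ) = (mchar γ * mchar γ⁻¹) * (den γ (γ⁻¹ • τ) * den γ⁻¹ τ) * lam (γ⁻¹ • τ) := by
        rw [h2, h4]; ring
    _ = mchar γ⁻¹ * den γ⁻¹ τ * (mchar γ * den γ (γ⁻¹ • τ) * lam (γ⁻¹ • τ)) := by ring
    _ = mchar γ⁻¹ * den γ⁻¹ τ * lam τ := by rw [← h1]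

/-- the subgroup of `SL(2, ℤ)` on which the law holds -/
def lawSub : Subgroup SL(2, ℤ) where
  carrier := {γ | IsLaw γ}
  mul_mem' := fun h h' => IsLaw.mul h h'
  one_mem' := isLaw_one
  inv_mem' := fun h => IsLaw.inv h

lemma mem_lawSub {γ : SL(2, ℤ)} : γ ∈ lawSub ↔ IsLaw γ := Iff.rfl


/-! ### the generators -/

open ModularGroup in
lemma T_mem_lawSub : ModularGroup.T ∈ lawSub := by
  refine ⟨by simp [ModularGroup.coe_T], fun τ => ?_⟩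
  have hm : mchar ModularGroup.T = 1 := by
    unfold mchar
    simp [ModularGroup.coe_T, sgn3_one, zet_zero]
  have hd : den ModularGroup.T τ = 1 := by
    simp [den, ModularGroup.coe_T]
  rw [hm, hd, one_mul, one_mul]
  unfold lam
  rw [UpperHalfPlane.modular_T_smul, UpperHalfPlane.coe_vadd]
  have e1 : ((1 : ℝ) : ℂ) + (τ : ℂ) = τ + 1 := by push_cast; ring
  have e2 : (3 : ℂ) * ((τ : ℂ) + 1) = 3 * τ + (3 : ℕ) := by push_cast; ring
  rw [e1]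
  unfold lamC
  rw [e2, eta_add_one, eta_add_nat]
  have h := e24_ne_zero
  have hη := eta_ne_zero (im_three_mul τ.im_pos)
  field_simp

lemma neg_one_mem_lawSub : (-1 : SL(2, ℤ)) ∈ lawSub := by
  refine ⟨by simp, fun τ => ?_⟩
  have hm : mchar (-1) = -1 := by
    unfold mchar
    have e : ((-1 : ℤ) : ZMod 3) = 2 := by decide
    have e2 : sgnZ 2 = -1 := by decide
    simp [sgn3, zet_zero, e, e2]
  have hd : den (-1) τ = -1 := by
    simp [den]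
  rw [hm, hd, ModularGroup.SL_neg_smul, one_smul]
  ring

/-- the matrix `(1 0; 3 1)` -/
def L3 : SL(2, ℤ) := ⟨!![1, 0; 3, 1], by simp [Matrix.det_fin_two]⟩

lemma coe_L3 : (L3 : Matrix (Fin 2) (Fin 2) ℤ) = !![1, 0; 3, 1] := rfl

lemma coe_L3_inv : ((L3⁻¹ : SL(2, ℤ)) : Matrix (Fin 2) (Fin 2) ℤ) = !![1, 0; -3, 1] := by
  rw [Matrix.SpecialLinearGroup.coe_inv, coe_L3, Matrix.adjugate_fin_two]
  simp

lemma coe_L3_zpow (n : ℤ) : ((L3 ^ n : SL(2, ℤ)) : Matrix (Fin 2) (Fin 2) ℤ) =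
    !![1, 0; 3 * n, 1] := by
  induction n with
  | zero => rw [zpow_zero, Matrix.SpecialLinearGroup.coe_one, Matrix.one_fin_two]; simp
  | succ n h =>
    simp_rw [zpow_add, zpow_one, Matrix.SpecialLinearGroup.coe_mul, h, coe_L3,
      Matrix.mul_fin_two]
    congrm !![?_, ?_; ?_, ?_] <;> ring
  | pred n h =>
    simp_rw [zpow_sub, zpow_one, Matrix.SpecialLinearGroup.coe_mul, h, coe_L3_inv,
      Matrix.mul_fin_two]
    congrm !![?_, ?_; ?_, ?_] <;> ring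

lemma zeta3_sq : zeta3 ^ 2 = zeta3⁻¹ := by
  have h := zeta3_pow
  have h0 := zeta3_ne_zero
  field_simp
  rw [← h]

lemma L3_mem_lawSub : L3 ∈ lawSub := by
  refine ⟨by simp [coe_L3], fun τ => ?_⟩
  have hm : mchar L3 = zeta3⁻¹ := by
    unfold mchar
    have e : (-(1 : ZMod 3)) = 2 := by decide
    have e2 : (2 : ZMod 3).val = 2 := by decide
    simp [coe_L3, sgn3_one, zet, e, e2, zeta3_sq]
  have hd : den L3 τ = 3 * (τ : ℂ) + 1 := by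
    simp [den, coe_L3]
  have hs : ((L3 • τ : ℍ) : ℂ) = (τ : ℂ) / (3 * τ + 1) := by
    rw [coe_smul_eq, hd]
    simp [coe_L3]
  rw [hm, hd]
  unfold lam
  rw [hs, lamC_L3 τ.im_pos]

/-! ### the law on `Γ₀(3)` and on `Γ₀(9)` -/

lemma L3_eq_lowerU : L3 = Fermat.Agent.T3.helper86.lowerU ((3 : ℕ) : ℤ) := by
  apply Subtype.ext
  simp [L3, Fermat.Agent.T3.helper86.lowerU]

/-- **the law on `Γ₀(3)`** -/
theorem isLaw_of_mem_Gamma0 : ∀ γ ∈ CongruenceSubgroup.Gamma0 3, IsLaw γ :=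
  Fermat.Agent.T3.helper86.Gamma0_induction 3 (by norm_num) (by norm_num) (P := IsLaw)
    isLaw_one neg_one_mem_lawSub T_mem_lawSub (L3_eq_lowerU ▸ L3_mem_lawSub)
    (fun _ _ h h' => h.mul h') (fun _ h => h.inv)

lemma mem_Gamma0_three_of_dvd {γ : SL(2, ℤ)} (h : (3 : ℤ) ∣ γ 1 0) :
    γ ∈ CongruenceSubgroup.Gamma0 3 := by
  rw [CongruenceSubgroup.Gamma0_mem, ZMod.intCast_zmod_eq_zero_iff_dvd]
  exact_mod_cast h

/-- the law of `λ₁` for every `γ` with `3 ∣ c` -/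
theorem lam_law3 (γ : SL(2, ℤ)) (h : (3 : ℤ) ∣ γ 1 0) (τ : ℍ) :
    lam (γ • τ) = mchar γ * den γ τ * lam τ :=
  (isLaw_of_mem_Gamma0 γ (mem_Gamma0_three_of_dvd h)).2 τ

lemma mchar_of_nine_dvd {γ : SL(2, ℤ)} (h : (9 : ℤ) ∣ γ 1 0) :
    mchar γ = sgn3 ((γ 1 1 : ℤ) : ZMod 3) := by
  obtain ⟨k, hk⟩ := h
  have e : γ 1 0 / 3 = 3 * k := by
    rw [hk]; omega
  unfold mchar
  rw [e]
  have t3 : (3 : ZMod 3) = 0 := by decide
  push_cast
  rw [t3]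
  simp [zet_zero]

/-- **the weight-one law of `λ₁` on `Γ₀(9)`**, with the sign character of `d mod 3` -/
theorem lam_law9 (γ : SL(2, ℤ)) (h : (9 : ℤ) ∣ γ 1 0) (τ : ℍ) :
    lam (γ • τ) = sgn3 ((γ 1 1 : ℤ) : ZMod 3) * den γ τ * lam τ := by
  have h3 : (3 : ℤ) ∣ γ 1 0 := Dvd.dvd.trans (by norm_num) h
  rw [lam_law3 γ h3 τ, mchar_of_nine_dvd h]

/-- `χ₋₃` as a function on `ℤ` (with value `0` on multiples of `3`) -/
noncomputable def chi3Z (d : ℤ) : ℂ := if d % 3 = 1 then 1 else if d % 3 = 2 then -1 else 0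

lemma sgn3_eq_chi3Z (d : ℤ) (hd : ¬ (3 : ℤ) ∣ d) : sgn3 (d : ZMod 3) = chi3Z d := by
  have hc : (d : ZMod 3) = ((d % 3 : ℤ) : ZMod 3) := by
    have := ZMod.intCast_mod d 3
    exact_mod_cast this.symm
  have h3 : d % 3 = 1 ∨ d % 3 = 2 := by omega
  have s1 : sgnZ (1 : ZMod 3) = 1 := by decide
  have s2 : sgnZ (2 : ZMod 3) = -1 := by decide
  rcases h3 with h1 | h2
  · rw [hc, h1]
    simp [sgn3, chi3Z, h1, s1]
  · rw [hc, h2]
    simp [sgn3, chi3Z, h2, s2]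

lemma not_three_dvd_of_dvd {γ : SL(2, ℤ)} (h : (3 : ℤ) ∣ γ 1 0) : ¬ (3 : ℤ) ∣ γ 1 1 := by
  intro h1
  have := zmod_d_ne h
  apply this
  rw [ZMod.intCast_zmod_eq_zero_iff_dvd]
  exact_mod_cast h1

/-- **the weight-one law of `λ₁` on `Γ₀(9)`** in the form `χ₋₃(d) (c τ + d) λ₁(τ)` -/
theorem lam_law9' (γ : SL(2, ℤ)) (hγ : γ ∈ CongruenceSubgroup.Gamma0 9) (τ : ℍ) :
    lam (γ • τ) = chi3Z (γ 1 1) * (((γ 1 0 : ℤ) : ℂ) * (τ : ℂ) + ((γ 1 1 : ℤ) : ℂ)) * lam τ := by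
  have h9 : (9 : ℤ) ∣ γ 1 0 := by
    rw [CongruenceSubgroup.Gamma0_mem, ZMod.intCast_zmod_eq_zero_iff_dvd] at hγ
    exact_mod_cast hγ
  have h3 : (3 : ℤ) ∣ γ 1 0 := Dvd.dvd.trans (by norm_num) h9
  rw [lam_law9 γ h9 τ, sgn3_eq_chi3Z _ (not_three_dvd_of_dvd h3)]
  rfl

end Fermat.Agent.T3.helper44
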