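import Fermat.Agent.T3.helper16_UnitDefs
import Fermat.Agent.T3.helper44_EtaLaw

/-!
# T3 / [UNIT-LAW9] (helper44): `helper16.Law9Statement`

`lam9 τ = η(τ)³ / η(3τ)` has weight one and character `χ₋₃` on `Γ₀(9)`; the proof is
`helper44.lam_law9'` (Mathlib's `S`-law of `η` + generators of `Γ₀(3)`).
-/

set_option autoImplicit false

open UpperHalfPlane CongruenceSubgroup
open scoped MatrixGroups

namespace Fermat.Agent.T3.helper44

/-- **[UNIT-LAW9]** -/
theorem law9 : Fermat.Agent.T3.helper16.Law9Statement := by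
  intro γ hγ τ
  exact lam_law9' γ hγ τ

end Fermat.Agent.T3.helper44
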