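import Mathlib
import Fermat.Agent.T3.helper16_UnitDefs
import Fermat.Agent.T3.helper59_UnitQExp
import Fermat.Agent.S23.helper35_EtaGrowth
import Fermat.Agent.P3.helper48_AN1Ratio

/-!
# T3 / [UNIT-GROW] (helper44): growth of all translates of `lam4`, `lam9` and of their inverses

For `lam = lam4, lam9` (`helper16_UnitDefs`) and every `g ∈ SL(2, ℤ)`:
`lam ∣[1] g ∈ holoExp` and `lam⁻¹ ∣[-1] g ∈ holoExp`, i.e. the field `growth` of
`helper16.IsWtOneUnit`.  Proof: the `24`-th power is a product of powers of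
`Δ(N τ) ∣[12] g` and `Δ(N τ)⁻¹ ∣[-12] g`, which are `O(1)` resp. `O(exp (2 π A y))` by the Hermite
decomposition (`S23.helper35`); then `P3.helper48.mem_holoExp_of_pow_mem`.
-/

set_option autoImplicit false

noncomputable section

open UpperHalfPlane ModularForm CongruenceSubgroup Filter Asymptotics
open scoped MatrixGroups Manifold Topology

namespace Fermat.Agent.T3.helper44

open Fermat.Agent.S24.helper77 Fermat.Agent.S23.helper35 Fermat.Agent.T3.helper16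

local notation "Δ" => ModularForm.discriminant

/-- the translate `Δ(N τ) ∣[12] g` -/
def dSl (N : ℕ) (hN : 0 < N) (g : SL(2, ℤ)) : ℍ → ℂ := (DeltaN N hN) ∣[(12 : ℤ)] g

/-- the translate `Δ(N τ)⁻¹ ∣[-12] g` -/
def dInvSl (N : ℕ) (hN : 0 < N) (g : SL(2, ℤ)) : ℍ → ℂ :=
  (fun z => (DeltaN N hN z)⁻¹) ∣[(-12 : ℤ)] g

lemma mdiff_DeltaN (N : ℕ) (hN : 0 < N) : MDiff (DeltaN N hN) := by
  have h : (Δ ∣[(12 : ℤ)] ut N 1 0 hN one_pos) = fun z => (N : ℂ) ^ (11 : ℕ) * DeltaN N hN z :=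
    DeltaN_eq_slash N hN
  have hΔ : MDiff (Δ : ℍ → ℂ) := CuspForm.discriminant.holo'
  have h1 : MDiff (Δ ∣[(12 : ℤ)] ut N 1 0 hN one_pos) := hΔ.slash _ _
  have hN0 : ((N : ℂ) ^ (11 : ℕ)) ≠ 0 := pow_ne_zero _ (by exact_mod_cast hN.ne')
  have h2 : DeltaN N hN = fun z => ((N : ℂ) ^ (11 : ℕ))⁻¹ *
      (Δ ∣[(12 : ℤ)] ut N 1 0 hN one_pos) z := by
    funext z
    rw [h]
    simp only []
    rw [← mul_assoc, inv_mul_cancel₀ hN0, one_mul]
  rw [h2]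
  exact mdifferentiable_const.mul h1

lemma mdiff_DeltaN_inv (N : ℕ) (hN : 0 < N) : MDiff (fun z => (DeltaN N hN z)⁻¹) :=
  MDifferentiable.inv (mdiff_DeltaN N hN) (DeltaN_ne_zero N hN)

lemma dSl_apply (N : ℕ) (hN : 0 < N) (g : SL(2, ℤ)) (z : ℍ) :
    dSl N hN g z = DeltaN N hN (g • z) * denom g z ^ (-12 : ℤ) := by
  rw [dSl, ModularForm.SL_slash_apply]

lemma dInvSl_apply (N : ℕ) (hN : 0 < N) (g : SL(2, ℤ)) (z : ℍ) :
    dInvSl N hN g z = (DeltaN N hN (g • z))⁻¹ * denom g z ^ (12 : ℤ) := by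
  rw [dInvSl, ModularForm.SL_slash_apply]
  simp

lemma dInvSl_eq_inv (N : ℕ) (hN : 0 < N) (g : SL(2, ℤ)) (z : ℍ) :
    dInvSl N hN g z = (dSl N hN g z)⁻¹ := by
  rw [dInvSl_apply, dSl_apply, mul_inv, ← zpow_neg]
  simp

/-- `Δ(N τ) ∣[12] g` has at most exponential growth. -/
theorem dSl_mem (N : ℕ) (hN : 0 < N) (g : SL(2, ℤ)) : dSl N hN g ∈ holoExp := by
  refine ⟨(mdiff_DeltaN N hN).slash _ _, 0, ?_⟩
  obtain ⟨δ, A, D, B, hA, hD, hAD, -, h⟩ := hermite_GL N hN g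
  have e : dSl N hN g = fun z => Δ (ut A D B hA hD • z) * ((D : ℂ) ^ (12 : ℕ))⁻¹ := by
    funext z
    exact DeltaN_slash N hN g δ hA hD hAD h z
  rw [e]
  have hb : (fun z : ℍ => Δ (ut A D B hA hD • z)) =O[atImInfty] fun _ : ℍ => (1 : ℝ) := by
    have h0 : (Δ : ℍ → ℂ) =O[atImInfty] fun _ : ℍ => (1 : ℝ) := by
      refine discriminant_isBigO_exp.trans ?_
      refine IsBigO.of_bound 1 (Eventually.of_forall fun z => ?_)
      simp only [Real.norm_eq_abs, Real.abs_exp, norm_one, mul_one]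
      rw [Real.exp_le_one_iff]
      have hz := z.im_pos.le
      have hpi := Real.pi_pos
      nlinarith
    exact h0.comp_tendsto (tendsto_smul_atImInfty (ut_apply_one_zero (B := B) hA hD))
  have h1 := hb.mul (isBigO_const_const (((D : ℂ) ^ (12 : ℕ))⁻¹) (one_ne_zero (α := ℝ)) atImInfty)
  refine h1.congr_right fun z => ?_
  simp

/-- `Δ(N τ)⁻¹ ∣[-12] g` has at most exponential growth. -/
theorem dInvSl_mem (N : ℕ) (hN : 0 < N) (g : SL(2, ℤ)) : dInvSl N hN g ∈ holoExp := by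
  refine ⟨(mdiff_DeltaN_inv N hN).slash _ _, N, ?_⟩
  obtain ⟨δ, A, D, B, hA, hD, hAD, -, h⟩ := hermite_GL N hN g
  have e : dInvSl N hN g = fun z => (Δ (ut A D B hA hD • z))⁻¹ * ((D : ℂ) ^ (12 : ℕ)) := by
    funext z
    rw [dInvSl_eq_inv]
    have := DeltaN_slash N hN g δ hA hD hAD h z
    change dSl N hN g z = _ at this
    rw [this, mul_inv, inv_inv]
  rw [e]
  have h2 : (fun z : ℍ => (Δ (ut A D B hA hD • z))⁻¹) =O[atImInfty]
      fun z : ℍ => (Real.exp (-2 * Real.pi * ((A : ℝ) / D * z.im)))⁻¹ :=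
    (exp_isBigO_discriminant_comp_ut (B := B) hA hD).inv_rev
      (Eventually.of_forall fun z hz => absurd hz (Real.exp_pos _).ne')
  have h3 : (fun z : ℍ => (Real.exp (-2 * Real.pi * ((A : ℝ) / D * z.im)))⁻¹) =O[atImInfty]
      fun z : ℍ => Real.exp (2 * Real.pi * N * z.im) := by
    refine IsBigO.of_bound 1 (Eventually.of_forall fun z => ?_)
    rw [← Real.exp_neg, one_mul, Real.norm_of_nonneg (Real.exp_pos _).le,
      Real.norm_of_nonneg (Real.exp_pos _).le]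
    apply Real.exp_le_exp.mpr
    have hz := z.im_pos.le
    have hpi := Real.pi_pos
    have hAN : (A : ℝ) / D ≤ N := by
      have := sub_div_nonneg (N := N) hD hAD
      linarith
    have h5 : (A : ℝ) / D * z.im ≤ N * z.im := mul_le_mul_of_nonneg_right hAN hz
    nlinarith
  have h4 := (h2.trans h3).mul
    (isBigO_const_const ((D : ℂ) ^ (12 : ℕ)) (one_ne_zero (α := ℝ)) atImInfty)
  refine h4.congr_right fun z => ?_
  simp

/-! ### the `24`-th powers -/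

lemma coe_ut_one (N : ℕ) (hN : 0 < N) (z : ℍ) :
    ((ut N 1 0 hN one_pos • z : ℍ) : ℂ) = (N : ℂ) * z := by
  rw [coe_ut_smul]
  simp

lemma DeltaN_eq_eta (N : ℕ) (hN : 0 < N) (z : ℍ) :
    DeltaN N hN z = ModularForm.eta ((N : ℂ) * z) ^ 24 := by
  rw [DeltaN, ModularForm.discriminant, coe_ut_one]

lemma lam9_pow (z : ℍ) :
    lam9 z ^ 24 = DeltaN 1 one_pos z ^ 3 * (DeltaN 3 (by norm_num) z)⁻¹ := by
  rw [DeltaN_eq_eta, DeltaN_eq_eta, lam9]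
  push_cast
  rw [one_mul, div_pow, div_eq_mul_inv]
  ring

lemma lam9_inv_pow (z : ℍ) :
    ((lam9 z)⁻¹) ^ 24 = (DeltaN 1 one_pos z)⁻¹ ^ 3 * DeltaN 3 (by norm_num) z := by
  rw [inv_pow, lam9_pow, mul_inv, inv_inv, inv_pow]

lemma lam4_pow (z : ℍ) :
    lam4 z ^ 24 = DeltaN 2 (by norm_num) z ^ 10 * ((DeltaN 1 one_pos z)⁻¹ ^ 4 *
      (DeltaN 4 (by norm_num) z)⁻¹ ^ 4) := by
  rw [DeltaN_eq_eta, DeltaN_eq_eta, DeltaN_eq_eta, lam4]
  push_cast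
  rw [one_mul, div_pow, div_eq_mul_inv, mul_pow, mul_inv]
  ring

lemma lam4_inv_pow (z : ℍ) :
    ((lam4 z)⁻¹) ^ 24 = (DeltaN 2 (by norm_num) z)⁻¹ ^ 10 * (DeltaN 1 one_pos z ^ 4 *
      DeltaN 4 (by norm_num) z ^ 4) := by
  rw [inv_pow, lam4_pow]
  simp only [mul_inv, inv_pow, inv_inv]

/-! ### the growth statements -/

lemma zpow_id (d : ℂ) (hd : d ≠ 0) :
    (d ^ (-1 : ℤ)) ^ 24 = (d ^ (-12 : ℤ)) ^ 3 * d ^ (12 : ℤ) ∧
    (d ^ (1 : ℤ)) ^ 24 = (d ^ (12 : ℤ)) ^ 3 * d ^ (-12 : ℤ) ∧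
    (d ^ (-1 : ℤ)) ^ 24 = (d ^ (-12 : ℤ)) ^ 10 * ((d ^ (12 : ℤ)) ^ 4 * (d ^ (12 : ℤ)) ^ 4) ∧
    (d ^ (1 : ℤ)) ^ 24 = (d ^ (12 : ℤ)) ^ 10 * ((d ^ (-12 : ℤ)) ^ 4 * (d ^ (-12 : ℤ)) ^ 4) := by
  refine ⟨?_, ?_, ?_, ?_⟩ <;>
  · simp only [← zpow_natCast, ← zpow_mul, ← zpow_add₀ hd]
    norm_num

theorem lam9_slash_mem (g : SL(2, ℤ)) : (lam9 ∣[(1 : ℤ)] g) ∈ holoExp := by
  have hG : dSl 1 one_pos g ^ 3 * dInvSl 3 (by norm_num) g ∈ holoExp :=
    holoExp.mul_mem (holoExp.pow_mem (dSl_mem _ _ g) 3) (dInvSl_mem _ _ g)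
  refine Fermat.Agent.P3.helper48.mem_holoExp_of_pow_mem (m := 24) (by norm_num)
    (MDifferentiable.slash Fermat.Agent.T3.helper59.mdiff_lam9 _ _) ?_
  convert hG using 1
  funext z
  have hd : denom g z ≠ 0 := denom_ne_zero g z
  simp only [Pi.pow_apply, Pi.mul_apply, dSl_apply, dInvSl_apply, ModularForm.SL_slash_apply]
  rw [mul_pow, lam9_pow, (zpow_id _ hd).1]
  ring

theorem lam9_inv_slash_mem (g : SL(2, ℤ)) :
    ((fun τ => (lam9 τ)⁻¹) ∣[(-1 : ℤ)] g) ∈ holoExp := by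
  have hG : dInvSl 1 one_pos g ^ 3 * dSl 3 (by norm_num) g ∈ holoExp :=
    holoExp.mul_mem (holoExp.pow_mem (dInvSl_mem _ _ g) 3) (dSl_mem _ _ g)
  refine Fermat.Agent.P3.helper48.mem_holoExp_of_pow_mem (m := 24) (by norm_num)
    (MDifferentiable.slash (MDifferentiable.inv Fermat.Agent.T3.helper59.mdiff_lam9
      Fermat.Agent.T3.helper59.lam9_ne_zero) _ _) ?_
  convert hG using 1
  funext z
  have hd : denom g z ≠ 0 := denom_ne_zero g z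
  simp only [Pi.pow_apply, Pi.mul_apply, dSl_apply, dInvSl_apply, ModularForm.SL_slash_apply,
    neg_neg]
  rw [mul_pow, lam9_inv_pow, (zpow_id _ hd).2.1]
  ring

theorem lam4_slash_mem (g : SL(2, ℤ)) : (lam4 ∣[(1 : ℤ)] g) ∈ holoExp := by
  have hG : dSl 2 (by norm_num) g ^ 10 * (dInvSl 1 one_pos g ^ 4 * dInvSl 4 (by norm_num) g ^ 4)
      ∈ holoExp :=
    holoExp.mul_mem (holoExp.pow_mem (dSl_mem _ _ g) 10)
      (holoExp.mul_mem (holoExp.pow_mem (dInvSl_mem _ _ g) 4)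
        (holoExp.pow_mem (dInvSl_mem _ _ g) 4))
  refine Fermat.Agent.P3.helper48.mem_holoExp_of_pow_mem (m := 24) (by norm_num)
    (MDifferentiable.slash Fermat.Agent.T3.helper59.mdiff_lam4 _ _) ?_
  convert hG using 1
  funext z
  have hd : denom g z ≠ 0 := denom_ne_zero g z
  simp only [Pi.pow_apply, Pi.mul_apply, dSl_apply, dInvSl_apply, ModularForm.SL_slash_apply]
  rw [mul_pow, lam4_pow, (zpow_id _ hd).2.2.1]
  ring

theorem lam4_inv_slash_mem (g : SL(2, ℤ)) :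
    ((fun τ => (lam4 τ)⁻¹) ∣[(-1 : ℤ)] g) ∈ holoExp := by
  have hG : dInvSl 2 (by norm_num) g ^ 10 * (dSl 1 one_pos g ^ 4 * dSl 4 (by norm_num) g ^ 4)
      ∈ holoExp :=
    holoExp.mul_mem (holoExp.pow_mem (dInvSl_mem _ _ g) 10)
      (holoExp.mul_mem (holoExp.pow_mem (dSl_mem _ _ g) 4)
        (holoExp.pow_mem (dSl_mem _ _ g) 4))
  refine Fermat.Agent.P3.helper48.mem_holoExp_of_pow_mem (m := 24) (by norm_num)
    (MDifferentiable.slash (MDifferentiable.inv Fermat.Agent.T3.helper59.mdiff_lam4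
      Fermat.Agent.T3.helper59.lam4_ne_zero) _ _) ?_
  convert hG using 1
  funext z
  have hd : denom g z ≠ 0 := denom_ne_zero g z
  simp only [Pi.pow_apply, Pi.mul_apply, dSl_apply, dInvSl_apply, ModularForm.SL_slash_apply,
    neg_neg]
  rw [mul_pow, lam4_inv_pow, (zpow_id _ hd).2.2.2]
  ring

/-- **[UNIT-GROW]** for `lam9`: the field `growth` of `IsWtOneUnit 9 lam9`. -/
theorem growth9 : ∀ g : SL(2, ℤ), (lam9 ∣[(1 : ℤ)] g) ∈ holoExp ∧
    ((fun τ => (lam9 τ)⁻¹) ∣[(-1 : ℤ)] g) ∈ holoExp :=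
  fun g => ⟨lam9_slash_mem g, lam9_inv_slash_mem g⟩

/-- **[UNIT-GROW]** for `lam4`: the field `growth` of `IsWtOneUnit 4 lam4`. -/
theorem growth4 : ∀ g : SL(2, ℤ), (lam4 ∣[(1 : ℤ)] g) ∈ holoExp ∧
    ((fun τ => (lam4 τ)⁻¹) ∣[(-1 : ℤ)] g) ∈ holoExp :=
  fun g => ⟨lam4_slash_mem g, lam4_inv_slash_mem g⟩

end Fermat.Agent.T3.helper44
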