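import Fermat.Agent.T3.helper16_Unit
import Fermat.Agent.T3.helper44_UnitGrow
import Fermat.Agent.T3.helper44_EtaLaw9
import Fermat.Agent.T3.helper55_UnitLaw
import Fermat.Agent.T3.helper59_UnitQExp

/-!
# T3 / [T3-UNIT] (helper44): the two instances of `helper16.IsWtOneUnit` and `UnitStatement`

`isWtOneUnit9 : IsWtOneUnit 9 lam9`, `isWtOneUnit4 : IsWtOneUnit 4 lam4` from
* `mdiff`, `ne_zero`, `qexp` : `helper59_UnitQExp`;
* `law` : `helper44.law9`, `helper55.law4` (+ `helper55.chi3_values`, `chi4_values`);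
* `growth` : `helper44.growth9`, `helper44.growth4`;
and, by `helper16.unitStatement_of_isWtOneUnit`, the consumer statement `UnitStatement N q` for
every level `N` divisible by `9` or by `4` and every prime `q ∤ N`.
-/

set_option autoImplicit false

open UpperHalfPlane ModularForm CongruenceSubgroup
open scoped MatrixGroups

namespace Fermat.Agent.T3.helper44

open Fermat.Agent.T3.helper16

/-- `lam9 = η(τ)³/η(3τ)` is a weight-one unit of level `9`. -/
theorem isWtOneUnit9 : IsWtOneUnit 9 lam9 where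
  mdiff := Fermat.Agent.T3.helper59.mdiff_lam9
  ne_zero := Fermat.Agent.T3.helper59.lam9_ne_zero
  law := ⟨chi3, Fermat.Agent.T3.helper55.chi3_values, law9⟩
  growth := growth9
  qexp := Fermat.Agent.T3.helper59.qexp9

/-- `lam4 = η(2τ)¹⁰/(η(τ)⁴ η(4τ)⁴)` is a weight-one unit of level `4`. -/
theorem isWtOneUnit4 : IsWtOneUnit 4 lam4 where
  mdiff := Fermat.Agent.T3.helper59.mdiff_lam4
  ne_zero := Fermat.Agent.T3.helper59.lam4_ne_zero
  law := ⟨chi4, Fermat.Agent.T3.helper55.chi4_values, Fermat.Agent.T3.helper55.law4⟩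
  growth := growth4
  qexp := Fermat.Agent.T3.helper59.qexp4

/-- **[T3-UNIT]** at every level `N` divisible by `9` (`q ∤ N` prime). -/
theorem unitStatement_of_nine_dvd {N q : ℕ} [NeZero N] [NeZero q] (hq : q.Prime) (hqN : ¬ q ∣ N)
    (h9 : 9 ∣ N) : UnitStatement N q hq hqN :=
  unitStatement_of_isWtOneUnit isWtOneUnit9 hq hqN h9

/-- **[T3-UNIT]** at every level `N` divisible by `4` (`q ∤ N` prime). -/
theorem unitStatement_of_four_dvd {N q : ℕ} [NeZero N] [NeZero q] (hq : q.Prime) (hqN : ¬ q ∣ N)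
    (h4 : 4 ∣ N) : UnitStatement N q hq hqN :=
  unitStatement_of_isWtOneUnit isWtOneUnit4 hq hqN h4

/-- **[T3-UNIT]** at every level `N` divisible by `4` or by `9`. -/
theorem unitStatement_of_good {N q : ℕ} [NeZero N] [NeZero q] (hq : q.Prime) (hqN : ¬ q ∣ N)
    (h : 4 ∣ N ∨ 9 ∣ N) : UnitStatement N q hq hqN :=
  h.elim (unitStatement_of_four_dvd hq hqN) (unitStatement_of_nine_dvd hq hqN)

end Fermat.Agent.T3.helper44
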