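/-
T3 (S36), helper90, [CUSP-Q] second prover, part A (analytic): the expansion of `y (r τ)` at an
arbitrary `γ ∈ SL(2,ℤ)` in terms of the expansion of `y` at the Hermite companion `δ` of `(r, γ)`.

* `hasExp_one_comp_scaleH` : `HasExp N f s → HasExp 1 (f ∘ scaleH N) s` (change of width);
* `hasExp_comp_aff_width`  : `helper78.hasExp_comp_aff` for an expansion of width `N`;
* `exists_hermite_pt`      : `scaleH r (γ • τ) = δ • affPt a D b τ`, `a D = r`,
                             `a = gcd (r, γ 1 0)`;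
* `exists_hermite_pt_mod`  : the same with `b ≡ 0 mod N` when `r` is prime to `N`;
* `EAlg_JdG_scale`         : the twisted table on the generators over `ℂ`:
  `EAlg M γ (JdG M (d * r)) = affL (xi (D N) b) e (EAlg N δ (JdG N d))`, `e (D N) = M a`.
-/
import Mathlib
import Fermat.Agent.S28.ATAssembly
import Fermat.Agent.S28.helper78_CompAff
import Fermat.Agent.S28.helper93_LevelOne

set_option autoImplicit false
set_option linter.unusedSectionVars false
set_option linter.style.haveILetI false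

noncomputable section

namespace Fermat.Agent.T3.helper90

open UpperHalfPlane ModularCurve Fermat.Agent.S28
open Fermat.Agent.S24 (jfun scaleH jfunD)
open Fermat.Agent.S23.helper74 (affPt xi)
open scoped MatrixGroups

/-- `q_N (N τ) = q_1 (τ)` -/
theorem qN_scaleH (N : ℕ) [NeZero N] (τ : ℍ) : qN N (scaleH N τ) = qN 1 τ := by
  have hN : (N : ℂ) ≠ 0 := by exact_mod_cast NeZero.ne N
  simp only [qN, Function.Periodic.qParam]
  congr 1
  show 2 * (Real.pi : ℂ) * Complex.I * ((N : ℂ) * (τ : ℂ)) / ((N : ℕ) : ℂ) = _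
  push_cast
  field_simp

/-- change of width: an expansion of width `N` of `f` is an expansion of width `1` of
`τ ↦ f (N τ)`. -/
theorem hasExp_one_comp_scaleH {N : ℕ} [NeZero N] {f : ℍ → ℂ} {s : LaurentSeries ℂ}
    (h : HasExp N f s) : HasExp 1 (fun τ => f (scaleH N τ)) s := by
  obtain ⟨M, p, rfl, hp⟩ := h
  refine ⟨M, p, rfl, fun τ => ?_⟩
  have h1 := hp (scaleH N τ)
  rw [qN_scaleH] at h1
  exact h1

theorem scaleH_affPt_mul (N a D : ℕ) [NeZero N] (b : ℤ) (ha : 0 < a) (hD : 0 < D) (τ : ℍ) :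
    scaleH N (affPt a (D * N) b ha (Nat.mul_pos hD (Nat.pos_of_ne_zero (NeZero.ne N))) τ)
      = affPt a D b ha hD τ := by
  have hN : (N : ℂ) ≠ 0 := by exact_mod_cast NeZero.ne N
  have hD' : (D : ℂ) ≠ 0 := by exact_mod_cast hD.ne'
  apply UpperHalfPlane.ext
  show (N : ℂ) * ((affPt a (D * N) b ha _ τ : ℍ) : ℂ) = _
  rw [Fermat.Agent.S23.helper74.coe_affPt, Fermat.Agent.S23.helper74.coe_affPt]
  push_cast
  field_simp

/-- **analytic substitution `τ ↦ (a τ + b) / D` in an expansion of width `N`.** -/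
theorem hasExp_comp_aff_width {N : ℕ} [NeZero N] {f : ℍ → ℂ} {s : LaurentSeries ℂ}
    (h : HasExp N f s) (M a D e : ℕ) [NeZero M] (b : ℤ) (ha : 0 < a) (hD : 0 < D)
    (he : e * (D * N) = M * a) :
    HasExp M (fun τ => f (affPt a D b ha hD τ)) (affL (xi (D * N) b) e s) := by
  have h1 := Fermat.Agent.S28.helper78.hasExp_comp_aff (hasExp_one_comp_scaleH h) M a (D * N) e b
    ha (Nat.mul_pos hD (Nat.pos_of_ne_zero (NeZero.ne N))) he
  have e1 : (fun τ => f (affPt a D b ha hD τ)) = fun τ =>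
      (fun τ' => f (scaleH N τ'))
        (affPt a (D * N) b ha (Nat.mul_pos hD (Nat.pos_of_ne_zero (NeZero.ne N))) τ) := by
    funext τ
    show f (affPt a D b ha hD τ) = f (scaleH N _)
    rw [scaleH_affPt_mul]
  rw [e1]
  exact h1

/-- **Hermite decomposition on points**: `r (γ τ) = δ ((a τ + b) / D)`. -/
theorem exists_hermite_pt (r : ℕ) [NeZero r] (γ : SL(2, ℤ)) :
    ∃ (δ : SL(2, ℤ)) (a D : ℕ) (b : ℤ) (ha : 0 < a) (hD : 0 < D), a * D = r ∧
      a = Nat.gcd r (γ 1 0).natAbs ∧ ∀ τ : ℍ, scaleH r (γ • τ) = δ • affPt a D b ha hD τ := by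
  have hr : 0 < r := Nat.pos_of_ne_zero (NeZero.ne r)
  obtain ⟨δ, a, D, b, ha, hD, haD, hgcd, hmat⟩ := Fermat.Agent.S23.helper35.hermite_int r hr γ
  have e1 : (r : ℤ) * γ 0 0 = δ 0 0 * a := by
    have := congrFun (congrFun hmat 0) 0
    simpa [Matrix.mul_apply, Fin.sum_univ_two] using this
  have e2 : (r : ℤ) * γ 0 1 = δ 0 0 * b + δ 0 1 * D := by
    have := congrFun (congrFun hmat 0) 1
    simpa [Matrix.mul_apply, Fin.sum_univ_two] using this
  have e3 : γ 1 0 = δ 1 0 * a := by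
    have := congrFun (congrFun hmat 1) 0
    simpa [Matrix.mul_apply, Fin.sum_univ_two] using this
  have e4 : γ 1 1 = δ 1 0 * b + δ 1 1 * D := by
    have := congrFun (congrFun hmat 1) 1
    simpa [Matrix.mul_apply, Fin.sum_univ_two] using this
  refine ⟨δ, a, D, b, ha, hD, haD, hgcd, fun τ => ?_⟩
  rw [Fermat.Agent.S28.helper93.scaleH_eq_affPt]
  exact Fermat.Agent.S23.helper74.affPt_smul r a D b hr ha hD γ δ e1 e2 e3 e4 τ

/-- translation of the affine point: `(a τ + b + k D) / D = T^k ((a τ + b) / D)` -/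
theorem affPt_add_mul (a D : ℕ) (b k : ℤ) (ha : 0 < a) (hD : 0 < D) (τ : ℍ) :
    affPt a D (b + k * D) ha hD τ = (ModularGroup.T ^ k) • affPt a D b ha hD τ := by
  have hD' : (D : ℂ) ≠ 0 := by exact_mod_cast hD.ne'
  apply UpperHalfPlane.ext
  rw [ModularGroup.coe_T_zpow_smul_eq, Fermat.Agent.S23.helper74.coe_affPt,
    Fermat.Agent.S23.helper74.coe_affPt]
  push_cast
  field_simp
  ring

/-- **Hermite decomposition on points, normalised**: if `r` is prime to `N` the translation part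
`b` can be chosen divisible by `N`. -/
theorem exists_hermite_pt_mod (N r : ℕ) [NeZero r] (hrN : Nat.Coprime r N) (γ : SL(2, ℤ)) :
    ∃ (δ : SL(2, ℤ)) (a D : ℕ) (b : ℤ) (ha : 0 < a) (hD : 0 < D), a * D = r ∧
      a = Nat.gcd r (γ 1 0).natAbs ∧ (N : ℤ) ∣ b ∧
      ∀ τ : ℍ, scaleH r (γ • τ) = δ • affPt a D b ha hD τ := by
  obtain ⟨δ, a, D, b, ha, hD, haD, hgcd, hpt⟩ := exists_hermite_pt r γ
  have hDN : IsCoprime (D : ℤ) (N : ℤ) := by
    have h1 : Nat.Coprime D N := Nat.Coprime.coprime_dvd_left (Dvd.intro_left a haD) hrN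
    exact Nat.isCoprime_iff_coprime.mpr h1
  obtain ⟨u, v, huv⟩ := hDN
  -- `u D + v N = 1`; take `k = - b u`
  refine ⟨δ * (ModularGroup.T ^ (-b * u))⁻¹, a, D, b + (-b * u) * D, ha, hD, haD, ?_, ?_, ?_⟩
  · exact hgcd
  · refine ⟨b * v, ?_⟩
    linear_combination (-b) * huv
  · intro τ
    rw [hpt, affPt_add_mul, ← mul_smul, inv_mul_cancel_right]

/-- composition of the scalings -/
theorem scaleH_scaleH (d r : ℕ) [NeZero d] [NeZero r] [NeZero (d * r)] (τ : ℍ) :
    scaleH d (scaleH r τ) = scaleH (d * r) τ := by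
  apply UpperHalfPlane.ext
  show (d : ℂ) * ((r : ℂ) * (τ : ℂ)) = ((d * r : ℕ) : ℂ) * (τ : ℂ)
  push_cast
  ring

/-- **the twisted table on the generators over `ℂ`**: the expansion of `j (d r τ)` at `γ`
(level `M`) is the affine substitution of the expansion of `j (d τ)` at `δ` (level `N`). -/
theorem EAlg_JdG_scale (N M r : ℕ) [NeZero N] [NeZero M] [NeZero r] (γ δ : SL(2, ℤ))
    (a D e : ℕ) (b : ℤ) (ha : 0 < a) (hD : 0 < D) (he : e * (D * N) = M * a)
    (hpt : ∀ τ : ℍ, scaleH r (γ • τ) = δ • affPt a D b ha hD τ)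
    (d : ℕ) (hd : d ∣ N) (hdM : d * r ∣ M) :
    EAlg M γ (JdG M (d * r)) = affL (xi (D * N) b) e (EAlg N δ (JdG N d)) := by
  haveI : NeZero d := ⟨ne_zero_of_dvd_ne_zero (NeZero.ne N) hd⟩
  haveI : NeZero (d * r) := ⟨Nat.mul_ne_zero (NeZero.ne d) (NeZero.ne r)⟩
  apply EAlg_eq
  have h1 : HasExp N (fun τ => ((JdG N d : GAlg N) : ℍ → ℂ) (δ • τ)) (EAlg N δ (JdG N d)) :=
    hasExp_EAlg N δ (JdG N d)
  have h2 := hasExp_comp_aff_width h1 M a D e b ha hD he
  have e1 : (fun τ => ((JdG M (d * r) : GAlg M) : ℍ → ℂ) (γ • τ)) =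
      fun τ => (fun τ' => ((JdG N d : GAlg N) : ℍ → ℂ) (δ • τ')) (affPt a D b ha hD τ) := by
    funext τ
    rw [JdG_of_dvd M (d * r) hdM, JdG_of_dvd N d hd]
    show jfunD (d * r) (γ • τ) = jfunD d (δ • affPt a D b ha hD τ)
    rw [← hpt τ]
    show jfun (scaleH (d * r) (γ • τ)) = jfun (scaleH d (scaleH r (γ • τ)))
    rw [scaleH_scaleH]
  rw [e1]
  exact h2

end Fermat.Agent.T3.helper90

end
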