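/-
T3 (S36), helper90, [CUSP-Q] second prover, part B: the twisted table for the coset embeddings
`helper28.sigmaK` over `ℚ̄`.

`N`, `M` levels, `r` a scaling with `d r ∣ M` for all `d ∣ N` (in the application `M = N q q`,
`r ∈ {1, q, q²}`), `φ : F_N → F_M` a ring homomorphism which is `y ↦ y (t^r)` on expansions.
For a coset `I` of `Γ₀(M)` with Hermite data `r (γ_I τ) = δ ((a τ + b) / D)`:

  `sigmaK M I (φ y) = (rot u (sigmaK N i y)) (t^e)`,   `i = cosetOf N δ`,  `e (D N) = M a`,

`u = uK (D N) b` the root of unity `exp (2 π i b / (D N))` in `ℚ̄`.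

* `cosetOf`, `EAlg_eq_EI` : the coset of `Γ₀(N)` attached to `δ ∈ SL(2,ℤ)`;
* `uS`, `uK`, `uK_pow`    : the root of unity as a unit of `SK` and of `ℚ̄`;
* `sigmaK_scale`          : **the twisted table**.
-/
import Mathlib
import Fermat.Agent.T3.helper90_CuspQTabA
import Fermat.Agent.P2.helper28_CuspReg

set_option autoImplicit false
set_option linter.unusedSectionVars false
set_option linter.style.haveILetI false
set_option synthInstance.maxHeartbeats 400000

noncomputable section

namespace Fermat.Agent.T3.helper90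

open UpperHalfPlane ModularCurve Fermat.Agent.S28
open Fermat.Agent.S24 (jfun scaleH jfunD rotL)
open Fermat.Agent.S23.helper74 (affPt xi)
open Fermat.Agent.S18.helper19 (Kb)
open Fermat.Agent.P2.helper28
open scoped MatrixGroups

/-! ### The coset attached to `δ` -/

/-- the coset of `Γ₀(N)` whose expansions are the expansions of `g ∘ δ` -/
def cosetOf (N : ℕ) (δ : SL(2, ℤ)) : IX N := ((δ⁻¹ : SL(2, ℤ)) : IX N)

theorem EAlg_eq_EI (N : ℕ) [NeZero N] (δ : SL(2, ℤ)) (g : GAlg N) :
    EAlg N δ g = EI N (cosetOf N δ) g := by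
  symm
  show EAlg N (rep N (cosetOf N δ)) g = EAlg N δ g
  apply EAlg_eq
  have h := hasExp_EAlg N δ g
  have e : (fun τ => (g : ℍ → ℂ) (rep N (cosetOf N δ) • τ)) = fun τ => (g : ℍ → ℂ) (δ • τ) := by
    funext τ
    have h1 : ((Quotient.out (cosetOf N δ) : SL(2, ℤ)) : IX N) = ((δ⁻¹ : SL(2, ℤ)) : IX N) :=
      QuotientGroup.out_eq' (cosetOf N δ)
    have h2 := GAlg_rep_eq g (Quotient.out (cosetOf N δ)) δ⁻¹ h1 τ
    rw [inv_inv] at h2
    exact h2
  rw [e]
  exact h

/-! ### The roots of unity -/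

theorem xi_mem_SK (D : ℕ) (hD : 0 < D) (b : ℤ) : xi D b ∈ SK := by
  haveI : NeZero D := ⟨hD.ne'⟩
  rw [xi_eq_zetaC_zpow D D b hD dvd_rfl]
  have h1 : zetaC D ∈ SK := zetaC_mem_SK D
  obtain ⟨z, -, hz⟩ := h1
  have h2 : zetaC D ^ (b * ((D / D : ℕ) : ℤ)) = iotaK (z ^ (b * ((D / D : ℕ) : ℤ))) := by
    rw [map_zpow₀]
    congr 1
    exact hz.symm
  rw [h2]
  exact mem_SK _

theorem xi_mul_xi_neg (D : ℕ) (b : ℤ) : xi D b * xi D (-b) = 1 := by
  unfold xi
  rw [← Complex.exp_add]
  have : 2 * (Real.pi : ℂ) * Complex.I * (b : ℂ) / (D : ℂ) +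
      2 * (Real.pi : ℂ) * Complex.I * ((-b : ℤ) : ℂ) / (D : ℂ) = 0 := by
    push_cast
    ring
  rw [this, Complex.exp_zero]

/-- the root of unity `exp (2 π i b / D)` as a unit of `SK` -/
def uS (D : ℕ) (hD : 0 < D) (b : ℤ) : SKˣ where
  val := ⟨xi D b, xi_mem_SK D hD b⟩
  inv := ⟨xi D (-b), xi_mem_SK D hD (-b)⟩
  val_inv := Subtype.ext (xi_mul_xi_neg D b)
  inv_val := Subtype.ext (by rw [Subring.coe_mul, mul_comm]; exact xi_mul_xi_neg D b)

@[simp] theorem coe_uS (D : ℕ) (hD : 0 < D) (b : ℤ) : (((uS D hD b : SKˣ) : SK) : ℂ) = xi D b := rfl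

/-- the root of unity `exp (2 π i b / D)` as a unit of `ℚ̄` -/
def uK (D : ℕ) (hD : 0 < D) (b : ℤ) : Kbˣ := Units.map (rK : SK →* Kb) (uS D hD b)

theorem uS_pow (D : ℕ) (hD : 0 < D) (b : ℤ) : uS D hD b ^ D = 1 := by
  apply Units.ext
  apply Subtype.ext
  rw [Units.val_pow_eq_pow_val, Subring.coe_pow, coe_uS, Units.val_one, Subring.coe_one]
  exact Fermat.Agent.S23.helper74.xi_pow D b hD

theorem uK_pow (D : ℕ) (hD : 0 < D) (b : ℤ) : uK D hD b ^ D = 1 := by
  rw [uK, ← map_pow, uS_pow, map_one]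

/-- the rotation by `ξ` over `ℂ` in the two vocabularies -/
theorem rotL_eq_rot (u : ℂˣ) (s : LaurentSeries ℂ) :
    rotL (u : ℂ) s = Fermat.Agent.P2.helper94.rot u s := by
  ext n
  rw [Fermat.Agent.S24.rotL_coeff, Fermat.Agent.P2.helper94.rot_coeff, Units.val_zpow_eq_zpow_val]

/-! ### The twisted table -/

section Table

variable (N M r : ℕ) [NeZero N] [NeZero M] [NeZero r]

/-- the generators as elements of the function field -/
def genF (d : N.divisors) : ↥(modularFunctionFieldFullC Kb N) :=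
  ⟨genK Kb N d, genK_mem d⟩

/-- evaluation of the polynomials in the generators, with values in the function field -/
def aevalF : MvPolynomial N.divisors Kb →ₐ[Kb] ↥(modularFunctionFieldFullC Kb N) :=
  MvPolynomial.aeval (genF N)

theorem coe_aevalF (P : MvPolynomial N.divisors Kb) :
    ((aevalF N P : ↥(modularFunctionFieldFullC Kb N)) : LaurentSeries Kb)
      = MvPolynomial.aeval (genK Kb N) P := by
  have h := MvPolynomial.comp_aeval (R := Kb) (genF N)
    (IntermediateField.val (modularFunctionFieldFullC Kb N))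
  have h2 := congrArg (fun f : MvPolynomial N.divisors Kb →ₐ[Kb] LaurentSeries Kb => f P) h
  exact h2

theorem mk_aeval_eq (P : MvPolynomial N.divisors Kb) :
    (⟨MvPolynomial.aeval (genK Kb N) P, aeval_genK_mem Kb N P⟩ :
      ↥(modularFunctionFieldFullC Kb N)) = aevalF N P :=
  Subtype.ext (coe_aevalF N P).symm

/-- two ring homomorphisms out of the function field which agree on the constants and on the
generators are equal. -/
theorem ringHom_ext_gen {L : Type*} [Field L]
    {τ τ' : ↥(modularFunctionFieldFullC Kb N) →+* L}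
    (hC : ∀ c : Kb, τ (algebraMap Kb _ c) = τ' (algebraMap Kb _ c))
    (hX : ∀ d : N.divisors, τ (genF N d) = τ' (genF N d)) : τ = τ' := by
  apply ringHom_ext_fullC
  intro P
  rw [mk_aeval_eq]
  have h : τ.comp (aevalF N : MvPolynomial N.divisors Kb →+* _) =
      τ'.comp (aevalF N : MvPolynomial N.divisors Kb →+* _) := by
    apply MvPolynomial.ringHom_ext
    · intro c
      simp only [RingHom.comp_apply, RingHom.coe_coe]
      rw [show aevalF N (MvPolynomial.C c) = algebraMap Kb _ c from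
        MvPolynomial.aeval_C (genF N) c]
      exact hC c
    · intro d
      simp only [RingHom.comp_apply, RingHom.coe_coe]
      rw [show aevalF N (MvPolynomial.X d) = genF N d from MvPolynomial.aeval_X (genF N) d]
      exact hX d
  exact congrArg (fun f : MvPolynomial N.divisors Kb →+* L => f P) h

theorem sigmaK_algebraMap (I : IX M) (c : Kb) :
    sigmaK M I (algebraMap Kb _ c) = HahnSeries.C c :=
  sigma_algebraMap (conjX M) SK rK (zetaC_mem_SK M) (natCast_inv_mem_SK M) rK_surjective I c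

theorem sigmaK_genF (I : IX M) (d : M.divisors) :
    sigmaK M I (genF M d) =
      coeffMap rK (Fermat.Agent.S28.helper93.ES (conjX M).E SK I
        (JdS (conjX M) SK (zetaC_mem_SK M) (natCast_inv_mem_SK M) d)) :=
  sigma_genK (conjX M) SK rK (zetaC_mem_SK M) (natCast_inv_mem_SK M) rK_surjective I d

theorem sigmaK_genF_of (I : IX M) (d : M.divisors) (Y : LaurentSeries SK)
    (hY : coeffMap SK.subtype Y = EI M I (JdG M d.1)) :
    sigmaK M I (genF M d) = coeffMap rK Y :=
  (sigma_genK (conjX M) SK rK (zetaC_mem_SK M) (natCast_inv_mem_SK M) rK_surjective I d).trans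
    (Eb_eq_of (conjX M) SK rK I _ Y hY)

variable {N M r}

/-- **the twisted table**: for a coset `I` of `Γ₀(M)` with Hermite data
`r (γ_I τ) = δ ((a τ + b) / D)`, the coset embedding at `I` of `y (t^r)` is the affine
substitution `t ↦ u t^e` in the coset embedding of `y` at the coset of `δ`. -/
theorem sigmaK_scale (I : IX M) (δ : SL(2, ℤ)) (a D e : ℕ) [NeZero e] (b : ℤ) (ha : 0 < a)
    (hD : 0 < D) (he : e * (D * N) = M * a)
    (hpt : ∀ τ : ℍ, scaleH r (rep M I • τ) = δ • affPt a D b ha hD τ)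
    (hM : ∀ d : ℕ, d ∣ N → d * r ∣ M)
    (φ : ↥(modularFunctionFieldFullC Kb N) →+* ↥(modularFunctionFieldFullC Kb M))
    (hφ : ∀ y : ↥(modularFunctionFieldFullC Kb N),
      ((φ y : ↥(modularFunctionFieldFullC Kb M)) : LaurentSeries Kb)
        = qExpand Kb r (y : LaurentSeries Kb))
    (y : ↥(modularFunctionFieldFullC Kb N)) :
    sigmaK M I (φ y) = qExpand Kb e
      (Fermat.Agent.P2.helper94.rot
        (uK (D * N) (Nat.mul_pos hD (Nat.pos_of_ne_zero (NeZero.ne N))) b)
        (sigmaK N (cosetOf N δ) y)) := by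
  have hDN : 0 < D * N := Nat.mul_pos hD (Nat.pos_of_ne_zero (NeZero.ne N))
  set u : Kbˣ := uK (D * N) hDN b with hu
  set i : IX N := cosetOf N δ with hi
  have key : (sigmaK M I).comp φ =
      ((qExpand Kb e).comp (Fermat.Agent.P2.helper94.rot u)).comp (sigmaK N i) := by
    apply ringHom_ext_gen
    · intro c
      have h1 : φ (algebraMap Kb _ c) = algebraMap Kb _ c := by
        apply Subtype.ext
        rw [hφ]
        show qExpand Kb r (algebraMap Kb (LaurentSeries Kb) c) =
          algebraMap Kb (LaurentSeries Kb) c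
        rw [Fermat.Agent.S28.helper93.algebraMap_laurent_eq_C, qExpand_C]
      simp only [RingHom.comp_apply]
      rw [h1, sigmaK_algebraMap, sigmaK_algebraMap, rot_C, qExpand_C]
    · intro d
      have hdN : d.1 ∣ N := Nat.dvd_of_mem_divisors d.2
      have hdM : d.1 * r ∣ M := hM d.1 hdN
      have hmem : d.1 * r ∈ M.divisors := Nat.mem_divisors.mpr ⟨hdM, NeZero.ne M⟩
      have h1 : φ (genF N d) = genF M ⟨d.1 * r, hmem⟩ := by
        apply Subtype.ext
        rw [hφ]
        show qExpand Kb r (genK Kb N d) = genK Kb M ⟨d.1 * r, hmem⟩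
        unfold genK
        haveI : NeZero d.1 := ⟨(Nat.pos_of_mem_divisors d.2).ne'⟩
        haveI : NeZero (r * d.1) := ⟨Nat.mul_ne_zero (NeZero.ne r) (NeZero.ne d.1)⟩
        rw [qExpand_qExpand]
        exact qExpand_congr (mul_comm r d.1) _
      simp only [RingHom.comp_apply]
      rw [h1]
      -- the level `N` side
      set Y : LaurentSeries SK :=
        Fermat.Agent.S28.helper93.ES (conjX N).E SK i
          (JdS (conjX N) SK (zetaC_mem_SK N) (natCast_inv_mem_SK N) d) with hY
      have hYc : coeffMap SK.subtype Y = EI N i (JdG N d.1) :=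
        Fermat.Agent.S28.helper93.coeffMap_ES (conjX N).E SK i _
      have h2 : sigmaK N i (genF N d) = coeffMap rK Y := sigmaK_genF N i d
      -- the level `M` side
      have h3 : sigmaK M I (genF M ⟨d.1 * r, hmem⟩) =
          coeffMap rK (qExpand SK e (Fermat.Agent.P2.helper94.rot (uS (D * N) hDN b) Y)) := by
        apply sigmaK_genF_of
        rw [Fermat.Agent.P2.helper94.coeffMap_qExpand, coeffMap_rot, hYc]
        show _ = EI M I (JdG M (d.1 * r))
        have h4 : EI M I (JdG M (d.1 * r)) = EAlg M (rep M I) (JdG M (d.1 * r)) := rfl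
        rw [h4, EAlg_JdG_scale N M r (rep M I) δ a D e b ha hD he hpt d.1 hdN hdM,
          EAlg_eq_EI, affL_of_ne_zero]
        congr 1
        have h5 : ((Units.map ((SK.subtype : SK →+* ℂ) : SK →* ℂ) (uS (D * N) hDN b) : ℂˣ) : ℂ)
            = xi (D * N) b := rfl
        rw [← h5, rotL_eq_rot]
      rw [h2, h3, Fermat.Agent.P2.helper94.coeffMap_qExpand, coeffMap_rot]
      rfl
  exact congrArg (fun f : ↥(modularFunctionFieldFullC Kb N) →+* LaurentSeries Kb => f y) key

end Table

end Fermat.Agent.T3.helper90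

end
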