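/-
T3 (S36), helper90, [CUSP-Q], part C: the RAW twisted table in the shape asked for by helper87
(#2577): arbitrary matrices `g, d ∈ SL(2,ℤ)` with the four entry equations of
`S23.helper74.affPt_smul`, the cosets `[g⁻¹]`, `[d⁻¹]`, an arbitrary unit `u` of `ℚ̄` with
`iotaK u = xi (D N) b`, elementwise (no ring homomorphism `φ` needed).

* `sigmaK_cosetOf_scale` : `helper90.sigmaK_scale` at the coset of an arbitrary `g`;
* `scaleC`               : `y ↦ y (t^r)` as a ring homomorphism `F_N → F_M`;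
* `iotaK_uK`, `uK_unique`: the root of unity;
* `raw_table`            : **RAW**, level `M` general;
* `raw_table_qq`         : **RAW** for `M = N q q`, `r ∣ q q`, `m D = q q a`.
-/
import Mathlib
import Fermat.Agent.T3.helper90_CuspQTabB

set_option autoImplicit false
set_option linter.unusedSectionVars false
set_option linter.style.haveILetI false
set_option synthInstance.maxHeartbeats 400000

noncomputable section

namespace Fermat.Agent.T3.helper90

open UpperHalfPlane ModularCurve Fermat.Agent.S28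
open Fermat.Agent.S24 (jfun scaleH jfunD rotL)
open Fermat.Agent.S23.helper74 (affPt xi)
open Fermat.Agent.S18.helper19 (Kb)
open Fermat.Agent.P2.helper28
open scoped MatrixGroups

/-! ### The root of unity -/

theorem iotaK_uK (D : ℕ) (hD : 0 < D) (b : ℤ) : iotaK ((uK D hD b : Kbˣ) : Kb) = xi D b := by
  show iotaK (rK ((uS D hD b : SKˣ) : SK)) = xi D b
  rw [iotaK_rK]
  rfl

theorem uK_unique (D : ℕ) (hD : 0 < D) (b : ℤ) (u : Kbˣ) (hu : iotaK (u : Kb) = xi D b) :
    u = uK D hD b := by
  apply Units.ext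
  apply iotaK.injective
  rw [hu, iotaK_uK]

/-! ### The scaling `y ↦ y (t^r)` -/

section Scale

variable (N M r : ℕ) [NeZero N] [NeZero M] [NeZero r]

/-- `y ↦ y (t^r)` as an algebra homomorphism of `ℚ̄((t))` -/
def qExpAlg : LaurentSeries Kb →ₐ[Kb] LaurentSeries Kb :=
  { qExpand Kb r with
    commutes' := fun c => by
      show qExpand Kb r (algebraMap Kb (LaurentSeries Kb) c) = algebraMap Kb (LaurentSeries Kb) c
      rw [Fermat.Agent.S28.helper93.algebraMap_laurent_eq_C, qExpand_C] }

theorem qExpAlg_apply (y : LaurentSeries Kb) : qExpAlg r y = qExpand Kb r y := rfl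

theorem qExpand_genK (d : N.divisors) (hmem : d.1 * r ∈ M.divisors) :
    qExpand Kb r (genK Kb N d) = genK Kb M ⟨d.1 * r, hmem⟩ := by
  unfold genK
  haveI : NeZero d.1 := ⟨(Nat.pos_of_mem_divisors d.2).ne'⟩
  haveI : NeZero (r * d.1) := ⟨Nat.mul_ne_zero (NeZero.ne r) (NeZero.ne d.1)⟩
  rw [qExpand_qExpand]
  exact qExpand_congr (mul_comm r d.1) _

variable {N M r}

theorem qExpand_mem_fullC (hM : ∀ d : ℕ, d ∣ N → d * r ∣ M) {y : LaurentSeries Kb}
    (hy : y ∈ modularFunctionFieldFullC Kb N) :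
    qExpand Kb r y ∈ modularFunctionFieldFullC Kb M := by
  have hle : modularFunctionFieldFullC Kb N ≤
      (modularFunctionFieldFullC Kb M).comap (qExpAlg r) := by
    rw [fullC_eq_adjoin Kb N, IntermediateField.adjoin_le_iff]
    rintro x ⟨d, rfl⟩
    have hdM : d.1 * r ∣ M := hM d.1 (Nat.dvd_of_mem_divisors d.2)
    have hmem : d.1 * r ∈ M.divisors := Nat.mem_divisors.mpr ⟨hdM, NeZero.ne M⟩
    show qExpand Kb r (genK Kb N d) ∈ modularFunctionFieldFullC Kb M
    rw [qExpand_genK N M r d hmem]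
    exact genK_mem _
  exact hle hy

/-- `y ↦ y (t^r)` as a ring homomorphism `F_N → F_M` -/
def scaleC (hM : ∀ d : ℕ, d ∣ N → d * r ∣ M) :
    ↥(modularFunctionFieldFullC Kb N) →+* ↥(modularFunctionFieldFullC Kb M) where
  toFun y := ⟨qExpand Kb r (y : LaurentSeries Kb), qExpand_mem_fullC hM y.2⟩
  map_one' := Subtype.ext (map_one (qExpand Kb r))
  map_mul' _ _ := Subtype.ext (map_mul (qExpand Kb r) _ _)
  map_zero' := Subtype.ext (map_zero (qExpand Kb r))
  map_add' _ _ := Subtype.ext (map_add (qExpand Kb r) _ _)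

theorem coe_scaleC (hM : ∀ d : ℕ, d ∣ N → d * r ∣ M) (y : ↥(modularFunctionFieldFullC Kb N)) :
    ((scaleC hM y : ↥(modularFunctionFieldFullC Kb M)) : LaurentSeries Kb)
      = qExpand Kb r (y : LaurentSeries Kb) := rfl

end Scale

/-! ### The table at the coset of an arbitrary matrix -/

section Raw

variable {N M r : ℕ} [NeZero N] [NeZero M] [NeZero r]

/-- the expansions at the coset of `g` are the expansions of `y ∘ g` -/
theorem EI_cosetOf (g : SL(2, ℤ)) (x : GAlg M) : EI M (cosetOf M g) x = EAlg M g x :=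
  (EAlg_eq_EI M g x).symm

/-- there is a matrix in the coset `I` at which the table can be read: the representative -/
theorem cosetOf_rep (I : IX M) : cosetOf M (rep M I) = I := by
  unfold cosetOf rep
  rw [inv_inv]
  exact QuotientGroup.out_eq' I

/-- a change of the matrix inside its coset does not change the point relation needed for the
table: the relation for `g` gives the relation for the representative of the coset of `g` up
to an element of `Γ₀(M)` - so we prove the table directly at `g`. -/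
theorem sigmaK_cosetOf_scale (g δ : SL(2, ℤ)) (a D e : ℕ) [NeZero e] (b : ℤ) (ha : 0 < a)
    (hD : 0 < D) (he : e * (D * N) = M * a)
    (hpt : ∀ τ : ℍ, scaleH r (g • τ) = δ • affPt a D b ha hD τ)
    (hM : ∀ d : ℕ, d ∣ N → d * r ∣ M)
    (y : ↥(modularFunctionFieldFullC Kb N)) (y' : ↥(modularFunctionFieldFullC Kb M))
    (hy : (y' : LaurentSeries Kb) = qExpand Kb r (y : LaurentSeries Kb)) :
    sigmaK M (cosetOf M g) y' = qExpand Kb e
      (Fermat.Agent.P2.helper94.rot
        (uK (D * N) (Nat.mul_pos hD (Nat.pos_of_ne_zero (NeZero.ne N))) b)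
        (sigmaK N (cosetOf N δ) y)) := by
  have hDN : 0 < D * N := Nat.mul_pos hD (Nat.pos_of_ne_zero (NeZero.ne N))
  have hy' : y' = scaleC hM y := Subtype.ext hy
  rw [hy']
  set u : Kbˣ := uK (D * N) hDN b with hu
  set i : IX N := cosetOf N δ with hi
  set I : IX M := cosetOf M g with hI
  have key : (sigmaK M I).comp (scaleC hM) =
      ((qExpand Kb e).comp (Fermat.Agent.P2.helper94.rot u)).comp (sigmaK N i) := by
    apply ringHom_ext_gen
    · intro c
      have h1 : scaleC hM (algebraMap Kb _ c) = algebraMap Kb _ c := by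
        apply Subtype.ext
        rw [coe_scaleC]
        show qExpand Kb r (algebraMap Kb (LaurentSeries Kb) c) =
          algebraMap Kb (LaurentSeries Kb) c
        rw [Fermat.Agent.S28.helper93.algebraMap_laurent_eq_C, qExpand_C]
      simp only [RingHom.comp_apply]
      rw [h1, sigmaK_algebraMap, sigmaK_algebraMap, rot_C, qExpand_C]
    · intro d
      have hdN : d.1 ∣ N := Nat.dvd_of_mem_divisors d.2
      have hdM : d.1 * r ∣ M := hM d.1 hdN
      have hmem : d.1 * r ∈ M.divisors := Nat.mem_divisors.mpr ⟨hdM, NeZero.ne M⟩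
      have h1 : scaleC hM (genF N d) = genF M ⟨d.1 * r, hmem⟩ := by
        apply Subtype.ext
        rw [coe_scaleC]
        exact qExpand_genK N M r d hmem
      simp only [RingHom.comp_apply]
      rw [h1]
      set Y : LaurentSeries SK :=
        Fermat.Agent.S28.helper93.ES (conjX N).E SK i
          (JdS (conjX N) SK (zetaC_mem_SK N) (natCast_inv_mem_SK N) d) with hY
      have hYc : coeffMap SK.subtype Y = EI N i (JdG N d.1) :=
        Fermat.Agent.S28.helper93.coeffMap_ES (conjX N).E SK i _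
      have h2 : sigmaK N i (genF N d) = coeffMap rK Y := sigmaK_genF N i d
      have h3 : sigmaK M I (genF M ⟨d.1 * r, hmem⟩) =
          coeffMap rK (qExpand SK e (Fermat.Agent.P2.helper94.rot (uS (D * N) hDN b) Y)) := by
        apply sigmaK_genF_of
        rw [Fermat.Agent.P2.helper94.coeffMap_qExpand, coeffMap_rot, hYc]
        show _ = EI M I (JdG M (d.1 * r))
        have hR : EI M I (JdG M (d.1 * r)) = affL (xi (D * N) b) e (EI N i (JdG N d.1)) := by
          rw [hI, EI_cosetOf (M := M) g (JdG M (d.1 * r)),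
            EAlg_JdG_scale N M r g δ a D e b ha hD he hpt d.1 hdN hdM, EAlg_eq_EI N δ]
        rw [hR, affL_of_ne_zero]
        congr 1
        have h5 : ((Units.map ((SK.subtype : SK →+* ℂ) : SK →* ℂ) (uS (D * N) hDN b) : ℂˣ) : ℂ)
            = xi (D * N) b := rfl
        rw [← h5, rotL_eq_rot]
      rw [h2, h3, Fermat.Agent.P2.helper94.coeffMap_qExpand, coeffMap_rot]
      rfl
  exact congrArg (fun f : ↥(modularFunctionFieldFullC Kb N) →+* LaurentSeries Kb => f y) key

/-- **RAW table** (shape of helper87 #2577), general level `M`. -/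
theorem raw_table (g d : SL(2, ℤ)) (a D m : ℕ) [NeZero m] (b : ℤ) (ha : 0 < a) (hD : 0 < D)
    (e1 : (r : ℤ) * g 0 0 = d 0 0 * a) (e2 : (r : ℤ) * g 0 1 = d 0 0 * b + d 0 1 * D)
    (e3 : g 1 0 = d 1 0 * a) (e4 : g 1 1 = d 1 0 * b + d 1 1 * D)
    (hm : m * (D * N) = M * a) (hM : ∀ d₀ : ℕ, d₀ ∣ N → d₀ * r ∣ M)
    (u : Kbˣ) (hu : iotaK (u : Kb) = xi (D * N) b)
    (y : ↥(modularFunctionFieldFullC Kb N)) (y' : ↥(modularFunctionFieldFullC Kb M))
    (hy : (y' : LaurentSeries Kb) = qExpand Kb r (y : LaurentSeries Kb)) :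
    sigmaK M (cosetOf M g) y' =
      qExpand Kb m (Fermat.Agent.P2.helper94.rot u (sigmaK N (cosetOf N d) y)) := by
  have hDN : 0 < D * N := Nat.mul_pos hD (Nat.pos_of_ne_zero (NeZero.ne N))
  have hr : 0 < r := Nat.pos_of_ne_zero (NeZero.ne r)
  have hpt : ∀ τ : ℍ, scaleH r (g • τ) = d • affPt a D b ha hD τ := by
    intro τ
    rw [Fermat.Agent.S28.helper93.scaleH_eq_affPt]
    exact Fermat.Agent.S23.helper74.affPt_smul r a D b hr ha hD g d e1 e2 e3 e4 τ
  rw [uK_unique (D * N) hDN b u hu]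
  exact sigmaK_cosetOf_scale g d a D m b ha hD hm hpt hM y y' hy

end Raw

/-! ### The case `M = N q q` -/

section QQ

variable {N q r : ℕ} [NeZero N] [NeZero q] [NeZero r]

/-- **RAW table** for `M = N q q`, `r ∣ q q`, `m D = q q a`. -/
theorem raw_table_qq (g d : SL(2, ℤ)) (a D m : ℕ) [NeZero m] (b : ℤ) (ha : 0 < a) (hD : 0 < D)
    (hr : r ∣ q * q)
    (e1 : (r : ℤ) * g 0 0 = d 0 0 * a) (e2 : (r : ℤ) * g 0 1 = d 0 0 * b + d 0 1 * D)
    (e3 : g 1 0 = d 1 0 * a) (e4 : g 1 1 = d 1 0 * b + d 1 1 * D)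
    (hm : m * D = q * q * a)
    (u : Kbˣ) (hu : iotaK (u : Kb) = xi (D * N) b)
    (y : ↥(modularFunctionFieldFullC Kb N)) (y' : ↥(modularFunctionFieldFullC Kb (N * q * q)))
    (hy : (y' : LaurentSeries Kb) = qExpand Kb r (y : LaurentSeries Kb)) :
    sigmaK (N * q * q) (cosetOf (N * q * q) g) y' =
      qExpand Kb m (Fermat.Agent.P2.helper94.rot u (sigmaK N (cosetOf N d) y)) := by
  refine raw_table (M := N * q * q) g d a D m b ha hD e1 e2 e3 e4 ?_ ?_ u hu y y' hy
  · calc m * (D * N) = (m * D) * N := by ring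
      _ = (q * q * a) * N := by rw [hm]
      _ = N * q * q * a := by ring
  · intro d₀ hd₀
    obtain ⟨k, hk⟩ := hd₀
    obtain ⟨l, hl⟩ := hr
    exact ⟨k * l, by rw [hk, mul_assoc (d₀ * k) q q, hl]; ring⟩

end QQ

end Fermat.Agent.T3.helper90

end
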