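/-
T3 (S36), helper48: [CUSP-Q], the matrix calculus of the cosets `SL(2,ℤ) / Γ₀(M)`.

`cosetOf M g = [g⁻¹]` (helper90), `permT M = T⁻¹ •` (helper28), `blDet g g' = g₁₀ g'₁₁ - g₁₁ g'₁₀`.

* (M1) `cosetOf_eq_iff` : `cosetOf M g = cosetOf M g' ↔ M ∣ blDet g g'`;
  `permT_zpow_cosetOf` : `permT ^ k (cosetOf M g) = cosetOf M (g T^k)`;
  `mem_orbit_cosetOf_iff` : same `T`-orbit `↔ ∃ k, M ∣ blDet g g' - k g₁₀ g'₁₀`;
  `permT_zpow_fix_iff` : `permT ^ k` fixes `cosetOf M g ↔ M ∣ k g₁₀²`;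
  `card_orbit_cosetOf` : the orbit of `cosetOf M g` has `M / gcd (M, g₁₀²)` elements.
* (M2) **Hermite transport** `blDet_hermite` : if `(r 0; 0 1) g = d (a b; 0 D)` and
  `(r 0; 0 1) g' = d' (a b'; 0 D)` then
  `blDet g g' = a D blDet d d' + a d₁₀ d'₁₀ (b' - b)`; hence (`N ∣ b, b'`, `a D` prime to `N`)
  `cosetOf N d = cosetOf N d' ↔ cosetOf N g = cosetOf N g'` (`cosetOf_hermite_iff`) and the same for
  the `T`-orbits (`mem_orbit_hermite_iff`): the map `κ` induced by the Hermite decomposition on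
  the cosets (cusps) of level `N` is well defined and injective.
-/
import Mathlib
import Fermat.Agent.T3.helper90_CuspQTabC
import Fermat.Agent.P2.helper28_CuspBar
import Fermat.Agent.S23.helper35_Hermite

set_option autoImplicit false
set_option linter.unusedSectionVars false
set_option linter.style.haveILetI false
set_option linter.unusedVariables false
set_option linter.style.longLine false

noncomputable section

open scoped MatrixGroups
open CongruenceSubgroup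
open Fermat.Agent.S28 (IX rep)
open Fermat.Agent.P2.helper28 (permT permT_apply)
open Fermat.Agent.T3.helper90 (cosetOf cosetOf_rep)

namespace Fermat.Agent.T3.helper48

/-! ### (M1) cosets and matrices -/

section M1

/-- the bottom-row determinant `g₁₀ g'₁₁ - g₁₁ g'₁₀` -/
def blDet (g g' : SL(2, ℤ)) : ℤ := g 1 0 * g' 1 1 - g 1 1 * g' 1 0

theorem blDet_self (g : SL(2, ℤ)) : blDet g g = 0 := by
  unfold blDet
  ring

theorem blDet_swap (g g' : SL(2, ℤ)) : blDet g' g = - blDet g g' := by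
  unfold blDet
  ring

theorem mul_inv_apply_one_zero (g g' : SL(2, ℤ)) : (g * g'⁻¹) 1 0 = blDet g g' := by
  rw [Matrix.SpecialLinearGroup.coe_mul, Matrix.mul_apply, Fin.sum_univ_two,
    Matrix.SpecialLinearGroup.SL2_inv_expl]
  unfold blDet
  simp
  ring

theorem T_zpow_apply (k : ℤ) :
    (ModularGroup.T ^ k : SL(2, ℤ)) 0 0 = 1 ∧ (ModularGroup.T ^ k : SL(2, ℤ)) 0 1 = k ∧
      (ModularGroup.T ^ k : SL(2, ℤ)) 1 0 = 0 ∧ (ModularGroup.T ^ k : SL(2, ℤ)) 1 1 = 1 := by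
  rw [ModularGroup.coe_T_zpow]
  simp

theorem mul_T_zpow_apply_one_zero (g : SL(2, ℤ)) (k : ℤ) :
    (g * ModularGroup.T ^ k) 1 0 = g 1 0 := by
  obtain ⟨h00, h01, h10, h11⟩ := T_zpow_apply k
  rw [Matrix.SpecialLinearGroup.coe_mul, Matrix.mul_apply, Fin.sum_univ_two, h00, h10]
  ring

theorem mul_T_zpow_apply_one_one (g : SL(2, ℤ)) (k : ℤ) :
    (g * ModularGroup.T ^ k) 1 1 = g 1 1 + k * g 1 0 := by
  obtain ⟨h00, h01, h10, h11⟩ := T_zpow_apply k
  rw [Matrix.SpecialLinearGroup.coe_mul, Matrix.mul_apply, Fin.sum_univ_two, h01, h11]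
  ring

theorem blDet_mul_T_zpow (g g' : SL(2, ℤ)) (k : ℤ) :
    blDet (g * ModularGroup.T ^ k) g' = blDet g g' - k * (g 1 0 * g' 1 0) := by
  unfold blDet
  rw [mul_T_zpow_apply_one_zero, mul_T_zpow_apply_one_one]
  ring

theorem blDet_mul_T_zpow_right (g g' : SL(2, ℤ)) (k : ℤ) :
    blDet g (g' * ModularGroup.T ^ k) = blDet g g' + k * (g 1 0 * g' 1 0) := by
  unfold blDet
  rw [mul_T_zpow_apply_one_zero, mul_T_zpow_apply_one_one]
  ring

/-- the bottom row of a matrix of `SL(2,ℤ)` is coprime -/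
theorem isCoprime_bottom (g : SL(2, ℤ)) : IsCoprime (g 1 0) (g 1 1) :=
  Matrix.SpecialLinearGroup.isCoprime_row g 1

variable (M : ℕ)

/-- **two matrices define the same coset iff `M` divides the bottom-row determinant.** -/
theorem cosetOf_eq_iff (g g' : SL(2, ℤ)) :
    cosetOf M g = cosetOf M g' ↔ (M : ℤ) ∣ blDet g g' := by
  unfold cosetOf
  rw [QuotientGroup.eq, inv_inv, Gamma0_mem, mul_inv_apply_one_zero]
  exact ZMod.intCast_zmod_eq_zero_iff_dvd _ _

theorem permT_cosetOf (g : SL(2, ℤ)) :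
    permT M (cosetOf M g) = cosetOf M (g * ModularGroup.T) := by
  rw [permT_apply]
  unfold cosetOf
  rw [mul_inv_rev]
  rfl

theorem permT_zpow_eq (k : ℤ) (i : IX M) :
    (permT M ^ k) i = ((ModularGroup.T ^ k)⁻¹ : SL(2, ℤ)) • i := by
  have h : permT M ^ k
      = MulAction.toPermHom (SL(2, ℤ)) (IX M) (((ModularGroup.T)⁻¹ : SL(2, ℤ)) ^ k) := by
    rw [map_zpow]
    rfl
  rw [h, inv_zpow]
  rfl

theorem permT_zpow_cosetOf (g : SL(2, ℤ)) (k : ℤ) :
    (permT M ^ k) (cosetOf M g) = cosetOf M (g * ModularGroup.T ^ k) := by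
  rw [permT_zpow_eq]
  unfold cosetOf
  rw [mul_inv_rev]
  rfl

/-- **the `T`-orbits in terms of matrices** -/
theorem mem_orbit_cosetOf_iff (g g' : SL(2, ℤ)) :
    cosetOf M g' ∈ MulAction.orbit (Subgroup.zpowers (permT M)) (cosetOf M g) ↔
      ∃ k : ℤ, (M : ℤ) ∣ blDet g g' - k * (g 1 0 * g' 1 0) := by
  rw [MulAction.mem_orbit_iff]
  constructor
  · rintro ⟨⟨t, ht⟩, h⟩
    obtain ⟨k, rfl⟩ := Subgroup.mem_zpowers_iff.mp ht
    refine ⟨k, ?_⟩
    have h' : (permT M ^ k) (cosetOf M g) = cosetOf M g' := h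
    rw [permT_zpow_cosetOf, cosetOf_eq_iff, blDet_mul_T_zpow] at h'
    exact h'
  · rintro ⟨k, hk⟩
    refine ⟨⟨permT M ^ k, Subgroup.zpow_mem_zpowers _ _⟩, ?_⟩
    show (permT M ^ k) (cosetOf M g) = cosetOf M g'
    rw [permT_zpow_cosetOf, cosetOf_eq_iff, blDet_mul_T_zpow]
    exact hk

/-- every coset is the coset of a matrix -/
theorem exists_cosetOf [NeZero M] (I : IX M) : ∃ g : SL(2, ℤ), cosetOf M g = I :=
  ⟨rep M I, cosetOf_rep I⟩

/-- `permT ^ k` fixes the coset of `g` iff `M ∣ k g₁₀²`. -/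
theorem permT_zpow_fix_iff (g : SL(2, ℤ)) (k : ℤ) :
    (permT M ^ k) (cosetOf M g) = cosetOf M g ↔ (M : ℤ) ∣ k * (g 1 0) ^ 2 := by
  rw [permT_zpow_cosetOf, cosetOf_eq_iff, blDet_mul_T_zpow, blDet_self, zero_sub, dvd_neg, sq]

/-- `M ∣ n x ↔ M / gcd (M, x) ∣ n` -/
theorem dvd_mul_iff_div_gcd_dvd {M : ℕ} (hM : M ≠ 0) (x n : ℕ) :
    M ∣ n * x ↔ M / Nat.gcd M x ∣ n := by
  have hg : 0 < Nat.gcd M x := Nat.gcd_pos_of_pos_left _ (Nat.pos_of_ne_zero hM)
  obtain ⟨M', x', hcop, hM', hx'⟩ := Nat.exists_coprime M x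
  have hdiv : M / Nat.gcd M x = M' := Nat.div_eq_of_eq_mul_left hg hM'
  rw [hdiv]
  generalize Nat.gcd M x = G at hg hM' hx'
  subst hM' hx'
  constructor
  · intro h
    have h1 : M' * G ∣ (n * x') * G := by
      have e : n * x' * G = n * (x' * G) := by ring
      rw [e]
      exact h
    have h2 : M' ∣ n * x' := (Nat.mul_dvd_mul_iff_right hg).mp h1
    exact hcop.dvd_of_dvd_mul_right h2
  · rintro ⟨t, rfl⟩
    exact ⟨t * x', by ring⟩

/-- **the size of the `T`-orbit of the coset of `g`** is `M / gcd (M, g₁₀²)`. -/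
theorem card_orbit_cosetOf [NeZero M] (g : SL(2, ℤ)) :
    Nat.card (MulAction.orbit (Subgroup.zpowers (permT M)) (cosetOf M g))
      = M / Nat.gcd M ((g 1 0).natAbs ^ 2) := by
  classical
  have hM : M ≠ 0 := NeZero.ne M
  have h1 : Function.minimalPeriod (fun x : IX M => permT M • x) (cosetOf M g)
      = Nat.card (MulAction.orbit (Subgroup.zpowers (permT M)) (cosetOf M g)) := by
    rw [Nat.card_eq_fintype_card]
    exact MulAction.minimalPeriod_eq_card (a := permT M) (b := cosetOf M g)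
  rw [← h1]
  have key : ∀ n : ℕ, Function.minimalPeriod (fun x : IX M => permT M • x) (cosetOf M g) ∣ n ↔
      M / Nat.gcd M ((g 1 0).natAbs ^ 2) ∣ n := by
    intro n
    rw [← Function.isPeriodicPt_iff_minimalPeriod_dvd, ← dvd_mul_iff_div_gcd_dvd hM]
    have e1 : Function.IsPeriodicPt (fun x : IX M => permT M • x) n (cosetOf M g) ↔
        (permT M ^ (n : ℤ)) (cosetOf M g) = cosetOf M g := by
      rw [Function.IsPeriodicPt, Function.IsFixedPt, zpow_natCast]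
      have : (fun x : IX M => permT M • x)^[n] = ⇑(permT M ^ n) :=
        Equiv.Perm.iterate_eq_pow (permT M) n
      rw [this]
    rw [e1, permT_zpow_fix_iff]
    have e2 : ((n : ℤ) * (g 1 0) ^ 2) = ((n * (g 1 0).natAbs ^ 2 : ℕ) : ℤ) := by
      push_cast
      rw [sq_abs]
    rw [e2, Int.natCast_dvd_natCast]
  exact Nat.dvd_antisymm ((key _).mpr dvd_rfl) ((key _).mp dvd_rfl)

end M1

/-! ### (M2) Hermite transport -/

section M2

/-- the Hermite relation `(r 0; 0 1) g = d (a b; 0 D)` in entries (the hypotheses of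
`helper90.raw_table_qq`) -/
structure HermiteRel (r : ℤ) (g d : SL(2, ℤ)) (a D b : ℤ) : Prop where
  e1 : r * g 0 0 = d 0 0 * a
  e2 : r * g 0 1 = d 0 0 * b + d 0 1 * D
  e3 : g 1 0 = d 1 0 * a
  e4 : g 1 1 = d 1 0 * b + d 1 1 * D

/-- **the bottom-row determinants of the Hermite factors** -/
theorem blDet_hermite {r r' : ℤ} {g g' d d' : SL(2, ℤ)} {a D b b' : ℤ}
    (h : HermiteRel r g d a D b) (h' : HermiteRel r' g' d' a D b') :
    blDet g g' = a * D * blDet d d' + a * (d 1 0 * d' 1 0) * (b' - b) := by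
  unfold blDet
  rw [h.e3, h.e4, h'.e3, h'.e4]
  ring

theorem HermiteRel.det {r : ℤ} {g d : SL(2, ℤ)} {a D b : ℤ} (h : HermiteRel r g d a D b) :
    r = a * D := by
  have hg : g 0 0 * g 1 1 - g 0 1 * g 1 0 = 1 := by
    have := g.det_coe
    rw [Matrix.det_fin_two] at this
    exact this
  have hd : d 0 0 * d 1 1 - d 0 1 * d 1 0 = 1 := by
    have := d.det_coe
    rw [Matrix.det_fin_two] at this
    exact this
  have h1 : r * (g 0 0 * g 1 1 - g 0 1 * g 1 0) = a * D * (d 0 0 * d 1 1 - d 0 1 * d 1 0) := by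
    have e1 := h.e1
    have e2 := h.e2
    have e3 := h.e3
    have e4 := h.e4
    calc r * (g 0 0 * g 1 1 - g 0 1 * g 1 0)
        = (r * g 0 0) * g 1 1 - (r * g 0 1) * g 1 0 := by ring
      _ = (d 0 0 * a) * (d 1 0 * b + d 1 1 * D) - (d 0 0 * b + d 0 1 * D) * (d 1 0 * a) := by
          rw [e1, e2, e4, e3]
      _ = a * D * (d 0 0 * d 1 1 - d 0 1 * d 1 0) := by ring
  rw [hg, hd, mul_one, mul_one] at h1
  exact h1

theorem mul_T_zpow_apply_zero_zero (g : SL(2, ℤ)) (k : ℤ) :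
    (g * ModularGroup.T ^ k) 0 0 = g 0 0 := by
  obtain ⟨h00, h01, h10, h11⟩ := T_zpow_apply k
  rw [Matrix.SpecialLinearGroup.coe_mul, Matrix.mul_apply, Fin.sum_univ_two, h00, h10]
  ring

theorem mul_T_zpow_apply_zero_one (g : SL(2, ℤ)) (k : ℤ) :
    (g * ModularGroup.T ^ k) 0 1 = g 0 1 + k * g 0 0 := by
  obtain ⟨h00, h01, h10, h11⟩ := T_zpow_apply k
  rw [Matrix.SpecialLinearGroup.coe_mul, Matrix.mul_apply, Fin.sum_univ_two, h01, h11]
  ring

/-- change of the translation part: `d (a b; 0 D) = (d T^(-k)) (a, b + k D; 0 D)` -/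
theorem HermiteRel.mul_T_zpow {r : ℤ} {g d : SL(2, ℤ)} {a D b : ℤ}
    (h : HermiteRel r g d a D b) (k : ℤ) :
    HermiteRel r g (d * ModularGroup.T ^ (-k)) a D (b + k * D) where
  e1 := by rw [mul_T_zpow_apply_zero_zero]; exact h.e1
  e2 := by
    rw [mul_T_zpow_apply_zero_zero, mul_T_zpow_apply_zero_one, h.e2]
    ring
  e3 := by rw [mul_T_zpow_apply_one_zero]; exact h.e3
  e4 := by
    rw [mul_T_zpow_apply_one_zero, mul_T_zpow_apply_one_one, h.e4]
    ring

/-- **Hermite decomposition in entries** -/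
theorem exists_hermiteRel (r : ℕ) (hr : 0 < r) (γ : SL(2, ℤ)) :
    ∃ (δ : SL(2, ℤ)) (a D : ℕ) (b : ℤ), 0 < a ∧ 0 < D ∧ a * D = r ∧
      a = Nat.gcd r (γ 1 0).natAbs ∧ HermiteRel (r : ℤ) γ δ (a : ℤ) (D : ℤ) b := by
  obtain ⟨δ, a, D, b, ha, hD, haD, hgcd, hmat⟩ := Fermat.Agent.S23.helper35.hermite_int r hr γ
  refine ⟨δ, a, D, b, ha, hD, haD, hgcd, ?_, ?_, ?_, ?_⟩
  · have := congrFun (congrFun hmat 0) 0
    simpa [Matrix.mul_apply, Fin.sum_univ_two] using this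
  · have := congrFun (congrFun hmat 0) 1
    simpa [Matrix.mul_apply, Fin.sum_univ_two] using this
  · have := congrFun (congrFun hmat 1) 0
    simpa [Matrix.mul_apply, Fin.sum_univ_two] using this
  · have := congrFun (congrFun hmat 1) 1
    simpa [Matrix.mul_apply, Fin.sum_univ_two] using this

/-- **Hermite decomposition in entries, normalised**: if `r` is prime to `N` the translation
part can be chosen divisible by `N`. -/
theorem exists_hermiteRel_mod (N r : ℕ) (hr : 0 < r) (hrN : Nat.Coprime r N) (γ : SL(2, ℤ)) :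
    ∃ (δ : SL(2, ℤ)) (a D : ℕ) (b : ℤ), 0 < a ∧ 0 < D ∧ a * D = r ∧
      a = Nat.gcd r (γ 1 0).natAbs ∧ (N : ℤ) ∣ b ∧ HermiteRel (r : ℤ) γ δ (a : ℤ) (D : ℤ) b := by
  obtain ⟨δ, a, D, b, ha, hD, haD, hgcd, hrel⟩ := exists_hermiteRel r hr γ
  have hDN : IsCoprime (D : ℤ) (N : ℤ) := by
    have h1 : Nat.Coprime D N := Nat.Coprime.coprime_dvd_left (Dvd.intro_left a haD) hrN
    exact Nat.isCoprime_iff_coprime.mpr h1
  obtain ⟨u, v, huv⟩ := hDN
  refine ⟨δ * ModularGroup.T ^ (-(-b * u)), a, D, b + (-b * u) * D, ha, hD, haD, hgcd, ?_,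
    hrel.mul_T_zpow (-b * u)⟩
  refine ⟨b * v, ?_⟩
  linear_combination (-b) * huv

variable (N : ℕ)

/-- **`κ` is well defined and injective on the cosets.** -/
theorem cosetOf_hermite_iff {r r' : ℤ} {g g' d d' : SL(2, ℤ)} {a D b b' : ℤ}
    (h : HermiteRel r g d a D b) (h' : HermiteRel r' g' d' a D b')
    (hb : (N : ℤ) ∣ b) (hb' : (N : ℤ) ∣ b') (hcop : IsCoprime (a * D) (N : ℤ)) :
    cosetOf N d = cosetOf N d' ↔ cosetOf N g = cosetOf N g' := by
  rw [cosetOf_eq_iff, cosetOf_eq_iff, blDet_hermite h h']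
  have h2 : (N : ℤ) ∣ a * (d 1 0 * d' 1 0) * (b' - b) :=
    Dvd.dvd.mul_left (dvd_sub hb' hb) _
  constructor
  · intro h1
    exact dvd_add (Dvd.dvd.mul_left h1 _) h2
  · intro h1
    have h3 : (N : ℤ) ∣ a * D * blDet d d' := (dvd_add_left h2).mp h1
    exact hcop.symm.dvd_of_dvd_mul_left h3

/-- **`κ` is well defined and injective on the `T`-orbits (cusps).** -/
theorem mem_orbit_hermite_iff {r r' : ℤ} {g g' d d' : SL(2, ℤ)} {a D b b' : ℤ}
    (h : HermiteRel r g d a D b) (h' : HermiteRel r' g' d' a D b')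
    (hb : (N : ℤ) ∣ b) (hb' : (N : ℤ) ∣ b') (hcop : IsCoprime (a * D) (N : ℤ)) :
    cosetOf N d' ∈ MulAction.orbit (Subgroup.zpowers (permT N)) (cosetOf N d) ↔
      cosetOf N g' ∈ MulAction.orbit (Subgroup.zpowers (permT N)) (cosetOf N g) := by
  rw [mem_orbit_cosetOf_iff, mem_orbit_cosetOf_iff]
  have hkey : ∀ k : ℤ, blDet g g' - k * (g 1 0 * g' 1 0)
      = a * D * blDet d d' + a * (d 1 0 * d' 1 0) * (b' - b)
        - k * (a * a) * (d 1 0 * d' 1 0) := by
    intro k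
    rw [blDet_hermite h h', h.e3, h'.e3]
    ring
  have h2 : (N : ℤ) ∣ a * (d 1 0 * d' 1 0) * (b' - b) :=
    Dvd.dvd.mul_left (dvd_sub hb' hb) _
  -- inverses of `a` and `D` modulo `N`
  have hcopa : IsCoprime a (N : ℤ) := IsCoprime.of_mul_left_left hcop
  have hcopD : IsCoprime D (N : ℤ) := IsCoprime.of_mul_left_right hcop
  obtain ⟨ua, va, hua⟩ := hcopa
  obtain ⟨uD, vD, huD⟩ := hcopD
  constructor
  · rintro ⟨j, hj⟩
    -- `k a ≡ D j`, `k := D j ua`
    refine ⟨D * j * ua, ?_⟩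
    rw [hkey]
    obtain ⟨t, ht⟩ := hj
    obtain ⟨s, hs⟩ := h2
    refine ⟨a * D * t + s + D * j * a * (d 1 0 * d' 1 0) * va, ?_⟩
    have e1 : a * D * blDet d d' = a * D * (j * (d 1 0 * d' 1 0)) + a * D * ((N : ℤ) * t) := by
      have : blDet d d' = j * (d 1 0 * d' 1 0) + (N : ℤ) * t := by linarith
      rw [this]
      ring
    rw [e1, hs]
    linear_combination (-(D * j * a * (d 1 0 * d' 1 0))) * hua
  · rintro ⟨k, hk⟩
    -- `j D ≡ k a`, `j := k a uD`
    refine ⟨k * a * uD, ?_⟩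
    rw [hkey] at hk
    obtain ⟨t, ht⟩ := hk
    obtain ⟨s, hs⟩ := h2
    rw [hs] at ht
    -- `a D (blDet d d' - j d d') ≡ 0`
    have h3 : (N : ℤ) ∣ a * D * (blDet d d' - k * a * uD * (d 1 0 * d' 1 0)) := by
      refine ⟨t - s + k * a * a * (d 1 0 * d' 1 0) * vD, ?_⟩
      linear_combination ht - (k * a * a * (d 1 0 * d' 1 0)) * huD
    exact hcop.symm.dvd_of_dvd_mul_left h3

end M2

end Fermat.Agent.T3.helper48

end
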