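/-
T3 (S36), helper48: [CUSP-Q], existence of matrices of `SL(2,ℤ)` with a prescribed bottom row
modulo `N` (up to the coset relation) and modulo `q²`.

* `exists_coprime_add_mul` : if no prime divides `a`, `M` and `C ≠ 0` simultaneously there is `t`
  with `a + M t` prime to `C`.
* `exists_SL2_bottom_mod` : a primitive pair `(x, y)` modulo `M` is the bottom row modulo `M` of a
  matrix of `SL(2,ℤ)`.
* `exists_typed` : for `G ∈ SL(2,ℤ)`, `q` prime, `q ∤ N` and a pair `(tx, ty)` primitive at `q`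
  there is `g ∈ SL(2,ℤ)` in the coset of `G` of level `N` with bottom row `≡ (tx, ty)` mod `q²`.
-/
import Mathlib
import Fermat.Agent.T3.helper48_CuspQMat

set_option autoImplicit false
set_option linter.unusedSectionVars false
set_option linter.style.haveILetI false
set_option linter.unusedVariables false
set_option linter.style.longLine false

noncomputable section

open scoped MatrixGroups
open Fermat.Agent.T3.helper90 (cosetOf)

namespace Fermat.Agent.T3.helper48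

/-- **coprime lifting**: if no prime divides `a`, `M` and `C` simultaneously (`C ≠ 0`), some
`a + M t` is prime to `C`. -/
theorem exists_coprime_add_mul (a M C : ℤ) (hC : C ≠ 0)
    (h : ∀ p : ℕ, p.Prime → (p : ℤ) ∣ a → (p : ℤ) ∣ M → (p : ℤ) ∣ C → False) :
    ∃ t : ℤ, IsCoprime (a + M * t) C := by
  classical
  let s : Finset ℕ := C.natAbs.primeFactors.filter (fun p => ¬ (p : ℤ) ∣ a)
  let t : ℕ := ∏ p ∈ s, p
  refine ⟨(t : ℤ), ?_⟩
  rw [Int.isCoprime_iff_gcd_eq_one, Nat.eq_one_iff_not_exists_prime_dvd]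
  intro p hp hpg
  have hp1 : (p : ℤ) ∣ a + M * t := by
    have := Int.gcd_dvd_left (a + M * t) C
    exact (Int.natCast_dvd_natCast.mpr hpg).trans this
  have hp2 : (p : ℤ) ∣ C := by
    have := Int.gcd_dvd_right (a + M * t) C
    exact (Int.natCast_dvd_natCast.mpr hpg).trans this
  have hpC : p ∈ C.natAbs.primeFactors := by
    rw [Nat.mem_primeFactors]
    exact ⟨hp, Int.natCast_dvd.mp hp2, Int.natAbs_ne_zero.mpr hC⟩
  have hpt : p ∣ t ↔ p ∈ s := by
    constructor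
    · intro hd
      have hd' : p ∣ ∏ i ∈ s, i := hd
      obtain ⟨i, hi, hpi⟩ := (Prime.dvd_finsetProd_iff (Nat.Prime.prime hp) _).mp hd'
      have hiprime : i.Prime := by
        have := (Finset.mem_filter.mp hi).1
        exact (Nat.mem_primeFactors.mp this).1
      have : p = i := (Nat.prime_dvd_prime_iff_eq hp hiprime).mp hpi
      rw [this]
      exact hi
    · intro hps
      exact Finset.dvd_prod_of_mem _ hps
  by_cases hpa : (p : ℤ) ∣ a
  · -- `p ∣ a`: then `p ∤ t`, so `p ∣ M`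
    have hps : p ∉ s := fun hps => (Finset.mem_filter.mp hps).2 hpa
    have hnt : ¬ p ∣ t := fun hd => hps (hpt.mp hd)
    have hMt : (p : ℤ) ∣ M * t := (dvd_add_right hpa).mp hp1
    have hpM : (p : ℤ) ∣ M := by
      rcases (Nat.prime_iff_prime_int.mp hp).dvd_or_dvd hMt with h1 | h1
      · exact h1
      · exact absurd (Int.natCast_dvd_natCast.mp h1) hnt
    exact h p hp hpa hpM hp2
  · -- `p ∤ a`: then `p ∣ t`
    have hps : p ∈ s := Finset.mem_filter.mpr ⟨hpC, hpa⟩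
    have hd : (p : ℤ) ∣ M * t := Dvd.dvd.mul_left (Int.natCast_dvd_natCast.mpr (hpt.mpr hps)) _
    exact hpa ((dvd_add_left hd).mp hp1)

/-- **a primitive pair modulo `M` is the bottom row modulo `M` of a matrix of `SL(2,ℤ)`.** -/
theorem exists_SL2_bottom_mod (M : ℕ) [NeZero M] (x y : ℤ)
    (h : ∀ p : ℕ, p.Prime → (p : ℤ) ∣ x → (p : ℤ) ∣ y → (p : ℤ) ∣ (M : ℤ) → False) :
    ∃ g : SL(2, ℤ), (M : ℤ) ∣ g 1 0 - x ∧ (M : ℤ) ∣ g 1 1 - y := by
  have hM : (M : ℤ) ≠ 0 := by exact_mod_cast NeZero.ne M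
  -- a nonzero representative of `x`
  obtain ⟨x', hx'0, hx'⟩ : ∃ x' : ℤ, x' ≠ 0 ∧ (M : ℤ) ∣ x' - x := by
    by_cases hx : x = 0
    · exact ⟨M, hM, by rw [hx, sub_zero]⟩
    · exact ⟨x, hx, by rw [sub_self]; exact dvd_zero _⟩
  obtain ⟨t, ht⟩ := exists_coprime_add_mul y M x' hx'0 (fun p hp hy hpM hpx' => by
    have hpx : (p : ℤ) ∣ x := by
      have h1 : (p : ℤ) ∣ x' - x := hpM.trans hx'
      have h2 := dvd_sub hpx' h1
      rwa [sub_sub_cancel] at h2
    exact h p hp hpx hy hpM)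
  obtain ⟨g, hg0, hg1⟩ := ht.symm.exists_SL2_row 1
  refine ⟨g, ?_, ?_⟩
  · rw [hg0]
    exact hx'
  · rw [hg1]
    exact ⟨t, by ring⟩

/-- **typed matrices**: in the coset of level `N` of `G` there is a matrix with bottom row
`≡ (tx, ty)` modulo `q²`, for every pair `(tx, ty)` which is primitive at `q`. -/
theorem exists_typed (N q : ℕ) [NeZero N] (hq : q.Prime) (hqN : ¬ q ∣ N) (G : SL(2, ℤ))
    (tx ty : ℤ) (ht : ¬ ((q : ℤ) ∣ tx ∧ (q : ℤ) ∣ ty)) :
    ∃ g : SL(2, ℤ), cosetOf N g = cosetOf N G ∧ ((q : ℤ) ^ 2 ∣ g 1 0 - tx) ∧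
      ((q : ℤ) ^ 2 ∣ g 1 1 - ty) := by
  have hq0 : q ≠ 0 := hq.ne_zero
  haveI : NeZero (N * q ^ 2) := ⟨Nat.mul_ne_zero (NeZero.ne N) (pow_ne_zero 2 hq0)⟩
  have hcop : IsCoprime (N : ℤ) ((q : ℤ) ^ 2) := by
    have h1 : Nat.Coprime N (q ^ 2) :=
      Nat.Coprime.pow_right 2 ((Nat.Prime.coprime_iff_not_dvd hq).mpr hqN).symm
    have := Nat.isCoprime_iff_coprime.mpr h1
    simpa using this
  obtain ⟨u, v, huv⟩ := hcop
  -- the CRT pair
  set x : ℤ := G 1 0 * (v * (q : ℤ) ^ 2) + tx * (u * N) with hx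
  set y : ℤ := G 1 1 * (v * (q : ℤ) ^ 2) + ty * (u * N) with hy
  have hxN : (N : ℤ) ∣ x - G 1 0 := ⟨(tx - G 1 0) * u, by rw [hx]; linear_combination (G 1 0) * huv⟩
  have hyN : (N : ℤ) ∣ y - G 1 1 := ⟨(ty - G 1 1) * u, by rw [hy]; linear_combination (G 1 1) * huv⟩
  have hxq : (q : ℤ) ^ 2 ∣ x - tx := ⟨(G 1 0 - tx) * v, by rw [hx]; linear_combination tx * huv⟩
  have hyq : (q : ℤ) ^ 2 ∣ y - ty := ⟨(G 1 1 - ty) * v, by rw [hy]; linear_combination ty * huv⟩
  have hprim : ∀ p : ℕ, p.Prime → (p : ℤ) ∣ x → (p : ℤ) ∣ y →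
      (p : ℤ) ∣ ((N * q ^ 2 : ℕ) : ℤ) → False := by
    intro p hp hpx hpy hpM
    have hpM' : p ∣ N * q ^ 2 := Int.natCast_dvd_natCast.mp hpM
    rcases (Nat.Prime.dvd_mul hp).mp hpM' with hpN | hpq
    · -- `p ∣ N`: `p` divides the bottom row of `G`
      have hpN' : (p : ℤ) ∣ (N : ℤ) := Int.natCast_dvd_natCast.mpr hpN
      have h1 : (p : ℤ) ∣ G 1 0 := by
        have := dvd_sub hpx (hpN'.trans hxN)
        rwa [sub_sub_cancel] at this
      have h2 : (p : ℤ) ∣ G 1 1 := by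
        have := dvd_sub hpy (hpN'.trans hyN)
        rwa [sub_sub_cancel] at this
      have hc := isCoprime_bottom G
      have : IsUnit (p : ℤ) := hc.isUnit_of_dvd' h1 h2
      rw [Int.isUnit_iff_natAbs_eq, Int.natAbs_natCast] at this
      exact hp.one_lt.ne' this
    · -- `p = q`
      have hpq' : p = q := (Nat.prime_dvd_prime_iff_eq hp hq).mp (hp.dvd_of_dvd_pow hpq)
      subst hpq'
      have hq2 : (p : ℤ) ∣ (p : ℤ) ^ 2 := dvd_pow_self _ two_ne_zero
      apply ht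
      constructor
      · have := dvd_sub hpx (hq2.trans hxq)
        rwa [sub_sub_cancel] at this
      · have := dvd_sub hpy (hq2.trans hyq)
        rwa [sub_sub_cancel] at this
  obtain ⟨g, hg0, hg1⟩ := exists_SL2_bottom_mod (N * q ^ 2) x y hprim
  have hNM : (N : ℤ) ∣ ((N * q ^ 2 : ℕ) : ℤ) := ⟨(q : ℤ) ^ 2, by push_cast; ring⟩
  have hqM : (q : ℤ) ^ 2 ∣ ((N * q ^ 2 : ℕ) : ℤ) := ⟨(N : ℤ), by push_cast; ring⟩
  refine ⟨g, ?_, ?_, ?_⟩
  · rw [cosetOf_eq_iff]
    unfold blDet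
    -- `g ≡ (x, y) ≡ G` mod `N`
    obtain ⟨a, ha⟩ := (hNM.trans hg0)
    obtain ⟨b, hb⟩ := (hNM.trans hg1)
    obtain ⟨c, hc⟩ := hxN
    obtain ⟨d, hd⟩ := hyN
    refine ⟨(a + c) * G 1 1 - (b + d) * G 1 0, ?_⟩
    linear_combination (G 1 1) * ha - (G 1 0) * hb + (G 1 1) * hc - (G 1 0) * hd
  · have := dvd_add (hqM.trans hg0) hxq
    rwa [sub_add_sub_cancel] at this
  · have := dvd_add (hqM.trans hg1) hyq
    rwa [sub_add_sub_cancel] at this

end Fermat.Agent.T3.helper48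

end
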