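import Mathlib

/-!
# Tier 3, [COMPLETE-A] (helper48), part 1: transitivity of integrality through minimal polynomials

Mathlib only.

* `isIntegralElem_of_minpoly_coeff` : `R → F → E`, `F ⊆ E` fields, `x ∈ E` algebraic over `F`:
  if all the coefficients of the minimal polynomial of `x` over `F` are integral over `R`, then
  `x` is integral over `R`.
* `RingHom.IsIntegralElem.comp_left'` : transport of integrality along a ring homomorphism.
-/

set_option autoImplicit false
set_option linter.style.haveILetI false

open Polynomial

namespace Fermat.Agent.T3.helper48

/-- **Transitivity through the minimal polynomial**: if the coefficients of the minimal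
polynomial of `x` over the field `F` are integral over `R`, then `x` is integral over `R`. -/
theorem isIntegralElem_of_minpoly_coeff {R F E : Type*} [CommRing R] [Field F] [Field E]
    [Algebra F E] (φ : R →+* F) (x : E) (hx : IsIntegral F x)
    (h : ∀ n, φ.IsIntegralElem ((minpoly F x).coeff n)) :
    ((algebraMap F E).comp φ).IsIntegralElem x := by
  letI : Algebra R F := φ.toAlgebra
  letI : Algebra R E := ((algebraMap F E).comp φ).toAlgebra
  haveI : IsScalarTower R F E := IsScalarTower.of_algebraMap_eq fun _ => rfl
  have hcoef : (↑(minpoly F x).coeffs : Set F) ⊆ (integralClosure R F).toSubring := by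
    intro c hc
    obtain ⟨n, -, rfl⟩ := (Polynomial.mem_coeffs_iff).mp (Finset.mem_coe.mp hc)
    exact h n
  have hC : IsIntegral (integralClosure R F) x := by
    refine ⟨(minpoly F x).toSubring (integralClosure R F).toSubring hcoef,
      ((minpoly F x).monic_toSubring _ _).mpr (minpoly.monic hx), ?_⟩
    rw [IsScalarTower.algebraMap_eq (integralClosure R F) F E, ← eval₂_map]
    have hm : ((minpoly F x).toSubring (integralClosure R F).toSubring hcoef).map
        (algebraMap (integralClosure R F) F) = minpoly F x :=
      (minpoly F x).map_toSubring (integralClosure R F).toSubring hcoef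
    rw [hm]
    exact minpoly.aeval F x
  exact isIntegral_trans (R := R) (A := integralClosure R F) x hC

/-- integrality over `φ` only depends on the composite. -/
theorem isIntegralElem_congr {R S : Type*} [CommRing R] [CommRing S] {φ ψ : R →+* S}
    (h : φ = ψ) {x : S} (hx : φ.IsIntegralElem x) : ψ.IsIntegralElem x := h ▸ hx

/-- the image of an integral element under a ring homomorphism is integral over the composite -/
theorem isIntegralElem_map {R S T : Type*} [CommRing R] [CommRing S] [CommRing T] (φ : R →+* S)
    (g : S →+* T) {x : S} (hx : φ.IsIntegralElem x) : (g.comp φ).IsIntegralElem (g x) := by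
  obtain ⟨p, hp, hp0⟩ := hx
  refine ⟨p, hp, ?_⟩
  rw [← Polynomial.hom_eval₂, hp0, map_zero]

end Fermat.Agent.T3.helper48
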