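import Fermat.Agent.T3.helper48_CompleteAFix
import Fermat.Agent.T3.helper48_RegAll

/-!
# Tier 3, [RED-INT3] (helper48): reductions of the elements of `AA` are integral over `k[j̄]`

Level `N q q`, `A` over `q`.  `jq3 R q i` is the expansion of `j` at the cusp `i` (`∞`, `0`,
middle): `j(t)`, `j(t^(q²))`, `j(t)`.

* `ex3_xJ`, `ex3_evX` : the structure map `A[X] → F_{Nqq}` in the three expansions;
* `exists_monic_incl3` : an element integral over `A[j]` with integral expansion `Y` at the cusp
  `i` satisfies a monic equation over `A[jq3 i]` IN `A((t))`;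
* `exists_monic_red3` : **[RED-INT3]** its reduction is integral over `k[jq3 i]`;
* `exists_monic_red3_of_fix` : the same from `IsFixI`, `IsInt3` and regularity off the cusps
  (`IsRegAll`), through [COMPLETE-A].
-/

set_option autoImplicit false
set_option synthInstance.maxHeartbeats 400000
set_option linter.style.haveILetI false
set_option linter.unusedSectionVars false
set_option linter.unusedVariables false

noncomputable section

open HahnSeries IntermediateField AlgebraicCurve ModularCurve Polynomial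
open Fermat.Agent.S18.helper19 Fermat.Agent.P2.helper29 Fermat.Agent.T2.helper36
open Fermat.Agent.S24

namespace Fermat.Agent.T3.helper48

open Fermat.Agent.T3.helper87 (embMid IsReg3)
open Fermat.Agent.T3.helper74 (IsFixI IsInt3 ex3 midOne midOne_ne)
open Fermat.Agent.P2.helper81 (evX ev₂)

/-! ### The expansions of `j` -/

section J

/-- the expansion of `j` at the cusp `i` of `X₀(N q²)` (`∞`, `0`, middle), over any ring. -/
def jq3 (R : Type*) [CommRing R] (q : ℕ) [NeZero q] (i : Fin 3) : LaurentSeries R :=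
  if i = 1 then qExpand R q (qExpand R q (jqModC R)) else jqModC R

theorem jq3_zero (R : Type*) [CommRing R] (q : ℕ) [NeZero q] : jq3 R q 0 = jqModC R := by
  unfold jq3
  rw [if_neg (by decide)]

theorem jq3_one (R : Type*) [CommRing R] (q : ℕ) [NeZero q] :
    jq3 R q 1 = qExpand R q (qExpand R q (jqModC R)) := by
  unfold jq3
  rw [if_pos rfl]

theorem jq3_two (R : Type*) [CommRing R] (q : ℕ) [NeZero q] : jq3 R q 2 = jqModC R := by
  unfold jq3
  rw [if_neg (by decide)]

theorem coeffMap_jq3 {R S : Type*} [CommRing R] [CommRing S] (φ : R →+* S) (q : ℕ) [NeZero q]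
    (i : Fin 3) : coeffMap φ (jq3 R q i) = jq3 S q i := by
  unfold jq3
  split_ifs
  · rw [coeffMap_qExpand, coeffMap_qExpand, coeffMap_jqModC]
  · rw [coeffMap_jqModC]

end J

section Ex

variable {N q : ℕ} [NeZero N] [NeZero q] {hq : q.Prime} {hqN : ¬ q ∣ N}
variable (A : ValuationSubring Kb)

theorem fin3_cases' (i : Fin 3) : i = 0 ∨ i = 1 ∨ i = 2 := by
  fin_cases i
  · exact Or.inl rfl
  · exact Or.inr (Or.inl rfl)
  · exact Or.inr (Or.inr rfl)

theorem ex3_algebraMap' {ζ : Kb} (hζ : IsPrimitiveRoot ζ q) (i : Fin 3) (c : Kb) :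
    ex3 N q hq hqN hζ i (algebraMap Kb (FF (N * q * q)) c)
      = algebraMap Kb (LaurentSeries Kb) c := by
  rcases fin3_cases' i with rfl | rfl | rfl
  · rw [Fermat.Agent.T3.helper98.ex3_zero]
    rfl
  · rw [Fermat.Agent.T3.helper98.ex3_one, AlgEquiv.commutes]
    rfl
  · rw [Fermat.Agent.T3.helper98.ex3_two, AlgHom.commutes]

/-- the three expansions of `j`. -/
theorem ex3_xJ {ζ : Kb} (hζ : IsPrimitiveRoot ζ q) (i : Fin 3) :
    ex3 N q hq hqN hζ i (xJ (N * q * q)) = jq3 Kb q i := by
  rw [← jElt_eq_xJ, Fermat.Agent.T3.helper87.jElt_eq_jAA]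
  rcases fin3_cases' i with rfl | rfl | rfl
  · rw [Fermat.Agent.T3.helper98.ex3_zero, Fermat.Agent.T3.helper87.coe_jAA, jq3_zero]
  · rw [Fermat.Agent.T3.helper98.ex3_one, Fermat.Agent.T3.helper87.atkinLehnerSq_jAA,
      Fermat.Agent.T3.helper87.coe_jBB, jq3_one]
  · rw [Fermat.Agent.T3.helper98.ex3_two, Fermat.Agent.T3.helper87.embMid_jAA, jq3_two]

/-- the structure map `A[X] → F_{Nqq}` in the three expansions. -/
theorem ex3_comp_evX {ζ : Kb} (hζ : IsPrimitiveRoot ζ q) (i : Fin 3) :
    (ex3 N q hq hqN hζ i).comp (evX A (N * q * q))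
      = (incl A).comp ((aeval (jq3 A q i) : Polynomial A →ₐ[A] LaurentSeries A) :
          Polynomial A →+* LaurentSeries A) := by
  apply Polynomial.ringHom_ext
  · intro a
    simp only [RingHom.coe_comp, Function.comp_apply, RingHom.coe_coe, aeval_C]
    rw [Fermat.Agent.P2.helper81.evX_C, ex3_algebraMap']
    rw [Fermat.Agent.S28.helper25.coeffMap_algebraMap_laurent]
    rfl
  · simp only [RingHom.coe_comp, Function.comp_apply, RingHom.coe_coe, aeval_X]
    rw [Fermat.Agent.P2.helper81.evX_X, ex3_xJ, coeffMap_jq3]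

/-- an element which is integral over `A[j]` with an integral expansion `Y` at the cusp `i`:
`Y` satisfies a monic equation over `A[jq3 i]` in `A((t))`. -/
theorem exists_monic_incl3 {ζ : Kb} (hζ : IsPrimitiveRoot ζ q) (f : FF (N * q * q))
    (hf : (evX A (N * q * q)).IsIntegralElem f) (i : Fin 3) (Y : LaurentSeries A)
    (hY : incl A Y = ex3 N q hq hqN hζ i f) :
    ∃ p : Polynomial (Polynomial A), p.Monic ∧ ev₂ (jq3 A q i) Y p = 0 := by
  obtain ⟨p, hp, hp0⟩ := hf
  refine ⟨p, hp, ?_⟩
  apply Fermat.Agent.P2.helper81.coeffMap_subtype_injective A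
  rw [map_zero]
  have h1 := congrArg (ex3 N q hq hqN hζ i) hp0
  rw [Polynomial.hom_eval₂, map_zero, ex3_comp_evX, ← hY] at h1
  rw [Fermat.Agent.P2.helper81.ev₂_apply]
  have h2 := Polynomial.hom_eval₂ p
    ((aeval (jq3 A q i) : Polynomial A →ₐ[A] LaurentSeries A) :
      Polynomial A →+* LaurentSeries A) (incl A) Y
  rw [h2]
  exact h1

/-- **[RED-INT3]**: the reduction at the cusp `i` of an element which is integral over `A[j]` is
integral over `k[jq3 i]` (`jq3 i = j̄` at `∞` and at the middle cusp, `j̄(t^(q²))` at `0`). -/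
theorem exists_monic_red3 {ζ : Kb} (hζ : IsPrimitiveRoot ζ q) (f : FF (N * q * q))
    (hf : (evX A (N * q * q)).IsIntegralElem f) (i : Fin 3) (Y : LaurentSeries A)
    (hY : incl A Y = ex3 N q hq hqN hζ i f) :
    ∃ p : Polynomial (Polynomial (kA A)), p.Monic ∧ ev₂ (jq3 (kA A) q i) (red A Y) p = 0 := by
  obtain ⟨p, hp, hp0⟩ := exists_monic_incl3 A hζ f hf i Y hY
  refine ⟨p.map (Polynomial.mapRingHom (IsLocalRing.residue A)), hp.map _, ?_⟩
  have h := congrArg (red A) hp0
  rw [map_zero, Fermat.Agent.P2.helper81.ev₂_apply,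
    Fermat.Agent.S28.helper25.coeffMap_eval₂_aeval, coeffMap_jq3] at h
  exact h

variable (hq hqN)

include hq hqN in
/-- **[RED-INT3]** for the ring `AA`: the reductions of an `I`-fixed function, regular off the
cusps, with `A`-integral expansions at the three cusps, are integral over `k[jq3 i]`. -/
theorem exists_monic_red3_of_fix (hA : A.LiesOverPrime q) {ζ : Kb} (hζ : IsPrimitiveRoot ζ q)
    (f : FF (N * q * q)) (hfix : IsFixI A (N * q * q) f) (hreg : IsRegAll (N * q * q) f)
    (Y : Fin 3 → LaurentSeries A) (hY : ∀ i, incl A (Y i) = ex3 N q hq hqN hζ i f) (i : Fin 3) :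
    ∃ p : Polynomial (Polynomial (kA A)), p.Monic ∧
      ev₂ (jq3 (kA A) q i) (red A (Y i)) p = 0 :=
  exists_monic_red3 A hζ f
    (completeA_of_fix A N q hq hqN hA hζ f hfix (fun i => ⟨Y i, hY i⟩) hreg) i (Y i) (hY i)

end Ex

end Fermat.Agent.T3.helper48

end
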