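import Fermat.Agent.T2.helper48_UOp
import Fermat.Agent.T3.helper48_WNorm
import Fermat.Agent.S18.helper19_Wiring

/-!
# Tier 3, [T3-ULOWER] (helper48): `U_q` lowers the level on functions; [KUM-NEW]

Level `M * q` with a prime `q ∣ M`; `α, β : F_M → F_{Mq}` (`f(τ)`, `f(qτ)`), `N_α`, `N_β` the
norms.

* `es_norm_beta` : the norm formula for `N_β` of an ARBITRARY function of level `M q`:
  `(N_β g)(t^q) = ∏_{k<q} g(ζ^k t)`;
* `uKummer_eq_alpha_normAlong` : `uKummer (M q) q h = α (N_β h)` : the function side of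
  `U_q = α^* β_*` on `J₀(M q)`;
* `normAlong_alpha_alpha` : `N_α (α g) = g ^ q`;
* `pow_descent` : `g ^ q = c · u ^ n`, `gcd(q, n) = 1` ⟹ `g = c' · v ^ n`;
* `normAlong_beta_eq_const_mul_pow` : **[KUM-NEW], `∞` side**: if `h` is a Kummer representative
  of `x ∈ J₀(M q)[n]`, `uJ x = 0`, `gcd(q, n) = 1`, then `N_β h = c · v ^ n`;
* `normAlong_alpha_eq_const_mul_pow` : **[KUM-NEW], `0` side**, level `N q q`: if moreover
  `uJ (W_{q²} x) = 0` then `N_α h = c · v ^ n`.
-/

set_option autoImplicit false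
set_option linter.unusedSectionVars false
set_option linter.unusedVariables false
set_option linter.style.haveILetI false

noncomputable section

open UpperHalfPlane ModularCurve AlgebraicCurve IntermediateField CongruenceSubgroup
open scoped MatrixGroups

namespace Fermat.Agent.T3.helper48

open Fermat.Agent.S24 Fermat.Agent.S24.helper37 Fermat.Agent.P2.helper93
open Fermat.Agent.P3.helper94 Fermat.Agent.T2.helper48

section Norm

variable (M q : ℕ) [NeZero M] [NeZero q]

/-- **Norm formula for `N_β`, complex coefficients**: `(N_β g)(t^q) = ∏_{k<q} g(ξ^k t)`. -/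
theorem es_norm_beta_complex (hq : q.Prime) (hqM : q ∣ M) {ξ : ℂ} (hξ : IsPrimitiveRoot ξ q)
    (g : FN (M * q)) :
    qExpand ℂ q (helper17.toC
        ((normAlong (heckeBetaBar Kbar M q) g : FN M) : LaurentSeries Kbar))
      = ∏ k ∈ Finset.range q, rotL (ξ ^ k) (helper17.toC (g : LaurentSeries Kbar)) := by
  letI := algebraAlong (heckeBetaBar Kbar M q)
  have hfr : Module.finrank (FN M) (FN (M * q)) = q := finrank_beta_of_dvd M q hq hqM
  haveI fd : FiniteDimensional (FN M) (FN (M * q)) :=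
    Module.finite_of_finrank_pos (by rw [hfr]; exact hq.pos)
  haveI : Algebra.IsSeparable (FN M) (FN (M * q)) := inferInstance
  have key := norm_eq_prod_of_embeddings (F := FN M) (E := FN (M * q))
    ((qExpand ℂ q).comp (toCHom M)) (rotFam M q ξ (hξ.ne_zero (NeZero.ne q)))
    (rotFam_injective M q hξ)
    (fun i => RingHom.ext fun f => rotFam_beta M q hξ i f)
    (by rw [Fintype.card_fin, hfr]) g
  simp_rw [rotFam_apply] at key
  rw [Fin.prod_univ_eq_prod_range
    (fun k => rotL (ξ ^ k) (helper17.toC (g : LaurentSeries Kbar))) q] at key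
  rw [← key]
  rfl

/-- **Norm formula for `N_β`** in `ℚ̄((q))`: `(N_β g)(t^q) = ∏_{k<q} g(ζ^k t)`. -/
theorem es_norm_beta (hq : q.Prime) (hqM : q ∣ M) (ζ : Kbar) (hζ : IsPrimitiveRoot ζ q)
    (g : FN (M * q)) :
    qExpand Kbar q ((normAlong (heckeBetaBar Kbar M q) g : FN M) : LaurentSeries Kbar)
      = ∏ k ∈ Finset.range q, twistL (ζ ^ k) (g : LaurentSeries Kbar) := by
  apply helper17.toC_injective
  rw [map_prod, toC_qExpand]
  simp_rw [toC_twistL, map_pow]
  exact es_norm_beta_complex M q hq hqM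
    (hζ.map_of_injective (iotaC : Kbar →+* ℂ).injective) g

/-- **`U_q` lowers the level on functions**: for a prime `q ∣ M` and `h` of level `M q`,
`uKummer (M q) q h = α (N_β h)`. -/
theorem uKummer_eq_alpha_normAlong (hq : q.Prime) (hqM : q ∣ M) (h : FN (M * q)) :
    uKummer (M * q) q h
      = heckeAlphaBar Kbar M q (normAlong (heckeBetaBar Kbar M q) h) := by
  obtain ⟨ζ, hζ⟩ := HasEnoughRootsOfUnity.exists_primitiveRoot Kbar q
  have h1 := es_norm_U (M * q) q hq (Dvd.intro_left M rfl) ζ hζ h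
  have h2 := es_norm_beta M q hq hqM ζ hζ h
  have h3 : ((uKummer (M * q) q h : FN (M * q)) : LaurentSeries Kbar)
      = ((normAlong (heckeBetaBar Kbar M q) h : FN M) : LaurentSeries Kbar) :=
    ModularCurve.qExpand_injective q (h1.trans h2.symm)
  apply Subtype.ext
  rw [coe_heckeAlphaBar]
  exact h3

/-- `N_α (α g) = g ^ q` for a prime `q ∣ M`. -/
theorem normAlong_alpha_alpha (hq : q.Prime) (hqM : q ∣ M) (g : FN M) :
    normAlong (heckeAlphaBar Kbar M q) (heckeAlphaBar Kbar M q g) = g ^ q := by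
  letI := algebraAlong (heckeAlphaBar Kbar M q)
  have hfr : Module.finrank (FN M) (FN (M * q)) = q := finrank_alpha_of_dvd M q hq hqM
  have key := Algebra.norm_algebraMap (R := FN M) (S := FN (M * q)) g
  rw [hfr] at key
  exact key

/-- `N_β (β g) = g ^ q` for a prime `q ∣ M`. -/
theorem normAlong_beta_beta (hq : q.Prime) (hqM : q ∣ M) (g : FN M) :
    normAlong (heckeBetaBar Kbar M q) (heckeBetaBar Kbar M q g) = g ^ q := by
  letI := algebraAlong (heckeBetaBar Kbar M q)
  have hfr : Module.finrank (FN M) (FN (M * q)) = q := finrank_beta_of_dvd M q hq hqM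
  have key := Algebra.norm_algebraMap (R := FN M) (S := FN (M * q)) g
  rw [hfr] at key
  exact key

end Norm

/-! ### Descent of a power -/

section Descent

/-- `g ^ q = c · u ^ n` with `gcd(q, n) = 1` ⟹ `g = c' · v ^ n`. -/
theorem pow_descent {K F : Type*} [Field K] [Field F] [Algebra K F] {q n : ℕ}
    (hqn : Nat.Coprime q n) {g u : F} {c : K} (hg : g ≠ 0)
    (h : g ^ q = algebraMap K F c * u ^ n) :
    ∃ (c' : K) (v : F), c' ≠ 0 ∧ v ≠ 0 ∧ g = algebraMap K F c' * v ^ n := by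
  have hc : c ≠ 0 := by
    rintro rfl
    rw [map_zero, zero_mul] at h
    exact pow_ne_zero q hg h
  rcases Nat.eq_zero_or_pos n with hn | hn
  · subst hn
    have hq1 : q = 1 := by simpa using hqn
    subst hq1
    refine ⟨c, 1, hc, one_ne_zero, ?_⟩
    rw [pow_one, pow_zero, mul_one] at h
    rw [pow_zero, mul_one, h]
  · have hu : u ≠ 0 := by
      rintro rfl
      rw [zero_pow hn.ne', mul_zero] at h
      exact pow_ne_zero q hg h
    have hb : (q : ℤ) * Nat.gcdA q n + (n : ℤ) * Nat.gcdB q n = 1 := by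
      have := Nat.gcd_eq_gcd_ab q n
      rw [Nat.Coprime.gcd_eq_one hqn] at this
      exact_mod_cast this.symm
    refine ⟨c ^ Nat.gcdA q n, u ^ Nat.gcdA q n * g ^ Nat.gcdB q n, zpow_ne_zero _ hc,
      mul_ne_zero (zpow_ne_zero _ hu) (zpow_ne_zero _ hg), ?_⟩
    calc g = g ^ (1 : ℤ) := (zpow_one g).symm
      _ = g ^ ((q : ℤ) * Nat.gcdA q n + (n : ℤ) * Nat.gcdB q n) := by rw [hb]
      _ = (g ^ q) ^ Nat.gcdA q n * (g ^ Nat.gcdB q n) ^ n := by
          rw [zpow_add₀ hg, zpow_mul, zpow_natCast, mul_comm (n : ℤ) (Nat.gcdB q n), zpow_mul,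
            zpow_natCast]
      _ = (algebraMap K F c * u ^ n) ^ Nat.gcdA q n * (g ^ Nat.gcdB q n) ^ n := by rw [h]
      _ = algebraMap K F (c ^ Nat.gcdA q n) * (u ^ Nat.gcdA q n * g ^ Nat.gcdB q n) ^ n := by
          rw [mul_zpow, map_zpow₀, mul_pow, ← zpow_natCast (u ^ Nat.gcdA q n) n, ← zpow_mul,
            mul_comm (Nat.gcdA q n) (n : ℤ), zpow_mul, zpow_natCast, mul_assoc]

end Descent

/-! ### [KUM-NEW] -/

section KumNew

variable (M q : ℕ) [NeZero M] [NeZero q]

/-- **[KUM-NEW], `∞` side**: for a prime `q ∣ M`, `gcd(q, n) = 1`: if `h` is a Kummer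
representative of `x ∈ J₀(M q)[n]` and `U_q x = 0`, then `N_β h = c · v ^ n` in `F_M`. -/
theorem normAlong_beta_eq_const_mul_pow (hq : q.Prime) (hqM : q ∣ M) {n : ℕ}
    (hqn : Nat.Coprime q n) {x : JZero (M * q)} {h : FN (M * q)} (H : IsKummerRep n x h)
    (hx : uJ (M * q) q x = 0) :
    ∃ (c : Kbar) (v : FN M), c ≠ 0 ∧ v ≠ 0 ∧
      normAlong (heckeBetaBar Kbar M q) h = algebraMap Kbar (FN M) c * v ^ n := by
  have H1 := Fermat.Agent.T2.helper48.IsKummerRep.uJ (M * q) q H
  rw [hx] at H1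
  obtain ⟨u, w, hu, hw, e⟩ := H1.exists_eq_mul_pow
  obtain ⟨c₀, rfl⟩ := Fermat.Agent.S18.helper19.const_of_ord_eq_zero (M * q) w hw.2
  rw [uKummer_eq_alpha_normAlong M q hq hqM] at e
  have hg0 : normAlong (heckeBetaBar Kbar M q) h ≠ 0 := by
    intro hg0
    rw [hg0, map_zero] at e
    exact mul_ne_zero hw.1 (pow_ne_zero n hu) e.symm
  have e2 := congrArg (normAlong (heckeAlphaBar Kbar M q)) e
  have e3 : algebraMap Kbar (FN (M * q)) c₀
      = heckeAlphaBar Kbar M q (algebraMap Kbar (FN M) c₀) := (AlgHom.commutes _ _).symm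
  rw [normAlong_alpha_alpha M q hq hqM, map_mul, map_pow, e3,
    normAlong_alpha_alpha M q hq hqM,
    (map_pow (algebraMap Kbar (FN M)) c₀ q).symm] at e2
  exact pow_descent hqn hg0 e2

/-- the same with the operator on functions: `uKummer h = c · u ^ n` ⟹ `N_β h = c' · v ^ n`. -/
theorem normAlong_beta_eq_const_mul_pow_of_uKummer (hq : q.Prime) (hqM : q ∣ M) {n : ℕ}
    (hqn : Nat.Coprime q n) {h u : FN (M * q)} (hh : h ≠ 0) {c₀ : Kbar}
    (e : uKummer (M * q) q h = algebraMap Kbar (FN (M * q)) c₀ * u ^ n) :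
    ∃ (c : Kbar) (v : FN M), c ≠ 0 ∧ v ≠ 0 ∧
      normAlong (heckeBetaBar Kbar M q) h = algebraMap Kbar (FN M) c * v ^ n := by
  rw [uKummer_eq_alpha_normAlong M q hq hqM] at e
  have hg0 : normAlong (heckeBetaBar Kbar M q) h ≠ 0 := by
    obtain ⟨-, -, hP, hfin, -, -⟩ := heckeInputs_transpose M q
    haveI := hP
    exact normAlong_ne_zero _ hfin hh
  have e2 := congrArg (normAlong (heckeAlphaBar Kbar M q)) e
  have e3 : algebraMap Kbar (FN (M * q)) c₀
      = heckeAlphaBar Kbar M q (algebraMap Kbar (FN M) c₀) := (AlgHom.commutes _ _).symm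
  rw [normAlong_alpha_alpha M q hq hqM, map_mul, map_pow, e3,
    normAlong_alpha_alpha M q hq hqM,
    (map_pow (algebraMap Kbar (FN M)) c₀ q).symm] at e2
  exact pow_descent hqn hg0 e2

end KumNew

section KumNewW

variable (N q : ℕ) [NeZero N] [NeZero q] (hq : q.Prime) (hqN : ¬ q ∣ N)

/-- **[KUM-NEW], `0` side**, level `N q q`, `q ∤ N`, `gcd(q, n) = 1`: if `h` is a Kummer
representative of `x ∈ J₀(N q²)[n]` and `U_q (W_{q²} x) = 0`, then `N_α h = c · v ^ n`. -/
theorem normAlong_alpha_eq_const_mul_pow {n : ℕ} (hqn : Nat.Coprime q n)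
    {x : JZero (N * q * q)} {h : FN (N * q * q)} (H : IsKummerRep n x h)
    (hx : uJ (N * q * q) q (atkinLehnerSq N q hq hqN • x) = 0) :
    ∃ (c : Kbar) (v : FN (N * q)), c ≠ 0 ∧ v ≠ 0 ∧
      normAlong (heckeAlphaBar Kbar (N * q) q) h = algebraMap Kbar (FN (N * q)) c * v ^ n := by
  have H2 := H.algEquiv_smul (atkinLehnerSq N q hq hqN)
  obtain ⟨c, v, hc, hv, e⟩ :=
    normAlong_beta_eq_const_mul_pow (N * q) q hq (Dvd.intro_left N rfl) hqn H2 hx
  rw [normAlong_beta_atkinLehnerSq] at e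
  refine ⟨c, T2.helper36.atkinLehner N q hq hqN v, hc, ?_, ?_⟩
  · simpa using hv
  · have e' := congrArg (T2.helper36.atkinLehner N q hq hqN) e
    rw [T2.helper36.atkinLehner_atkinLehner, map_mul, map_pow, AlgEquiv.commutes] at e'
    exact e'

/-- **[KUM-NEW]**, both sides: for `x ∈ J₀(N q²)[n]` killed by `U_q` and `U_q ∘ W_{q²}`, with
Kummer representative `h`: `N_β h` and `N_α h` are constants times `n`-th powers in `F_{Nq}`. -/
theorem kumNew {n : ℕ} (hqn : Nat.Coprime q n)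
    {x : JZero (N * q * q)} {h : FN (N * q * q)} (H : IsKummerRep n x h)
    (hx : uJ (N * q * q) q x = 0)
    (hxW : uJ (N * q * q) q (atkinLehnerSq N q hq hqN • x) = 0) :
    (∃ (c : Kbar) (v : FN (N * q)), c ≠ 0 ∧ v ≠ 0 ∧
      normAlong (heckeBetaBar Kbar (N * q) q) h = algebraMap Kbar (FN (N * q)) c * v ^ n) ∧
    (∃ (c : Kbar) (v : FN (N * q)), c ≠ 0 ∧ v ≠ 0 ∧
      normAlong (heckeAlphaBar Kbar (N * q) q) h = algebraMap Kbar (FN (N * q)) c * v ^ n) :=
  ⟨normAlong_beta_eq_const_mul_pow (N * q) q hq (Dvd.intro_left N rfl) hqn H hx,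
    normAlong_alpha_eq_const_mul_pow N q hq hqN hqn H hxW⟩

end KumNewW

end Fermat.Agent.T3.helper48

end
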