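import Fermat.Agent.T2.helper17_DictWFun
import Fermat.Agent.T2.helper36_AtkinLehnerExact

/-!
# Tier 3, [T3-W] (helper48, task 904), part 1: the generic dictionary for automorphisms of `F_M`
which permute the generators

Let `WF` be a `ℚ̄`-automorphism of the function field `F_M` of `X₀(M)` with
`WF (j_d) = j_{w d}` for a map `w` of the divisors of `M`, and let `W : ALData M Q` be an
Atkin–Lehner matrix (`Q` ANY exact divisor of `M`, e.g. `Q = q ^ 2`) realising the same
substitution analytically: `j_{w d}(τ) = j_d(W τ)`.  Then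

* `isEv_of_gen` : if `f` is the function of `h ∈ F_M` then `f ∘ W` is the function of `WF h`;
* `normDict_of_gen` : the same in the vocabulary of `helper48.anDictC`;
* `bridge_of_gen` : equivariance of the analytic Kummer map:
  `conC x = κC n ε → conC (WF • x) = κC n (Wst W ε)`.

This is `helper17.isEv_atkinLehner / normDictW / bridgeW` with the hypotheses `q` prime,
level `N * q` removed.  The exact-divisor instance is in `helper48_AtkinLehnerQ`.
-/

set_option autoImplicit false
set_option linter.unusedSectionVars false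
set_option linter.unusedVariables false
set_option linter.style.haveILetI false

open Filter Topology Set UpperHalfPlane ModularCurve AlgebraicCurve CongruenceSubgroup
open scoped MatrixGroups Manifold
open Fermat.Agent.S24 Fermat.Agent.S24.helper24 Fermat.Agent.P3.helper80
open Fermat.Agent.S16.helper26 Fermat.Agent.P3.helper34
open Fermat.Agent.T2.helper76 Fermat.Agent.T2.helper36 Fermat.Agent.T2.helper17

noncomputable section

namespace Fermat.Agent.T3.helper48

section Gen

variable {M Q : ℕ} [NeZero M]

/-- An automorphism permuting the generators acts on polynomials in the generators by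
renaming. -/
theorem algEquiv_aeval_genBar
    (WF : modularFunctionFieldBar M ≃ₐ[Kbar] modularFunctionFieldBar M)
    (w : M.divisors → M.divisors) (hgen : ∀ d, WF (genBar M d) = genBar M (w d))
    (P : MvPolynomial M.divisors Kbar) :
    WF (MvPolynomial.aeval (genBar M) P) =
      MvPolynomial.aeval (genBar M) (MvPolynomial.rename w P) := by
  have h1 := MvPolynomial.comp_aeval_apply (genBar M)
    ((WF : modularFunctionFieldBar M ≃ₐ[Kbar] modularFunctionFieldBar M) :
      modularFunctionFieldBar M →ₐ[Kbar] modularFunctionFieldBar M) P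
  rw [MvPolynomial.aeval_rename]
  exact h1.trans (congrArg (fun g => MvPolynomial.aeval g P) (funext fun d => hgen d))

/-- **Generic function dictionary**: if `f` is the function of `h ∈ F_M` on the upper half
plane, then `f ∘ W` is the function of `WF h`. -/
theorem isEv_of_gen
    (WF : modularFunctionFieldBar M ≃ₐ[Kbar] modularFunctionFieldBar M)
    (w : M.divisors → M.divisors) (hgen : ∀ d, WF (genBar M d) = genBar M (w d))
    (W : ALData M Q)
    (hω : ∀ (d : M.divisors) (τ : ℍ), jfunDT (w d).1 τ = jfunDT d.1 (W.mat • τ))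
    (h : modularFunctionFieldBar M) {f : ℂ → ℂ}
    (hf : IsEv (Fermat.Agent.S24.helper17.toC (h : LaurentSeries Kbar)) f) :
    IsEv (Fermat.Agent.S24.helper17.toC ((WF h : modularFunctionFieldBar M) :
        LaurentSeries Kbar))
      (fun z => f (moebG W.mat z)) := by
  obtain ⟨P, R, hR, hPR⟩ := exists_poly_repr_bar M h
  set P' : MvPolynomial M.divisors ℂ := MvPolynomial.map (iotaC : Kbar →+* ℂ) P with hP'
  set R' : MvPolynomial M.divisors ℂ := MvPolynomial.map (iotaC : Kbar →+* ℂ) R with hR'
  -- the series of `h`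
  have hRJ : MvPolynomial.aeval (genJ M) R ≠ 0 := by
    rw [← coe_aeval_genBar]
    exact fun h0 => hR (Subtype.ext h0)
  have e1 : Fermat.Agent.S24.helper17.toC (h : LaurentSeries Kbar) =
      MvPolynomial.aeval (genJC M) P' / MvPolynomial.aeval (genJC M) R' := by
    have : (h : LaurentSeries Kbar) =
        MvPolynomial.aeval (genJ M) P / MvPolynomial.aeval (genJ M) R := by
      rw [← coe_aeval_genBar, ← coe_aeval_genBar, hPR]
      rfl
    rw [this, map_div₀, toC_aeval_genJ, toC_aeval_genJ]
  have hRC : MvPolynomial.aeval (genJC M) R' ≠ 0 := by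
    rw [hR', ← toC_aeval_genJ]
    exact fun h0 => hRJ (Fermat.Agent.S24.helper17.toC_injective (by rw [h0, map_zero]))
  have H0 : IsEv (Fermat.Agent.S24.helper17.toC (h : LaurentSeries Kbar))
      (fun z => evPC0 M P' (ofComplex z) / evPC0 M R' (ofComplex z)) := by
    rw [e1]
    exact (isEv_of_isQExp (isQExp_evPC0 P')).div (isEv_of_isQExp (isQExp_evPC0 R')) hRC
  -- the series of `WF h`
  have hWR : MvPolynomial.aeval (genBar M) (MvPolynomial.rename w R) ≠ 0 := by
    rw [← algEquiv_aeval_genBar WF w hgen R]
    exact fun h0 => hR (WF.injective (by rw [h0, map_zero]))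
  have hWRJ : MvPolynomial.aeval (genJ M) (MvPolynomial.rename w R) ≠ 0 := by
    rw [← coe_aeval_genBar]
    exact fun h0 => hWR (Subtype.ext h0)
  have e2 : Fermat.Agent.S24.helper17.toC
      ((WF h : modularFunctionFieldBar M) : LaurentSeries Kbar) =
      MvPolynomial.aeval (genJC M) (MvPolynomial.rename w P') /
        MvPolynomial.aeval (genJC M) (MvPolynomial.rename w R') := by
    have : ((WF h : modularFunctionFieldBar M) : LaurentSeries Kbar) =
        MvPolynomial.aeval (genJ M) (MvPolynomial.rename w P) /
          MvPolynomial.aeval (genJ M) (MvPolynomial.rename w R) := by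
      rw [hPR, map_div₀, algEquiv_aeval_genBar WF w hgen, algEquiv_aeval_genBar WF w hgen,
        ← coe_aeval_genBar, ← coe_aeval_genBar]
      rfl
    rw [this, map_div₀, toC_aeval_genJ, toC_aeval_genJ, MvPolynomial.map_rename,
      MvPolynomial.map_rename]
  have hWRC : MvPolynomial.aeval (genJC M) (MvPolynomial.rename w R') ≠ 0 := by
    rw [hR', ← MvPolynomial.map_rename, ← toC_aeval_genJ]
    exact fun h0 => hWRJ (Fermat.Agent.S24.helper17.toC_injective (by rw [h0, map_zero]))
  have H1 : IsEv (Fermat.Agent.S24.helper17.toC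
      ((WF h : modularFunctionFieldBar M) : LaurentSeries Kbar))
      (fun z => evPC0 M (MvPolynomial.rename w P') (ofComplex z) /
        evPC0 M (MvPolynomial.rename w R') (ofComplex z)) := by
    rw [e2]
    exact (isEv_of_isQExp (isQExp_evPC0 _)).div (isEv_of_isQExp (isQExp_evPC0 _)) hWRC
  -- comparison of the functions
  refine H1.congr fun z hz => ?_
  have hz' : 0 < (moebG W.mat z).im := moebG_im_pos W.det_mat_pos hz
  have h3 := eventuallyEq_comp_moebG W.det_mat_pos hz (H0.unique hf hz')
  have hH : ∀ᶠ z' in 𝓝[≠] z, 0 < z'.im :=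
    mem_nhdsWithin_of_mem_nhds (UpperHalfPlane.isOpen_upperHalfPlaneSet.mem_nhds hz)
  filter_upwards [h3, hH] with z' hw hwH
  rw [← hw, ofComplex_moebG_mat W hwH, evPC0_rename_of_subst w hω,
    evPC0_rename_of_subst w hω]

open Fermat.Agent.P3.helper16 Fermat.Agent.P3.helper20 Fermat.Agent.P3.helper94
open Fermat.Agent.P3

/-- **The generic dictionary** in the vocabulary of the analytic dictionary of `F_ℂ`. -/
theorem normDict_of_gen
    (WF : modularFunctionFieldBar M ≃ₐ[Kbar] modularFunctionFieldBar M)
    (w : M.divisors → M.divisors) (hgen : ∀ d, WF (genBar M d) = genBar M (w d))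
    (W : ALData M Q)
    (hω : ∀ (d : M.divisors) (τ : ℍ), jfunDT (w d).1 τ = jfunDT d.1 (W.mat • τ))
    (h : modularFunctionFieldBar M) :
    EqH ((P3.helper48.anDictC M).ev (iotaFC M (WF h)))
      (normProd (systemW W) ((P3.helper48.anDictC M).ev (iotaFC M h))) := by
  rw [P3.helper48.anDictC_ev]
  have h1 : IsEv ((iotaFC M h : helper16.FC M) : LaurentSeries ℂ)
      (helper80.evC M (iotaFC M h)) :=
    P3.helper48.isEv_of_represents (helper80.represents_evC (N := M) (iotaFC M h))
  have h2 : IsEv ((iotaFC M (WF h) : helper16.FC M) : LaurentSeries ℂ)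
      (helper80.evC M (iotaFC M (WF h))) :=
    P3.helper48.isEv_of_represents (helper80.represents_evC (N := M) _)
  have h3 := isEv_of_gen WF w hgen W hω h (f := helper80.evC M (iotaFC M h)) h1
  have e : normProd (systemW W) (helper80.evC M (iotaFC M h)) =
      fun z => helper80.evC M (iotaFC M h) (moebG W.mat z) :=
    funext fun z => normProd_systemW W _ z
  rw [e]
  exact fun z hz => h2.unique h3 hz

/-- **The generic bridge**: equivariance of the analytic Kummer map for an automorphism `WF`
of `F_M` realised by the Atkin–Lehner matrix `W`, transported to `J₀(M)`. -/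
theorem bridge_of_gen
    (WF : modularFunctionFieldBar M ≃ₐ[Kbar] modularFunctionFieldBar M)
    (w : M.divisors → M.divisors) (hgen : ∀ d, WF (genBar M d) = genBar M (w d))
    (W : ALData M Q)
    (hω : ∀ (d : M.divisors) (τ : ℍ), jfunDT (w d).1 τ = jfunDT d.1 (W.mat • τ))
    (p : ℕ) (hp : 0 < p)
    (κC : ℕ → LatChar M →+ JC M)
    (hκ : ∀ (n : ℕ) (ε : LatChar M),
      IsMonData (P3.helper48.anDictC M) (p ^ n) (κC n ε) (latPsi M p n ε))
    (n : ℕ) (ε : LatChar M) (x : JZero M) (hx : conC M x = κC n ε) :
    conC M (WF • x) = κC n (Wst W ε) := by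
  have hm : 0 < p ^ n := pow_pos hp n
  have hx0 : p ^ n • x = 0 := by
    apply conC_injective M
    rw [map_nsmul, hx, (hκ n ε).nsmul_eq_zero, map_zero]
  obtain ⟨h, H⟩ := exists_isKummerRep hx0
  have HC : IsKummerRep (p ^ n) (conC M x) (iotaFC M h) :=
    isKummerRep_conC M _ _ _ H
  have hmon : IsMonData (P3.helper48.anDictC M) (p ^ n) (conC M x) (latPsi M p n ε) := by
    rw [hx]
    exact hκ n ε
  have hchar : IsKummerChar (CongruenceSubgroup.Gamma0 M) (p ^ n)
      ((P3.helper48.anDictC M).ev (iotaFC M h)) (latPsi M p n ε) :=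
    isKummerChar_of_isMonData hm hmon HC
  have HT : IsKummerRep (p ^ n) (WF • x) (WF h) := H.algEquiv_smul _
  have HCT : IsKummerRep (p ^ n) (conC M (WF • x)) (iotaFC M (WF h)) :=
    isKummerRep_conC M _ _ _ HT
  have hcharT : IsKummerChar (CongruenceSubgroup.Gamma0 M) (p ^ n)
      ((P3.helper48.anDictC M).ev (iotaFC M (WF h))) (latPsi M p n (Wst W ε)) := by
    have h1 := hchar.normProd (systemW W) (systemW_det_pos W)
    rw [latPsi_heckeChar_systemW W p n ε] at h1
    exact h1.congr (normDict_of_gen WF w hgen W hω h).symm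
  have hmonT : IsMonData (P3.helper48.anDictC M) (p ^ n) (conC M (WF • x))
      (latPsi M p n (Wst W ε)) :=
    isMonData_iff_exists_isKummerRep.mpr ⟨_, HCT, hcharT⟩
  exact hmonT.eq_of_eq hm (hκ n (Wst W ε))

end Gen

end Fermat.Agent.T3.helper48

end
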