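/-
TIER 3, [T3-TORIC] (helper49, task 924), part 3: [NORMRED] + [LIFT3] in abstract form
(Mathlib + helper49_TorAlg only).

`TorCalc.main` / `TorCalc.new` are statements about the functions `h` with reduction triple
EXACTLY `(1, 1, 1)` (the set `T03`).  This file reaches `T03` from a function `h` which is only
a unit at the three valuations, `Rho h X` with `X c ≠ 0`:

* `exists_rho_of_frac` ([LIFT3]) : every triple of elements of `Frac Bt` is the reduction triple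
  of a function (a quotient of two regular functions given by [REAL3]);
* `exists_root_triple` ([NORMRED]) : if `NA h` and `NB h` are constants times `n`-th powers,
  `gcd (n, q) = 1`, then `X ^ (q - 1) = y ^ n` with `y c ∈ Frac Bt`;
* `TorCalc.newX` : under these hypotheses `h ^ ((q - 1) * (q * (q² - 1))) = c * v ^ n`.
-/
import Mathlib
import Fermat.Agent.T3.helper49_TorAlg

set_option autoImplicit false
set_option linter.unusedSectionVars false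
set_option linter.unusedVariables false
set_option linter.style.longLine false
set_option linter.unusedSimpArgs false
set_option linter.unnecessarySimpa false

namespace Fermat.Agent.T3.helper49

namespace TorCalc

variable {F : Type*} {B : Type*} [Field F] [Field B] {n r : ℕ} (T : TorCalc F B n r)

/-- `z` is a quotient of two elements of `Bt` -/
def IsFrac (z : B) : Prop := ∃ a ∈ T.Bt, ∃ b ∈ T.Bt, b ≠ 0 ∧ z * b = a

variable {T}

theorem isFrac_iff {z : B} : T.IsFrac z ↔ z ∈ Subfield.closure (T.Bt : Set B) := by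
  constructor
  · rintro ⟨a, ha, b, hb, hb0, e⟩
    have : z = a / b := by
      rw [eq_div_iff hb0, e]
    rw [this]
    exact div_mem (Subfield.subset_closure ha) (Subfield.subset_closure hb)
  · intro hz
    obtain ⟨a, ha, b, hb, e⟩ := Subfield.mem_closure_iff.mp hz
    rw [Subring.closure_eq] at ha hb
    by_cases hb0 : b = 0
    · subst hb0
      rw [div_zero] at e
      exact ⟨0, T.Bt.zero_mem, 1, T.Bt.one_mem, one_ne_zero, by rw [← e, zero_mul]⟩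
    · exact ⟨a, ha, b, hb, hb0, by rw [← e, div_mul_cancel₀ _ hb0]⟩

theorem IsFrac.mul {z w : B} (hz : T.IsFrac z) (hw : T.IsFrac w) : T.IsFrac (z * w) := by
  rw [isFrac_iff] at *
  exact mul_mem hz hw

theorem IsFrac.inv {z : B} (hz : T.IsFrac z) : T.IsFrac z⁻¹ := by
  rw [isFrac_iff] at *
  exact inv_mem hz

theorem IsFrac.div {z w : B} (hz : T.IsFrac z) (hw : T.IsFrac w) : T.IsFrac (z / w) := by
  rw [isFrac_iff] at *
  exact div_mem hz hw

theorem IsFrac.pow {z : B} (hz : T.IsFrac z) (m : ℕ) : T.IsFrac (z ^ m) := by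
  rw [isFrac_iff] at *
  exact pow_mem hz m

theorem IsFrac.zpow {z : B} (hz : T.IsFrac z) (m : ℤ) : T.IsFrac (z ^ m) := by
  rw [isFrac_iff] at *
  exact zpow_mem hz m

/-- **[LIFT3]** every triple of elements of `Frac Bt` is a reduction triple. -/
theorem exists_rho_of_frac
    (rho_inv : ∀ f X, T.Rho f X → (∀ c, X c ≠ 0) → T.Rho f⁻¹ X⁻¹)
    {ν : B} (hν : ν ∈ T.J) (hν0 : ν ≠ 0) (y : Fin 3 → B) (hy : ∀ c, T.IsFrac (y c)) :
    ∃ g : F, T.Rho g y := by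
  choose a ha b hb hb0 e using hy
  obtain ⟨Ra, -, ρa⟩ := T.real (fun _ => ν) a (fun _ => hν) ha
  obtain ⟨Rb, -, ρb⟩ := T.real (fun _ => ν) b (fun _ => hν) hb
  have hne : ∀ c, (fun c => ν ^ (r + 1) * b c) c ≠ 0 := fun c =>
    mul_ne_zero (pow_ne_zero _ hν0) (hb0 c)
  have := T.rho_mul _ _ _ _ ρa (rho_inv _ _ ρb hne)
  refine ⟨Ra * Rb⁻¹, ?_⟩
  have e' : ((fun c => ν ^ (r + 1) * a c) * (fun c => ν ^ (r + 1) * b c)⁻¹) = y := by
    funext c
    simp only [Pi.mul_apply, Pi.inv_apply]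
    have h1 : ν ^ (r + 1) ≠ 0 := pow_ne_zero _ hν0
    rw [← e c]
    field_simp [hb0 c]
  rwa [e'] at this

/-- **[NORMRED]** -/
theorem exists_root_triple (hn : n ≠ 0) (hnq : Nat.Coprime n (r + 1))
    (cpow : ∀ c w X, T.Cst c → T.Rho (c * w ^ n) X → (∀ i, X i ≠ 0) →
      ∃ Y : Fin 3 → B, (∀ i, T.IsFrac (Y i)) ∧ X = Y ^ n)
    (frac : ∀ f X, T.Rho f X → ∀ c, T.IsFrac (X c))
    {h : F} {X : Fin 3 → B} (hh : T.Rho h X) (hX : ∀ c, X c ≠ 0)
    (hA : ∃ c w : F, T.Cst c ∧ T.NA h = c * w ^ n)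
    (hB : ∃ c w : F, T.Cst c ∧ T.NB h = c * w ^ n) :
    ∃ y : Fin 3 → B, (∀ c, T.IsFrac (y c)) ∧ X ^ r = y ^ n := by
  obtain ⟨c₁, w₁, hc₁, e₁⟩ := hA
  obtain ⟨c₂, w₂, hc₂, e₂⟩ := hB
  have ρA := T.NA_rho h X hh
  have ρB := T.NB_rho h X hh
  rw [e₁] at ρA
  rw [e₂] at ρB
  have hnA : ∀ i, naF r X i ≠ 0 := by
    intro i
    fin_cases i
    · simp only [naF, Fin.zero_eta, Matrix.cons_val_zero]
      exact mul_ne_zero (hX 0) (pow_ne_zero _ (hX 2))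
    · simp only [naF, Fin.mk_one, Matrix.cons_val_one, Matrix.cons_val_zero, Matrix.head_cons]
      exact pow_ne_zero _ (hX 1)
    · simp only [naF, Fin.reduceFinMk, Matrix.cons_val_two, Matrix.cons_val_one,
        Matrix.cons_val_zero, Matrix.head_cons, Matrix.tail_cons]
      exact mul_ne_zero (hX 0) (pow_ne_zero _ (hX 2))
  have hnB : ∀ i, nbF r X i ≠ 0 := by
    intro i
    fin_cases i
    · simp only [nbF, Fin.zero_eta, Matrix.cons_val_zero]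
      exact pow_ne_zero _ (hX 0)
    · simp only [nbF, Fin.mk_one, Matrix.cons_val_one, Matrix.cons_val_zero, Matrix.head_cons]
      exact mul_ne_zero (hX 1) (pow_ne_zero _ (hX 2))
    · simp only [nbF, Fin.reduceFinMk, Matrix.cons_val_two, Matrix.cons_val_one,
        Matrix.cons_val_zero, Matrix.head_cons, Matrix.tail_cons]
      exact mul_ne_zero (hX 1) (pow_ne_zero _ (hX 2))
  obtain ⟨YA, fA, eA⟩ := cpow _ _ _ hc₁ ρA hnA
  obtain ⟨YB, fB, eB⟩ := cpow _ _ _ hc₂ ρB hnB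
  -- the three equations
  have eA0 : X 0 * X 2 ^ r = YA 0 ^ n := by
    have := congrFun eA 0
    simpa [naF] using this
  have eA1 : X 1 ^ (r + 1) = YA 1 ^ n := by
    have := congrFun eA 1
    simpa [naF] using this
  have eB0 : X 0 ^ (r + 1) = YB 0 ^ n := by
    have := congrFun eB 0
    simpa [nbF] using this
  -- Bezout
  have hco : IsCoprime (n : ℤ) ((r + 1 : ℕ) : ℤ) := Nat.isCoprime_iff_coprime.mpr hnq
  obtain ⟨a, b, hab⟩ := hco
  have key : ∀ x Y : B, x ≠ 0 → x ^ (r + 1) = Y ^ n → (x ^ a * Y ^ b) ^ n = x := by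
    intro x Y hx e
    have h1 : (x ^ a) ^ n = x ^ (a * (n : ℤ)) := by
      rw [← zpow_natCast (x ^ a) n, ← zpow_mul]
    have h2 : (Y ^ b) ^ n = x ^ (b * ((r + 1 : ℕ) : ℤ)) := by
      rw [← zpow_natCast (Y ^ b) n, ← zpow_mul, mul_comm b (n : ℤ), zpow_mul, zpow_natCast, ← e,
        ← zpow_natCast x (r + 1), ← zpow_mul, mul_comm]
    rw [mul_pow, h1, h2, ← zpow_add₀ hx, hab, zpow_one]
  obtain ⟨y0, k0, f0⟩ : ∃ y0 : B, y0 ^ n = X 0 ∧ T.IsFrac y0 :=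
    ⟨_, key (X 0) (YB 0) (hX 0) eB0, ((frac _ _ hh 0).zpow a).mul ((fB 0).zpow b)⟩
  obtain ⟨y1, k1, f1⟩ : ∃ y1 : B, y1 ^ n = X 1 ∧ T.IsFrac y1 :=
    ⟨_, key (X 1) (YA 1) (hX 1) eA1, ((frac _ _ hh 1).zpow a).mul ((fA 1).zpow b)⟩
  have y00 : y0 ≠ 0 := by
    intro h0
    rw [h0, zero_pow hn] at k0
    exact hX 0 k0.symm
  refine ⟨![y0 ^ r, y1 ^ r, YA 0 / y0], ?_, ?_⟩
  · intro c
    fin_cases c
    · exact f0.pow r
    · exact f1.pow r
    · exact (fA 0).div f0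
  · funext c
    fin_cases c
    · show X 0 ^ r = (y0 ^ r) ^ n
      rw [← pow_mul, mul_comm, pow_mul, k0]
    · show X 1 ^ r = (y1 ^ r) ^ n
      rw [← pow_mul, mul_comm, pow_mul, k1]
    · show X 2 ^ r = (YA 0 / y0) ^ n
      rw [div_pow, k0, ← eA0]
      field_simp [hX 0]

/-- the passage to `T03`: `h' = h ^ (q - 1) / g ^ n` has reduction triple `(1, 1, 1)` -/
theorem exists_T03 (hn : n ≠ 0) (hnq : Nat.Coprime n (r + 1))
    (rho_inv : ∀ f X, T.Rho f X → (∀ c, X c ≠ 0) → T.Rho f⁻¹ X⁻¹)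
    {ν : B} (hν : ν ∈ T.J) (hν0 : ν ≠ 0)
    (cpow : ∀ c w X, T.Cst c → T.Rho (c * w ^ n) X → (∀ i, X i ≠ 0) →
      ∃ Y : Fin 3 → B, (∀ i, T.IsFrac (Y i)) ∧ X = Y ^ n)
    (frac : ∀ f X, T.Rho f X → ∀ c, T.IsFrac (X c))
    {h : F} {X : Fin 3 → B} (hh : T.Rho h X) (hX : ∀ c, X c ≠ 0)
    (hA : ∃ c w : F, T.Cst c ∧ T.NA h = c * w ^ n)
    (hB : ∃ c w : F, T.Cst c ∧ T.NB h = c * w ^ n) :
    ∃ g : F, g ≠ 0 ∧ T.Rho (h ^ r * (g ^ n)⁻¹) 1 := by
  obtain ⟨y, fy, ey⟩ := exists_root_triple hn hnq cpow frac hh hX hA hB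
  obtain ⟨g, ρg⟩ := exists_rho_of_frac rho_inv hν hν0 y fy
  have hyn : ∀ c, (y ^ n) c ≠ 0 := by
    intro c
    rw [← ey]
    exact pow_ne_zero _ (hX c)
  have ρ1 := T.rho_mul _ _ _ _ (rho_pow hh r) (rho_inv _ _ (rho_pow ρg n) hyn)
  have e1 : X ^ r * (y ^ n)⁻¹ = 1 := by
    funext c
    have := hyn c
    rw [← ey] at this ⊢
    simp only [Pi.mul_apply, Pi.inv_apply, Pi.one_apply]
    exact mul_inv_cancel₀ this
  rw [e1] at ρ1
  refine ⟨g, ?_, ρ1⟩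
  rintro rfl
  have h0 := T.ne_zero_of_rho_one _ ρ1
  rw [zero_pow hn, inv_zero, mul_zero] at h0
  exact h0 rfl

/-- **[T3-TORIC] for units at the three valuations.**  `h` a unit at the three valuations
(`Rho h X`, `X c ≠ 0`), `n ∣ div h`, `NA h` and `NB h` constants times `n`-th powers,
`gcd (n, q) = 1`:  then `h ^ ((q - 1) * (q * (q² - 1)))` is a constant times an `n`-th power. -/
theorem newX [Fact (r + 1).Prime] [CharP B (r + 1)] (hn : n ≠ 0) (hnq : Nat.Coprime n (r + 1))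
    (rho_inv : ∀ f X, T.Rho f X → (∀ c, X c ≠ 0) → T.Rho f⁻¹ X⁻¹)
    {ν : B} (hν : ν ∈ T.J) (hν0 : ν ≠ 0)
    (cpow : ∀ c w X, T.Cst c → T.Rho (c * w ^ n) X → (∀ i, X i ≠ 0) →
      ∃ Y : Fin 3 → B, (∀ i, T.IsFrac (Y i)) ∧ X = Y ^ n)
    (frac : ∀ f X, T.Rho f X → ∀ c, T.IsFrac (X c))
    (ideal3 : ∀ u, T.Rho u 1 → T.Dv u → T.HasGenerator u ∧ T.HasPartition u)
    {h : F} {X : Fin 3 → B} (hh : T.Rho h X) (hX : ∀ c, X c ≠ 0) (hdv : T.Dv h)
    (hA : ∃ c w : F, T.Cst c ∧ T.NA h = c * w ^ n)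
    (hB : ∃ c w : F, T.Cst c ∧ T.NB h = c * w ^ n) :
    ∃ c v : F, T.Cst c ∧ h ^ (r * ((r + 1) * (r * (r + 2)))) = c * v ^ n := by
  obtain ⟨g, hg0, ρ1⟩ := exists_T03 hn hnq rho_inv hν hν0 cpow frac hh hX hA hB
  have hdv' : T.Dv (h ^ r * (g ^ n)⁻¹) :=
    T.dv_mul _ _ (dv_npow hdv r) (T.dv_inv _ (T.dv_pow g))
  have hgn : g ^ n ≠ 0 := pow_ne_zero n hg0
  -- the norms of `h'`
  have hA' : ∃ c w : F, T.Cst c ∧ T.NA (h ^ r * (g ^ n)⁻¹) = c * w ^ n := by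
    obtain ⟨c₁, w₁, hc₁, e₁⟩ := hA
    refine ⟨c₁ ^ r, w₁ ^ r * (T.NA g)⁻¹, cst_pow hc₁ r, ?_⟩
    rw [map_mul, map_pow, map_inv₀, map_pow, e₁, mul_pow, mul_pow, inv_pow, ← pow_mul, ← pow_mul,
      mul_comm n r]
    ring
  have hB' : ∃ c w : F, T.Cst c ∧ T.NB (h ^ r * (g ^ n)⁻¹) = c * w ^ n := by
    obtain ⟨c₂, w₂, hc₂, e₂⟩ := hB
    refine ⟨c₂ ^ r, w₂ ^ r * (T.NB g)⁻¹, cst_pow hc₂ r, ?_⟩
    rw [map_mul, map_pow, map_inv₀, map_pow, e₂, mul_pow, mul_pow, inv_pow, ← pow_mul, ← pow_mul,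
      mul_comm n r]
    ring
  obtain ⟨c, v, hc, e⟩ := new hn ρ1 hdv' (ideal3 _ ρ1 hdv').1
    (ideal3 _ (rho_U_one ρ1) (dv_U hdv')).2 hA' hB'
  refine ⟨c, v * g ^ ((r + 1) * (r * (r + 2))), hc, ?_⟩
  have key : ∀ (E : ℕ) (x G V : F), G ≠ 0 → (x ^ r * (G ^ n)⁻¹) ^ E = c * V ^ n →
      x ^ (r * E) = c * (V * G ^ E) ^ n := by
    intro E x G V hG e
    rw [mul_pow, inv_pow, ← pow_mul x r E, ← pow_mul G n E] at e
    rw [mul_pow, ← pow_mul G E n, mul_comm E n]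
    have : G ^ (n * E) ≠ 0 := pow_ne_zero _ hG
    generalize G ^ (n * E) = Gn at e this ⊢
    generalize V ^ n = Vn at e ⊢
    field_simp at e
    linear_combination e
  exact key _ _ _ _ hg0 e

end TorCalc

end Fermat.Agent.T3.helper49
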