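import Mathlib
import Fermat.Agent.T3.helper95_BtDed
import Fermat.Agent.T3.helper98_NormRegJ
import Fermat.Agent.T3.helper49_TorInst
import Fermat.Agent.T3.helper96_SurjAll

/-!
# Tier 3, [T3-SURJ-ALL] (helper95), wiring at level `N q q`

Decision [G5] of the architect: `Reg = regJRing (N q q)` (regular where `j` is finite) and
`Bt = BtAll N A` (regular where `j̄` is finite).

* `btAllRing N A` : `BtAll N A` as a subring (the shape of the field `Bt` of `helper49.TorBase`),
  `isDedekindDomain_btAllRing` (= field `hded` of `helper22.Ideal3Box`).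
* `SurjAllStatement N A` : **[SURJ-ALL] at level `N`**: every function of the special fibre
  which is regular where `j̄` is finite has an integral inertia-fixed lift which is regular where
  `j` is finite.
* `surj3_all` : **[SURJ3-ALL]** = the field `hsurj` of `helper22.Ideal3Box` / the hypothesis
  `surj` of `helper16.real3`, from `SurjAllStatement N A`: for `z ∈ BtAll N A` and each cusp `c`
  there is `S ∈ regJRing (N q q)` and `X` with `helper49.Rho3 S X`, `X c = z`
  (`S = f(τ)` for `c = 0, 2`, `S = f(q² τ)` for `c = 1`).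
* `surj3_all_table` : the same with the full reduction triples.
* `pb3_all` : the pull-back by `τ ↦ q τ`: `helper49.Rho3 (dg1 f) (fun _ => Fr z)`.
* `surj3_rho3` : the unconditional version for `z ∈ Bt A N` at good levels (`S` is moreover in
  `helper87.IsReg3`).
* `surjAllStatement_of_fam` : **the instance**: `SurjAllStatement N A` from the generic theorem
  `helper96.surjAll_fam` for a family of expansions `(E i, Eb i, P i, Q i, d i)` of
  `FF N` / `FFb A N` at ALL cusps (CUSP-N) containing the expansion at `∞` as the index `i₀`.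
-/

set_option autoImplicit false
set_option synthInstance.maxHeartbeats 400000
set_option maxHeartbeats 1000000
set_option linter.style.haveILetI false
set_option linter.unusedSectionVars false
set_option linter.unusedVariables false
set_option linter.style.longLine false

noncomputable section

open HahnSeries IntermediateField ModularCurve AlgebraicCurve
open Fermat.Agent.S18.helper19 Fermat.Agent.P2.helper29 Fermat.Agent.T2.helper36

namespace Fermat.Agent.T3.helper95

open Fermat.Agent.T3.helper74 (CoeffFix ex3 IsFixI dg0 dg1 dg2 isFixI_of_coeffFix)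
open Fermat.Agent.T3.helper98 (IsRegJ regJRing mem_regJRing)
open Fermat.Agent.T3.helper72 (Red3)
open Fermat.Agent.T2.helper22 (Bt mem_Bt)

/-! ### `BtAll` as a subring -/

section Ring

variable (N : ℕ) [NeZero N] (A : ValuationSubring Kb)

/-- `BtAll N A` as a subring of `k((t))` (the shape of `helper49.TorBase.Bt`). -/
def btAllRing : Subring (LaurentSeries (kA A)) := (BtAll N A).toSubring

variable {N A}

theorem mem_btAllRing {y : LaurentSeries (kA A)} : y ∈ btAllRing N A ↔ y ∈ BtAll N A := Iff.rfl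

variable (N A)

/-- **`hded`** : `btAllRing` is a Dedekind domain. -/
theorem isDedekindDomain_btAllRing : IsDedekindDomain (btAllRing N A) :=
  isDedekindDomain_BtAll N A

/-- `Bt A N` as a subring is a Dedekind domain. -/
theorem isDedekindDomain_BtRing : IsDedekindDomain (Bt A N).toSubring :=
  isDedekindDomain_Bt N A

end Ring

/-! ### The level-`N` statement -/

/-- **[SURJ-ALL] at level `N`**: every function of the special fibre which is regular where `j̄`
is finite is the reduction of an `A`-integral series with inertia-fixed coefficients which is the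
expansion of a function of level `N` regular where `j` is finite. -/
def SurjAllStatement (N : ℕ) [NeZero N] (A : ValuationSubring Kb) : Prop :=
  ∀ y ∈ BtAll N A, ∃ (Y : LaurentSeries A) (hY : incl A Y ∈ FF N),
    IsRegJ N (⟨incl A Y, hY⟩ : FF N) ∧ CoeffFix A Y ∧ red A Y = y

/-! ### Level `N q q` -/

section Surj

variable {N q : ℕ} [NeZero N] [NeZero q] {hq : q.Prime} {hqN : ¬ q ∣ N}
variable {A : ValuationSubring Kb}

/-- the Gauss reduction (quotient form) of a function with an integral expansion -/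
theorem red3_of_incl {ζ : Kb} (hζ : IsPrimitiveRoot ζ q) (i : Fin 3) {F : FF (N * q * q)}
    {Y : LaurentSeries A} (hY : incl A Y = ex3 N q hq hqN hζ i F) :
    Red3 N q hq hqN A hζ i F (red A Y) :=
  ⟨Y, 1, by rw [map_one]; exact one_ne_zero, by rw [map_one, mul_one, hY],
    by rw [map_one, mul_one]⟩

/-- `helper49.Rho3` from an integral triple -/
theorem rho3_of_triple {ζ : Kb} (hζ : IsPrimitiveRoot ζ q) {F : FF (N * q * q)}
    (hF : IsFixI A (N * q * q) F) {Y' : Fin 3 → LaurentSeries A}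
    (hY' : ∀ i, incl A (Y' i) = ex3 N q hq hqN hζ i F) :
    Fermat.Agent.T3.helper49.Rho3 N q hq hqN A hζ F (fun i => red A (Y' i)) :=
  ⟨hF, fun i => red3_of_incl hζ i (hY' i)⟩

/-- `f(τ)` is regular where `j` is finite -/
theorem isRegJ_dg0 {f : FF N} (hf : IsRegJ N f) : IsRegJ (N * q * q) (dg0 N q f) :=
  Fermat.Agent.T3.helper98.isRegJ_alpha_alpha hf

/-- `f(q² τ)` is regular where `j` is finite -/
theorem isRegJ_dg2 (hq : q.Prime) (hqN : ¬ q ∣ N) {f : FF N} (hf : IsRegJ N f) :
    IsRegJ (N * q * q) (dg2 N q f) := by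
  have h := Fermat.Agent.T3.helper98.isRegJ_atkinLehnerSq (hq := hq) (hqN := hqN)
    (isRegJ_dg0 (q := q) hf)
  rwa [Fermat.Agent.T3.helper74.atkinLehnerSq_dg0] at h

/-- `f(q τ)` is regular where `j` is finite -/
theorem isRegJ_dg1 (hq : q.Prime) (hqN : ¬ q ∣ N) {f : FF N} (hf : IsRegJ N f) :
    IsRegJ (N * q * q) (dg1 N q f) := by
  have h1 : IsRegJ (N * q) (heckeBetaBar Kb N q f) := by
    have h := Fermat.Agent.T3.helper98.isRegJ_atkinLehner (hq := hq) (hqN := hqN)
      (Fermat.Agent.T3.helper98.isRegJ_alpha (q := q) hf)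
    rwa [atkinLehner_heckeAlphaBar] at h
  exact Fermat.Agent.T3.helper98.isRegJ_alpha h1

/-- **[SURJ3-ALL] with the table**, cusps `∞` and `1/q`: `S = f(τ)`, reductions
`(z, Fr² z, z)`. -/
theorem surj3_all_zero (hAll : SurjAllStatement N A) {ζ : Kb} (hζ : IsPrimitiveRoot ζ q)
    {z : LaurentSeries (kA A)} (hz : z ∈ BtAll N A) :
    ∃ S ∈ regJRing (N * q * q), Fermat.Agent.T3.helper49.Rho3 N q hq hqN A hζ S
      ![z, qExpand (kA A) q (qExpand (kA A) q z), z] := by
  obtain ⟨Y, hY, hreg, hfix, hr⟩ := hAll z hz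
  set f : FF N := ⟨incl A Y, hY⟩ with hf
  have hfI : IsFixI A N f := isFixI_of_coeffFix A N hY hfix
  obtain ⟨Y', hY', h0, h1, h2⟩ :=
    Fermat.Agent.T3.helper98.red3_dg0 (hq := hq) (hqN := hqN) A hζ f Y rfl
  refine ⟨dg0 N q f, mem_regJRing.mpr (isRegJ_dg0 hreg), ?_⟩
  have h := rho3_of_triple hζ (Fermat.Agent.T3.helper98.isFixI_dg0 A hfI) hY'
  have e : (fun i => red A (Y' i)) = ![z, qExpand (kA A) q (qExpand (kA A) q z), z] := by
    funext i
    fin_cases i
    · show red A (Y' 0) = z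
      rw [h0, hr]
    · show red A (Y' 1) = _
      rw [h1, hr]
      rfl
    · show red A (Y' 2) = z
      rw [h2, hr]
  rwa [e] at h

/-- **[SURJ3-ALL] with the table**, cusps `0` and `1/q`: `S = f(q² τ)`, reductions
`(Fr² z, z, z)`. -/
theorem surj3_all_one (hAll : SurjAllStatement N A) (hA : A.LiesOverPrime q) {ζ : Kb}
    (hζ : IsPrimitiveRoot ζ q) {z : LaurentSeries (kA A)} (hz : z ∈ BtAll N A) :
    ∃ S ∈ regJRing (N * q * q), Fermat.Agent.T3.helper49.Rho3 N q hq hqN A hζ S
      ![qExpand (kA A) q (qExpand (kA A) q z), z, z] := by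
  obtain ⟨Y, hY, hreg, hfix, hr⟩ := hAll z hz
  set f : FF N := ⟨incl A Y, hY⟩ with hf
  have hfI : IsFixI A N f := isFixI_of_coeffFix A N hY hfix
  obtain ⟨Y', hY', h0, h1, h2⟩ :=
    Fermat.Agent.T3.helper98.red3_dg2 (hq := hq) (hqN := hqN) A hA hζ f Y rfl
  refine ⟨dg2 N q f, mem_regJRing.mpr (isRegJ_dg2 hq hqN hreg), ?_⟩
  have h := rho3_of_triple hζ (Fermat.Agent.T3.helper98.isFixI_dg2 A hfI) hY'
  have e : (fun i => red A (Y' i)) = ![qExpand (kA A) q (qExpand (kA A) q z), z, z] := by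
    funext i
    fin_cases i
    · show red A (Y' 0) = _
      rw [h0, hr]
      rfl
    · show red A (Y' 1) = z
      rw [h1, hr]
    · show red A (Y' 2) = z
      rw [h2, hr]
  rwa [e] at h

/-- **[PB3-ALL]** the pull-back by `τ ↦ q τ`: reductions `(Fr z, Fr z, Fr z)`. -/
theorem pb3_all (hAll : SurjAllStatement N A) {ζ : Kb} (hζ : IsPrimitiveRoot ζ q)
    {z : LaurentSeries (kA A)} (hz : z ∈ BtAll N A) :
    ∃ S ∈ regJRing (N * q * q), Fermat.Agent.T3.helper49.Rho3 N q hq hqN A hζ S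
      (fun _ => qExpand (kA A) q z) := by
  obtain ⟨Y, hY, hreg, hfix, hr⟩ := hAll z hz
  set f : FF N := ⟨incl A Y, hY⟩ with hf
  have hfI : IsFixI A N f := isFixI_of_coeffFix A N hY hfix
  obtain ⟨Y', hY', h0⟩ :=
    Fermat.Agent.T3.helper98.red3_dg1 (hq := hq) (hqN := hqN) A hζ f Y rfl
  refine ⟨dg1 N q f, mem_regJRing.mpr (isRegJ_dg1 hq hqN hreg), ?_⟩
  have h := rho3_of_triple hζ (Fermat.Agent.T3.helper98.isFixI_dg1 A hfI) hY'
  have e : (fun i => red A (Y' i)) = fun _ : Fin 3 => qExpand (kA A) q z := by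
    funext i
    rw [h0 i, hr]
  rwa [e] at h

/-- **[SURJ3-ALL]** = the field `hsurj` of `helper22.Ideal3Box` and the hypothesis `surj` of
`helper16.real3` for `Reg = regJRing (N q q)`, `Bt = btAllRing N A`. -/
theorem surj3_all (hAll : SurjAllStatement N A) (hA : A.LiesOverPrime q) {ζ : Kb}
    (hζ : IsPrimitiveRoot ζ q) :
    ∀ c : Fin 3, ∀ z ∈ btAllRing N A, ∃ S ∈ regJRing (N * q * q),
      ∃ X : Fin 3 → LaurentSeries (kA A),
        Fermat.Agent.T3.helper49.Rho3 N q hq hqN A hζ S X ∧ X c = z := by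
  intro c z hz
  rcases Fermat.Agent.T3.helper74.fin3_cases c with rfl | rfl | rfl
  · obtain ⟨S, hS, h⟩ := surj3_all_zero (hq := hq) (hqN := hqN) hAll hζ hz
    exact ⟨S, hS, _, h, rfl⟩
  · obtain ⟨S, hS, h⟩ := surj3_all_one (hq := hq) (hqN := hqN) hAll hA hζ hz
    exact ⟨S, hS, _, h, rfl⟩
  · obtain ⟨S, hS, h⟩ := surj3_all_zero (hq := hq) (hqN := hqN) hAll hζ hz
    exact ⟨S, hS, _, h, rfl⟩

/-- the unconditional version for `Bt A N` (regular off `∞̃` only), from `SurjRed`. -/
theorem surj3_rho3 (hA : A.LiesOverPrime q) (hS : SurjRedStatement N A) {ζ : Kb}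
    (hζ : IsPrimitiveRoot ζ q) :
    ∀ c : Fin 3, ∀ z ∈ Bt A N, ∃ S ∈ regJRing (N * q * q),
      ∃ X : Fin 3 → LaurentSeries (kA A),
        Fermat.Agent.T3.helper49.Rho3 N q hq hqN A hζ S X ∧ X c = z := by
  intro c z hz
  obtain ⟨F, Y', h1, h2, h3, h4⟩ := surj3 (hq := hq) (hqN := hqN) hA hS hζ c hz
  refine ⟨F, mem_regJRing.mpr (fun P hP =>
    Fermat.Agent.T3.helper87.IsReg3.ord_nonneg_of_jElt h1 P hP), fun i => red A (Y' i),
    rho3_of_triple hζ h2 h3, h4⟩

end Surj

/-! ### The instance of the level-`N` statement -/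

section Inst

variable {N : ℕ} [NeZero N] {A : ValuationSubring Kb}
variable {ι : Type*} [Fintype ι] [Nonempty ι]
variable {E : ι → FF N →ₐ[Kb] LaurentSeries Kb}
  {Eb : ι → FFb A N →ₐ[kA A] LaurentSeries (kA A)}
variable {P : ι → Place Kb (FF N)} {Q : ι → Place (kA A) (FFb A N)}

/-- **[SURJ-ALL] at level `N`** from the generic family theorem `helper96.surjAll_fam`: the
hypotheses are those of `surjAll_fam` (verbatim), plus: `G` contains the inertia group, the index
`i₀` is the expansion at `∞` on both fibres, `j` has a pole at every `P i` and every pole of `j̄`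
is some `Q i`. -/
theorem surjAllStatement_of_fam
    (hS : Fermat.Agent.P2.helper74.RiemannSetting Kb (FF N))
    (hSb : Fermat.Agent.P2.helper74.RiemannSetting (kA A) (FFb A N)) {g : ℕ}
    (hg : Fermat.Agent.P2.helper74.HasRiemannGenus Kb (FF N) g)
    (hgb : Fermat.Agent.P2.helper74.HasRiemannGenus (kA A) (FFb A N) g)
    (d : ι → ℕ) (hd : ∀ i, 0 < d i)
    (hord : ∀ i (f : FF N), f ≠ 0 → (E i f).order = (d i : ℤ) * (P i).ord f)
    (hordb : ∀ i (f : FFb A N), f ≠ 0 → (Eb i f).order = (d i : ℤ) * (Q i).ord f)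
    (hPQ : ∀ i i', P i = P i' ↔ Q i = Q i')
    (hK : Fermat.Agent.T3.helper96.KeyFam A E Eb P Q)
    (G : Set (Kb ≃ₐ[ℚ] Kb)) (gal : (Kb ≃ₐ[ℚ] Kb) → FF N → FF N)
    (hgal : ∀ σ ∈ G, ∀ i (f : FF N),
      E i (gal σ f) = coeffMap ((σ : Kb ≃ₐ[ℚ] Kb) : Kb →+* Kb) (E i f))
    (hreg : ∀ σ ∈ G, ∀ f : FF N, (∀ v : Place Kb (FF N), (∀ i, v ≠ P i) → 0 ≤ v.ord f) →
      ∀ v : Place Kb (FF N), (∀ i, v ≠ P i) → 0 ≤ v.ord (gal σ f))
    (hres : ∀ c : kA A, ∃ b : A, IsLocalRing.residue A b = c ∧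
      ∀ σ ∈ G, σ ((b : A) : Kb) = ((b : A) : Kb))
    (hG : ∀ σ ∈ A.inertiaSubgroupIn ℚ, σ ∈ G)
    (i₀ : ι) (hE₀ : ∀ f : FF N, E i₀ f = (f : LaurentSeries Kb))
    (hEb₀ : ∀ f : FFb A N, Eb i₀ f = (f : LaurentSeries (kA A)))
    (hPj : ∀ i, (P i).ord (jElt N) < 0)
    (hQj : ∀ w : Place (kA A) (FFb A N), w.ord (jBar A N) < 0 → ∃ i, w = Q i) :
    SurjAllStatement N A := by
  intro y hy
  obtain ⟨hy', hyreg⟩ := mem_BtAll.mp hy
  obtain ⟨x, X, hx, -, h2, h3, h4⟩ := Fermat.Agent.T3.helper96.surjAll_fam hS hSb hg hgb d hd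
    hord hordb hPQ hK G gal hgal hreg hres (⟨y, hy'⟩ : FFb A N) (fun w hw => by
      apply hyreg w
      by_contra hneg
      obtain ⟨i, hi⟩ := hQj w (not_le.mp hneg)
      exact hw i hi)
  have hX : incl A (X i₀) = (x : LaurentSeries Kb) := by rw [← h2 i₀, hE₀]
  have hmem : incl A (X i₀) ∈ FF N := by
    rw [hX]
    exact x.2
  have hxe : (⟨incl A (X i₀), hmem⟩ : FF N) = x := Subtype.ext hX
  refine ⟨X i₀, hmem, ?_, fun σ hσ k => h4 σ (hG σ hσ) i₀ k, ?_⟩
  · rw [hxe]
    intro v hv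
    apply hx v
    intro i hi
    have := hPj i
    rw [← hi] at this
    omega
  · rw [h3 i₀, hEb₀]

end Inst

end Fermat.Agent.T3.helper95

end
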