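/-
TIER 3, [T3-TORIC] (helper49, task 924), part 7: **[PB3]** at the concrete base of helper72.

* `surjAll_of_level`   : `helper95.SurjAllStatement N A` (level `N`, `CoeffFix` form) gives
                         `helper49.SurjAllStatement N A (helper72.btAll N A)`;
* `pb3Statement_of_surjAll` : **[PB3]** `helper72.Pb3Statement N q hq hqN A hζ` (VERBATIM) from
                         `helper95.SurjAllStatement N A`: the pull back by `τ ↦ q τ` of the lift of
                         `z`, twisted by a Frobenius element of `Gal(ℚ̄/ℚ)` at `A`, has the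
                         reduction triple `(z ^ q, z ^ q, z ^ q)`;
* `surjAllStatement72_of_surjAll` : `helper72.SurjAllStatement` from the same hypothesis
                         (second proof of `helper95.surj3_all`).
-/
import Mathlib
import Fermat.Agent.T3.helper49_TorBox
import Fermat.Agent.T3.helper95_SurjAll
import Fermat.Agent.T3.helper72_TorAll

set_option autoImplicit false
set_option synthInstance.maxHeartbeats 400000
set_option linter.unusedSectionVars false
set_option linter.unusedVariables false
set_option linter.style.longLine false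
set_option linter.style.haveILetI false

noncomputable section

open HahnSeries IntermediateField AlgebraicCurve ModularCurve
open Fermat.Agent.S18.helper19 Fermat.Agent.P2.helper29 Fermat.Agent.T2.helper36

namespace Fermat.Agent.T3.helper49

open Fermat.Agent.T3.helper74 (IsFixI isFixI_of_coeffFix)
open Fermat.Agent.T3.helper98 (IsRegJ regJRing)

section Pb

variable {N q : ℕ} [NeZero N] [NeZero q] {hq : q.Prime} {hqN : ¬ q ∣ N}
  {A : ValuationSubring Kb} {ζ : Kb} {hζ : IsPrimitiveRoot ζ q}

/-- the level-`N` statement of helper95 in the consumer form of `helper49_TorBox` -/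
theorem surjAll_of_level (h : Fermat.Agent.T3.helper95.SurjAllStatement N A) :
    SurjAllStatement N A (Fermat.Agent.T3.helper72.btAll N A) := by
  intro z hz
  obtain ⟨Y, hY, hreg, hfix, hr⟩ := h z hz
  exact ⟨⟨incl A Y, hY⟩, Y, hreg, isFixI_of_coeffFix A N hY hfix, rfl, hr⟩

/-- **[PB3]** at the concrete base (VERBATIM box of `helper72_TorAll`). -/
theorem pb3Statement_of_surjAll (hq : q.Prime) (hqN : ¬ q ∣ N) (hA : A.LiesOverPrime q)
    (hζ : IsPrimitiveRoot ζ q) (h : Fermat.Agent.T3.helper95.SurjAllStatement N A) :
    Fermat.Agent.T3.helper72.Pb3Statement N q hq hqN A hζ :=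
  pb_of_surjAll hq hqN hA (surjAll_of_level h)

/-- **[SURJ-ALL]** at the concrete base (VERBATIM box of `helper72_TorAll`). -/
theorem surjAllStatement72_of_surjAll (hq : q.Prime) (hqN : ¬ q ∣ N) (hA : A.LiesOverPrime q)
    (hζ : IsPrimitiveRoot ζ q) (h : Fermat.Agent.T3.helper95.SurjAllStatement N A) :
    Fermat.Agent.T3.helper72.SurjAllStatement N q hq hqN A hζ :=
  hsurj_of_surjAll hq hqN hA (surjAll_of_level h)

end Pb

end Fermat.Agent.T3.helper49
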