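import Fermat.Agent.T3.helper55_UnitGrow
import Fermat.Agent.S23.helper35_EtaForm

/-!
# T3 / [JACOBI4] part A (helper55): the quasi-modular form `E₂(τ) - 4 E₂(4τ)`

* `E2_smul` : the transformation law of `E₂` at a point;
* `E2_sub_one_isBigO` : `E₂ - 1 = O(exp(-2π Im τ))`;
* `Phi0_slash` : for every `g ∈ SL(2, ℤ)` with Hermite form `diag(4,1) g = g' [[A,B],[0,D]]`,
  `(E₂ - 4 E₂(4·)) ∣[2] g = E₂ - (4 / D²) E₂((A τ + B) / D)` (the anomalies cancel).
-/

set_option autoImplicit false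

noncomputable section

open UpperHalfPlane ModularForm Filter Asymptotics CongruenceSubgroup EisensteinSeries
open scoped MatrixGroups ModularForm Manifold Topology Real

namespace Fermat.Agent.T3.helper55

open Fermat.Agent.S23.helper35

/-- `κ = 1 / (2 ζ(2))`. -/
def kap : ℂ := 1 / (2 * riemannZeta 2)

/-- The transformation law of `E₂` at a point. -/
theorem E2_smul (g : SL(2, ℤ)) (w : ℍ) :
    E2 (g • w) = denom g w ^ 2 * E2 w - kap * (2 * π * Complex.I * (g 1 0 : ℂ)) * denom g w := by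
  have h := congrFun (E2_slash_action g) w
  rw [SL_slash_apply] at h
  simp only [Pi.sub_apply, Pi.smul_apply, smul_eq_mul, D2] at h
  have hd : denom g w ≠ 0 := denom_ne_zero _ _
  rw [show (-(2 : ℤ)) = -((2 : ℕ) : ℤ) by norm_num, zpow_neg, zpow_natCast] at h
  have h2 : E2 (g • w) = (E2 w - 1 / (2 * riemannZeta 2) *
      (2 * π * Complex.I * (g 1 0 : ℂ) / denom g w)) * denom g w ^ 2 := by
    rw [← h]
    field_simp
  rw [h2, kap]
  field_simp

/-- `E₂` only depends on `exp(2πi τ)`. -/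
theorem E2_eq_of_exp_eq {z w : ℍ}
    (h : Complex.exp (2 * π * Complex.I * z) = Complex.exp (2 * π * Complex.I * w)) :
    E2 z = E2 w := by
  rw [E2_eq_tsum_cexp, E2_eq_tsum_cexp, h]

theorem E2_ut_translate (B : ℤ) (τ : ℍ) : E2 (ut 1 1 B one_pos one_pos • τ) = E2 τ := by
  apply E2_eq_of_exp_eq
  rw [coe_ut_smul]
  simp only [Nat.cast_one, one_mul, div_one]
  rw [mul_add, Complex.exp_add]
  have : Complex.exp (2 * π * Complex.I * (B : ℂ)) = 1 := by
    have := Complex.exp_int_mul_two_pi_mul_I B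
    rw [← this]
    congr 1
    ring
  rw [this, mul_one]

/-! ### Hermite data -/

/-- Hermite decomposition with the relations between the bottom rows. -/
theorem hermite_data (N : ℕ) (hN : 0 < N) (g : SL(2, ℤ)) :
    ∃ (g' : SL(2, ℤ)) (A D : ℕ) (B : ℤ) (hA : 0 < A) (hD : 0 < D), A * D = N ∧
      A = Nat.gcd N (g 1 0).natAbs ∧
      (ut N 1 0 hN one_pos * Matrix.SpecialLinearGroup.mapGL ℝ g =
        Matrix.SpecialLinearGroup.mapGL ℝ g' * ut A D B hA hD) ∧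
      g 1 0 = g' 1 0 * A ∧ g 1 1 = g' 1 0 * B + g' 1 1 * D := by
  obtain ⟨g', A, D, B, hA, hD, hAD, hAgcd, hmat⟩ := hermite_int N hN g
  refine ⟨g', A, D, B, hA, hD, hAD, hAgcd, ut_mul_mapGL_eq_of_int N hN g g' hA hD hmat, ?_, ?_⟩
  · have h := congrFun (congrFun hmat 1) 0
    simp only [Matrix.mul_apply, Fin.sum_univ_two, Matrix.of_apply, Matrix.cons_val', Matrix.cons_val_zero,
      Matrix.cons_val_one, Matrix.cons_val_fin_one] at h
    simpa using h
  · have h := congrFun (congrFun hmat 1) 1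
    simp only [Matrix.mul_apply, Fin.sum_univ_two, Matrix.of_apply, Matrix.cons_val', Matrix.cons_val_zero,
      Matrix.cons_val_one, Matrix.cons_val_fin_one] at h
    simpa using h

theorem hermite_smul {N : ℕ} {hN : 0 < N} {g g' : SL(2, ℤ)} {A D : ℕ} {B : ℤ} {hA : 0 < A}
    {hD : 0 < D}
    (h : ut N 1 0 hN one_pos * Matrix.SpecialLinearGroup.mapGL ℝ g =
        Matrix.SpecialLinearGroup.mapGL ℝ g' * ut A D B hA hD) (τ : ℍ) :
    ut N 1 0 hN one_pos • (g • τ) = g' • (ut A D B hA hD • τ) := by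
  have h1 : ut N 1 0 hN one_pos • (g • τ) =
      (ut N 1 0 hN one_pos * Matrix.SpecialLinearGroup.mapGL ℝ g) • τ := by
    rw [mul_smul]
    rfl
  have h2 : g' • (ut A D B hA hD • τ) =
      (Matrix.SpecialLinearGroup.mapGL ℝ g' * ut A D B hA hD) • τ := by
    rw [mul_smul]
    rfl
  rw [h1, h2, h]

theorem hermite_denom {g g' : SL(2, ℤ)} {A D : ℕ} {B : ℤ} (hA : 0 < A) (hD : 0 < D)
    (h10 : g 1 0 = g' 1 0 * A) (h11 : g 1 1 = g' 1 0 * B + g' 1 1 * D) (τ : ℍ) :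
    denom g' (ut A D B hA hD • τ : ℍ) * (D : ℂ) = denom g τ := by
  rw [ModularGroup.denom_apply, ModularGroup.denom_apply, coe_ut_smul, h10, h11]
  have hD0 : (D : ℂ) ≠ 0 := by exact_mod_cast hD.ne'
  push_cast
  field_simp
  ring

/-! ### The function `Φ₀ = E₂ - 4 E₂(4 ·)` -/

/-- `Φ₀(τ) = E₂(τ) - 4 E₂(4τ)`. -/
def Phi0 (τ : ℍ) : ℂ := E2 τ - 4 * E2 (ut 4 1 0 four_pos one_pos • τ)

theorem Phi0_slash (g g' : SL(2, ℤ)) {A D : ℕ} {B : ℤ} (hA : 0 < A) (hD : 0 < D)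
    (hAD : A * D = 4)
    (h : ut 4 1 0 four_pos one_pos * Matrix.SpecialLinearGroup.mapGL ℝ g =
        Matrix.SpecialLinearGroup.mapGL ℝ g' * ut A D B hA hD)
    (h10 : g 1 0 = g' 1 0 * A) (h11 : g 1 1 = g' 1 0 * B + g' 1 1 * D) (τ : ℍ) :
    (Phi0 ∣[(2 : ℤ)] g) τ = E2 τ - 4 / (D : ℂ) ^ 2 * E2 (ut A D B hA hD • τ) := by
  rw [SL_slash_apply, Phi0, hermite_smul h, E2_smul g τ, E2_smul g' (ut A D B hA hD • τ)]
  have hd : denom g τ ≠ 0 := denom_ne_zero _ _
  have hD0 : (D : ℂ) ≠ 0 := by exact_mod_cast hD.ne'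
  have hden := hermite_denom hA hD h10 h11 τ
  have hden' : denom g' (ut A D B hA hD • τ : ℍ) = denom g τ / (D : ℂ) := by
    rw [← hden]
    field_simp
  rw [hden', h10]
  rw [show (-(2 : ℤ)) = -((2 : ℕ) : ℤ) by norm_num, zpow_neg, zpow_natCast]
  have hADc : (A : ℂ) * (D : ℂ) = 4 := by exact_mod_cast hAD
  push_cast
  field_simp
  linear_combination (-2 * (g' 1 0 : ℂ) * (D : ℂ) * kap * π * Complex.I) * hADc

/-! ### Growth of `E₂` -/

local notation "𝕢" => Function.Periodic.qParam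

/-- `(E₂ - 1) / q` is bounded at `i∞`. -/
theorem E2_sub_one_div_isBounded :
    IsBoundedAtImInfty (fun τ : ℍ => (𝕢 1 τ)⁻¹ * (E2 τ - 1)) := by
  refine isBoundedAtImInfty_of_hasSum_qExpansion (h := 1)
    (c := fun m : ℕ => (-24 * (ArithmeticFunction.sigma 1 (m + 1) : ℂ))) one_pos fun τ => ?_
  have h1 := hasSum_qExpansion_E2 (z := τ)
  rw [← hasSum_nat_add_iff' 1] at h1
  simp only [Finset.range_one, Finset.sum_singleton, if_true, pow_zero, smul_eq_mul, mul_one,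
    Nat.add_eq_zero_iff, one_ne_zero, and_false, if_false] at h1
  have h2 := h1.mul_left ((𝕢 1 τ)⁻¹)
  have hq : 𝕢 1 (τ : ℂ) ≠ 0 := Function.Periodic.qParam_ne_zero _
  have e : 𝕢 1 (τ : ℂ) = Complex.exp (2 * π * Complex.I * τ) := by
    simp [Function.Periodic.qParam]
  refine h2.congr_fun ?_ |>.congr_fun (fun _ => rfl)
  intro m
  simp only [smul_eq_mul]
  rw [← e, pow_succ]
  field_simp

theorem E2_sub_one_isBigO :
    (fun τ : ℍ => E2 τ - 1) =O[atImInfty] fun τ : ℍ => Real.exp (-2 * π * τ.im) := by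
  have h1 : (fun τ : ℍ => (𝕢 1 τ)⁻¹ * (E2 τ - 1)) =O[atImInfty] (1 : ℍ → ℝ) :=
    E2_sub_one_div_isBounded
  have h2 : (fun τ : ℍ => 𝕢 1 (τ : ℂ)) =O[atImInfty] fun τ : ℍ => Real.exp (-2 * π * τ.im) := by
    refine IsBigO.of_bound 1 (Eventually.of_forall fun τ => ?_)
    rw [Function.Periodic.norm_qParam, Real.norm_of_nonneg (Real.exp_pos _).le, one_mul]
    simp
  have h3 := h2.mul h1
  refine (h3.congr_left fun τ => ?_).congr_right fun τ => ?_
  · have hq : 𝕢 1 (τ : ℂ) ≠ 0 := Function.Periodic.qParam_ne_zero _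
    field_simp
  · simp

theorem tendsto_exp_neg_atImInfty {a : ℝ} (ha : 0 < a) :
    Tendsto (fun τ : ℍ => Real.exp (-2 * π * (a * τ.im))) atImInfty (𝓝 0) := by
  have h1 : Tendsto (fun τ : ℍ => τ.im) atImInfty atTop := tendsto_comap
  have h2 : Tendsto (fun τ : ℍ => 2 * π * a * τ.im) atImInfty atTop :=
    h1.const_mul_atTop (by positivity)
  have h3 := Real.tendsto_exp_neg_atTop_nhds_zero.comp h2
  refine h3.congr fun τ => ?_
  simp only [Function.comp_apply]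
  congr 1
  ring

theorem E2_comp_ut_sub_one_isBigO {A D : ℕ} {B : ℤ} (hA : 0 < A) (hD : 0 < D) :
    (fun τ : ℍ => E2 (ut A D B hA hD • τ) - 1) =O[atImInfty]
      fun τ : ℍ => Real.exp (-2 * π * ((A : ℝ) / D * τ.im)) := by
  have h := E2_sub_one_isBigO.comp_tendsto
    (tendsto_smul_atImInfty (ut_apply_one_zero (B := B) hA hD))
  refine h.congr_right fun τ => ?_
  simp only [Function.comp_apply]
  rw [im_ut_smul]

theorem tendsto_E2_comp_ut {A D : ℕ} {B : ℤ} (hA : 0 < A) (hD : 0 < D) :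
    Tendsto (fun τ : ℍ => E2 (ut A D B hA hD • τ)) atImInfty (𝓝 1) := by
  have h1 := (E2_comp_ut_sub_one_isBigO (B := B) hA hD).trans_tendsto
    (tendsto_exp_neg_atImInfty (a := (A : ℝ) / D) (by positivity))
  have h2 := h1.add_const 1
  simpa using h2

theorem tendsto_E2 : Tendsto E2 atImInfty (𝓝 1) := by
  have h1 := E2_sub_one_isBigO.trans_tendsto
    (by simpa using tendsto_exp_neg_atImInfty (a := 1) one_pos)
  have h2 := h1.add_const 1
  simpa using h2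

theorem tendsto_Phi0 : Tendsto Phi0 atImInfty (𝓝 (-3)) := by
  have h := tendsto_E2.sub ((tendsto_E2_comp_ut (B := 0) four_pos one_pos).const_mul 4)
  have e : (1 : ℂ) - 4 * 1 = -3 := by norm_num
  rw [e] at h
  exact h

theorem isBigO_one_of_tendsto {f : ℍ → ℂ} {c : ℂ} (h : Tendsto f atImInfty (𝓝 c)) :
    f =O[atImInfty] (1 : ℍ → ℝ) :=
  h.isBigO_one ℝ

/-- `Φ₀ ∣[2] g` is bounded at `i∞` for every `g`. -/
theorem Phi0_slash_isBigO_one (g : SL(2, ℤ)) :
    (Phi0 ∣[(2 : ℤ)] g) =O[atImInfty] (1 : ℍ → ℝ) := by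
  obtain ⟨g', A, D, B, hA, hD, hAD, -, h, h10, h11⟩ := hermite_data 4 four_pos g
  have e : (Phi0 ∣[(2 : ℤ)] g) =
      fun τ => E2 τ - 4 / (D : ℂ) ^ 2 * E2 (ut A D B hA hD • τ) :=
    funext fun τ => Phi0_slash g g' hA hD hAD h h10 h11 τ
  rw [e]
  exact isBigO_one_of_tendsto (tendsto_E2.sub ((tendsto_E2_comp_ut hA hD).const_mul _))

/-- At the cusps `≡ 1/2`: `Φ₀ ∣[2] g = O(exp(-2π Im τ))`. -/
theorem Phi0_slash_isBigO_exp (g : SL(2, ℤ)) (hg : Nat.gcd 4 (g 1 0).natAbs = 2) :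
    (Phi0 ∣[(2 : ℤ)] g) =O[atImInfty] fun τ : ℍ => Real.exp (-2 * π * τ.im) := by
  obtain ⟨g', A, D, B, hA, hD, hAD, hgcd, h, h10, h11⟩ := hermite_data 4 four_pos g
  have hA2 : A = 2 := by rw [hgcd, hg]
  have hD2 : D = 2 := by
    rw [hA2] at hAD
    omega
  subst hA2 hD2
  have e : (Phi0 ∣[(2 : ℤ)] g) =
      fun τ => (E2 τ - 1) - (E2 (ut 2 2 B hA hD • τ) - 1) := by
    funext τ
    rw [Phi0_slash g g' hA hD hAD h h10 h11 τ]
    push_cast
    ring
  rw [e]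
  refine E2_sub_one_isBigO.sub ?_
  refine (E2_comp_ut_sub_one_isBigO (B := B) hA hD).congr_right fun τ => ?_
  norm_num

end Fermat.Agent.T3.helper55
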