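import Fermat.Agent.T3.helper55_Jacobi4A

/-!
# T3 / [JACOBI4] part B (helper55): lower bounds for `lam4 ∣[1] g` at all cusps

`|lam4 ∣[1] g|⁻² = O(1)` at the cusps `≡ ∞, 0` and `= O(exp(2π Im τ))` at the cusps `≡ 1/2`
(`g 1 0 ≡ 2 mod 4`), from the two-sided bounds for `Δ((A τ + B) / D)`.
-/

set_option autoImplicit false

noncomputable section

open UpperHalfPlane ModularForm Filter Asymptotics CongruenceSubgroup EisensteinSeries
open scoped MatrixGroups ModularForm Manifold Topology Real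

namespace Fermat.Agent.T3.helper55

open Fermat.Agent.S23.helper35

local notation "Δ" => ModularForm.discriminant

/-! ### Two-sided bounds for `Δ(N ·) ∣[12] g` -/

theorem DeltaN_slash_two_sided (N : ℕ) (hN : 0 < N) (g : SL(2, ℤ)) :
    ∃ A D : ℕ, 0 < A ∧ 0 < D ∧ A * D = N ∧ A = Nat.gcd N (g 1 0).natAbs ∧
      (((DeltaN N hN) ∣[(12 : ℤ)] g) =O[atImInfty]
        fun τ : ℍ => Real.exp (-2 * π * ((A : ℝ) / D * τ.im))) ∧
      ((fun τ : ℍ => (((DeltaN N hN) ∣[(12 : ℤ)] g) τ)⁻¹) =O[atImInfty]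
        fun τ : ℍ => Real.exp (2 * π * ((A : ℝ) / D * τ.im))) := by
  obtain ⟨δ, A, D, B, hA, hD, hAD, hgcd, h⟩ := hermite_GL N hN g
  refine ⟨A, D, hA, hD, hAD, hgcd, ?_, ?_⟩
  · have e : ((DeltaN N hN) ∣[(12 : ℤ)] g) =
        fun z : ℍ => ((D : ℂ) ^ (12 : ℕ))⁻¹ * Δ (ut A D B hA hD • z) := by
      funext z
      have hz : ((DeltaN N hN) ∣[(12 : ℤ)] g) z =
          Δ (ut A D B hA hD • z) * ((D : ℂ) ^ (12 : ℕ))⁻¹ := by
        rw [SL_slash]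
        exact DeltaN_slash N hN g δ hA hD hAD h z
      rw [hz]
      ring
    rw [e]
    have h1 := discriminant_isBigO_exp.comp_tendsto
      (tendsto_smul_atImInfty (ut_apply_one_zero (B := B) hA hD))
    have h2 := h1.const_mul_left (((D : ℂ) ^ (12 : ℕ))⁻¹)
    refine (h2.congr_left fun z => rfl).congr_right fun z => ?_
    simp only [Function.comp_apply]
    rw [im_ut_smul]
  · have e : (fun τ : ℍ => (((DeltaN N hN) ∣[(12 : ℤ)] g) τ)⁻¹) =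
        fun z : ℍ => ((D : ℂ) ^ (12 : ℕ)) * (Δ (ut A D B hA hD • z))⁻¹ := by
      funext z
      have hz : ((DeltaN N hN) ∣[(12 : ℤ)] g) z =
          Δ (ut A D B hA hD • z) * ((D : ℂ) ^ (12 : ℕ))⁻¹ := by
        rw [SL_slash]
        exact DeltaN_slash N hN g δ hA hD hAD h z
      rw [hz, mul_inv, inv_inv]
      ring
    rw [e]
    have h2 : (fun z : ℍ => (Δ (ut A D B hA hD • z))⁻¹) =O[atImInfty]
        fun z : ℍ => (Real.exp (-2 * π * ((A : ℝ) / D * z.im)))⁻¹ :=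
      (exp_isBigO_discriminant_comp_ut (B := B) hA hD).inv_rev
        (Eventually.of_forall fun z hz => absurd hz (Real.exp_pos _).ne')
    have h3 := h2.const_mul_left ((D : ℂ) ^ (12 : ℕ))
    refine h3.congr_right fun z => ?_
    rw [← Real.exp_neg]
    congr 1
    ring

/-! ### Root extraction -/

theorem isBigO_of_pow_twelve {f : ℍ → ℂ} {a : ℝ}
    (h : (fun z => f z ^ 12) =O[atImInfty] fun z : ℍ => Real.exp (12 * (a * z.im))) :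
    f =O[atImInfty] fun z : ℍ => Real.exp (a * z.im) := by
  obtain ⟨C, hC⟩ := h.bound
  refine IsBigO.of_bound (max C 1) (hC.mono fun z hz => ?_)
  rw [Real.norm_of_nonneg (Real.exp_pos _).le] at hz ⊢
  rw [norm_pow] at hz
  have hM1 : (1 : ℝ) ≤ max C 1 := le_max_right _ _
  have hM0 : (0 : ℝ) ≤ max C 1 := le_trans zero_le_one hM1
  have hE : Real.exp (12 * (a * z.im)) = Real.exp (a * z.im) ^ 12 := by
    rw [← Real.exp_nat_mul]
    congr 1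
  have hpos : 0 < Real.exp (a * z.im) := Real.exp_pos _
  have h1 : ‖f z‖ ^ 12 ≤ (max C 1 * Real.exp (a * z.im)) ^ 12 := by
    calc ‖f z‖ ^ 12 ≤ C * Real.exp (12 * (a * z.im)) := hz
      _ ≤ max C 1 * Real.exp (12 * (a * z.im)) :=
        mul_le_mul_of_nonneg_right (le_max_left _ _) (Real.exp_pos _).le
      _ ≤ (max C 1) ^ 12 * Real.exp (12 * (a * z.im)) :=
        mul_le_mul_of_nonneg_right (le_self_pow₀ hM1 (by norm_num)) (Real.exp_pos _).le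
      _ = (max C 1 * Real.exp (a * z.im)) ^ 12 := by rw [hE, mul_pow]
  exact le_of_pow_le_pow_left₀ (by norm_num) (mul_nonneg hM0 hpos.le) h1

/-! ### `gcd` bookkeeping -/

theorem gcd_four_cases (n : ℕ) :
    (Nat.gcd 4 n = 4 ∧ Nat.gcd 2 n = 2) ∨ (Nat.gcd 4 n = 2 ∧ Nat.gcd 2 n = 2) ∨
      (Nat.gcd 4 n = 1 ∧ Nat.gcd 2 n = 1) := by
  have h4 : Nat.gcd 4 n = Nat.gcd (n % 4) 4 := Nat.gcd_rec 4 n
  have h2 : Nat.gcd 2 n = Nat.gcd (n % 2) 2 := Nat.gcd_rec 2 n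
  have hlt : n % 4 < 4 := Nat.mod_lt _ (by norm_num)
  have hmod : n % 2 = (n % 4) % 2 := by omega
  rw [h4, h2, hmod]
  interval_cases (n % 4) <;> simp

/-! ### The bound for `lam4` -/

theorem inv_lam4_slash_pow_eq (g : SL(2, ℤ)) (z : ℍ) :
    (((Fermat.Agent.T3.helper16.lam4 ∣[(1 : ℤ)] g) z ^ 2)⁻¹) ^ 12 =
      ((((DeltaN 2 two_pos) ∣[(12 : ℤ)] g) z)⁻¹) ^ 10 *
        ((((DeltaN 1 one_pos) ∣[(12 : ℤ)] g) z) ^ 4 *
          (((DeltaN 4 four_pos) ∣[(12 : ℤ)] g) z) ^ 4) := by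
  have h := congrFun (lam4_slash_pow g) z
  simp only [Pi.pow_apply, Pi.mul_apply] at h
  rw [← inv_pow, ← pow_mul, inv_pow, h]
  have h1 := DeltaN_slash_ne_zero 1 one_pos g z
  have h2 := DeltaN_slash_ne_zero 2 two_pos g z
  have h4 := DeltaN_slash_ne_zero 4 four_pos g z
  field_simp

theorem inv_lam4_slash_isBigO (g : SL(2, ℤ)) :
    ∃ A₂ D₂ A₄ D₄ : ℕ, 0 < D₂ ∧ 0 < D₄ ∧ A₂ * D₂ = 2 ∧ A₄ * D₄ = 4 ∧
      A₂ = Nat.gcd 2 (g 1 0).natAbs ∧ A₄ = Nat.gcd 4 (g 1 0).natAbs ∧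
      (fun z : ℍ => (((Fermat.Agent.T3.helper16.lam4 ∣[(1 : ℤ)] g) z ^ 2)⁻¹) ^ 12) =O[atImInfty]
        fun z : ℍ => Real.exp (2 * π *
          ((10 * ((A₂ : ℝ) / D₂) - 4 - 4 * ((A₄ : ℝ) / D₄)) * z.im)) := by
  obtain ⟨A₁, D₁, hA₁, hD₁, hAD₁, -, hup₁, -⟩ := DeltaN_slash_two_sided 1 one_pos g
  obtain ⟨A₂, D₂, hA₂, hD₂, hAD₂, hg₂, -, hlo₂⟩ := DeltaN_slash_two_sided 2 two_pos g
  obtain ⟨A₄, D₄, hA₄, hD₄, hAD₄, hg₄, hup₄, -⟩ := DeltaN_slash_two_sided 4 four_pos g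
  have hA1 : A₁ = 1 := Nat.eq_one_of_mul_eq_one_right hAD₁
  have hD1 : D₁ = 1 := Nat.eq_one_of_mul_eq_one_left hAD₁
  subst hA1 hD1
  refine ⟨A₂, D₂, A₄, D₄, hD₂, hD₄, hAD₂, hAD₄, hg₂, hg₄, ?_⟩
  have e : (fun z : ℍ => (((Fermat.Agent.T3.helper16.lam4 ∣[(1 : ℤ)] g) z ^ 2)⁻¹) ^ 12) =
      fun z : ℍ => ((((DeltaN 2 two_pos) ∣[(12 : ℤ)] g) z)⁻¹) ^ 10 *
        ((((DeltaN 1 one_pos) ∣[(12 : ℤ)] g) z) ^ 4 *
          (((DeltaN 4 four_pos) ∣[(12 : ℤ)] g) z) ^ 4) :=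
    funext fun z => inv_lam4_slash_pow_eq g z
  rw [e]
  have h := (hlo₂.pow 10).mul ((hup₁.pow 4).mul (hup₄.pow 4))
  refine h.congr_right fun z => ?_
  rw [← Real.exp_nat_mul, ← Real.exp_nat_mul, ← Real.exp_nat_mul, ← Real.exp_add, ← Real.exp_add]
  congr 1
  push_cast
  ring

/-- At the cusps `≢ 1/2`, `(lam4 ∣[1] g)⁻²` is bounded. -/
theorem inv_lam4_slash_sq_isBigO_one (g : SL(2, ℤ)) (hg : Nat.gcd 4 (g 1 0).natAbs ≠ 2) :
    (fun z : ℍ => ((Fermat.Agent.T3.helper16.lam4 ∣[(1 : ℤ)] g) z ^ 2)⁻¹) =O[atImInfty]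
      (1 : ℍ → ℝ) := by
  obtain ⟨A₂, D₂, A₄, D₄, hD₂, hD₄, hAD₂, hAD₄, hg₂, hg₄, h⟩ := inv_lam4_slash_isBigO g
  have key : (10 * ((A₂ : ℝ) / D₂) - 4 - 4 * ((A₄ : ℝ) / D₄)) = 0 := by
    rcases gcd_four_cases (g 1 0).natAbs with ⟨h4, h2⟩ | ⟨h4, h2⟩ | ⟨h4, h2⟩
    · rw [h4] at hg₄; rw [h2] at hg₂
      subst hg₂ hg₄
      have hD2 : D₂ = 1 := by omega
      have hD4 : D₄ = 1 := by omega
      subst hD2 hD4
      norm_num
    · exact absurd h4 hg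
    · rw [h4] at hg₄; rw [h2] at hg₂
      subst hg₂ hg₄
      have hD2 : D₂ = 2 := by omega
      have hD4 : D₄ = 4 := by omega
      subst hD2 hD4
      norm_num
  rw [key] at h
  have h' : (fun z : ℍ => (((Fermat.Agent.T3.helper16.lam4 ∣[(1 : ℤ)] g) z ^ 2)⁻¹) ^ 12)
      =O[atImInfty] fun z : ℍ => Real.exp (12 * ((0 : ℝ) * z.im)) := by
    refine h.congr_right fun z => ?_
    simp
  have h2 := isBigO_of_pow_twelve h'
  refine h2.congr_right fun z => ?_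
  simp

/-- At the cusps `≡ 1/2`, `(lam4 ∣[1] g)⁻² = O(exp(2π Im τ))`. -/
theorem inv_lam4_slash_sq_isBigO_exp (g : SL(2, ℤ)) (hg : Nat.gcd 4 (g 1 0).natAbs = 2) :
    (fun z : ℍ => ((Fermat.Agent.T3.helper16.lam4 ∣[(1 : ℤ)] g) z ^ 2)⁻¹) =O[atImInfty]
      fun z : ℍ => Real.exp (2 * π * z.im) := by
  obtain ⟨A₂, D₂, A₄, D₄, hD₂, hD₄, hAD₂, hAD₄, hg₂, hg₄, h⟩ := inv_lam4_slash_isBigO g
  have key : (10 * ((A₂ : ℝ) / D₂) - 4 - 4 * ((A₄ : ℝ) / D₄)) = 12 := by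
    rcases gcd_four_cases (g 1 0).natAbs with ⟨h4, h2⟩ | ⟨h4, h2⟩ | ⟨h4, h2⟩
    · rw [hg] at h4; norm_num at h4
    · rw [h4] at hg₄; rw [h2] at hg₂
      subst hg₂ hg₄
      have hD2 : D₂ = 1 := by omega
      have hD4 : D₄ = 2 := by omega
      subst hD2 hD4
      norm_num
    · rw [hg] at h4; norm_num at h4
  rw [key] at h
  have h' : (fun z : ℍ => (((Fermat.Agent.T3.helper16.lam4 ∣[(1 : ℤ)] g) z ^ 2)⁻¹) ^ 12)
      =O[atImInfty] fun z : ℍ => Real.exp (12 * ((2 * π) * z.im)) := by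
    refine h.congr_right fun z => ?_
    congr 1
    ring
  exact isBigO_of_pow_twelve h'

end Fermat.Agent.T3.helper55
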