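import Fermat.Agent.T3.helper55_Jacobi4B
import Fermat.Agent.T3.helper59_UnitQExp

/-!
# T3 / [JACOBI4] part C (helper55): `E₂(τ) - 4 E₂(4τ) = -3 lam4(τ)²`

`Ψ₀ := (E₂ - 4 E₂(4·)) / lam4²` is a modular form of weight `0` on `Γ₀(4)` (holomorphic since
`lam4` has no zero on `ℍ`, bounded at all cusps by parts A and B), hence constant
(Mathlib `ModularForm.eq_const_of_weight_zero`); its limit at `i∞` is `-3`.
-/

set_option autoImplicit false

noncomputable section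

open UpperHalfPlane ModularForm Filter Asymptotics CongruenceSubgroup EisensteinSeries
open scoped MatrixGroups ModularForm Manifold Topology Real

namespace Fermat.Agent.T3.helper55

open Fermat.Agent.S23.helper35

local notation "lam4" => Fermat.Agent.T3.helper16.lam4

/-- `Ψ₀ = (E₂ - 4 E₂(4·)) / lam4²`. -/
def Psi0 (τ : ℍ) : ℂ := Phi0 τ / lam4 τ ^ 2

theorem mdiff_Phi0 : MDiff Phi0 := by
  have h1 : MDiff E2 := E2_mdifferentiable
  have h2 : MDiff (fun τ : ℍ => E2 (ut 4 1 0 four_pos one_pos • τ)) :=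
    h1.comp (UpperHalfPlane.mdifferentiable_smul (det_ut_pos four_pos one_pos))
  have h3 : MDiff (fun τ : ℍ => (4 : ℂ) * E2 (ut 4 1 0 four_pos one_pos • τ)) :=
    mdifferentiable_const.mul h2
  exact h1.sub h3

theorem mdiff_Psi0 : MDiff Psi0 := by
  have h2 : MDiff (fun τ : ℍ => lam4 τ ^ 2) := lam4_mdiff.pow 2
  exact mdiff_Phi0.div h2 (fun τ => pow_ne_zero _ (lam4_ne_zero τ))

theorem Psi0_slash (g : SL(2, ℤ)) :
    (Psi0 ∣[(0 : ℤ)] g) =
      fun z => (Phi0 ∣[(2 : ℤ)] g) z * ((lam4 ∣[(1 : ℤ)] g) z ^ 2)⁻¹ := by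
  funext z
  rw [SL_slash_apply, SL_slash_apply, SL_slash_apply, Psi0]
  have hd : denom g z ≠ 0 := denom_ne_zero _ _
  have hl := lam4_ne_zero (g • z)
  have e0 : denom g z ^ (-(0 : ℤ)) = 1 := by simp
  have e1 : denom g z ^ (-(1 : ℤ)) = (denom g z)⁻¹ := by rw [zpow_neg, zpow_one]
  have e2 : denom g z ^ (-(2 : ℤ)) = (denom g z ^ 2)⁻¹ := by
    rw [zpow_neg]
    norm_cast
  rw [e0, e1, e2]
  field_simp

theorem Psi0_slash_isBounded (g : SL(2, ℤ)) : IsBoundedAtImInfty (Psi0 ∣[(0 : ℤ)] g) := by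
  rw [Psi0_slash]
  show (fun z => (Phi0 ∣[(2 : ℤ)] g) z * ((lam4 ∣[(1 : ℤ)] g) z ^ 2)⁻¹) =O[atImInfty]
    (1 : ℍ → ℝ)
  by_cases hg : Nat.gcd 4 (g 1 0).natAbs = 2
  · have h := (Phi0_slash_isBigO_exp g hg).mul (inv_lam4_slash_sq_isBigO_exp g hg)
    refine h.congr_right fun z => ?_
    rw [← Real.exp_add]
    simp only [Pi.one_apply]
    rw [← Real.exp_zero]
    congr 1
    ring
  · have h := (Phi0_slash_isBigO_one g).mul (inv_lam4_slash_sq_isBigO_one g hg)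
    refine h.congr_right fun z => ?_
    simp

/-! ### Invariance under `Γ₀(4)` -/

theorem four_dvd_of_mem_Gamma0 {g : SL(2, ℤ)} (hg : g ∈ Gamma0 4) : (4 : ℤ) ∣ g 1 0 := by
  rw [Gamma0_mem] at hg
  exact (ZMod.intCast_zmod_eq_zero_iff_dvd _ _).1 hg

theorem Phi0_slash_Gamma0 (g : SL(2, ℤ)) (hg : g ∈ Gamma0 4) : (Phi0 ∣[(2 : ℤ)] g) = Phi0 := by
  obtain ⟨g', A, D, B, hA, hD, hAD, hgcd, h, h10, h11⟩ := hermite_data 4 four_pos g
  have h4 := four_dvd_of_mem_Gamma0 hg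
  have hA4 : A = 4 := by
    rw [hgcd]
    apply Nat.gcd_eq_left
    exact Int.natCast_dvd.mp (by simpa using h4)
  have hD1 : D = 1 := by
    rw [hA4] at hAD
    omega
  subst hA4 hD1
  funext τ
  rw [Phi0_slash g g' hA hD hAD h h10 h11 τ, Phi0]
  have e : E2 (ut 4 1 B hA hD • τ) = E2 (ut 4 1 0 four_pos one_pos • τ) := by
    apply E2_eq_of_exp_eq
    rw [coe_ut_smul, coe_ut_smul]
    simp only [Nat.cast_ofNat, Nat.cast_one, div_one, Int.cast_zero, add_zero]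
    rw [mul_add, Complex.exp_add]
    have : Complex.exp (2 * π * Complex.I * (B : ℂ)) = 1 := by
      have := Complex.exp_int_mul_two_pi_mul_I B
      rw [← this]
      congr 1
      ring
    rw [this, mul_one]
  rw [e]
  norm_num

theorem lam4_slash_sq_Gamma0 (g : SL(2, ℤ)) (hg : g ∈ Gamma0 4) (z : ℍ) :
    (lam4 ∣[(1 : ℤ)] g) z ^ 2 = lam4 z ^ 2 := by
  rw [SL_slash_apply]
  have hlaw := law4 g hg z
  have hd : denom g z ≠ 0 := denom_ne_zero _ _
  have hden : denom g z = ((g 1 0 : ℤ) : ℂ) * (z : ℂ) + ((g 1 1 : ℤ) : ℂ) := by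
    rw [ModularGroup.denom_apply]
  rw [hlaw, ← hden]
  have e1 : denom g z ^ (-(1 : ℤ)) = (denom g z)⁻¹ := by rw [zpow_neg, zpow_one]
  rw [e1]
  have hχ : Fermat.Agent.T3.helper16.chi4 (g 1 1) ^ 2 = 1 := by
    have h4 := four_dvd_of_mem_Gamma0 hg
    have hdet := det_entries g
    have hodd : (g 1 1) % 2 = 1 := by
      obtain ⟨k, hk⟩ := h4
      rw [hk] at hdet
      have : (g 0 0 * g 1 1) % 2 = 1 := by
        have h5 : g 0 0 * g 1 1 = 1 + 2 * (2 * (g 0 1 * k)) := by linear_combination hdet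
        rw [h5]
        omega
      rcases Int.emod_two_eq_zero_or_one (g 1 1) with h0 | h1
      · exfalso
        have : (g 0 0 * g 1 1) % 2 = 0 := by
          rw [Int.mul_emod, h0, mul_zero]
          rfl
        omega
      · exact h1
    have hd4 : (g 1 1) % 4 = 1 ∨ (g 1 1) % 4 = 3 := by omega
    unfold Fermat.Agent.T3.helper16.chi4
    rcases hd4 with h | h
    · rw [if_pos h]; norm_num
    · rw [if_neg (by omega), if_pos h]; norm_num
  have : (Fermat.Agent.T3.helper16.chi4 (g 1 1) * denom g z * lam4 z * (denom g z)⁻¹) ^ 2 =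
      Fermat.Agent.T3.helper16.chi4 (g 1 1) ^ 2 * lam4 z ^ 2 := by
    field_simp
  rw [this, hχ, one_mul]

theorem Psi0_slash_Gamma0 (g : SL(2, ℤ)) (hg : g ∈ Gamma0 4) : (Psi0 ∣[(0 : ℤ)] g) = Psi0 := by
  rw [Psi0_slash, Phi0_slash_Gamma0 g hg]
  funext z
  rw [lam4_slash_sq_Gamma0 g hg z, Psi0, div_eq_mul_inv]

/-- `Ψ₀` as a modular form of weight `0` on `Γ₀(4)`. -/
def Psi0Form :
    ModularForm ((CongruenceSubgroup.Gamma0 4 : Subgroup SL(2, ℤ)) : Subgroup (GL (Fin 2) ℝ))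
      0 where
  toFun := Psi0
  slash_action_eq' := by
    rintro _ ⟨γ, hγ, rfl⟩
    exact Psi0_slash_Gamma0 γ hγ
  holo' := mdiff_Psi0
  bdd_at_cusps' := by
    intro c hc
    rw [Subgroup.IsArithmetic.isCusp_iff_isCusp_SL2Z] at hc
    rw [OnePoint.isBoundedAt_iff_forall_SL2Z hc]
    intro γ _
    exact Psi0_slash_isBounded γ

/-! ### The limit at `i∞` -/

theorem tendsto_lam4 : Tendsto lam4 atImInfty (𝓝 1) := by
  have h0 : Fermat.Agent.T3.helper59.lamG4 0 = 1 := by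
    simp [Fermat.Agent.T3.helper59.lamG4, Fermat.Agent.S24.helper17.etaB_zero]
  have hc : ContinuousAt Fermat.Agent.T3.helper59.lamG4 0 :=
    (Fermat.Agent.T3.helper59.differentiableOn_lamG4.differentiableAt
      (Metric.ball_mem_nhds 0 one_pos)).continuousAt
  have ht := hc.tendsto.comp (UpperHalfPlane.qParam_tendsto_atImInfty one_pos)
  rw [h0] at ht
  refine ht.congr fun τ => ?_
  exact (Fermat.Agent.T3.helper59.lam4_eq_lamG4 τ).symm

theorem tendsto_Psi0 : Tendsto Psi0 atImInfty (𝓝 (-3)) := by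
  have h := tendsto_Phi0.div (tendsto_lam4.pow 2) (by norm_num)
  have e : (-3 : ℂ) / 1 ^ 2 = -3 := by norm_num
  rw [e] at h
  exact h

theorem Psi0_eq (τ : ℍ) : Psi0 τ = -3 := by
  obtain ⟨c, hc⟩ := ModularForm.eq_const_of_weight_zero Psi0Form
  have hc' : Psi0 = Function.const ℍ c := hc
  have h1 : Tendsto Psi0 atImInfty (𝓝 c) := by
    rw [hc']
    exact tendsto_const_nhds
  have h2 := tendsto_nhds_unique h1 tendsto_Psi0
  rw [hc', h2]
  rfl

/-- **[JACOBI4]** (Jacobi's four square theorem in the form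
`E₂(τ) - 4 E₂(4τ) = -3 θ(2τ)⁴`, `θ(2τ)² = η(2τ)¹⁰ / (η(τ)⁴ η(4τ)⁴)`). -/
theorem jacobi4 (τ : ℍ) :
    E2 τ - 4 * E2 (ut 4 1 0 four_pos one_pos • τ) = -3 * lam4 τ ^ 2 := by
  have h := Psi0_eq τ
  rw [Psi0, div_eq_iff (pow_ne_zero _ (lam4_ne_zero τ))] at h
  exact h

end Fermat.Agent.T3.helper55
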