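import Fermat.Agent.T3.helper55_UnitLaw

/-!
# T3 / [T3-UNIT] (helper55): holomorphy of `lam4`, `lam9` (`IsWtOneUnit.mdiff`)

`lamEta`, `bEta` are complex differentiable on the upper half plane (quotients of products of
`η(k z)` with nonvanishing denominators), hence `helper16.lam4`, `helper16.lam9` are `MDiff`.
-/

set_option autoImplicit false

open UpperHalfPlane CongruenceSubgroup
open scoped MatrixGroups Manifold

namespace Fermat.Agent.T3.helper55

theorem differentiableAt_eta_nat_mul (k : ℕ) (hk : 0 < k) {z : ℂ} (hz : 0 < z.im) :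
    DifferentiableAt ℂ (fun w : ℂ => ModularForm.eta ((k : ℂ) * w)) z := by
  have h1 : 0 < ((k : ℂ) * z).im := by
    have := im_real_mul_pos (a := (k : ℝ)) (by exact_mod_cast hk) hz
    simpa using this
  have h2 : DifferentiableAt ℂ ModularForm.eta ((k : ℂ) * z) :=
    ModularForm.differentiableAt_eta_of_mem_upperHalfPlaneSet h1
  have h3 : DifferentiableAt ℂ (fun w : ℂ => (k : ℂ) * w) z := by fun_prop
  exact h2.comp z h3

theorem differentiableAt_lamEta {z : ℂ} (hz : 0 < z.im) : DifferentiableAt ℂ lamEta z := by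
  have e1 : DifferentiableAt ℂ ModularForm.eta z :=
    ModularForm.differentiableAt_eta_of_mem_upperHalfPlaneSet hz
  have e2 : DifferentiableAt ℂ (fun w : ℂ => ModularForm.eta (2 * w)) z := by
    simpa using differentiableAt_eta_nat_mul 2 (by norm_num) hz
  have e4 : DifferentiableAt ℂ (fun w : ℂ => ModularForm.eta (4 * w)) z := by
    simpa using differentiableAt_eta_nat_mul 4 (by norm_num) hz
  unfold lamEta
  exact (e2.pow 10).div ((e1.pow 4).mul (e4.pow 4))
    (mul_ne_zero (pow_ne_zero _ (eta_ne_zero' hz)) (pow_ne_zero _ (eta_ne_zero' (four_mul_uhp hz))))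

theorem differentiableAt_bEta {z : ℂ} (hz : 0 < z.im) : DifferentiableAt ℂ bEta z := by
  have e1 : DifferentiableAt ℂ ModularForm.eta z :=
    ModularForm.differentiableAt_eta_of_mem_upperHalfPlaneSet hz
  have e3 : DifferentiableAt ℂ (fun w : ℂ => ModularForm.eta (3 * w)) z := by
    simpa using differentiableAt_eta_nat_mul 3 (by norm_num) hz
  unfold bEta
  exact (e1.pow 3).div e3 (eta_ne_zero' (three_mul_uhp hz))

/-- A function on `ℍ` which is the restriction of a function on `ℂ` holomorphic on the upper half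
plane is `MDiff`. -/
theorem mdiff_of_differentiableAt (F : ℂ → ℂ)
    (hF : ∀ z : ℂ, 0 < z.im → DifferentiableAt ℂ F z) :
    MDiff (fun τ : ℍ => F (τ : ℂ)) := by
  rw [UpperHalfPlane.mdifferentiable_iff]
  intro z hz
  have hz' : 0 < z.im := hz
  refine ((hF z hz').differentiableWithinAt).congr (fun w hw => ?_) ?_
  · have hw' : 0 < w.im := hw
    simp only [Function.comp_apply, ofComplex_apply_of_im_pos hw', UpperHalfPlane.coe_mk]
  · simp only [Function.comp_apply, ofComplex_apply_of_im_pos hz', UpperHalfPlane.coe_mk]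

/-- `IsWtOneUnit.mdiff` for `lam4`. -/
theorem lam4_mdiff : MDiff Fermat.Agent.T3.helper16.lam4 := by
  have h := mdiff_of_differentiableAt lamEta (fun z hz => differentiableAt_lamEta hz)
  have e : (fun τ : ℍ => lamEta (τ : ℂ)) = Fermat.Agent.T3.helper16.lam4 := by
    funext τ
    exact (lam4_eq_lamEta τ).symm
  rwa [e] at h

/-- `IsWtOneUnit.mdiff` for `lam9`. -/
theorem lam9_mdiff : MDiff Fermat.Agent.T3.helper16.lam9 := by
  have h := mdiff_of_differentiableAt bEta (fun z hz => differentiableAt_bEta hz)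
  have e : (fun τ : ℍ => bEta (τ : ℂ)) = Fermat.Agent.T3.helper16.lam9 := by
    funext τ
    exact (lam9_eq_bEta τ).symm
  rwa [e] at h

end Fermat.Agent.T3.helper55
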