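/-
T3 (S36), [CUSP-Q], leaf (DICT-LOC) (helper59, assigned by the architect helper29):

every pole `P` of `j` on `F_M` is the place of a coset `I`, and the order at `P` is the order of
the expansion `helper87.exLoc M I` in the local parameter:

  `dictLoc M P hP : ∃ I : IX M, ∀ f ≠ 0, P.ord f = (exLoc M I f).order`.

Source: `T3.helper28.cusp_places` (dictionary for the twin family `EN` / `ENloc` of helper28) and
the identification `EN M I = sigmaFF M I`, `dI M I = dloc M I`.
-/
import Mathlib
import Fermat.Agent.T3.helper28_CuspNLoc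
import Fermat.Agent.T3.helper87_CuspQLoc

set_option autoImplicit false
set_option synthInstance.maxHeartbeats 400000
set_option linter.unusedSectionVars false
set_option linter.unusedVariables false
set_option linter.style.longLine false

noncomputable section

open HahnSeries ModularCurve AlgebraicCurve
open Fermat.Agent.S18.helper19
open Fermat.Agent.S28 (IX)
open Fermat.Agent.T3.helper23 (sigmaFF sigmaFF_apply toFullC coe_toFullC)
open Fermat.Agent.T3.helper87 (exLoc qExpand_exLoc dloc wd dloc_pos dloc_mul_wd wd_pos)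

namespace Fermat.Agent.T3.helper59

section DictLoc

variable (M : ℕ) [NeZero M]

/-- the two coset expansions (helper28 `EN`, helper23 `sigmaFF`) agree -/
theorem en_eq_sigmaFF (I : IX M) (f : FF M) :
    Fermat.Agent.T3.helper28.EN M I f = sigmaFF M I f := by
  rw [Fermat.Agent.T3.helper28.EN_apply, sigmaFF_apply]
  congr 1

/-- the two widths agree -/
theorem wid_eq_wd (I : IX M) : Fermat.Agent.T3.helper28.wid M I = wd M I := rfl

/-- the two exponents of the local parameter agree -/
theorem dI_eq_dloc (I : IX M) : Fermat.Agent.T3.helper28.dI M I = dloc M I := rfl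

/-- the order of the expansion `sigmaFF` in `T = q^(1/M)` is `dloc` times the order of the
expansion `exLoc` in the local parameter -/
theorem order_sigmaFF (I : IX M) (f : FF M) :
    (sigmaFF M I f).order = (dloc M I : ℤ) * (exLoc M I f).order := by
  rw [← qExpand_exLoc M I f, Fermat.Agent.P2.helper28.order_qExpand_mul]

/-- the local expansions of helper28 and helper87 agree -/
theorem enLoc_eq_exLoc (I : IX M) (f : FF M) :
    Fermat.Agent.T3.helper28.ENloc M I f = exLoc M I f := by
  apply Fermat.Agent.P2.helper94.qExpand_injective (dloc M I)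
  rw [qExpand_exLoc, ← en_eq_sigmaFF, ← Fermat.Agent.T3.helper28.qExpand_ENloc]
  rfl

/-- **(DICT-LOC), with the places**: the cusps of level `M` as places, in the vocabulary of
`helper87.exLoc`. -/
theorem exists_dictLoc :
    ∃ W : IX M → Place Kb (FF M),
      (∀ I, (W I).ord (Fermat.Agent.P2.helper29.jElt M) = -(wd M I : ℤ)) ∧
      (∀ P : Place Kb (FF M), P.ord (Fermat.Agent.P2.helper29.jElt M) < 0 → ∃ I, W I = P) ∧
      (∀ I J, W I = W J ↔
        J ∈ MulAction.orbit (Subgroup.zpowers (Fermat.Agent.P2.helper28.permT M)) I) ∧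
      (∀ I (f : FF M), f ≠ 0 → (W I).ord f = (exLoc M I f).order) ∧
      (∀ I (f : FF M), f ≠ 0 → (sigmaFF M I f).order = (dloc M I : ℤ) * (W I).ord f) := by
  obtain ⟨W, h1, h2, h3, h4, h5⟩ := Fermat.Agent.T3.helper28.cusp_places M
  refine ⟨W, h1, h2, h3, fun I f hf => ?_, fun I f hf => ?_⟩
  · rw [← enLoc_eq_exLoc]
    exact (h4 I f hf).symm
  · rw [← en_eq_sigmaFF]
    exact h5 I f hf

/-- **(DICT-LOC)** (architect's shape, #2892): every pole `P` of `j` is the place of a coset `I`,
and `ord_P f` is the order of the expansion of `f` at `I` in the local parameter. -/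
theorem dictLoc (P : Place Kb (FF M)) (hP : P.ord (Fermat.Agent.P2.helper29.jElt M) < 0) :
    ∃ I : IX M, ∀ f : FF M, f ≠ 0 → P.ord f = (exLoc M I f).order := by
  obtain ⟨W, -, h2, -, h4, -⟩ := exists_dictLoc M
  obtain ⟨I, rfl⟩ := h2 P hP
  exact ⟨I, fun f hf => h4 I f hf⟩

/-- (DICT-LOC) for all `f` (the order of `0` is `0` on both sides iff the convention of
`Place.ord` at `0` is `0`; stated only for `f ≠ 0` above) - the version with the pole order of
`j`: the coset `I` of a pole `P` has width `-ord_P j`. -/
theorem dictLoc_width (P : Place Kb (FF M)) (hP : P.ord (Fermat.Agent.P2.helper29.jElt M) < 0) :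
    ∃ I : IX M, P.ord (Fermat.Agent.P2.helper29.jElt M) = -(wd M I : ℤ) ∧
      ∀ f : FF M, f ≠ 0 → P.ord f = (exLoc M I f).order := by
  obtain ⟨W, h1, h2, -, h4, -⟩ := exists_dictLoc M
  obtain ⟨I, rfl⟩ := h2 P hP
  exact ⟨I, h1 I, fun f hf => h4 I f hf⟩

end DictLoc

end Fermat.Agent.T3.helper59

end
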