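import Fermat.Agent.T3.helper5_EigenVecCutW
import Fermat.Agent.T2.helper76_Asm35

/-!
# T3, [EV-PAIR-WIRE] (helper5) and the assembly of S36 from (NEW-INV) at the auxiliary levels

Cut map of the blueprint (decision D2 of the architect): at the level `M = N' * q * q`
(`q ∤ N'`), `f = (U_q, U_q ∘ W_{q²})`, `U_q = helper48.uJ M q`, `W_{q²}` the action of
`helper48.atkinLehnerSq N' q` on `J₀(M)`.

* `cutPair N' q hq hqN` : the cut map `f`;
* `eigenVecCut_cutPair` : **(EV)** `helper34.EigenVecCutStatement D (ι ∘ χ_g) f`, unconditional;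
* `kerStable_cutPair` : `helper34.KerStable M p f`, unconditional;
* `NewInvAtAuxLevels` : the OPEN box, (NEW-INV) for `f` at the auxiliary levels
  (`N'` good, `p ∉ {2, q}`);
* `exists_auxLevel36` : the auxiliary level `N' * q * q = c * N` (`c = 9` for `q = 2`, `c = 4`
  for odd `q`);
* `s36Core_of_newInv : NewInvAtAuxLevels → helper34.S36CoreStatement`;
* `s36_of_newInv` : the frozen statement S36 (verbatim binders) from `NewInvAtAuxLevels`.
-/

set_option autoImplicit false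

open ModularCurve CuspForm CongruenceSubgroup ModularFormClass Polynomial

noncomputable section

namespace Fermat.Agent.T3.helper5

open Fermat.Agent.P3 Fermat.Agent.P3.helper1 Fermat.Agent.T2.helper76
  Fermat.Agent.T3.helper34 Fermat.Agent.T3.helper48
open scoped Fermat.Agent.S16.helper26

section Pair

variable (N' q : ℕ) [NeZero N'] [NeZero q]

/-- **The cut map of S36**: `(U_q, U_q ∘ W_{q²})` on `J₀(N' q²)`. -/
def cutPair (hq : q.Prime) (hqN : ¬ q ∣ N') :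
    JZero (N' * q * q) →+ JZero (N' * q * q) × JZero (N' * q * q) :=
  (Fermat.Agent.T2.helper48.uJ (N' * q * q) q).prod
    ((Fermat.Agent.T2.helper48.uJ (N' * q * q) q).comp
      (DistribSMul.toAddMonoidHom (JZero (N' * q * q)) (atkinLehnerSq N' q hq hqN)))

theorem cutPair_apply (hq : q.Prime) (hqN : ¬ q ∣ N') (x : JZero (N' * q * q)) :
    cutPair N' q hq hqN x =
      (Fermat.Agent.T2.helper48.uJ (N' * q * q) q x,
        Fermat.Agent.T2.helper48.uJ (N' * q * q) q (atkinLehnerSq N' q hq hqN • x)) := rfl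

/-- **(KerStable)** for the cut map of S36. -/
theorem kerStable_cutPair (p : ℕ) (hp : p ≠ 0) (hq : q.Prime) (hqN : ¬ q ∣ N') :
    KerStable (N' * q * q) p (cutPair N' q hq hqN) :=
  kerStable_uJ_pair (N' * q * q) p hp q N' (q * q) (Nat.mul_assoc N' q q)
    (coprime_mul_self hq hqN)

/-- **(EV)** for the cut map of S36: unconditional. -/
theorem eigenVecCut_cutPair {p : ℕ} [Fact p.Prime] {N : ℕ} [NeZero N] {S : Finset ℕ}
    {g : CuspForm (Gamma0 N) 2} (hg : g.IsNewform) (hq : q.Prime) (hqN : ¬ q ∣ N')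
    {hNM : N ∣ N' * q * q} (D : helper67.TateGeom p N S (N' * q * q) hNM)
    {O' : Type} [CommRing O'] [IsDomain O'] [CharZero O'] [Algebra ℤ_[p] O']
    (chig : CuspForm.heckeAlgebra N 2 (↑S : Set ℕ) →+* ℂ)
    (hchig : ∀ (ℓ : ℕ) (hℓ : ℓ.Prime) (hℓN : ¬ ℓ ∣ N) (hℓS : ℓ ∉ (↑S : Set ℕ)),
      chig (CuspForm.heckeAlgebra.T hℓ hℓN hℓS) = qCoeff g ℓ)
    (iota : chig.range →+* O') (hq2 : q * q ∣ N) :
    EigenVecCutStatement D (iota.comp chig.rangeRestrict) (cutPair N' q hq hqN) :=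
  eigenVecCut_uJ_atkinLehnerM hg D chig hchig iota ⟨q, hq⟩ (by rw [pow_two]; exact hq2) N'
    (q * q) (Nat.mul_assoc N' q q) (coprime_mul_self hq hqN) hq2

end Pair

/-! ### The assembly -/

/-- **The open box of S36**: (NEW-INV) for the cut map `(U_q, U_q ∘ W_{q²})` at the levels
`N' * q * q`, `q ∤ N'`, `N'` good, at ONE place over `q`, with a constant `c ≠ 0`. -/
def NewInvAtAuxLevels : Prop :=
  ∀ (N' q : ℕ) [NeZero N'] [NeZero q] (hq : q.Prime) (hqN : ¬ q ∣ N') (p : ℕ), p.Prime →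
    p ≠ q → p ≠ 2 → (4 ∣ N' ∨ 9 ∣ N') →
      ∃ (c : ℕ) (A : ValuationSubring Qbar), c ≠ 0 ∧ A.LiesOverPrime q ∧
        NewInvAt (N' * q * q) p A (cutPair N' q hq hqN) c

/-- The auxiliary level of S36 in the form `N' * q * q = c * N`. -/
theorem exists_auxLevel36 {N q : ℕ} [NeZero N] (hq : q.Prime) (hq2 : N.factorization q = 2) :
    ∃ c N' : ℕ, N' ≠ 0 ∧ N' * q * q = c * N ∧ ¬ q ∣ N' ∧ (4 ∣ N' ∨ 9 ∣ N') ∧
      GoodLevel (N' * q * q) ∧ q * q ∣ N := by
  have hN0 : N ≠ 0 := NeZero.ne N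
  have hdvd : q ^ 2 ∣ N := by
    rw [← hq2]
    exact Nat.ordProj_dvd N q
  obtain ⟨N₁, hN₁⟩ := hdvd
  have hN₁0 : N₁ ≠ 0 := by
    rintro rfl
    exact hN0 (by rw [hN₁, mul_zero])
  have hqN₁ : ¬ q ∣ N₁ := by
    rintro ⟨k, hk⟩
    have h3 : q ^ 3 ∣ N := ⟨k, by rw [hN₁, hk]; ring⟩
    have := (hq.pow_dvd_iff_le_factorization hN0).mp h3
    omega
  have hqq : q * q ∣ N := ⟨N₁, by rw [hN₁]; ring⟩
  by_cases h2 : q = 2
  · refine ⟨9, 9 * N₁, Nat.mul_ne_zero (by norm_num) hN₁0, by rw [hN₁]; ring, ?_,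
      Or.inr (Dvd.intro _ rfl), Or.inr ⟨N₁ * q * q, by ring⟩, hqq⟩
    intro h
    rcases (Nat.Prime.dvd_mul hq).mp h with h9 | h9
    · rw [h2] at h9
      norm_num at h9
    · exact hqN₁ h9
  · refine ⟨4, 4 * N₁, Nat.mul_ne_zero (by norm_num) hN₁0, by rw [hN₁]; ring, ?_,
      Or.inl (Dvd.intro _ rfl), Or.inl ⟨N₁ * q * q, by ring⟩, hqq⟩
    intro h
    rcases (Nat.Prime.dvd_mul hq).mp h with h4 | h4
    · have h5 : q ∣ 2 ^ 2 := by norm_num; exact h4
      exact h2 ((Nat.prime_dvd_prime_iff_eq hq Nat.prime_two).mp (hq.dvd_of_dvd_pow h5))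
    · exact hqN₁ h4

/-- **[T3-ASM-36]** the geometric core of S36 from (NEW-INV) at the auxiliary levels. -/
theorem s36Core_of_newInv (hNI : NewInvAtAuxLevels) : S36CoreStatement := by
  intro N _ g hg p _ S O' _ _ _ _ _ _ _ hpO' hp2 chig hchig iota hpS hNS q hq hqp hq2
  have hp : p.Prime := Fact.out
  have _ : NeZero q := ⟨hq.ne_zero⟩
  obtain ⟨c, N', hN'0, hlevel, hqN', hN', hM, hqq⟩ := exists_auxLevel36 hq hq2
  have _ : NeZero N' := ⟨hN'0⟩
  have hNM : N ∣ N' * q * q := ⟨c, by rw [hlevel]; ring⟩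
  obtain ⟨D⟩ := tateGeomAtGoodLevels p N S (N' * q * q) hNM hpS hM
  obtain ⟨c', A, hc', hA, hnew⟩ := hNI N' q hq hqN' p hp (fun h => hqp h.symm) hp2 hN'
  exact ⟨N' * q * q, inferInstance, hNM, D, _, inferInstance, cutPair N' q hq hqN', c', A, hc',
    hA, kerStable_cutPair N' q p hp.ne_zero hq hqN',
    eigenVecCut_cutPair N' q hg hq hqN' D chig hchig iota hqq, hnew⟩

/-- **S36 from (NEW-INV) at the auxiliary levels** (frozen statement, verbatim binders). -/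
theorem s36_of_newInv (hNI : NewInvAtAuxLevels)
    {M : ℕ} [NeZero M] {g : CuspForm (CongruenceSubgroup.Gamma0 M) 2} (_hg : g.IsNewform)
    (lam : ℕ) [Fact lam.Prime]
    (S : Finset ℕ)
    (O' : Type) [CommRing O'] [IsDomain O'] [IsDiscreteValuationRing O']
    [IsAdicComplete (IsLocalRing.maximalIdeal O') O'] [Finite (IsLocalRing.ResidueField O')]
    [CharZero O'] (_hlamO' : (lam : O') ∈ IsLocalRing.maximalIdeal O')
    (_hlam2 : lam ≠ 2)
    (chig : CuspForm.heckeAlgebra M 2 (↑S : Set ℕ) →+* ℂ)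
    (_hchig : ∀ (ℓ : ℕ) (hℓ : ℓ.Prime) (hℓM : ¬ ℓ ∣ M) (hℓS : ℓ ∉ (↑S : Set ℕ)),
      chig (CuspForm.heckeAlgebra.T hℓ hℓM hℓS) = ModularFormClass.qCoeff g ℓ)
    (iota : chig.range →+* O')
    (_hlamS : lam ∈ S) (_hMS : ∀ q : ℕ, q.Prime → q ∣ M → q ∈ S)
    (_hres : ∀ (O'' : Type) [CommRing O''] [IsDomain O''] [IsDiscreteValuationRing O'']
      [IsAdicComplete (IsLocalRing.maximalIdeal O'') O''] [Finite (IsLocalRing.ResidueField O'')]
      [CharZero O'']
      [Algebra O' O''] [Module.Finite O' O''] [IsLocalHom (algebraMap O' O'')],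
      Function.Injective (algebraMap O' O'') → ∀ (ρ : GaloisRepAdic O''),
      (∀ (ℓ : ℕ) (hℓ : ℓ.Prime) (_hℓlam : ℓ ≠ lam) (hℓM : ¬ ℓ ∣ M) (hℓS : ℓ ∉ (↑S : Set ℕ)),
        ∀ A : ValuationSubring (AlgebraicClosure ℚ), A.LiesOverPrime ℓ →
          ∀ σ : AlgebraicClosure ℚ ≃ₐ[ℚ] AlgebraicClosure ℚ, A.IsFrobeniusAt σ ℓ →
            LinearMap.charpoly (ρ.ρ σ) =
              X ^ 2 - C (algebraMap O' O'' ((iota.comp chig.rangeRestrict)
                (CuspForm.heckeAlgebra.T hℓ hℓM hℓS))) * X + C ((ℓ : O'')))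
      → ρ.residual.IsAbsolutelyIrreducible ∧ ρ.residual.IsOdd) :
    ∃ (O'' : Type) (_ : CommRing O'') (_ : IsDomain O'') (_ : IsDiscreteValuationRing O'')
      (_ : IsAdicComplete (IsLocalRing.maximalIdeal O'') O'')
      (_ : Finite (IsLocalRing.ResidueField O''))
      (_ : CharZero O'') (_ : Algebra O' O'') (_ : Module.Finite O' O'')
      (_ : IsLocalHom (algebraMap O' O'')),
      Function.Injective (algebraMap O' O'') ∧
      ∃ ρ : GaloisRepAdic O'',
        (∀ (ℓ : ℕ) (hℓ : ℓ.Prime) (hℓM : ¬ ℓ ∣ M) (hℓS : ℓ ∉ (↑S : Set ℕ)),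
          ∀ A : ValuationSubring (AlgebraicClosure ℚ), A.LiesOverPrime ℓ →
            ∀ σ : AlgebraicClosure ℚ ≃ₐ[ℚ] AlgebraicClosure ℚ, A.IsFrobeniusAt σ ℓ →
              LinearMap.charpoly (ρ.ρ σ) =
                X ^ 2 - C (algebraMap O' O'' ((iota.comp chig.rangeRestrict)
                  (CuspForm.heckeAlgebra.T hℓ hℓM hℓS))) * X + C ((ℓ : O''))) ∧
        (∀ q : ℕ, q.Prime → q ≠ lam → M.factorization q = 2 →
          ¬ ρ.IsUnipotentOnInertiaAt q) :=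
  s36_of_core Fermat.Agent.P3.helper32.strongS30 (s36Core_of_newInv hNI) _hg lam S O' _hlamO'
    _hlam2 chig _hchig iota _hlamS _hMS _hres

end Fermat.Agent.T3.helper5

end
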