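/-
T3 (S36), helper74: **the width of a cusp**: the `T`-orbit of the coset `g Γ₀(M)` has
`M / gcd (M, c²)` elements, `c = g 1 0`; hence the exponent `d` of the cusp dictionary
(`d * card (orbit) = M`) is `gcd (M, c²)`.

* `smul_T_zpow_eq_iff`  : `T^k • [g] = [g] ↔ M ∣ k c²`;
* `card_orbit_permT`    : `Nat.card (orbit ⟨permT M⟩ [g]) = M / gcd (M, c²)`;
* `dict_exponent_eq`    : `d * card (orbit) = M → d = gcd (M, c²)`;
* `gcd_sq_mul`          : `gcd (N q², c²) = gcd (N, c²) · gcd (q², c²)` for `q ∤ N`.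
-/
import Mathlib
import Fermat.Agent.P2.helper28_CuspBar
import Fermat.Agent.S24.helper83_CuspCount

set_option autoImplicit false
set_option linter.unusedSectionVars false
set_option linter.style.haveILetI false

noncomputable section

open scoped MatrixGroups
open CongruenceSubgroup Fermat.Agent.S28 Fermat.Agent.P2.helper28

namespace Fermat.Agent.T3.helper74

/-- `M ∣ n C ↔ M / gcd (M, C) ∣ n` -/
theorem dvd_mul_iff_div_gcd_dvd {M C n : ℕ} (hM : 0 < M) :
    M ∣ n * C ↔ M / Nat.gcd M C ∣ n := by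
  have hG : 0 < Nat.gcd M C := Nat.gcd_pos_of_pos_left C hM
  obtain ⟨M', hM'⟩ := Nat.gcd_dvd_left M C
  obtain ⟨C', hC'⟩ := Nat.gcd_dvd_right M C
  have hcop : Nat.Coprime M' C' := by
    have h := Nat.coprime_div_gcd_div_gcd hG
    have e1 : M / Nat.gcd M C = M' := Nat.div_eq_of_eq_mul_right hG hM'
    have e2 : C / Nat.gcd M C = C' := Nat.div_eq_of_eq_mul_right hG hC'
    rwa [e1, e2] at h
  have e1 : M / Nat.gcd M C = M' := Nat.div_eq_of_eq_mul_right hG hM'
  rw [e1]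
  constructor
  · intro h
    have h1 : Nat.gcd M C * M' ∣ Nat.gcd M C * (n * C') := by
      have e3 : n * C = Nat.gcd M C * (n * C') := by
        calc n * C = n * (Nat.gcd M C * C') := congrArg (n * ·) hC'
          _ = Nat.gcd M C * (n * C') := by ring
      rw [← e3, ← hM']
      exact h
    have h2 : M' ∣ n * C' := (Nat.mul_dvd_mul_iff_left hG).mp h1
    exact hcop.dvd_of_dvd_mul_right h2
  · rintro ⟨k, rfl⟩
    refine ⟨k * C', ?_⟩
    calc M' * k * C = M' * k * (Nat.gcd M C * C') := congrArg (M' * k * ·) hC'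
      _ = (Nat.gcd M C * M') * (k * C') := by ring
      _ = M * (k * C') := by rw [← hM']

variable (M : ℕ) [NeZero M]

/-- `T^k` fixes the coset of `g` iff `M ∣ k c²` -/
theorem smul_T_zpow_eq_iff (g : SL(2, ℤ)) (k : ℤ) :
    ((ModularGroup.T ^ k * g : SL(2, ℤ)) : IX M) = (g : IX M) ↔ (M : ℤ) ∣ k * (g 1 0 * g 1 0) := by
  rw [QuotientGroup.eq, Gamma0_mem, Fermat.Agent.S24.helper83.lowerLeft_inv_mul,
    ZMod.intCast_zmod_eq_zero_iff_dvd]
  have e : g 0 0 * g 1 0 - g 0 0 * g 1 0 + k * (g 1 0 * g 1 0) = k * (g 1 0 * g 1 0) := by ring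
  rw [e]

/-- the iterates of `permT` on the coset of `g` -/
theorem permT_iterate (g : SL(2, ℤ)) (n : ℕ) :
    (fun x : IX M => permT M • x)^[n] (g : IX M)
      = ((ModularGroup.T ^ (-(n : ℤ)) * g : SL(2, ℤ)) : IX M) := by
  have h1 : (fun x : IX M => permT M • x) = fun x : IX M => ((ModularGroup.T)⁻¹ : SL(2, ℤ)) • x :=
    rfl
  rw [h1, smul_iterate]
  show (((ModularGroup.T)⁻¹ ^ n * g : SL(2, ℤ)) : IX M) = _
  rw [zpow_neg, zpow_natCast, inv_pow]

/-- the periods of the coset of `g` under `permT` -/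
theorem isPeriodicPt_permT_iff (g : SL(2, ℤ)) (n : ℕ) :
    Function.IsPeriodicPt (fun x : IX M => permT M • x) n (g : IX M) ↔
      M / Nat.gcd M ((g 1 0).natAbs ^ 2) ∣ n := by
  rw [Function.IsPeriodicPt, Function.IsFixedPt, permT_iterate, smul_T_zpow_eq_iff,
    ← dvd_mul_iff_div_gcd_dvd (Nat.pos_of_ne_zero (NeZero.ne M))]
  have e : -(n : ℤ) * (g 1 0 * g 1 0) = -(((n * (g 1 0).natAbs ^ 2 : ℕ) : ℤ)) := by
    push_cast
    rw [sq_abs]
    ring
  rw [e, dvd_neg, Int.natCast_dvd_natCast]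

/-- **the width**: the `T`-orbit of the coset of `g` has `M / gcd (M, c²)` elements. -/
theorem card_orbit_permT (g : SL(2, ℤ)) :
    Nat.card (MulAction.orbit (Subgroup.zpowers (permT M)) (g : IX M))
      = M / Nat.gcd M ((g 1 0).natAbs ^ 2) := by
  rw [Nat.card_congr (MulAction.orbitZPowersEquiv (permT M) (g : IX M)), Nat.card_zmod]
  apply Nat.dvd_antisymm
  · exact Function.IsPeriodicPt.minimalPeriod_dvd
      ((isPeriodicPt_permT_iff M g _).mpr dvd_rfl)
  · exact (isPeriodicPt_permT_iff M g _).mp (Function.isPeriodicPt_minimalPeriod _ _)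

/-- **the exponent of the cusp dictionary** is `gcd (M, c²)`. -/
theorem dict_exponent_eq (g : SL(2, ℤ)) {d : ℕ}
    (hd : d * Nat.card (MulAction.orbit (Subgroup.zpowers (permT M)) (g : IX M)) = M) :
    d = Nat.gcd M ((g 1 0).natAbs ^ 2) := by
  rw [card_orbit_permT] at hd
  have hM : 0 < M := Nat.pos_of_ne_zero (NeZero.ne M)
  have hG : 0 < Nat.gcd M ((g 1 0).natAbs ^ 2) := Nat.gcd_pos_of_pos_left _ hM
  obtain ⟨M', hM'⟩ := Nat.gcd_dvd_left M ((g 1 0).natAbs ^ 2)
  have e1 : M / Nat.gcd M ((g 1 0).natAbs ^ 2) = M' := Nat.div_eq_of_eq_mul_right hG hM'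
  rw [e1] at hd
  have hM'0 : 0 < M' := by
    rcases Nat.eq_zero_or_pos M' with h0 | h0
    · rw [h0, mul_zero] at hM'
      omega
    · exact h0
  have : d * M' = Nat.gcd M ((g 1 0).natAbs ^ 2) * M' := by rw [hd]; exact hM'
  exact Nat.eq_of_mul_eq_mul_right hM'0 this

/-- `gcd (N q², c²) = gcd (N, c²) · (q² or 1)` for `q ∤ N` -/
theorem gcd_level_sq {N q : ℕ} (hq : q.Prime) (hqN : ¬ q ∣ N) (c : ℕ) :
    Nat.gcd (N * q * q) (c ^ 2) = Nat.gcd N (c ^ 2) * (if q ∣ c then q * q else 1) := by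
  have hcop : Nat.Coprime N (q * q) := by
    have h1 : Nat.Coprime q N := (Nat.Prime.coprime_iff_not_dvd hq).mpr hqN
    exact (Nat.Coprime.mul_left h1 h1).symm
  have h2 : Nat.gcd (N * q * q) (c ^ 2) = Nat.gcd N (c ^ 2) * Nat.gcd (q * q) (c ^ 2) := by
    rw [mul_assoc, Nat.gcd_comm, Nat.Coprime.gcd_mul _ hcop, Nat.gcd_comm (c ^ 2) N,
      Nat.gcd_comm (c ^ 2) (q * q)]
  rw [h2]
  congr 1
  split_ifs with hdvd
  · apply Nat.gcd_eq_left
    rw [sq]
    exact Nat.mul_dvd_mul hdvd hdvd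
  · have h3 : Nat.Coprime q c := (Nat.Prime.coprime_iff_not_dvd hq).mpr hdvd
    exact Nat.Coprime.mul_left (Nat.Coprime.pow_right 2 h3) (Nat.Coprime.pow_right 2 h3)

/-- the exponent of the cusp dictionary at level `N q²`, in terms of level `N` -/
theorem dict_exponent_level_sq {N q : ℕ} [NeZero N] [NeZero q] (hq : q.Prime) (hqN : ¬ q ∣ N)
    (g : SL(2, ℤ)) {d : ℕ}
    (hd : d * Nat.card (MulAction.orbit (Subgroup.zpowers (permT (N * q * q)))
      (g : IX (N * q * q))) = N * q * q) :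
    d = Nat.gcd N ((g 1 0).natAbs ^ 2) * (if q ∣ (g 1 0).natAbs then q * q else 1) := by
  rw [dict_exponent_eq (N * q * q) g hd, gcd_level_sq hq hqN]

end Fermat.Agent.T3.helper74

end
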