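/-
T3 (S36), [CUSP-Q] (helper5, second prover): **the substitution table of the family `ex3c`**.

For the family `helper87.ex3c N q ζ : Cusp N × Fin 3 → FF (N q q) →+* ℚ̄((t))` (local parameters)
and the expansions `helper87.ENc N` of level `N`:

* `dloc_cosetOf`   : `dloc M (cosetOf M γ) = gcd M (γ₁₀²)`;
* `dloc_kap`       : `dloc N (crep (kap ζ i e c)) = dloc N (crep c)`;
* `DQ_eq`          : `DQ ζ (c, i) = tq i * dloc N (crep c)`;
* `exists_subst`   : `ex3c ζ (c,i) (dgF e y) = qExpand (sc3 q i e) (rot ε (ENc (kap ζ i e c) y))`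
                     with `ε = ε' * (ζ if (i,e) = (2,2), 1 otherwise)`, `ε' ^ N = 1`;
* `tableTw_ex3c`   : `helper74.TableTw A (ENc N) (ex3c N q ζ) ζ (kap N q ζ)`.
-/
import Mathlib
import Fermat.Agent.T3.helper87_CuspQFam
import Fermat.Agent.T3.helper74_Width
import Fermat.Agent.T3.helper74_Sat3TwShapes
import Fermat.Agent.T3.helper84_K0Basic

set_option autoImplicit false
set_option synthInstance.maxHeartbeats 400000
set_option maxHeartbeats 1000000
set_option linter.unusedSectionVars false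
set_option linter.unusedVariables false
set_option linter.style.haveILetI false
set_option linter.style.longLine false

noncomputable section

open HahnSeries ModularCurve
open Fermat.Agent.S18.helper19
open Fermat.Agent.S28 (IX rep)
open Fermat.Agent.P2.helper28
open Fermat.Agent.P2.helper94 (rot rot_coeff rot_rot rot_one)
open Fermat.Agent.T3.helper23 (sigmaFF sigmaFF_apply)
open Fermat.Agent.T3.helper90 (cosetOf cosetOf_rep uK iotaK_uK uK_unique)
open Fermat.Agent.T3.helper74 (dgF sc3 leadTw TableEntry TableTw)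
open Fermat.Agent.T3.helper87
open scoped MatrixGroups
open CongruenceSubgroup

namespace Fermat.Agent.T3.helper5

/-! ### Generic lemmas -/

section Gen

/-- rotations and substitutions `t ↦ t^d` -/
theorem rot_qExpand_comm (d : ℕ) [NeZero d] (u : Kbˣ) (x : LaurentSeries Kb) :
    rot u (qExpand Kb d x) = qExpand Kb d (rot (u ^ d) x) := by
  ext n
  rw [rot_coeff]
  by_cases hd : (d : ℤ) ∣ n
  · obtain ⟨j, rfl⟩ := hd
    rw [qExpand_coeff_mul, qExpand_coeff_mul, rot_coeff, zpow_mul, zpow_natCast]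
  · rw [qExpand_coeff_of_not_dvd _ _ hd, qExpand_coeff_of_not_dvd _ _ hd, mul_zero]

variable (M : ℕ) [NeZero M]

/-- the exponent of the local parameter at the coset of `γ` -/
theorem dloc_cosetOf (γ : SL(2, ℤ)) :
    dloc M (cosetOf M γ) = Nat.gcd M ((γ 1 0).natAbs ^ 2) := by
  have h1 : dloc M (cosetOf M γ) * Nat.card (MulAction.orbit (Subgroup.zpowers (permT M))
      (((γ⁻¹ : SL(2, ℤ)) : IX M))) = M := by
    have h := dloc_mul_wd M (cosetOf M γ)
    rw [wd_eq_card] at h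
    exact h
  have h2 := Fermat.Agent.T3.helper74.dict_exponent_eq M (γ⁻¹) h1
  rw [h2, sl_inv_one_zero, Int.natAbs_neg]

/-- the expansions at two cosets of one cusp differ by a rotation -/
theorem exists_sigmaFF_eq_rot {I I' : IX M} (h : cuspOf M I = cuspOf M I') :
    ∃ m : ℕ, ∀ y : FF M, sigmaFF M I y = rot (zK M ^ m) (sigmaFF M I' y) := by
  obtain ⟨z, hz⟩ := (cuspOf_eq_iff_zpow M I I').mp h
  have hM : (0 : ℤ) < (M : ℤ) := by exact_mod_cast Nat.pos_of_ne_zero (NeZero.ne M)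
  have hnn : 0 ≤ z % (M : ℤ) := Int.emod_nonneg z hM.ne'
  refine ⟨(z % (M : ℤ)).toNat, fun y => ?_⟩
  have hpow : permT M ^ z = permT M ^ (z % (M : ℤ)).toNat := by
    have e1 : z = (z % (M : ℤ)) + (M : ℤ) * (z / (M : ℤ)) := (Int.emod_add_mul_ediv z M).symm
    conv_lhs => rw [e1]
    rw [zpow_add, zpow_mul, zpow_natCast (permT M) M, permT_pow_level, one_zpow, mul_one]
    conv_lhs => rw [← Int.toNat_of_nonneg hnn]
    rw [zpow_natCast]
  rw [← hz, hpow, sigmaFF_permT_pow]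

end Gen

/-! ### The exponents of the family -/

section Exp

variable {N q : ℕ} [NeZero N] [NeZero q]

theorem sc3_pos' (i e : Fin 3) : 0 < sc3 q i e := by
  have hq0 : 0 < q := Nat.pos_of_ne_zero (NeZero.ne q)
  have hqq : 0 < q * q := Nat.mul_pos hq0 hq0
  unfold sc3
  split_ifs <;> first | exact Nat.one_pos | exact hq0 | exact hqq

instance instNeZeroSc3' (i e : Fin 3) : NeZero (sc3 q i e) := ⟨(sc3_pos' i e).ne'⟩

/-- `q` divides the lower left entry of a matrix of type `i` iff `i ≠ 1` -/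
theorem ite_dvd_eq_tq (hq : q.Prime) (hqN : ¬ q ∣ N) {k : ℤ} (hk : ¬ (q : ℤ) ∣ k)
    {γ : SL(2, ℤ)} {i : Fin 3} (h : IsTy N q i k γ) :
    (if q ∣ (γ 1 0).natAbs then q * q else 1) = tq q i := by
  have hqp : Prime (q : ℤ) := Nat.prime_iff_prime_int.mp hq
  rcases Fermat.Agent.T3.helper74.fin3_cases i with rfl | rfl | rfl
  · have h1 : ((q : ℤ) * q) ∣ γ 1 0 := (isTy_zero_iff N q k γ).mp h
    have h2 : (q : ℤ) ∣ γ 1 0 := (dvd_mul_right _ _).trans h1
    rw [if_pos (Int.natCast_dvd.mp h2)]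
    rfl
  · have h1 : ((q : ℤ) * q) ∣ γ 1 1 := (isTy_one_iff N q k γ).mp h
    have h2 : (q : ℤ) ∣ γ 1 1 := (dvd_mul_right _ _).trans h1
    have h3 : ¬ q ∣ (γ 1 0).natAbs := by
      intro h4
      have h5 : (q : ℤ) ∣ γ 1 0 := Int.natCast_dvd.mpr h4
      have hdet : γ 0 0 * γ 1 1 - γ 0 1 * γ 1 0 = 1 := by
        have := γ.det_coe
        rw [Matrix.det_fin_two] at this
        exact this
      have h6 : (q : ℤ) ∣ 1 := by
        rw [← hdet]
        exact dvd_sub (dvd_mul_of_dvd_right h2 _) (dvd_mul_of_dvd_right h5 _)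
      exact hqp.not_isUnit (isUnit_of_dvd_one h6)
    rw [if_neg h3]
    rfl
  · have h2 : (q : ℤ) ∣ γ 1 0 := dvd_of_isTy_two hq hqN hk h
    rw [if_pos (Int.natCast_dvd.mp h2)]
    rfl

theorem coprime_pA (hq : q.Prime) (hqN : ¬ q ∣ N) (i e : Fin 3) : Nat.Coprime (pA q i e) N := by
  have h1 : Nat.Coprime q N := (Nat.Prime.coprime_iff_not_dvd hq).mpr hqN
  have h2 : Nat.Coprime (q ^ (e : ℕ)) N := Nat.Coprime.pow_left _ h1
  exact Nat.Coprime.coprime_dvd_left ⟨pD q i e, (pA_mul_pD i e).symm⟩ h2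

/-- the Hermite partner has the same exponent of the local parameter at level `N` -/
theorem gcd_partner (hq : q.Prime) (hqN : ¬ q ∣ N) {k : ℤ} (hk : ¬ (q : ℤ) ∣ k)
    {γ : SL(2, ℤ)} {i : Fin 3} (h : IsTy N q i k γ) (e : Fin 3) :
    Nat.gcd N ((partner N q γ i e k 1 0).natAbs ^ 2) = Nat.gcd N ((γ 1 0).natAbs ^ 2) := by
  have hP := partOK_of_isTy hq hqN hk h e
  rw [partner_one_zero hP]
  have h1 : (γ 1 0).natAbs = (pC q γ i e).natAbs * pA q i e := by
    conv_lhs => rw [hP.1]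
    rw [Int.natAbs_mul, Int.natAbs_natCast]
  rw [h1, mul_pow]
  exact (Nat.Coprime.gcd_mul_right_cancel_right _
    (Nat.Coprime.pow_left 2 (coprime_pA hq hqN i e))).symm

variable (ζ : Kb)

/-- the exponent of the local parameter at the chosen coset of `c` -/
theorem dloc_crep (c : Cusp N) (i : Fin 3) (k : ℤ) :
    dloc N (crep N c) = Nat.gcd N ((gQ N q c i k 1 0).natAbs ^ 2) := by
  rw [← cosetOf_gQ N q c i k, dloc_cosetOf]

/-- the exponents of the local parameters at `κ i e c` and at `c` agree -/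
theorem dloc_kap (hq : q.Prime) (hqN : ¬ q ∣ N) (hζ : IsPrimitiveRoot ζ q) (i e : Fin 3)
    (c : Cusp N) : dloc N (crep N (kap N q ζ i e c)) = dloc N (crep N c) := by
  have hk := (kmid_spec hq hqN c hζ).1
  have h1 : cuspOf N (crep N (kap N q ζ i e c)) = cuspOf N (cosetOf N
      (partner N q (gQ N q c i (kmid N q c ζ)) i e (kmid N q c ζ))) := by
    rw [cuspOf_crep]
    rfl
  rw [dloc_eq_of_cuspOf_eq N h1, dloc_cosetOf, gcd_partner hq hqN hk (isTy_gQ N q hq hqN c i hk) e,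
    ← dloc_crep c i (kmid N q c ζ)]

/-- the exponent of the local parameter of the family at the index `(c, i)` -/
theorem DQ_eq (hq : q.Prime) (hqN : ¬ q ∣ N) (hζ : IsPrimitiveRoot ζ q) (c : Cusp N)
    (i : Fin 3) : DQ N q ζ (c, i) = dloc N (crep N c) * tq q i := by
  have hk := (kmid_spec hq hqN c hζ).1
  show dloc (N * q * q) (cosetOf (N * q * q) (gQ N q c i (kmid N q c ζ))) = _
  rw [dloc_cosetOf, Fermat.Agent.T3.helper74.gcd_level_sq hq hqN,
    ite_dvd_eq_tq hq hqN hk (isTy_gQ N q hq hqN c i hk), ← dloc_crep c i (kmid N q c ζ)]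

end Exp

/-! ### The substitution table -/

section Table

variable {N q : ℕ} [NeZero N] [NeZero q]

theorem uK_zero (D : ℕ) (hD : 0 < D) : uK D hD 0 = 1 := by
  symm
  apply uK_unique
  rw [Units.val_one, map_one]
  unfold Fermat.Agent.S23.helper74.xi
  simp

/-- the twist of the raw table: trivial except for `(i, e) = (2, 2)` -/
theorem uB_eq (i e : Fin 3) (k : ℤ) :
    uK (pD q i e * N) (pDN_pos i e) (pB N i e k) =
      if i = 2 ∧ e = 2 then uMid N q k else 1 := by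
  split_ifs with h
  · obtain ⟨rfl, rfl⟩ := h
    rfl
  · have h0 : pB N i e k = 0 := if_neg h
    have h1 : ∀ (b : ℤ), b = 0 → uK (pD q i e * N) (pDN_pos i e) b = 1 := by
      intro b hb
      rw [hb]
      exact uK_zero _ _
    exact h1 _ h0

variable {ζ : Kb}

/-- **the substitution table of the family**: the expansion of `y(q^e τ)` at the index `(c, i)`
is the expansion of `y` at the cusp `κ i e c`, rotated and substituted `t ↦ t^(sc3 q i e)`. -/
theorem exists_subst (hq : q.Prime) (hqN : ¬ q ∣ N) (hζ : IsPrimitiveRoot ζ q) (c : Cusp N)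
    (i e : Fin 3) :
    ∃ u : Kbˣ, (∃ ε' : Kb, ε' ^ N = 1 ∧ (u : Kb) = ε' * (if i = 2 ∧ e = 2 then ζ else 1)) ∧
      ∀ y : FF N, ex3c N q ζ (c, i) (dgF N q e y) =
        qExpand Kb (sc3 q i e) (rot u (ENc N (kap N q ζ i e c) y)) := by
  obtain ⟨hk, hkζ⟩ := kmid_spec hq hqN c hζ
  have hg : IsTy N q i (kmid N q c ζ) (gQ N q c i (kmid N q c ζ)) :=
    isTy_gQ N q hq hqN c i hk
  have hcusp : cuspOf N (cosetOf N (partner N q (gQ N q c i (kmid N q c ζ)) i e (kmid N q c ζ)))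
      = cuspOf N (crep N (kap N q ζ i e c)) := by
    rw [cuspOf_crep]
    rfl
  obtain ⟨m, hm⟩ := exists_sigmaFF_eq_rot N hcusp
  refine ⟨(uK (pD q i e * N) (pDN_pos i e) (pB N i e (kmid N q c ζ)) * zK N ^ m)
      ^ dloc N (crep N (kap N q ζ i e c)),
    ⟨(((zK N ^ m) ^ dloc N (crep N (kap N q ζ i e c)) : Kbˣ) : Kb), ?_, ?_⟩, fun y => ?_⟩
  · have h1 : ∀ a b : ℕ, ((zK N ^ a) ^ b) ^ N = 1 := by
      intro a b
      have h2 : ((zK N ^ a) ^ b) ^ N = (zK N ^ N) ^ (a * b) := by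
        simp only [← pow_mul]
        congr 1
        ring
      rw [h2, zK_pow, one_pow]
    rw [← Units.val_pow_eq_pow_val, h1, Units.val_one]
  · rw [mul_pow, Units.val_mul, mul_comm]
    congr 1
    rw [uB_eq]
    split_ifs with h22
    · rw [Units.val_pow_eq_pow_val, dloc_kap ζ hq hqN hζ i e c, hkζ]
    · rw [one_pow, Units.val_one]
  · apply Fermat.Agent.P2.helper94.qExpand_injective (DQ N q ζ (c, i))
    rw [qExpand_ex3c]
    show sigmaFF (N * q * q) (cosetOf (N * q * q) (gQ N q c i (kmid N q c ζ))) (dgF N q e y) = _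
    rw [raw_table_of_isTy hq hqN hk hg e y, hm, rot_rot, ← qExpand_ENc, rot_qExpand_comm,
      qExpand_qExpand, qExpand_qExpand]
    apply qExpand_congr
    rw [DQ_eq ζ hq hqN hζ c i, ← dloc_kap ζ hq hqN hζ i e c]
    unfold pM
    ring

end Table

/-! ### The twisted table -/

section TableTw

variable {N q : ℕ} [NeZero N] [NeZero q] {ζ : Kb}

/-- **[CUSP-Q] the twisted dg-table of the family** `ex3c`, in the order form of
`helper74.TableTw`. -/
theorem tableTw_ex3c (hq : q.Prime) (hqN : ¬ q ∣ N) (A : ValuationSubring Kb)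
    (hA : A.LiesOverPrime q) (hζ : IsPrimitiveRoot ζ q) :
    TableTw A (ENc N) (ex3c N q ζ) ζ (kap N q ζ) := by
  intro c i e x X hX
  obtain ⟨u, ⟨ε', hε'N, hu⟩, hsub⟩ := exists_subst hq hqN hζ c i e
  have hε'v : A.valuation ε' = 1 :=
    Fermat.Agent.T3.helper84.k0_valuation_eq_one_of_pow A (NeZero.ne N)
      (by rw [hε'N, map_one])
  have hε'I : ∀ σ ∈ A.inertiaSubgroupIn ℚ, σ ε' = ε' :=
    Fermat.Agent.T3.helper84.k0_root hq A hA hqN (u := 1) (w := ε') (map_one _)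
      (fun σ _ => map_one σ) hε'N
  by_cases h22 : i = 2 ∧ e = 2
  · obtain ⟨rfl, rfl⟩ := h22
    rw [if_pos ⟨rfl, rfl⟩] at hu
    have hζv : A.valuation ζ = 1 :=
      Fermat.Agent.T3.helper84.k0_valuation_eq_one_of_pow A hq.ne_zero
        (by rw [hζ.pow_eq_one, map_one])
    obtain ⟨Y, hY, hT⟩ :=
      Fermat.Agent.T3.helper74.exists_tableEntry_rot_zeta (q := q) hζv u hu hε'v hε'I X
    refine ⟨Y, ?_, hT⟩
    rw [hY, hsub, hX]
    have h1 : sc3 q 2 2 = 1 := rfl
    rw [qExpand_congr h1, qExpand_one_apply]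
  · rw [if_neg h22, mul_one] at hu
    obtain ⟨Y, hY, hT⟩ :=
      Fermat.Agent.T3.helper74.exists_tableEntry_qExpand_rot ζ (sc3 q i e) rfl h22 u
        (by rw [hu]; exact hε'v) (by rw [hu]; exact hε'I) X
    exact ⟨Y, by rw [hY, hsub, hX], hT⟩

end TableTw

/-! ### Injectivity of `κ` -/

section Kap

variable {N q : ℕ} [NeZero N] [NeZero q] {ζ : Kb}

/-- **Hermite transport**: two matrices of the same type whose Hermite partners lie over the
same cusp of level `N` lie over the same cusp of level `N`. -/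
theorem cuspOf_eq_of_partner (hq : q.Prime) (hqN : ¬ q ∣ N) {k₁ k₂ : ℤ}
    (hk₁ : ¬ (q : ℤ) ∣ k₁) (hk₂ : ¬ (q : ℤ) ∣ k₂) {γ₁ γ₂ : SL(2, ℤ)} {i : Fin 3}
    (h₁ : IsTy N q i k₁ γ₁) (h₂ : IsTy N q i k₂ γ₂) (e : Fin 3)
    (h : cuspOf N (cosetOf N (partner N q γ₂ i e k₂))
      = cuspOf N (cosetOf N (partner N q γ₁ i e k₁))) :
    cuspOf N (cosetOf N γ₂) = cuspOf N (cosetOf N γ₁) := by
  have hP₁ := partOK_of_isTy hq hqN hk₁ h₁ e
  have hP₂ := partOK_of_isTy hq hqN hk₂ h₂ e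
  obtain ⟨z, w, hw⟩ := (cuspOf_cosetOf_eq_iff N _ _).mp h
  rw [partner_one_zero hP₁, partner_one_zero hP₂, partner_one_one hP₁,
    partner_one_one hP₂] at hw
  obtain ⟨β₁, hβ₁⟩ := dvd_pB (N := N) i e k₁
  obtain ⟨β₂, hβ₂⟩ := dvd_pB (N := N) i e k₂
  have hcop : IsCoprime ((pA q i e : ℕ) : ℤ) ((N : ℕ) : ℤ) :=
    Nat.isCoprime_iff_coprime.mpr (coprime_pA hq hqN i e)
  obtain ⟨a', t, hat⟩ := hcop
  rw [cuspOf_cosetOf_eq_iff]
  refine ⟨(pD q i e : ℤ) * z * a', (pA q i e : ℤ) * (pD q i e : ℤ) * w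
    + (pA q i e : ℤ) * pC q γ₁ i e * pC q γ₂ i e * (β₁ - β₂)
    - (pD q i e : ℤ) * z * (pA q i e : ℤ) * t * pC q γ₁ i e * pC q γ₂ i e, ?_⟩
  have e10₁ := hP₁.1
  have e11₁ := hP₁.2
  have e10₂ := hP₂.1
  have e11₂ := hP₂.2
  rw [hβ₁] at e11₁
  rw [hβ₂] at e11₂
  rw [e10₁, e11₁, e10₂, e11₂]
  linear_combination ((pA q i e : ℤ) * (pD q i e : ℤ)) * hw
    + ((pD q i e : ℤ) * z * (pA q i e : ℤ) * pC q γ₁ i e * pC q γ₂ i e) * hat

/-- **`κ i e` is injective** on the cusps of level `N`. -/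
theorem kap_injective (hq : q.Prime) (hqN : ¬ q ∣ N) (hζ : IsPrimitiveRoot ζ q) (i e : Fin 3) :
    Function.Injective (kap N q ζ i e) := by
  intro c₁ c₂ h
  have hk₁ := (kmid_spec hq hqN c₁ hζ).1
  have hk₂ := (kmid_spec hq hqN c₂ hζ).1
  have h' := cuspOf_eq_of_partner hq hqN hk₂ hk₁ (isTy_gQ N q hq hqN c₂ i hk₂)
    (isTy_gQ N q hq hqN c₁ i hk₁) e h
  rw [cosetOf_gQ, cosetOf_gQ, cuspOf_crep, cuspOf_crep] at h'
  exact h'

end Kap

end Fermat.Agent.T3.helper5

end
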