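import Fermat.Agent.T3.helper5_EigenVecCut
import Fermat.Agent.T3.helper48_AtkinLehnerQ
import Fermat.Agent.T2.helper2_FrobAsm

/-!
# T3 (S36), inputs (EV) and (KerStable) for the cut map `f = (U_q, U_q ∘ W_Q)` (helper5)

`M = N₁ * Q`, `gcd(N₁, Q) = 1`, `W_Q = helper48.atkinLehnerM M N₁ Q` the Atkin–Lehner
automorphism of the function field of `X₀(M)` at the exact divisor `Q`.

* `atkinLehnerM_galois_smul` : on torsion points of `J₀(M)`, `W_Q` commutes with the Galois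
  action;
* `kerStable_uJ`, `kerStable_uJ_pair` : `helper34.KerStable M p f` for `f = U_q` and for
  `f = (U_q, U_q ∘ W_Q)`;
* `eigenVecCut_uJ_atkinLehnerM` : `helper34.EigenVecCutStatement D (ι ∘ χ_g) (U_q, U_q ∘ W_Q)`
  for a newform `g` of level `N`, `q² ∣ N`, `Q ∣ N`, `N ∣ M` (unconditional; glue of
  `eigenVecCut_uJ_pair` with `helper48.bridgeWM` and `helper17.wTr_apply_pair`).
-/

set_option autoImplicit false

open ModularCurve CuspForm CongruenceSubgroup ModularFormClass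

noncomputable section

namespace Fermat.Agent.T3.helper5

open Fermat.Agent.P3 Fermat.Agent.P3.helper16 Fermat.Agent.P3.helper20
  Fermat.Agent.P3.helper94 Fermat.Agent.P3.helper1
  Fermat.Agent.T2.helper76 Fermat.Agent.T2.helper17 Fermat.Agent.T3.helper34
  Fermat.Agent.T3.helper48
open scoped Fermat.Agent.S16.helper26

section Galois

variable (M N₁ Q : ℕ) [NeZero M]

/-- On torsion points, the Atkin–Lehner automorphism `W_Q` commutes with the Galois action. -/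
theorem atkinLehnerM_galois_smul (hM : M = N₁ * Q) (hcop : Nat.Coprime N₁ Q)
    (σ : AlgebraicClosure ℚ ≃ₐ[ℚ] AlgebraicClosure ℚ) {n : ℕ} (hn : n ≠ 0) {x : JZero M}
    (hx : n • x = 0) :
    atkinLehnerM M N₁ Q hM hcop • (σ • x) = σ • (atkinLehnerM M N₁ Q hM hcop • x) := by
  obtain ⟨h, H⟩ := exists_isKummerRep hx
  have H1 := (H.galois_smul_jZero σ).algEquiv_smul (atkinLehnerM M N₁ Q hM hcop)
  have H2 := (H.algEquiv_smul (atkinLehnerM M N₁ Q hM hcop)).galois_smul_jZero σ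
  rw [atkinLehnerM_arithmeticRingAut] at H1
  exact Fermat.Agent.T2.helper2.isKummerRep_class_unique hn H1 H2

end Galois

section Ker

variable (M : ℕ) [NeZero M] (p : ℕ)

omit [NeZero M] in
theorem galois_smul_zero_jZero (σ : AlgebraicClosure ℚ ≃ₐ[ℚ] AlgebraicClosure ℚ) :
    σ • (0 : JZero M) = 0 :=
  @smul_zero (AlgebraicClosure ℚ ≃ₐ[ℚ] AlgebraicClosure ℚ) (JZero M) _ _ σ

/-- The kernel of `U_q` is Galois stable. -/
theorem kerStable_uJ (q : ℕ) [NeZero q] :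
    KerStable M p (Fermat.Agent.T2.helper48.uJ M q) := by
  intro σ x _ hx
  rw [Fermat.Agent.T2.helper48.uJ_galois_smul, hx]
  exact galois_smul_zero_jZero M σ

/-- The kernel of `(U_q, U_q ∘ W_Q)` on `p`-power torsion is Galois stable. -/
theorem kerStable_uJ_pair (hp : p ≠ 0) (q : ℕ) [NeZero q] (N₁ Q : ℕ) (hM : M = N₁ * Q)
    (hcop : Nat.Coprime N₁ Q) :
    KerStable M p ((Fermat.Agent.T2.helper48.uJ M q).prod
      ((Fermat.Agent.T2.helper48.uJ M q).comp
        (DistribSMul.toAddMonoidHom (JZero M) (atkinLehnerM M N₁ Q hM hcop)))) := by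
  rintro σ x ⟨n, hn⟩ hx
  rw [AddMonoidHom.prod_apply, Prod.mk_eq_zero] at hx ⊢
  obtain ⟨h1, h2⟩ := hx
  refine ⟨by rw [Fermat.Agent.T2.helper48.uJ_galois_smul, h1]; exact galois_smul_zero_jZero M σ, ?_⟩
  have h3 : (Fermat.Agent.T2.helper48.uJ M q) (atkinLehnerM M N₁ Q hM hcop • x) = 0 := h2
  show (Fermat.Agent.T2.helper48.uJ M q) (atkinLehnerM M N₁ Q hM hcop • (σ • x)) = 0
  rw [atkinLehnerM_galois_smul M N₁ Q hM hcop σ (pow_ne_zero n hp) hn,
    Fermat.Agent.T2.helper48.uJ_galois_smul, h3]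
  exact galois_smul_zero_jZero M σ

end Ker

section EV

variable {p : ℕ} [Fact p.Prime] {N : ℕ} [NeZero N] {S : Finset ℕ}

/-- **(EV) of S36** for `f = (U_q, U_q ∘ W_Q)`, `W_Q` the Atkin–Lehner automorphism at the
exact divisor `Q` of `M = N₁ Q` (`Q ∣ N`, e.g. `Q = q²`): unconditional. -/
theorem eigenVecCut_uJ_atkinLehnerM {g : CuspForm (Gamma0 N) 2} (hg : g.IsNewform)
    {M : ℕ} [NeZero M] {hNM : N ∣ M} (D : helper67.TateGeom p N S M hNM)
    {O' : Type} [CommRing O'] [IsDomain O'] [CharZero O'] [Algebra ℤ_[p] O']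
    (chig : CuspForm.heckeAlgebra N 2 (↑S : Set ℕ) →+* ℂ)
    (hchig : ∀ (ℓ : ℕ) (hℓ : ℓ.Prime) (hℓN : ¬ ℓ ∣ N) (hℓS : ℓ ∉ (↑S : Set ℕ)),
      chig (CuspForm.heckeAlgebra.T hℓ hℓN hℓS) = qCoeff g ℓ)
    (iota : chig.range →+* O')
    (q : Nat.Primes) (hq2 : (q : ℕ) ^ 2 ∣ N)
    (N₁ Q : ℕ) (hM : M = N₁ * Q) (hcop : Nat.Coprime N₁ Q) (hQN : Q ∣ N) :
    EigenVecCutStatement D (iota.comp chig.rangeRestrict)
      ((Fermat.Agent.T2.helper48.uJ M q).prod
        ((Fermat.Agent.T2.helper48.uJ M q).comp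
          (DistribSMul.toAddMonoidHom (JZero M) (atkinLehnerM M N₁ Q hM hcop)))) := by
  have hQ : Q ≠ 0 := fun h => NeZero.ne M (by rw [hM, h, mul_zero])
  let Wd : ALData M Q := ALData.ofCoprime hQ (hM.trans (mul_comm N₁ Q)) hcop.symm
  exact eigenVecCut_uJ_pair hg D chig hchig iota q hq2 _ hQN Wd (wTr Wd) (wTr_apply_pair Wd)
    (fun κC hmon n ξ x hx =>
      bridgeWM M N₁ Q hM hcop Wd p (Fact.out : p.Prime).pos κC hmon n ξ x hx)

end EV

end Fermat.Agent.T3.helper5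

end
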