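/-
T3 [IDEAL3], field `hunitw` of `helper22.Ideal3Rest` (helper5): the CONCRETE shape (no `TorCalc`,
no base `B`) of the box [UNITW] proved in `helper5_UnitW.lean`.

* `hunitw_rest hA hζ hN` : for every `c : Fin 3` there is `m`, regular where `j` is finite, such
  that every nonzero `Rho3`-integral `G` has a multiple `G m ^ k` which is `Rho3`-integral with
  NONZERO reduction at `c`   (`4 ∣ N` or `9 ∣ N`).
-/
import Mathlib
import Fermat.Agent.T3.helper5_UnitW

set_option autoImplicit false
set_option synthInstance.maxHeartbeats 400000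
set_option linter.unusedSectionVars false
set_option linter.unusedVariables false
set_option linter.style.haveILetI false

noncomputable section

open HahnSeries IntermediateField AlgebraicCurve ModularCurve
open Fermat.Agent.S18.helper19 Fermat.Agent.P2.helper29 Fermat.Agent.P2.helper93
open Fermat.Agent.T3.helper36 (RhoQ GaussIs)
open Fermat.Agent.T3.helper74 (ex3 IsFixI)
open Fermat.Agent.T3.helper49 (Rho3)
open Fermat.Agent.T3.helper98 (regJRing IsRegJ)
open Fermat.Agent.T3.helper16 (IsUnit0 exists_isUnit0)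

namespace Fermat.Agent.T3.helper5

variable {A : ValuationSubring Kb} {ζ : Kb} {N q : ℕ} [NeZero N] [NeZero q] {hq : q.Prime}
  {hqN : ¬ q ∣ N}

/-- **[UNITW]**, the field `hunitw` of `helper22.Ideal3Rest`, VERBATIM. -/
theorem hunitw_rest (hA : A.LiesOverPrime q) (hζ : IsPrimitiveRoot ζ q) (hN : 4 ∣ N ∨ 9 ∣ N) :
    ∀ c : Fin 3, ∃ m : FF (N * q * q), IsRegJ (N * q * q) m ∧
      ∀ (G : FF (N * q * q)) (X : Fin 3 → LaurentSeries (kA A)), G ≠ 0 →
        Rho3 N q hq hqN A hζ G X →
        ∃ (k : ℕ) (X' : Fin 3 → LaurentSeries (kA A)), Rho3 N q hq hqN A hζ (G * m ^ k) X' ∧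
          X' c ≠ 0 := by
  obtain ⟨b0, Bs, ε, h⟩ := exists_isUnit0 hq hqN hN
  have hfin : ∀ c' : Fin 3, c' = 0 ∨ c' = 1 ∨ c' = 2 := by
    intro c'
    fin_cases c'
    · exact Or.inl rfl
    · exact Or.inr (Or.inl rfl)
    · exact Or.inr (Or.inr rfl)
  intro c
  rcases hfin c with rfl | rfl | rfl
  · refine ⟨unitInf N q b0, mem_regJ_unitInf h, fun G X hG ρ => ?_⟩
    refine unitw_of_unit hA hζ 0 (isFixI_unitInf h) (gaussIs_unitInf_zero h hζ) ?_ G X hG ρ
    intro c' hc'
    rcases hfin c' with rfl | rfl | rfl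
    · exact absurd rfl hc'
    · exact gaussIs_unitInf_one h hζ
    · exact gaussIs_unitInf_two h hA hζ
  · refine ⟨unitZero N q b0, mem_regJ_unitZero h, fun G X hG ρ => ?_⟩
    refine unitw_of_unit hA hζ 1 (isFixI_unitZero h) (gaussIs_unitZero_one h hζ) ?_ G X hG ρ
    intro c' hc'
    rcases hfin c' with rfl | rfl | rfl
    · exact gaussIs_unitZero_zero h hζ
    · exact absurd rfl hc'
    · exact gaussIs_unitZero_two h hζ
  · refine ⟨unitMid N q b0, mem_regJ_unitMid h, fun G X hG ρ => ?_⟩
    refine unitw_of_unit hA hζ 2 (isFixI_unitMid h) (gaussIs_unitMid_two h hA hζ) ?_ G X hG ρ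
    intro c' hc'
    rcases hfin c' with rfl | rfl | rfl
    · exact gaussIs_unitMid_zero h hζ
    · exact gaussIs_unitMid_one h hζ
    · exact absurd rfl hc'

end Fermat.Agent.T3.helper5

end
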