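/-
TIER 3 (S36), helper67: **v2 quantification of the auxiliary levels** (answer to helper63's
coverage note on [T3-MIDGEN]).

`helper72.NewCoreAtAuxLevels` and the four boxes of `helper72.newCoreAtAuxLevels_of_boxes` are
quantified over all `N'` with `4 ∣ N' ∨ 9 ∣ N'`, but the assembly only ever uses
`N' = 9 N₁` for `q = 2` and `N' = 4 N₁` for odd `q`.  Here:

* `AuxOK N' q`                    : `(q = 2 ∧ 9 ∣ N') ∨ (q ≠ 2 ∧ 4 ∣ N')`;
* `NewCoreAtAuxLevels2`           : the open box, only at the levels with `AuxOK N' q`;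
* `s36Core_of_newCore2`           : `NewCoreAtAuxLevels2 → helper34.S36CoreStatement`;
* `s36_of_newCore2`               : the frozen S36 (verbatim binders) from `NewCoreAtAuxLevels2`;
* `newCoreAtAuxLevels2_of_boxes`  : the four boxes, each ONLY at the levels with `AuxOK N' q`,
  give `NewCoreAtAuxLevels2`;
* `newCoreAtAuxLevels2_of_cases`  : the same with the boxes split into the case `q = 2`,
  `9 ∣ N'` and the case `q` odd, `4 ∣ N'`.

So the level `9` analogue of the Jacobi identity is not needed: for odd `q` only `4 ∣ N'` occurs,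
and for `q = 2` the middle component is reduced.
-/
import Fermat.Agent.T3.helper72_Wire3

set_option autoImplicit false
set_option synthInstance.maxHeartbeats 400000
set_option linter.unusedSectionVars false
set_option linter.unusedVariables false
set_option linter.style.haveILetI false

open Polynomial

noncomputable section

namespace Fermat.Agent.T3.helper67

open Fermat.Agent.P3 Fermat.Agent.S18.helper19 Fermat.Agent.T2.helper76
open Fermat.Agent.T3.helper72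

/-- the auxiliary levels which the assembly of S36 really uses: `9 ∣ N'` for `q = 2` and
`4 ∣ N'` for odd `q`. -/
def AuxOK (N' q : ℕ) : Prop := (q = 2 ∧ 9 ∣ N') ∨ (q ≠ 2 ∧ 4 ∣ N')

theorem AuxOK.good {N' q : ℕ} (h : AuxOK N' q) : 4 ∣ N' ∨ 9 ∣ N' := by
  rcases h with ⟨-, h⟩ | ⟨-, h⟩
  · exact Or.inr h
  · exact Or.inl h

theorem auxOK_of_two {N' : ℕ} (h : 9 ∣ N') : AuxOK N' 2 := Or.inl ⟨rfl, h⟩

theorem auxOK_of_odd {N' q : ℕ} (hq : q ≠ 2) (h : 4 ∣ N') : AuxOK N' q := Or.inr ⟨hq, h⟩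

/-- **The open box of S36, v2**: the function-field core of (NEW-INV) at the levels
`N' * q * q`, `q ∤ N'`, ONLY for `9 ∣ N'` if `q = 2` and `4 ∣ N'` if `q` is odd. -/
def NewCoreAtAuxLevels2 : Prop :=
  ∀ (N' q : ℕ) [NeZero N'] [NeZero q] (hq : q.Prime) (hqN : ¬ q ∣ N') (p : ℕ), p.Prime →
    p ≠ q → AuxOK N' q →
      ∃ (C : ℕ) (A : ValuationSubring Kb), C ≠ 0 ∧ A.LiesOverPrime q ∧
        ∀ k : ℕ, NewCoreStatement N' q hq hqN A (p ^ k) C

/-- the v1 box implies the v2 box -/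
theorem newCoreAtAuxLevels2_of_v1 (hF : NewCoreAtAuxLevels) : NewCoreAtAuxLevels2 :=
  fun N' q _ _ hq hqN p hp hpq hN' => hF N' q hq hqN p hp hpq hN'.good

/-- The auxiliary level of S36 in the form `N' * q * q = c * N`, with `AuxOK N' q`. -/
theorem exists_auxLevel36_v2 {N q : ℕ} [NeZero N] (hq : q.Prime) (hq2 : N.factorization q = 2) :
    ∃ c N' : ℕ, N' ≠ 0 ∧ N' * q * q = c * N ∧ ¬ q ∣ N' ∧ AuxOK N' q ∧
      GoodLevel (N' * q * q) ∧ q ^ 2 ∣ N ∧ q * q ∣ N := by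
  have hN0 : N ≠ 0 := NeZero.ne N
  have hdvd : q ^ 2 ∣ N := by
    rw [← hq2]
    exact Nat.ordProj_dvd N q
  obtain ⟨N₁, hN₁⟩ := hdvd
  have hN₁0 : N₁ ≠ 0 := by
    rintro rfl
    exact hN0 (by rw [hN₁, mul_zero])
  have hqN₁ : ¬ q ∣ N₁ := by
    rintro ⟨k, hk⟩
    have h3 : q ^ 3 ∣ N := ⟨k, by rw [hN₁, hk]; ring⟩
    have := (hq.pow_dvd_iff_le_factorization hN0).mp h3
    omega
  have hqq : q * q ∣ N := ⟨N₁, by rw [hN₁]; ring⟩
  by_cases h2 : q = 2
  · refine ⟨9, 9 * N₁, Nat.mul_ne_zero (by norm_num) hN₁0, by rw [hN₁]; ring, ?_,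
      Or.inl ⟨h2, Dvd.intro _ rfl⟩, Or.inr ⟨N₁ * q * q, by ring⟩, ⟨N₁, hN₁⟩, hqq⟩
    intro h
    rcases (Nat.Prime.dvd_mul hq).mp h with h9 | h9
    · rw [h2] at h9
      norm_num at h9
    · exact hqN₁ h9
  · refine ⟨4, 4 * N₁, Nat.mul_ne_zero (by norm_num) hN₁0, by rw [hN₁]; ring, ?_,
      Or.inr ⟨h2, Dvd.intro _ rfl⟩, Or.inl ⟨N₁ * q * q, by ring⟩, ⟨N₁, hN₁⟩, hqq⟩
    intro h
    rcases (Nat.Prime.dvd_mul hq).mp h with h4 | h4
    · have h5 : q ∣ 2 ^ 2 := by norm_num; exact h4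
      exact h2 ((Nat.prime_dvd_prime_iff_eq hq Nat.prime_two).mp (hq.dvd_of_dvd_pow h5))
    · exact hqN₁ h4

/-- **[T3-ASM], v2**: the geometric input of S36 from the function-field core at the auxiliary
levels with `AuxOK`. -/
theorem s36Core_of_newCore2 (hF : NewCoreAtAuxLevels2) : helper34.S36CoreStatement := by
  intro N _ g hg p _ S O' _ _ _ _ _ _ _ hpO' hp2 chig hchig iota hpS hNS q hq hqp hq2
  have hp : p.Prime := Fact.out
  haveI : NeZero q := ⟨hq.ne_zero⟩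
  obtain ⟨c, N', hN'0, hlevel, hqN', hN', hM, hqsq, hqq⟩ := exists_auxLevel36_v2 hq hq2
  haveI : NeZero N' := ⟨hN'0⟩
  have hNM : N ∣ N' * q * q := ⟨c, by rw [hlevel]; ring⟩
  obtain ⟨D⟩ := Fermat.Agent.T2.helper76.tateGeomAtGoodLevels p N S (N' * q * q) hNM hpS hM
  obtain ⟨C, A, hC, hA, hcore⟩ := hF N' q hq hqN' p hp (fun h => hqp h.symm) hN'
  let Wd : ALData (N' * q * q) (q * q) := helper48.alDataSq N' q hq hqN'
  refine ⟨N' * q * q, inferInstance, hNM, D, _, inferInstance, cutSq N' q hq hqN', C, A, hC, hA,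
    kerStable_cutSq hq hqN' p hp.ne_zero, ?_, newInvAt_of_core hq hqN' p hp.ne_zero A C hcore⟩
  exact helper5.eigenVecCut_uJ_pair hg D chig hchig iota ⟨q, hq⟩ hqsq (wSqJ N' q hq hqN') hqq Wd
    (Fermat.Agent.T2.helper17.wTr Wd) (Fermat.Agent.T2.helper17.wTr_apply_pair Wd)
    (fun κC hmon n ξ x hx =>
      helper48.bridgeWSq N' q hq hqN' Wd p hp.pos κC hmon n ξ x hx)

/-- **S36 from the function-field core at the auxiliary levels with `AuxOK`** (frozen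
statement, verbatim binders). -/
theorem s36_of_newCore2 (hF : NewCoreAtAuxLevels2) :
    ∀ {M : ℕ} [NeZero M] {g : CuspForm (CongruenceSubgroup.Gamma0 M) 2} (_hg : g.IsNewform)
    (lam : ℕ) [Fact lam.Prime]
    (S : Finset ℕ)
    (O' : Type) [CommRing O'] [IsDomain O'] [IsDiscreteValuationRing O']
    [IsAdicComplete (IsLocalRing.maximalIdeal O') O'] [Finite (IsLocalRing.ResidueField O')]
    [CharZero O'] (_hlamO' : (lam : O') ∈ IsLocalRing.maximalIdeal O')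
    (_hlam2 : lam ≠ 2)
    (chig : CuspForm.heckeAlgebra M 2 (↑S : Set ℕ) →+* ℂ)
    (_hchig : ∀ (ℓ : ℕ) (hℓ : ℓ.Prime) (hℓM : ¬ ℓ ∣ M) (hℓS : ℓ ∉ (↑S : Set ℕ)),
      chig (CuspForm.heckeAlgebra.T hℓ hℓM hℓS) = ModularFormClass.qCoeff g ℓ)
    (iota : chig.range →+* O')
    (_hlamS : lam ∈ S) (_hMS : ∀ q : ℕ, q.Prime → q ∣ M → q ∈ S)
    (_hres : ∀ (O'' : Type) [CommRing O''] [IsDomain O''] [IsDiscreteValuationRing O'']
      [IsAdicComplete (IsLocalRing.maximalIdeal O'') O''] [Finite (IsLocalRing.ResidueField O'')]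
      [CharZero O'']
      [Algebra O' O''] [Module.Finite O' O''] [IsLocalHom (algebraMap O' O'')],
      Function.Injective (algebraMap O' O'') → ∀ (ρ : GaloisRepAdic O''),
      (∀ (ℓ : ℕ) (hℓ : ℓ.Prime) (_hℓlam : ℓ ≠ lam) (hℓM : ¬ ℓ ∣ M) (hℓS : ℓ ∉ (↑S : Set ℕ)),
        ∀ A : ValuationSubring (AlgebraicClosure ℚ), A.LiesOverPrime ℓ →
          ∀ σ : AlgebraicClosure ℚ ≃ₐ[ℚ] AlgebraicClosure ℚ, A.IsFrobeniusAt σ ℓ →
            LinearMap.charpoly (ρ.ρ σ) =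
              X ^ 2 - C (algebraMap O' O'' ((iota.comp chig.rangeRestrict)
                (CuspForm.heckeAlgebra.T hℓ hℓM hℓS))) * X + C ((ℓ : O'')))
      → ρ.residual.IsAbsolutelyIrreducible ∧ ρ.residual.IsOdd),
    ∃ (O'' : Type) (_ : CommRing O'') (_ : IsDomain O'') (_ : IsDiscreteValuationRing O'')
      (_ : IsAdicComplete (IsLocalRing.maximalIdeal O'') O'')
      (_ : Finite (IsLocalRing.ResidueField O''))
      (_ : CharZero O'') (_ : Algebra O' O'') (_ : Module.Finite O' O'')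
      (_ : IsLocalHom (algebraMap O' O'')),
      Function.Injective (algebraMap O' O'') ∧
      ∃ ρ : GaloisRepAdic O'',
        (∀ (ℓ : ℕ) (hℓ : ℓ.Prime) (hℓM : ¬ ℓ ∣ M) (hℓS : ℓ ∉ (↑S : Set ℕ)),
          ∀ A : ValuationSubring (AlgebraicClosure ℚ), A.LiesOverPrime ℓ →
            ∀ σ : AlgebraicClosure ℚ ≃ₐ[ℚ] AlgebraicClosure ℚ, A.IsFrobeniusAt σ ℓ →
              LinearMap.charpoly (ρ.ρ σ) =
                X ^ 2 - C (algebraMap O' O'' ((iota.comp chig.rangeRestrict)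
                  (CuspForm.heckeAlgebra.T hℓ hℓM hℓS))) * X + C ((ℓ : O''))) ∧
        (∀ q : ℕ, q.Prime → q ≠ lam → M.factorization q = 2 →
          ¬ ρ.IsUnipotentOnInertiaAt q) :=
  helper34.s36_of_core Fermat.Agent.P3.helper32.strongS30 (s36Core_of_newCore2 hF)

/-- **S36 core from the four boxes, v2.**  If [SCALE3], [NORMPOW3], [APPROX3] and [TORIC] hold at
the auxiliary levels `N' * q * q` with `AuxOK N' q` (`9 ∣ N'` for `q = 2`, `4 ∣ N'` for odd `q`),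
for all places over `q`, all primitive `q`-th roots of unity and all powers of `p ≠ q`, with
constants `Cs q`, `C₂ q ≠ 0`, then `NewCoreAtAuxLevels2` holds. -/
theorem newCoreAtAuxLevels2_of_boxes (Cs C₂ : ℕ → ℕ) (hCs : ∀ q : ℕ, q.Prime → Cs q ≠ 0)
    (hC₂ : ∀ q : ℕ, q.Prime → C₂ q ≠ 0)
    (hS : ∀ (N' q : ℕ) [NeZero N'] [NeZero q] (hq : q.Prime) (hqN : ¬ q ∣ N') (p : ℕ),
      p.Prime → p ≠ q → AuxOK N' q → ∀ A : ValuationSubring Kb, A.LiesOverPrime q →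
        ∀ (ζ : Kb) (hζ : IsPrimitiveRoot ζ q) (k : ℕ),
          Scale3Statement N' q hq hqN A hζ (p ^ k) (Cs q))
    (hP : ∀ (N' q : ℕ) [NeZero N'] [NeZero q] (hq : q.Prime) (hqN : ¬ q ∣ N') (p : ℕ),
      p.Prime → p ≠ q → AuxOK N' q → ∀ A : ValuationSubring Kb, A.LiesOverPrime q →
        ∀ (ζ : Kb) (hζ : IsPrimitiveRoot ζ q) (k : ℕ),
          NormPow3Statement N' q hq hqN A hζ (p ^ k))
    (hAp : ∀ (N' q : ℕ) [NeZero N'] [NeZero q] (hq : q.Prime) (hqN : ¬ q ∣ N'),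
      AuxOK N' q → ∀ A : ValuationSubring Kb, A.LiesOverPrime q →
        ∀ (ζ : Kb) (hζ : IsPrimitiveRoot ζ q), Approx3Statement N' q hq hqN A hζ)
    (hT : ∀ (N' q : ℕ) [NeZero N'] [NeZero q] (hq : q.Prime) (hqN : ¬ q ∣ N') (p : ℕ),
      p.Prime → p ≠ q → AuxOK N' q → ∀ A : ValuationSubring Kb, A.LiesOverPrime q →
        ∀ (ζ : Kb) (hζ : IsPrimitiveRoot ζ q) (k : ℕ),
          ToricStatement N' q hq hqN A hζ (p ^ k) (C₂ q)) :
    NewCoreAtAuxLevels2 := by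
  intro N' q _ _ hq hqN p hp hpq hN'
  obtain ⟨A, hA⟩ := Fermat.Agent.S54.helper91.exists_valuationSubring_liesOver hq
  obtain ⟨ζ, hζ⟩ := HasEnoughRootsOfUnity.exists_primitiveRoot Kb q
  have hq1 : q - 1 ≠ 0 := by
    have := hq.two_le
    omega
  refine ⟨q * (Cs q * (q * (q - 1))) * C₂ q, A,
    Nat.mul_ne_zero (Nat.mul_ne_zero hq.ne_zero (Nat.mul_ne_zero (hCs q hq)
      (Nat.mul_ne_zero hq.ne_zero hq1))) (hC₂ q hq), hA, fun k => ?_⟩
  exact newCore_of_t03_toric hq hqN A hζ (pow_ne_zero k hp.ne_zero)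
    (t03_of_boxes hq hqN A hζ (hS N' q hq hqN p hp hpq hN' A hA ζ hζ k)
      (hP N' q hq hqN p hp hpq hN' A hA ζ hζ k) (hAp N' q hq hqN hN' A hA ζ hζ))
    (hT N' q hq hqN p hp hpq hN' A hA ζ hζ k)

/-- **One place suffices (v2 with a chosen place).**  The open box only asks for ONE place `A`
over `q` and ONE primitive root `ζ`: if for every admissible `(N', q)` there are `A`, `ζ` and
constants with [T03] and [TORIC] for all powers of `p`, then `NewCoreAtAuxLevels2` holds. -/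
theorem newCoreAtAuxLevels2_of_exists
    (h : ∀ (N' q : ℕ) [NeZero N'] [NeZero q] (hq : q.Prime) (hqN : ¬ q ∣ N') (p : ℕ),
      p.Prime → p ≠ q → AuxOK N' q →
        ∃ (A : ValuationSubring Kb) (ζ : Kb) (hζ : IsPrimitiveRoot ζ q) (C₁ C₂ : ℕ),
          A.LiesOverPrime q ∧ C₁ ≠ 0 ∧ C₂ ≠ 0 ∧
          ∀ k : ℕ, T03Statement N' q hq hqN A hζ (p ^ k) C₁ ∧
            ToricStatement N' q hq hqN A hζ (p ^ k) C₂) :
    NewCoreAtAuxLevels2 := by
  intro N' q _ _ hq hqN p hp hpq hN'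
  obtain ⟨A, ζ, hζ, C₁, C₂, hA, hC₁, hC₂, hk⟩ := h N' q hq hqN p hp hpq hN'
  refine ⟨q * C₁ * C₂, A, Nat.mul_ne_zero (Nat.mul_ne_zero hq.ne_zero hC₁) hC₂, hA, fun k => ?_⟩
  exact newCore_of_t03_toric hq hqN A hζ (pow_ne_zero k hp.ne_zero) (hk k).1 (hk k).2

end Fermat.Agent.T3.helper67

end
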