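/-
T3 / S36, helper67: the level `4` Hauptmodul is a UNIT off the cusps, on both fibres
(support for box [KER] at the middle component `c = 2` of `helper22.Ideal3Box`, where the
multiplier `s` of [T3-MIDGEN] has reduction `∓ t̄₄^(q-1)`).

* `haupt4_mem`, `haupt4_inv_mem` : GENERIC (any field `F`, any valuation subring `V`):
  `j t⁴ (t + 16) = (t² + 256 t + 4096)³`, `j ∈ V` ⟹ `t ∈ V`, and `t⁻¹ ∈ V` if `2⁻¹ ∈ V`.
* `t4F N h4 : FF N`, `isRegJ_t4F`, `isRegJ_t4F_inv`, `t4F_mem_regJRing`,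
  `t4F_inv_mem_regJRing` : `t₄` and `1 / t₄` are regular where `j` is finite (level `N`, `4 ∣ N`).
* `tH4_mem_BtAll`, `tH4_inv_mem_BtAll`, `C_mul_tH4_pow_mem_BtAll` : the same on the special fibre
  at a place over `q ∤ N`.
* `exists_notMem_of_mul_eq_one` : a unit of a subring lies in no maximal ideal (the clause
  `∃ z : T.Bt, (z : B) = Xs c ∧ z ∉ 𝔪` of [KER]).
* `exists_tH4_pow_notMem`, `exists_neg_tH4_pow_notMem` : that clause for `c · t̄₄^m`, `c ≠ 0`, and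
  for `- t̄₄^m`, for every subring `S = BtAll N A`.
-/
import Mathlib
import Fermat.Agent.T3.helper95_BtDed
import Fermat.Agent.T3.helper98_NormRegJ
import Fermat.Agent.P2.helper66_HauptMem
import Fermat.Agent.P2.helper28_CuspReg
import Fermat.Agent.P2.helper43_TameBase

set_option autoImplicit false
set_option synthInstance.maxHeartbeats 400000
set_option linter.unusedSectionVars false
set_option linter.unusedVariables false
set_option linter.style.haveILetI false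

noncomputable section

open HahnSeries IntermediateField AlgebraicCurve ModularCurve
open Fermat.Agent.S18.helper19 Fermat.Agent.P2.helper29
open Fermat.Agent.P2.helper66 (tH4 jq_tH4 tH4_mem)

namespace Fermat.Agent.T3.helper67

/-! ### The generic lemma -/

section Generic

variable {F : Type*} [Field F] (V : ValuationSubring F)

/-- **the level 4 Hauptmodul is regular where `j` is**: if
`j t⁴ (t + 16) = (t² + 256 t + 4096)³` and `j ∈ V` then `t ∈ V`. -/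
theorem haupt4_mem {j t : F} (hid : j * (t ^ 4 * (t + 16)) = (t ^ 2 + 256 * t + 4096) ^ 3)
    (hj : j ∈ V) : t ∈ V := by
  by_cases ht : t ∈ V
  · exact ht
  have ht0 : t ≠ 0 := fun h => ht (h ▸ V.zero_mem)
  have hs : t⁻¹ ∈ V := (V.mem_or_inv_mem t).resolve_left ht
  have key : t = j * (1 + 16 * t⁻¹) - (256 + 4096 * t⁻¹) *
      (3 + 3 * (256 * t⁻¹ + 4096 * t⁻¹ ^ 2) + (256 * t⁻¹ + 4096 * t⁻¹ ^ 2) ^ 2) := by
    field_simp
    linear_combination -hid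
  rw [key]
  have h16 : (16 : F) ∈ V := ofNat_mem V 16
  have h256 : (256 : F) ∈ V := ofNat_mem V 256
  have h4096 : (4096 : F) ∈ V := ofNat_mem V 4096
  have h3 : (3 : F) ∈ V := ofNat_mem V 3
  have ha : 256 * t⁻¹ + 4096 * t⁻¹ ^ 2 ∈ V :=
    V.add_mem _ _ (V.mul_mem _ _ h256 hs) (V.mul_mem _ _ h4096 (pow_mem hs 2))
  exact sub_mem (V.mul_mem _ _ hj (V.add_mem _ _ V.one_mem (V.mul_mem _ _ h16 hs)))
    (V.mul_mem _ _ (V.add_mem _ _ h256 (V.mul_mem _ _ h4096 hs))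
      (V.add_mem _ _ (V.add_mem _ _ h3 (V.mul_mem _ _ h3 ha)) (pow_mem ha 2)))

/-- **the level 4 Hauptmodul has no zero where `j` is finite** (`2` invertible in `V`). -/
theorem haupt4_inv_mem {j t : F} (hid : j * (t ^ 4 * (t + 16)) = (t ^ 2 + 256 * t + 4096) ^ 3)
    (hj : j ∈ V) (h2 : (2 : F) ≠ 0) (h2V : (2 : F)⁻¹ ∈ V) : t⁻¹ ∈ V := by
  by_cases hs : t⁻¹ ∈ V
  · exact hs
  have ht : t ∈ V := by
    have := (V.mem_or_inv_mem t⁻¹).resolve_left hs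
    rwa [inv_inv] at this
  have ht0 : t ≠ 0 := fun h => hs (by rw [h, inv_zero]; exact V.zero_mem)
  have key : t⁻¹ = (j * (t ^ 3 * (t + 16)) - (t + 256) *
      (3 * 4096 ^ 2 + 3 * 4096 * (t ^ 2 + 256 * t) + (t ^ 2 + 256 * t) ^ 2)) * (2 : F)⁻¹ ^ 36 := by
    field_simp
    linear_combination -hid
  rw [key]
  have h16 : (16 : F) ∈ V := ofNat_mem V 16
  have h256 : (256 : F) ∈ V := ofNat_mem V 256
  have h4096 : (4096 : F) ∈ V := ofNat_mem V 4096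
  have h3 : (3 : F) ∈ V := ofNat_mem V 3
  have hb : t ^ 2 + 256 * t ∈ V := V.add_mem _ _ (pow_mem ht 2) (V.mul_mem _ _ h256 ht)
  refine V.mul_mem _ _ (sub_mem (V.mul_mem _ _ hj (V.mul_mem _ _ (pow_mem ht 3)
    (V.add_mem _ _ ht h16))) (V.mul_mem _ _ (V.add_mem _ _ ht h256)
      (V.add_mem _ _ (V.add_mem _ _ (V.mul_mem _ _ h3 (pow_mem h4096 2))
        (V.mul_mem _ _ (V.mul_mem _ _ h3 h4096) hb)) (pow_mem hb 2)))) (pow_mem h2V 36)

/-- a unit of a subring lies in no maximal ideal -/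
theorem exists_notMem_of_mul_eq_one {B : Type*} [CommRing B] (S : Subring B) {x y : B}
    (hx : x ∈ S) (hy : y ∈ S) (hxy : x * y = 1) (𝔪 : Ideal S) (h𝔪 : 𝔪.IsMaximal) :
    ∃ z : S, (z : B) = x ∧ z ∉ 𝔪 := by
  refine ⟨⟨x, hx⟩, rfl, fun hz => h𝔪.ne_top ?_⟩
  have hu : IsUnit (⟨x, hx⟩ : S) :=
    IsUnit.of_mul_eq_one (⟨y, hy⟩ : S) (Subtype.ext hxy)
  exact Ideal.eq_top_of_isUnit_mem _ hz hu

end Generic

/-! ### Characteristic `0`, level `N` -/

section Char0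

variable (N : ℕ) [NeZero N]

theorem tH4_mem_FF (h4 : 4 ∣ N) : tH4 Kb ∈ FF N := by
  rw [Fermat.Agent.P2.helper28.FF_eq_fullC]
  exact tH4_mem Kb two_ne_zero N h4

/-- `t₄` as an element of `F_N` (`4 ∣ N`) -/
def t4F (h4 : 4 ∣ N) : FF N := ⟨tH4 Kb, tH4_mem_FF N h4⟩

@[simp] theorem coe_t4F (h4 : 4 ∣ N) : ((t4F N h4 : FF N) : LaurentSeries Kb) = tH4 Kb := rfl

theorem t4F_rel (h4 : 4 ∣ N) :
    jElt N * (t4F N h4 ^ 4 * (t4F N h4 + 16)) = (t4F N h4 ^ 2 + 256 * t4F N h4 + 4096) ^ 3 :=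
  Subtype.ext (jq_tH4 Kb)

theorem two_inv_mem_place {K E : Type*} [Field K] [Field E] [Algebra K E] (P : Place K E) :
    (2 : E)⁻¹ ∈ P.toValuationSubring := by
  have h := P.algebraMap_mem' ((2 : K)⁻¹)
  rwa [map_inv₀, map_ofNat] at h

/-- `t₄` is regular where `j` is finite -/
theorem isRegJ_t4F (h4 : 4 ∣ N) : Fermat.Agent.T3.helper98.IsRegJ N (t4F N h4) :=
  Fermat.Agent.T3.helper98.isRegJ_iff_mem.mpr fun P hP =>
    haupt4_mem P.toValuationSubring (t4F_rel N h4) hP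

/-- `1 / t₄` is regular where `j` is finite -/
theorem isRegJ_t4F_inv (h4 : 4 ∣ N) : Fermat.Agent.T3.helper98.IsRegJ N (t4F N h4)⁻¹ :=
  Fermat.Agent.T3.helper98.isRegJ_iff_mem.mpr fun P hP =>
    haupt4_inv_mem P.toValuationSubring (t4F_rel N h4) hP two_ne_zero (two_inv_mem_place P)

theorem t4F_mem_regJRing (h4 : 4 ∣ N) : t4F N h4 ∈ Fermat.Agent.T3.helper98.regJRing N :=
  isRegJ_t4F N h4

theorem t4F_inv_mem_regJRing (h4 : 4 ∣ N) : (t4F N h4)⁻¹ ∈ Fermat.Agent.T3.helper98.regJRing N :=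
  isRegJ_t4F_inv N h4

theorem t4F_ne_zero (h4 : 4 ∣ N) : t4F N h4 ≠ 0 := by
  intro h
  have h1 := congrArg (fun x : FF N => (x : LaurentSeries Kb).order) h
  simp only [coe_t4F, ZeroMemClass.coe_zero, HahnSeries.order_zero] at h1
  rw [Fermat.Agent.P2.helper66.order_tH4] at h1
  omega

/-- `ord_P t₄ = 0` at every place where `j` is finite -/
theorem ord_t4F_eq_zero (h4 : 4 ∣ N) (P : Place Kb (FF N)) (hP : 0 ≤ P.ord (jElt N)) :
    P.ord (t4F N h4) = 0 := by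
  have h1 := isRegJ_t4F N h4 P hP
  have h2 := isRegJ_t4F_inv N h4 P hP
  rw [P.ord_inv] at h2
  omega

end Char0

/-! ### The special fibre -/

section Bar

variable (N : ℕ) [NeZero N] (A : ValuationSubring Kb) {q : ℕ}

theorem two_ne_zero_kA (hq : q.Prime) (hqN : ¬ q ∣ N) (hA : A.LiesOverPrime q) (h4 : 4 ∣ N) :
    (2 : kA A) ≠ 0 := by
  haveI : Fact q.Prime := ⟨hq⟩
  exact Fermat.Agent.P2.helper43.two_ne_zero_of_four_dvd N A hA hqN h4

theorem tH4_mem_FFb (hq : q.Prime) (hqN : ¬ q ∣ N) (hA : A.LiesOverPrime q) (h4 : 4 ∣ N) :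
    tH4 (kA A) ∈ FFb A N :=
  tH4_mem (kA A) (two_ne_zero_kA N A hq hqN hA h4) N h4

theorem tH4_bar_rel (hmem : tH4 (kA A) ∈ FFb A N) :
    jBar A N * ((⟨tH4 (kA A), hmem⟩ : FFb A N) ^ 4 * (⟨tH4 (kA A), hmem⟩ + 16)) =
      ((⟨tH4 (kA A), hmem⟩ : FFb A N) ^ 2 + 256 * ⟨tH4 (kA A), hmem⟩ + 4096) ^ 3 :=
  Subtype.ext (jq_tH4 (kA A))

/-- `t̄₄` is regular where `j̄` is finite -/
theorem tH4_mem_BtAll (hq : q.Prime) (hqN : ¬ q ∣ N) (hA : A.LiesOverPrime q) (h4 : 4 ∣ N) :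
    tH4 (kA A) ∈ Fermat.Agent.T3.helper95.BtAll N A := by
  have hmem := tH4_mem_FFb N A hq hqN hA h4
  refine Fermat.Agent.T3.helper95.mem_BtAll.mpr ⟨hmem, fun P hP => ?_⟩
  rw [← Fermat.Agent.S24.helper82.mem_iff_ord_nonneg] at hP ⊢
  exact haupt4_mem P.toValuationSubring (tH4_bar_rel N A hmem) hP

/-- `1 / t̄₄` is regular where `j̄` is finite -/
theorem tH4_inv_mem_BtAll (hq : q.Prime) (hqN : ¬ q ∣ N) (hA : A.LiesOverPrime q)
    (h4 : 4 ∣ N) : (tH4 (kA A))⁻¹ ∈ Fermat.Agent.T3.helper95.BtAll N A := by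
  have hmem := tH4_mem_FFb N A hq hqN hA h4
  refine Fermat.Agent.T3.helper95.mem_BtAll.mpr ⟨inv_mem hmem, fun P hP => ?_⟩
  rw [← Fermat.Agent.S24.helper82.mem_iff_ord_nonneg] at hP ⊢
  have h2 : (2 : FFb A N) ≠ 0 := by
    have := two_ne_zero_kA N A hq hqN hA h4
    intro h
    apply this
    have h' : algebraMap (kA A) (FFb A N) 2 = 0 := by rw [map_ofNat]; exact h
    exact (map_eq_zero (algebraMap (kA A) (FFb A N))).mp h'
  have h := haupt4_inv_mem P.toValuationSubring (tH4_bar_rel N A hmem) hP h2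
    (two_inv_mem_place P)
  have e : (⟨(tH4 (kA A))⁻¹, inv_mem hmem⟩ : FFb A N) = (⟨tH4 (kA A), hmem⟩ : FFb A N)⁻¹ :=
    Subtype.ext rfl
  rw [e]
  exact h

theorem tH4_bar_ne_zero : tH4 (kA A) ≠ 0 := by
  intro h
  have h1 := congrArg (fun x : LaurentSeries (kA A) => x.order) h
  simp only [HahnSeries.order_zero] at h1
  rw [Fermat.Agent.P2.helper66.order_tH4] at h1
  omega

/-- the constants lie in `BtAll` -/
theorem C_mem_BtAll (c : kA A) :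
    (HahnSeries.C c : LaurentSeries (kA A)) ∈ Fermat.Agent.T3.helper95.BtAll N A := by
  have h := (Fermat.Agent.T3.helper95.BtAll N A).algebraMap_mem c
  have e : algebraMap (kA A) (LaurentSeries (kA A)) c = HahnSeries.C c := by
    have h1 : algebraMap (kA A) (PowerSeries (kA A)) c = PowerSeries.C c := by simp
    rw [HahnSeries.algebraMap_apply', h1, HahnSeries.ofPowerSeries_C]
  rwa [e] at h

/-- `c · t̄₄^m ∈ BtAll` -/
theorem C_mul_tH4_pow_mem_BtAll (hq : q.Prime) (hqN : ¬ q ∣ N) (hA : A.LiesOverPrime q)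
    (h4 : 4 ∣ N) (c : kA A) (m : ℕ) :
    HahnSeries.C c * tH4 (kA A) ^ m ∈ Fermat.Agent.T3.helper95.BtAll N A := by
  exact mul_mem (C_mem_BtAll N A c) (pow_mem (tH4_mem_BtAll N A hq hqN hA h4) m)

/-- **the clause `∃ z : T.Bt, (z : B) = Xs c ∧ z ∉ 𝔪` of [KER]** for `Xs c = c · t̄₄^m`, `c ≠ 0`:
`c · t̄₄^m` is a unit of `BtAll`. -/
theorem exists_tH4_pow_notMem (hq : q.Prime) (hqN : ¬ q ∣ N) (hA : A.LiesOverPrime q)
    (h4 : 4 ∣ N) (S : Subring (LaurentSeries (kA A)))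
    (hS : S = (Fermat.Agent.T3.helper95.BtAll N A).toSubring) {c : kA A} (hc : c ≠ 0) (m : ℕ)
    (𝔪 : Ideal S) (h𝔪 : 𝔪.IsMaximal) :
    ∃ z : S, (z : LaurentSeries (kA A)) = HahnSeries.C c * tH4 (kA A) ^ m ∧ z ∉ 𝔪 := by
  subst hS
  have hx := C_mul_tH4_pow_mem_BtAll N A hq hqN hA h4 c m
  have hy : HahnSeries.C c⁻¹ * (tH4 (kA A))⁻¹ ^ m ∈ Fermat.Agent.T3.helper95.BtAll N A :=
    mul_mem (C_mem_BtAll N A c⁻¹) (pow_mem (tH4_inv_mem_BtAll N A hq hqN hA h4) m)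
  refine exists_notMem_of_mul_eq_one _ hx hy ?_ 𝔪 h𝔪
  have h0 := tH4_bar_ne_zero A
  have hcc : (HahnSeries.C c : LaurentSeries (kA A)) * HahnSeries.C c⁻¹ = 1 := by
    rw [← map_mul, mul_inv_cancel₀ hc, map_one]
  have htt : tH4 (kA A) ^ m * (tH4 (kA A))⁻¹ ^ m = 1 := by
    rw [← mul_pow, mul_inv_cancel₀ h0, one_pow]
  calc HahnSeries.C c * tH4 (kA A) ^ m * (HahnSeries.C c⁻¹ * (tH4 (kA A))⁻¹ ^ m)
      = (HahnSeries.C c * HahnSeries.C c⁻¹) * (tH4 (kA A) ^ m * (tH4 (kA A))⁻¹ ^ m) := by ring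
    _ = 1 := by rw [hcc, htt, mul_one]

/-- the same for `- t̄₄^m` (the reduction of the multiplier of [T3-MIDGEN] is `- t̄₄^(q-1)`). -/
theorem exists_neg_tH4_pow_notMem (hq : q.Prime) (hqN : ¬ q ∣ N) (hA : A.LiesOverPrime q)
    (h4 : 4 ∣ N) (S : Subring (LaurentSeries (kA A)))
    (hS : S = (Fermat.Agent.T3.helper95.BtAll N A).toSubring) (m : ℕ)
    (𝔪 : Ideal S) (h𝔪 : 𝔪.IsMaximal) :
    ∃ z : S, (z : LaurentSeries (kA A)) = -(tH4 (kA A)) ^ m ∧ z ∉ 𝔪 := by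
  obtain ⟨z, hz, hzm⟩ := exists_tH4_pow_notMem N A hq hqN hA h4 S hS
    (c := -1) (neg_ne_zero.mpr one_ne_zero) m 𝔪 h𝔪
  refine ⟨z, ?_, hzm⟩
  rw [hz, map_neg, map_one, neg_one_mul]

end Bar

end Fermat.Agent.T3.helper67

end
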