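import Mathlib
import Fermat.Agent.T3.helper98_ResBox
import Fermat.Agent.T3.helper22_Ideal3Tor
import Fermat.Agent.T3.helper16_UnitPlace

/-!
# Tier 3, [T3-QUOT] (helper98, task 1120): the box `hquot` of `helper22.Ideal3Box`

Every function of `F_M` becomes regular where `j` is finite after multiplication by a nonzero
polynomial in `j` with INTEGER coefficients:

* `exists_intPoly_mul_isRegJ` : `∀ u : F_M, ∃ g : ℤ[X], g ≠ 0 ∧ IsRegJ M (u * g(j))`;
* `intPolyJ g = g(j)` is `I`-fixed, regular where `j` is finite, has `A`-integral expansions at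
  the three cusps of `X₀(N q²)` with reductions `g(j̄), g(j̄^(q²)), g(j̄)` in `BtAll`
  (`rho3_intPolyJ`, `redJ_mem_BtAll`);
* `hquot_of` : the field `hquot` of `helper22.Ideal3Box (B.calc hA)` VERBATIM, for
  `B.Reg = regJRing (N q q)`, `B.Bt = BtAll N A`.
-/

set_option autoImplicit false
set_option synthInstance.maxHeartbeats 400000
set_option maxHeartbeats 1000000
set_option linter.style.haveILetI false
set_option linter.unusedSectionVars false
set_option linter.unusedVariables false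
set_option linter.style.longLine false

noncomputable section

open HahnSeries IntermediateField AlgebraicCurve ModularCurve
open Fermat.Agent.S18.helper19 Fermat.Agent.P2.helper29 Fermat.Agent.T2.helper36
open Fermat.Agent.S24

namespace Fermat.Agent.T3.helper98

open Fermat.Agent.T3.helper74 (IsFixI IsInt3 ex3 dg0)
open Fermat.Agent.T3.helper72 (Red3)
open Fermat.Agent.T3.helper36 (RhoQ)
open Fermat.Agent.T3.helper95 (BtAll mem_BtAll)

/-! ### Denominators in `ℤ[j]` -/

section Denominator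

variable (M : ℕ) [NeZero M]

/-- ring homomorphisms commute with the evaluation of integer polynomials. -/
theorem hom_evalInt {R S : Type*} [CommRing R] [CommRing S] (φ : R →+* S) (x : R)
    (g : Polynomial ℤ) :
    φ (g.eval₂ (Int.castRingHom R) x) = g.eval₂ (Int.castRingHom S) (φ x) := by
  rw [Polynomial.hom_eval₂]
  congr 1
  exact RingHom.ext_int _ _

/-- the polynomial `g(j)`, `g ∈ ℤ[X]`, as an element of `F_M`. -/
def intPolyJ (g : Polynomial ℤ) : FF M := g.eval₂ (Int.castRingHom (FF M)) (xJ M)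

theorem jElt_eq_xJ' : jElt M = xJ M :=
  Subtype.ext (Fermat.Agent.P2.helper81.coe_xJ_eq M).symm

theorem isRegJ_xJ : IsRegJ M (xJ M) := by
  rw [← jElt_eq_xJ']
  exact isRegJ_jElt

theorem isRegJ_aeval (D : Polynomial Kb) : IsRegJ M (Polynomial.aeval (xJ M) D) := by
  have h1 : Polynomial.aeval (xJ M) D ∈ Algebra.adjoin Kb {xJ M} :=
    Polynomial.aeval_mem_adjoin_singleton Kb (xJ M)
  have h2 : Algebra.adjoin Kb {xJ M} ≤ regJ M :=
    Algebra.adjoin_le (Set.singleton_subset_iff.mpr (isRegJ_xJ M))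
  exact h2 h1

theorem intPolyJ_eq (g : Polynomial ℤ) :
    intPolyJ M g = Polynomial.aeval (xJ M) (g.map (algebraMap ℤ Kb)) := by
  rw [intPolyJ, Polynomial.aeval_def, Polynomial.eval₂_map]
  congr 1
  exact RingHom.ext_int _ _

theorem isRegJ_intPolyJ (g : Polynomial ℤ) : IsRegJ M (intPolyJ M g) := by
  rw [intPolyJ_eq]
  exact isRegJ_aeval M _

theorem intPolyJ_ne_zero {g : Polynomial ℤ} (hg : g ≠ 0) : intPolyJ M g ≠ 0 := by
  rw [intPolyJ_eq]
  have h1 : g.map (algebraMap ℤ Kb) ≠ 0 :=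
    (Polynomial.map_ne_zero_iff (FaithfulSMul.algebraMap_injective ℤ Kb)).mpr hg
  exact fun h => h1 ((transcendental_iff.mp (helper77.an_transcendental M)) _ h)

/-- **denominators**: every function becomes regular where `j` is finite after multiplication
by a nonzero integer polynomial in `j`. -/
theorem exists_intPoly_mul_isRegJ (u : FF M) :
    ∃ g : Polynomial ℤ, g ≠ 0 ∧ IsRegJ M (u * intPolyJ M g) := by
  haveI : FiniteDimensional Kb⟮xJ M⟯ (FF M) := helper77.an_finiteDimensional M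
  have halg := helper82.isAlgebraic_algebraAdjoin (K := Kb) (F := FF M) (xJ M)
  obtain ⟨y, hy0, hy⟩ := (halg.isAlgebraic u).exists_integral_multiple
  have hyu : IsRegJ M ((y : FF M) * u) := by
    intro P hP
    rw [jElt_eq_xJ'] at hP
    have := Fermat.Agent.T3.helper16.ord_nonneg_of_isIntegral hy P hP
    rwa [Algebra.smul_def] at this
  obtain ⟨D₁, hD₁⟩ : ∃ D₁ : Polynomial Kb, Polynomial.aeval (xJ M) D₁ = (y : FF M) := by
    have h : (y : FF M) ∈ (Polynomial.aeval (xJ M) : Polynomial Kb →ₐ[Kb] FF M).range := by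
      rw [← Algebra.adjoin_singleton_eq_range_aeval]
      exact y.2
    exact h
  have hD₁0 : D₁ ≠ 0 := by
    rintro rfl
    rw [map_zero] at hD₁
    exact hy0 (Subtype.ext hD₁.symm)
  haveI : Algebra.IsAlgebraic ℤ Kb :=
    ⟨fun c => (IsFractionRing.isAlgebraic_iff ℤ ℚ Kb).mpr
      ((AlgebraicClosure.isAlgebraic ℚ).isAlgebraic c)⟩
  obtain ⟨g, hg0, e, he⟩ := Polynomial.exists_dvd_map_of_isAlgebraic (R := ℤ) hD₁0
  refine ⟨g, hg0, ?_⟩
  rw [intPolyJ_eq, he, map_mul, hD₁]
  have h3 : u * ((y : FF M) * Polynomial.aeval (xJ M) e)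
      = ((y : FF M) * u) * Polynomial.aeval (xJ M) e := by ring
  rw [h3]
  exact hyu.mul (isRegJ_aeval M e)

end Denominator

/-! ### The reduction triple of `g(j)` -/

section Triple

variable {N q : ℕ} [NeZero N] [NeZero q] {hq : q.Prime} {hqN : ¬ q ∣ N}
variable {A : ValuationSubring Kb}

theorem isFixI_xJ' (M : ℕ) [NeZero M] : IsFixI A M (xJ M) := by
  intro σ _
  apply Subtype.ext
  rw [coe_arithmeticRingAut_apply, coe_xJ', coeffMap_jqModC]

theorem isFixI_intPolyJ (M : ℕ) [NeZero M] (g : Polynomial ℤ) : IsFixI A M (intPolyJ M g) := by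
  intro σ hσ
  have h := hom_evalInt (arithmeticRingAut (modularFunctionFieldFull M) σ : FF M →+* FF M)
    (xJ M) g
  have h2 : (arithmeticRingAut (modularFunctionFieldFull M) σ : FF M →+* FF M) (xJ M)
      = xJ M := isFixI_xJ' (A := A) M σ hσ
  rw [h2] at h
  exact h

/-- the `i`-th integral expansion of `j` at level `N q q` -/
def jInt (A : ValuationSubring Kb) (q : ℕ) [NeZero q] (i : Fin 3) : LaurentSeries A :=
  if i = 1 then qExpand A q (qExpand A q (jqModC A)) else jqModC A

theorem incl_jInt {ζ : Kb} (hζ : IsPrimitiveRoot ζ q) (i : Fin 3) :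
    incl A (jInt A q i) = ex3 N q hq hqN hζ i (xJ (N * q * q)) := by
  fin_cases i
  · show incl A (jqModC A) = ex3 N q hq hqN hζ 0 _
    rw [xJ_eq_dg0, ex3_zero_dg0, coe_xJ', incl_jqModC]
  · show incl A (qExpand A q (qExpand A q (jqModC A))) = ex3 N q hq hqN hζ 1 _
    rw [xJ_eq_dg0, ex3_one_dg0, coe_xJ', ← incl_jqModC (A := A)]
    show coeffMap _ _ = _
    rw [Fermat.Agent.P2.helper94.coeffMap_qExpand, Fermat.Agent.P2.helper94.coeffMap_qExpand]
  · show incl A (jqModC A) = ex3 N q hq hqN hζ 2 _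
    rw [xJ_eq_dg0, ex3_two_dg0, coe_xJ', incl_jqModC]

/-- the `i`-th reduction of `g(j)` -/
def redJ (A : ValuationSubring Kb) (q : ℕ) [NeZero q] (g : Polynomial ℤ) (i : Fin 3) :
    LaurentSeries (kA A) :=
  g.eval₂ (Int.castRingHom (LaurentSeries (kA A))) (red A (jInt A q i))

/-- the expansions of `g(j)` are integral. -/
theorem incl_aeval_jInt {ζ : Kb} (hζ : IsPrimitiveRoot ζ q) (g : Polynomial ℤ) (i : Fin 3) :
    incl A (g.eval₂ (Int.castRingHom (LaurentSeries A)) (jInt A q i))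
      = ex3 N q hq hqN hζ i (intPolyJ (N * q * q) g) := by
  rw [intPolyJ, hom_evalInt (incl A), hom_evalInt (ex3 N q hq hqN hζ i),
    incl_jInt (N := N) (hq := hq) (hqN := hqN) hζ i]

theorem red_aeval_jInt (g : Polynomial ℤ) (i : Fin 3) :
    red A (g.eval₂ (Int.castRingHom (LaurentSeries A)) (jInt A q i)) = redJ A q g i :=
  hom_evalInt (red A) _ g

/-- **the reduction triple of `g(j)`**. -/
theorem red3_intPolyJ {ζ : Kb} (hζ : IsPrimitiveRoot ζ q) (g : Polynomial ℤ) (i : Fin 3) :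
    Red3 N q hq hqN A hζ i (intPolyJ (N * q * q) g) (redJ A q g i) := by
  have h := Fermat.Agent.T3.helper36.rhoQ_incl (A := A)
    (g.eval₂ (Int.castRingHom (LaurentSeries A)) (jInt A q i))
  rw [incl_aeval_jInt (hq := hq) (hqN := hqN) hζ g i, red_aeval_jInt] at h
  exact h

theorem rho3_intPolyJ {ζ : Kb} (hζ : IsPrimitiveRoot ζ q) (g : Polynomial ℤ) :
    Fermat.Agent.T3.helper49.Rho3 N q hq hqN A hζ (intPolyJ (N * q * q) g) (redJ A q g) :=
  ⟨isFixI_intPolyJ (N * q * q) g, fun i => red3_intPolyJ hζ g i⟩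

theorem jqModC_mem_BtAll : jqModC (kA A) ∈ BtAll N A :=
  mem_BtAll.mpr ⟨(jBar A N).2, fun P hP => hP⟩

theorem red_jInt_mem_BtAll (hq : q.Prime) (hA : A.LiesOverPrime q) (i : Fin 3) :
    red A (jInt A q i) ∈ BtAll N A := by
  fin_cases i
  · show red A (jqModC A) ∈ _
    rw [red_jqModC]
    exact jqModC_mem_BtAll
  · show red A (qExpand A q (qExpand A q (jqModC A))) ∈ _
    have e : red A (qExpand A q (qExpand A q (jqModC A))) = (jqModC (kA A) ^ q) ^ q := by
      show coeffMap _ _ = _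
      rw [Fermat.Agent.P2.helper94.coeffMap_qExpand, Fermat.Agent.P2.helper94.coeffMap_qExpand]
      have e1 : coeffMap (IsLocalRing.residue A) (jqModC A) = jqModC (kA A) := coeffMap_jqModC _
      rw [e1, Fermat.Agent.T2.helper96.jBar_qExpand A hq hA, map_pow,
        Fermat.Agent.T2.helper96.jBar_qExpand A hq hA]
    rw [e]
    exact pow_mem (pow_mem jqModC_mem_BtAll q) q
  · show red A (jqModC A) ∈ _
    rw [red_jqModC]
    exact jqModC_mem_BtAll

theorem redJ_mem_BtAll (hq : q.Prime) (hA : A.LiesOverPrime q) (g : Polynomial ℤ) (i : Fin 3) :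
    redJ A q g i ∈ BtAll N A := by
  have hx := red_jInt_mem_BtAll (N := N) hq hA i
  unfold redJ
  induction g using Polynomial.induction_on' with
  | add r s hr hs =>
    rw [Polynomial.eval₂_add]
    exact add_mem hr hs
  | monomial n a =>
    rw [Polynomial.eval₂_monomial]
    refine mul_mem ?_ (pow_mem hx n)
    rw [eq_intCast]
    exact intCast_mem _ a

end Triple

/-! ### The box -/

section Box

variable {N q : ℕ} [NeZero N] [NeZero q] {hq : q.Prime} {hqN : ¬ q ∣ N}
variable {A : ValuationSubring Kb} {ζ : Kb} {hζ : IsPrimitiveRoot ζ q}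

/-- **the box `hquot` of `helper22.Ideal3Box (B.calc hA)`**, VERBATIM, for the ALL-CUSPS
rings: a function which is a unit at the three valuations is a quotient of two elements of
`AA`. -/
theorem hquot_of {n : ℕ} (B : Fermat.Agent.T3.helper49.TorBase N q hq hqN A hζ n)
    (hA : A.LiesOverPrime q) (hReg : B.Reg = regJRing (N * q * q))
    (hBt : B.Bt = (BtAll N A).toSubring) :
    ∀ u : FF (N * q * q), (B.calc hA).Rho u 1 →
      ∃ u₁ u₂ : FF (N * q * q), u₁ ∈ Fermat.Agent.T3.helper22.aaRing (B.calc hA) ∧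
        u₂ ∈ Fermat.Agent.T3.helper22.aaRing (B.calc hA) ∧ u₂ ≠ 0 ∧ u * u₂ = u₁ := by
  intro u ρ
  obtain ⟨g, hg0, hreg⟩ := exists_intPoly_mul_isRegJ (N * q * q) u
  have ρ₂ : (B.calc hA).Rho (intPolyJ (N * q * q) g) (redJ A q g) := rho3_intPolyJ hζ g
  have hBt₂ : ∀ c, redJ A q g c ∈ (B.calc hA).Bt := by
    intro c
    show redJ A q g c ∈ B.Bt
    rw [hBt]
    exact redJ_mem_BtAll hq hA g c
  have h₂ : intPolyJ (N * q * q) g ∈ Fermat.Agent.T3.helper22.aaRing (B.calc hA) := by
    refine ⟨?_, redJ A q g, ρ₂, hBt₂⟩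
    show intPolyJ (N * q * q) g ∈ B.Reg
    rw [hReg]
    exact isRegJ_intPolyJ (N * q * q) g
  refine ⟨u * intPolyJ (N * q * q) g, intPolyJ (N * q * q) g, ?_, h₂,
    intPolyJ_ne_zero (N * q * q) hg0, rfl⟩
  refine ⟨?_, 1 * redJ A q g, (B.calc hA).rho_mul _ _ _ _ ρ ρ₂, fun c => ?_⟩
  · show u * intPolyJ (N * q * q) g ∈ B.Reg
    rw [hReg]
    exact hreg
  · rw [one_mul]
    exact hBt₂ c

end Box

end Fermat.Agent.T3.helper98

end
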