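import Mathlib
import Fermat.Agent.T3.helper98_QuotBox

/-!
# Tier 3, [T3-QUOT] (helper98): the field `hquot` of `helper22.Ideal3Rest` (concrete shape)

`hquot_rest` : for every `I`-fixed `u` with a reduction triple `X` there are `u₁, u₂` regular
where `j` is finite, `I`-fixed with reduction triples, `u₂ ≠ 0`, `u * u₂ = u₁`
(`u₂ = g(j)`, `g ∈ ℤ[X]`).  No hypothesis on `N`, `q`, `A` beyond the standing ones.
-/

set_option autoImplicit false
set_option synthInstance.maxHeartbeats 400000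
set_option maxHeartbeats 1000000
set_option linter.style.haveILetI false
set_option linter.unusedSectionVars false
set_option linter.unusedVariables false
set_option linter.style.longLine false

noncomputable section

open HahnSeries IntermediateField AlgebraicCurve ModularCurve
open Fermat.Agent.S18.helper19 Fermat.Agent.P2.helper29 Fermat.Agent.T2.helper36
open Fermat.Agent.S24

namespace Fermat.Agent.T3.helper98


variable {N q : ℕ} [NeZero N] [NeZero q] {hq : q.Prime} {hqN : ¬ q ∣ N}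
variable {A : ValuationSubring Kb} {ζ : Kb}

/-- **[QUOT]**, general form: any `I`-fixed function with a reduction triple is a quotient of
two functions regular where `j` is finite, `I`-fixed, with reduction triples; the denominator
is an integer polynomial in `j`. -/
theorem exists_quot_of_rho3 (hζ : IsPrimitiveRoot ζ q) (u : FF (N * q * q))
    (X : Fin 3 → LaurentSeries (kA A)) (ρ : Fermat.Agent.T3.helper49.Rho3 N q hq hqN A hζ u X) :
    ∃ g : Polynomial ℤ, g ≠ 0 ∧ IsRegJ (N * q * q) (u * intPolyJ (N * q * q) g) ∧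
      IsRegJ (N * q * q) (intPolyJ (N * q * q) g) ∧
      Fermat.Agent.T3.helper49.Rho3 N q hq hqN A hζ (u * intPolyJ (N * q * q) g) (X * redJ A q g) ∧
      Fermat.Agent.T3.helper49.Rho3 N q hq hqN A hζ (intPolyJ (N * q * q) g) (redJ A q g) ∧
      intPolyJ (N * q * q) g ≠ 0 := by
  obtain ⟨g, hg0, hreg⟩ := exists_intPoly_mul_isRegJ (N * q * q) u
  have ρ₂ : Fermat.Agent.T3.helper49.Rho3 N q hq hqN A hζ (intPolyJ (N * q * q) g) (redJ A q g) :=
    rho3_intPolyJ (N := N) (hq := hq) (hqN := hqN) (A := A) hζ g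
  exact ⟨g, hg0, hreg, isRegJ_intPolyJ (N * q * q) g, ρ.mul ρ₂, ρ₂,
    intPolyJ_ne_zero (N * q * q) hg0⟩

/-- **the field `hquot` of `helper22.Ideal3Rest`**, VERBATIM. -/
theorem hquot_rest (hζ : IsPrimitiveRoot ζ q) :
    ∀ u : FF (N * q * q), Fermat.Agent.T3.helper49.Rho3 N q hq hqN A hζ u 1 →
      ∃ (u₁ u₂ : FF (N * q * q)) (X₁ X₂ : Fin 3 → LaurentSeries (kA A)),
        IsRegJ (N * q * q) u₁ ∧ IsRegJ (N * q * q) u₂ ∧ Fermat.Agent.T3.helper49.Rho3 N q hq hqN A hζ u₁ X₁ ∧
        Fermat.Agent.T3.helper49.Rho3 N q hq hqN A hζ u₂ X₂ ∧ u₂ ≠ 0 ∧ u * u₂ = u₁ := by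
  intro u ρ
  obtain ⟨g, -, h1, h2, ρ₁, ρ₂, h0⟩ := exists_quot_of_rho3 hζ u 1 ρ
  exact ⟨u * intPolyJ (N * q * q) g, intPolyJ (N * q * q) g, 1 * redJ A q g, redJ A q g,
    h1, h2, ρ₁, ρ₂, h0, rfl⟩

end Fermat.Agent.T3.helper98

end
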