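/-
TIER 3 (S36), helper72: ASSEMBLY of the landed boxes.  S36 is reduced to FIVE open boxes at the
auxiliary levels (`OpenBoxes`):

* `surj`  : **[SURJ-ALL]** at level `N` (`helper49.SurjAllStatement N A (btAll N A)`);
* `root`  : **[ROOT3-ALL]** (`Root3AllStatement n`; from `Root3Pack` by `root3All_of_pack`);
* `ker2`  : **[KER]** at the middle component (`Ideal3Rest.hker 2`);
* `hor`   : **[HOR]** (`Ideal3Rest.hhor`);
* `glue`  : **[GLUE]** (`Ideal3Rest.hglue`, `J = ν · BtAll`).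

Plugged in here: [SCALE3] (helper36), [NORMPOW3] (helper87), [APPROX3] (helper20), the toric
calculus and [PB3] (helper49), [REAL3] + [KER] at `∞`, `0` + [IDEM] (helper16), [RES], [QUOT]
(helper98), [FFB3], [FG] and the ideal calculus (helper22, helper84, helper97), [UNITW]
(helper5), Dedekind (helper95).
-/
import Fermat.Agent.T3.helper72_TorAll
import Fermat.Agent.T3.helper22_Ideal3Inst
import Fermat.Agent.T3.helper49_TorBox
import Fermat.Agent.T3.helper27_TorRoot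
import Fermat.Agent.T3.helper36_Scale3Final
import Fermat.Agent.T3.helper16_Ideal3Ker
import Fermat.Agent.T3.helper5_UnitW
import Fermat.Agent.T3.helper98_QuotRest

set_option autoImplicit false
set_option synthInstance.maxHeartbeats 400000
set_option linter.unusedSectionVars false
set_option linter.unusedVariables false
set_option linter.style.haveILetI false
set_option linter.style.longLine false

noncomputable section

open HahnSeries IntermediateField AlgebraicCurve ModularCurve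
open Fermat.Agent.S18.helper19 Fermat.Agent.P2.helper29 Fermat.Agent.T2.helper36

namespace Fermat.Agent.T3.helper72

open Fermat.Agent.T3.helper74 (ex3 IsFixI)
open Fermat.Agent.T3.helper49 (Rho3 Dv3 TorBase nuJ)
open Fermat.Agent.T3.helper98 (regJRing regJ IsRegJ mem_regJRing)
open Fermat.Agent.T3.helper95 (BtAll mem_BtAll)
open Fermat.Agent.T3.helper16 (IsUnit0)
open Fermat.Agent.P2.helper66 (iota)

section Asm

variable {N q : ℕ} [NeZero N] [NeZero q] {hq : q.Prime} {hqN : ¬ q ∣ N}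
  {A : ValuationSubring Kb} {ζ : Kb} {hζ : IsPrimitiveRoot ζ q}
  {b0 : FF (N * q)} {B : PowerSeries ℤ} {ε : ℤ}

/-- the reduction `ν` of the weight-one unit is regular where `j̄` is finite ([RES] for
`α₂ b₀`). -/
theorem nu_mem_btAll (h : IsUnit0 hq hqN b0 B ε) (hA : A.LiesOverPrime q)
    (hζ : IsPrimitiveRoot ζ q) : iota (kA A) B ∈ btAll N A := by
  have ρ := h.rho3_alpha A hζ hA
  have hf : IsRegJ (N * q * q) (heckeAlphaBar Kb (N * q) q b0) :=
    mem_regJRing.mp h.mem_regJ_alpha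
  have hmem := Fermat.Agent.T3.helper22.ffb3 hA ρ 0
  exact mem_BtAll.mpr ⟨hmem, fun P hP =>
    Fermat.Agent.T3.helper98.ord_nonneg_of_red3 hA hζ hf ρ.1 ρ.2 0 hmem P hP⟩

variable (N q hq hqN A hζ) in
/-- **the open boxes of S36** at the datum `(N, q, A, ζ, n)` for the unit `b₀` (reduction
`ν = iota (kA A) B`). -/
structure OpenBoxes (n : ℕ) (B : PowerSeries ℤ) : Prop where
  /-- **[SURJ-ALL]** at level `N` -/
  surj : Fermat.Agent.T3.helper49.SurjAllStatement N A (btAll N A)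
  /-- **[ROOT3-ALL]** -/
  root : Root3AllStatement N q hq hqN A hζ n
  /-- **[KER]** at the middle component -/
  ker2 : ∃ (b s : FF (N * q * q)) (Xb Xs : Fin 3 → LaurentSeries (kA A)),
    IsRegJ (N * q * q) b ∧ IsRegJ (N * q * q) s ∧ b ≠ 0 ∧ IsRegJ (N * q * q) (s * b⁻¹) ∧
    Rho3 N q hq hqN A hζ b Xb ∧ Rho3 N q hq hqN A hζ s Xs ∧ Xb 2 = 0 ∧
    (∃ z ∈ BtAll N A, Xs 2 * z = 1) ∧
    ∀ (g : FF (N * q * q)) (X : Fin 3 → LaurentSeries (kA A)), Rho3 N q hq hqN A hζ g X →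
      X 2 = 0 → ∃ X', Rho3 N q hq hqN A hζ (g * (s * b⁻¹)) X'
  /-- **[HOR]** -/
  hor : ∀ u f : FF (N * q * q), Rho3 N q hq hqN A hζ u 1 →
    (∀ P : Place Kb (FF (N * q * q)), (n : ℤ) ∣ P.ord u) →
    (∀ G G' : FF (N * q * q), IsRegJ (N * q * q) (G ^ n * u⁻¹) →
      IsRegJ (N * q * q) (G' ^ n * u⁻¹⁻¹) → (∃ X, Rho3 N q hq hqN A hζ G X) →
      (∃ X, Rho3 N q hq hqN A hζ G' X) → IsRegJ (N * q * q) (f * (G * G'))) →
    IsRegJ (N * q * q) f
  /-- **[GLUE]** -/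
  glue : ∀ (f : FF (N * q * q)) (X : Fin 3 → LaurentSeries (kA A)), IsRegJ (N * q * q) f →
    Rho3 N q hq hqN A hζ f X → X 0 - 1 ∈ nuJ (btAll N A) (iota (kA A) B) →
    ∀ c, X c - 1 ∈ nuJ (btAll N A) (iota (kA A) B)

/-- the base of the toric calculus from the open boxes -/
def torBaseOpen {n : ℕ} (hn : n ≠ 0) (h : IsUnit0 hq hqN b0 B ε) (hA : A.LiesOverPrime q)
    (O : OpenBoxes N q hq hqN A hζ n B) : TorBase N q hq hqN A hζ n :=
  torBaseAll hn h hA (nu_mem_btAll h hA hζ)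
    (Fermat.Agent.T3.helper49.hsurj_of_surjAll hq hqN hA O.surj)
    (Fermat.Agent.T3.helper49.pb_of_surjAll hq hqN hA O.surj) O.root

theorem isAllCusps_torBaseOpen {n : ℕ} (hn : n ≠ 0) (h : IsUnit0 hq hqN b0 B ε)
    (hA : A.LiesOverPrime q) (O : OpenBoxes N q hq hqN A hζ n B) :
    Fermat.Agent.T3.helper22.IsAllCusps (torBaseOpen hn h hA O) :=
  ⟨rfl, rfl⟩

/-- **[KER]** at the components `∞` and `0`, in the shape of `helper22.Ideal3Rest`. -/
theorem ker01 (h : IsUnit0 hq hqN b0 B ε) (hA : A.LiesOverPrime q) (hζ : IsPrimitiveRoot ζ q)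
    (c : Fin 3) (hc : c = 0 ∨ c = 1) :
    ∃ (b s : FF (N * q * q)) (Xb Xs : Fin 3 → LaurentSeries (kA A)),
      IsRegJ (N * q * q) b ∧ IsRegJ (N * q * q) s ∧ b ≠ 0 ∧ IsRegJ (N * q * q) (s * b⁻¹) ∧
      Rho3 N q hq hqN A hζ b Xb ∧ Rho3 N q hq hqN A hζ s Xs ∧ Xb c = 0 ∧
      (∃ z ∈ BtAll N A, Xs c * z = 1) ∧
      ∀ (g : FF (N * q * q)) (X : Fin 3 → LaurentSeries (kA A)), Rho3 N q hq hqN A hζ g X →
        X c = 0 → ∃ X', Rho3 N q hq hqN A hζ (g * (s * b⁻¹)) X' := by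
  have hone : ∃ z ∈ BtAll N A, (1 : Fin 3 → LaurentSeries (kA A)) c * z = 1 :=
    ⟨1, (BtAll N A).one_mem, by simp⟩
  rcases hc with rfl | rfl
  · refine ⟨heckeBetaBar Kb (N * q) q (atkinLehner N q hq hqN b0), 1,
      ![0, iota (kA A) B, iota (kA A) B], 1, mem_regJRing.mp h.mem_regJ_beta_al,
      Fermat.Agent.T3.helper98.isRegJ_one, h.beta_al_ne_zero, ?_,
      h.rho3_beta_al A hζ hA, Fermat.Agent.T3.helper49.rho3_one, rfl, hone, ?_⟩
    · rw [one_mul]
      exact mem_regJRing.mp h.mem_regJ_beta_al_inv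
    · intro g X ρ hX
      exact h.ker_div0 A hζ hA g X ρ hX
  · refine ⟨heckeAlphaBar Kb (N * q) q b0, 1,
      ![iota (kA A) B, 0, iota (kA A) B], 1, mem_regJRing.mp h.mem_regJ_alpha,
      Fermat.Agent.T3.helper98.isRegJ_one, h.alpha_ne_zero, ?_,
      h.rho3_alpha A hζ hA, Fermat.Agent.T3.helper49.rho3_one, rfl, hone, ?_⟩
    · rw [one_mul]
      exact mem_regJRing.mp h.mem_regJ_alpha_inv
    · intro g X ρ hX
      exact h.ker_div1 A hζ hA g X ρ hX

/-- the remaining boxes of [IDEAL3] from the open boxes -/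
theorem ideal3Rest_torBaseOpen {n : ℕ} (hn : n ≠ 0) (h : IsUnit0 hq hqN b0 B ε)
    (hA : A.LiesOverPrime q) (hN : 4 ∣ N ∨ 9 ∣ N) (O : OpenBoxes N q hq hqN A hζ n B) :
    Fermat.Agent.T3.helper22.Ideal3Rest (torBaseOpen hn h hA O) where
  hsurj := fun c z hz => by
    obtain ⟨F, hF, X, ρ, hX⟩ :=
      Fermat.Agent.T3.helper49.hsurj_of_surjAll (hζ := hζ) hq hqN hA O.surj c z hz
    exact ⟨F, mem_regJRing.mp hF, X, ρ, hX⟩
  hquot := Fermat.Agent.T3.helper98.hquot_rest hζ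
  hker := fun c => by
    rcases Fermat.Agent.T3.helper74.fin3_cases c with rfl | rfl | rfl
    · exact ker01 h hA hζ 0 (Or.inl rfl)
    · exact ker01 h hA hζ 1 (Or.inr rfl)
    · exact O.ker2
  hunitw := fun c => by
    obtain ⟨m, hm, hm'⟩ :=
      Fermat.Agent.T3.helper5.unitw hA hζ hN (torBaseOpen hn h hA O) rfl c
    exact ⟨m, mem_regJRing.mp hm, hm'⟩
  hidem := h.hidem A hζ hA (torBaseOpen hn h hA O)
  hhor := O.hor
  hglue := O.glue
  hJ := ⟨iota (kA A) B, Fermat.Agent.T3.helper49.mem_nuJ.mpr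
    ⟨1, (btAll N A).one_mem, (mul_one _).symm⟩, h.nu_ne_zero A⟩

/-- **[TORIC] from the open boxes.** -/
theorem toric_of_open {n : ℕ} (hn : n ≠ 0) (h : IsUnit0 hq hqN b0 B ε)
    (hA : A.LiesOverPrime q) (hN : 4 ∣ N ∨ 9 ∣ N) (O : OpenBoxes N q hq hqN A hζ n B) :
    ToricStatement N q hq hqN A hζ n (cTor q) :=
  Fermat.Agent.T3.helper49.toricStatement_of hn (torBaseOpen hn h hA O) hA
    (Fermat.Agent.T3.helper22.ideal3Statement_of hA hn (isAllCusps_torBaseOpen hn h hA O)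
      (ideal3Rest_torBaseOpen hn h hA hN O))

end Asm

/-- **S36 from the open boxes** (weakest form: the place, the root of unity and the unit may be
chosen; only `k` is universal). -/
theorem newCore2_of_open
    (hO : ∀ (N' q : ℕ) [NeZero N'] [NeZero q] (hq : q.Prime) (hqN : ¬ q ∣ N') (p : ℕ),
      p.Prime → p ≠ q → p ≠ 2 → AuxOK q N' →
        ∃ (A : ValuationSubring Kb) (ζ : Kb) (hζ : IsPrimitiveRoot ζ q) (b0 : FF (N' * q))
          (B : PowerSeries ℤ) (ε : ℤ), A.LiesOverPrime q ∧ IsUnit0 hq hqN b0 B ε ∧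
            ∀ k : ℕ, OpenBoxes N' q hq hqN A hζ (p ^ k) B) :
    NewCoreAtAuxLevels2 :=
  newCoreAtAuxLevels2_of_boxesAt fun N' q _ _ hq hqN p hp hpq hp2 hN' => by
    obtain ⟨A, ζ, hζ, b0, B, ε, hA, h, hO'⟩ := hO N' q hq hqN p hp hpq hp2 hN'
    refine ⟨Fermat.Agent.T3.helper36.csq q, cTor q, A, ζ, hζ,
      Fermat.Agent.T3.helper36.csq_ne_zero q hq, cTor_ne_zero hq, hA, fun k => ?_⟩
    exact ⟨Fermat.Agent.T3.helper36.scale3 hA hζ hN'.good (p ^ k),
      Fermat.Agent.T3.helper87.normPow3 hA hζ (p ^ k) (pow_ne_zero k hp.ne_zero),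
      Fermat.Agent.T3.helper20.approx3 N' q hq hqN A hζ hA,
      toric_of_open (pow_ne_zero k hp.ne_zero) h hA hN'.good (hO' k)⟩

/-- **S36 from the open boxes**, universal form: the boxes for every place over `q`, every
primitive `q`-th root of unity and every weight-one unit. -/
theorem newCore2_of_open_forall
    (hO : ∀ (N' q : ℕ) [NeZero N'] [NeZero q] (hq : q.Prime) (hqN : ¬ q ∣ N') (p : ℕ),
      p.Prime → p ≠ q → p ≠ 2 → AuxOK q N' → ∀ (A : ValuationSubring Kb), A.LiesOverPrime q →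
        ∀ (ζ : Kb) (hζ : IsPrimitiveRoot ζ q) (b0 : FF (N' * q)) (B : PowerSeries ℤ) (ε : ℤ),
          IsUnit0 hq hqN b0 B ε → ∀ k : ℕ, OpenBoxes N' q hq hqN A hζ (p ^ k) B) :
    NewCoreAtAuxLevels2 :=
  newCore2_of_open fun N' q _ _ hq hqN p hp hpq hp2 hN' => by
    obtain ⟨A, hA⟩ := Fermat.Agent.S54.helper91.exists_valuationSubring_liesOver hq
    obtain ⟨ζ, hζ⟩ := HasEnoughRootsOfUnity.exists_primitiveRoot Kb q
    obtain ⟨b0, B, ε, h⟩ := Fermat.Agent.T3.helper16.exists_isUnit0 hq hqN hN'.good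
    exact ⟨A, ζ, hζ, b0, B, ε, hA, h, hO N' q hq hqN p hp hpq hp2 hN' A hA ζ hζ b0 B ε h⟩

end Fermat.Agent.T3.helper72

end
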