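/-
T3 (S36), helper74: **the box `root` of `helper72.OpenBoxes` from a family of cusps**
([CUSP-Q] packaging), with everything generic discharged:

* (DISC)  `helper23.discPack_of_qExpand_sigmaFF` (un-substituted coset expansions),
* [GAUSS-ALL] `helper20.gaussAll_family`,
* [XPOLE-c] `helper96.xPoleAll_good`,
* (SAT_q) `satStatementE_of_table`, (FIX) `fixStatementE_tw`.

Inputs left = the packaging of [CUSP-Q]:
* `rep`, `hrep`, `EN`, `hEN` : one coset per cusp of level `N` with its local expansion;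
* `I`, `d`, `E`, `hE`        : cosets of level `N q q`, `(E J y)(T^(d J)) = sigmaFF (I J) y`;
* `κ`, `hκ`, `hT : TableTw`  : the twisted table in local form;
* `hG : GalCompatTw`, `hcover : helper27.CoverStatementE`.
-/
import Mathlib
import Fermat.Agent.T3.helper74_TorRootTw
import Fermat.Agent.T3.helper72_TorAll
import Fermat.Agent.T3.helper96_XPoleGood
import Fermat.Agent.T3.helper20_GaussAll
import Fermat.Agent.T3.helper23_DiscUnsub

set_option autoImplicit false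
set_option synthInstance.maxHeartbeats 400000
set_option maxHeartbeats 1000000
set_option linter.unusedSectionVars false
set_option linter.style.haveILetI false

noncomputable section

open HahnSeries IntermediateField AlgebraicCurve ModularCurve
open Fermat.Agent.S18.helper19 Fermat.Agent.P2.helper29 Fermat.Agent.T2.helper36
open Fermat.Agent.T2.helper96

namespace Fermat.Agent.T3.helper74

section Family

variable {N q : ℕ} [NeZero N] [NeZero q]
variable {A : ValuationSubring Kb}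

/-- regular where `xJ` is finite = regular where `jElt` is finite -/
theorem isRegJ_of_xJ {x : FF N}
    (hx : ∀ P : Place Kb (FF N), 0 ≤ P.ord (Fermat.Agent.S24.xJ N) → 0 ≤ P.ord x) :
    Fermat.Agent.T3.helper98.IsRegJ N x := by
  intro P hP
  apply hx P
  rwa [← Fermat.Agent.T3.helper48.jElt_eq_xJ]

/-- **(SAT_q) for the functions regular off all cusps**, from the packaging of [CUSP-Q]. -/
theorem satStatementE_of_family (hq : q.Prime) (hqN : ¬ q ∣ N) (hA : A.LiesOverPrime q)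
    (hN : 4 ∣ N ∨ 9 ∣ N) {ζ : Kb}
    (hζ : IsPrimitiveRoot ζ q) {𝒞 : Type} [Fintype 𝒞] [DecidableEq 𝒞]
    (rep : 𝒞 → Fermat.Agent.S28.IX N)
    (hrep : ∀ c c', rep c' ∈ Fermat.Agent.T3.helper96.orbT N (rep c) → c' = c)
    (EN : 𝒞 → (FF N →+* LaurentSeries Kb))
    (hEN : ∀ (c : 𝒞) (dc : ℕ) (hdc : NeZero dc),
      dc * Nat.card (Fermat.Agent.T3.helper96.orbT N (rep c)) = N →
      ∀ y : FF N, Fermat.Agent.P2.helper28.sigmaK N (rep c)
        ⟨(y : LaurentSeries Kb), Fermat.Agent.T3.helper96.mem_fullC_of_mem_FF N y.2⟩ =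
        @qExpand Kb _ dc hdc (EN c y))
    (E : 𝒞 × Fin 3 → (FF (N * q * q) →+* LaurentSeries Kb))
    (hE : ConstCompatTw E)
    {κ : Fin 3 → Fin 3 → 𝒞 → 𝒞} (hκ : ∀ i e, Function.Injective (κ i e))
    (hT : TableTw A EN E ζ κ)
    (hG : GalCompatTw A (fun p : 𝒞 × Fin 3 => p.2) E ζ) :
    ∃ L₀ : ℤ, Fermat.Agent.T3.helper27.SatStatementE q A E (fun p : 𝒞 × Fin 3 => wt3 q p.2)
      (Fermat.Agent.T3.helper98.regJ (N * q * q)) L₀ := by
  obtain ⟨m₀, hX⟩ := Fermat.Agent.T3.helper96.xPoleAll_good hq hA hqN hN rep hrep EN hEN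
    (Fermat.Agent.T3.helper98.regJ (N * q * q))
    (fun x hx e => isRegJ_dgF hq hqN (isRegJ_of_xJ hx) e)
  exact ⟨(lev3 q m₀ : ℤ), satStatementE_of_table hq hA hζ hκ hT _ hX hE hG⟩

variable {hq : q.Prime} {hqN : ¬ q ∣ N}

/-- **the package of [ROOT3-ALL]** (`helper72.Root3Pack`) from the packaging of [CUSP-Q]. -/
theorem root3Pack_of_family (hA : A.LiesOverPrime q) (hN : 4 ∣ N ∨ 9 ∣ N) {ζ : Kb}
    (hζ : IsPrimitiveRoot ζ q) {𝒞 : Type} [Fintype 𝒞] [DecidableEq 𝒞] [Nonempty 𝒞]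
    (rep : 𝒞 → Fermat.Agent.S28.IX N)
    (hrep : ∀ c c', rep c' ∈ Fermat.Agent.T3.helper96.orbT N (rep c) → c' = c)
    (EN : 𝒞 → (FF N →+* LaurentSeries Kb))
    (hEN : ∀ (c : 𝒞) (dc : ℕ) (hdc : NeZero dc),
      dc * Nat.card (Fermat.Agent.T3.helper96.orbT N (rep c)) = N →
      ∀ y : FF N, Fermat.Agent.P2.helper28.sigmaK N (rep c)
        ⟨(y : LaurentSeries Kb), Fermat.Agent.T3.helper96.mem_fullC_of_mem_FF N y.2⟩ =
        @qExpand Kb _ dc hdc (EN c y))
    (E : 𝒞 × Fin 3 → (FF (N * q * q) →+* LaurentSeries Kb))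
    (I : 𝒞 × Fin 3 → Fermat.Agent.S28.IX (N * q * q)) (d : 𝒞 × Fin 3 → ℕ)
    (hd : ∀ J, d J ≠ 0)
    (hE : ∀ (J : 𝒞 × Fin 3) (y : FF (N * q * q)), ∀ _ : NeZero (d J),
      qExpand Kb (d J) (E J y) = Fermat.Agent.T3.helper23.sigmaFF (N * q * q) (I J) y)
    {κ : Fin 3 → Fin 3 → 𝒞 → 𝒞} (hκ : ∀ i e, Function.Injective (κ i e))
    (hT : TableTw A EN E ζ κ)
    (hG : GalCompatTw A (fun p : 𝒞 × Fin 3 => p.2) E ζ)
    (hcover : Fermat.Agent.T3.helper27.CoverStatementE A E) :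
    Fermat.Agent.T3.helper72.Root3Pack N q hq hqN A hζ := by
  have hD : Fermat.Agent.T3.helper23.DiscPack A E :=
    Fermat.Agent.T3.helper23.discPack_of_qExpand_sigmaFF (N * q * q) A E I d hd hE
  obtain ⟨L₀, hSat⟩ := satStatementE_of_family hq hqN hA hN hζ rep hrep EN hEN
    E hD.alg hκ hT hG
  exact ⟨𝒞 × Fin 3, inferInstance, inferInstance, E, fun p => wt3 q p.2, L₀,
    fun p => wt3_pos (q := q) p.2, hD, fixStatementE_tw hG, hcover, hSat,
    fun H hreg hfix hred =>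
      Fermat.Agent.T3.helper20.gaussAll_family (hq := hq) (hqN := hqN) hA hζ E hD hreg hfix
        hred⟩

/-- **the box `root` of `helper72.OpenBoxes`** from the packaging of [CUSP-Q]. -/
theorem root3All_of_family (hA : A.LiesOverPrime q) (hN : 4 ∣ N ∨ 9 ∣ N) {ζ : Kb}
    (hζ : IsPrimitiveRoot ζ q) {𝒞 : Type} [Fintype 𝒞] [DecidableEq 𝒞] [Nonempty 𝒞]
    (rep : 𝒞 → Fermat.Agent.S28.IX N)
    (hrep : ∀ c c', rep c' ∈ Fermat.Agent.T3.helper96.orbT N (rep c) → c' = c)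
    (EN : 𝒞 → (FF N →+* LaurentSeries Kb))
    (hEN : ∀ (c : 𝒞) (dc : ℕ) (hdc : NeZero dc),
      dc * Nat.card (Fermat.Agent.T3.helper96.orbT N (rep c)) = N →
      ∀ y : FF N, Fermat.Agent.P2.helper28.sigmaK N (rep c)
        ⟨(y : LaurentSeries Kb), Fermat.Agent.T3.helper96.mem_fullC_of_mem_FF N y.2⟩ =
        @qExpand Kb _ dc hdc (EN c y))
    (E : 𝒞 × Fin 3 → (FF (N * q * q) →+* LaurentSeries Kb))
    (I : 𝒞 × Fin 3 → Fermat.Agent.S28.IX (N * q * q)) (d : 𝒞 × Fin 3 → ℕ)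
    (hd : ∀ J, d J ≠ 0)
    (hE : ∀ (J : 𝒞 × Fin 3) (y : FF (N * q * q)), ∀ _ : NeZero (d J),
      qExpand Kb (d J) (E J y) = Fermat.Agent.T3.helper23.sigmaFF (N * q * q) (I J) y)
    {κ : Fin 3 → Fin 3 → 𝒞 → 𝒞} (hκ : ∀ i e, Function.Injective (κ i e))
    (hT : TableTw A EN E ζ κ)
    (hG : GalCompatTw A (fun p : 𝒞 × Fin 3 => p.2) E ζ)
    (hcover : Fermat.Agent.T3.helper27.CoverStatementE A E) {n : ℕ} (hn : ¬ q ∣ n) :
    Fermat.Agent.T3.helper72.Root3AllStatement N q hq hqN A hζ n :=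
  Fermat.Agent.T3.helper72.root3All_of_pack hA
    (root3Pack_of_family hA hN hζ rep hrep EN hEN E I d hd hE hκ hT hG hcover) hn

end Family

end Fermat.Agent.T3.helper74

end
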