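/-
T3 (S36), helper74: **(SAT_q) and the box `root` for THE FAMILY `helper87.ex3c`** ([CUSP-Q]),
with every generic input discharged on the family:

* the twisted table      `helper87.tableTw_ex3c`, `helper87.kap_injective`,
* the exact-pole elements `helper96.xPoleAll_ENc`,
* (DISC)                 `helper23.discPack_ex3c`,
* [GAUSS-ALL]            `helper20.root3Pack_ex3c`.

Inputs left: `GalCompatTw` of the family (the Galois compatibility of the local expansions) and,
for the box `root`, `helper27.CoverStatementE` of the family.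

* `satStatementE_ex3c`  : `∃ L₀, helper27.SatStatementE q A (ex3c N q ζ) (wt3 ∘ snd) regJ L₀`;
* `fixStatementE_ex3c`  : `helper27.FixStatementE A ζ (ex3c N q ζ)`;
* `root3Pack_ex3c_of_gal`, `root3All_ex3c_of_gal` : the package and the box `root`.
-/
import Mathlib
import Fermat.Agent.T3.helper74_Root3Family
import Fermat.Agent.T3.helper87_CuspQTab
import Fermat.Agent.T3.helper96_XPoleENc
import Fermat.Agent.T3.helper20_GaussEx3c

set_option autoImplicit false
set_option synthInstance.maxHeartbeats 400000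
set_option maxHeartbeats 1000000
set_option linter.unusedSectionVars false
set_option linter.style.haveILetI false
set_option linter.style.longLine false

noncomputable section

open HahnSeries IntermediateField AlgebraicCurve ModularCurve
open Fermat.Agent.S18.helper19 Fermat.Agent.P2.helper29 Fermat.Agent.T2.helper36
open Fermat.Agent.T2.helper96

namespace Fermat.Agent.T3.helper74

open Fermat.Agent.T3.helper87 (Cusp ex3c ENc kap)

section Ex3c

variable {N q : ℕ} [NeZero N] [NeZero q]
variable {A : ValuationSubring Kb}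

/-- **(SAT_q) for THE FAMILY**, from its Galois compatibility alone. -/
theorem satStatementE_ex3c (hq : q.Prime) (hqN : ¬ q ∣ N) (hA : A.LiesOverPrime q)
    (hN : 4 ∣ N ∨ 9 ∣ N) {ζ : Kb} (hζ : IsPrimitiveRoot ζ q)
    (hG : GalCompatTw A (fun p : Cusp N × Fin 3 => p.2) (ex3c N q ζ) ζ) :
    ∃ L₀ : ℤ, Fermat.Agent.T3.helper27.SatStatementE q A (ex3c N q ζ)
      (fun p : Cusp N × Fin 3 => wt3 q p.2) (Fermat.Agent.T3.helper98.regJ (N * q * q)) L₀ := by
  obtain ⟨m₀, hX⟩ := Fermat.Agent.T3.helper96.xPoleAll_ENc (N := N) (q := q) (A := A)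
    hq hA hqN hN
  exact ⟨(lev3 q m₀ : ℤ),
    satStatementE_of_table hq hA hζ (Fermat.Agent.T3.helper87.kap_injective hq hqN hζ)
      (Fermat.Agent.T3.helper87.tableTw_ex3c hq hqN A hA hζ) _ hX
      (Fermat.Agent.T3.helper23.discPack_ex3c N q ζ A).alg hG⟩

/-- **(FIX) for THE FAMILY**, from its Galois compatibility. -/
theorem fixStatementE_ex3c {ζ : Kb}
    (hG : GalCompatTw A (fun p : Cusp N × Fin 3 => p.2) (ex3c N q ζ) ζ) :
    Fermat.Agent.T3.helper27.FixStatementE A ζ (ex3c N q ζ) :=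
  fixStatementE_tw hG

variable {hq : q.Prime} {hqN : ¬ q ∣ N}

/-- **the package of [ROOT3-ALL] for THE FAMILY** from `GalCompatTw` and (COVER). -/
theorem root3Pack_ex3c_of_gal (hA : A.LiesOverPrime q) (hN : 4 ∣ N ∨ 9 ∣ N) {ζ : Kb}
    (hζ : IsPrimitiveRoot ζ q)
    (hG : GalCompatTw A (fun p : Cusp N × Fin 3 => p.2) (ex3c N q ζ) ζ)
    (hcover : Fermat.Agent.T3.helper27.CoverStatementE A (ex3c N q ζ)) :
    Fermat.Agent.T3.helper72.Root3Pack N q hq hqN A hζ := by
  obtain ⟨L₀, hSat⟩ := satStatementE_ex3c hq hqN hA hN hζ hG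
  exact Fermat.Agent.T3.helper20.root3Pack_ex3c (hq := hq) (hqN := hqN) hA hζ ζ
    (fun p : Cusp N × Fin 3 => wt3 q p.2) L₀ (fun p => wt3_pos (q := q) p.2)
    (fixStatementE_ex3c hG) hcover hSat

/-- **the box `root` of `helper72.OpenBoxes` for THE FAMILY** from `GalCompatTw` and (COVER). -/
theorem root3All_ex3c_of_gal (hA : A.LiesOverPrime q) (hN : 4 ∣ N ∨ 9 ∣ N) {ζ : Kb}
    (hζ : IsPrimitiveRoot ζ q)
    (hG : GalCompatTw A (fun p : Cusp N × Fin 3 => p.2) (ex3c N q ζ) ζ)
    (hcover : Fermat.Agent.T3.helper27.CoverStatementE A (ex3c N q ζ)) {n : ℕ}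
    (hn : ¬ q ∣ n) :
    Fermat.Agent.T3.helper72.Root3AllStatement N q hq hqN A hζ n :=
  Fermat.Agent.T3.helper72.root3All_of_pack hA
    (root3Pack_ex3c_of_gal (hq := hq) (hqN := hqN) hA hN hζ hG hcover) hn

end Ex3c

end Fermat.Agent.T3.helper74

end
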