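/-
T3 (S36), helper81, [CUSP-N] part 1: the expansions of `F_M` at ALL cosets (all cusps of
`X₀(M)`), for a valuation ring `A` of `ℚ̄` over a prime `ℓ ∤ M`.

Vocabulary (on main): `helper28.conjX M` (cosets `I = Γ₀(M)\SL₂(ℤ)` with the analytic
expansions), `helper28.sigma` (coset expansions of the function field in characteristic `0`,
`S = SK`, and in characteristic `ℓ`, `S = SA A`), series in `t = q^(1/M)`.

* `exists_int_sigma` / `exists_int_EC` : **integrality + reduction at all cusps**: a function
  which is regular off the cusps (integral over `ℚ̄[j]`) and has an `A`-integral `q`-expansion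
  at `∞` has `A`-integral expansions at ALL cosets, and reduction commutes with the coset
  expansions.  (Poles at the cusps are allowed.)
* `coeffMap_sigK` / `EC_gal` / `EC_gal_inertia` : **Galois equivariance**
  `s ∘ EC i = EC i ∘ s` for every `s` fixing `ζ_M`, in particular for the inertia group of `A`.
* `EC`, `ECb`, `EC_i₀`, `EC_jElt`, `EC_permT`, `exists_cuspDict` : the API in the vocabulary of
  T3 (`FF M`, `jElt M`, `incl`, `red`) and the cusp dictionary in characteristic `0`.
-/
import Mathlib
import Fermat.Agent.P2.helper81_CuspReg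

set_option autoImplicit false
set_option linter.style.haveILetI false
set_option linter.unusedSectionVars false
set_option linter.unusedVariables false
set_option linter.style.longLine false
set_option synthInstance.maxHeartbeats 400000

open ModularCurve Polynomial

noncomputable section

namespace Fermat.Agent.T3.helper81

open Fermat.Agent.S24 Fermat.Agent.S28 Fermat.Agent.P2 Fermat.Agent.P2.helper81

/-- the coset expansion in characteristic `0` -/
abbrev sigK (M : ℕ) [NeZero M] (i : (helper28.conjX M).I) :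
    helper28.FbT Kbar M →+* LaurentSeries Kbar :=
  helper28.sigma (helper28.conjX M) SK rK (zetaC_mem_SK M) (natCast_inv_mem_SK M)
    rK_surjective i

section Lift

variable (A : ValuationSubring Kbar) {ℓ : ℕ} [Fact ℓ.Prime] (hA : A.LiesOverPrime ℓ)
variable (M : ℕ) [NeZero M] (hℓM : ¬ ℓ ∣ M)

/-- the coset expansion in characteristic `ℓ` -/
abbrev sigA (i : (helper28.conjX M).I) : helper28.FbT (kA A) M →+* LaurentSeries (kA A) :=
  helper28.sigma (helper28.conjX M) (helper28.SA A) (helper28.rA A)
    (helper28.zetaC_mem_SA A M)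
    (helper28.natCast_inv_mem_SA A (Fact.out : ℓ.Prime) hA M hℓM)
    (helper28.rA_surjective A) i

/-- integral lift of the expansions of an element of `GS` with coefficients in `ι(A)` -/
theorem exists_lift_Eb (g₁ : helper28.GSr (helper28.conjX M) (helper28.SA A))
    (g₂ : helper28.GSr (helper28.conjX M) SK)
    (h : (g₁ : (helper28.conjX M).G) = g₂) (i : (helper28.conjX M).I) :
    ∃ Z : LaurentSeries A,
      coeffMap A.subtype Z = helper28.Eb (helper28.conjX M) SK rK i g₂ ∧
      coeffMap (IsLocalRing.residue A) Z =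
        helper28.Eb (helper28.conjX M) (helper28.SA A) (helper28.rA A) i g₁ := by
  refine ⟨coeffMap ((helper28.eSA A).symm : helper28.SA A →+* A.toSubring)
    (helper93.ES (helper28.conjX M).E (helper28.SA A) i g₁), ?_, ?_⟩
  · ext n
    rw [coeffMap_coeff, coeffMap_coeff, helper93.Ebar_coeff]
    apply (helper28.iotaK).injective
    have h1 : helper28.iotaK (rK ((helper93.ES (helper28.conjX M).E SK i g₂).coeff n)) =
        ((helper28.conjX M).E i (g₂ : (helper28.conjX M).G)).coeff n := by
      rw [← helper93.ES_coeff]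
      have := eSK.apply_symm_apply ((helper93.ES (helper28.conjX M).E SK i g₂).coeff n)
      exact congrArg Subtype.val this
    rw [h1, ← h, ← helper93.ES_coeff]
    have := (helper28.eSA A).apply_symm_apply
      ((helper93.ES (helper28.conjX M).E (helper28.SA A) i g₁).coeff n)
    exact congrArg Subtype.val this
  · ext n
    rfl

/-- an integral Laurent series whose reduction has the same order is a unit -/
theorem isUnit_of_order_red (Z : LaurentSeries A)
    (h0 : coeffMap (IsLocalRing.residue A) Z ≠ 0)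
    (hord : (coeffMap (IsLocalRing.residue A) Z).order = (coeffMap A.subtype Z).order) :
    IsUnit Z := by
  rw [HahnSeries.isUnit_iff, HahnSeries.leadingCoeff_eq]
  have h1 : (coeffMap A.subtype Z).order = Z.order := by
    by_cases hx : Z = 0
    · rw [hx, map_zero, HahnSeries.order_zero, HahnSeries.order_zero]
    have hx' : coeffMap A.subtype Z ≠ 0 := fun h0 =>
      hx (helper93.coeffMap_injective' A.subtype Subtype.val_injective
        (h0.trans (map_zero _).symm))
    apply le_antisymm
    · apply HahnSeries.order_le_of_coeff_ne_zero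
      rw [coeffMap_coeff]
      intro h0
      exact hx (HahnSeries.coeff_order_eq_zero.mp
        (Subtype.val_injective (h0.trans (map_zero A.subtype).symm)))
    · have h1 : (coeffMap A.subtype Z).coeff (coeffMap A.subtype Z).order ≠ 0 :=
        fun h0 => hx' (HahnSeries.coeff_order_eq_zero.mp h0)
      rw [coeffMap_coeff] at h1
      have h2 : Z.coeff (coeffMap A.subtype Z).order ≠ 0 := fun h0 => h1 (by rw [h0, map_zero])
      exact HahnSeries.order_le_of_coeff_ne_zero h2
  have h2 : (coeffMap (IsLocalRing.residue A) Z).coeff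
      (coeffMap (IsLocalRing.residue A) Z).order ≠ 0 :=
    fun h => h0 (HahnSeries.coeff_order_eq_zero.mp h)
  rw [hord, h1, coeffMap_coeff] at h2
  by_contra hu
  exact h2 ((IsLocalRing.residue_eq_zero_iff _).mpr ((IsLocalRing.mem_maximalIdeal _).mpr hu))

include hA hℓM in
/-- **integrality and reduction of ALL coset expansions**: if `Y ∈ A((q))` is the `q`-expansion of
a function of level `M` (`ℓ ∤ M`) which is integral over `ℚ̄[j]` (regular off the cusps), then
every coset expansion of the function is `A`-integral and its reduction is the corresponding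
coset expansion of the reduction. -/
theorem exists_int_sigma (Y : LaurentSeries A)
    (hY : coeffMap A.subtype Y ∈ modularFunctionFieldBar M)
    (hint : ∃ p : Polynomial (Polynomial Kbar), p.Monic ∧ ev₂ jK (coeffMap A.subtype Y) p = 0)
    (hYK : coeffMap A.subtype Y ∈ modularFunctionFieldFullC Kbar M)
    (hmem : red A Y ∈ modularFunctionFieldFullC (kA A) M)
    (i : (helper28.conjX M).I) :
    ∃ Z : LaurentSeries A,
      coeffMap A.subtype Z = sigK M i ⟨coeffMap A.subtype Y, hYK⟩ ∧
      coeffMap (IsLocalRing.residue A) Z = sigA A hA M hℓM i ⟨red A Y, hmem⟩ := by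
  classical
  obtain ⟨G, -, hG⟩ := exists_euler_of_incl A hA M hℓM Y hY hint
  have hζA := helper28.zetaC_mem_SA A M
  have hNA := helper28.natCast_inv_mem_SA A (Fact.out : ℓ.Prime) hA M hℓM
  set fK : helper28.FbT Kbar M := ⟨coeffMap A.subtype Y, hYK⟩ with hfKdef
  set y : helper28.FbT (kA A) M := ⟨red A Y, hmem⟩ with hy
  -- characteristic `0`
  have hEK : helper28.evF Kbar M (G.map (Polynomial.mapRingHom A.subtype)) =
      fK * helper28.evF Kbar M (derivative (PSbK M)) := by
    apply Subtype.ext
    rw [MulMemClass.coe_mul, coe_evF, coe_evF, PSbK_eq A hA M hℓM, Polynomial.derivative_map]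
    have h := congrArg (coeffMap A.subtype) hG
    rw [map_mul, deltaA, ev₂_apply, ev₂_apply, helper25.coeffMap_eval₂_aeval,
      helper25.coeffMap_eval₂_aeval, ModularCurve.coeffMap_qExpand,
      ModularCurve.coeffMap_jqModC] at h
    exact h
  have hGK : G.map (Polynomial.mapRingHom A.subtype) =
      (G.map (Polynomial.mapRingHom (eKA A))).map (Polynomial.mapRingHom rK) := by
    rw [Fermat.Agent.S28.helper81.map_mapRingHom_comp, rK_comp_eKA]
  have hDK : derivative (PSbK M) =
      ((derivative (PhiA A M hA hℓM)).map (Polynomial.mapRingHom (eKA A))).map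
        (Polynomial.mapRingHom rK) := by
    rw [PSbK_eq A hA M hℓM, Fermat.Agent.S28.helper81.map_mapRingHom_comp, rK_comp_eKA,
      Polynomial.derivative_map]
  have h1K := congrArg (sigK M i) hEK
  rw [map_mul, hGK, sigma_evF_map] at h1K
  have h2K : sigK M i (helper28.evF Kbar M (derivative (PSbK M))) =
      helper28.Eb (helper28.conjX M) SK rK i
        (psiGS (helper28.conjX M) SK (zetaC_mem_SK M) (natCast_inv_mem_SK M)
          ((derivative (PhiA A M hA hℓM)).map (Polynomial.mapRingHom (eKA A)))) := by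
    rw [hDK, sigma_evF_map]
  obtain ⟨hΔK0, hΔKord⟩ := order_eval₂_derivative_PSb (helper28.conjX M) SK rK (zetaC_mem_SK M)
    (natCast_inv_mem_SK M) i
  have h3K : sigK M i (helper28.evF Kbar M (derivative (PSbK M))) =
      eval₂ (helper28.phik Kbar M)
        (helper28.Eb (helper28.conjX M) SK rK i
          (helper28.ThS (helper28.conjX M) SK (zetaC_mem_SK M) (natCast_inv_mem_SK M)))
        (derivative (PSbK M)) := sigma_evF _ _ _ _ _ _ i _
  -- characteristic `ℓ`
  have hEA : helper28.evF (kA A) M (G.map (Polynomial.mapRingHom (IsLocalRing.residue A))) =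
      y * helper28.evF (kA A) M (derivative (PSbA A hA M hℓM)) := by
    apply Subtype.ext
    rw [MulMemClass.coe_mul, coe_evF, coe_evF, PSbA_eq_phiBar A hA M hℓM,
      ← PhiA_map_residue A M hA hℓM, Polynomial.derivative_map]
    have h := congrArg (red A) hG
    rw [map_mul, deltaA, ev₂_apply, ev₂_apply, helper25.coeffMap_eval₂_aeval,
      helper25.coeffMap_eval₂_aeval, ModularCurve.coeffMap_qExpand,
      ModularCurve.coeffMap_jqModC] at h
    exact h
  have hGA : G.map (Polynomial.mapRingHom (IsLocalRing.residue A)) =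
      (G.map (Polynomial.mapRingHom (eA A))).map (Polynomial.mapRingHom (helper28.rA A)) := by
    rw [Fermat.Agent.S28.helper81.map_mapRingHom_comp, rA_comp_eA]
  have hDA : derivative (PSbA A hA M hℓM) =
      ((derivative (PhiA A M hA hℓM)).map (Polynomial.mapRingHom (eA A))).map
        (Polynomial.mapRingHom (helper28.rA A)) := by
    rw [PSbA_eq_phiBar A hA M hℓM, ← PhiA_map_residue A M hA hℓM,
      Fermat.Agent.S28.helper81.map_mapRingHom_comp, rA_comp_eA, Polynomial.derivative_map]
  have h1A := congrArg (sigA A hA M hℓM i) hEA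
  rw [map_mul, hGA, sigma_evF_map] at h1A
  have h2A : sigA A hA M hℓM i (helper28.evF (kA A) M (derivative (PSbA A hA M hℓM))) =
      helper28.Eb (helper28.conjX M) (helper28.SA A) (helper28.rA A) i
        (psiGS (helper28.conjX M) (helper28.SA A) hζA hNA
          ((derivative (PhiA A M hA hℓM)).map (Polynomial.mapRingHom (eA A)))) := by
    rw [hDA, sigma_evF_map]
  obtain ⟨hΔA0, hΔAord⟩ := order_eval₂_derivative_PSb (helper28.conjX M) (helper28.SA A)
    (helper28.rA A) hζA hNA i
  have h3A : sigA A hA M hℓM i (helper28.evF (kA A) M (derivative (PSbA A hA M hℓM))) =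
      eval₂ (helper28.phik (kA A) M)
        (helper28.Eb (helper28.conjX M) (helper28.SA A) (helper28.rA A) i
          (helper28.ThS (helper28.conjX M) (helper28.SA A) hζA hNA))
        (derivative (PSbA A hA M hℓM)) := sigma_evF _ _ _ _ _ _ i _
  -- integral lifts of numerator and denominator
  obtain ⟨Zn, hZnK, hZnA⟩ := exists_lift_Eb A M _ _ (coe_psiGS_eq A hA M hℓM G) i
  obtain ⟨Zd, hZdK, hZdA⟩ := exists_lift_Eb A M _ _
    (coe_psiGS_eq A hA M hℓM (derivative (PhiA A M hA hℓM))) i
  have hZdu : IsUnit Zd := by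
    apply isUnit_of_order_red A Zd
    · rw [hZdA, ← h2A, h3A]
      exact hΔA0
    · rw [hZdA, ← h2A, h3A, hΔAord, hZdK, ← h2K, h3K, hΔKord]
  obtain ⟨u, hu⟩ := hZdu
  refine ⟨Zn * ((u⁻¹ : (LaurentSeries A)ˣ) : LaurentSeries A), ?_, ?_⟩
  · have hd0 : coeffMap A.subtype Zd ≠ 0 := by
      rw [hZdK, ← h2K, h3K]
      exact hΔK0
    apply mul_right_cancel₀ hd0
    rw [← map_mul, mul_assoc, ← hu, Units.inv_mul, mul_one, hZnK, h1K, hu, hZdK, ← h2K]
  · have hd0 : coeffMap (IsLocalRing.residue A) Zd ≠ 0 := by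
      rw [hZdA, ← h2A, h3A]
      exact hΔA0
    apply mul_right_cancel₀ hd0
    rw [← map_mul, mul_assoc, ← hu, Units.inv_mul, mul_one, hZnA, h1A, hu, hZdA, ← h2A]

end Lift

section Gal

variable (M : ℕ) [NeZero M]

/-- the `M`-th root of unity of `ℚ̄` corresponding to `exp(2πi/M)` -/
def zetaKb : Kbar := rK ⟨Fermat.Agent.S28.helper81.zetaC M, zetaC_mem_SK M⟩

theorem iotaK_rK (x : SK) : helper28.iotaK (rK x) = (x : ℂ) :=
  congrArg Subtype.val (eSK.apply_symm_apply x)

theorem iotaK_zetaKb : helper28.iotaK (zetaKb M) = Fermat.Agent.S28.helper81.zetaC M :=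
  iotaK_rK _

theorem zetaKb_pow : zetaKb M ^ M = 1 := by
  apply (helper28.iotaK).injective
  rw [map_pow, iotaK_zetaKb, Fermat.Agent.S28.helper81.zetaC_pow, map_one]

/-- the image in `ℂ` of the elements of `ℚ̄` fixed by `s` -/
def fixS (s : Kbar ≃ₐ[ℚ] Kbar) : Subring ℂ :=
  (RingHom.eqLocus (s : Kbar →+* Kbar) (RingHom.id Kbar)).map helper28.iotaK

theorem mem_fixS {s : Kbar ≃ₐ[ℚ] Kbar} {z : ℂ} :
    z ∈ fixS s ↔ ∃ a : Kbar, s a = a ∧ helper28.iotaK a = z := by
  unfold fixS
  rw [Subring.mem_map]
  constructor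
  · rintro ⟨a, ha, rfl⟩
    exact ⟨a, ha, rfl⟩
  · rintro ⟨a, ha, rfl⟩
    exact ⟨a, ha, rfl⟩

theorem zetaC_mem_fixS {s : Kbar ≃ₐ[ℚ] Kbar} (hs : s (zetaKb M) = zetaKb M) :
    Fermat.Agent.S28.helper81.zetaC M ∈ fixS s :=
  mem_fixS.mpr ⟨zetaKb M, hs, iotaK_zetaKb M⟩

theorem natCast_inv_mem_fixS (s : Kbar ≃ₐ[ℚ] Kbar) : ((M : ℂ))⁻¹ ∈ fixS s :=
  mem_fixS.mpr ⟨((M : Kbar))⁻¹, by simp, by simp⟩

/-- an expansion with coefficients in `fixS s` is fixed by `s` -/
theorem coeffMap_Eb_of_fixS (s : Kbar ≃ₐ[ℚ] Kbar) (i : (helper28.conjX M).I)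
    (g : helper28.GSr (helper28.conjX M) SK)
    (hg : ∀ n, ((helper28.conjX M).E i (g : (helper28.conjX M).G)).coeff n ∈ fixS s) :
    coeffMap (s : Kbar →+* Kbar) (helper28.Eb (helper28.conjX M) SK rK i g) =
      helper28.Eb (helper28.conjX M) SK rK i g := by
  ext n
  rw [coeffMap_coeff, helper93.Ebar_coeff]
  obtain ⟨a, ha, ha'⟩ := mem_fixS.mp (hg n)
  have h1 : rK ((helper93.ES (helper28.conjX M).E SK i g).coeff n) = a := by
    apply (helper28.iotaK).injective
    rw [iotaK_rK, helper93.ES_coeff, ha']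
  rw [h1]
  exact ha

theorem coeffMap_genK (s : Kbar ≃ₐ[ℚ] Kbar) (d : M.divisors) :
    coeffMap (s : Kbar →+* Kbar) (helper28.genK Kbar M d) = helper28.genK Kbar M d := by
  unfold helper28.genK
  rw [ModularCurve.coeffMap_qExpand, ModularCurve.coeffMap_jqModC]

theorem coeffMap_aeval_genK (s : Kbar ≃ₐ[ℚ] Kbar) (P : MvPolynomial M.divisors Kbar) :
    coeffMap (s : Kbar →+* Kbar) (MvPolynomial.aeval (helper28.genK Kbar M) P) =
      MvPolynomial.aeval (helper28.genK Kbar M) (MvPolynomial.map (s : Kbar →+* Kbar) P) := by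
  rw [MvPolynomial.aeval_def, MvPolynomial.aeval_def, MvPolynomial.eval₂_map,
    MvPolynomial.hom_eval₂]
  congr 1
  · apply RingHom.ext
    intro c
    simp only [RingHom.comp_apply]
    rw [helper93.algebraMap_laurent_eq_C, helper93.algebraMap_laurent_eq_C]
    apply HahnSeries.ext
    funext n
    rw [coeffMap_coeff]
    by_cases hn : n = 0
    · subst hn
      simp
    · simp [HahnSeries.C_apply, HahnSeries.coeff_single_of_ne hn]
  · funext d
    exact coeffMap_genK M s d

theorem coeffMap_Thb (s : Kbar ≃ₐ[ℚ] Kbar) (hs : s (zetaKb M) = zetaKb M)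
    (i : (helper28.conjX M).I) (P : MvPolynomial M.divisors Kbar) :
    coeffMap (s : Kbar →+* Kbar)
        (helper28.Thb (helper28.conjX M) SK rK (zetaC_mem_SK M) (natCast_inv_mem_SK M) i P) =
      helper28.Thb (helper28.conjX M) SK rK (zetaC_mem_SK M) (natCast_inv_mem_SK M) i
        (MvPolynomial.map (s : Kbar →+* Kbar) P) := by
  unfold helper28.Thb
  rw [MvPolynomial.coe_eval₂Hom, MvPolynomial.eval₂_map, MvPolynomial.hom_eval₂]
  congr 1
  · apply RingHom.ext
    intro c
    simp only [RingHom.comp_apply]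
    apply HahnSeries.ext
    funext n
    rw [coeffMap_coeff]
    by_cases hn : n = 0
    · subst hn
      simp
    · simp [HahnSeries.C_apply, HahnSeries.coeff_single_of_ne hn]
  · funext d
    apply coeffMap_Eb_of_fixS
    intro n
    exact (((helper28.conjX M).hS (fixS s) (zetaC_mem_fixS M hs) (natCast_inv_mem_fixS M s)
      i n).2 d.1 (Nat.dvd_of_mem_divisors d.2)).1

/-- **Galois equivariance of the coset expansions**: if `s` fixes `ζ_M`, then
`s ∘ σ_i = σ_i ∘ s`. -/
theorem coeffMap_sigK (s : Kbar ≃ₐ[ℚ] Kbar) (hs : s (zetaKb M) = zetaKb M)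
    (i : (helper28.conjX M).I) (y y' : helper28.FbT Kbar M)
    (hy : (y' : LaurentSeries Kbar) = coeffMap (s : Kbar →+* Kbar) (y : LaurentSeries Kbar)) :
    coeffMap (s : Kbar →+* Kbar) (sigK M i y) = sigK M i y' := by
  obtain ⟨P, Q, hQ, hyQ⟩ := helper28.exists_frac Kbar M y.1 y.2
  have e : y * ⟨MvPolynomial.aeval (helper28.genK Kbar M) Q, helper28.aeval_genK_mem Kbar M Q⟩ =
      ⟨MvPolynomial.aeval (helper28.genK Kbar M) P, helper28.aeval_genK_mem Kbar M P⟩ :=
    Subtype.ext hyQ
  have e' : y' * ⟨MvPolynomial.aeval (helper28.genK Kbar M)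
        (MvPolynomial.map (s : Kbar →+* Kbar) Q), helper28.aeval_genK_mem Kbar M _⟩ =
      ⟨MvPolynomial.aeval (helper28.genK Kbar M) (MvPolynomial.map (s : Kbar →+* Kbar) P),
        helper28.aeval_genK_mem Kbar M _⟩ := by
    apply Subtype.ext
    rw [MulMemClass.coe_mul, hy]
    show coeffMap (s : Kbar →+* Kbar) (y : LaurentSeries Kbar) *
      MvPolynomial.aeval (helper28.genK Kbar M) (MvPolynomial.map (s : Kbar →+* Kbar) Q) =
      MvPolynomial.aeval (helper28.genK Kbar M) (MvPolynomial.map (s : Kbar →+* Kbar) P)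
    rw [← coeffMap_aeval_genK, ← coeffMap_aeval_genK, ← map_mul, hyQ]
  have h1 := congrArg (sigK M i) e
  have h2 := congrArg (sigK M i) e'
  rw [map_mul, helper28.sigma_aeval, helper28.sigma_aeval] at h1 h2
  have h3 := congrArg (coeffMap (s : Kbar →+* Kbar)) h1
  rw [map_mul, coeffMap_Thb M s hs, coeffMap_Thb M s hs] at h3
  have hne : helper28.Thb (helper28.conjX M) SK rK (zetaC_mem_SK M) (natCast_inv_mem_SK M) i
      (MvPolynomial.map (s : Kbar →+* Kbar) Q) ≠ 0 := by
    intro h0
    have h4 := (helper28.Thb_eq_zero_iff (helper28.conjX M) SK rK (zetaC_mem_SK M)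
      (natCast_inv_mem_SK M) rK_surjective i _).mpr h0
    rw [← coeffMap_aeval_genK] at h4
    apply hQ
    have hinj : Function.Injective (coeffMap (s : Kbar →+* Kbar)) :=
      helper93.coeffMap_injective' _ s.injective
    exact hinj (h4.trans (map_zero _).symm)
  exact mul_right_cancel₀ hne (h3.trans h2.symm)

end Gal

end Fermat.Agent.T3.helper81
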