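/-
T3 (S36), helper81, [CUSP-N] part 2: the level-`M` cusp package in the vocabulary of T3
(`FF M`, `jElt M`, `incl`, `red`), for a valuation ring `A` of `ℚ̄` over a prime `ℓ ∤ M`.

* `IXN M` : the cosets `Γ₀(M)\SL₂(ℤ)`; `EC M i : FF M →+* ℚ̄((t))`, `t = q^(1/M)` : the expansion
  at the coset `i`; `ECb M A hA hℓM i` : the expansion of the special fibre field;
  `EC_i₀`, `EC_jElt`, `EC_permT`, `EC_algebraMap`, `EC_injective`.
* `exists_int_EC` : **integrality + reduction at all cusps** for functions regular off the cusps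
  with `A`-integral `q`-expansion (poles at the cusps allowed).
* `EC_gal`, `EC_gal_inertia` : Galois / inertia equivariance.
* `isRatioEv_EC` : every expansion is a ratio of `A ∩ K₀`-integral power series (input of DISC).
* `exists_cuspDict` : the places `W i` are ALL poles of `j`, `W i = W j` iff same `T`-orbit,
  `ord_t (EC i f) = d_i · ord_{W i} f`, regularity at `W i` = no polar part, `W i₀ = ∞`.
-/
import Mathlib
import Fermat.Agent.T3.helper81_CuspN
import Fermat.Agent.T3.helper84_K0Basic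
import Fermat.Agent.P2.helper73_DiscRatio

set_option autoImplicit false
set_option linter.style.haveILetI false
set_option linter.unusedSectionVars false
set_option linter.unusedVariables false
set_option linter.style.longLine false
set_option synthInstance.maxHeartbeats 400000

open ModularCurve Polynomial

noncomputable section

namespace Fermat.Agent.T3.helper81

open Fermat.Agent.S24 Fermat.Agent.S28 Fermat.Agent.P2
open AlgebraicCurve Fermat.Agent.S18.helper19 Fermat.Agent.P2.helper29

section API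

variable (M : ℕ) [NeZero M]

/-- the cosets `Γ₀(M) \ SL₂(ℤ)` -/
abbrev IXN : Type := (helper28.conjX M).I

/-- the identification of the two descriptions of the function field in characteristic `0` -/
def toFbT : FF M →ₐ[Kb] helper28.FbT Kb M :=
  IntermediateField.inclusion (le_of_eq (Fermat.Agent.P2.helper81.ff_eq_fullC M))

theorem coe_toFbT (f : FF M) : ((toFbT M f : helper28.FbT Kb M) : LaurentSeries Kb) = f :=
  IntermediateField.coe_inclusion _ f

/-- **the expansion of `F_M` at the coset `i`** (a series in `t = q^(1/M)`) -/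
def EC (i : IXN M) : FF M →+* LaurentSeries Kb :=
  (sigK M i).comp ((toFbT M : FF M →ₐ[Kb] helper28.FbT Kb M) : FF M →+* helper28.FbT Kb M)

theorem EC_apply (i : IXN M) (f : FF M) : EC M i f = sigK M i (toFbT M f) := rfl

theorem EC_algebraMap (i : IXN M) (c : Kb) :
    EC M i (algebraMap Kb (FF M) c) = HahnSeries.C c := by
  rw [EC_apply, AlgHom.commutes]
  exact helper28.sigma_algebraMap _ _ _ _ _ _ i c

theorem EC_injective (i : IXN M) : Function.Injective (EC M i) := RingHom.injective _

/-- at the identity coset the expansion is `q ↦ t^M` -/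
theorem EC_i₀ (f : FF M) :
    EC M (helper28.conjX M).i₀ f = qExpand Kb M (f : LaurentSeries Kb) := by
  rw [EC_apply, ← coe_toFbT M f]
  exact helper28.sigma_i₀ _ _ _ _ _ _ _

theorem toFbT_jElt : toFbT M (jElt M) = ⟨jqModC Kb, jqModC_mem_full Kb M⟩ := by
  apply Subtype.ext
  rw [coe_toFbT]
  rfl

theorem EC_jElt (i : IXN M) : EC M i (jElt M) = qExpand Kb M (jqModC Kb) := by
  rw [EC_apply, toFbT_jElt]
  exact helper28.sigma_jBar _ _ _ _ _ _ i

/-- the translate `T⁻¹ i` of a coset gives the rotated expansion `t ↦ ζ_M t` -/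
theorem EC_permT (i : IXN M) (f : FF M) :
    EC M (helper28.permT M i) f =
      helper94.rot (helper28.zetaBarU Fermat.Agent.P2.helper81.SK Fermat.Agent.P2.helper81.rK
        (Fermat.Agent.P2.helper81.zetaC_mem_SK M)) (EC M i f) := by
  rw [EC_apply, EC_apply]
  exact helper28.sigma_rot (helper28.conjX M) Fermat.Agent.P2.helper81.SK
    Fermat.Agent.P2.helper81.rK (Fermat.Agent.P2.helper81.zetaC_mem_SK M)
    (Fermat.Agent.P2.helper81.natCast_inv_mem_SK M)
    Fermat.Agent.P2.helper81.rK_surjective (helper28.permT M) (helper28.zetaU M) rfl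
    (helper28.conjX_rot M) i _

theorem coe_zetaBarU_SK :
    ((helper28.zetaBarU Fermat.Agent.P2.helper81.SK Fermat.Agent.P2.helper81.rK
      (Fermat.Agent.P2.helper81.zetaC_mem_SK M) : Kbˣ) : Kb) = zetaKb M := rfl

variable (A : ValuationSubring Kb) {ℓ : ℕ} [Fact ℓ.Prime] (hA : A.LiesOverPrime ℓ)
  (hℓM : ¬ ℓ ∣ M)

/-- **the expansion of the special fibre field at the coset `i`** -/
def ECb (i : IXN M) : FFb A M →+* LaurentSeries (kA A) :=
  sigA A hA M hℓM i

theorem ECb_i₀ (y : FFb A M) :
    ECb M A hA hℓM (helper28.conjX M).i₀ y = qExpand (kA A) M (y : LaurentSeries (kA A)) :=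
  helper28.sigma_i₀ _ _ _ _ _ _ _

theorem ECb_injective (i : IXN M) : Function.Injective (ECb M A hA hℓM i) :=
  RingHom.injective _

theorem jElt_eq_xJ : jElt M = xJ M :=
  Subtype.ext (Fermat.Agent.P2.helper81.coe_xJ_eq M).symm

/-- regularity off the cusps gives a monic equation over `ℚ̄[j]` -/
theorem exists_monic_of_reg (f : FF M)
    (hreg : ∀ P : Place Kb (FF M), 0 ≤ P.ord (jElt M) → 0 ≤ P.ord f) :
    ∃ p : Polynomial (Polynomial Kbar), p.Monic ∧
      Fermat.Agent.P2.helper81.ev₂ Fermat.Agent.P2.helper81.jK (f : LaurentSeries Kb) p = 0 := by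
  haveI : FiniteDimensional (IntermediateField.adjoin Kbar {xJ M}) (FN M) :=
    helper77.an_finiteDimensional M
  have h1 : ∀ P : Place Kbar (FN M), 0 ≤ P.ord (xJ M) → 0 ≤ P.ord (f : FN M) := fun P hP =>
    hreg P (by rw [jElt_eq_xJ]; exact hP)
  have h2 := Fermat.Agent.P2.helper81.isIntegral_of_forall_place (xJ M) (f : FN M) h1
  obtain ⟨p, hp, hp0⟩ :=
    Fermat.Agent.P2.helper81.exists_monic_of_isIntegral_adjoin (xJ M) (f : FN M) h2
  refine ⟨p, hp, ?_⟩
  have h3 := Fermat.Agent.P2.helper81.algHom_ev₂ (modularFunctionFieldBar M).val (xJ M)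
    (f : FN M) p
  rw [hp0, map_zero] at h3
  have h4 : (modularFunctionFieldBar M).val (xJ M) = Fermat.Agent.P2.helper81.jK :=
    Fermat.Agent.P2.helper81.coe_xJ_eq M
  rw [h4] at h3
  exact h3.symm

include hA hℓM in
/-- **[CUSP-N], integrality and reduction at all cusps**: let `f ∈ F_M` be regular off the cusps
with `A`-integral `q`-expansion `Y` at `∞`.  Then the reduction of `Y` lies in the special fibre
field and for EVERY coset `i` the expansion `EC i f` is `A`-integral, with reduction the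
expansion `ECb i` of the reduction. -/
theorem exists_int_EC (f : FF M) (Y : LaurentSeries A) (hY : incl A Y = (f : LaurentSeries Kb))
    (hreg : ∀ P : Place Kb (FF M), 0 ≤ P.ord (jElt M) → 0 ≤ P.ord f) (i : IXN M) :
    ∃ (hmem : red A Y ∈ FFb A M) (Z : LaurentSeries A),
      incl A Z = EC M i f ∧ red A Z = ECb M A hA hℓM i ⟨red A Y, hmem⟩ := by
  have hYe : coeffMap A.subtype Y = (f : LaurentSeries Kb) := hY
  have hYm : coeffMap A.subtype Y ∈ modularFunctionFieldBar M := by
    rw [hYe]
    exact f.2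
  have hint : ∃ p : Polynomial (Polynomial Kbar), p.Monic ∧
      Fermat.Agent.P2.helper81.ev₂ Fermat.Agent.P2.helper81.jK (coeffMap A.subtype Y) p = 0 := by
    rw [hYe]
    exact exists_monic_of_reg M f hreg
  have hmem : red A Y ∈ FFb A M :=
    Fermat.Agent.P2.helper81.coeffMap_residue_mem A hA M hℓM Y hYm
  have hYK : coeffMap A.subtype Y ∈ modularFunctionFieldFullC Kbar M := by
    rw [hYe, ← coe_toFbT M f]
    exact (toFbT M f).2
  obtain ⟨Z, hZ1, hZ2⟩ := exists_int_sigma A hA M hℓM Y hYm hint hYK hmem i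
  refine ⟨hmem, Z, ?_, hZ2⟩
  rw [EC_apply]
  have e : (⟨coeffMap A.subtype Y, hYK⟩ : helper28.FbT Kb M) = toFbT M f := by
    apply Subtype.ext
    rw [coe_toFbT]
    exact hYe
  rw [← e]
  exact hZ1

/-- **Galois equivariance of the expansions at all cusps**: if `s` fixes `ζ_M`, then
`s(EC i f) = EC i (s f)`. -/
theorem EC_gal (s : Kb ≃ₐ[ℚ] Kb) (hs : s (zetaKb M) = zetaKb M) (i : IXN M) (f : FF M) :
    coeffMap (s : Kb →+* Kb) (EC M i f) =
      EC M i (arithmeticRingAut (modularFunctionFieldFull M) s f) := by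
  rw [EC_apply, EC_apply]
  apply coeffMap_sigK M s hs i
  rw [coe_toFbT, coe_toFbT]
  exact coe_arithmeticRingAut_apply (modularFunctionFieldFull M) s f

include hA hℓM in
/-- the inertia group of `A` fixes `ζ_M` (`ℓ ∤ M`) -/
theorem inertia_zetaKb (s : Kb ≃ₐ[ℚ] Kb) (hs : s ∈ A.inertiaSubgroupIn ℚ) :
    s (zetaKb M) = zetaKb M :=
  Fermat.Agent.T3.helper84.k0_root (Fact.out : ℓ.Prime) A hA hℓM (u := 1) (w := zetaKb M)
    (map_one _) (fun σ _ => map_one σ) (zetaKb_pow M) s hs

include hA hℓM in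
/-- **inertia equivariance of the expansions at all cusps** -/
theorem EC_gal_inertia (s : Kb ≃ₐ[ℚ] Kb) (hs : s ∈ A.inertiaSubgroupIn ℚ) (i : IXN M)
    (f : FF M) :
    coeffMap (s : Kb →+* Kb) (EC M i f) =
      EC M i (arithmeticRingAut (modularFunctionFieldFull M) s f) :=
  EC_gal M s (inertia_zetaKb M A hA hℓM s hs) i f

/-! ### Ratios of integral series (input of DISC) -/

section Ratio

open Fermat.Agent.P2.helper23 (capSubring IsRatio phi phi_apply)
open Fermat.Agent.P2.helper73 (IsRatioEv isRatioEv_add isRatioEv_mul isRatioEv_inv isRatioEv_const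
  exists_phi_eq isRatio_zero)

include hA hℓM in
theorem natCast_inv_mem_A : ((M : Kb))⁻¹ ∈ A := by
  obtain ⟨a, ha, hae⟩ := helper28.natCast_inv_mem_SA A (Fact.out : ℓ.Prime) hA M hℓM
  have h : a = ((M : Kb))⁻¹ := by
    apply (helper28.iotaK).injective
    rw [hae]
    simp
  rw [← h]
  exact ha

include hA hℓM in
/-- the coefficients of the expansions of the generators lie in `A ∩ K₀` as soon as
`ζ_M ∈ K₀` -/
theorem coeff_Eb_JdS_mem (K₀ : IntermediateField ℚ Kb) (hz : zetaKb M ∈ K₀) (i : IXN M)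
    (d : M.divisors) (n : ℤ) :
    (helper28.Eb (helper28.conjX M) Fermat.Agent.P2.helper81.SK Fermat.Agent.P2.helper81.rK i
      (helper28.JdS (helper28.conjX M) Fermat.Agent.P2.helper81.SK
        (Fermat.Agent.P2.helper81.zetaC_mem_SK M)
        (Fermat.Agent.P2.helper81.natCast_inv_mem_SK M) d)).coeff n ∈ capSubring A K₀ := by
  set S : Subring ℂ := (capSubring A K₀).map helper28.iotaK with hS
  have hζS : Fermat.Agent.S28.helper81.zetaC M ∈ S :=
    ⟨zetaKb M, ⟨helper28.mem_of_pow_eq_one' A (NeZero.ne M) (zetaKb_pow M), hz⟩,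
      iotaK_zetaKb M⟩
  have hNS : ((M : ℂ))⁻¹ ∈ S :=
    ⟨((M : Kb))⁻¹, ⟨natCast_inv_mem_A M A hA hℓM,
      (inv_mem (natCast_mem K₀ M) : ((M : Kb))⁻¹ ∈ K₀)⟩, by simp⟩
  have h1 := (((helper28.conjX M).hS S hζS hNS i n).2 d.1 (Nat.dvd_of_mem_divisors d.2)).1
  obtain ⟨a, ha, hae⟩ := h1
  rw [helper93.Ebar_coeff]
  have h2 : Fermat.Agent.P2.helper81.rK ((helper93.ES (helper28.conjX M).E
      Fermat.Agent.P2.helper81.SK i (helper28.JdS (helper28.conjX M)
        Fermat.Agent.P2.helper81.SK (Fermat.Agent.P2.helper81.zetaC_mem_SK M)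
        (Fermat.Agent.P2.helper81.natCast_inv_mem_SK M) d)).coeff n) = a := by
    apply (helper28.iotaK).injective
    rw [iotaK_rK, helper93.ES_coeff, hae]
    rfl
  rw [h2]
  exact ha

/-- a Laurent series with coefficients in a subring is a ratio of power series -/
theorem isRatio_of_coeff_mem (R₀ : Subring Kb) (x : LaurentSeries Kb)
    (hx : ∀ n : ℤ, x.coeff n ∈ R₀) : IsRatio R₀ x := by
  by_cases hx0 : x = 0
  · rw [hx0]
    exact isRatio_zero R₀
  set m : ℕ := (-x.order).toNat with hm
  have hm' : -(m : ℤ) ≤ x.order := by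
    rw [hm]
    have := Int.self_le_toNat (-x.order)
    omega
  set g : LaurentSeries Kb := x * HahnSeries.single (m : ℤ) (1 : Kb) with hg
  have hcoeff : ∀ k : ℤ, g.coeff k = x.coeff (k - m) := by
    intro k
    have h := HahnSeries.coeff_mul_single_add (r := (1 : Kb)) (x := x) (a := k - m)
      (b := (m : ℤ))
    rw [sub_add_cancel, mul_one] at h
    exact h
  obtain ⟨G, hG⟩ : ∃ G : PowerSeries R₀, phi R₀ G = g := by
    refine exists_phi_eq _ (fun k hk => ?_) (fun n => ?_)
    · rw [hcoeff]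
      apply HahnSeries.coeff_eq_zero_of_lt_order
      omega
    · rw [hcoeff]
      exact hx _
  refine ⟨G, PowerSeries.X ^ m, pow_ne_zero _ PowerSeries.X_ne_zero, ?_⟩
  have hX : phi R₀ (PowerSeries.X ^ m) = HahnSeries.single (m : ℤ) 1 := by
    rw [phi_apply, map_pow, PowerSeries.map_X, HahnSeries.ofPowerSeries_X_pow]
  rw [hX, hG]

include hA hℓM in
theorem isRatioEv_Thb (i : IXN M) (P : MvPolynomial M.divisors Kb) :
    IsRatioEv A (helper28.Thb (helper28.conjX M) Fermat.Agent.P2.helper81.SK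
      Fermat.Agent.P2.helper81.rK (Fermat.Agent.P2.helper81.zetaC_mem_SK M)
      (Fermat.Agent.P2.helper81.natCast_inv_mem_SK M) i P) := by
  induction P using MvPolynomial.induction_on with
  | C c =>
    have h : helper28.Thb (helper28.conjX M) Fermat.Agent.P2.helper81.SK
        Fermat.Agent.P2.helper81.rK (Fermat.Agent.P2.helper81.zetaC_mem_SK M)
        (Fermat.Agent.P2.helper81.natCast_inv_mem_SK M) i (MvPolynomial.C c) =
        HahnSeries.single 0 c := by
      unfold helper28.Thb
      rw [MvPolynomial.coe_eval₂Hom, MvPolynomial.eval₂_C]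
      rfl
    rw [h]
    exact isRatioEv_const A c
  | add p q hp hq =>
    rw [map_add]
    exact isRatioEv_add A hp hq
  | mul_X p d hp =>
    rw [map_mul]
    refine isRatioEv_mul A hp ?_
    have h : helper28.Thb (helper28.conjX M) Fermat.Agent.P2.helper81.SK
        Fermat.Agent.P2.helper81.rK (Fermat.Agent.P2.helper81.zetaC_mem_SK M)
        (Fermat.Agent.P2.helper81.natCast_inv_mem_SK M) i (MvPolynomial.X d) =
        helper28.Eb (helper28.conjX M) Fermat.Agent.P2.helper81.SK
          Fermat.Agent.P2.helper81.rK i (helper28.JdS (helper28.conjX M)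
            Fermat.Agent.P2.helper81.SK (Fermat.Agent.P2.helper81.zetaC_mem_SK M)
            (Fermat.Agent.P2.helper81.natCast_inv_mem_SK M) d) := by
      unfold helper28.Thb
      rw [MvPolynomial.coe_eval₂Hom, MvPolynomial.eval₂_X]
    rw [h]
    classical
    refine ⟨{zetaKb M}, fun K₀ hK => ?_⟩
    have hz : zetaKb M ∈ K₀ := hK (by simp)
    exact isRatio_of_coeff_mem _ _ (fun n => coeff_Eb_JdS_mem M A hA hℓM K₀ hz i d n)

include hA hℓM in
/-- **every coset expansion is a ratio of `A ∩ K₀`-integral power series** (for `K₀` large) -/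
theorem isRatioEv_sigK (i : IXN M) (y : helper28.FbT Kb M) : IsRatioEv A (sigK M i y) := by
  obtain ⟨P, Q, hQ, hyQ⟩ := helper28.exists_frac Kb M y.1 y.2
  have e : y * ⟨MvPolynomial.aeval (helper28.genK Kb M) Q, helper28.aeval_genK_mem Kb M Q⟩ =
      ⟨MvPolynomial.aeval (helper28.genK Kb M) P, helper28.aeval_genK_mem Kb M P⟩ :=
    Subtype.ext hyQ
  have h1 := congrArg (sigK M i) e
  rw [map_mul, helper28.sigma_aeval, helper28.sigma_aeval] at h1
  have hne : helper28.Thb (helper28.conjX M) Fermat.Agent.P2.helper81.SK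
      Fermat.Agent.P2.helper81.rK (Fermat.Agent.P2.helper81.zetaC_mem_SK M)
      (Fermat.Agent.P2.helper81.natCast_inv_mem_SK M) i Q ≠ 0 := by
    intro h0
    exact hQ ((helper28.Thb_eq_zero_iff (helper28.conjX M) Fermat.Agent.P2.helper81.SK
      Fermat.Agent.P2.helper81.rK (Fermat.Agent.P2.helper81.zetaC_mem_SK M)
      (Fermat.Agent.P2.helper81.natCast_inv_mem_SK M)
      Fermat.Agent.P2.helper81.rK_surjective i _).mpr h0)
  have h2 : sigK M i y = helper28.Thb (helper28.conjX M) Fermat.Agent.P2.helper81.SK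
      Fermat.Agent.P2.helper81.rK (Fermat.Agent.P2.helper81.zetaC_mem_SK M)
      (Fermat.Agent.P2.helper81.natCast_inv_mem_SK M) i P *
      (helper28.Thb (helper28.conjX M) Fermat.Agent.P2.helper81.SK
      Fermat.Agent.P2.helper81.rK (Fermat.Agent.P2.helper81.zetaC_mem_SK M)
      (Fermat.Agent.P2.helper81.natCast_inv_mem_SK M) i Q)⁻¹ := by
    rw [← h1, mul_assoc, mul_inv_cancel₀ hne, mul_one]
  rw [h2]
  exact isRatioEv_mul A (isRatioEv_Thb M A hA hℓM i P)
    (isRatioEv_inv A (isRatioEv_Thb M A hA hℓM i Q))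

include hA hℓM in
/-- **[CUSP-N] (ratio)**: `IsRatioEv A (EC i y)` for every `y ∈ F_M` -/
theorem isRatioEv_EC (i : IXN M) (y : FF M) : IsRatioEv A (EC M i y) :=
  isRatioEv_sigK M A hA hℓM i _

end Ratio

/-! ### The cusp dictionary in characteristic `0` -/

section Dict

open WithZero

/-- the permutation `i ↦ T⁻¹ i` of the cosets -/
abbrev permN : Equiv.Perm (IXN M) := helper28.permT M

theorem exists_cuspDict_aux (E : IntermediateField Kb (LaurentSeries Kb))
    (h : E = modularFunctionFieldFullC Kb M) (jE : E) (hjE : (jE : LaurentSeries Kb) = jqModC Kb) :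
    ∃ (W : IXN M → Place Kb E) (d : IXN M → ℕ),
      (∀ i, (W i).ord jE < 0) ∧
      (∀ w : Place Kb E, w.ord jE < 0 → ∃ i, W i = w) ∧
      (∀ i j, W i = W j ↔ j ∈ MulAction.orbit (Subgroup.zpowers (permN M)) i) ∧
      (∀ i, d i * Nat.card (MulAction.orbit (Subgroup.zpowers (permN M)) i) = M) ∧
      (∀ i (f : E), f ≠ 0 →
        (sigK M i (IntermediateField.inclusion (le_of_eq h) f)).order =
          (d i : ℤ) * (W i).ord f) ∧
      (∀ i (f : E), 0 ≤ (W i).ord f ↔
        ∀ n : ℤ, n < 0 → (sigK M i (IntermediateField.inclusion (le_of_eq h) f)).coeff n = 0) ∧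
      helper29.IsInfty (W (helper28.conjX M).i₀) := by
  subst h
  obtain ⟨W, d, h1, h2, h3, h4, h5, h6, h7, h8⟩ :=
    helper28.cusp_dictionary (helper28.conjX M) Fermat.Agent.P2.helper81.SK
      Fermat.Agent.P2.helper81.rK (Fermat.Agent.P2.helper81.zetaC_mem_SK M)
      (Fermat.Agent.P2.helper81.natCast_inv_mem_SK M) Fermat.Agent.P2.helper81.rK_surjective
      (helper28.permT M) (helper28.zetaU M) rfl (helper28.conjX_rot M)
  have hj : jE = helper28.jb Kb M := Subtype.ext hjE
  have htb : ∀ w : Place Kb (helper28.FbT Kb M),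
      w.ord (helper28.tb Kb M) = -w.ord jE := by
    intro w
    rw [helper28.tb, Place.ord_inv, hj]
  have hincl : ∀ f : helper28.FbT Kb M,
      IntermediateField.inclusion (le_of_eq (rfl : modularFunctionFieldFullC Kb M = _)) f = f :=
    fun f => Subtype.ext (IntermediateField.coe_inclusion _ f)
  refine ⟨W, d, fun i => ?_, fun w hw => ?_, h3, h5, fun i f hf => ?_, fun i f => ?_, ?_⟩
  · have := h1 i
    rw [htb] at this
    omega
  · apply h2 w
    rw [htb]
    omega
  · rw [hincl]
    have hne : sigK M i f ≠ 0 := by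
      intro h0
      exact hf ((RingHom.injective (sigK M i)) (h0.trans (map_zero _).symm))
    have h9 := h6 i f hf
    rw [Fermat.Agent.S24.helper80.laurent_valuation_eq_exp_neg_order hne] at h9
    have h10 := WithZero.exp_injective h9
    omega
  · rw [hincl]
    exact Fermat.Agent.P2.helper81.ord_W_nonneg_iff (helper28.conjX M)
      Fermat.Agent.P2.helper81.SK Fermat.Agent.P2.helper81.rK
      (Fermat.Agent.P2.helper81.zetaC_mem_SK M) (Fermat.Agent.P2.helper81.natCast_inv_mem_SK M)
      Fermat.Agent.P2.helper81.rK_surjective W h7 i f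
  · exact Fermat.Agent.P2.helper81.isInfty_W_i₀ (helper28.conjX M)
      Fermat.Agent.P2.helper81.SK Fermat.Agent.P2.helper81.rK
      (Fermat.Agent.P2.helper81.zetaC_mem_SK M) (Fermat.Agent.P2.helper81.natCast_inv_mem_SK M)
      Fermat.Agent.P2.helper81.rK_surjective W h7 h2

/-- **[CUSP-N] (dictionary)**: the places `W i` of `F_M` at the cosets are ALL poles of `j`;
`W i = W j` iff `i`, `j` are in the same `T`-orbit; `ord_t (EC i f) = d_i · ord_{W i} f` with
`d_i · (width of the cusp) = M`; regularity at `W i` = no polar part of `EC i f`. -/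
theorem exists_cuspDict :
    ∃ (W : IXN M → Place Kb (FF M)) (d : IXN M → ℕ),
      (∀ i, (W i).ord (jElt M) < 0) ∧
      (∀ w : Place Kb (FF M), w.ord (jElt M) < 0 → ∃ i, W i = w) ∧
      (∀ i j, W i = W j ↔ j ∈ MulAction.orbit (Subgroup.zpowers (permN M)) i) ∧
      (∀ i, d i * Nat.card (MulAction.orbit (Subgroup.zpowers (permN M)) i) = M) ∧
      (∀ i (f : FF M), f ≠ 0 → (EC M i f).order = (d i : ℤ) * (W i).ord f) ∧
      (∀ i (f : FF M), 0 ≤ (W i).ord f ↔ ∀ n : ℤ, n < 0 → (EC M i f).coeff n = 0) ∧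
      helper29.IsInfty (W (helper28.conjX M).i₀) :=
  exists_cuspDict_aux M (FF M) (Fermat.Agent.P2.helper81.ff_eq_fullC M) (jElt M) rfl

end Dict

end API

end Fermat.Agent.T3.helper81
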