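/-
T3 / S36, leaves [FG-4a] + [FG-4c] of helper22's FG plan (#2300), ABSTRACT parts (helper84).
Mathlib + the Prelude's `coeffMap` vocabulary only.

* `fg4_gauss_dvr`         : `O` noetherian domain, `p` prime element  ⟹  any localisation of `O[X]`
                            at the prime `p O[X]` is a discrete valuation ring (Gauss valuation);
* `fg4_gaussRing hp x`    : the subring `{P(x)/Q(x) : P, Q ∈ O[X], Q ∉ p O[X]}` of a field `E ∋ x`;
  `fg4_gaussRing_isLocalization`, `fg4_gaussRing_isDVR` (for `x` transcendental over `O`),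
  `fg4_gaussRing_maximalIdeal` (uniformiser `p`);
* `fg4_ratSeries K`       : Laurent series over `L` with all coefficients in the subfield `K`;
  `fg4_functional`, `fg4_functional_zero`, `fg4_functional_detect` : `K`-linear functionals
  `L → K` applied to the coefficients of a combination of `K`-rational series;
* `fg4_linearIndependent` : `K`-rational elements linearly independent over `K(x)` are linearly
                            independent over `L(x)`  (linear disjointness);
* `fg4_finrank_le`        : a `K(x)`-subspace of `K`-rational elements has dimension `≤ [E : L(x)]`.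
-/
import Mathlib
import Fermat.Prelude.Def_ModularCurve_LaurentCoeff

set_option autoImplicit false
set_option linter.unusedSectionVars false
set_option linter.style.haveILetI false

open Polynomial IsLocalRing HahnSeries ModularCurve

noncomputable section

namespace Fermat.Agent.T3.helper84

section GaussAbs

variable {O : Type*} [CommRing O] [IsDomain O]

/-- the ideal `p O[X]` is prime for a prime element `p` -/
theorem fg4_span_C_isPrime {p : O} (hp : Prime p) : (Ideal.span {C p} : Ideal O[X]).IsPrime :=
  (Ideal.span_singleton_prime (by simpa using hp.ne_zero)).mpr (Polynomial.prime_C_iff.mpr hp)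

/-- **[FG-4c] (i)** the Gauss valuation ring: for a noetherian domain `O` and a prime element `p`,
any localisation of `O[X]` at the prime ideal `p O[X]` is a discrete valuation ring. -/
theorem fg4_gauss_dvr [IsNoetherianRing O] {p : O} (hp : Prime p)
    (S : Type*) [CommRing S] [IsDomain S] [Algebra O[X] S]
    [hP : (Ideal.span {C p} : Ideal O[X]).IsPrime]
    [IsLocalization.AtPrime S (Ideal.span {C p} : Ideal O[X])] :
    IsDiscreteValuationRing S := by
  set P : Ideal O[X] := Ideal.span {C p} with hPdef
  have hle : P.primeCompl ≤ nonZeroDivisors O[X] := P.primeCompl_le_nonZeroDivisors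
  haveI : IsNoetherianRing S := IsLocalization.isNoetherianRing P.primeCompl S inferInstance
  haveI : IsLocalRing S := IsLocalization.AtPrime.isLocalRing S P
  have hmax : maximalIdeal S = Ideal.span {algebraMap O[X] S (C p)} := by
    rw [← IsLocalization.AtPrime.map_eq_maximalIdeal P S, hPdef, Ideal.map_span, Set.image_singleton]
  have hinj : Function.Injective (algebraMap O[X] S) := IsLocalization.injective S hle
  have hne : algebraMap O[X] S (C p) ≠ 0 := by
    rw [Ne, map_eq_zero_iff _ hinj]
    simpa using hp.ne_zero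
  have hnf : ¬ IsField S := by
    rw [IsLocalRing.isField_iff_maximalIdeal_eq, hmax, Ideal.span_singleton_eq_bot]
    exact hne
  refine ((IsDiscreteValuationRing.TFAE S hnf).out 0 4).mpr ?_
  rw [hmax]
  exact ⟨⟨_, rfl⟩⟩

end GaussAbs

section GaussRing

variable {O E : Type*} [CommRing O] [IsDomain O] [Field E] [Algebra O E]
  {p : O} (hp : Prime p) (x : E)

/-- the Gauss ring of `x` over `O` at `p`: the fractions `P(x) / Q(x)` with `P, Q ∈ O[X]`,
`Q ∉ p O[X]` -/
def fg4_gaussRing : Subring E where
  carrier := {f | ∃ P Q : O[X], Q ∉ (Ideal.span {C p} : Ideal O[X]) ∧ f * aeval x Q = aeval x P}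
  mul_mem' := by
    rintro f g ⟨P, Q, hQ, h⟩ ⟨P', Q', hQ', h'⟩
    haveI := fg4_span_C_isPrime hp
    refine ⟨P * P', Q * Q', fun hmem => ?_, ?_⟩
    · rcases (Ideal.IsPrime.mem_or_mem inferInstance hmem) with h1 | h1
      · exact hQ h1
      · exact hQ' h1
    · rw [map_mul, map_mul, ← h, ← h']; ring
  one_mem' := ⟨1, 1, fun h => (fg4_span_C_isPrime hp).ne_top ((Ideal.eq_top_iff_one _).mpr h),
    by simp⟩
  add_mem' := by
    rintro f g ⟨P, Q, hQ, h⟩ ⟨P', Q', hQ', h'⟩
    haveI := fg4_span_C_isPrime hp
    refine ⟨P * Q' + P' * Q, Q * Q', fun hmem => ?_, ?_⟩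
    · rcases (Ideal.IsPrime.mem_or_mem inferInstance hmem) with h1 | h1
      · exact hQ h1
      · exact hQ' h1
    · rw [map_add, map_mul, map_mul, map_mul, ← h, ← h']; ring
  zero_mem' := ⟨0, 1, fun h => (fg4_span_C_isPrime hp).ne_top ((Ideal.eq_top_iff_one _).mpr h),
    by simp⟩
  neg_mem' := by
    rintro f ⟨P, Q, hQ, h⟩
    exact ⟨-P, Q, hQ, by rw [map_neg, ← h]; ring⟩

theorem mem_fg4_gaussRing_iff (f : E) : f ∈ fg4_gaussRing hp x ↔
    ∃ P Q : O[X], Q ∉ (Ideal.span {C p} : Ideal O[X]) ∧ f * aeval x Q = aeval x P := Iff.rfl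

theorem fg4_aeval_mem (P : O[X]) : aeval x P ∈ fg4_gaussRing hp x :=
  ⟨P, 1, fun h => (fg4_span_C_isPrime hp).ne_top ((Ideal.eq_top_iff_one _).mpr h), by simp⟩

/-- the evaluation map `O[X] → gaussRing`, `P ↦ P(x)` -/
def fg4_gaussEval : O[X] →+* fg4_gaussRing hp x where
  toFun P := ⟨aeval x P, fg4_aeval_mem hp x P⟩
  map_one' := Subtype.ext (map_one _)
  map_mul' P Q := Subtype.ext (map_mul _ P Q)
  map_zero' := Subtype.ext (map_zero _)
  map_add' P Q := Subtype.ext (map_add _ P Q)

/-- the `O[X]`-algebra structure of the Gauss ring (`P ↦ P(x)`) -/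
@[reducible] def fg4_gaussAlgebra : Algebra O[X] (fg4_gaussRing hp x) :=
  (fg4_gaussEval hp x).toAlgebra

theorem fg4_gaussAlgebra_coe (P : O[X]) :
    letI := fg4_gaussAlgebra hp x
    ((algebraMap O[X] (fg4_gaussRing hp x) P : fg4_gaussRing hp x) : E) = aeval x P := rfl

variable (htr : Function.Injective (aeval (R := O) x))

include htr in
/-- the Gauss ring is the localisation of `O[X]` at the prime `p O[X]` (for `x` transcendental
over `O`) -/
theorem fg4_gaussRing_isLocalization :
    letI := fg4_gaussAlgebra hp x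
    haveI := fg4_span_C_isPrime hp
    IsLocalization.AtPrime (fg4_gaussRing hp x) (Ideal.span {C p} : Ideal O[X]) := by
  letI := fg4_gaussAlgebra hp x
  haveI := fg4_span_C_isPrime hp
  refine ⟨?_, ?_, ?_⟩
  · rintro ⟨Q, hQ⟩
    have hQ' : Q ∉ (Ideal.span {C p} : Ideal O[X]) := hQ
    have hne : aeval x Q ≠ 0 := by
      intro h0
      have : Q = 0 := htr (by rw [h0, map_zero])
      exact hQ' (this ▸ zero_mem _)
    refine isUnit_iff_exists_inv.mpr ⟨⟨(aeval x Q)⁻¹, ⟨1, Q, hQ', ?_⟩⟩, ?_⟩
    · rw [map_one, inv_mul_cancel₀ hne]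
    · apply Subtype.ext
      show aeval x Q * (aeval x Q)⁻¹ = 1
      exact mul_inv_cancel₀ hne
  · rintro ⟨f, P, Q, hQ, h⟩
    exact ⟨(P, ⟨Q, hQ⟩), Subtype.ext h⟩
  · intro a b hab
    have h1 : aeval x a = aeval x b := congrArg Subtype.val hab
    exact ⟨1, by rw [htr h1]⟩

include htr in
/-- **[FG-4c] (ii)** the Gauss ring is a discrete valuation ring -/
theorem fg4_gaussRing_isDVR [IsNoetherianRing O] :
    IsDiscreteValuationRing (fg4_gaussRing hp x) := by
  letI := fg4_gaussAlgebra hp x
  haveI := fg4_span_C_isPrime hp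
  haveI := fg4_gaussRing_isLocalization hp x htr
  exact fg4_gauss_dvr hp (fg4_gaussRing hp x)

/-- the element `p` of the Gauss ring -/
def fg4_gaussUnif : fg4_gaussRing hp x :=
  ⟨algebraMap O E p, by
    have := fg4_aeval_mem hp x (C p)
    rwa [aeval_C] at this⟩

include htr in
/-- `p` generates the maximal ideal of the Gauss ring -/
theorem fg4_gaussRing_maximalIdeal [IsNoetherianRing O] :
    haveI := (fg4_gaussRing_isDVR hp x htr).toIsLocalRing
    IsLocalRing.maximalIdeal (fg4_gaussRing hp x) = Ideal.span {fg4_gaussUnif hp x} := by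
  letI := fg4_gaussAlgebra hp x
  haveI := fg4_span_C_isPrime hp
  haveI := fg4_gaussRing_isLocalization hp x htr
  haveI := (fg4_gaussRing_isDVR hp x htr).toIsLocalRing
  rw [← IsLocalization.AtPrime.map_eq_maximalIdeal (Ideal.span {C p} : Ideal O[X])
    (fg4_gaussRing hp x), Ideal.map_span, Set.image_singleton]
  congr 2
  apply Subtype.ext
  show aeval x (C p) = algebraMap O E p
  rw [aeval_C]

include htr in
/-- `p` is irreducible in the Gauss ring -/
theorem fg4_gaussUnif_irreducible [IsNoetherianRing O] :
    Irreducible (fg4_gaussUnif hp x) := by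
  haveI := fg4_gaussRing_isDVR hp x htr
  exact (IsDiscreteValuationRing.irreducible_iff_uniformizer _).mpr
    (fg4_gaussRing_maximalIdeal hp x htr)

end GaussRing

section Rat

variable {L : Type*} [Field L] (K : Subfield L)

/-- a Laurent series over `L` is `K`-rational if all its coefficients lie in the subfield `K` -/
def fg4_ratSeries : Subring (LaurentSeries L) where
  carrier := {f | ∀ n : ℤ, f.coeff n ∈ K}
  mul_mem' := by
    intro f g hf hg n
    rw [HahnSeries.coeff_mul]
    exact sum_mem fun ij _ => mul_mem (hf _) (hg _)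
  one_mem' := by
    intro n
    rw [HahnSeries.coeff_one]
    split_ifs
    · exact one_mem K
    · exact zero_mem K
  add_mem' := by
    intro f g hf hg n
    rw [HahnSeries.coeff_add]
    exact add_mem (hf n) (hg n)
  zero_mem' := fun n => by rw [HahnSeries.coeff_zero]; exact zero_mem K
  neg_mem' := by
    intro f hf n
    rw [HahnSeries.coeff_neg]
    exact neg_mem (hf n)

theorem mem_fg4_ratSeries_iff (f : LaurentSeries L) :
    f ∈ fg4_ratSeries K ↔ ∀ n : ℤ, f.coeff n ∈ K := Iff.rfl

theorem fg4_coeff_algebraMap_mul (d : L) (f : LaurentSeries L) (n : ℤ) :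
    (algebraMap L (LaurentSeries L) d * f).coeff n = d * f.coeff n := by
  rw [algebraMap_laurentSeries_eq_single, HahnSeries.coeff_single_zero_mul]

/-- **coefficientwise functionals (key identity)**: for `K`-rational series `r_a`, coefficients
`c_a ∈ L` and a `K`-linear functional `φ : L → K`,
`φ ((∑ c_a r_a)_n) = (∑ φ(c_a) r_a)_n`. -/
theorem fg4_functional {α : Type*} (s : Finset α) (r : α → LaurentSeries L)
    (hr : ∀ a ∈ s, r a ∈ fg4_ratSeries K) (c : α → L) (φ : L →ₗ[K] K) (n : ℤ) :
    ((φ ((∑ a ∈ s, algebraMap L (LaurentSeries L) (c a) * r a).coeff n) : K) : L) =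
      (∑ a ∈ s, algebraMap L (LaurentSeries L) ((φ (c a) : K) : L) * r a).coeff n := by
  simp only [HahnSeries.coeff_sum, fg4_coeff_algebraMap_mul]
  rw [map_sum, AddSubmonoidClass.coe_finsetSum]
  refine Finset.sum_congr rfl fun a ha => ?_
  have : c a * (r a).coeff n = (⟨(r a).coeff n, hr a ha n⟩ : K) • c a := by
    rw [Subfield.smul_def, smul_eq_mul, mul_comm]
  rw [this, map_smul, smul_eq_mul, MulMemClass.coe_mul, mul_comm]

/-- a relation `∑ c_a r_a = 0` between `K`-rational series stays a relation after applying a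
`K`-linear functional to the coefficients -/
theorem fg4_functional_zero {α : Type*} (s : Finset α) (r : α → LaurentSeries L)
    (hr : ∀ a ∈ s, r a ∈ fg4_ratSeries K) (c : α → L)
    (h : ∑ a ∈ s, algebraMap L (LaurentSeries L) (c a) * r a = 0) (φ : L →ₗ[K] K) :
    ∑ a ∈ s, algebraMap L (LaurentSeries L) ((φ (c a) : K) : L) * r a = 0 := by
  ext n
  rw [← fg4_functional K s r hr c φ n, h, HahnSeries.coeff_zero, map_zero]
  rfl

/-- if all the `φ`-images of a combination `∑ c_a r_a` of `K`-rational series vanish, the
combination vanishes -/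
theorem fg4_functional_detect {α : Type*} (s : Finset α) (r : α → LaurentSeries L)
    (hr : ∀ a ∈ s, r a ∈ fg4_ratSeries K) (c : α → L)
    (h : ∀ φ : L →ₗ[K] K,
      ∑ a ∈ s, algebraMap L (LaurentSeries L) ((φ (c a) : K) : L) * r a = 0) :
    ∑ a ∈ s, algebraMap L (LaurentSeries L) (c a) * r a = 0 := by
  ext n
  rw [HahnSeries.coeff_zero]
  apply (Module.forall_dual_apply_eq_zero_iff K _).mp
  intro φ
  have h1 := fg4_functional K s r hr c φ n
  rw [h φ, HahnSeries.coeff_zero] at h1
  exact Subtype.ext h1


/-! ### Linear disjointness of `K`-rational functions and `L(x)` over `K(x)` -/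

variable {E : Type*} [Field E] [Algebra L E] (ι : E →ₐ[L] LaurentSeries L)

/-- the `K`-rational elements of `E`: the expansion `ι e` has all its coefficients in `K` -/
def fg4_rat : Subring E := (fg4_ratSeries K).comap (ι : E →+* LaurentSeries L)

theorem mem_fg4_rat_iff (e : E) : e ∈ fg4_rat K ι ↔ ∀ n : ℤ, (ι e).coeff n ∈ K := Iff.rfl

theorem fg4_algebraMap_mem_rat (k : K) : algebraMap K E k ∈ fg4_rat K ι := by
  intro n
  have h1 : algebraMap K E k = algebraMap L E (k : L) := rfl
  show (ι (algebraMap K E k)).coeff n ∈ K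
  rw [h1, AlgHom.commutes, algebraMap_laurentSeries_eq_single]
  by_cases hn : n = 0
  · subst hn
    rw [HahnSeries.coeff_single_same]
    exact k.2
  · rw [HahnSeries.coeff_single_of_ne hn]
    exact zero_mem K

open scoped IntermediateField.algebraAdjoinAdjoin in
/-- **[FG-4a] (abstract)**: let `x ∈ E` be `K`-rational.  A family of `K`-rational elements of `E`
which is linearly independent over `K(x)` is linearly independent over `L(x)`. -/
theorem fg4_linearIndependent {ι' : Type*} (x : E) (hx : x ∈ fg4_rat K ι)
    (b : ι' → E) (hb : ∀ i, b i ∈ fg4_rat K ι)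
    (h : LinearIndependent (IntermediateField.adjoin K {x}) b) :
    LinearIndependent (IntermediateField.adjoin L {x}) b := by
  classical
  rw [← LinearIndependent.iff_fractionRing (Algebra.adjoin K {x})
    (IntermediateField.adjoin K {x})] at h
  rw [← LinearIndependent.iff_fractionRing (Algebra.adjoin L {x})
    (IntermediateField.adjoin L {x})]
  rw [linearIndependent_iff'] at h ⊢
  intro s g hg i hi
  have hιinj : Function.Injective ι := ι.toRingHom.injective
  -- choose polynomials
  have hP : ∀ j, ∃ P : L[X], aeval x P = (g j : E) := by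
    intro j
    have h1 : (g j : E) ∈ (aeval (R := L) x).range := by
      rw [← Algebra.adjoin_singleton_eq_range_aeval]
      exact (g j).2
    exact h1
  choose P hP using hP
  -- uniform degree bound
  obtain ⟨d, hd⟩ : ∃ d : ℕ, ∀ j ∈ s, (P j).natDegree < d :=
    ⟨(s.sup fun j => (P j).natDegree) + 1, fun j hj =>
      Nat.lt_succ_of_le (Finset.le_sup (f := fun j => (P j).natDegree) hj)⟩
  have hgj : ∀ j ∈ s, (g j : E) =
      ∑ m ∈ Finset.range d, algebraMap L E ((P j).coeff m) * x ^ m := by
    intro j hj
    rw [← hP j, aeval_eq_sum_range' (hd j hj)]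
    refine Finset.sum_congr rfl fun m _ => ?_
    rw [Algebra.smul_def]
  -- the relation as a combination of the rational series `ι (x^m * b j)`
  have hrel : ∑ a ∈ s ×ˢ Finset.range d,
      algebraMap L (LaurentSeries L) ((P a.1).coeff a.2) * ι (x ^ a.2 * b a.1) = 0 := by
    rw [Finset.sum_product]
    have h0 := congrArg ι hg
    rw [map_zero, map_sum] at h0
    rw [← h0]
    refine Finset.sum_congr rfl fun j hj => ?_
    have : g j • b j = (g j : E) * b j := rfl
    rw [this, hgj j hj, Finset.sum_mul, map_sum]
    refine Finset.sum_congr rfl fun m _ => ?_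
    simp only [map_mul, AlgHom.commutes, mul_assoc]
  have hr : ∀ a ∈ s ×ˢ Finset.range d, ι (x ^ a.2 * b a.1) ∈ fg4_ratSeries K :=
    fun a _ => (mul_mem (pow_mem hx _) (hb _) : x ^ a.2 * b a.1 ∈ fg4_rat K ι)
  -- for each `φ`, the `φ`-relation is a relation over `K[x]`
  have hφ : ∀ φ : L →ₗ[K] K, ∀ j ∈ s, ∑ m ∈ Finset.range d,
      algebraMap L E ((φ ((P j).coeff m) : K) : L) * x ^ m = 0 := by
    intro φ
    have h1 := fg4_functional_zero K _ _ hr (fun a => (P a.1).coeff a.2) hrel φ
    rw [Finset.sum_product] at h1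
    have hmem : ∀ j, ∑ m ∈ Finset.range d,
        algebraMap L E ((φ ((P j).coeff m) : K) : L) * x ^ m ∈ Algebra.adjoin K {x} := by
      intro j
      refine Subalgebra.sum_mem _ fun m _ => ?_
      refine Subalgebra.mul_mem _ ?_
        (Subalgebra.pow_mem _ (Algebra.self_mem_adjoin_singleton K x) _)
      have : algebraMap L E ((φ ((P j).coeff m) : K) : L) =
          algebraMap K E (φ ((P j).coeff m)) := rfl
      rw [this]
      exact Subalgebra.algebraMap_mem _ _
    have h2 := h s (fun j => ⟨_, hmem j⟩) (by
      apply hιinj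
      rw [map_zero, ← h1, map_sum]
      refine Finset.sum_congr rfl fun j _ => ?_
      have : (⟨_, hmem j⟩ : Algebra.adjoin K {x}) • b j =
          (∑ m ∈ Finset.range d,
            algebraMap L E ((φ ((P j).coeff m) : K) : L) * x ^ m) * b j := rfl
      rw [this, Finset.sum_mul, map_sum]
      refine Finset.sum_congr rfl fun m _ => ?_
      simp only [map_mul, AlgHom.commutes, mul_assoc])
    intro j hj
    exact congrArg Subtype.val (h2 j hj)
  -- conclude
  apply Subtype.ext
  rw [hgj i hi, ZeroMemClass.coe_zero]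
  apply hιinj
  rw [map_zero, map_sum]
  have h3 := fg4_functional_detect K (Finset.range d) (fun m => ι (x ^ m))
    (fun m _ => (pow_mem hx m : x ^ m ∈ fg4_rat K ι)) (fun m => (P i).coeff m) (fun φ => by
      have := congrArg ι (hφ φ i hi)
      rw [map_zero, map_sum] at this
      rw [← this]
      refine Finset.sum_congr rfl fun m _ => ?_
      simp only [map_mul, AlgHom.commutes])
  rw [← h3]
  refine Finset.sum_congr rfl fun m _ => ?_
  simp only [map_mul, AlgHom.commutes]


/-- **[FG-4a] (abstract, rank form)**: a `K(x)`-subspace `W` of `E` consisting of `K`-rational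
elements has dimension at most `[E : L(x)]`. -/
theorem fg4_finrank_le (x : E) (hx : x ∈ fg4_rat K ι)
    [FiniteDimensional (IntermediateField.adjoin L {x}) E]
    (W : Submodule (IntermediateField.adjoin K {x}) E) (hW : ∀ e ∈ W, e ∈ fg4_rat K ι) :
    Module.Finite (IntermediateField.adjoin K {x}) W ∧
      Module.finrank (IntermediateField.adjoin K {x}) W ≤
        Module.finrank (IntermediateField.adjoin L {x}) E := by
  classical
  have hrank : Module.rank (IntermediateField.adjoin K {x}) W ≤
      (Module.finrank (IntermediateField.adjoin L {x}) E : ℕ) := by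
    apply rank_le
    intro s hs
    have h1 : LinearIndependent (IntermediateField.adjoin K {x})
        (fun i : s => ((i : W) : E)) :=
      hs.map' W.subtype (Submodule.ker_subtype W)
    have h2 := fg4_linearIndependent K ι x hx (fun i : s => ((i : W) : E))
      (fun i => hW _ (i : W).2) h1
    have h3 := h2.fintype_card_le_finrank
    simpa using h3
  have hfin : Module.Finite (IntermediateField.adjoin K {x}) W :=
    Module.rank_lt_aleph0_iff.mp (lt_of_le_of_lt hrank (Cardinal.natCast_lt_aleph0))
  exact ⟨hfin, Module.finrank_le_of_rank_le hrank⟩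

end Rat

end Fermat.Agent.T3.helper84

end
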