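/-
T3 / S36, box (6) [FG] of `helper22.Ideal3Box` for the CONCRETE toric calculus (helper84):

  `hnoeth : IsNoetherianRing (aaRing (B.calc hA))`

for every base `B : helper49.TorBase N q hq hqN A hζ n` whose ring `B.Reg` consists of functions
regular where `j` is finite (`B.Reg = helper98.regJRing (N q q)`), GIVEN

* box (2) [RES] (`hres`, the field of `Ideal3Box` itself), and
* [INT3] (`hint3`): an `I`-fixed function, regular where `j` is finite, with reductions at the
  three cusps (quotient form `Red3`), has `A`-integral expansions at the three cusps.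

Route: `f ∈ AA` ⟹ (INT3) `IsInt3 f` ⟹ (`helper48.completeA_of_fix`) `f` integral over `A[j]`
⟹ (`helper97.completeO'`) integral over `O[j]` ⟹ (`isNoetherianRing_of_fix_integral`).

* `fgb_rho3_of_isTriple`  : `IsTriple f Y → helper49.Rho3 f (red ∘ Y)`;
* `fgb_rho3_jElt`         : `j` is `Rho3`-integral;
* `fgb_rho3_const`        : the constants of `O` are `Rho3`-integral;
* `fgb_evO_mem`           : `O[j] ⊆ AA`;
* `fgb_isIntegralElem`    : the elements of `AA` are integral over `O[j]`;
* `aaRing_isNoetherianRing` : **box (6) [FG]**;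
* `idMod_finite`          : the divisorial modules `𝔞_u` are finitely generated over `AA`.
-/
import Mathlib
import Fermat.Agent.T3.helper84_FGInst
import Fermat.Agent.T3.helper22_Ideal3Tor
import Fermat.Agent.T3.helper49_TorInst
import Fermat.Agent.T3.helper48_CompleteAFix
import Fermat.Agent.T3.helper98_Rho3
import Fermat.Agent.T3.helper98_NormRegJ

set_option autoImplicit false
set_option linter.unusedSectionVars false
set_option linter.unusedVariables false
set_option linter.style.haveILetI false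
set_option linter.style.longLine false

open Polynomial HahnSeries ModularCurve IntermediateField
open Fermat.Agent.S18.helper19 Fermat.Agent.P2.helper29 Fermat.Agent.S24

noncomputable section

namespace Fermat.Agent.T3.helper84

open Fermat.Agent.T3.helper74 (ex3 IsFixI IsInt3 dg0)
open Fermat.Agent.T3.helper72 (Red3)

section Box

variable {N q : ℕ} [NeZero N] [NeZero q] {hq : q.Prime} {hqN : ¬ q ∣ N}
  {A : ValuationSubring Kb} {ζ : Kb} {hζ : IsPrimitiveRoot ζ q}

/-- an `I`-fixed function with `A`-integral expansions `Y` at the three cusps is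
`Rho3`-integral, with reductions `red ∘ Y` -/
theorem fgb_rho3_of_isTriple {f : FF (N * q * q)} {Y : Fin 3 → LaurentSeries A}
    (hf : Fermat.Agent.T3.helper98.IsTriple N q hq hqN A hζ f Y) :
    Fermat.Agent.T3.helper49.Rho3 N q hq hqN A hζ f (fun i => red A (Y i)) :=
  ⟨hf.1, fun i => ⟨Y i, 1, by rw [map_one]; exact one_ne_zero,
    by rw [map_one, mul_one]; exact hf.2 i, by rw [map_one, mul_one]⟩⟩


variable (hq hqN A hζ) in
/-- `j` (at level `N q q`) is `Rho3`-integral -/
theorem fgb_rho3_jElt :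
    ∃ X, Fermat.Agent.T3.helper49.Rho3 N q hq hqN A hζ (xJ (N * q * q)) X := by
  obtain ⟨Y', h1, -⟩ := Fermat.Agent.T3.helper98.isTriple_dg0 (hq := hq) (hqN := hqN)
    (hζ := hζ) (isFixI_xJ A N) (jqModC A)
    (coe_xJ' (A := A) (M := N)).symm
  have e : dg0 N q (xJ N) = xJ (N * q * q) := by
    show heckeAlphaBar Kb (N * q) q (heckeAlphaBar Kb N q (xJ N)) = _
    rw [Fermat.Agent.P2.helper93.alpha_xJ, Fermat.Agent.P2.helper93.alpha_xJ]
  rw [e] at h1
  exact ⟨_, fgb_rho3_of_isTriple h1⟩

variable (hq hqN hζ) in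
/-- the constants of `O` are `Rho3`-integral -/
theorem fgb_rho3_const (a : k0Ring A) :
    ∃ X, Fermat.Agent.T3.helper49.Rho3 N q hq hqN A hζ
      (algebraMap Kb (FF (N * q * q)) (a : Kb)) X := by
  have hfix : IsFixI A N (algebraMap Kb (FF N) (a : Kb)) := fun σ hσ => by
    have h := arithmeticRingAut_algebraMap (modularFunctionFieldFull N) σ (a : Kb)
    rw [a.2.2 σ hσ] at h
    exact h
  obtain ⟨Y', h1, -⟩ := Fermat.Agent.T3.helper98.isTriple_dg0 (hq := hq) (hqN := hqN)
    (hζ := hζ) hfix (HahnSeries.C (⟨(a : Kb), a.2.1⟩ : A)) (by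
      rw [Fermat.Agent.P2.helper74.incl_C]
      rfl)
  have e : dg0 N q (algebraMap Kb (FF N) (a : Kb)) = algebraMap Kb (FF (N * q * q)) (a : Kb) :=
    (dg0 N q).commutes _
  rw [e] at h1
  exact ⟨_, fgb_rho3_of_isTriple h1⟩


variable (N q hq hqN A hζ) in
/-- **[INT3]**, the shape used here: an `I`-fixed function of level `N q q`, regular where `j`
is finite, which has reductions at the three cusps (quotient form `Red3`), has `A`-integral
expansions at the three cusps. -/
def Int3Statement : Prop :=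
  ∀ f : FF (N * q * q), Fermat.Agent.T3.helper98.IsRegJ (N * q * q) f →
    IsFixI A (N * q * q) f →
    (∃ X : Fin 3 → LaurentSeries (kA A), ∀ i, Red3 N q hq hqN A hζ i f (X i)) →
    IsInt3 N q hq hqN A hζ f

/-- [INT3] in the form announced by helper98 (`exists_triple_of_red3`) gives `Int3Statement` -/
theorem int3Statement_of_triple
    (h : ∀ (f : FF (N * q * q)) (X : Fin 3 → LaurentSeries (kA A)),
      Fermat.Agent.T3.helper98.IsRegJ (N * q * q) f → (∀ i, Red3 N q hq hqN A hζ i f (X i)) →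
      ∃ Y : Fin 3 → LaurentSeries A, (∀ i, incl A (Y i) = ex3 N q hq hqN hζ i f) ∧
        ∀ i, red A (Y i) = X i) :
    Int3Statement N q hq hqN A hζ := by
  rintro f hreg - ⟨X, hX⟩
  obtain ⟨Y, hY, -⟩ := h f X hreg hX
  exact fun i => ⟨Y i, hY i⟩

variable {n : ℕ}

/-- membership in `AA` for the concrete calculus, given box (2) [RES] -/
theorem fgb_mem_aaRing (B : Fermat.Agent.T3.helper49.TorBase N q hq hqN A hζ n)
    (hA : A.LiesOverPrime q)
    (hres : ∀ (f : FF (N * q * q)) (X : Fin 3 → LaurentSeries (kA A)), f ∈ B.Reg →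
      Fermat.Agent.T3.helper49.Rho3 N q hq hqN A hζ f X → ∀ c, X c ∈ B.Bt)
    {f : FF (N * q * q)} (hf : f ∈ B.Reg)
    (hρ : ∃ X, Fermat.Agent.T3.helper49.Rho3 N q hq hqN A hζ f X) :
    f ∈ Fermat.Agent.T3.helper22.aaRing (B.calc hA) := by
  obtain ⟨X, ρ⟩ := hρ
  exact ⟨hf, X, ρ, hres f X hf ρ⟩

/-- `O[j] ⊆ AA` -/
theorem fgb_evO_mem (B : Fermat.Agent.T3.helper49.TorBase N q hq hqN A hζ n)
    (hA : A.LiesOverPrime q)
    (hReg : B.Reg = Fermat.Agent.T3.helper98.regJRing (N * q * q))
    (hres : ∀ (f : FF (N * q * q)) (X : Fin 3 → LaurentSeries (kA A)), f ∈ B.Reg →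
      Fermat.Agent.T3.helper49.Rho3 N q hq hqN A hζ f X → ∀ c, X c ∈ B.Bt)
    (P : (k0Ring A)[X]) :
    Fermat.Agent.T3.helper97.evO A (N * q * q) P ∈
      Fermat.Agent.T3.helper22.aaRing (B.calc hA) := by
  have hj : xJ (N * q * q) ∈ Fermat.Agent.T3.helper22.aaRing (B.calc hA) := by
    refine fgb_mem_aaRing B hA hres ?_ (fgb_rho3_jElt hq hqN A hζ)
    rw [hReg, Fermat.Agent.T3.helper98.mem_regJRing, ← Fermat.Agent.T3.helper48.jElt_eq_xJ]
    exact fun P hP => hP
  have hc : ∀ a : k0Ring A, algebraMap Kb (FF (N * q * q)) (a : Kb) ∈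
      Fermat.Agent.T3.helper22.aaRing (B.calc hA) := by
    intro a
    refine fgb_mem_aaRing B hA hres ?_ (fgb_rho3_const hq hqN hζ a)
    rw [hReg]
    exact (Fermat.Agent.T3.helper98.regJ (N * q * q)).algebraMap_mem _
  induction P using Polynomial.induction_on' with
  | add p r hp hr =>
    rw [map_add]
    exact Subring.add_mem _ hp hr
  | monomial k a =>
    rw [← Polynomial.C_mul_X_pow_eq_monomial, map_mul, map_pow,
      Fermat.Agent.T3.helper97.evO_C, Fermat.Agent.T3.helper97.evO_X]
    exact Subring.mul_mem _ (hc a) (Subring.pow_mem _ hj k)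

/-- the elements of `AA` are integral over `O[j]` -/
theorem fgb_isIntegralElem (B : Fermat.Agent.T3.helper49.TorBase N q hq hqN A hζ n)
    (hA : A.LiesOverPrime q)
    (hReg : B.Reg = Fermat.Agent.T3.helper98.regJRing (N * q * q))
    (hint3 : Int3Statement N q hq hqN A hζ)
    {f : FF (N * q * q)} (hf : f ∈ Fermat.Agent.T3.helper22.aaRing (B.calc hA)) :
    (Fermat.Agent.T3.helper97.evO A (N * q * q)).IsIntegralElem f := by
  obtain ⟨hreg, X, ρ, -⟩ := hf
  have hreg' : Fermat.Agent.T3.helper98.IsRegJ (N * q * q) f := by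
    have : f ∈ B.Reg := hreg
    rw [hReg] at this
    exact this
  have h3 : IsInt3 N q hq hqN A hζ f := hint3 f hreg' ρ.1 ⟨X, ρ.2⟩
  exact Fermat.Agent.T3.helper97.completeO A (N * q * q)
    (Fermat.Agent.T3.helper48.completeA_of_fix A N q hq hqN hA hζ f ρ.1 h3 hreg')

/-- **box (6) [FG] of `helper22.Ideal3Box`** for the concrete toric calculus: `AA` is
noetherian. -/
theorem aaRing_isNoetherianRing (B : Fermat.Agent.T3.helper49.TorBase N q hq hqN A hζ n)
    (hA : A.LiesOverPrime q)
    (hReg : B.Reg = Fermat.Agent.T3.helper98.regJRing (N * q * q))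
    (hres : ∀ (f : FF (N * q * q)) (X : Fin 3 → LaurentSeries (kA A)), f ∈ B.Reg →
      Fermat.Agent.T3.helper49.Rho3 N q hq hqN A hζ f X → ∀ c, X c ∈ B.Bt)
    (hint3 : Int3Statement N q hq hqN A hζ) :
    IsNoetherianRing (Fermat.Agent.T3.helper22.aaRing (B.calc hA)) :=
  isNoetherianRing_of_fix_integral hq A hA (N * q * q) _
    (fgb_evO_mem B hA hReg hres)
    (fun f hf => by
      obtain ⟨-, X, ρ, -⟩ := hf
      exact ρ.1)
    (fun f hf => fgb_isIntegralElem B hA hReg hint3 hf)

end Box

end Fermat.Agent.T3.helper84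

end
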