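/-
T3 (S36), tool for [T3-UNIT] (theta version) and [T3-UNIT-ETA] (eta version), Mathlib only
(helper86): the weight-one transformation law on `Γ₀(4)` resp. `Γ₀(9)` from the laws at the
generators.

* `law_Gamma0_four` : if `f (T • τ) = f τ` and `f (lowerU 4 • τ) = (4 τ + 1) f τ` then
  `f (g • τ) = χ₋₄(d) (c τ + d) f τ` for all `g = [[a,b],[c,d]] ∈ Γ₀(4)`.
* `law_Gamma0_three` : if `f (T • τ) = f τ` and `f (lowerU 3 • τ) = ω (3 τ + 1) f τ` with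
  `ω ^ 3 = 1` then `f (g • τ) = χ₋₃(d) ω ^ ((c / 3) d) (c τ + d) f τ` on `Γ₀(3)`.
* `law_Gamma0_nine` : under the same hypotheses `f (g • τ) = χ₋₃(d) (c τ + d) f τ` on `Γ₀(9)`.

* `ratio_invariant` : `b₀ τ = f τ / f (q τ)` is `Γ₀(N q)`-invariant when `f` satisfies the law
  with character `χ` on `Γ₀(N)`;  `ratio_atkinLehner` : `b₀ (W τ) = (χ(q w)/χ(w)) q / b₀ τ` for
  `W = [[q x, y],[N q z, q w]]`, `q x w - N y z = 1`.

No hypothesis on `f` (holomorphy, non-vanishing) is needed.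
-/
import Mathlib
import Fermat.Agent.T3.helper86_Gamma0Gen

set_option autoImplicit false

open Matrix Matrix.SpecialLinearGroup ModularGroup CongruenceSubgroup UpperHalfPlane
open scoped MatrixGroups

namespace Fermat.Agent.T3.helper86

/-- The automorphy factor `c τ + d`. -/
noncomputable def autJ (g : SL(2, ℤ)) (τ : ℍ) : ℂ := (g 1 0 : ℂ) * (τ : ℂ) + (g 1 1 : ℂ)

lemma autJ_def (g : SL(2, ℤ)) (τ : ℍ) : autJ g τ = (g 1 0 : ℂ) * (τ : ℂ) + (g 1 1 : ℂ) := rfl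

lemma autJ_ne_zero (g : SL(2, ℤ)) (τ : ℍ) : autJ g τ ≠ 0 := by
  have h := UpperHalfPlane.denom_ne_zero (g : GL (Fin 2) ℝ) τ
  have e : UpperHalfPlane.denom (g : GL (Fin 2) ℝ) τ = autJ g τ := by
    rw [autJ_def]
    simp [UpperHalfPlane.denom]
  rwa [e] at h

lemma coe_smul_eq (g : SL(2, ℤ)) (τ : ℍ) :
    ((g • τ : ℍ) : ℂ) = ((g 0 0 : ℂ) * (τ : ℂ) + (g 0 1 : ℂ)) / autJ g τ := by
  rw [UpperHalfPlane.coe_specialLinearGroup_apply, autJ_def]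
  simp

lemma autJ_mul (g h : SL(2, ℤ)) (τ : ℍ) : autJ (g * h) τ = autJ g (h • τ) * autJ h τ := by
  have hne := autJ_ne_zero h τ
  rw [autJ_def g, coe_smul_eq, add_mul, mul_assoc, div_mul_cancel₀ _ hne, autJ_def (g * h),
    mul_apply_fin_two, mul_apply_fin_two, autJ_def h]
  push_cast
  ring

lemma autJ_one (τ : ℍ) : autJ 1 τ = 1 := by
  rw [autJ_def]; simp

lemma autJ_neg_one (τ : ℍ) : autJ (-1) τ = -1 := by
  rw [autJ_def]; simp

lemma autJ_T (τ : ℍ) : autJ T τ = 1 := by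
  rw [autJ_def]; simp [ModularGroup.T]

lemma autJ_lowerU (n : ℤ) (τ : ℍ) : autJ (lowerU n) τ = (n : ℂ) * (τ : ℂ) + 1 := by
  rw [autJ_def]; simp

lemma neg_one_smul_uhp (τ : ℍ) : (-1 : SL(2, ℤ)) • τ = τ := by
  have := ModularGroup.SL_neg_smul (1 : SL(2, ℤ)) τ
  rwa [one_smul] at this

/-! ### The abstract induction -/

/-- **Law from generators**: a multiplier `m` which is multiplicative on `Γ₀(N)`
(`N ∈ {2,3,4}`) and for which the law holds at `-1`, `T`, `lowerU N`. -/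
theorem law_of_gens (N : ℕ) (hN2 : 2 ≤ N) (hN4 : N ≤ 4) (f : ℍ → ℂ) (m : SL(2, ℤ) → ℂ)
    (m_one : m 1 = 1)
    (m_mul : ∀ g ∈ Gamma0 N, ∀ h ∈ Gamma0 N, m (g * h) = m g * m h)
    (h_neg : m (-1) = -1)
    (hT : ∀ τ, f (T • τ) = m T * f τ)
    (hL : ∀ τ, f (lowerU N • τ) = m (lowerU N) * autJ (lowerU N) τ * f τ) :
    ∀ g ∈ Gamma0 N, ∀ τ, f (g • τ) = m g * autJ g τ * f τ := by
  have key := Gamma0_induction N hN2 hN4
    (P := fun g => g ∈ Gamma0 N ∧ ∀ τ, f (g • τ) = m g * autJ g τ * f τ)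
    ⟨Subgroup.one_mem _, fun τ => by rw [one_smul, m_one, autJ_one, one_mul, one_mul]⟩
    ⟨neg_one_mem_Gamma0 N, fun τ => by
      rw [neg_one_smul_uhp, h_neg, autJ_neg_one]; ring⟩
    ⟨T_mem_Gamma0 N, fun τ => by rw [hT, autJ_T, mul_one]⟩
    ⟨lowerU_self_mem_Gamma0 N, hL⟩
    (by
      rintro g h ⟨hg, Pg⟩ ⟨hh, Ph⟩
      refine ⟨Subgroup.mul_mem _ hg hh, fun τ => ?_⟩
      rw [mul_smul, Pg, Ph, m_mul g hg h hh, autJ_mul]
      ring)
    (by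
      rintro g ⟨hg, Pg⟩
      have hginv : g⁻¹ ∈ Gamma0 N := Subgroup.inv_mem _ hg
      refine ⟨hginv, fun τ => ?_⟩
      have h1 := Pg (g⁻¹ • τ)
      rw [← mul_smul, mul_inv_cancel, one_smul] at h1
      have h2 : m g⁻¹ * m g = 1 := by
        rw [← m_mul g⁻¹ hginv g hg, inv_mul_cancel, m_one]
      have h3 : autJ g (g⁻¹ • τ) * autJ g⁻¹ τ = 1 := by
        rw [← autJ_mul, mul_inv_cancel, autJ_one]
      calc f (g⁻¹ • τ) = (m g⁻¹ * m g) * (autJ g (g⁻¹ • τ) * autJ g⁻¹ τ) * f (g⁻¹ • τ) := by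
            rw [h2, h3, one_mul, one_mul]
        _ = m g⁻¹ * autJ g⁻¹ τ * (m g * autJ g (g⁻¹ • τ) * f (g⁻¹ • τ)) := by ring
        _ = m g⁻¹ * autJ g⁻¹ τ * f τ := by rw [← h1])
  exact fun g hg => (key g hg).2

/-! ### The characters `χ₋₄`, `χ₋₃` -/

/-- `χ₋₄(d)` for odd `d`: `1` if `d ≡ 1 mod 4`, `-1` otherwise. -/
noncomputable def chiFour (d : ℤ) : ℂ := if d % 4 = 1 then 1 else -1

/-- `χ₋₃(d)` for `d` prime to `3`: `1` if `d ≡ 1 mod 3`, `-1` otherwise. -/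
noncomputable def chiThree (d : ℤ) : ℂ := if d % 3 = 1 then 1 else -1

lemma chiFour_mul {d e : ℤ} (hd : d % 2 = 1) (he : e % 2 = 1) :
    chiFour (d * e) = chiFour d * chiFour e := by
  have hd4 : d % 4 = 1 ∨ d % 4 = 3 := by omega
  have he4 : e % 4 = 1 ∨ e % 4 = 3 := by omega
  unfold chiFour
  rcases hd4 with h1 | h1 <;> rcases he4 with h2 | h2 <;>
    · have : (d * e) % 4 = ((d % 4) * (e % 4)) % 4 := Int.mul_emod d e 4
      rw [h1, h2] at this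
      norm_num at this
      simp [h1, h2, this]

lemma chiThree_mul {d e : ℤ} (hd : d % 3 ≠ 0) (he : e % 3 ≠ 0) :
    chiThree (d * e) = chiThree d * chiThree e := by
  have hd3 : d % 3 = 1 ∨ d % 3 = 2 := by omega
  have he3 : e % 3 = 1 ∨ e % 3 = 2 := by omega
  unfold chiThree
  rcases hd3 with h1 | h1 <;> rcases he3 with h2 | h2 <;>
    · have : (d * e) % 3 = ((d % 3) * (e % 3)) % 3 := Int.mul_emod d e 3
      rw [h1, h2] at this
      norm_num at this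
      simp [h1, h2, this]

lemma chiFour_congr {d e : ℤ} (h : d % 4 = e % 4) : chiFour d = chiFour e := by
  unfold chiFour; rw [h]

lemma chiThree_congr {d e : ℤ} (h : d % 3 = e % 3) : chiThree d = chiThree e := by
  unfold chiThree; rw [h]

lemma dvd_of_mem_Gamma0 {N : ℕ} {g : SL(2, ℤ)} (hg : g ∈ Gamma0 N) : (N : ℤ) ∣ g 1 0 := by
  rw [Gamma0_mem] at hg
  exact (ZMod.intCast_zmod_eq_zero_iff_dvd _ _).1 hg

/-! ### Level `4` -/

/-- **Weight-one law on `Γ₀(4)` from the generators.** -/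
theorem law_Gamma0_four (f : ℍ → ℂ) (hT : ∀ τ, f (T • τ) = f τ)
    (hL : ∀ τ : ℍ, f (lowerU 4 • τ) = (4 * (τ : ℂ) + 1) * f τ) :
    ∀ g ∈ Gamma0 4, ∀ τ : ℍ,
      f (g • τ) = chiFour (g 1 1) * ((g 1 0 : ℂ) * (τ : ℂ) + (g 1 1 : ℂ)) * f τ := by
  have hodd : ∀ g ∈ Gamma0 4, (g 1 1) % 2 = 1 := by
    intro g hg
    have h4 := dvd_of_mem_Gamma0 hg
    have hdet := det_eq g
    obtain ⟨e, he⟩ := h4
    rw [he] at hdet
    have h2 : (g 0 0 * g 1 1) % 2 = 1 := by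
      have : g 0 0 * g 1 1 = 1 + 2 * (2 * (g 0 1 * e)) := by push_cast at hdet ⊢; linarith
      rw [this]; omega
    have h3 := Int.mul_emod (g 0 0) (g 1 1) 2
    rw [h2] at h3
    have ha : g 0 0 % 2 = 0 ∨ g 0 0 % 2 = 1 := by omega
    have hd : g 1 1 % 2 = 0 ∨ g 1 1 % 2 = 1 := by omega
    rcases hd with hd | hd
    · rw [hd, mul_zero] at h3; norm_num at h3
    · exact hd
  have := law_of_gens 4 (by norm_num) (by norm_num) f (fun g => chiFour (g 1 1))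
    (by simp [chiFour])
    (by
      intro g hg h hh
      show chiFour ((g * h) 1 1) = chiFour (g 1 1) * chiFour (h 1 1)
      rw [← chiFour_mul (hodd g hg) (hodd h hh)]
      apply chiFour_congr
      rw [mul_apply_fin_two]
      obtain ⟨e, he⟩ := dvd_of_mem_Gamma0 hg
      rw [he]
      push_cast
      rw [show (4 : ℤ) * e * h 0 1 + g 1 1 * h 1 1 = g 1 1 * h 1 1 + 4 * (e * h 0 1) by ring]
      exact Int.add_mul_emod_self_left _ _ _)
    (by simp [chiFour])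
    (fun τ => by
      rw [hT]
      simp [chiFour, ModularGroup.T])
    (fun τ => by
      simp only [Nat.cast_ofNat]
      rw [hL, autJ_lowerU]
      simp [chiFour])
  intro g hg τ
  exact this g hg τ

/-! ### Level `3` and `9` -/

/-- the exponent `(c / 3) d` of the cubic character of `Γ₀(3)`. -/
def expThree (g : SL(2, ℤ)) : ℤ := g 1 0 / 3 * g 1 1

lemma zpow_congr_three {ω : ℂ} (hω : ω ^ 3 = 1) {k l : ℤ} (h : (3 : ℤ) ∣ k - l) :
    ω ^ k = ω ^ l := by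
  have hω0 : ω ≠ 0 := by
    rintro rfl
    norm_num at hω
  obtain ⟨t, ht⟩ := h
  have : k = l + 3 * t := by linarith
  rw [this, zpow_add₀ hω0, _root_.zpow_mul, show ω ^ (3 : ℤ) = ω ^ 3 from zpow_natCast ω 3, hω,
    _root_.one_zpow, mul_one]

lemma not_dvd_d_of_mem_Gamma0_three {g : SL(2, ℤ)} (hg : g ∈ Gamma0 3) : (g 1 1) % 3 ≠ 0 := by
  obtain ⟨e, he⟩ := dvd_of_mem_Gamma0 hg
  have hdet := det_eq g
  rw [he] at hdet
  intro h0
  have h1 : (g 0 0 * g 1 1) % 3 = 0 := by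
    rw [Int.mul_emod, h0, mul_zero]; rfl
  have h2 : g 0 0 * g 1 1 = 1 + 3 * (g 0 1 * e) := by push_cast at hdet ⊢; linarith
  rw [h2] at h1
  omega

/-- The multiplier on `Γ₀(3)`. -/
noncomputable def multThree (ω : ℂ) (g : SL(2, ℤ)) : ℂ := chiThree (g 1 1) * ω ^ expThree g

lemma expThree_mul {g h : SL(2, ℤ)} (hg : g ∈ Gamma0 3) (hh : h ∈ Gamma0 3) :
    (3 : ℤ) ∣ expThree (g * h) - (expThree g + expThree h) := by
  obtain ⟨e, he⟩ := dvd_of_mem_Gamma0 hg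
  obtain ⟨e', he'⟩ := dvd_of_mem_Gamma0 hh
  have hdg := det_eq g
  have hdh := det_eq h
  have hg3 := not_dvd_d_of_mem_Gamma0_three hg
  unfold expThree
  rw [mul_apply_fin_two, mul_apply_fin_two, he, he']
  push_cast
  have e1 : (3 * e * h 0 0 + g 1 1 * (3 * e')) / 3 = e * h 0 0 + g 1 1 * e' := by
    rw [show (3 : ℤ) * e * h 0 0 + g 1 1 * (3 * e') = 3 * (e * h 0 0 + g 1 1 * e') by ring]
    exact Int.mul_ediv_cancel_left _ (by norm_num)
  have e2 : (3 : ℤ) * e / 3 = e := Int.mul_ediv_cancel_left _ (by norm_num)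
  have e3 : (3 : ℤ) * e' / 3 = e' := Int.mul_ediv_cancel_left _ (by norm_num)
  rw [e1, e2, e3]
  rw [he'] at hdh
  push_cast at hdh
  -- `g₁₁² ≡ 1 mod 3`
  have hsq : (3 : ℤ) ∣ g 1 1 * g 1 1 - 1 := by
    have h12 : g 1 1 % 3 = 1 ∨ g 1 1 % 3 = 2 := by omega
    have := Int.mul_emod (g 1 1) (g 1 1) 3
    rcases h12 with h | h
    · rw [h] at this; norm_num at this; omega
    · rw [h] at this; norm_num at this; omega
  obtain ⟨s, hs⟩ := hsq
  refine ⟨e * h 0 0 * e * h 0 1 + e * (g 1 1) * (h 0 1 * e') + g 1 1 * e' * e * h 0 1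
    + e' * h 1 1 * s, ?_⟩
  have hs' : g 1 1 * g 1 1 = 1 + 3 * s := by linarith
  have hdh' : h 0 0 * h 1 1 = 1 + h 0 1 * (3 * e') := by linarith
  linear_combination (e * g 1 1) * hdh' + (e' * h 1 1) * hs'

lemma multThree_mul {ω : ℂ} (hω : ω ^ 3 = 1) {g h : SL(2, ℤ)} (hg : g ∈ Gamma0 3)
    (hh : h ∈ Gamma0 3) : multThree ω (g * h) = multThree ω g * multThree ω h := by
  have hω0 : ω ≠ 0 := by
    rintro rfl
    norm_num at hω
  unfold multThree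
  have h1 : chiThree ((g * h) 1 1) = chiThree (g 1 1) * chiThree (h 1 1) := by
    rw [← chiThree_mul (not_dvd_d_of_mem_Gamma0_three hg) (not_dvd_d_of_mem_Gamma0_three hh)]
    apply chiThree_congr
    rw [mul_apply_fin_two]
    obtain ⟨e, he⟩ := dvd_of_mem_Gamma0 hg
    rw [he]
    push_cast
    rw [show (3 : ℤ) * e * h 0 1 + g 1 1 * h 1 1 = g 1 1 * h 1 1 + 3 * (e * h 0 1) by ring]
    exact Int.add_mul_emod_self_left _ _ _
  have h2 : ω ^ expThree (g * h) = ω ^ expThree g * ω ^ expThree h := by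
    rw [← zpow_add₀ hω0]
    exact zpow_congr_three hω (expThree_mul hg hh)
  rw [h1, h2]
  ring

/-- **Weight-one law on `Γ₀(3)` from the generators**, with the cubic character. -/
theorem law_Gamma0_three (f : ℍ → ℂ) (ω : ℂ) (hω : ω ^ 3 = 1) (hT : ∀ τ, f (T • τ) = f τ)
    (hL : ∀ τ : ℍ, f (lowerU 3 • τ) = ω * (3 * (τ : ℂ) + 1) * f τ) :
    ∀ g ∈ Gamma0 3, ∀ τ : ℍ,
      f (g • τ) = chiThree (g 1 1) * ω ^ (g 1 0 / 3 * g 1 1) *
        ((g 1 0 : ℂ) * (τ : ℂ) + (g 1 1 : ℂ)) * f τ := by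
  have := law_of_gens 3 (by norm_num) (by norm_num) f (multThree ω)
    (by simp [multThree, chiThree, expThree])
    (fun g hg h hh => multThree_mul hω hg hh)
    (by simp [multThree, chiThree, expThree])
    (fun τ => by
      rw [hT]
      simp [multThree, chiThree, expThree, ModularGroup.T])
    (fun τ => by
      simp only [Nat.cast_ofNat]
      rw [hL, autJ_lowerU]
      simp [multThree, chiThree, expThree])
  intro g hg τ
  exact this g hg τ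

lemma Gamma0_nine_le_three : Gamma0 9 ≤ Gamma0 3 := by
  intro g hg
  have h9 := dvd_of_mem_Gamma0 hg
  rw [Gamma0_mem]
  refine (ZMod.intCast_zmod_eq_zero_iff_dvd _ _).2 ?_
  exact dvd_trans (by norm_num) h9

/-- **Weight-one law on `Γ₀(9)`**: if `f (τ + 1) = f τ` and
`f (τ / (3 τ + 1)) = ω (3 τ + 1) f τ` with `ω ^ 3 = 1`, then
`f (g • τ) = χ₋₃(d) (c τ + d) f τ` for all `g ∈ Γ₀(9)`. -/
theorem law_Gamma0_nine (f : ℍ → ℂ) (ω : ℂ) (hω : ω ^ 3 = 1) (hT : ∀ τ, f (T • τ) = f τ)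
    (hL : ∀ τ : ℍ, f (lowerU 3 • τ) = ω * (3 * (τ : ℂ) + 1) * f τ) :
    ∀ g ∈ Gamma0 9, ∀ τ : ℍ,
      f (g • τ) = chiThree (g 1 1) * ((g 1 0 : ℂ) * (τ : ℂ) + (g 1 1 : ℂ)) * f τ := by
  intro g hg τ
  rw [law_Gamma0_three f ω hω hT hL g (Gamma0_nine_le_three hg) τ]
  obtain ⟨e, he⟩ := dvd_of_mem_Gamma0 hg
  have h1 : ω ^ (g 1 0 / 3 * g 1 1) = 1 := by
    have : (3 : ℤ) ∣ g 1 0 / 3 * g 1 1 - 0 := by
      rw [he, sub_zero]
      push_cast
      rw [show (9 : ℤ) * e = 3 * (3 * e) by ring, Int.mul_ediv_cancel_left _ (by norm_num)]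
      exact ⟨e * g 1 1, by ring⟩
    rw [zpow_congr_three hω this, zpow_zero]
  rw [h1, mul_one]

/-! ### The unit `b₀ = f(τ) / f(q τ)` -/

section Unit

variable (N q : ℕ) (χ : ℤ → ℂ) (f : ℍ → ℂ) (sc : ℍ → ℍ)

/-- an `SL(2, ℤ)` matrix from its entries. -/
def mkSL (a b c d : ℤ) (h : a * d - b * c = 1) : SL(2, ℤ) :=
  ⟨!![a, b; c, d], by rw [Matrix.det_fin_two_of]; exact h⟩

lemma mkSL_mem_Gamma0 (a b c d : ℤ) (h : a * d - b * c = 1) (hc : (N : ℤ) ∣ c) :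
    mkSL a b c d h ∈ Gamma0 N := by
  rw [Gamma0_mem]
  exact (ZMod.intCast_zmod_eq_zero_iff_dvd _ _).2 hc

lemma coe_mkSL_smul (a b c d : ℤ) (h : a * d - b * c = 1) (τ : ℍ) :
    ((mkSL a b c d h • τ : ℍ) : ℂ) = ((a : ℂ) * τ + b) / ((c : ℂ) * τ + d) := by
  rw [coe_smul_eq, autJ_def]
  rfl

/-- **Invariance of `b₀`**: if `f` satisfies the weight-one law with character `χ` on `Γ₀(N)`
and `sc τ = q τ`, then `f (g τ) / f (q g τ) = f τ / f (q τ)` for `g ∈ Γ₀(N q)`. -/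
theorem ratio_invariant (hq : 0 < q) (hsc : ∀ τ : ℍ, ((sc τ : ℍ) : ℂ) = (q : ℂ) * (τ : ℂ))
    (hχ : ∀ d, χ d ≠ 0)
    (law : ∀ g ∈ Gamma0 N, ∀ τ : ℍ,
      f (g • τ) = χ (g 1 1) * ((g 1 0 : ℂ) * (τ : ℂ) + (g 1 1 : ℂ)) * f τ)
    (g : SL(2, ℤ)) (hg : g ∈ Gamma0 (N * q)) (τ : ℍ) :
    f (g • τ) / f (sc (g • τ)) = f τ / f (sc τ) := by
  have hdvd := dvd_of_mem_Gamma0 hg
  have hqc : (q : ℤ) ∣ g 1 0 := dvd_trans ⟨N, by push_cast; ring⟩ hdvd
  obtain ⟨c', hc'⟩ := hqc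
  have hq0 : (q : ℤ) ≠ 0 := by exact_mod_cast hq.ne'
  have hq0' : (q : ℂ) ≠ 0 := by exact_mod_cast hq.ne'
  have hNc' : (N : ℤ) ∣ c' := by
    obtain ⟨e, he⟩ := hdvd
    refine ⟨e, ?_⟩
    have : (q : ℤ) * c' = q * (N * e) := by rw [← hc', he]; push_cast; ring
    exact mul_left_cancel₀ hq0 this
  have hgN : g ∈ Gamma0 N := by
    rw [Gamma0_mem]
    exact (ZMod.intCast_zmod_eq_zero_iff_dvd _ _).2 (dvd_trans ⟨q, by push_cast; ring⟩ hdvd)
  have hdet := det_eq g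
  have hdet' : g 0 0 * g 1 1 - (q * g 0 1) * c' = 1 := by
    rw [hc'] at hdet; linear_combination hdet
  set g' := mkSL (g 0 0) (q * g 0 1) c' (g 1 1) hdet' with hg'
  have hg'mem : g' ∈ Gamma0 N := mkSL_mem_Gamma0 N _ _ _ _ hdet' hNc'
  have hJ : autJ g τ ≠ 0 := autJ_ne_zero g τ
  have hsceq : sc (g • τ) = g' • sc τ := by
    apply UpperHalfPlane.ext
    rw [hsc, coe_mkSL_smul, hsc, coe_smul_eq, autJ_def, hc']
    push_cast
    rw [autJ_def, hc'] at hJ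
    push_cast at hJ
    have hJ' : (c' : ℂ) * ((q : ℂ) * (τ : ℂ)) + (g 1 1 : ℂ) ≠ 0 := by
      intro h0; apply hJ; rw [← h0]; ring
    field_simp
  have h1 := law g hgN τ
  have h2 := law g' hg'mem (sc τ)
  have e10 : g' 1 0 = c' := rfl
  have e11 : g' 1 1 = g 1 1 := rfl
  rw [e10, e11, hsc] at h2
  have e3 : (c' : ℂ) * ((q : ℂ) * (τ : ℂ)) + (g 1 1 : ℂ) = autJ g τ := by
    rw [autJ_def, hc']; push_cast; ring
  rw [e3] at h2
  rw [← autJ_def] at h1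
  rw [hsceq, h1, h2]
  exact mul_div_mul_left _ _ (mul_ne_zero (hχ _) hJ)

/-- **Atkin-Lehner law for `b₀`**: for `W = [[q x, y], [N q z, q w]]` of determinant `q`
(`q x w - N y z = 1`) and `τ' = W τ`:
`f τ' / f (q τ') = (χ (q w) / χ w) * q * (f (q τ) / f τ)`. -/
theorem ratio_atkinLehner (hq : 0 < q) (hsc : ∀ τ : ℍ, ((sc τ : ℍ) : ℂ) = (q : ℂ) * (τ : ℂ))
    (hχ : ∀ d, χ d ≠ 0)
    (law : ∀ g ∈ Gamma0 N, ∀ τ : ℍ,
      f (g • τ) = χ (g 1 1) * ((g 1 0 : ℂ) * (τ : ℂ) + (g 1 1 : ℂ)) * f τ)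
    (x y z w : ℤ) (hdet : (q : ℤ) * x * w - (N : ℤ) * y * z = 1) (τ τ' : ℍ)
    (hτ' : (τ' : ℂ) = ((q : ℂ) * x * τ + y) / ((N : ℂ) * q * z * τ + q * w)) :
    f τ' / f (sc τ') = χ (q * w) / χ w * q * (f (sc τ) / f τ) := by
  have hq0' : (q : ℂ) ≠ 0 := by exact_mod_cast hq.ne'
  have hd1 : x * (q * w) - y * (N * z) = 1 := by linear_combination hdet
  have hd2 : (q * x) * w - y * (N * z) = 1 := by linear_combination hdet
  set g₁ := mkSL x y (N * z) (q * w) hd1 with hg₁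
  set g₂ := mkSL (q * x) y (N * z) w hd2 with hg₂
  have hg₁mem : g₁ ∈ Gamma0 N := mkSL_mem_Gamma0 N _ _ _ _ hd1 ⟨z, rfl⟩
  have hg₂mem : g₂ ∈ Gamma0 N := mkSL_mem_Gamma0 N _ _ _ _ hd2 ⟨z, rfl⟩
  have hJ₂ : autJ g₂ τ ≠ 0 := autJ_ne_zero g₂ τ
  have hJ₂' : (N : ℂ) * z * (τ : ℂ) + w ≠ 0 := by
    have : autJ g₂ τ = (N : ℂ) * z * (τ : ℂ) + w := by
      rw [autJ_def]
      show (((N : ℤ) * z : ℤ) : ℂ) * (τ : ℂ) + ((w : ℤ) : ℂ) = _
      push_cast; ring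
    rwa [this] at hJ₂
  have e1 : τ' = g₁ • sc τ := by
    apply UpperHalfPlane.ext
    rw [hτ', coe_mkSL_smul, hsc]
    push_cast
    congr 1 <;> ring
  have e2 : sc τ' = g₂ • τ := by
    apply UpperHalfPlane.ext
    rw [hsc, hτ', coe_mkSL_smul]
    push_cast
    have h3 : (N : ℂ) * q * z * (τ : ℂ) + q * w = q * ((N : ℂ) * z * (τ : ℂ) + w) := by ring
    rw [h3]
    field_simp
  have h1 := law g₁ hg₁mem (sc τ)
  have h2 := law g₂ hg₂mem τ
  have a10 : g₁ 1 0 = N * z := rfl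
  have a11 : g₁ 1 1 = q * w := rfl
  have b10 : g₂ 1 0 = N * z := rfl
  have b11 : g₂ 1 1 = w := rfl
  rw [a10, a11, hsc] at h1
  rw [b10, b11] at h2
  rw [e2, h2]
  conv_lhs => rw [e1, h1]
  push_cast
  have h4 : (N : ℂ) * z * ((q : ℂ) * (τ : ℂ)) + q * w = q * ((N : ℂ) * z * (τ : ℂ) + w) := by
    ring
  rw [h4]
  have hχw := hχ w
  field_simp

end Unit

lemma chiFour_ne_zero (d : ℤ) : chiFour d ≠ 0 := by
  unfold chiFour; split_ifs <;> norm_num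

lemma chiThree_ne_zero (d : ℤ) : chiThree d ≠ 0 := by
  unfold chiThree; split_ifs <;> norm_num

end Fermat.Agent.T3.helper86
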