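/-
T3 (S36), [CUSP-Q] (helper87), part 7: **the box `root`** of `helper72.OpenBoxes` from the
covering statement of the family `ex3c` alone.

All the other hypotheses of `helper74.root3All_of_family` are discharged for the family
`(Cusp N × Fin 3, crep, ENc, IQ, DQ, ex3c, kap)`:
`hrep_crep`, `helper96.hEN_ENc`, `qExpand_ex3c`, `kap_injective`, `tableTw_ex3c`,
`galCompatTw_ex3c`.

* `root3Pack_ex3c_of_cover` : `helper72.Root3Pack N q hq hqN A hζ`;
* `root3All_ex3c_of_cover`  : `helper72.Root3AllStatement N q hq hqN A hζ n`.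
-/
import Mathlib
import Fermat.Agent.T3.helper87_CuspQGal
import Fermat.Agent.T3.helper74_Root3Family
import Fermat.Agent.T3.helper96_XPoleENc

set_option autoImplicit false
set_option synthInstance.maxHeartbeats 400000
set_option linter.unusedSectionVars false
set_option linter.unusedVariables false
set_option linter.style.haveILetI false
set_option linter.style.longLine false

noncomputable section

open HahnSeries ModularCurve
open Fermat.Agent.S18.helper19

namespace Fermat.Agent.T3.helper87

section Root

variable {N q : ℕ} [NeZero N] [NeZero q] {A : ValuationSubring Kb}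
variable {hq : q.Prime} {hqN : ¬ q ∣ N}

/-- **the package of [ROOT3-ALL]** from the covering statement of the family `ex3c`. -/
theorem root3Pack_ex3c_of_cover (hA : A.LiesOverPrime q) (hN : 4 ∣ N ∨ 9 ∣ N) {ζ : Kb}
    (hζ : IsPrimitiveRoot ζ q)
    (hcover : Fermat.Agent.T3.helper27.CoverStatementE A (ex3c N q ζ)) :
    Fermat.Agent.T3.helper72.Root3Pack N q hq hqN A hζ :=
  Fermat.Agent.T3.helper74.root3Pack_of_family hA hN hζ (crep N)
    (fun c c' h => hrep_crep c c' h) (ENc N) Fermat.Agent.T3.helper96.hEN_ENc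
    (ex3c N q ζ) (IQ N q ζ) (DQ N q ζ) (fun J => NeZero.ne (DQ N q ζ J))
    (fun J y _ => qExpand_ex3c ζ J y) (kap_injective hq hqN hζ)
    (tableTw_ex3c hq hqN A hA hζ) (galCompatTw_ex3c hq hqN A hA hζ) hcover

/-- **the box `root` of `helper72.OpenBoxes`** from the covering statement of the family
`ex3c`. -/
theorem root3All_ex3c_of_cover (hA : A.LiesOverPrime q) (hN : 4 ∣ N ∨ 9 ∣ N) {ζ : Kb}
    (hζ : IsPrimitiveRoot ζ q)
    (hcover : Fermat.Agent.T3.helper27.CoverStatementE A (ex3c N q ζ)) {n : ℕ}
    (hn : ¬ q ∣ n) :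
    Fermat.Agent.T3.helper72.Root3AllStatement N q hq hqN A hζ n :=
  Fermat.Agent.T3.helper72.root3All_of_pack hA
    (root3Pack_ex3c_of_cover hA hN hζ hcover) hn

end Root

end Fermat.Agent.T3.helper87

end
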