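/-
T3 (S36), helper90, [CUSP-Q] COVER, part A: the classification of the cusps of level `N q q`
(`q` a prime not dividing `N`) in terms of the family `helper87.IQ`.

* `exists_crt_affine`     : CRT for an affine congruence;
* `cuspOf_eq_of_levels`   : same cusp at level `N` + same cusp "at level `q q`" (on matrices)
                            ⟹ same cusp at level `N q q`;
* `qq_of_dvd`, `qq_of_not_dvd`, `qq_of_mid` : the three local criteria at `q q`;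
* `exists_gQ_cusp`        : every matrix is in the cusp of some `gQ N q c i k`, `q ∤ k`,
                            `c` = its cusp of level `N`;
* `cuspOf_gQ_congr`       : the cusp of `gQ N q c i k` depends on `k` only for `i = 2`, and
                            then only on `k mod q`;
* `isPrimitiveRoot_uMid_pow`, `kmid_uMid_pow` : middle indices and primitive `q`-th roots of `1`;
* `exists_IQ_cusp`        : **every coset of level `N q q` lies in the cusp of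
                            `IQ N q ξ (c, i)`** for some primitive `q`-th root of unity `ξ`
                            (`ξ = ζ` if `i ≠ 2`).
-/
import Mathlib
import Fermat.Agent.T3.helper87_CuspQFam

set_option autoImplicit false
set_option synthInstance.maxHeartbeats 400000
set_option linter.unusedSectionVars false
set_option linter.unusedVariables false
set_option linter.style.haveILetI false
set_option linter.style.longLine false

noncomputable section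

open HahnSeries ModularCurve
open Fermat.Agent.S18.helper19
open Fermat.Agent.S28 (IX rep)
open Fermat.Agent.P2.helper28
open Fermat.Agent.T3.helper87
open Fermat.Agent.S24.helper37 (det_eq_one')
open scoped MatrixGroups
open CongruenceSubgroup

namespace Fermat.Agent.T3.helper90

/-! ### CRT -/

/-- CRT for an affine congruence -/
theorem exists_crt_affine {n m : ℕ} (h : Nat.Coprime n m) (A B z₀ z₁ : ℤ)
    (h0 : (n : ℤ) ∣ A + z₀ * B) (h1 : (m : ℤ) ∣ A + z₁ * B) :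
    ∃ z : ℤ, ((n * m : ℕ) : ℤ) ∣ A + z * B := by
  obtain ⟨u, v, huv⟩ := Nat.isCoprime_iff_coprime.mpr h
  obtain ⟨a, ha⟩ := h0
  obtain ⟨b, hb⟩ := h1
  refine ⟨z₀ * (v * m) + z₁ * (u * n), a * v + b * u, ?_⟩
  push_cast
  have e : A + (z₀ * (v * m) + z₁ * (u * n)) * B
      = (A + z₀ * B) * (v * m) + (A + z₁ * B) * (u * n) + A * (1 - (u * n + v * m)) := by ring
  rw [e, ha, hb, huv]
  ring

/-! ### The local criteria -/

section Local

variable (q : ℕ)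

/-- "same cusp at level `q q`" on matrices -/
def QQ (γ₁ γ₂ : SL(2, ℤ)) : Prop :=
  ∃ z : ℤ, ((q * q : ℕ) : ℤ) ∣ γ₂ 1 0 * γ₁ 1 1 - γ₂ 1 1 * γ₁ 1 0 + z * (γ₁ 1 0 * γ₂ 1 0)

variable {q}

theorem qq_of_dvd {γ₁ γ₂ : SL(2, ℤ)} (h1 : ((q : ℤ) * q) ∣ γ₁ 1 0) (h2 : ((q : ℤ) * q) ∣ γ₂ 1 0) :
    QQ q γ₁ γ₂ := by
  refine ⟨0, ?_⟩
  push_cast
  rw [zero_mul, add_zero]
  exact dvd_sub (dvd_mul_of_dvd_left h2 _) (dvd_mul_of_dvd_right h1 _)

theorem qq_of_not_dvd (hq : q.Prime) {γ₁ γ₂ : SL(2, ℤ)} (h1 : ¬ (q : ℤ) ∣ γ₁ 1 0)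
    (h2 : ¬ (q : ℤ) ∣ γ₂ 1 0) : QQ q γ₁ γ₂ := by
  have hqp : Prime (q : ℤ) := Nat.prime_iff_prime_int.mp hq
  have hB : ¬ (q : ℤ) ∣ γ₁ 1 0 * γ₂ 1 0 := fun h => (hqp.dvd_or_dvd h).elim h1 h2
  have hcop : IsCoprime (γ₁ 1 0 * γ₂ 1 0) ((q : ℤ) * q) := by
    have h3 : IsCoprime (γ₁ 1 0 * γ₂ 1 0) (q : ℤ) :=
      ((Prime.coprime_iff_not_dvd hqp).mpr hB).symm
    exact h3.mul_right h3
  obtain ⟨u, v, huv⟩ := hcop
  refine ⟨-(u * (γ₂ 1 0 * γ₁ 1 1 - γ₂ 1 1 * γ₁ 1 0)),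
    v * (γ₂ 1 0 * γ₁ 1 1 - γ₂ 1 1 * γ₁ 1 0), ?_⟩
  push_cast
  linear_combination (-(γ₂ 1 0 * γ₁ 1 1 - γ₂ 1 1 * γ₁ 1 0)) * huv

theorem qq_of_mid {γ₁ γ₂ : SL(2, ℤ)}
    (h : ((q : ℤ) * q) ∣ γ₂ 1 0 * γ₁ 1 1 - γ₂ 1 1 * γ₁ 1 0) : QQ q γ₁ γ₂ := by
  refine ⟨0, ?_⟩
  push_cast
  rw [zero_mul, add_zero]
  exact h

/-- a prime does not divide both entries of the bottom row -/
theorem not_dvd_of_dvd_right (hq : q.Prime) {γ : SL(2, ℤ)} (h : (q : ℤ) ∣ γ 1 1) :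
    ¬ (q : ℤ) ∣ γ 1 0 := by
  intro h0
  have hqp : Prime (q : ℤ) := Nat.prime_iff_prime_int.mp hq
  have hdet := det_eq_one' γ
  have h1 : (q : ℤ) ∣ γ 0 0 * γ 1 1 - γ 0 1 * γ 1 0 :=
    dvd_sub (dvd_mul_of_dvd_right h _) (dvd_mul_of_dvd_right h0 _)
  rw [hdet] at h1
  exact hqp.not_isUnit (isUnit_of_dvd_one h1)

theorem not_dvd_of_dvd_left (hq : q.Prime) {γ : SL(2, ℤ)} (h : (q : ℤ) ∣ γ 1 0) :
    ¬ (q : ℤ) ∣ γ 1 1 := fun h1 => not_dvd_of_dvd_right hq h1 h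

end Local

/-! ### Levels -/

section Levels

variable {N q : ℕ} [NeZero N] [NeZero q]

/-- same cusp at level `N` and at "level `q q`" ⟹ same cusp at level `N q q` -/
theorem cuspOf_eq_of_levels (hq : q.Prime) (hqN : ¬ q ∣ N) (γ₁ γ₂ : SL(2, ℤ))
    (hN : cuspOf N (cosetOf N γ₂) = cuspOf N (cosetOf N γ₁)) (hQ : QQ q γ₁ γ₂) :
    cuspOf (N * q * q) (cosetOf (N * q * q) γ₂) = cuspOf (N * q * q) (cosetOf (N * q * q) γ₁) := by
  rw [cuspOf_cosetOf_eq_iff] at hN ⊢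
  obtain ⟨z₀, hz₀⟩ := hN
  obtain ⟨z₁, hz₁⟩ := hQ
  have hcop : Nat.Coprime N (q * q) := by
    have h1 : Nat.Coprime q N := (Nat.Prime.coprime_iff_not_dvd hq).mpr hqN
    exact (Nat.Coprime.mul_left h1 h1).symm
  obtain ⟨z, hz⟩ := exists_crt_affine hcop _ _ z₀ z₁ hz₀ hz₁
  refine ⟨z, ?_⟩
  rw [mul_assoc N q q]
  exact hz

end Levels

/-! ### The classification on matrices -/

section Classify

variable {N q : ℕ} [NeZero N] [NeZero q]

theorem cuspOf_cosetOf_gQ (c : Cusp N) (i : Fin 3) (k : ℤ) :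
    cuspOf N (cosetOf N (gQ N q c i k)) = c := by
  rw [cosetOf_gQ N q, cuspOf_crep]

/-- the bottom row of a matrix of middle type -/
theorem mid_row (hq : q.Prime) (hqN : ¬ q ∣ N) {k : ℤ} (hk : ¬ (q : ℤ) ∣ k) {γ : SL(2, ℤ)}
    (h : IsTy N q 2 k γ) :
    ∃ s : ℤ, γ 1 0 = q * s ∧ (q : ℤ) ∣ s * ((N : ℤ) * k) - γ 1 1 := by
  have hq0 : (q : ℤ) ≠ 0 := by exact_mod_cast hq.ne_zero
  obtain ⟨s, hs⟩ := dvd_of_isTy_two hq hqN hk h
  refine ⟨s, hs, ?_⟩
  rw [isTy_two_iff, hs] at h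
  obtain ⟨t, ht⟩ := h
  refine ⟨t, ?_⟩
  have : (q : ℤ) * (s * ((N : ℤ) * k) - γ 1 1) = q * (q * t) := by
    linear_combination ht
  exact mul_left_cancel₀ hq0 this

/-- **every matrix is in the cusp of some `gQ N q c i k`** -/
theorem exists_gQ_cusp (hq : q.Prime) (hqN : ¬ q ∣ N) (γ : SL(2, ℤ)) :
    ∃ (i : Fin 3) (k : ℤ), ¬ (q : ℤ) ∣ k ∧
      cuspOf (N * q * q) (cosetOf (N * q * q) γ) = cuspOf (N * q * q)
        (cosetOf (N * q * q) (gQ N q (cuspOf N (cosetOf N γ)) i k)) := by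
  have hqp : Prime (q : ℤ) := Nat.prime_iff_prime_int.mp hq
  have h1 : ¬ (q : ℤ) ∣ 1 := fun h => hqp.not_isUnit (isUnit_of_dvd_one h)
  set c : Cusp N := cuspOf N (cosetOf N γ) with hc
  have hlev : ∀ (i : Fin 3) (k : ℤ),
      cuspOf N (cosetOf N γ) = cuspOf N (cosetOf N (gQ N q c i k)) := fun i k => by
    rw [cuspOf_cosetOf_gQ]
  by_cases hA : ((q : ℤ) * q) ∣ γ 1 0
  · -- type `∞`
    refine ⟨0, 1, h1, cuspOf_eq_of_levels hq hqN _ _ (hlev 0 1) ?_⟩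
    exact qq_of_dvd ((isTy_zero_iff N q 1 _).mp (isTy_gQ N q hq hqN c 0 h1)) hA
  by_cases hB : (q : ℤ) ∣ γ 1 0
  · -- middle type
    obtain ⟨s, hs⟩ := hB
    have hqs : ¬ (q : ℤ) ∣ s := by
      intro h
      apply hA
      rw [hs]
      exact mul_dvd_mul_left _ h
    have hq11 : ¬ (q : ℤ) ∣ γ 1 1 := not_dvd_of_dvd_left hq ⟨s, hs⟩
    have hqN' : ¬ (q : ℤ) ∣ (N : ℤ) := fun h => hqN (Int.natCast_dvd_natCast.mp h)
    have hsN : ¬ (q : ℤ) ∣ s * N := fun h => (hqp.dvd_or_dvd h).elim hqs hqN'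
    obtain ⟨u, v, huv⟩ := ((Prime.coprime_iff_not_dvd hqp).mpr hsN).symm
    -- `u (s N) + v q = 1`
    have hk : ¬ (q : ℤ) ∣ u * γ 1 1 := by
      intro h
      rcases hqp.dvd_or_dvd h with h2 | h2
      · have h3 : (q : ℤ) ∣ u * (s * N) + v * q :=
          dvd_add (dvd_mul_of_dvd_left h2 _) (dvd_mul_left _ _)
        rw [huv] at h3
        exact h1 h3
      · exact hq11 h2
    refine ⟨2, u * γ 1 1, hk, cuspOf_eq_of_levels hq hqN _ _ (hlev 2 _) ?_⟩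
    obtain ⟨s', hs', t, ht⟩ := mid_row hq hqN hk (isTy_gQ N q hq hqN c 2 hk)
    apply qq_of_mid
    rw [hs, hs']
    refine ⟨-(s' * γ 1 1 * v + s * t), ?_⟩
    have e : gQ N q c 2 (u * γ 1 1) 1 1 = s' * ((N : ℤ) * (u * γ 1 1)) - q * t := by
      linear_combination -ht
    rw [e]
    linear_combination ((q : ℤ) * s' * γ 1 1) * huv
  · -- type `0`
    refine ⟨1, 1, h1, cuspOf_eq_of_levels hq hqN _ _ (hlev 1 1) ?_⟩
    refine qq_of_not_dvd hq ?_ hB
    apply not_dvd_of_dvd_right hq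
    exact (dvd_mul_right _ _).trans ((isTy_one_iff N q 1 _).mp (isTy_gQ N q hq hqN c 1 h1))

/-- **the cusp of `gQ N q c i k`** depends on `k` only for `i = 2`, and then only on
`k mod q`. -/
theorem cuspOf_gQ_congr (hq : q.Prime) (hqN : ¬ q ∣ N) (c : Cusp N) (i : Fin 3) {k k' : ℤ}
    (hk : ¬ (q : ℤ) ∣ k) (hk' : ¬ (q : ℤ) ∣ k') (hkk : i = 2 → (q : ℤ) ∣ k - k') :
    cuspOf (N * q * q) (cosetOf (N * q * q) (gQ N q c i k)) =
      cuspOf (N * q * q) (cosetOf (N * q * q) (gQ N q c i k')) := by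
  have hlev : cuspOf N (cosetOf N (gQ N q c i k)) = cuspOf N (cosetOf N (gQ N q c i k')) := by
    rw [cuspOf_cosetOf_gQ, cuspOf_cosetOf_gQ]
  refine cuspOf_eq_of_levels hq hqN _ _ hlev ?_
  have hT := isTy_gQ N q hq hqN c i hk
  have hT' := isTy_gQ N q hq hqN c i hk'
  rcases Fermat.Agent.T3.helper74.fin3_cases i with rfl | rfl | rfl
  · exact qq_of_dvd ((isTy_zero_iff N q _ _).mp hT') ((isTy_zero_iff N q _ _).mp hT)
  · refine qq_of_not_dvd hq ?_ ?_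
    · exact not_dvd_of_dvd_right hq
        ((dvd_mul_right _ _).trans ((isTy_one_iff N q _ _).mp hT'))
    · exact not_dvd_of_dvd_right hq
        ((dvd_mul_right _ _).trans ((isTy_one_iff N q _ _).mp hT))
  · obtain ⟨s, hs, t, ht⟩ := mid_row hq hqN hk hT
    obtain ⟨s', hs', t', ht'⟩ := mid_row hq hqN hk' hT'
    obtain ⟨w, hw⟩ := hkk rfl
    apply qq_of_mid
    rw [hs, hs']
    refine ⟨s' * t - s * t' - s * s' * N * w, ?_⟩
    have e : gQ N q c 2 k 1 1 = s * ((N : ℤ) * k) - q * t := by linear_combination -ht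
    have e' : gQ N q c 2 k' 1 1 = s' * ((N : ℤ) * k') - q * t' := by linear_combination -ht'
    rw [e, e']
    linear_combination (-(q * s * s' * N)) * hw

end Classify

/-! ### Middle indices and roots of unity -/

section Roots

variable {N q : ℕ} [NeZero N] [NeZero q]

/-- the powers of the middle twists -/
theorem iotaK_uMid_pow (k : ℤ) (d : ℕ) :
    iotaK (((uMid N q k : Kbˣ) : Kb) ^ d)
      = Complex.exp (2 * Real.pi * Complex.I * ((k * d : ℤ) : ℂ) / q) := by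
  rw [map_pow, iotaK_uMid, ← Complex.exp_nat_mul]
  congr 1
  push_cast
  ring

theorem uMid_pow_eq_iff (k k' : ℤ) (d : ℕ) :
    ((uMid N q k : Kbˣ) : Kb) ^ d = ((uMid N q k' : Kbˣ) : Kb) ^ d ↔
      (q : ℤ) ∣ (k - k') * d := by
  have hq0 : (q : ℂ) ≠ 0 := by exact_mod_cast NeZero.ne q
  have hpi : (2 * (Real.pi : ℂ) * Complex.I) ≠ 0 := Complex.two_pi_I_ne_zero
  rw [← iotaK.injective.eq_iff, iotaK_uMid_pow, iotaK_uMid_pow, Complex.exp_eq_exp_iff_exists_int]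
  constructor
  · rintro ⟨n, hn⟩
    refine ⟨n, ?_⟩
    have h3 : (2 * (Real.pi : ℂ) * Complex.I) * ((k * d : ℤ) : ℂ)
        = (2 * (Real.pi : ℂ) * Complex.I) * (((k' * d : ℤ) : ℂ) + n * q) := by
      have h5 := congrArg (fun x : ℂ => x * (q : ℂ)) hn
      simp only [add_mul, div_mul_cancel₀ _ hq0] at h5
      linear_combination h5
    have h2 : (((k * d : ℤ) : ℂ)) = ((k' * d : ℤ) : ℂ) + n * q := mul_left_cancel₀ hpi h3
    have h4 : k * d = k' * d + n * q := by exact_mod_cast h2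
    linear_combination h4
  · rintro ⟨n, hn⟩
    refine ⟨n, ?_⟩
    have h4 : k * d = k' * d + n * q := by linear_combination hn
    have h2 : (((k * d : ℤ) : ℂ)) = ((k' * d : ℤ) : ℂ) + n * q := by exact_mod_cast h4
    rw [h2]
    field_simp

theorem uMid_zero : ((uMid N q 0 : Kbˣ) : Kb) = 1 := by
  apply iotaK.injective
  rw [iotaK_uMid, map_one]
  simp

/-- the twists are primitive `q`-th roots of unity -/
theorem isPrimitiveRoot_uMid_pow (hq : q.Prime) {k : ℤ} (hk : ¬ (q : ℤ) ∣ k) {d : ℕ}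
    (hd : ¬ q ∣ d) : IsPrimitiveRoot (((uMid N q k : Kbˣ) : Kb) ^ d) q := by
  have hqp : Prime (q : ℤ) := Nat.prime_iff_prime_int.mp hq
  have hd' : ¬ (q : ℤ) ∣ (d : ℤ) := fun h => hd (Int.natCast_dvd_natCast.mp h)
  have h1 : (((uMid N q k : Kbˣ) : Kb) ^ d) ^ q = 1 := by
    have h2 : (((uMid N q k : Kbˣ) : Kb) ^ d) ^ q = ((uMid N q k : Kbˣ) : Kb) ^ (d * q) := by
      rw [pow_mul]
    have h3 : ((uMid N q 0 : Kbˣ) : Kb) ^ (d * q) = 1 := by rw [uMid_zero, one_pow]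
    rw [h2, ← h3, uMid_pow_eq_iff]
    refine ⟨k * d, ?_⟩
    push_cast
    ring
  have h2 : ((uMid N q k : Kbˣ) : Kb) ^ d ≠ 1 := by
    intro h
    have h3 : ((uMid N q 0 : Kbˣ) : Kb) ^ d = 1 := by rw [uMid_zero, one_pow]
    rw [← h3, uMid_pow_eq_iff, sub_zero] at h
    exact (hqp.dvd_or_dvd h).elim hk hd'
  have h3 : orderOf (((uMid N q k : Kbˣ) : Kb) ^ d) = q := by
    haveI : Fact q.Prime := ⟨hq⟩
    exact orderOf_eq_prime h1 h2
  have h4 := IsPrimitiveRoot.orderOf (((uMid N q k : Kbˣ) : Kb) ^ d)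
  rwa [h3] at h4

theorem not_dvd_dloc (hqN : ¬ q ∣ N) (I : IX N) : ¬ q ∣ dloc N I := fun h =>
  hqN (h.trans ⟨wd N I, (dloc_mul_wd N I).symm⟩)

/-- the middle index of the root of unity of the index `k` is `k` modulo `q` -/
theorem kmid_uMid_pow (hq : q.Prime) (hqN : ¬ q ∣ N) (c : Cusp N) {k : ℤ}
    (hk : ¬ (q : ℤ) ∣ k) :
    (q : ℤ) ∣ k - kmid N q c (((uMid N q k : Kbˣ) : Kb) ^ dloc N (crep N c)) := by
  have hqp : Prime (q : ℤ) := Nat.prime_iff_prime_int.mp hq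
  have hd := not_dvd_dloc hqN (crep N c)
  have hd' : ¬ (q : ℤ) ∣ (dloc N (crep N c) : ℤ) := fun h => hd (Int.natCast_dvd_natCast.mp h)
  have h := (kmid_spec hq hqN c (isPrimitiveRoot_uMid_pow (N := N) hq hk hd)).2
  have h2 := (uMid_pow_eq_iff _ _ _).mp h.symm
  exact (hqp.dvd_or_dvd h2).resolve_right hd'

end Roots

/-! ### The classification of the cosets -/

section Final

variable {N q : ℕ} [NeZero N] [NeZero q]

/-- **every coset of level `N q q` lies in the cusp of some `IQ N q ξ (c, i)`**, `ξ` a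
primitive `q`-th root of unity, `ξ = ζ` for the types `∞` and `0`. -/
theorem exists_IQ_cusp (hq : q.Prime) (hqN : ¬ q ∣ N) {ζ : Kb} (hζ : IsPrimitiveRoot ζ q)
    (I : IX (N * q * q)) :
    ∃ (c : Cusp N) (i : Fin 3) (ξ : Kb), IsPrimitiveRoot ξ q ∧ (i ≠ 2 → ξ = ζ) ∧
      cuspOf (N * q * q) I = cuspOf (N * q * q) (IQ N q ξ (c, i)) := by
  obtain ⟨i, k, hk, h⟩ := exists_gQ_cusp hq hqN (rep (N * q * q) I)
  rw [cosetOf_rep] at h
  set c : Cusp N := cuspOf N (cosetOf N (rep (N * q * q) I)) with hc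
  by_cases hi : i = 2
  · subst hi
    have hd := not_dvd_dloc hqN (crep N c)
    have hξ := isPrimitiveRoot_uMid_pow (N := N) hq hk hd
    refine ⟨c, 2, _, hξ, fun h2 => absurd rfl h2, h.trans ?_⟩
    exact cuspOf_gQ_congr hq hqN c 2 hk (kmid_spec hq hqN c hξ).1
      (fun _ => kmid_uMid_pow hq hqN c hk)
  · refine ⟨c, i, ζ, hζ, fun _ => rfl, h.trans ?_⟩
    exact cuspOf_gQ_congr hq hqN c i hk (kmid_spec hq hqN c hζ).1 (fun h2 => absurd h2 hi)

end Final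

end Fermat.Agent.T3.helper90

end
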