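import Mathlib
import Fermat.Agent.T3.helper96_XPoleInst
import Fermat.Agent.T3.helper81_CuspN
import Fermat.Agent.T3.helper95_SurjAll
import Fermat.Agent.T3.helper90_Unsub
import Fermat.Agent.T3.helper72_TorAll
import Fermat.Agent.T3.helper84_K0Basic

/-!
# Tier 3, [T3-SURJ-ALL] (helper95): the INSTANCE at good levels

* `sigma_congr` : the coset expansions `helper28.sigma D S r` do not depend on the auxiliary
  coefficient ring `(S, r)`; `sigK_eq_sigmaK : T3.helper81.sigK M i = P2.helper28.sigmaK M i`.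
* `keyStatement_good` : `helper96.KeyStatement N A hq hA hqN` ([KEY], from
  `helper81.exists_int_sigma`), `galStatement_good` : `helper96.GalStatement N A` ([GAL], from
  `helper81.coeffMap_sigK`).
* `xpole_good`, `surjAll_raw_good` : `helper96.xpole_raw` / `helper96.surjAll_raw` UNCONDITIONAL
  at good levels (`4 ∣ N ∨ 9 ∣ N`, `q ∤ N`).
* `surjAllStatement_good` : `helper95.SurjAllStatement N A` UNCONDITIONAL at good levels.
* `hsurj_good` : `helper72.SurjAllStatement N q hq hqN A hζ` UNCONDITIONAL at good levels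
  (= field `hsurj` of `helper22.Ideal3Box` / hypothesis `hsurj` of `helper72.torBaseAll`).
-/

set_option autoImplicit false
set_option synthInstance.maxHeartbeats 400000
set_option maxHeartbeats 1000000
set_option linter.style.haveILetI false
set_option linter.unusedSectionVars false
set_option linter.unusedVariables false
set_option linter.style.longLine false

noncomputable section

open HahnSeries ModularCurve AlgebraicCurve
open Fermat.Agent.S18.helper19 Fermat.Agent.P2.helper29 Fermat.Agent.P2.helper28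
open Fermat.Agent.S28

namespace Fermat.Agent.T3.helper95

/-! ### Independence of the coset expansions of the coefficient ring -/

section Congr

variable {N : ℕ} [NeZero N] (D : helper81.ConjData N) (S S' : Subring ℂ)
  {k : Type} [Field k] (r : S →+* k) (r' : S' →+* k)
  (hζ : helper81.zetaC N ∈ S) (hN : (N : ℂ)⁻¹ ∈ S) (hr : Function.Surjective r)
  (hζ' : helper81.zetaC N ∈ S') (hN' : (N : ℂ)⁻¹ ∈ S') (hr' : Function.Surjective r')

/-- the reduced expansions of the generators do not depend on the coefficient ring -/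
theorem Eb_JdS_congr (hSS : S ≤ S') (hrr : ∀ x : S, r' (Subring.inclusion hSS x) = r x)
    (i : D.I) (d : N.divisors) :
    Eb D S r i (JdS D S hζ hN d) = Eb D S' r' i (JdS D S' hζ' hN' d) := by
  set y : LaurentSeries S := helper93.ES D.E S i (JdS D S hζ hN d) with hy
  have h1 : coeffMap S.subtype y = D.E i ((JdS D S hζ hN d : GSr D S) : D.G) :=
    helper93.coeffMap_ES D.E S i _
  have h2 : Eb D S r i (JdS D S hζ hN d) = coeffMap r y := rfl
  have h3 : coeffMap S'.subtype (coeffMap (Subring.inclusion hSS) y) =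
      D.E i ((JdS D S' hζ' hN' d : GSr D S') : D.G) := by
    rw [coeffMap_coeffMap]
    exact h1
  rw [h2, Eb_eq_of D S' r' i _ _ h3, coeffMap_coeffMap]
  ext n
  rw [coeffMap_coeff, coeffMap_coeff]
  exact (hrr _).symm

/-- **the coset expansions do not depend on the coefficient ring** -/
theorem sigma_congr (hSS : S ≤ S') (hrr : ∀ x : S, r' (Subring.inclusion hSS x) = r x)
    (i : D.I) :
    sigma D S r hζ hN hr i = sigma D S' r' hζ' hN' hr' i := by
  apply ringHom_ext_fullC
  intro P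
  rw [sigma_aeval, sigma_aeval]
  unfold Thb
  have : (fun d => Eb D S r i (JdS D S hζ hN d)) =
      fun d => Eb D S' r' i (JdS D S' hζ' hN' d) :=
    funext fun d => Eb_JdS_congr D S S' r r' hζ hN hζ' hN' hSS hrr i d
  rw [this]

end Congr

section Bridge

variable (M : ℕ) [NeZero M]

theorem SK81_le_SK28 : Fermat.Agent.P2.helper81.SK ≤ Fermat.Agent.P2.helper28.SK := by
  rintro _ ⟨z, rfl⟩
  exact Fermat.Agent.P2.helper28.mem_SK z

theorem rK28_inclusion (x : Fermat.Agent.P2.helper81.SK) :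
    Fermat.Agent.P2.helper28.rK (Subring.inclusion SK81_le_SK28 x) =
      Fermat.Agent.P2.helper81.rK x := by
  apply (Fermat.Agent.P2.helper28.iotaK).injective
  rw [Fermat.Agent.P2.helper28.iotaK_rK, Fermat.Agent.T3.helper81.iotaK_rK]
  rfl

/-- the coset expansions of `T3.helper81` are those of `P2.helper28` -/
theorem sigK_eq_sigmaK (i : IX M) :
    Fermat.Agent.T3.helper81.sigK M i = sigmaK M i :=
  sigma_congr (conjX M) _ _ _ _ _ _ _ _ _ _ SK81_le_SK28 rK28_inclusion i

end Bridge

/-! ### [KEY] and [GAL] -/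

section Key

variable {N : ℕ} [NeZero N] {A : ValuationSubring Kb} {q : ℕ}

/-- a function which is regular where `j` is finite is integral over `ℚ̄[j]` -/
theorem exists_monic_of_regK {f : LaurentSeries Kb}
    (hf : f ∈ modularFunctionFieldFullC Kb N)
    (hreg : Fermat.Agent.T3.helper96.RegK N ⟨f, hf⟩) :
    ∃ p : Polynomial (Polynomial Kb), p.Monic ∧
      Fermat.Agent.P2.helper81.ev₂ Fermat.Agent.P2.helper81.jK f p = 0 := by
  have hfF : f ∈ FF N := Fermat.Agent.T3.helper96.mem_FF_of_mem_fullC N hf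
  haveI : FiniteDimensional (IntermediateField.adjoin Kb {Fermat.Agent.S24.xJ N}) (FF N) :=
    Fermat.Agent.S24.helper77.an_finiteDimensional N
  have h1 := (Fermat.Agent.T3.helper96.regK_iff_FF hf).mp hreg
  have h2 := Fermat.Agent.P2.helper81.isIntegral_of_forall_place (Fermat.Agent.S24.xJ N)
    (⟨f, hfF⟩ : FF N) h1
  obtain ⟨p, hp, hp0⟩ := Fermat.Agent.P2.helper81.exists_monic_of_isIntegral_adjoin
    (Fermat.Agent.S24.xJ N) (⟨f, hfF⟩ : FF N) h2
  refine ⟨p, hp, ?_⟩
  have h3 := Fermat.Agent.P2.helper81.algHom_ev₂ (modularFunctionFieldBar N).val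
    (Fermat.Agent.S24.xJ N) (⟨f, hfF⟩ : FF N) p
  rw [hp0, map_zero] at h3
  have h4 : (modularFunctionFieldBar N).val (Fermat.Agent.S24.xJ N) =
      Fermat.Agent.P2.helper81.jK := Fermat.Agent.P2.helper81.coe_xJ_eq N
  rw [h4] at h3
  exact h3.symm

/-- **[KEY]** at every level `N` prime to `q`. -/
theorem keyStatement_good (hq : q.Prime) (hA : A.LiesOverPrime q) (hqN : ¬ q ∣ N) :
    Fermat.Agent.T3.helper96.KeyStatement N A hq hA hqN := by
  intro Y hY hreg
  haveI : Fact q.Prime := ⟨hq⟩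
  have hYF : incl A Y ∈ FF N := Fermat.Agent.T3.helper96.mem_FF_of_mem_fullC N hY
  have hint := exists_monic_of_regK hY hreg
  have hb : red A Y ∈ modularFunctionFieldFullC (kA A) N :=
    Fermat.Agent.P2.helper81.coeffMap_residue_mem A hA N hqN Y hYF
  refine ⟨hb, fun Q hQ => ?_, fun i => ?_⟩
  · exact Fermat.Agent.P2.helper81.ord_red_nonneg_of_ord_jBar_nonneg A hA N hqN Y hYF hint hb
      Q hQ
  · obtain ⟨Z, h1, h2⟩ :=
      Fermat.Agent.T3.helper81.exists_int_sigma A hA N hqN Y hYF hint hY hb i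
    refine ⟨Z, ?_, h2⟩
    rw [← sigK_eq_sigmaK]
    exact h1

/-- **[GAL]** at every level `N` prime to `q`. -/
theorem galStatement_good (hq : q.Prime) (hA : A.LiesOverPrime q) (hqN : ¬ q ∣ N) :
    Fermat.Agent.T3.helper96.GalStatement N A := by
  intro σ hσ i f hσf
  have hs : σ (Fermat.Agent.T3.helper81.zetaKb N) = Fermat.Agent.T3.helper81.zetaKb N :=
    Fermat.Agent.T3.helper84.k0_root hq A hA hqN (u := 1)
      (w := Fermat.Agent.T3.helper81.zetaKb N) (map_one _) (fun τ _ => map_one τ)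
      (Fermat.Agent.T3.helper81.zetaKb_pow N) σ hσ
  have h := Fermat.Agent.T3.helper81.coeffMap_sigK N σ hs i f ⟨_, hσf⟩ rfl
  rw [← sigK_eq_sigmaK]
  exact h.symm

end Key

/-! ### The unconditional statements at good levels -/

section Good

variable {N : ℕ} [NeZero N] {A : ValuationSubring Kb} {q : ℕ}

/-- **[XPOLE-c], raw form, UNCONDITIONAL at good levels** (`helper96.xpole_raw`). -/
theorem xpole_good (hq : q.Prime) (hA : A.LiesOverPrime q) (hqN : ¬ q ∣ N)
    (hN : 4 ∣ N ∨ 9 ∣ N) :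
    ∃ (d : IX N → ℕ) (m₀ : ℕ), (∀ i, 0 < d i) ∧
      (∀ i, d i * Nat.card (Fermat.Agent.T3.helper96.orbT N i) = N) ∧
      ∀ (i : IX N) (m : ℕ), m₀ ≤ m → ∃ (x : FbT Kb N) (X : IX N → LaurentSeries A),
        Fermat.Agent.T3.helper96.RegK N x ∧
        (∀ σ ∈ A.inertiaSubgroupIn ℚ,
          coeffMap ((σ : Kb ≃ₐ[ℚ] Kb) : Kb →+* Kb) (x : LaurentSeries Kb) = x) ∧
        (∀ i', sigmaK N i' x = incl A (X i')) ∧
        (X i).coeff (-((d i : ℤ) * m)) = 1 ∧
        (∀ k : ℤ, k < -((d i : ℤ) * m) → (X i).coeff k = 0) ∧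
        (∀ i', i' ∉ Fermat.Agent.T3.helper96.orbT N i → ∀ k : ℤ, k < 0 → (X i').coeff k = 0) ∧
        ∀ σ ∈ A.inertiaSubgroupIn ℚ, ∀ i' (k : ℤ),
          σ (((X i').coeff k : A) : Kb) = (((X i').coeff k : A) : Kb) :=
  Fermat.Agent.T3.helper96.xpole_raw hq hA hqN hN (keyStatement_good hq hA hqN)
    (galStatement_good hq hA hqN)

/-- **[SURJ-ALL], raw form, UNCONDITIONAL at good levels** (`helper96.surjAll_raw`). -/
theorem surjAll_raw_good (hq : q.Prime) (hA : A.LiesOverPrime q) (hqN : ¬ q ∣ N)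
    (hN : 4 ∣ N ∨ 9 ∣ N) (y : FbT (kA A) N) (hy : Fermat.Agent.T3.helper96.RegA N A y) :
    ∃ (x : FbT Kb N) (X : IX N → LaurentSeries A),
      Fermat.Agent.T3.helper96.RegK N x ∧
      (∀ σ ∈ A.inertiaSubgroupIn ℚ,
        coeffMap ((σ : Kb ≃ₐ[ℚ] Kb) : Kb →+* Kb) (x : LaurentSeries Kb) = x) ∧
      (∀ i, sigmaK N i x = incl A (X i)) ∧
      (∀ i, red A (X i) = sigmaA hq hA hqN i y) ∧
      ∀ σ ∈ A.inertiaSubgroupIn ℚ, ∀ i (k : ℤ),
        σ (((X i).coeff k : A) : Kb) = (((X i).coeff k : A) : Kb) :=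
  Fermat.Agent.T3.helper96.surjAll_raw hq hA hqN hN (keyStatement_good hq hA hqN)
    (galStatement_good hq hA hqN) y hy

/-- **[SURJ-ALL] at level `N`, UNCONDITIONAL at good levels**: every function of the special
fibre which is regular where `j̄` is finite is the reduction of an `A`-integral series with
inertia-fixed coefficients which is the `q`-expansion of a function of level `N` regular where
`j` is finite. -/
theorem surjAllStatement_good (hq : q.Prime) (hA : A.LiesOverPrime q) (hqN : ¬ q ∣ N)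
    (hN : 4 ∣ N ∨ 9 ∣ N) : SurjAllStatement N A := by
  intro y hy
  obtain ⟨hy', hyreg⟩ := mem_BtAll.mp hy
  obtain ⟨x, X, hx, -, hXE, hXred, hXfix⟩ :=
    surjAll_raw_good hq hA hqN hN (⟨y, hy'⟩ : FbT (kA A) N) (fun Q hQ => hyreg Q hQ)
  have hK0 : sigmaK N (conjX N).i₀ x = qExpand Kb N (x : LaurentSeries Kb) :=
    sigma_i₀ (conjX N) SK rK (zetaC_mem_SK N) (natCast_inv_mem_SK N) rK_surjective x
  have hA0 : sigmaA hq hA hqN (conjX N).i₀ (⟨y, hy'⟩ : FbT (kA A) N) = qExpand (kA A) N y :=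
    sigma_i₀ (conjX N) (SA A) (rA A) (zetaC_mem_SA A N) (natCast_inv_mem_SA A hq hA N hqN)
      (rA_surjective A) _
  set Y : LaurentSeries A := Fermat.Agent.T3.helper90.qContract N (X (conjX N).i₀) with hYdef
  have hYx : incl A Y = (x : LaurentSeries Kb) := by
    show coeffMap A.subtype (Fermat.Agent.T3.helper90.qContract N (X (conjX N).i₀)) = _
    rw [Fermat.Agent.T3.helper90.coeffMap_qContract]
    have := hXE (conjX N).i₀
    rw [hK0] at this
    show Fermat.Agent.T3.helper90.qContract N (incl A (X (conjX N).i₀)) = _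
    rw [← this, Fermat.Agent.T3.helper90.qContract_qExpand]
  have hmem : incl A Y ∈ FF N := by
    rw [hYx]
    exact Fermat.Agent.T3.helper96.mem_FF_of_mem_fullC N x.2
  refine ⟨Y, hmem, ?_, ?_, ?_⟩
  · have hxe : (⟨(x : LaurentSeries Kb), Fermat.Agent.T3.helper96.mem_FF_of_mem_fullC N x.2⟩ :
        FF N) = ⟨incl A Y, hmem⟩ := Subtype.ext hYx.symm
    have h1 := (Fermat.Agent.T3.helper96.regK_iff_FF x.2).mp hx
    rw [hxe] at h1
    intro P hP
    apply h1 P
    have hj : (Fermat.Agent.S24.xJ N : FF N) = jElt N :=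
      Subtype.ext (Fermat.Agent.T2.helper45.coe_xJ N)
    rw [hj]
    exact hP
  · intro σ hσ k
    have := hXfix σ hσ (conjX N).i₀ ((N : ℤ) * k)
    rw [hYdef]
    rw [show (Fermat.Agent.T3.helper90.qContract N (X (conjX N).i₀)).coeff k =
      (X (conjX N).i₀).coeff ((N : ℤ) * k) from rfl]
    exact this
  · show coeffMap (IsLocalRing.residue A)
      (Fermat.Agent.T3.helper90.qContract N (X (conjX N).i₀)) = y
    rw [Fermat.Agent.T3.helper90.coeffMap_qContract]
    have := hXred (conjX N).i₀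
    rw [hA0] at this
    show Fermat.Agent.T3.helper90.qContract N (red A (X (conjX N).i₀)) = y
    rw [this, Fermat.Agent.T3.helper90.qContract_qExpand]

variable [NeZero q] {hqp : q.Prime} {hqN' : ¬ q ∣ N}

/-- **[SURJ-ALL] = `hsurj`, UNCONDITIONAL at good levels**: the box `helper72.SurjAllStatement`
of the final assembly (= field `hsurj` of `helper22.Ideal3Box`, hypothesis `surj` of
`helper16.real3`, for `Reg = regJRing (N q q)`, `Bt = btAll N A`). -/
theorem hsurj_good (hA : A.LiesOverPrime q) (hN : 4 ∣ N ∨ 9 ∣ N) {ζ : Kb}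
    (hζ : IsPrimitiveRoot ζ q) :
    Fermat.Agent.T3.helper72.SurjAllStatement N q hqp hqN' A hζ :=
  surj3_all (surjAllStatement_good hqp hA hqN' hN) hA hζ

end Good

end Fermat.Agent.T3.helper95

end
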