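/-
T3 (S36), helper90, [CUSP-Q] COVER, part B: orders of the local expansions.

* `order_sigmaFF`               : `order (sigmaFF M I f) = dloc M I * order (exLoc M I f)`;
* `order_exLoc_eq_of_cuspOf_eq` : the orders of the local expansions depend only on the cusp;
* `EC_eq_sigmaFF`               : the expansions of `helper81` are those of `helper23`;
* `exists_exLoc_of_pole`        : **dictionary**: every pole `P` of `j` is the place of a local
                                  expansion, `P.ord f = order (exLoc M I f)`;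
* `wd_of_dvd`, `dloc_of_dvd`    : width and local exponent at level `N q q` of a matrix with
                                  `q ∣ γ 1 0`;
* `cosetOf_partner_congr`       : the coset of the Hermite partner depends only on the coset of
                                  level `N`.
-/
import Mathlib
import Fermat.Agent.T3.helper90_CuspQCoverA
import Fermat.Agent.T3.helper81_CuspNApi
import Fermat.Agent.T3.helper95_SurjAllInst

set_option autoImplicit false
set_option synthInstance.maxHeartbeats 400000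
set_option linter.unusedSectionVars false
set_option linter.unusedVariables false
set_option linter.style.haveILetI false
set_option linter.style.longLine false

noncomputable section

open HahnSeries ModularCurve AlgebraicCurve
open Fermat.Agent.S18.helper19 Fermat.Agent.P2.helper29
open Fermat.Agent.S28 (IX rep)
open Fermat.Agent.P2.helper28
open Fermat.Agent.T3.helper87
open Fermat.Agent.T3.helper23 (sigmaFF sigmaFF_apply toFullC coe_toFullC)
open scoped MatrixGroups
open CongruenceSubgroup

namespace Fermat.Agent.T3.helper90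

/-! ### Orders -/

section Orders

variable (M : ℕ) [NeZero M]

theorem order_qExpand_all (d : ℕ) [NeZero d] (x : LaurentSeries Kb) :
    (qExpand Kb d x).order = (d : ℤ) * x.order := by
  by_cases hx : x = 0
  · subst hx
    rw [map_zero, HahnSeries.order_zero, mul_zero]
  · exact Fermat.Agent.T2.helper96.order_qExpand d hx

theorem order_sigmaFF (I : IX M) (f : FF M) :
    (sigmaFF M I f).order = (dloc M I : ℤ) * (exLoc M I f).order := by
  rw [← qExpand_exLoc, order_qExpand_all]

theorem dloc_ne_zero (I : IX M) : ((dloc M I : ℕ) : ℤ) ≠ 0 := by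
  exact_mod_cast (dloc_pos M I).ne'

/-- integral powers of `permT` are natural powers -/
theorem exists_permT_pow (z : ℤ) : ∃ m : ℕ, permT M ^ z = permT M ^ m := by
  have hM : (0 : ℤ) < (M : ℤ) := by exact_mod_cast Nat.pos_of_ne_zero (NeZero.ne M)
  have h0 : (0 : ℤ) ≤ z % M := Int.emod_nonneg _ hM.ne'
  refine ⟨(z % M).toNat, ?_⟩
  have e : z = ((z % M).toNat : ℤ) + (M : ℤ) * (z / M) := by
    rw [Int.toNat_of_nonneg h0]
    exact (Int.emod_add_mul_ediv z M).symm
  conv_lhs => rw [e]
  rw [zpow_add, zpow_mul, zpow_natCast, zpow_natCast, permT_pow_level, one_zpow, mul_one]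

/-- **the orders of the local expansions depend only on the cusp** -/
theorem order_exLoc_eq_of_cuspOf_eq {I I' : IX M} (h : cuspOf M I = cuspOf M I') (f : FF M) :
    (exLoc M I f).order = (exLoc M I' f).order := by
  have hd := dloc_eq_of_cuspOf_eq M h
  obtain ⟨z, rfl⟩ := (cuspOf_eq_iff_zpow M I I').mp h
  obtain ⟨m, hm⟩ := exists_permT_pow M z
  have h1 : (sigmaFF M ((permT M ^ z) I') f).order = (sigmaFF M I' f).order := by
    rw [hm, sigmaFF_permT_pow, order_rot]
  rw [order_sigmaFF, order_sigmaFF, hd] at h1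
  exact mul_left_cancel₀ (dloc_ne_zero M I') h1

/-- the expansions of `helper81` are those of `helper23` -/
theorem EC_eq_sigmaFF (I : IX M) (f : FF M) :
    Fermat.Agent.T3.helper81.EC M I f = sigmaFF M I f := by
  rw [Fermat.Agent.T3.helper81.EC_apply, sigmaFF_apply,
    Fermat.Agent.T3.helper95.sigK_eq_sigmaK]
  congr 1

/-- **dictionary**: every pole of `j` is the place of a local expansion. -/
theorem exists_exLoc_of_pole (P : Place Kb (FF M)) (hP : P.ord (jElt M) < 0) :
    ∃ I : IX M, ∀ f : FF M, f ≠ 0 → P.ord f = (exLoc M I f).order := by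
  obtain ⟨W, d, -, h2, -, h4, h5, -, -⟩ := Fermat.Agent.T3.helper81.exists_cuspDict M
  obtain ⟨I, rfl⟩ := h2 P hP
  refine ⟨I, fun f hf => ?_⟩
  have hd : d I = dloc M I := by
    have e1 : d I * wd M I = M := by
      rw [wd_eq_card]
      exact h4 I
    exact Nat.eq_of_mul_eq_mul_right (wd_pos M I) (e1.trans (dloc_mul_wd M I).symm)
  have e3 := h5 I f hf
  rw [EC_eq_sigmaFF, order_sigmaFF, hd] at e3
  exact (mul_left_cancel₀ (dloc_ne_zero M I) e3).symm

end Orders

/-! ### Widths at level `N q q` -/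

section Width

variable {N q : ℕ} [NeZero N] [NeZero q]

/-- the width at level `N q q` of a matrix with `q ∣ γ 1 0` is its width at level `N` -/
theorem wd_of_dvd (hq : q.Prime) (hqN : ¬ q ∣ N) {γ : SL(2, ℤ)} (h : (q : ℤ) ∣ γ 1 0) :
    wd (N * q * q) (cosetOf (N * q * q) γ) = wd N (cosetOf N γ) := by
  obtain ⟨s, hs⟩ := h
  have hcop : IsCoprime (N : ℤ) ((q : ℤ) * q) := by
    have h1 : Nat.Coprime N q := ((Nat.Prime.coprime_iff_not_dvd hq).mpr hqN).symm
    have h2 : IsCoprime (N : ℤ) (q : ℤ) := Nat.isCoprime_iff_coprime.mpr h1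
    exact h2.mul_right h2
  have key : ∀ n : ℕ, wd (N * q * q) (cosetOf (N * q * q) γ) ∣ n ↔ wd N (cosetOf N γ) ∣ n := by
    intro n
    rw [wd_dvd_iff, wd_dvd_iff, hs]
    constructor
    · intro h1
      refine dvd_trans ⟨(q : ℤ) * q, ?_⟩ h1
      push_cast
      ring
    · intro h1
      have h2 : (N : ℤ) ∣ ((n : ℤ) * s ^ 2) * ((q : ℤ) * q) := by
        have e : (n : ℤ) * ((q : ℤ) * s) ^ 2 = ((n : ℤ) * s ^ 2) * ((q : ℤ) * q) := by ring
        rw [← e]
        exact h1
      obtain ⟨t, ht⟩ := hcop.dvd_of_dvd_mul_right h2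
      refine ⟨t, ?_⟩
      push_cast
      have e : (n : ℤ) * ((q : ℤ) * s) ^ 2 = ((n : ℤ) * s ^ 2) * ((q : ℤ) * q) := by ring
      rw [e, ht]
      ring
  exact Nat.dvd_antisymm ((key _).mpr dvd_rfl) ((key _).mp dvd_rfl)

end Width

/-! ### Hermite partners -/

section Partner

variable {N q : ℕ} [NeZero N] [NeZero q]

/-- the coset of the Hermite partner depends only on the coset of level `N` -/
theorem cosetOf_partner_congr (hq : q.Prime) (hqN : ¬ q ∣ N) {γ₁ γ₂ : SL(2, ℤ)} {i e : Fin 3}
    {k₁ k₂ : ℤ} (h₁ : PartOK N q γ₁ i e k₁) (h₂ : PartOK N q γ₂ i e k₂)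
    (h : cosetOf N γ₁ = cosetOf N γ₂) :
    cosetOf N (partner N q γ₁ i e k₁) = cosetOf N (partner N q γ₂ i e k₂) := by
  rw [cosetOf_eq_iff] at h ⊢
  rw [partner_one_zero h₁, partner_one_one h₁, partner_one_zero h₂, partner_one_one h₂]
  have hcop : IsCoprime (N : ℤ) ((pA q i e : ℤ) * (pD q i e : ℤ)) := by
    have h1 : Nat.Coprime N (q ^ (e : ℕ)) :=
      (Nat.Coprime.pow_left _ ((Nat.Prime.coprime_iff_not_dvd hq).mpr hqN)).symm
    have h2 : IsCoprime (N : ℤ) ((q ^ (e : ℕ) : ℕ) : ℤ) := Nat.isCoprime_iff_coprime.mpr h1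
    rw [← pA_mul_pD i e] at h2
    push_cast at h2
    exact h2
  obtain ⟨b₁, hb₁⟩ := dvd_pB (N := N) i e k₁
  obtain ⟨b₂, hb₂⟩ := dvd_pB (N := N) i e k₂
  obtain ⟨hA₁, hB₁⟩ := h₁
  obtain ⟨hA₂, hB₂⟩ := h₂
  obtain ⟨t, ht⟩ := h
  generalize pC q γ₁ i e = c₁ at *
  generalize pC q γ₂ i e = c₂ at *
  generalize pE N q γ₁ i e k₁ = E₁ at *
  generalize pE N q γ₂ i e k₂ = E₂ at *
  generalize pB N i e k₁ = B₁ at *
  generalize pB N i e k₂ = B₂ at *
  generalize (pA q i e : ℤ) = a at *
  generalize (pD q i e : ℤ) = D at *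
  rw [hA₁, hB₁, hA₂, hB₂] at ht
  apply hcop.dvd_of_dvd_mul_left
  refine ⟨t - (c₂ * a) * c₁ * b₁ + c₂ * b₂ * (c₁ * a), ?_⟩
  linear_combination ht - c₁ * c₂ * a * hb₁ + c₁ * c₂ * a * hb₂

end Partner

end Fermat.Agent.T3.helper90

end
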