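/-
T3 (S36), helper90, [CUSP-Q] COVER, part C: the conjugacy of the middle cosets under the inertia
group and **(COVER) for the family `helper87.ex3c`**.

* `coeffMap_sigmaFF_mid`        : `σ (sigmaFF [gQ c 2 k₁] f) = sigmaFF [gQ c 2 k₂] (σ f)` for `σ` in
                                  the inertia group with `σ (uMid k₁) = uMid k₂` (RAW level);
* `dloc_IQ_mid`                 : the local exponents of the middle cosets over `c` agree;
* `exists_inertia_order_eq_ex3c`: the middle expansions `ex3c ξ (c, 2)` (`ξ` any primitive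
                                  `q`-th root of unity) are conjugate to `ex3c ζ (c, 2)`;
* `exists_index_of_pole`        : every pole of `j` is an inertia conjugate of the place of an
                                  expansion of the family;
* `coverStatementE_ex3c`        : **`helper27.CoverStatementE A (ex3c N q ζ)`**.
-/
import Mathlib
import Fermat.Agent.T3.helper90_CuspQCoverB
import Fermat.Agent.T3.helper48_CuspQUniq
import Fermat.Agent.T3.helper28_CuspNGal
import Fermat.Agent.T3.helper27_FinAll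
import Fermat.Agent.T3.helper84_K0Cyc

set_option autoImplicit false
set_option synthInstance.maxHeartbeats 400000
set_option linter.unusedSectionVars false
set_option linter.unusedVariables false
set_option linter.style.haveILetI false
set_option linter.style.longLine false

noncomputable section

open HahnSeries ModularCurve AlgebraicCurve
open Fermat.Agent.S18.helper19 Fermat.Agent.P2.helper29
open Fermat.Agent.S28 (IX rep)
open Fermat.Agent.P2.helper28
open Fermat.Agent.T3.helper87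
open Fermat.Agent.T3.helper23 (sigmaFF sigmaFF_apply toFullC coe_toFullC)
open Fermat.Agent.S23.helper74 (xi)
open scoped MatrixGroups
open CongruenceSubgroup

namespace Fermat.Agent.T3.helper90

/-! ### The twists of the raw table of the middle type -/

section Twist

variable {N q : ℕ} [NeZero N] [NeZero q]

theorem xi_zero (D : ℕ) : xi D 0 = 1 := by
  unfold xi
  simp

/-- the twist of the raw table at `(2, e)` for `e ≠ 2` is trivial -/
theorem uK_pB_of_ne {e : Fin 3} (he : e ≠ 2) (k : ℤ) :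
    ((uK (pD q 2 e * N) (pDN_pos 2 e) (pB N 2 e k) : Kbˣ) : Kb) = 1 := by
  apply iotaK.injective
  have hB : pB N 2 e k = 0 := by
    unfold pB
    rw [if_neg (fun h => he h.2)]
  rw [iotaK_uK, hB, xi_zero, map_one]

/-- the twist of the raw table at `(2, 2)` is `uMid k` -/
theorem uK_pB_two (k : ℤ) :
    ((uK (pD q 2 2 * N) (pDN_pos 2 2) (pB N 2 2 k) : Kbˣ) : Kb) = ((uMid N q k : Kbˣ) : Kb) := by
  apply iotaK.injective
  unfold uMid
  rw [iotaK_uK, iotaK_uK]
  have hD : pD q 2 2 = q := by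
    unfold pD
    simp
  have hB : pB N 2 2 k = (N : ℤ) * k := by
    unfold pB
    simp
  rw [hD, hB]

/-- an automorphism moving `uMid k₁` to `uMid k₂` moves the twists of the raw tables -/
theorem map_uK_pB (σ : Kb ≃ₐ[ℚ] Kb) {k₁ k₂ : ℤ}
    (hσu : σ ((uMid N q k₁ : Kbˣ) : Kb) = ((uMid N q k₂ : Kbˣ) : Kb)) (e : Fin 3) :
    σ ((uK (pD q 2 e * N) (pDN_pos 2 e) (pB N 2 e k₁) : Kbˣ) : Kb)
      = ((uK (pD q 2 e * N) (pDN_pos 2 e) (pB N 2 e k₂) : Kbˣ) : Kb) := by
  by_cases he : e = 2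
  · subst he
    rw [uK_pB_two, uK_pB_two, hσu]
  · rw [uK_pB_of_ne he, uK_pB_of_ne he, map_one]

end Twist

/-! ### The conjugacy of the middle cosets -/

section Conj

variable {N q : ℕ} [NeZero N] [NeZero q] (A : ValuationSubring Kb)

theorem galF_one (M : ℕ) [NeZero M] (f : FF M) :
    arithmeticRingAut (modularFunctionFieldFull M) (1 : Kb ≃ₐ[ℚ] Kb) f = f := by
  apply Subtype.ext
  rw [coe_arithmeticRingAut_apply]
  ext k
  rw [coeffMap_coeff]
  rfl

/-- **the conjugacy of the middle cosets at RAW level** -/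
theorem coeffMap_sigmaFF_mid (hq : q.Prime) (hqN : ¬ q ∣ N) (hA : A.LiesOverPrime q)
    (c : Cusp N) {k₁ k₂ : ℤ} (hk₁ : ¬ (q : ℤ) ∣ k₁) (hk₂ : ¬ (q : ℤ) ∣ k₂)
    {σ : Kb ≃ₐ[ℚ] Kb} (hσ : σ ∈ A.inertiaSubgroupIn ℚ)
    (hσu : σ ((uMid N q k₁ : Kbˣ) : Kb) = ((uMid N q k₂ : Kbˣ) : Kb)) (f : FF (N * q * q)) :
    coeffMap (σ : Kb →+* Kb) (sigmaFF (N * q * q) (cosetOf (N * q * q) (gQ N q c 2 k₁)) f)
      = sigmaFF (N * q * q) (cosetOf (N * q * q) (gQ N q c 2 k₂))
          (arithmeticRingAut (modularFunctionFieldFull (N * q * q)) σ f) := by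
  have hT₁ := isTy_gQ N q hq hqN c 2 hk₁
  have hT₂ := isTy_gQ N q hq hqN c 2 hk₂
  have hco : ∀ e : Fin 3, cosetOf N (partner N q (gQ N q c 2 k₁) 2 e k₁)
      = cosetOf N (partner N q (gQ N q c 2 k₂) 2 e k₂) := fun e =>
    cosetOf_partner_congr hq hqN (partOK_of_isTy hq hqN hk₁ hT₁ e)
      (partOK_of_isTy hq hqN hk₂ hT₂ e) (by rw [cosetOf_gQ, cosetOf_gQ])
  refine Fermat.Agent.T3.helper48.coeffMap_eq_of_table N q hq σ _ _
    (fun e y => qExpand Kb (pM q 2 e) (Fermat.Agent.P2.helper94.rot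
      (uK (pD q 2 e * N) (pDN_pos 2 e) (pB N 2 e k₁))
      (sigmaFF N (cosetOf N (partner N q (gQ N q c 2 k₁) 2 e k₁)) y)))
    (fun e y => qExpand Kb (pM q 2 e) (Fermat.Agent.P2.helper94.rot
      (uK (pD q 2 e * N) (pDN_pos 2 e) (pB N 2 e k₂))
      (sigmaFF N (cosetOf N (partner N q (gQ N q c 2 k₂) 2 e k₂)) y)))
    (fun e y => raw_table_of_isTy hq hqN hk₁ hT₁ e y)
    (fun e y => raw_table_of_isTy hq hqN hk₂ hT₂ e y) ?_ f
  intro e y
  rw [Fermat.Agent.T3.helper48.coeffMap_qExpand_rot σ (pM q 2 e) _ _ (map_uK_pB σ hσu e), hco e]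
  congr 2
  exact (Fermat.Agent.T3.helper28.EN_galF_of_inertia N A hq hA hqN hσ _ y).symm

/-- the local exponents of the cosets of the matrices with `q ∣ γ 1 0` -/
theorem dloc_of_dvd (hq : q.Prime) (hqN : ¬ q ∣ N) {γ : SL(2, ℤ)} (h : (q : ℤ) ∣ γ 1 0) :
    dloc (N * q * q) (cosetOf (N * q * q) γ) = N * q * q / wd N (cosetOf N γ) := by
  unfold dloc
  rw [wd_of_dvd hq hqN h]

/-- the local exponents of the middle cosets over `c` agree -/
theorem dloc_gQ_mid (hq : q.Prime) (hqN : ¬ q ∣ N) (c : Cusp N) {k₁ k₂ : ℤ}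
    (hk₁ : ¬ (q : ℤ) ∣ k₁) (hk₂ : ¬ (q : ℤ) ∣ k₂) :
    dloc (N * q * q) (cosetOf (N * q * q) (gQ N q c 2 k₁))
      = dloc (N * q * q) (cosetOf (N * q * q) (gQ N q c 2 k₂)) := by
  rw [dloc_of_dvd hq hqN (dvd_of_isTy_two hq hqN hk₁ (isTy_gQ N q hq hqN c 2 hk₁)),
    dloc_of_dvd hq hqN (dvd_of_isTy_two hq hqN hk₂ (isTy_gQ N q hq hqN c 2 hk₂)),
    cosetOf_gQ, cosetOf_gQ]

theorem isPrimitiveRoot_uMid (hq : q.Prime) {k : ℤ} (hk : ¬ (q : ℤ) ∣ k) :
    IsPrimitiveRoot ((uMid N q k : Kbˣ) : Kb) q := by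
  have h := isPrimitiveRoot_uMid_pow (N := N) hq hk (d := 1)
    (fun h => hq.one_lt.ne' (Nat.dvd_one.mp h))
  rwa [pow_one] at h

/-- **the I-conjugacy of the middle expansions of the family** -/
theorem exists_inertia_order_eq_ex3c (hq : q.Prime) (hqN : ¬ q ∣ N) (hA : A.LiesOverPrime q)
    {ζ ξ : Kb} (hζ : IsPrimitiveRoot ζ q) (hξ : IsPrimitiveRoot ξ q) (c : Cusp N) :
    ∃ τ ∈ A.inertiaSubgroupIn ℚ, ∀ f : FF (N * q * q),
      (ex3c N q ξ (c, 2) f).order
        = (ex3c N q ζ (c, 2)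
            (arithmeticRingAut (modularFunctionFieldFull (N * q * q)) τ f)).order := by
  have hk₁ := (kmid_spec hq hqN c hζ).1
  have hk₂ := (kmid_spec hq hqN c hξ).1
  obtain ⟨σ, hσ, hσu⟩ := Fermat.Agent.T3.helper84.k0_zeta_trans' hq A hA
    (isPrimitiveRoot_uMid (N := N) hq hk₁) (isPrimitiveRoot_uMid (N := N) hq hk₂)
  obtain ⟨τ, hτ, hτf⟩ := Fermat.Agent.T3.helper48.exists_inertia_order_eq A
    (sigmaFF (N * q * q) (cosetOf (N * q * q) (gQ N q c 2 (kmid N q c ζ))))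
    (sigmaFF (N * q * q) (cosetOf (N * q * q) (gQ N q c 2 (kmid N q c ξ)))) hσ
    (fun f => coeffMap_sigmaFF_mid A hq hqN hA c hk₁ hk₂ hσ hσu f)
  refine ⟨τ, hτ, fun f => ?_⟩
  have h1 := hτf f
  rw [order_sigmaFF, order_sigmaFF, dloc_gQ_mid hq hqN c hk₂ hk₁] at h1
  exact mul_left_cancel₀ (dloc_ne_zero _ _) h1

end Conj

/-! ### (COVER) -/

section Cover

variable {N q : ℕ} [NeZero N] [NeZero q] (A : ValuationSubring Kb)

/-- **every pole of `j` is an inertia conjugate of the place of an expansion of the family** -/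
theorem exists_index_of_pole (hq : q.Prime) (hqN : ¬ q ∣ N) (hA : A.LiesOverPrime q)
    {ζ : Kb} (hζ : IsPrimitiveRoot ζ q) (P : Place Kb (FF (N * q * q)))
    (hP : P.ord (jElt (N * q * q)) < 0) :
    ∃ J : Cusp N × Fin 3, ∃ σ ∈ A.inertiaSubgroupIn ℚ, ∀ f : FF (N * q * q), f ≠ 0 →
      P.ord f = (ex3c N q ζ J
        (arithmeticRingAut (modularFunctionFieldFull (N * q * q)) σ f)).order := by
  obtain ⟨I, hI⟩ := exists_exLoc_of_pole (N * q * q) P hP
  obtain ⟨c, i, ξ, hξ, hiξ, hc⟩ := exists_IQ_cusp hq hqN hζ I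
  have h1 : ∀ f : FF (N * q * q), f ≠ 0 → P.ord f = (ex3c N q ξ (c, i) f).order := fun f hf =>
    (hI f hf).trans (order_exLoc_eq_of_cuspOf_eq _ hc f)
  by_cases hi : i = 2
  · subst hi
    obtain ⟨τ, hτ, hτf⟩ := exists_inertia_order_eq_ex3c A hq hqN hA hζ hξ c
    exact ⟨(c, 2), τ, hτ, fun f hf => (h1 f hf).trans (hτf f)⟩
  · rw [hiξ hi] at h1
    refine ⟨(c, i), 1, one_mem _, fun f hf => ?_⟩
    rw [galF_one]
    exact h1 f hf

/-- **(COVER) for the family `ex3c`** -/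
theorem coverStatementE_ex3c (hq : q.Prime) (hqN : ¬ q ∣ N) (hA : A.LiesOverPrime q)
    {ζ : Kb} (hζ : IsPrimitiveRoot ζ q) :
    Fermat.Agent.T3.helper27.CoverStatementE A (ex3c N q ζ) :=
  Fermat.Agent.T3.helper27.coverStatementE_of_conj
    (fun P hP => exists_index_of_pole A hq hqN hA hζ P hP)

end Cover

end Fermat.Agent.T3.helper90

end
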