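/-
T3 (S36), helper90, [CUSP-Q], part D: the twisted table in `FF` vocabulary
(`helper23.sigmaFF`, `helper74.dgF`).

* `sigmaFF_dgF`   : RAW table for `dgF N q e` (arbitrary `g, d` with the four entry equations);
* `exists_table`  : for EVERY `g ∈ SL(2,ℤ)` and `e : Fin 3` (with `q` prime to `N`) Hermite data
  `(d, a, D, m, b, u)` with `a = gcd (q^e, g 1 0)`, `a D = q^e`, `m = a² q^(2-e)`, `N ∣ b`,
  `u ^ D = 1`, and the table
  `sigmaFF (N q q) [g⁻¹] (dgF e y) = qExpand m (rot u (sigmaFF N [d⁻¹] y))`.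
-/
import Mathlib
import Fermat.Agent.T3.helper90_CuspQTabC
import Fermat.Agent.T3.helper23_DiscSigma
import Fermat.Agent.T3.helper74_Sat3TwInst

set_option autoImplicit false
set_option linter.unusedSectionVars false
set_option linter.style.haveILetI false
set_option synthInstance.maxHeartbeats 400000

noncomputable section

namespace Fermat.Agent.T3.helper90

open UpperHalfPlane ModularCurve Fermat.Agent.S28
open Fermat.Agent.S24 (jfun scaleH jfunD rotL)
open Fermat.Agent.S23.helper74 (affPt xi)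
open Fermat.Agent.S18.helper19
open Fermat.Agent.P2.helper28
open Fermat.Agent.T3.helper23 (sigmaFF toFullC coe_toFullC sigmaFF_apply)
open Fermat.Agent.T3.helper74 (dgF dg0 dg1 dg2 coe_dg0 coe_dg1 coe_dg2 dgF_zero dgF_one dgF_two)
open scoped MatrixGroups

variable {N q : ℕ} [NeZero N] [NeZero q]

/-- the expansion at `∞` of `dgF e y` is `y (t^(q^e))` -/
theorem coe_dgF (e : Fin 3) (y : FF N) :
    ((dgF N q e y : FF (N * q * q)) : LaurentSeries Kb)
      = qExpand Kb (q ^ (e : ℕ)) (y : LaurentSeries Kb) := by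
  rcases Fermat.Agent.T3.helper74.fin3_cases e with rfl | rfl | rfl
  · rw [dgF_zero, coe_dg0]
    show _ = qExpand Kb (q ^ 0) _
    rw [qExpand_congr (pow_zero q) _, qExpand_one_apply]
  · rw [dgF_one, coe_dg1]
    show _ = qExpand Kb (q ^ 1) _
    rw [qExpand_congr (pow_one q) _]
  · rw [dgF_two, coe_dg2]
    show _ = qExpand Kb (q ^ 2) _
    rw [qExpand_qExpand, qExpand_congr (sq q) _]

theorem pow_dvd_qq (e : Fin 3) : q ^ (e : ℕ) ∣ q * q := by
  rw [← sq]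
  exact pow_dvd_pow q (by omega)

/-- **RAW table** for the three degeneracy maps, in `FF` vocabulary. -/
theorem sigmaFF_dgF (e : Fin 3) (g d : SL(2, ℤ)) (a D m : ℕ) [NeZero m] (b : ℤ) (ha : 0 < a)
    (hD : 0 < D)
    (e1 : ((q ^ (e : ℕ) : ℕ) : ℤ) * g 0 0 = d 0 0 * a)
    (e2 : ((q ^ (e : ℕ) : ℕ) : ℤ) * g 0 1 = d 0 0 * b + d 0 1 * D)
    (e3 : g 1 0 = d 1 0 * a) (e4 : g 1 1 = d 1 0 * b + d 1 1 * D)
    (hm : m * D = q * q * a) (u : Kbˣ) (hu : iotaK (u : Kb) = xi (D * N) b) (y : FF N) :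
    sigmaFF (N * q * q) (cosetOf (N * q * q) g) (dgF N q e y) =
      qExpand Kb m (Fermat.Agent.P2.helper94.rot u (sigmaFF N (cosetOf N d) y)) := by
  rw [sigmaFF_apply, sigmaFF_apply]
  refine raw_table_qq (r := q ^ (e : ℕ)) g d a D m b ha hD (pow_dvd_qq e) e1 e2 e3 e4 hm u hu
    (toFullC N y) (toFullC (N * q * q) (dgF N q e y)) ?_
  rw [coe_toFullC, coe_toFullC, coe_dgF]

/-- **the table at every matrix**: Hermite data and the twisted table for `dgF e` at the coset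
of an arbitrary `g`. -/
theorem exists_table (hqN : Nat.Coprime q N) (e : Fin 3) (g : SL(2, ℤ)) :
    ∃ (d : SL(2, ℤ)) (a D m : ℕ) (_ : NeZero m) (b : ℤ) (u : Kbˣ),
      a * D = q ^ (e : ℕ) ∧ a = Nat.gcd (q ^ (e : ℕ)) (g 1 0).natAbs ∧
      m = a * a * q ^ (2 - (e : ℕ)) ∧ m * D = q * q * a ∧ (N : ℤ) ∣ b ∧
      iotaK (u : Kb) = xi (D * N) b ∧ u ^ D = 1 ∧
      ∀ y : FF N, sigmaFF (N * q * q) (cosetOf (N * q * q) g) (dgF N q e y) =
        qExpand Kb m (Fermat.Agent.P2.helper94.rot u (sigmaFF N (cosetOf N d) y)) := by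
  have hcop : Nat.Coprime (q ^ (e : ℕ)) N := Nat.Coprime.pow_left _ hqN
  obtain ⟨d, a, D, b, ha, hD, haD, hgcd, hNb, hpt⟩ :=
    exists_hermite_pt_mod N (q ^ (e : ℕ)) hcop g
  have hq0 : 0 < q := Nat.pos_of_ne_zero (NeZero.ne q)
  have hm0 : a * a * q ^ (2 - (e : ℕ)) ≠ 0 :=
    Nat.mul_ne_zero (Nat.mul_ne_zero ha.ne' ha.ne') (pow_ne_zero _ hq0.ne')
  haveI : NeZero (a * a * q ^ (2 - (e : ℕ))) := ⟨hm0⟩
  have hDN : 0 < D * N := Nat.mul_pos hD (Nat.pos_of_ne_zero (NeZero.ne N))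
  have hmD : a * a * q ^ (2 - (e : ℕ)) * D = q * q * a := by
    have h1 : q ^ (e : ℕ) * q ^ (2 - (e : ℕ)) = q * q := by
      rw [← pow_add, ← sq]
      congr 1
      have := e.2
      omega
    calc a * a * q ^ (2 - (e : ℕ)) * D = (a * D) * q ^ (2 - (e : ℕ)) * a := by ring
      _ = q ^ (e : ℕ) * q ^ (2 - (e : ℕ)) * a := by rw [haD]
      _ = q * q * a := by rw [h1]
  refine ⟨d, a, D, a * a * q ^ (2 - (e : ℕ)), ⟨hm0⟩, b, uK (D * N) hDN b, haD, hgcd, rfl, hmD,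
    hNb, iotaK_uK _ _ _, ?_, fun y => ?_⟩
  · -- `u ^ D = 1`
    apply Units.ext
    apply iotaK.injective
    rw [Units.val_pow_eq_pow_val, map_pow, iotaK_uK, Units.val_one, map_one]
    obtain ⟨k, hk⟩ := hNb
    have hN0 : (N : ℂ) ≠ 0 := by exact_mod_cast NeZero.ne N
    have hD0 : (D : ℂ) ≠ 0 := by exact_mod_cast hD.ne'
    unfold xi
    rw [← Complex.exp_nat_mul, hk]
    have h2 : (D : ℂ) * (2 * (Real.pi : ℂ) * Complex.I * ((N * k : ℤ) : ℂ) / ((D * N : ℕ) : ℂ))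
        = (k : ℂ) * (2 * (Real.pi : ℂ) * Complex.I) := by
      push_cast
      field_simp
    rw [h2]
    exact Complex.exp_int_mul_two_pi_mul_I k
  · rw [sigmaFF_apply, sigmaFF_apply]
    refine sigmaK_cosetOf_scale (M := N * q * q) (r := q ^ (e : ℕ)) g d a D
      (a * a * q ^ (2 - (e : ℕ))) b ha hD ?_ hpt ?_ (toFullC N y)
      (toFullC (N * q * q) (dgF N q e y)) ?_
    · calc a * a * q ^ (2 - (e : ℕ)) * (D * N) = (a * a * q ^ (2 - (e : ℕ)) * D) * N := by ring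
        _ = (q * q * a) * N := by rw [hmD]
        _ = N * q * q * a := by ring
    · intro d₀ hd₀
      obtain ⟨k, hk⟩ := hd₀
      obtain ⟨l, hl⟩ := pow_dvd_qq (q := q) e
      exact ⟨k * l, by rw [hk, mul_assoc (d₀ * k) q q, hl]; ring⟩
    · rw [coe_toFullC, coe_toFullC, coe_dgF]

end Fermat.Agent.T3.helper90

end
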