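import Mathlib
import Fermat.Agent.T3.helper72_TorAll
import Fermat.Agent.T3.helper22_FFB3
import Fermat.Agent.T3.helper98_ResCore

/-!
# T3 (S36), box (2) of helper72 #2697: `hν` (helper94)

The reduction `ν = iota (kA A) B` of the weight-one unit `b₀` of level `N q` lies in
`btAll N A` (the functions of the special fibre of level `N` regular where `j̄` is finite):
it is the reduction at `∞` of `α₂ b₀` (`helper16.IsUnit0.rho3_alpha`), which is `I`-fixed and
regular off the cusps, so [FFB3] (`helper22.ffb3`) and [RES] (`helper98.ord_nonneg_of_red3`)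
apply.
-/

set_option autoImplicit false
set_option synthInstance.maxHeartbeats 400000
set_option linter.unusedSectionVars false
set_option linter.unusedVariables false
set_option linter.style.longLine false
set_option linter.style.haveILetI false

noncomputable section

open HahnSeries IntermediateField AlgebraicCurve ModularCurve
open Fermat.Agent.S18.helper19 Fermat.Agent.P2.helper29 Fermat.Agent.T2.helper36

namespace Fermat.Agent.T3.helper94

open Fermat.Agent.T3.helper49 (Rho3)
open Fermat.Agent.T3.helper98 (regJRing IsRegJ mem_regJRing)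
open Fermat.Agent.T3.helper95 (BtAll mem_BtAll)
open Fermat.Agent.T3.helper16 (IsUnit0)

variable {N q : ℕ} [NeZero N] [NeZero q] {hq : q.Prime} {hqN : ¬ q ∣ N}

/-- **the box `hν`**: the reduction of the weight-one unit is regular where `j̄` is finite. -/
theorem nu_mem_BtAll {b0 : FF (N * q)} {B : PowerSeries ℤ} {ε : ℤ}
    (h : IsUnit0 hq hqN b0 B ε) (A : ValuationSubring Kb) (hA : A.LiesOverPrime q)
    {ζ : Kb} (hζ : IsPrimitiveRoot ζ q) :
    Fermat.Agent.P2.helper66.iota (kA A) B ∈ BtAll N A := by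
  have hρ := h.rho3_alpha A hζ hA
  have hreg : IsRegJ (N * q * q) (heckeAlphaBar Kb (N * q) q b0) :=
    mem_regJRing.mp h.mem_regJ_alpha
  have h0 := Fermat.Agent.T3.helper22.ffb3 hA hρ 0
  exact mem_BtAll.mpr ⟨h0, fun P hP =>
    Fermat.Agent.T3.helper98.ord_nonneg_of_red3 hA hζ hreg hρ.1 hρ.2 0 h0 P hP⟩

/-- the same in the shape of the hypothesis `hν` of `helper72.torBaseAll`. -/
theorem nu_mem_btAll {b0 : FF (N * q)} {B : PowerSeries ℤ} {ε : ℤ}
    (h : IsUnit0 hq hqN b0 B ε) (A : ValuationSubring Kb) (hA : A.LiesOverPrime q)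
    {ζ : Kb} (hζ : IsPrimitiveRoot ζ q) :
    Fermat.Agent.P2.helper66.iota (kA A) B ∈ Fermat.Agent.T3.helper72.btAll N A :=
  nu_mem_BtAll h A hA hζ

/-- existence of a primitive `q`-th root of unity in `ℚ̄` frees the statement of `ζ`. -/
theorem nu_mem_btAll' {b0 : FF (N * q)} {B : PowerSeries ℤ} {ε : ℤ}
    (h : IsUnit0 hq hqN b0 B ε) (A : ValuationSubring Kb) (hA : A.LiesOverPrime q) :
    Fermat.Agent.P2.helper66.iota (kA A) B ∈ Fermat.Agent.T3.helper72.btAll N A := by
  haveI : NeZero ((q : ℕ) : Kb) := ⟨Nat.cast_ne_zero.2 hq.ne_zero⟩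
  obtain ⟨ζ, hζ⟩ := HasEnoughRootsOfUnity.exists_primitiveRoot Kb q
  exact nu_mem_btAll h A hA hζ

end Fermat.Agent.T3.helper94

end
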