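import Mathlib
import Fermat.Agent.T3.helper95_SurjAllInst
import Fermat.Agent.T3.helper49_TorPb

/-!
# Tier 3, [T3-SURJ-ALL] (helper95): the box `surj` of `helper72.OpenBoxes`, UNCONDITIONAL

* `openBoxes_surj` : `helper49.SurjAllStatement N A (helper72.btAll N A)` at good levels
  (`4 ∣ N ∨ 9 ∣ N`, `q ∤ N`, `A` over `q`) = the field `surj` of `helper72.OpenBoxes`, VERBATIM.
* `pb3_good` : `helper72.Pb3Statement N q hq hqN A hζ` at good levels (= `TorBase.pb`).
-/

set_option autoImplicit false
set_option synthInstance.maxHeartbeats 400000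
set_option maxHeartbeats 1000000
set_option linter.style.haveILetI false
set_option linter.unusedSectionVars false
set_option linter.unusedVariables false
set_option linter.style.longLine false

noncomputable section

open Fermat.Agent.S18.helper19 Fermat.Agent.P2.helper29

namespace Fermat.Agent.T3.helper95

variable {N q : ℕ} [NeZero N] {A : ValuationSubring Kb}

/-- **the field `surj` of `helper72.OpenBoxes`, UNCONDITIONAL at good levels.** -/
theorem openBoxes_surj (hq : q.Prime) (hA : A.LiesOverPrime q) (hqN : ¬ q ∣ N)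
    (hN : 4 ∣ N ∨ 9 ∣ N) :
    Fermat.Agent.T3.helper49.SurjAllStatement N A (Fermat.Agent.T3.helper72.btAll N A) :=
  Fermat.Agent.T3.helper49.surjAll_of_level (surjAllStatement_good hq hA hqN hN)

/-- **[PB3] (`TorBase.pb`), UNCONDITIONAL at good levels.** -/
theorem pb3_good [NeZero q] (hq : q.Prime) (hA : A.LiesOverPrime q) (hqN : ¬ q ∣ N)
    (hN : 4 ∣ N ∨ 9 ∣ N) {ζ : Kb} (hζ : IsPrimitiveRoot ζ q) :
    Fermat.Agent.T3.helper72.Pb3Statement N q hq hqN A hζ :=
  Fermat.Agent.T3.helper49.pb3Statement_of_surjAll hq hqN hA hζ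
    (surjAllStatement_good hq hA hqN hN)

end Fermat.Agent.T3.helper95

end
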