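/-
TIER 3 (S36), helper98: **[COVER], the matrix half (h4a)**.

Every coset `I` of level `N q q` lies in the `T`-orbit of the coset of a matrix `g` of one of the
three types (`∞`, `0`, middle with index `k`, `q ∤ k`) whose coset of level `N` is the chosen
representative `crep N c` of its cusp:

`h4a hq hqN I : ∃ c i k w g, ¬ q ∣ k ∧ cosetOf N g = crep N c ∧ IsTy N q i k g ∧
    (permT (N q q) ^ w) (cosetOf (N q q) g) = I`

(= the hypothesis `h4a` of `helper27.coverStatementE_ex3c`, #2825).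
-/
import Mathlib
import Fermat.Agent.T3.helper87_CuspQFam

set_option autoImplicit false
set_option synthInstance.maxHeartbeats 400000
set_option linter.unusedSectionVars false
set_option linter.unusedVariables false
set_option linter.style.haveILetI false
set_option linter.style.longLine false

noncomputable section

open HahnSeries ModularCurve
open Fermat.Agent.S18.helper19
open Fermat.Agent.S28 (IX rep)
open Fermat.Agent.P2.helper28
open Fermat.Agent.T3.helper90 (cosetOf cosetOf_rep)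
open Fermat.Agent.S24.helper37 (det_eq_one')
open scoped MatrixGroups
open CongruenceSubgroup

namespace Fermat.Agent.T3.helper98

open Fermat.Agent.T3.helper87 (Cusp cuspOf crep IsTy)

section CoverMat

variable {N q : ℕ} [NeZero N] [NeZero q]

/-- a `T`-shift by a multiple of `N` does not change the coset of level `N` -/
theorem cosetOf_mul_T_zpow_add (h : SL(2, ℤ)) (z t : ℤ) :
    cosetOf N (h * ModularGroup.T ^ (z + (N : ℤ) * t)) = cosetOf N (h * ModularGroup.T ^ z) := by
  rw [Fermat.Agent.T3.helper87.cosetOf_eq_iff, Fermat.Agent.T3.helper87.mul_T_zpow_one_zero,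
    Fermat.Agent.T3.helper87.mul_T_zpow_one_one, Fermat.Agent.T3.helper87.mul_T_zpow_one_zero,
    Fermat.Agent.T3.helper87.mul_T_zpow_one_one]
  exact ⟨t * (h 1 0) ^ 2, by ring⟩

/-- undoing the shift at the level `N q q` -/
theorem permT_zpow_neg_cosetOf (M : ℕ) (h : SL(2, ℤ)) (z : ℤ) :
    (permT M ^ (-z)) (cosetOf M (h * ModularGroup.T ^ z)) = cosetOf M h := by
  rw [Fermat.Agent.T3.helper87.permT_zpow_cosetOf, mul_assoc, ← zpow_add, add_neg_cancel,
    zpow_zero, mul_one]

/-- **(h4a)**: the classification of the cosets of level `N q q` up to `T`. -/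
theorem h4a (hq : q.Prime) (hqN : ¬ q ∣ N) (I : IX (N * q * q)) :
    ∃ (c : Cusp N) (i : Fin 3) (k w : ℤ) (g : SL(2, ℤ)), ¬ ((q : ℤ) ∣ k) ∧
      cosetOf N g = crep N c ∧ IsTy N q i k g ∧
      (permT (N * q * q) ^ w) (cosetOf (N * q * q) g) = I := by
  have hqp : Prime (q : ℤ) := Nat.prime_iff_prime_int.mp hq
  have hq1 : ¬ (q : ℤ) ∣ 1 := fun h => hqp.not_isUnit (isUnit_of_dvd_one h)
  have hqNz : ¬ (q : ℤ) ∣ (N : ℤ) := fun h => hqN (Int.natCast_dvd_natCast.mp h)
  set h : SL(2, ℤ) := rep (N * q * q) I with hh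
  have hI : cosetOf (N * q * q) h = I := cosetOf_rep I
  -- the shift to the representative of the cusp of level `N`
  obtain ⟨z, hz⟩ := (Fermat.Agent.T3.helper87.mem_orbit_iff_zpow N (cosetOf N h) _).mp
    (Fermat.Agent.T3.helper87.crep_cuspOf_mem N (cosetOf N h))
  rw [Fermat.Agent.T3.helper87.permT_zpow_cosetOf] at hz
  have key : ∀ t : ℤ, cosetOf N (h * ModularGroup.T ^ (z + (N : ℤ) * t))
      = crep N (cuspOf N (cosetOf N h)) := fun t => by
    rw [cosetOf_mul_T_zpow_add, hz]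
  have back : ∀ t : ℤ, (permT (N * q * q) ^ (-(z + (N : ℤ) * t)))
      (cosetOf (N * q * q) (h * ModularGroup.T ^ (z + (N : ℤ) * t))) = I := fun t => by
    rw [permT_zpow_neg_cosetOf, hI]
  by_cases hc : (q : ℤ) ∣ h 1 0
  · by_cases hc2 : ((q : ℤ) * q) ∣ h 1 0
    · -- type `∞`
      refine ⟨_, 0, 1, _, _, hq1, key 0, ?_, back 0⟩
      rw [Fermat.Agent.T3.helper87.isTy_zero_iff,
        Fermat.Agent.T3.helper87.mul_T_zpow_one_zero]
      exact hc2
    · -- middle type
      obtain ⟨c', hc'⟩ := hc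
      have hc'q : ¬ (q : ℤ) ∣ c' := by
        rintro ⟨c'', rfl⟩
        exact hc2 ⟨c'', by rw [hc']; ring⟩
      have hd : ¬ (q : ℤ) ∣ h 1 1 := by
        intro hd
        have hdet := det_eq_one' h
        apply hq1
        rw [← hdet]
        exact dvd_sub (Dvd.dvd.mul_left hd _) (Dvd.dvd.mul_left ⟨c', hc'⟩ _)
      have hcop : IsCoprime (c' * (N : ℤ)) (q : ℤ) := by
        have h1 : IsCoprime (q : ℤ) c' := (Prime.coprime_iff_not_dvd hqp).mpr hc'q
        have h2 : IsCoprime (q : ℤ) (N : ℤ) := (Prime.coprime_iff_not_dvd hqp).mpr hqNz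
        exact (h1.mul_right h2).symm
      obtain ⟨u, v, huv⟩ := hcop
      have hk : ¬ (q : ℤ) ∣ h 1 1 * u := by
        intro hk
        rcases hqp.dvd_or_dvd hk with h1 | h1
        · exact hd h1
        · apply hq1
          rw [← huv]
          exact dvd_add (Dvd.dvd.mul_right h1 _) (Dvd.dvd.mul_left (dvd_refl _) _)
      refine ⟨_, 2, h 1 1 * u, _, _, hk, key 0, ?_, back 0⟩
      rw [Fermat.Agent.T3.helper87.isTy_two_iff, Fermat.Agent.T3.helper87.mul_T_zpow_one_zero,
        Fermat.Agent.T3.helper87.mul_T_zpow_one_one, hc']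
      refine ⟨-(h 1 1 * v) - (z + (N : ℤ) * 0) * c', ?_⟩
      have e1 : u * (c' * (N : ℤ)) = 1 - v * (q : ℤ) := by linarith
      have e2 : (q : ℤ) * c' * ((N : ℤ) * (h 1 1 * u)) = (q : ℤ) * h 1 1 * (u * (c' * (N : ℤ))) := by
        ring
      rw [e2, e1]
      ring
  · -- type `0`
    have hcop : IsCoprime ((N : ℤ) * h 1 0) ((q : ℤ) * q) := by
      have h1 : IsCoprime (q : ℤ) (h 1 0) := (Prime.coprime_iff_not_dvd hqp).mpr hc
      have h2 : IsCoprime (q : ℤ) (N : ℤ) := (Prime.coprime_iff_not_dvd hqp).mpr hqNz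
      have h3 : IsCoprime (q : ℤ) ((N : ℤ) * h 1 0) := h2.mul_right h1
      exact (h3.mul_left h3).symm
    obtain ⟨u, v, huv⟩ := hcop
    refine ⟨_, 1, 1, _, _, hq1, key (-(h 1 1 + z * h 1 0) * u), ?_,
      back (-(h 1 1 + z * h 1 0) * u)⟩
    rw [Fermat.Agent.T3.helper87.isTy_one_iff, Fermat.Agent.T3.helper87.mul_T_zpow_one_one]
    refine ⟨(h 1 1 + z * h 1 0) * v, ?_⟩
    have e1 : u * ((N : ℤ) * h 1 0) = 1 - v * ((q : ℤ) * q) := by linarith
    have e2 : h 1 1 + (z + (N : ℤ) * (-(h 1 1 + z * h 1 0) * u)) * h 1 0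
        = (h 1 1 + z * h 1 0) * (1 - u * ((N : ℤ) * h 1 0)) := by ring
    rw [e2, e1]
    ring

end CoverMat

end Fermat.Agent.T3.helper98

end
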