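/-
TIER 3 (S36), helper98: **the box `root` ([ROOT3-ALL]) at the concrete family `helper87.ex3c`**.

`helper72.Root3AllStatement N q hq hqN A hζ n` (= the field `root` of `helper72.OpenBoxes3`) from
the statements on the family (`root3All_of_ex3c`), and from (COVER) ALONE (`root3All_of_cover`):

* `hκ`     : injectivity of `helper87.kap` (the permutations of the cusps of level `N`);
* `hT`     : `helper74.TableTw A (ENc N) (ex3c N q ζ) ζ (kap N q ζ)` (the twisted dg-table);
* `hG`     : `helper74.GalCompatTw A (·.2) (ex3c N q ζ) ζ` (inertia);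
* `hcover` : `helper27.CoverStatementE A (ex3c N q ζ)` (every pole of `j` is covered).

Everything else is plugged in here, unconditionally:
* `discPack_ex3c`    : `helper23.DiscPack A (ex3c N q ζ)`   ([DISC-ALL], any `A`);
* `xPoleAll_ENc`     : `∃ m₀, helper74.XPoleAll A (ENc N) (regJ (N q q)) m₀`   ([XPOLE-c]);
* `gaussAll_ex3c`    : [GAUSS-ALL] for `ex3c`;
* `root3All_of_ex3c` : the box.
-/
import Mathlib
import Fermat.Agent.T3.helper87_CuspQFam
import Fermat.Agent.T3.helper87_CuspQTab
import Fermat.Agent.T3.helper87_CuspQGal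
import Fermat.Agent.T3.helper74_TorRootTw
import Fermat.Agent.T3.helper96_XPoleGood
import Fermat.Agent.T3.helper20_GaussAll
import Fermat.Agent.T3.helper23_DiscUnsub
import Fermat.Agent.T3.helper72_TorAll

set_option autoImplicit false
set_option synthInstance.maxHeartbeats 400000
set_option maxHeartbeats 1000000
set_option linter.unusedSectionVars false
set_option linter.unusedVariables false
set_option linter.style.haveILetI false
set_option linter.style.longLine false

noncomputable section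

open HahnSeries IntermediateField AlgebraicCurve ModularCurve
open Fermat.Agent.S18.helper19 Fermat.Agent.P2.helper29 Fermat.Agent.T2.helper36

namespace Fermat.Agent.T3.helper98

open Fermat.Agent.T3.helper87 (ex3c ENc kap IQ DQ crep Cusp)
open Fermat.Agent.P2.helper28 Fermat.Agent.S28

section RootAsm

variable {N q : ℕ} [NeZero N] [NeZero q] {hq : q.Prime} {hqN : ¬ q ∣ N}
  {A : ValuationSubring Kb} {ζ : Kb}

/-- **[DISC-ALL]** at the family `ex3c`. -/
theorem discPack_ex3c (A : ValuationSubring Kb) (ζ : Kb) :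
    Fermat.Agent.T3.helper23.DiscPack A (ex3c N q ζ) :=
  Fermat.Agent.T3.helper23.discPack_of_qExpand_sigmaFF (N * q * q) A (ex3c N q ζ) (IQ N q ζ)
    (DQ N q ζ) (fun J => NeZero.ne _)
    (fun J y _ => Fermat.Agent.T3.helper87.qExpand_ex3c ζ J y)

/-- **[GAUSS-ALL]** at the family `ex3c`. -/
theorem gaussAll_ex3c (hA : A.LiesOverPrime q) (hζ : IsPrimitiveRoot ζ q)
    (H : FF (N * q * q)) (hreg : IsRegJ (N * q * q) H)
    (hρ : Fermat.Agent.T3.helper49.Rho3 N q hq hqN A hζ H 1) (J : Cusp N × Fin 3) :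
    ∃ Y : LaurentSeries A, incl A Y = ex3c N q ζ J H ∧ red A Y = 1 :=
  Fermat.Agent.T3.helper20.gaussAll_family (hq := hq) (hqN := hqN) hA hζ (ex3c N q ζ)
    (discPack_ex3c A ζ) hreg hρ.1 hρ.2 J

/-- **[XPOLE-c]** for the local expansions `ENc N` at the cusps of level `N`. -/
theorem xPoleAll_ENc (hq : q.Prime) (hqN : ¬ q ∣ N) (hA : A.LiesOverPrime q)
    (hN : 4 ∣ N ∨ 9 ∣ N) :
    ∃ m₀ : ℕ, Fermat.Agent.T3.helper74.XPoleAll (q := q) A (ENc N) (regJ (N * q * q)) m₀ := by
  refine Fermat.Agent.T3.helper96.xPoleAll_good hq hA hqN hN (crep N)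
    (fun c c' h => Fermat.Agent.T3.helper87.hrep_crep c c' h) (ENc N) ?_ (regJ (N * q * q)) ?_
  · intro c dc hdc hcard y
    have hw := Fermat.Agent.T3.helper87.wd_eq_card N (crep N c)
    have hdw := Fermat.Agent.T3.helper87.dloc_mul_wd N (crep N c)
    have hpos := Fermat.Agent.T3.helper87.wd_pos N (crep N c)
    have hdc' : dc = Fermat.Agent.T3.helper87.dloc N (crep N c) := by
      have h1 : dc * Fermat.Agent.T3.helper87.wd N (crep N c)
          = Fermat.Agent.T3.helper87.dloc N (crep N c)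
            * Fermat.Agent.T3.helper87.wd N (crep N c) := by
        rw [hdw, hw]
        exact hcard
      exact Nat.eq_of_mul_eq_mul_right hpos h1
    subst hdc'
    have h2 := Fermat.Agent.T3.helper87.qExpand_ENc (N := N) c y
    rw [Fermat.Agent.T3.helper23.sigmaFF_apply] at h2
    have h3 : ∀ (z : ↥(modularFunctionFieldFullC Kb N))
        (hz : (z : LaurentSeries Kb) = (y : LaurentSeries Kb)),
        sigmaK N (crep N c) z = sigmaK N (crep N c)
          ⟨(y : LaurentSeries Kb), Fermat.Agent.T3.helper96.mem_fullC_of_mem_FF N y.2⟩ := by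
      rintro ⟨z, hz'⟩ hz
      simp only at hz
      subst hz
      rfl
    rw [← h3 _ (Fermat.Agent.T3.helper23.coe_toFullC N y), h2]
  · intro x hx e
    have hx' : IsRegJ N x := by
      intro P hP
      rw [Fermat.Agent.T3.helper48.jElt_eq_xJ] at hP
      exact hx P hP
    exact mem_regJ.mpr (Fermat.Agent.T3.helper74.isRegJ_dgF hq hqN hx' e)

/-- **the box `root` ([ROOT3-ALL]) at the family `ex3c`**, from the table, the inertia
compatibility and (COVER). -/
theorem root3All_of_ex3c (hA : A.LiesOverPrime q) (hN : 4 ∣ N ∨ 9 ∣ N)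
    (hζ : IsPrimitiveRoot ζ q)
    (hκ : ∀ i e, Function.Injective (kap N q ζ i e))
    (hT : Fermat.Agent.T3.helper74.TableTw A (ENc N) (ex3c N q ζ) ζ (kap N q ζ))
    (hG : Fermat.Agent.T3.helper74.GalCompatTw A (fun p : Cusp N × Fin 3 => p.2)
      (ex3c N q ζ) ζ)
    (hcover : Fermat.Agent.T3.helper27.CoverStatementE A (ex3c N q ζ))
    (n : ℕ) (hn : ¬ q ∣ n) :
    Fermat.Agent.T3.helper72.Root3AllStatement N q hq hqN A hζ n := by
  obtain ⟨m₀, hX⟩ := xPoleAll_ENc (A := A) hq hqN hA hN
  exact Fermat.Agent.T3.helper27.torRoot_all N q hq hqN A hA hζ (ex3c N q ζ)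
    (fun p : Cusp N × Fin 3 => Fermat.Agent.T3.helper74.wt3 q p.2)
    (fun p => Fermat.Agent.T3.helper74.wt3_pos (q := q) p.2) (discPack_ex3c A ζ)
    (Fermat.Agent.T3.helper74.fixStatementE_tw hG) hcover
    (Fermat.Agent.T3.helper74.lev3 q m₀ : ℤ)
    (Fermat.Agent.T3.helper74.satStatementE_of_table hq hA hζ hκ hT (regJ (N * q * q)) hX
      (Fermat.Agent.T3.helper87.constCompatTw_ex3c ζ) hG)
    (fun H hreg hρ J => gaussAll_ex3c hA hζ H hreg hρ J) n hn

/-- **the box `root` ([ROOT3-ALL]) from (COVER) alone**: table, injectivity of `kap` and the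
inertia compatibility of `helper87` plugged in. -/
theorem root3All_of_cover (hA : A.LiesOverPrime q) (hN : 4 ∣ N ∨ 9 ∣ N)
    (hζ : IsPrimitiveRoot ζ q)
    (hcover : Fermat.Agent.T3.helper27.CoverStatementE A (ex3c N q ζ))
    (n : ℕ) (hn : ¬ q ∣ n) :
    Fermat.Agent.T3.helper72.Root3AllStatement N q hq hqN A hζ n :=
  root3All_of_ex3c hA hN hζ (fun i e => Fermat.Agent.T3.helper87.kap_injective hq hqN hζ i e)
    (Fermat.Agent.T3.helper87.tableTw_ex3c hq hqN A hA hζ)
    (Fermat.Agent.T3.helper87.galCompatTw_ex3c hq hqN A hA hζ) hcover n hn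

end RootAsm

end Fermat.Agent.T3.helper98

end
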